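/-
M18 (S18 project: injectivity of reduction mod l on prime-to-l torsion of J0(N)).
Shared interface definitions, owner helper5 (architect).  Prefix `m18_`.

Everything here is stated for general fields `K ⊆ F`, a valuation subring `A` of `K`
with residue field `k = IsLocalRing.ResidueField A`, a field `Fk ⊇ k`, and a map
`r : Place K F → Place k Fk` ("specialisation of places").

* `m18_Gauss A r`   : package (V): a valuation subring `O` of `F` (the Gauss valuation), its
                      reduction map `red : O →+* Fk`, and the local principle (H-loc).
* `m18_Riem K F g`  : Riemann's inequality in the form "degree at least `g` implies effective".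
* `m18_Coord G Q t` : `t` is a coordinate at `Q` (no poles in the tube of `Q`, reduction of
                      order one at `Q`).
* `m18_NSC G g`     : `g` distinct places with coordinates whose sum is non-special, and one more
                      place in the image of `r`.
* `m18_Core r m`    : the conclusion of the core theorem (II).
-/
import Mathlib
import Fermat.Prelude.Def_AlgebraicCurve_Repartitions

set_option autoImplicit false
set_option linter.deprecated false
set_option linter.unusedSectionVars false
set_option linter.unusedVariables false
set_option linter.style.haveILetI false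

noncomputable section

namespace Fermat.Agent.M18

open AlgebraicCurve

section general

variable {K F Fk : Type*} [Field K] [Field F] [Algebra K F] (A : ValuationSubring K)
  [Field Fk] [Algebra (IsLocalRing.ResidueField A) Fk]

/-- Package (V): the Gauss valuation of `F` attached to the specialisation map `r`.

* `O` is the valuation subring `{x | |x| ≤ 1}` of `F`, `red` its reduction map to `Fk`;
* `isUnit_of_red_ne_zero`: the kernel of `red` is the maximal ideal of `O`;
* `const_mem`, `red_const`: on constants, `O ∩ K ⊇ A` and `red` is the residue map of `A`;
* `scale`: the value group of `O` is the one of `A` (every `x ≠ 0` is a constant times a unit);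
* `hloc` (H-loc): for `|x| = 1`, the push-forward by `r` of the divisor of `x` is the divisor of
  `red x`. -/
structure m18_Gauss (r : Place K F → Place (IsLocalRing.ResidueField A) Fk) where
  O : ValuationSubring F
  red : O →+* Fk
  isUnit_of_red_ne_zero : ∀ x : O, red x ≠ 0 → IsUnit x
  const_mem : ∀ a : A, algebraMap K F (a : K) ∈ O
  red_const : ∀ a : A, red ⟨algebraMap K F (a : K), const_mem a⟩
    = algebraMap (IsLocalRing.ResidueField A) Fk (IsLocalRing.residue A a)
  scale : ∀ x : F, x ≠ 0 → ∃ c : K, c ≠ 0 ∧
    ∃ hx : algebraMap K F c * x ∈ O, red ⟨algebraMap K F c * x, hx⟩ ≠ 0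
  hloc : ∀ x : O, red x ≠ 0 → ∀ D : Divisor K F, (∀ P, D P = P.ord (x : F)) →
    ∀ Q, Finsupp.mapDomain r D Q = Q.ord (red x)

variable {A}

/-- `t` is a coordinate at the place `Q` of `Fk`: it is Gauss-integral, has no pole at any place
of `F` specialising to `Q`, and its reduction has order one at `Q`. -/
def m18_Coord {r : Place K F → Place (IsLocalRing.ResidueField A) Fk} (G : m18_Gauss A r)
    (Q : Place (IsLocalRing.ResidueField A) Fk) (t : G.O) : Prop :=
  (∀ P, r P = Q → 0 ≤ P.ord (t : F)) ∧ Q.ord (G.red t) = 1

/-- `g` distinct places of `Fk` with coordinates, whose sum is non-special (its Riemann–Roch space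
consists of constants), together with a place of `F` specialising outside of them. -/
def m18_NSC {r : Place K F → Place (IsLocalRing.ResidueField A) Fk} (G : m18_Gauss A r)
    (g : ℕ) : Prop :=
  ∃ (Q : Fin g → Place (IsLocalRing.ResidueField A) Fk) (t : Fin g → G.O) (Pstar : Place K F),
    Function.Injective Q ∧ (∀ i, r Pstar ≠ Q i) ∧ (∀ i, m18_Coord G (Q i) (t i)) ∧
    ∀ φ ∈ riemannRochSpace (∑ i, Finsupp.single (Q i) (1 : ℤ)),
      ∃ c : IsLocalRing.ResidueField A, φ = algebraMap (IsLocalRing.ResidueField A) Fk c

end general

section riemann

variable (K F : Type*) [Field K] [Field F] [Algebra K F]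

/-- Riemann's inequality, in the form: a divisor of degree at least `g` is linearly equivalent to
an effective one. -/
def m18_Riem (g : ℕ) : Prop :=
  ∀ E : Divisor K F, (g : ℤ) ≤ Divisor.degree E →
    ∃ f : F, f ≠ 0 ∧ f ∈ riemannRochSpace E

/-- The places of `F` have a value map to `K` (residue field `K`). -/
def m18_HasValues : Prop :=
  ∀ (P : Place K F) (x : F), 0 ≤ P.ord x →
    ∃ b : K, x = algebraMap K F b ∨ 0 < P.ord (x - algebraMap K F b)

end riemann

section core

variable {K F k Fk : Type*} [Field K] [Field F] [Algebra K F] [Field k] [Field Fk] [Algebra k Fk]

/-- The conclusion of the core theorem (II): a divisor of degree `0` on `F`, `m` times which is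
principal and whose specialisation is principal, is principal. -/
def m18_Core (r : Place K F → Place k Fk) (m : ℕ) : Prop :=
  ∀ D : Divisor K F, Divisor.degree D = 0 →
    Divisor.IsPrincipal (m • D) → Divisor.IsPrincipal (Finsupp.mapDomain r D) →
    Divisor.IsPrincipal D

end core

end Fermat.Agent.M18

end
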