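/-
M18 (S18 project), leaf (II) = core theorem, part 1: basic facts, owner helper5.  Prefix `m18c_`.

* valuations and orders at places (constants, ultrametric inequalities);
* fibre sums of `Finsupp.mapDomain`;
* the constant embedding `A →+* G.O` of a Gauss package.
-/
import Mathlib
import Fermat.Prelude.Def_AlgebraicCurve_Repartitions
import Fermat.Agent.M18.Defs

set_option autoImplicit false
set_option linter.deprecated false
set_option linter.unusedSectionVars false
set_option linter.unusedVariables false
set_option linter.style.haveILetI false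

noncomputable section

namespace Fermat.Agent.M18

open AlgebraicCurve WithZero

section place

variable {K F : Type*} [Field K] [Field F] [Algebra K F] (v : Place K F)

theorem m18c_val_const {a : K} (ha : a ≠ 0) : v.adicValuation (algebraMap K F a) = 1 := by
  have h1 := v.adicValuation_algebraMap_le_one a
  have h2 := v.adicValuation_algebraMap_le_one a⁻¹
  have h3 : v.adicValuation (algebraMap K F a) * v.adicValuation (algebraMap K F a⁻¹) = 1 := by
    rw [← map_mul, ← map_mul, mul_inv_cancel₀ ha, map_one, map_one]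
  refine le_antisymm h1 ?_
  by_contra hlt
  rw [not_le] at hlt
  have h4 : v.adicValuation (algebraMap K F a) * v.adicValuation (algebraMap K F a⁻¹) < 1 := by
    calc v.adicValuation (algebraMap K F a) * v.adicValuation (algebraMap K F a⁻¹)
        ≤ v.adicValuation (algebraMap K F a) * 1 := by gcongr
      _ = v.adicValuation (algebraMap K F a) := mul_one _
      _ < 1 := hlt
  rw [h3] at h4
  exact lt_irrefl _ h4

theorem m18c_val_eq_exp {x : F} (hx : x ≠ 0) : v.adicValuation x = exp (-v.ord x) :=
  v.adicValuation_eq_exp_neg_ord hx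

theorem m18c_ord_const (a : K) : v.ord (algebraMap K F a) = 0 := by
  rcases eq_or_ne a 0 with rfl | ha
  · simp
  · have h := m18c_val_const v ha
    unfold Place.ord
    rw [h]
    simp

theorem m18c_ord_nonneg_iff {x : F} : 0 ≤ v.ord x ↔ v.adicValuation x ≤ 1 := by
  rw [v.adicValuation_le_one_iff]
  constructor
  · exact fun h => Or.inr h
  · rintro (rfl | h)
    · simp
    · exact h

theorem m18c_val_lt_one_iff {x : F} : v.adicValuation x < 1 ↔ x = 0 ∨ 0 < v.ord x := by
  rcases eq_or_ne x 0 with rfl | hx
  · simp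
  · rw [m18c_val_eq_exp v hx, ← exp_zero, exp_lt_exp]
    constructor
    · intro h
      exact Or.inr (by omega)
    · rintro (h | h)
      · exact absurd h hx
      · omega

theorem m18c_ord_pos_iff {x : F} : 0 < v.ord x ↔ x ≠ 0 ∧ v.adicValuation x < 1 := by
  constructor
  · intro h
    have hx : x ≠ 0 := by
      rintro rfl
      simp at h
    exact ⟨hx, (m18c_val_lt_one_iff v).2 (Or.inr h)⟩
  · rintro ⟨hx, h⟩
    exact ((m18c_val_lt_one_iff v).1 h).resolve_left hx

theorem m18c_val_eq_one_iff {x : F} (hx : x ≠ 0) : v.adicValuation x = 1 ↔ v.ord x = 0 := by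
  rw [m18c_val_eq_exp v hx, ← exp_zero, exp_injective.eq_iff]
  omega

theorem m18c_ord_const_mul {a : K} (ha : a ≠ 0) (x : F) :
    v.ord (algebraMap K F a * x) = v.ord x := by
  rcases eq_or_ne x 0 with rfl | hx
  · simp
  · have ha' : algebraMap K F a ≠ 0 := by
      simpa using ha
    rw [v.ord_mul ha' hx, m18c_ord_const, zero_add]

theorem m18c_val_const_mul {a : K} (ha : a ≠ 0) (x : F) :
    v.adicValuation (algebraMap K F a * x) = v.adicValuation x := by
  rw [map_mul, m18c_val_const v ha, one_mul]

theorem m18c_val_const_le (a : K) : v.adicValuation (algebraMap K F a) ≤ 1 :=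
  v.adicValuation_algebraMap_le_one a

/-- `ord (x⁻¹ * y)`. -/
theorem m18c_ord_div {x y : F} (hx : x ≠ 0) (hy : y ≠ 0) :
    v.ord (y / x) = v.ord y - v.ord x := by
  rw [div_eq_mul_inv, v.ord_mul hy (inv_ne_zero hx), v.ord_inv]
  ring

theorem m18c_ord_pow (x : F) (n : ℕ) : v.ord (x ^ n) = n * v.ord x := by
  have := v.ord_zpow x n
  simpa using this

end place

section fibre

open scoped Classical

variable {α β : Type*}

/-- fibre sums of `mapDomain`. -/
theorem m18c_mapDomain_apply (r : α → β) (D : α →₀ ℤ) (Q : β) :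
    Finsupp.mapDomain r D Q
      = ∑ P ∈ D.support, if r P = Q then D P else 0 := by
  classical
  rw [Finsupp.mapDomain, Finsupp.sum, Finsupp.finset_sum_apply]
  refine Finset.sum_congr rfl fun P _ => ?_
  rw [Finsupp.single_apply]

theorem m18c_mapDomain_nonneg (r : α → β) (D : α →₀ ℤ) (hD : ∀ P, 0 ≤ D P) (Q : β) :
    0 ≤ Finsupp.mapDomain r D Q := by
  rw [m18c_mapDomain_apply]
  refine Finset.sum_nonneg fun P _ => ?_
  split_ifs
  · exact hD P
  · exact le_rfl

/-- If all the values of `D` on the fibre of `Q` are nonnegative, each one is bounded by the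
value of the push-forward at `Q`. -/
theorem m18c_le_mapDomain (r : α → β) (D : α →₀ ℤ) (Q : β)
    (hD : ∀ P, r P = Q → 0 ≤ D P) (P : α) (hP : r P = Q) :
    D P ≤ Finsupp.mapDomain r D Q := by
  classical
  rw [m18c_mapDomain_apply]
  have hnn : ∀ P' ∈ D.support, 0 ≤ (if r P' = Q then D P' else 0) := by
    intro P' _
    split_ifs with h
    · exact hD P' h
    · exact le_rfl
  by_cases hPs : P ∈ D.support
  · have := Finset.single_le_sum hnn hPs
    rwa [if_pos hP] at this
  · rw [Finsupp.notMem_support_iff.1 hPs]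
    exact Finset.sum_nonneg hnn

/-- If the push-forward has value `1` at `Q`, the values on the fibre are nonnegative and one of
them is positive, then this one is `1` and the others vanish. -/
theorem m18c_fibre_one (r : α → β) (D : α →₀ ℤ) (Q : β)
    (hD : ∀ P, r P = Q → 0 ≤ D P) (h1 : Finsupp.mapDomain r D Q = 1)
    (P₀ : α) (hP₀ : r P₀ = Q) (hpos : 0 < D P₀) :
    D P₀ = 1 ∧ ∀ P, r P = Q → P ≠ P₀ → D P = 0 := by
  classical
  have hle := m18c_le_mapDomain r D Q hD P₀ hP₀
  rw [h1] at hle
  have hP₀1 : D P₀ = 1 := by omega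
  refine ⟨hP₀1, fun P hP hne => ?_⟩
  by_contra hP0
  have hPpos : 0 < D P := lt_of_le_of_ne (hD P hP) (Ne.symm hP0)
  -- the sum over the support contains both `P₀` and `P`
  rw [m18c_mapDomain_apply] at h1
  have hnn : ∀ P' ∈ D.support, 0 ≤ (if r P' = Q then D P' else 0) := by
    intro P' _
    split_ifs with h
    · exact hD P' h
    · exact le_rfl
  have hPs : P ∈ D.support := Finsupp.mem_support_iff.2 hP0
  have hP₀s : P₀ ∈ D.support := Finsupp.mem_support_iff.2 (by omega)
  have hsub : ({P₀, P} : Finset α) ⊆ D.support := by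
    intro x hx
    rw [Finset.mem_insert, Finset.mem_singleton] at hx
    rcases hx with rfl | rfl
    · exact hP₀s
    · exact hPs
  have h2 := Finset.sum_le_sum_of_subset_of_nonneg hsub (fun x hx _ => hnn x hx)
  rw [h1, Finset.sum_pair (Ne.symm hne), if_pos hP₀, if_pos hP] at h2
  omega

/-- If the push-forward has positive value at `Q`, some value on the fibre is positive. -/
theorem m18c_fibre_pos (r : α → β) (D : α →₀ ℤ) (Q : β)
    (hpos : 0 < Finsupp.mapDomain r D Q) : ∃ P, r P = Q ∧ 0 < D P := by
  classical
  rw [m18c_mapDomain_apply] at hpos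
  obtain ⟨P, -, hP⟩ := Finset.exists_lt_of_sum_lt (s := D.support)
    (f := fun _ => (0 : ℤ)) (by simpa using hpos)
  by_cases h : r P = Q
  · rw [if_pos h] at hP
    exact ⟨P, h, hP⟩
  · rw [if_neg h] at hP
    exact absurd hP (lt_irrefl _)

/-- If the push-forward vanishes at `Q` and the values on the fibre are nonnegative, they
vanish. -/
theorem m18c_fibre_zero (r : α → β) (D : α →₀ ℤ) (Q : β)
    (hD : ∀ P, r P = Q → 0 ≤ D P) (h0 : Finsupp.mapDomain r D Q = 0)
    (P : α) (hP : r P = Q) : D P = 0 := by
  have := m18c_le_mapDomain r D Q hD P hP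
  have := hD P hP
  omega

end fibre

section gauss

variable {K F Fk : Type*} [Field K] [Field F] [Algebra K F] {A : ValuationSubring K}
  [Field Fk] [Algebra (IsLocalRing.ResidueField A) Fk]
  {r : Place K F → Place (IsLocalRing.ResidueField A) Fk} (G : m18_Gauss A r)

/-- the constants of `A`, as elements of the Gauss ring. -/
def m18c_const : A →+* G.O :=
  ((algebraMap K F).comp A.subtype).codRestrict G.O fun a => G.const_mem a

@[simp]
theorem m18c_const_coe (a : A) : ((m18c_const G a : G.O) : F) = algebraMap K F (a : K) := rfl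

theorem m18c_red_const (a : A) :
    G.red (m18c_const G a) = algebraMap (IsLocalRing.ResidueField A) Fk (IsLocalRing.residue A a) :=
  G.red_const a

theorem m18c_red_const_of_res_eq_zero {a : A} (ha : IsLocalRing.residue A a = 0) :
    G.red (m18c_const G a) = 0 := by
  rw [m18c_red_const, ha, map_zero]

theorem m18c_ne_zero_of_red_ne_zero {x : G.O} (hx : G.red x ≠ 0) : (x : F) ≠ 0 := by
  intro h
  apply hx
  have : x = 0 := Subtype.ext h
  rw [this, map_zero]

/-- A constant lying in the Gauss ring lies in `A`. -/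
theorem m18c_mem_of_const_mem {b : K} (hb : algebraMap K F b ∈ G.O) : b ∈ A := by
  by_contra hbA
  have hinv : b⁻¹ ∈ A := (A.mem_or_inv_mem b).resolve_left hbA
  have hb0 : b ≠ 0 := by
    rintro rfl
    exact hbA A.zero_mem
  -- `b⁻¹` is not a unit of `A`
  have hnu : ¬ IsUnit (⟨b⁻¹, hinv⟩ : A) := by
    intro hu
    obtain ⟨c, hc⟩ := hu.exists_right_inv
    apply hbA
    have h1 : b⁻¹ * (c : K) = 1 := by
      have := congrArg Subtype.val hc
      simpa using this
    have h2 : (c : K) = b := by
      field_simp at h1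
      exact h1
    rw [← h2]
    exact c.2
  have hres : IsLocalRing.residue A ⟨b⁻¹, hinv⟩ = 0 := by
    rw [IsLocalRing.residue_eq_zero_iff]
    exact (IsLocalRing.mem_maximalIdeal _).2 hnu
  have hred := m18c_red_const_of_res_eq_zero G hres
  have hone : m18c_const G ⟨b⁻¹, hinv⟩ * ⟨algebraMap K F b, hb⟩ = 1 := by
    apply Subtype.ext
    show algebraMap K F b⁻¹ * algebraMap K F b = 1
    rw [← map_mul, inv_mul_cancel₀ hb0, map_one]
  have := congrArg G.red hone
  rw [map_mul, hred, zero_mul, map_one] at this
  exact zero_ne_one this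

end gauss

end Fermat.Agent.M18

end
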