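/-
M18 (S18 project), leaf (II) = core theorem, part 2: tubes, owner helper5.  Prefix `m18c_`.

For a Gauss package `G : m18_Gauss A r` and a place `Q` of `Fk`, the tube of `Q` is the set of
places `P` of `F` with `r P = Q`.  From (H-loc):

* `m18c_tube_le`, `m18c_tube_nonneg`, `m18c_tube_one`, `m18c_tube_pos`: zeros in the tube of a
  Gauss unit without poles in the tube;
* `m18c_eval`: evaluation commutes with reduction;
* `m18c_coord_value`, `m18c_coord_sub`, `m18c_coord_zero`: values of a coordinate on the tube.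
-/
import Mathlib
import Fermat.Prelude.Def_AlgebraicCurve_Repartitions
import Fermat.Agent.M18.Defs
import Fermat.Agent.M18.CoreBasic

set_option autoImplicit false
set_option linter.deprecated false
set_option linter.unusedSectionVars false
set_option linter.unusedVariables false
set_option linter.style.haveILetI false

noncomputable section

namespace Fermat.Agent.M18

open AlgebraicCurve WithZero

section tube

variable {K F Fk : Type*} [Field K] [Field F] [Algebra K F] {A : ValuationSubring K}
  [Field Fk] [Algebra (IsLocalRing.ResidueField A) Fk]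
  {r : Place K F → Place (IsLocalRing.ResidueField A) Fk} (G : m18_Gauss A r)

theorem m18c_tube_le (hprin : HasPrincipalDivisors K F) (x : G.O) (hx : G.red x ≠ 0)
    (Q : Place (IsLocalRing.ResidueField A) Fk)
    (hreg : ∀ P, r P = Q → 0 ≤ P.ord (x : F)) (P : Place K F) (hP : r P = Q) :
    P.ord (x : F) ≤ Q.ord (G.red x) := by
  obtain ⟨D, hD, -⟩ := hprin.exists_divisor (x : F) (m18c_ne_zero_of_red_ne_zero G hx)
  have h := G.hloc x hx D hD Q
  rw [← h, ← hD P]
  exact m18c_le_mapDomain r D Q (fun P' hP' => by rw [hD]; exact hreg P' hP') P hP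

theorem m18c_tube_nonneg (hprin : HasPrincipalDivisors K F) (x : G.O) (hx : G.red x ≠ 0)
    (Q : Place (IsLocalRing.ResidueField A) Fk)
    (hreg : ∀ P, r P = Q → 0 ≤ P.ord (x : F)) :
    0 ≤ Q.ord (G.red x) := by
  classical
  obtain ⟨D, hD, -⟩ := hprin.exists_divisor (x : F) (m18c_ne_zero_of_red_ne_zero G hx)
  have h := G.hloc x hx D hD Q
  rw [← h, m18c_mapDomain_apply]
  refine Finset.sum_nonneg fun P _ => ?_
  split_ifs with hP
  · rw [hD]
    exact hreg P hP
  · exact le_rfl

theorem m18c_tube_one (hprin : HasPrincipalDivisors K F) (x : G.O) (hx : G.red x ≠ 0)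
    (Q : Place (IsLocalRing.ResidueField A) Fk)
    (hreg : ∀ P, r P = Q → 0 ≤ P.ord (x : F)) (h1 : Q.ord (G.red x) = 1)
    (P₀ : Place K F) (hP₀ : r P₀ = Q) (hpos : 0 < P₀.ord (x : F)) :
    P₀.ord (x : F) = 1 ∧ ∀ P, r P = Q → P ≠ P₀ → P.ord (x : F) = 0 := by
  obtain ⟨D, hD, -⟩ := hprin.exists_divisor (x : F) (m18c_ne_zero_of_red_ne_zero G hx)
  have h := G.hloc x hx D hD Q
  rw [h1] at h
  have := m18c_fibre_one r D Q (fun P' hP' => by rw [hD]; exact hreg P' hP') h P₀ hP₀
    (by rw [hD]; exact hpos)
  simp only [hD] at this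
  exact this

theorem m18c_tube_pos (hprin : HasPrincipalDivisors K F) (x : G.O) (hx : G.red x ≠ 0)
    (Q : Place (IsLocalRing.ResidueField A) Fk) (hpos : 0 < Q.ord (G.red x)) :
    ∃ P, r P = Q ∧ 0 < P.ord (x : F) := by
  obtain ⟨D, hD, -⟩ := hprin.exists_divisor (x : F) (m18c_ne_zero_of_red_ne_zero G hx)
  have h := G.hloc x hx D hD Q
  rw [← h] at hpos
  obtain ⟨P, hP, hP'⟩ := m18c_fibre_pos r D Q hpos
  exact ⟨P, hP, by rwa [hD] at hP'⟩

/-- Evaluation commutes with reduction: if `x` has no poles in the tube of `Q` and takes the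
value `b` at a place `P` of the tube, then `b ∈ A` and `red x` takes the value `res b` at `Q`. -/
theorem m18c_eval (hprin : HasPrincipalDivisors K F) (x : G.O)
    (Q : Place (IsLocalRing.ResidueField A) Fk)
    (hreg : ∀ P, r P = Q → 0 ≤ P.ord (x : F)) (P : Place K F) (hP : r P = Q) (b : K)
    (hb : (x : F) = algebraMap K F b ∨ 0 < P.ord ((x : F) - algebraMap K F b)) :
    ∃ hbA : b ∈ A,
      G.red x = algebraMap (IsLocalRing.ResidueField A) Fk (IsLocalRing.residue A ⟨b, hbA⟩) ∨
      0 < Q.ord (G.red x
        - algebraMap (IsLocalRing.ResidueField A) Fk (IsLocalRing.residue A ⟨b, hbA⟩)) := by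
  rcases hb with hb | hb
  · have hbO : algebraMap K F b ∈ G.O := hb ▸ x.2
    have hbA := m18c_mem_of_const_mem G hbO
    refine ⟨hbA, Or.inl ?_⟩
    have : x = m18c_const G ⟨b, hbA⟩ := Subtype.ext hb
    rw [this, m18c_red_const]
  · by_cases hbA : b ∈ A
    · refine ⟨hbA, ?_⟩
      set y : G.O := x - m18c_const G ⟨b, hbA⟩ with hy
      have hycoe : (y : F) = (x : F) - algebraMap K F b := rfl
      have hyred : G.red y = G.red x
          - algebraMap (IsLocalRing.ResidueField A) Fk (IsLocalRing.residue A ⟨b, hbA⟩) := by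
        rw [hy, map_sub, m18c_red_const]
      by_cases hy0 : G.red y = 0
      · left
        rw [hyred, sub_eq_zero] at hy0
        exact hy0
      · right
        rw [← hyred]
        have hregy : ∀ P', r P' = Q → 0 ≤ P'.ord (y : F) := by
          intro P' hP'
          rw [m18c_ord_nonneg_iff, hycoe]
          exact Valuation.map_sub_le _ ((m18c_ord_nonneg_iff P').1 (hreg P' hP'))
            (m18c_val_const_le P' b)
        have := m18c_tube_le G hprin y hy0 Q hregy P hP
        rw [hycoe] at this
        exact lt_of_lt_of_le hb this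
    · exfalso
      have hinv : b⁻¹ ∈ A := (A.mem_or_inv_mem b).resolve_left hbA
      have hb0 : b ≠ 0 := by
        rintro rfl
        exact hbA A.zero_mem
      have hnu : ¬ IsUnit (⟨b⁻¹, hinv⟩ : A) := by
        intro hu
        obtain ⟨c, hc⟩ := hu.exists_right_inv
        apply hbA
        have h1 : b⁻¹ * (c : K) = 1 := by
          have := congrArg Subtype.val hc
          simpa using this
        have h2 : (c : K) = b := by
          field_simp at h1
          exact h1
        rw [← h2]
        exact c.2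
      have hres : IsLocalRing.residue A ⟨b⁻¹, hinv⟩ = 0 := by
        rw [IsLocalRing.residue_eq_zero_iff]
        exact (IsLocalRing.mem_maximalIdeal _).2 hnu
      set y : G.O := 1 - m18c_const G ⟨b⁻¹, hinv⟩ * x with hy
      have hycoe : (y : F) = 1 - algebraMap K F b⁻¹ * (x : F) := rfl
      have hyred : G.red y = 1 := by
        rw [hy, map_sub, map_mul, m18c_red_const_of_res_eq_zero G hres, zero_mul, map_one,
          sub_zero]
      have hy0 : G.red y ≠ 0 := by
        rw [hyred]
        exact one_ne_zero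
      have hregy : ∀ P', r P' = Q → 0 ≤ P'.ord (y : F) := by
        intro P' hP'
        rw [m18c_ord_nonneg_iff, hycoe]
        refine Valuation.map_sub_le _ (by rw [map_one]) ?_
        rw [map_mul]
        exact mul_le_one' (m18c_val_const_le P' b⁻¹) ((m18c_ord_nonneg_iff P').1 (hreg P' hP'))
      have h1 := m18c_tube_le G hprin y hy0 Q hregy P hP
      rw [hyred, Place.ord_one] at h1
      have h2 : (y : F) = algebraMap K F (-b⁻¹) * ((x : F) - algebraMap K F b) := by
        rw [hycoe, map_neg, map_inv₀]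
        have : algebraMap K F b ≠ 0 := by simpa using hb0
        field_simp
        ring
      rw [h2, m18c_ord_const_mul P (neg_ne_zero.2 (inv_ne_zero hb0))] at h1
      omega

/-- A coordinate is a Gauss unit. -/
theorem m18c_coord_red_ne_zero {Q : Place (IsLocalRing.ResidueField A) Fk} {t : G.O}
    (ht : m18_Coord G Q t) : G.red t ≠ 0 := by
  intro h
  have := ht.2
  rw [h, Place.ord_zero] at this
  exact zero_ne_one this

/-- Translating a coordinate by a constant of the maximal ideal gives a coordinate. -/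
theorem m18c_coord_sub {Q : Place (IsLocalRing.ResidueField A) Fk} {t : G.O}
    (ht : m18_Coord G Q t) {a : A} (ha : IsLocalRing.residue A a = 0) :
    m18_Coord G Q (t - m18c_const G a) := by
  refine ⟨fun P hP => ?_, ?_⟩
  · rw [m18c_ord_nonneg_iff]
    exact Valuation.map_sub_le _ ((m18c_ord_nonneg_iff P).1 (ht.1 P hP)) (m18c_val_const_le P _)
  · rw [map_sub, m18c_red_const_of_res_eq_zero G ha, sub_zero]
    exact ht.2

/-- The values of a coordinate on the tube lie in the maximal ideal of `A`. -/
theorem m18c_coord_value (hprin : HasPrincipalDivisors K F) (hval : m18_HasValues K F)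
    {Q : Place (IsLocalRing.ResidueField A) Fk} {t : G.O} (ht : m18_Coord G Q t)
    (P : Place K F) (hP : r P = Q) :
    ∃ a : A, IsLocalRing.residue A a = 0 ∧ 0 < P.ord ((t : F) - algebraMap K F (a : K)) := by
  obtain ⟨b, hb⟩ := hval P (t : F) (ht.1 P hP)
  obtain ⟨hbA, h⟩ := m18c_eval G hprin t Q ht.1 P hP b hb
  have hQ1 : Q.adicValuation (G.red t) < 1 :=
    (m18c_val_lt_one_iff Q).2 (Or.inr (by rw [ht.2]; exact one_pos))
  have hconst : ∀ c : IsLocalRing.ResidueField A,
      G.red t ≠ algebraMap (IsLocalRing.ResidueField A) Fk c := by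
    intro c hc
    have := ht.2
    rw [hc, m18c_ord_const] at this
    exact zero_ne_one this
  rcases h with h | h
  · exact absurd h (hconst _)
  · have hres : IsLocalRing.residue A ⟨b, hbA⟩ = 0 := by
      by_contra hne
      have h1 : Q.adicValuation (G.red t
          - algebraMap (IsLocalRing.ResidueField A) Fk (IsLocalRing.residue A ⟨b, hbA⟩)) = 1 := by
        rw [Valuation.map_sub_eq_of_lt_right, m18c_val_const Q hne]
        rw [m18c_val_const Q hne]
        exact hQ1
      have h2 := (m18c_ord_pos_iff Q).1 h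
      rw [h1] at h2
      exact lt_irrefl _ h2.2
    refine ⟨⟨b, hbA⟩, hres, ?_⟩
    rcases hb with hb | hb
    · exfalso
      apply hconst (IsLocalRing.residue A ⟨b, hbA⟩)
      have : t = m18c_const G ⟨b, hbA⟩ := Subtype.ext hb
      rw [this, m18c_red_const]
    · exact hb

/-- The zero of a coordinate in the tube. -/
theorem m18c_coord_zero (hprin : HasPrincipalDivisors K F)
    {Q : Place (IsLocalRing.ResidueField A) Fk} {t : G.O} (ht : m18_Coord G Q t) :
    ∃ P₀, r P₀ = Q ∧ P₀.ord (t : F) = 1 ∧ ∀ P, r P = Q → P ≠ P₀ → P.ord (t : F) = 0 := by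
  have hne := m18c_coord_red_ne_zero G ht
  obtain ⟨P₀, hP₀, hpos⟩ := m18c_tube_pos G hprin t hne Q (by rw [ht.2]; exact one_pos)
  obtain ⟨h1, h2⟩ := m18c_tube_one G hprin t hne Q ht.1 ht.2 P₀ hP₀ hpos
  exact ⟨P₀, hP₀, h1, h2⟩

/-- The orders of `t - a` on the tube, where `a` is the value of the coordinate `t` at `P₁`. -/
theorem m18c_coord_ord (hprin : HasPrincipalDivisors K F)
    {Q : Place (IsLocalRing.ResidueField A) Fk} {t : G.O} (ht : m18_Coord G Q t)
    {a : A} (ha : IsLocalRing.residue A a = 0) (P₁ : Place K F) (hP₁ : r P₁ = Q)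
    (hpos : 0 < P₁.ord ((t : F) - algebraMap K F (a : K))) :
    P₁.ord ((t : F) - algebraMap K F (a : K)) = 1 ∧
      ∀ P, r P = Q → P ≠ P₁ → P.ord ((t : F) - algebraMap K F (a : K)) = 0 := by
  have hc := m18c_coord_sub G ht ha
  have hne := m18c_coord_red_ne_zero G hc
  exact m18c_tube_one G hprin (t - m18c_const G a) hne Q hc.1 hc.2 P₁ hP₁ hpos

end tube

end Fermat.Agent.M18

end
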