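/-
M18 (S18 project), leaf (II) = core theorem, part 3: the key lemma, owner helper5.
Prefix `m18c_`.

`m18c_key`: a function `f` on `F` whose divisor is `m (∑ P_i - ∑ P'_i)` with `P_i, P'_i` in the
tubes of `g` distinct places `Q_i` carrying coordinates, with `∑ Q_i` non-special, and `m` prime
to the residue characteristic, cannot take the value `1` at a place specialising outside of the
`Q_i` unless it is constant.
-/
import Mathlib
import Fermat.Prelude.Def_AlgebraicCurve_Repartitions
import Fermat.Agent.M18.Defs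
import Fermat.Agent.M18.CoreBasic
import Fermat.Agent.M18.CoreTube

set_option autoImplicit false
set_option linter.deprecated false
set_option linter.unusedSectionVars false
set_option linter.unusedVariables false
set_option linter.style.haveILetI false

noncomputable section

namespace Fermat.Agent.M18

open AlgebraicCurve WithZero

section algebra

/-- the algebraic identity behind the key lemma. -/
theorem m18c_alg_identity {R : Type*} [CommRing R] (T ca U Uinv fO cπ y : R) (hU : U = T - ca)
    (hinv : Uinv * U = 1) (hf : fO - 1 = cπ * y) (m : ℕ) :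
    (fO * T ^ m * Uinv ^ m - 1) * U ^ m
      = cπ * y * T ^ m + ca * ∑ j ∈ Finset.range m, U ^ j * T ^ (m - 1 - j) := by
  have h1 : (∑ j ∈ Finset.range m, U ^ j * T ^ (m - 1 - j)) * (U - T) = U ^ m - T ^ m :=
    geom_sum₂_mul U T m
  have h2 : Uinv ^ m * U ^ m = 1 := by rw [← mul_pow, hinv, one_pow]
  have h3 : fO = 1 + cπ * y := by linear_combination hf
  have h4 : U - T = -ca := by rw [hU]; ring
  rw [h4] at h1
  calc (fO * T ^ m * Uinv ^ m - 1) * U ^ m = fO * T ^ m * (Uinv ^ m * U ^ m) - U ^ m := by ring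
    _ = fO * T ^ m - U ^ m := by rw [h2, mul_one]
    _ = cπ * y * T ^ m - (U ^ m - T ^ m) := by rw [h3]; ring
    _ = _ := by rw [← h1]; ring

theorem m18c_alg_divide {R : Type*} [CommRing R] (w U Uinv c z₀ : R) (m : ℕ)
    (hinv : Uinv * U = 1) (h : (w - 1) * U ^ m = c * z₀) :
    w - 1 = c * (z₀ * Uinv ^ m) := by
  have h2 : U ^ m * Uinv ^ m = 1 := by rw [← mul_pow, mul_comm, hinv, one_pow]
  calc w - 1 = (w - 1) * (U ^ m * Uinv ^ m) := by rw [h2, mul_one]
    _ = (w - 1) * U ^ m * Uinv ^ m := by ring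
    _ = c * (z₀ * Uinv ^ m) := by rw [h]; ring

/-- the reduction of the geometric sum. -/
theorem m18c_geom_same {R : Type*} [CommRing R] (x : R) (m : ℕ) :
    ∑ j ∈ Finset.range m, x ^ j * x ^ (m - 1 - j) = (m : R) * x ^ (m - 1) := by
  have : ∀ j ∈ Finset.range m, x ^ j * x ^ (m - 1 - j) = x ^ (m - 1) := by
    intro j hj
    rw [Finset.mem_range] at hj
    rw [← pow_add]
    congr 1
    omega
  rw [Finset.sum_congr rfl this, Finset.sum_const, Finset.card_range, nsmul_eq_mul]

end algebra

section key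

variable {K F Fk : Type*} [Field K] [Field F] [Algebra K F] {A : ValuationSubring K}
  [Field Fk] [Algebra (IsLocalRing.ResidueField A) Fk]
  {r : Place K F → Place (IsLocalRing.ResidueField A) Fk} (G : m18_Gauss A r)

/-- regularity of a quotient `(w - 1) / c` on a tube on which `w` has neither zeros nor poles. -/
theorem m18c_quot_regular (hprin : HasPrincipalDivisors K F)
    (Q : Place (IsLocalRing.ResidueField A) Fk) (w z : G.O) (c : A) (hc : (c : K) ≠ 0)
    (hwz : w - 1 = m18c_const G c * z) (hw0 : (w : F) ≠ 0)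
    (hw : ∀ P₁, r P₁ = Q → P₁.ord (w : F) = 0) :
    Q.adicValuation (G.red z) ≤ 1 := by
  by_cases hz : G.red z = 0
  · rw [hz, map_zero]
    exact zero_le_one
  · rw [← m18c_ord_nonneg_iff]
    apply m18c_tube_nonneg G hprin z hz Q
    intro P₁ hP₁
    rw [m18c_ord_nonneg_iff]
    have h1 : (w : F) - 1 = algebraMap K F (c : K) * (z : F) := congrArg Subtype.val hwz
    have h2 : P₁.adicValuation (algebraMap K F (c : K) * (z : F)) ≤ 1 := by
      rw [← h1]
      exact Valuation.map_sub_le _ (le_of_eq ((m18c_val_eq_one_iff P₁ hw0).2 (hw P₁ hP₁)))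
        (by rw [map_one])
    rwa [m18c_val_const_mul P₁ hc] at h2

/-- units of `A` from nonzero residues. -/
theorem m18c_exists_inv {a : A} (ha : IsLocalRing.residue A a ≠ 0) :
    ∃ b : A, b * a = 1 := by
  have hu : IsUnit a := by
    by_contra hnu
    apply ha
    rw [IsLocalRing.residue_eq_zero_iff]
    exact (IsLocalRing.mem_maximalIdeal _).2 hnu
  obtain ⟨b, hb⟩ := hu.exists_left_inv
  exact ⟨b, hb⟩

/-- an element of `K` outside `A` is the inverse of an element of the maximal ideal. -/
theorem m18c_inv_mem_of_not_mem {c : K} (hc : c ∉ A) :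
    ∃ p : A, (p : K) = c⁻¹ ∧ IsLocalRing.residue A p = 0 := by
  have hinv : c⁻¹ ∈ A := (A.mem_or_inv_mem c).resolve_left hc
  have hc0 : c ≠ 0 := by
    rintro rfl
    exact hc A.zero_mem
  refine ⟨⟨c⁻¹, hinv⟩, rfl, ?_⟩
  rw [IsLocalRing.residue_eq_zero_iff]
  refine (IsLocalRing.mem_maximalIdeal _).2 fun hu => ?_
  obtain ⟨d, hd⟩ := hu.exists_right_inv
  apply hc
  have h1 : c⁻¹ * (d : K) = 1 := by
    have := congrArg Subtype.val hd
    simpa using this
  have h2 : (d : K) = c := by
    field_simp at h1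
    exact h1
  rw [← h2]
  exact d.2


open scoped Classical in
/-- the value of the divisor `∑ Q_i`. -/
theorem m18c_E_apply {α : Type*} {g : ℕ} (Q : Fin g → α) (Qx : α) :
    (∑ i, Finsupp.single (Q i) (1 : ℤ)) Qx = ∑ i, if Q i = Qx then (1 : ℤ) else 0 := by
  rw [Finsupp.finset_sum_apply]
  refine Finset.sum_congr rfl fun i _ => ?_
  rw [Finsupp.single_apply]

theorem m18c_E_nonneg {α : Type*} {g : ℕ} (Q : Fin g → α) (Qx : α) :
    0 ≤ (∑ i, Finsupp.single (Q i) (1 : ℤ)) Qx := by
  classical
  rw [m18c_E_apply]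
  refine Finset.sum_nonneg fun i _ => ?_
  split_ifs
  · exact zero_le_one
  · exact le_rfl

theorem m18c_E_one {α : Type*} {g : ℕ} (Q : Fin g → α) (hQ : Function.Injective Q) (i : Fin g) :
    (∑ i, Finsupp.single (Q i) (1 : ℤ)) (Q i) = 1 := by
  classical
  rw [m18c_E_apply, Finset.sum_eq_single i]
  · rw [if_pos rfl]
  · intro j _ hj
    rw [if_neg (fun h => hj (hQ h))]
  · intro h
    exact absurd (Finset.mem_univ i) h

theorem m18c_E_zero {α : Type*} {g : ℕ} (Q : Fin g → α) (Qx : α) (h : ∀ i, Qx ≠ Q i) :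
    (∑ i, Finsupp.single (Q i) (1 : ℤ)) Qx = 0 := by
  classical
  rw [m18c_E_apply]
  refine Finset.sum_eq_zero fun i _ => ?_
  rw [if_neg (fun h' => h i h'.symm)]

/-- the dichotomy in the valuation ring `A`. -/
theorem m18c_dichotomy (a p : A) (hp : (p : K) ≠ 0) :
    (∃ a' : A, a = p * a') ∨ (∃ p' : A, IsLocalRing.residue A p' = 0 ∧ p = a * p') := by
  by_cases hx : (a : K) / (p : K) ∈ A
  · left
    refine ⟨⟨_, hx⟩, Subtype.ext ?_⟩
    show (a : K) = (p : K) * ((a : K) / (p : K))
    field_simp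
  · right
    obtain ⟨p', hp', hres⟩ := m18c_inv_mem_of_not_mem hx
    have ha : (a : K) ≠ 0 := by
      intro h
      apply hx
      rw [h, zero_div]
      exact A.zero_mem
    refine ⟨p', hres, Subtype.ext ?_⟩
    show (p : K) = (a : K) * (p' : K)
    rw [hp']
    field_simp

open scoped Classical in
/-- **The key lemma.** -/
theorem m18c_key (hprin : HasPrincipalDivisors K F) (hval : m18_HasValues K F)
    (m : ℕ) (hm : (m : IsLocalRing.ResidueField A) ≠ 0) {g : ℕ}
    (Q : Fin g → Place (IsLocalRing.ResidueField A) Fk) (hQ : Function.Injective Q)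
    (t : Fin g → G.O) (hcoord : ∀ i, m18_Coord G (Q i) (t i))
    (hns : ∀ φ ∈ riemannRochSpace (∑ i, Finsupp.single (Q i) (1 : ℤ)),
      ∃ c : IsLocalRing.ResidueField A, φ = algebraMap (IsLocalRing.ResidueField A) Fk c)
    (P P' : Fin g → Place K F) (hP : ∀ i, r (P i) = Q i) (hP' : ∀ i, r (P' i) = Q i)
    (hP'ord : ∀ i, 0 < (P' i).ord (t i : F))
    (f : F) (hf : f ≠ 0) (Df : Divisor K F) (hDf : ∀ P₁, Df P₁ = P₁.ord f)
    (hpush : ∀ Qx, Finsupp.mapDomain r Df Qx = 0)
    (hford : ∀ i, ∀ P₁, r P₁ = Q i →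
      P₁.ord f = m * ((if P₁ = P i then 1 else 0) - (if P₁ = P' i then 1 else 0)))
    (hfout : ∀ P₁, (∀ i, r P₁ ≠ Q i) → P₁.ord f = 0)
    (Pstar : Place K F) (hstar : ∀ i, r Pstar ≠ Q i) (hfstar : 0 < Pstar.ord (f - 1)) :
    False := by
  have hm0 : m ≠ 0 := by
    rintro rfl
    exact hm Nat.cast_zero
  -- (i) scale `f`
  obtain ⟨c0, hc0, hu, hured⟩ := G.scale f hf
  set u : G.O := ⟨algebraMap K F c0 * f, hu⟩ with hudef
  have hu_ord : ∀ Qx : Place (IsLocalRing.ResidueField A) Fk, Qx.ord (G.red u) = 0 := fun Qx => by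
    rw [← G.hloc u hured Df
      (fun P₁ => by rw [hDf]; exact (m18c_ord_const_mul P₁ hc0 f).symm) Qx, hpush]
  have hu_mem : G.red u ∈ riemannRochSpace (∑ i, Finsupp.single (Q i) (1 : ℤ)) := by
    intro v
    show v.adicValuation (G.red u) ≤ exp ((∑ i, Finsupp.single (Q i) (1 : ℤ)) v)
    rw [(m18c_val_eq_one_iff v hured).2 (hu_ord v), ← exp_zero, exp_le_exp]
    exact m18c_E_nonneg Q v
  obtain ⟨e, he⟩ := hns _ hu_mem
  have he0 : e ≠ 0 := by
    rintro rfl
    rw [map_zero] at he
    exact hured he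
  -- (ii) normalise the reduction
  obtain ⟨e0, rfl⟩ := IsLocalRing.residue_surjective e
  obtain ⟨e1, he1⟩ := m18c_exists_inv he0
  set u' : G.O := m18c_const G e1 * u with hu'def
  have hu'red : G.red u' = 1 := by
    rw [hu'def, map_mul, m18c_red_const, he, ← map_mul, ← map_mul, he1, map_one, map_one]
  set c1 : K := (e1 : K) * c0 with hc1def
  have he1_ne : (e1 : K) ≠ 0 := by
    intro h
    have := congrArg Subtype.val he1
    simp [h] at this
  have hc1 : c1 ≠ 0 := mul_ne_zero he1_ne hc0
  have hu'coe : (u' : F) = algebraMap K F c1 * f := by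
    show algebraMap K F (e1 : K) * (algebraMap K F c0 * f) = _
    rw [hc1def, map_mul]
    ring
  -- (iii) the value at `Pstar`
  have hreg_star : ∀ P₁, r P₁ = r Pstar → 0 ≤ P₁.ord (u' : F) := by
    intro P₁ hP₁
    rw [hu'coe, m18c_ord_const_mul P₁ hc1, hfout P₁ (fun i h => hstar i (hP₁ ▸ h))]
  have hstar_val : 0 < Pstar.ord ((u' : F) - algebraMap K F c1) := by
    have : (u' : F) - algebraMap K F c1 = algebraMap K F c1 * (f - 1) := by
      rw [hu'coe]
      ring
    rw [this, m18c_ord_const_mul Pstar hc1]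
    exact hfstar
  obtain ⟨hc1A, hev⟩ := m18c_eval G hprin u' (r Pstar) hreg_star Pstar rfl c1 (Or.inr hstar_val)
  have hres1 : IsLocalRing.residue A ⟨c1, hc1A⟩ = 1 := by
    rw [hu'red] at hev
    rcases hev with hev | hev
    · apply (algebraMap (IsLocalRing.ResidueField A) Fk).injective
      rw [← hev, map_one]
    · exfalso
      rw [← map_one (algebraMap (IsLocalRing.ResidueField A) Fk), ← map_sub, m18c_ord_const] at hev
      exact lt_irrefl _ hev
  obtain ⟨c1i, hc1i⟩ := m18c_exists_inv (a := ⟨c1, hc1A⟩) (by rw [hres1]; exact one_ne_zero)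
  have hres1i : IsLocalRing.residue A c1i = 1 := by
    have := congrArg (IsLocalRing.residue A) hc1i
    rw [map_mul, hres1, mul_one, map_one] at this
    exact this
  set fO : G.O := m18c_const G c1i * u' with hfOdef
  have hfOcoe : (fO : F) = f := by
    show algebraMap K F (c1i : K) * (u' : F) = f
    rw [hu'coe, ← mul_assoc, ← map_mul]
    have : (c1i : K) * c1 = 1 := by
      have := congrArg Subtype.val hc1i
      simpa using this
    rw [this, map_one, one_mul]
  have hfOred : G.red fO = 1 := by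
    rw [hfOdef, map_mul, m18c_red_const, hres1i, map_one, hu'red, mul_one]
  -- (iv) the size of `f - 1`
  have hf1 : f - 1 ≠ 0 := by
    intro h
    rw [h, Place.ord_zero] at hfstar
    exact lt_irrefl _ hfstar
  obtain ⟨c2, hc2, hy, hyred⟩ := G.scale (f - 1) hf1
  set y : G.O := ⟨algebraMap K F c2 * (f - 1), hy⟩ with hydef
  have hc2A : c2 ∉ A := by
    intro hc2A
    apply hyred
    have : y = m18c_const G ⟨c2, hc2A⟩ * (fO - 1) := Subtype.ext (by
      show algebraMap K F c2 * (f - 1) = algebraMap K F c2 * ((fO : F) - 1)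
      rw [hfOcoe])
    show G.red y = 0
    rw [this, map_mul, map_sub, hfOred, map_one, sub_self, mul_zero]
  obtain ⟨π0, hπ0, hπ0res⟩ := m18c_inv_mem_of_not_mem hc2A
  have hπ0ne : (π0 : K) ≠ 0 := by
    rw [hπ0]
    exact inv_ne_zero hc2
  have hfy : fO - 1 = m18c_const G π0 * y := Subtype.ext (by
    show (fO : F) - 1 = algebraMap K F (π0 : K) * (algebraMap K F c2 * (f - 1))
    rw [hfOcoe, hπ0, ← mul_assoc, ← map_mul, inv_mul_cancel₀ hc2, map_one, one_mul])
  have hycoe : (y : F) = algebraMap K F c2 * (f - 1) := rfl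
  -- regularity of `y` outside the tubes of the `Q i`
  have hyreg : ∀ P₁, (∀ i, r P₁ ≠ Q i) → 0 ≤ P₁.ord (y : F) := by
    intro P₁ hP₁
    rw [m18c_ord_nonneg_iff, hycoe, m18c_val_const_mul P₁ hc2]
    exact Valuation.map_sub_le _ (le_of_eq ((m18c_val_eq_one_iff P₁ hf).2 (hfout P₁ hP₁)))
      (by rw [map_one])
  -- (v) the data at each `i`
  have hval_i : ∀ i, ∃ a : A, IsLocalRing.residue A a = 0 ∧
      0 < (P i).ord ((t i : F) - algebraMap K F (a : K)) :=
    fun i => m18c_coord_value G hprin hval (hcoord i) (P i) (hP i)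
  choose a ha_res ha_pos using hval_i
  have hord_u : ∀ i P₁, r P₁ = Q i →
      P₁.ord ((t i : F) - algebraMap K F (a i : K)) = if P₁ = P i then 1 else 0 := by
    intro i P₁ hP₁
    obtain ⟨h1, h2⟩ := m18c_coord_ord G hprin (hcoord i) (ha_res i) (P i) (hP i) (ha_pos i)
    split_ifs with h
    · rw [h]
      exact h1
    · exact h2 P₁ hP₁ h
  have hord_t : ∀ i P₁, r P₁ = Q i → P₁.ord (t i : F) = if P₁ = P' i then 1 else 0 := by
    intro i P₁ hP₁
    obtain ⟨h1, h2⟩ := m18c_tube_one G hprin (t i) (m18c_coord_red_ne_zero G (hcoord i)) (Q i)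
      (hcoord i).1 (hcoord i).2 (P' i) (hP' i) (hP'ord i)
    split_ifs with h
    · rw [h]
      exact h1
    · exact h2 P₁ hP₁ h
  -- the local analysis at `i`: for `w - 1 = c z` with `c ≠ 0`, `red z` is regular at `Q i`
  have hlocal : ∀ i, ∃ Uinv : G.O, Uinv * (t i - m18c_const G (a i)) = 1 ∧
      G.red Uinv * G.red (t i) = 1 ∧
      ∀ (c : A) (z₀ : G.O), (c : K) ≠ 0 →
        m18c_const G π0 * y * (t i) ^ m
          + m18c_const G (a i) * ∑ j ∈ Finset.range m,
              (t i - m18c_const G (a i)) ^ j * (t i) ^ (m - 1 - j) = m18c_const G c * z₀ →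
        (Q i).adicValuation (G.red (z₀ * Uinv ^ m)) ≤ 1 := by
    intro i
    have hUred : G.red (t i - m18c_const G (a i)) = G.red (t i) := by
      rw [map_sub, m18c_red_const_of_res_eq_zero G (ha_res i), sub_zero]
    have hUne : G.red (t i - m18c_const G (a i)) ≠ 0 := by
      rw [hUred]
      exact m18c_coord_red_ne_zero G (hcoord i)
    obtain ⟨Uinv, hUinv⟩ := (G.isUnit_of_red_ne_zero _ hUne).exists_left_inv
    refine ⟨Uinv, hUinv, ?_, ?_⟩
    · rw [← hUred, ← map_mul, hUinv, map_one]
    intro c z₀ hc hz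
    set w : G.O := fO * (t i) ^ m * Uinv ^ m with hwdef
    have hid := m18c_alg_identity (t i) (m18c_const G (a i)) (t i - m18c_const G (a i)) Uinv fO
      (m18c_const G π0) y rfl hUinv hfy m
    rw [hz] at hid
    have hwz := m18c_alg_divide w (t i - m18c_const G (a i)) Uinv (m18c_const G c) z₀ m hUinv hid
    -- orders of `w` on the tube
    have hUcoe : ((t i - m18c_const G (a i) : G.O) : F) = (t i : F) - algebraMap K F (a i : K) :=
      rfl
    have hUF : (t i : F) - algebraMap K F (a i : K) ≠ 0 := by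
      rw [← hUcoe]
      exact m18c_ne_zero_of_red_ne_zero G hUne
    have hUinvF : (Uinv : F) * ((t i : F) - algebraMap K F (a i : K)) = 1 := by
      have := congrArg Subtype.val hUinv
      exact this
    have hUinv0 : (Uinv : F) ≠ 0 := by
      intro h
      rw [h, zero_mul] at hUinvF
      exact zero_ne_one hUinvF
    have htF : (t i : F) ≠ 0 := m18c_ne_zero_of_red_ne_zero G (m18c_coord_red_ne_zero G (hcoord i))
    have hwcoe : (w : F) = f * (t i : F) ^ m * (Uinv : F) ^ m := by
      show (fO : F) * (t i : F) ^ m * (Uinv : F) ^ m = _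
      rw [hfOcoe]
    have hw0 : (w : F) ≠ 0 := by
      rw [hwcoe]
      exact mul_ne_zero (mul_ne_zero hf (pow_ne_zero _ htF)) (pow_ne_zero _ hUinv0)
    have hword : ∀ P₁, r P₁ = Q i → P₁.ord (w : F) = 0 := by
      intro P₁ hP₁
      have h1 : P₁.ord (Uinv : F) = - P₁.ord ((t i : F) - algebraMap K F (a i : K)) := by
        have := P₁.ord_mul hUinv0 hUF
        rw [hUinvF, Place.ord_one] at this
        omega
      rw [hwcoe, P₁.ord_mul (mul_ne_zero hf (pow_ne_zero _ htF)) (pow_ne_zero _ hUinv0),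
        P₁.ord_mul hf (pow_ne_zero _ htF), m18c_ord_pow, m18c_ord_pow, h1, hord_u i P₁ hP₁,
        hord_t i P₁ hP₁, hford i P₁ hP₁]
      ring
    exact m18c_quot_regular G hprin (Q i) w (z₀ * Uinv ^ m) c hc hwz hw0 hword
  choose Uinv hUinv hUinvred hlocal' using hlocal
  -- valuations at `Q i`
  have hvt : ∀ i, (Q i).adicValuation (G.red (t i)) = exp (-1 : ℤ) := by
    intro i
    rw [m18c_val_eq_exp _ (m18c_coord_red_ne_zero G (hcoord i)), (hcoord i).2]
  have hvUinv : ∀ i, (Q i).adicValuation (G.red (Uinv i)) = exp (1 : ℤ) := by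
    intro i
    have h1 : (Q i).adicValuation (G.red (Uinv i)) * (Q i).adicValuation (G.red (t i)) = 1 := by
      rw [← map_mul, hUinvred, map_one]
    rw [hvt] at h1
    have h2 : exp (1 : ℤ) * exp (-1 : ℤ) = (1 : ℤᵐ⁰) := by
      rw [← exp_add]
      simp
    have h3 : exp (-1 : ℤ) ≠ (0 : ℤᵐ⁰) := exp_ne_zero
    exact mul_right_cancel₀ h3 (h1.trans h2.symm)
  have hredS : ∀ i, G.red (∑ j ∈ Finset.range m,
      (t i - m18c_const G (a i)) ^ j * (t i) ^ (m - 1 - j))
      = (m : Fk) * G.red (t i) ^ (m - 1) := by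
    intro i
    rw [map_sum]
    simp only [map_mul, map_pow, map_sub, m18c_red_const_of_res_eq_zero G (ha_res i), sub_zero]
    exact m18c_geom_same _ m
  have hpow1 : ∀ i, G.red (t i) ^ (m - 1) * G.red (Uinv i) ^ m = G.red (Uinv i) := by
    intro i
    obtain ⟨n, rfl⟩ := Nat.exists_eq_succ_of_ne_zero hm0
    rw [Nat.succ_sub_one, pow_succ, ← mul_assoc, ← mul_pow, mul_comm (G.red (t i)), hUinvred,
      one_pow, one_mul]
  have hpow2 : ∀ i, G.red (t i) ^ m * G.red (Uinv i) ^ m = 1 := by
    intro i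
    rw [← mul_pow, mul_comm, hUinvred, one_pow]
  have hmFk : (m : Fk) = algebraMap (IsLocalRing.ResidueField A) Fk (m : IsLocalRing.ResidueField A) :=
    (map_natCast _ m).symm
  -- (vi) the dichotomy
  by_cases hall : ∀ i, ∃ a' : A, a i = π0 * a'
  · -- Case A
    choose a' ha' using hall
    have hφmem : G.red y ∈ riemannRochSpace (∑ i, Finsupp.single (Q i) (1 : ℤ)) := by
      intro v
      show v.adicValuation (G.red y) ≤ exp ((∑ i, Finsupp.single (Q i) (1 : ℤ)) v)
      by_cases hv : ∃ i, v = Q i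
      · obtain ⟨i, rfl⟩ := hv
        rw [m18c_E_one Q hQ i]
        have hz := hlocal' i π0 (y * (t i) ^ m + m18c_const G (a' i) *
          ∑ j ∈ Finset.range m, (t i - m18c_const G (a i)) ^ j * (t i) ^ (m - 1 - j)) hπ0ne (by
            have : m18c_const G (a i) = m18c_const G π0 * m18c_const G (a' i) := by
              rw [← map_mul, ← ha' i]
            rw [this]
            ring)
        set c : Fk := algebraMap (IsLocalRing.ResidueField A) Fk (IsLocalRing.residue A (a' i))
          * (m : Fk) with hcdef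
        have hz' : G.red ((y * (t i) ^ m + m18c_const G (a' i) *
            ∑ j ∈ Finset.range m, (t i - m18c_const G (a i)) ^ j * (t i) ^ (m - 1 - j))
              * Uinv i ^ m) = G.red y + c * G.red (Uinv i) := by
          rw [map_mul, map_add, map_mul, map_mul, map_pow, map_pow, hredS i, m18c_red_const]
          calc _ = G.red y * (G.red (t i) ^ m * G.red (Uinv i) ^ m)
                + c * (G.red (t i) ^ (m - 1) * G.red (Uinv i) ^ m) := by
                  rw [hcdef]
                  ring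
            _ = _ := by rw [hpow1, hpow2, mul_one]
        rw [hz'] at hz
        have hc1 : (Q i).adicValuation c ≤ 1 := by
          rw [hcdef, hmFk, ← map_mul]
          exact m18c_val_const_le _ _
        have hc2 : (Q i).adicValuation (c * G.red (Uinv i)) ≤ exp (1 : ℤ) := by
          rw [map_mul, hvUinv]
          exact mul_le_of_le_one_left' hc1
        have h1le : (1 : ℤᵐ⁰) ≤ exp (1 : ℤ) := by
          rw [← exp_zero, exp_le_exp]
          exact zero_le_one
        have : G.red y = (G.red y + c * G.red (Uinv i)) - c * G.red (Uinv i) := by ring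
        rw [this]
        exact Valuation.map_sub_le _ (hz.trans h1le) hc2
      · rw [not_exists] at hv
        rw [m18c_E_zero Q v hv, exp_zero, ← m18c_ord_nonneg_iff]
        refine m18c_tube_nonneg G hprin y hyred v fun P₁ hP₁ => hyreg P₁ fun i h => hv i ?_
        rw [← hP₁, h]
    obtain ⟨cφ, hcφ⟩ := hns _ hφmem
    have hystar : 0 < Pstar.ord (y : F) := by
      rw [hycoe, m18c_ord_const_mul Pstar hc2]
      exact hfstar
    have hle := m18c_tube_le G hprin y hyred (r Pstar)
      (fun P₁ hP₁ => hyreg P₁ fun i h => hstar i (hP₁ ▸ h)) Pstar rfl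
    rw [hcφ, m18c_ord_const] at hle
    omega
  · -- Case B
    rw [not_forall] at hall
    obtain ⟨i, hi⟩ := hall
    obtain ⟨p', hp'res, hp'⟩ := (m18c_dichotomy (a i) π0 hπ0ne).resolve_left hi
    have hai : ((a i : A) : K) ≠ 0 := by
      intro h
      apply hπ0ne
      have := congrArg Subtype.val hp'
      rw [this]
      show ((a i : A) : K) * (p' : K) = 0
      rw [h, zero_mul]
    have hz := hlocal' i (a i) (m18c_const G p' * y * (t i) ^ m +
      ∑ j ∈ Finset.range m, (t i - m18c_const G (a i)) ^ j * (t i) ^ (m - 1 - j)) hai (by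
        have : m18c_const G π0 = m18c_const G (a i) * m18c_const G p' := by
          rw [← map_mul, ← hp']
        rw [this]
        ring)
    have hz' : G.red ((m18c_const G p' * y * (t i) ^ m +
        ∑ j ∈ Finset.range m, (t i - m18c_const G (a i)) ^ j * (t i) ^ (m - 1 - j))
          * Uinv i ^ m) = (m : Fk) * G.red (Uinv i) := by
      rw [map_mul, map_add, map_mul, map_mul, map_pow, map_pow, hredS i,
        m18c_red_const_of_res_eq_zero G hp'res, zero_mul, zero_mul, zero_add, mul_assoc, hpow1]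
    rw [hz', map_mul, hvUinv, hmFk, m18c_val_const _ hm, one_mul, ← exp_zero, exp_le_exp] at hz
    omega

end key

end Fermat.Agent.M18

end
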