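/-
M18 (S18 project), leaf (II) = core theorem, part 4: the main statement, owner helper5.
Prefix `m18c_`.

`m18c_core`: for a Gauss package `G : m18_Gauss A r`, if Riemann's inequality holds on `F` with
bound `g`, there are `g` distinct places of `Fk` with coordinates whose sum is non-special
(`m18_NSC G g`), and `m` is prime to the residue characteristic, then every divisor `D` of degree
`0` on `F` with `m D` principal and `r_* D` principal is principal.
-/
import Mathlib
import Fermat.Prelude.Def_AlgebraicCurve_Repartitions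
import Fermat.Agent.M18.Defs
import Fermat.Agent.M18.CoreBasic
import Fermat.Agent.M18.CoreTube
import Fermat.Agent.M18.CoreKey

set_option autoImplicit false
set_option linter.deprecated false
set_option linter.unusedSectionVars false
set_option linter.unusedVariables false
set_option linter.style.haveILetI false

noncomputable section

namespace Fermat.Agent.M18

open AlgebraicCurve WithZero

section core

variable {K F Fk : Type*} [Field K] [Field F] [Algebra K F] {A : ValuationSubring K}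
  [Field Fk] [Algebra (IsLocalRing.ResidueField A) Fk]
  {r : Place K F → Place (IsLocalRing.ResidueField A) Fk} (G : m18_Gauss A r)

/-- the push-forward of a principal divisor is principal. -/
theorem m18c_push_principal (G' : m18_Gauss A r) (f : F) (hf : f ≠ 0) (D : Divisor K F)
    (hD : ∀ P, D P = P.ord f) :
    ∃ φ : Fk, φ ≠ 0 ∧ ∀ Q, Finsupp.mapDomain r D Q = Q.ord φ := by
  obtain ⟨c, hc, hx, hred⟩ := G'.scale f hf
  refine ⟨G'.red ⟨_, hx⟩, hred, fun Q => ?_⟩
  exact G'.hloc ⟨_, hx⟩ hred D (fun P => by rw [hD]; exact (m18c_ord_const_mul P hc f).symm) Q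

open scoped Classical in
/-- **The core theorem (II).** -/
theorem m18c_core (g m : ℕ) (hm : (m : IsLocalRing.ResidueField A) ≠ 0)
    (hR : m18_Riem K F g) (hNSC : m18_NSC G g) (hval : m18_HasValues K F)
    (hprin : HasPrincipalDivisors K F) (hdeg : ∀ P : Place K F, P.deg = 1) :
    m18_Core r m := by
  intro D hD0 hmD hrD
  have hm0 : m ≠ 0 := by
    rintro rfl
    exact hm Nat.cast_zero
  obtain ⟨Q, t, Pstar, hQ, hstar, hcoord, hns⟩ := hNSC
  -- the zeros `P' i` of the coordinates
  have hzero : ∀ i, ∃ P₀, r P₀ = Q i ∧ P₀.ord (t i : F) = 1 ∧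
      ∀ P, r P = Q i → P ≠ P₀ → P.ord (t i : F) = 0 :=
    fun i => m18c_coord_zero G hprin (hcoord i)
  choose P' hP' hP'1 hP'0 using hzero
  set Z0 : Divisor K F := ∑ i, Finsupp.single (P' i) (1 : ℤ) with hZ0
  have hZ0push : Finsupp.mapDomain r Z0 = ∑ i, Finsupp.single (Q i) (1 : ℤ) := by
    rw [hZ0, Finsupp.mapDomain_finset_sum]
    refine Finset.sum_congr rfl fun i _ => ?_
    rw [Finsupp.mapDomain_single, hP']
  have hZ0deg : Divisor.degree Z0 = g := by
    rw [hZ0, map_sum]
    simp [Divisor.degree_single, hdeg]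
  -- Riemann
  obtain ⟨f1, hf1, hf1mem⟩ := hR (D + Z0) (by rw [map_add, hD0, hZ0deg, zero_add])
  obtain ⟨D1, hD1, -⟩ := hprin.exists_divisor f1 hf1
  set Z : Divisor K F := D + Z0 + D1 with hZ
  have hZnn : ∀ P, 0 ≤ Z P := by
    intro P
    have := (mem_riemannRochSpace_iff.1 hf1mem P).resolve_left hf1
    rw [hZ, Finsupp.add_apply, hD1]
    linarith
  -- the push-forward of `Z`
  obtain ⟨φ0, hφ0, hφ0D⟩ := hrD
  obtain ⟨φ1, hφ1, hφ1D⟩ := m18c_push_principal G f1 hf1 D1 hD1
  have hZpush : ∀ Qx, Finsupp.mapDomain r Z Qx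
      = (∑ i, Finsupp.single (Q i) (1 : ℤ)) Qx + Qx.ord (φ0 * φ1) := by
    intro Qx
    rw [hZ, Finsupp.mapDomain_add, Finsupp.mapDomain_add, Finsupp.add_apply, Finsupp.add_apply,
      hZ0push, hφ0D, hφ1D, Qx.ord_mul hφ0 hφ1]
    ring
  have hψmem : φ0 * φ1 ∈ riemannRochSpace (∑ i, Finsupp.single (Q i) (1 : ℤ)) := by
    rw [mem_riemannRochSpace_iff]
    intro v
    right
    have := m18c_mapDomain_nonneg r Z hZnn v
    rw [hZpush] at this
    linarith
  obtain ⟨cψ, hcψ⟩ := hns _ hψmem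
  have hZE : Finsupp.mapDomain r Z = ∑ i, Finsupp.single (Q i) (1 : ℤ) := by
    ext Qx
    rw [hZpush, hcψ, m18c_ord_const, add_zero]
  -- the structure of `Z` on the tubes
  have hZtube : ∀ i, ∃ P₁, r P₁ = Q i ∧ Z P₁ = 1 ∧ ∀ P, r P = Q i → P ≠ P₁ → Z P = 0 := by
    intro i
    have h1 : Finsupp.mapDomain r Z (Q i) = 1 := by
      rw [hZE]
      exact m18c_E_one Q hQ i
    obtain ⟨P₁, hP₁, hpos⟩ := m18c_fibre_pos r Z (Q i) (by rw [h1]; exact one_pos)
    obtain ⟨h2, h3⟩ := m18c_fibre_one r Z (Q i) (fun P _ => hZnn P) h1 P₁ hP₁ hpos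
    exact ⟨P₁, hP₁, h2, h3⟩
  choose P hP hP1 hP0 using hZtube
  have hZout : ∀ P₁, (∀ i, r P₁ ≠ Q i) → Z P₁ = 0 := by
    intro P₁ h
    exact m18c_fibre_zero r Z (r P₁) (fun P _ => hZnn P)
      (by rw [hZE]; exact m18c_E_zero Q _ h) P₁ rfl
  have hZval : ∀ i P₁, r P₁ = Q i → Z P₁ = if P₁ = P i then 1 else 0 := by
    intro i P₁ hP₁
    split_ifs with h
    · rw [h]
      exact hP1 i
    · exact hP0 i P₁ hP₁ h
  have hZ0val : ∀ i P₁, r P₁ = Q i → Z0 P₁ = if P₁ = P' i then 1 else 0 := by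
    intro i P₁ hP₁
    rw [hZ0, m18c_E_apply, Finset.sum_eq_single i]
    · by_cases h : P₁ = P' i
      · rw [if_pos h, if_pos h.symm]
      · rw [if_neg h, if_neg (fun h' => h h'.symm)]
    · intro j _ hj
      rw [if_neg]
      intro h
      apply hj
      apply hQ
      rw [← hP' j, h, hP₁]
    · intro h
      exact absurd (Finset.mem_univ i) h
  have hZ0out : ∀ P₁, (∀ i, r P₁ ≠ Q i) → Z0 P₁ = 0 := by
    intro P₁ h
    rw [hZ0]
    refine m18c_E_zero P' P₁ fun i hi => h i ?_
    rw [hi, hP']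
  -- the function `f`
  obtain ⟨f0, hf0, hf0D⟩ := hmD
  set f : F := f0 * f1 ^ m with hfdef
  have hfne : f ≠ 0 := mul_ne_zero hf0 (pow_ne_zero _ hf1)
  have hford : ∀ P₁ : Place K F, P₁.ord f = m * (Z P₁ - Z0 P₁) := by
    intro P₁
    rw [hfdef, P₁.ord_mul hf0 (pow_ne_zero _ hf1), ← hf0D, m18c_ord_pow, ← hD1, hZ,
      Finsupp.smul_apply, Finsupp.add_apply, Finsupp.add_apply, nsmul_eq_mul]
    ring
  have hfstar0 : Pstar.ord f = 0 := by
    rw [hford, hZout Pstar hstar, hZ0out Pstar hstar, sub_self, mul_zero]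
  obtain ⟨b, hb⟩ := hval Pstar f (by rw [hfstar0])
  have hconst : ∃ c : K, f = algebraMap K F c := by
    rcases hb with hb | hb
    · exact ⟨b, hb⟩
    · exfalso
      have hb0 : b ≠ 0 := by
        rintro rfl
        rw [map_zero, sub_zero, hfstar0] at hb
        exact lt_irrefl _ hb
      have hbF : algebraMap K F b ≠ 0 := by simpa using hb0
      set f' : F := algebraMap K F b⁻¹ * f with hf'def
      have hf'ne : f' ≠ 0 := mul_ne_zero (by simpa using hb0) hfne
      have hf'ord : ∀ P₁ : Place K F, P₁.ord f' = P₁.ord f :=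
        fun P₁ => m18c_ord_const_mul P₁ (inv_ne_zero hb0) f
      have hf'star : 0 < Pstar.ord (f' - 1) := by
        have : f' - 1 = algebraMap K F b⁻¹ * (f - algebraMap K F b) := by
          rw [hf'def, map_inv₀]
          field_simp
        rw [this, m18c_ord_const_mul Pstar (inv_ne_zero hb0)]
        exact hb
      refine m18c_key G hprin hval m hm Q hQ t hcoord hns P P' hP hP'
        (fun i => by rw [hP'1 i]; exact one_pos) f' hf'ne (m • (Z - Z0))
        (fun P₁ => by
          rw [hf'ord, hford, Finsupp.smul_apply, Finsupp.sub_apply, nsmul_eq_mul])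
        (fun Qx => by
          rw [Finsupp.mapDomain_smul, Finsupp.mapDomain_sub, hZE, hZ0push, sub_self, smul_zero]
          rfl)
        (fun i P₁ hP₁ => by rw [hf'ord, hford, hZval i P₁ hP₁, hZ0val i P₁ hP₁])
        (fun P₁ h => by rw [hf'ord, hford, hZout P₁ h, hZ0out P₁ h, sub_self, mul_zero])
        Pstar hstar hf'star
  -- conclusion
  obtain ⟨c, hc⟩ := hconst
  have hZeq : ∀ P₁, Z P₁ = Z0 P₁ := by
    intro P₁
    have h1 := hford P₁
    rw [hc, m18c_ord_const] at h1
    have hm' : (m : ℤ) ≠ 0 := by exact_mod_cast hm0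
    have h2 : Z P₁ - Z0 P₁ = 0 := by
      rcases mul_eq_zero.1 h1.symm with h | h
      · exact absurd h hm'
      · exact h
    linarith
  refine ⟨f1⁻¹, inv_ne_zero hf1, fun P₁ => ?_⟩
  rw [P₁.ord_inv, ← hD1]
  have := hZeq P₁
  rw [hZ, Finsupp.add_apply, Finsupp.add_apply] at this
  linarith

end core

end Fermat.Agent.M18

end
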