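import Mathlib
import Fermat.Agent.M28.DTowerInt

/-!
# S18, block (CUSP), part 1: the shape of the conjugate embeddings (prefix `m18cusp_`)

`D : M28TowerData k Ω N` is the abstract tower of M28 (`C ξ m = J (ξ t ^ m)`, `q = t ^ N`,
`K₀ = k (J (q))`, `E = K₀ (J (q ^ d) : d ∣ N)`).  For a `K₀`-embedding `ι : E → Ω`:

* `m18cusp_Z D ι d`      : the value `ι (J_d)`;
* `m18cusp_Sh D z d ξ a δ e` : the shape `z = C ξ (e * a)`, `a * δ = d`, `δ * e = N`, `ξ ^ δ = 1`;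
* `m18cusp_shape`        : every `ι (J_d)` has a shape;
* `m18cusp_xi / _a / _de / _e` : the canonical data of `ι (J_d)`;
* `m18cusp_edge`         : the step `d → p * d` is of the first kind
  (`ξ ↦ ξ ^ p`, `a ↦ p * a`) or of the second kind (`ξ ↦` a `p`-th root, `δ ↦ p * δ`);
* `m18cusp_pat`          : a step of the first kind at `d` forces `p ∤ δ (d)`;
* `m18cusp_prim`         : `p ∣ a (d)`, `p ∣ δ (d)` force `ξ (d) ^ (δ (d) / p) ≠ 1`;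
* `m18cusp_det`          : `ι` is determined by `ι (J_N)`.
-/

set_option autoImplicit false
set_option linter.unusedSectionVars false
set_option linter.unusedVariables false

noncomputable section

namespace Fermat.Agent.M18

open Fermat.Agent.M28 Polynomial

section core

variable {k Ω : Type} [Field k] [IsAlgClosed k] [Field Ω] [Algebra k Ω] {N : ℕ}
  (D : M28TowerData k Ω N)

/-- the value of a `K₀`-embedding at `J_d` (`0` if `d ∤ N`). -/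
def m18cusp_Z (ι : ↥(m28dt_E D N) →ₐ[↥(m28dt_K0 D)] Ω) (d : ℕ) : Ω :=
  open Classical in if h : d ∣ N then ι ⟨m28dt_J D d, m28dt_J_mem_E D h⟩ else 0

theorem m18cusp_Z_eq (ι : ↥(m28dt_E D N) →ₐ[↥(m28dt_K0 D)] Ω) {d : ℕ} (h : d ∣ N) :
    m18cusp_Z D ι d = ι ⟨m28dt_J D d, m28dt_J_mem_E D h⟩ := by
  unfold m18cusp_Z
  rw [dif_pos h]

theorem m18cusp_Z_one (ι : ↥(m28dt_E D N) →ₐ[↥(m28dt_K0 D)] Ω) :
    m18cusp_Z D ι 1 = D.C 1 N := by
  rw [m18cusp_Z_eq D ι (one_dvd N)]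
  have hxK : (⟨m28dt_J D 1, m28dt_J_mem_E D (one_dvd N)⟩ : ↥(m28dt_E D N)) =
      algebraMap ↥(m28dt_K0 D) ↥(m28dt_E D N) ⟨D.C 1 N, m28dt_C1N_mem_K0 D⟩ := by
    apply Subtype.ext
    show m28dt_J D 1 = _
    rw [m28dt_J_one]
    rfl
  rw [hxK, ι.commutes]
  rfl

/-- the values at distinct divisors are distinct. -/
theorem m18cusp_Z_inj (hN : N ≠ 0) (ι : ↥(m28dt_E D N) →ₐ[↥(m28dt_K0 D)] Ω) {d d' : ℕ}
    (hd : d ∣ N) (hd' : d' ∣ N) (h : m18cusp_Z D ι d = m18cusp_Z D ι d') : d = d' := by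
  rw [m18cusp_Z_eq D ι hd, m18cusp_Z_eq D ι hd'] at h
  have h1 := (ι : ↥(m28dt_E D N) →+* Ω).injective h
  have h2 : m28dt_J D d = m28dt_J D d' := congrArg Subtype.val h1
  have hN0 : 0 < N := Nat.pos_of_ne_zero hN
  have hd0 : 0 < d := Nat.pos_of_dvd_of_pos hd hN0
  have hd0' : 0 < d' := Nat.pos_of_dvd_of_pos hd' hN0
  have h3 := (D.C_inj 1 1 (N * d) (N * d') (Nat.mul_pos hN0 hd0) (Nat.mul_pos hN0 hd0') h2).1
  exact Nat.eq_of_mul_eq_mul_left hN0 h3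

/-- an embedding is determined by its values at the `J_d`. -/
theorem m18cusp_ext (ι ι' : ↥(m28dt_E D N) →ₐ[↥(m28dt_K0 D)] Ω)
    (h : ∀ d, d ∣ N → m18cusp_Z D ι d = m18cusp_Z D ι' d) : ι = ι' := by
  have h1 : (ι : ↥(m28dt_E D N) →+* Ω) = (ι' : ↥(m28dt_E D N) →+* Ω) := by
    apply m28dt_ringHom_ext D N
    · intro c
      show ι (algebraMap _ _ c) = ι' (algebraMap _ _ c)
      rw [ι.commutes, ι'.commutes]
    · intro d hd x hx
      have hx' : x = ⟨m28dt_J D d, m28dt_J_mem_E D hd⟩ := Subtype.ext hx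
      have := h d hd
      rw [m18cusp_Z_eq D ι hd, m18cusp_Z_eq D ι' hd] at this
      rw [hx']
      exact this
  exact AlgHom.ext fun x => congrArg (fun f : ↥(m28dt_E D N) →+* Ω => f x) h1

/-- the shape of a cusp series of type `d`. -/
def m18cusp_Sh (z : Ω) (d : ℕ) (ξ : kˣ) (a δ e : ℕ) : Prop :=
  a * δ = d ∧ δ * e = N ∧ z = D.C ξ (e * a) ∧ ξ ^ δ = 1

variable {D}

theorem m18cusp_Sh_pos (hN : N ≠ 0) {z : Ω} {d : ℕ} {ξ : kˣ} {a δ e : ℕ}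
    (h : m18cusp_Sh D z d ξ a δ e) (hd : d ∣ N) : 0 < a ∧ 0 < δ ∧ 0 < e := by
  obtain ⟨h1, h2, -, -⟩ := h
  have hN0 : 0 < N := Nat.pos_of_ne_zero hN
  have hd0 : 0 < d := Nat.pos_of_dvd_of_pos hd hN0
  refine ⟨?_, ?_, ?_⟩
  · exact Nat.pos_of_ne_zero fun h0 => hd0.ne' (by rw [← h1, h0, zero_mul])
  · exact Nat.pos_of_ne_zero fun h0 => hd0.ne' (by rw [← h1, h0, mul_zero])
  · exact Nat.pos_of_ne_zero fun h0 => hN0.ne' (by rw [← h2, h0, mul_zero])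

/-- the shape is unique. -/
theorem m18cusp_Sh_unique (hN : N ≠ 0) {z : Ω} {d : ℕ} (hd : d ∣ N) {ξ ξ' : kˣ}
    {a δ e a' δ' e' : ℕ} (h : m18cusp_Sh D z d ξ a δ e) (h' : m18cusp_Sh D z d ξ' a' δ' e') :
    ξ = ξ' ∧ a = a' ∧ δ = δ' ∧ e = e' := by
  obtain ⟨ha, hδ, he⟩ := m18cusp_Sh_pos hN h hd
  obtain ⟨ha', hδ', he'⟩ := m18cusp_Sh_pos hN h' hd
  obtain ⟨h1, h2, h3, -⟩ := h
  obtain ⟨h1', h2', h3', -⟩ := h'
  have hN0 : 0 < N := Nat.pos_of_ne_zero hN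
  have hC := D.C_inj ξ ξ' (e * a) (e' * a') (Nat.mul_pos he ha) (Nat.mul_pos he' ha')
    (h3.symm.trans h3')
  -- `N * a ^ 2 = (e * a) * d`
  have hA : N * (a * a) = (e * a) * d := by rw [← h2, ← h1]; ring
  have hA' : N * (a' * a') = (e' * a') * d := by rw [← h2', ← h1']; ring
  have haa : a * a = a' * a' := by
    apply Nat.eq_of_mul_eq_mul_left hN0
    rw [hA, hA', hC.1]
  have haeq : a = a' := by
    rcases Nat.lt_trichotomy a a' with hlt | heq | hgt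
    · exact absurd haa (Nat.mul_self_lt_mul_self hlt).ne
    · exact heq
    · exact absurd haa (Nat.mul_self_lt_mul_self hgt).ne'
  have hδeq : δ = δ' := by
    apply Nat.eq_of_mul_eq_mul_left ha
    rw [h1, haeq, h1']
  have heeq : e = e' := by
    apply Nat.eq_of_mul_eq_mul_left hδ
    rw [h2, hδeq, h2']
  exact ⟨hC.2, haeq, hδeq, heeq⟩

/-- **the edge lemma**, existential form. -/
theorem m18cusp_edge_ex (hNk : (N : k) ≠ 0) (ι : ↥(m28dt_E D N) →ₐ[↥(m28dt_K0 D)] Ω)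
    {p d : ℕ} (hp : p.Prime) (hpd : p * d ∣ N) {ξ : kˣ} {a δ e : ℕ}
    (h : m18cusp_Sh D (m18cusp_Z D ι d) d ξ a δ e) :
    m18cusp_Sh D (m18cusp_Z D ι (p * d)) (p * d) (ξ ^ p) (p * a) δ e ∨
      ∃ (η : kˣ) (e' : ℕ), η ^ p = ξ ∧ e = p * e' ∧
        m18cusp_Sh D (m18cusp_Z D ι (p * d)) (p * d) η a (p * δ) e' := by
  have hN : N ≠ 0 := fun h0 => hNk (by rw [h0, Nat.cast_zero])
  have hdN : d ∣ N := (Dvd.intro_left p rfl).trans hpd
  have hpN : p ∣ N := (Dvd.intro d rfl).trans hpd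
  obtain ⟨ha0, hδ0, he0⟩ := m18cusp_Sh_pos hN h hdN
  obtain ⟨h1, h2, h3, h4⟩ := h
  have hd0 : 0 < d := Nat.pos_of_dvd_of_pos hdN (Nat.pos_of_ne_zero hN)
  have hpk : (p : k) ≠ 0 := m28dt_natCast_ne_zero_of_dvd hNk hpN
  -- `p ∣ e`
  have hpe : p ∣ e := by
    have h5 : p * d ∣ δ * e := by rw [h2]; exact hpd
    rw [← h1, show p * (a * δ) = δ * (p * a) by ring] at h5
    exact dvd_of_mul_right_dvd ((Nat.mul_dvd_mul_iff_left hδ0).mp h5)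
  -- the relation
  have hrel := m28dt_embed_root D N ι (D.prime p hp hpN).Φ
    ⟨m28dt_J D (p * d), m28dt_J_mem_E D hpd⟩ ⟨m28dt_J D d, m28dt_J_mem_E D hdN⟩
    (m28dt_J_root_first D hNk hp hpN hd0)
  rw [← m18cusp_Z_eq D ι hpd, ← m18cusp_Z_eq D ι hdN, h3] at hrel
  rcases m28dt_root_cases (D.prime p hp hpN) hp hpk ξ (Nat.mul_pos he0 ha0)
    (Dvd.dvd.mul_right hpe a) hrel with hF | ⟨η, hη, hS⟩
  · left
    refine ⟨by rw [← h1]; ring, h2, ?_, by rw [← pow_mul, mul_comm, pow_mul, h4, one_pow]⟩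
    rw [hF, show p * (e * a) = e * (p * a) by ring]
  · right
    obtain ⟨e', rfl⟩ := hpe
    refine ⟨η, e', hη, rfl, by rw [← h1]; ring, by rw [← h2]; ring, ?_, ?_⟩
    · rw [hS, show p * e' * a = p * (e' * a) by ring, Nat.mul_div_cancel_left _ hp.pos]
    · rw [mul_comm p δ, pow_mul', hη, h4]

/-- every `ι (J_d)` has a shape. -/
theorem m18cusp_shape (hNk : (N : k) ≠ 0) (ι : ↥(m28dt_E D N) →ₐ[↥(m28dt_K0 D)] Ω) :
    ∀ d, d ∣ N → ∃ (ξ : kˣ) (a δ e : ℕ), m18cusp_Sh D (m18cusp_Z D ι d) d ξ a δ e := by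
  have hN : N ≠ 0 := fun h0 => hNk (by rw [h0, Nat.cast_zero])
  intro d
  induction d using Nat.strong_induction_on with
  | _ d ih =>
    intro hd
    have hd0 : d ≠ 0 := fun h => hN (by rw [h] at hd; exact Nat.eq_zero_of_zero_dvd hd)
    rcases eq_or_ne d 1 with rfl | hd1
    · exact ⟨1, 1, 1, N, rfl, one_mul N, by rw [m18cusp_Z_one, mul_one], one_pow 1⟩
    · have hp : d.minFac.Prime := Nat.minFac_prime hd1
      obtain ⟨d', hd'⟩ := Nat.minFac_dvd d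
      set p := d.minFac with hpdef
      have hd'0 : 0 < d' := Nat.pos_of_ne_zero fun h => hd0 (by rw [hd', h, mul_zero])
      have hd'd : d' ∣ d := ⟨p, by rw [hd', mul_comm]⟩
      have hd'lt : d' < d := by
        rw [hd']
        have := hp.two_le
        nlinarith
      obtain ⟨ξ, a, δ, e, hsh⟩ := ih d' hd'lt (hd'd.trans hd)
      have hpd : p * d' ∣ N := by rw [← hd']; exact hd
      rcases m18cusp_edge_ex hNk ι hp hpd hsh with hF | ⟨η, e', -, -, hS⟩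
      · rw [← hd'] at hF
        exact ⟨_, _, _, _, hF⟩
      · rw [← hd'] at hS
        exact ⟨_, _, _, _, hS⟩

variable (D)

/-- the canonical data of `ι (J_d)`. -/
def m18cusp_dat (ι : ↥(m28dt_E D N) →ₐ[↥(m28dt_K0 D)] Ω) (d : ℕ) : kˣ × ℕ × ℕ × ℕ :=
  open Classical in
  if h : ∃ x : kˣ × ℕ × ℕ × ℕ, m18cusp_Sh D (m18cusp_Z D ι d) d x.1 x.2.1 x.2.2.1 x.2.2.2
  then h.choose else (1, 0, 0, 0)

/-- the root of unity of `ι (J_d)`. -/
def m18cusp_xi (ι : ↥(m28dt_E D N) →ₐ[↥(m28dt_K0 D)] Ω) (d : ℕ) : kˣ := (m18cusp_dat D ι d).1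

/-- the numerator `a` of `ι (J_d)`. -/
def m18cusp_a (ι : ↥(m28dt_E D N) →ₐ[↥(m28dt_K0 D)] Ω) (d : ℕ) : ℕ := (m18cusp_dat D ι d).2.1

/-- the denominator `δ` of `ι (J_d)`. -/
def m18cusp_de (ι : ↥(m28dt_E D N) →ₐ[↥(m28dt_K0 D)] Ω) (d : ℕ) : ℕ :=
  (m18cusp_dat D ι d).2.2.1

/-- the cofactor `e = N / δ` of `ι (J_d)`. -/
def m18cusp_e (ι : ↥(m28dt_E D N) →ₐ[↥(m28dt_K0 D)] Ω) (d : ℕ) : ℕ := (m18cusp_dat D ι d).2.2.2

variable {D}

theorem m18cusp_spec (hNk : (N : k) ≠ 0) (ι : ↥(m28dt_E D N) →ₐ[↥(m28dt_K0 D)] Ω) {d : ℕ}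
    (hd : d ∣ N) :
    m18cusp_Sh D (m18cusp_Z D ι d) d (m18cusp_xi D ι d) (m18cusp_a D ι d) (m18cusp_de D ι d)
      (m18cusp_e D ι d) := by
  have hex : ∃ x : kˣ × ℕ × ℕ × ℕ,
      m18cusp_Sh D (m18cusp_Z D ι d) d x.1 x.2.1 x.2.2.1 x.2.2.2 := by
    obtain ⟨ξ, a, δ, e, h⟩ := m18cusp_shape hNk ι d hd
    exact ⟨(ξ, a, δ, e), h⟩
  have h := hex.choose_spec
  unfold m18cusp_xi m18cusp_a m18cusp_de m18cusp_e m18cusp_dat
  rw [dif_pos hex]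
  exact h

theorem m18cusp_eq_of_Sh (hNk : (N : k) ≠ 0) (ι : ↥(m28dt_E D N) →ₐ[↥(m28dt_K0 D)] Ω) {d : ℕ}
    (hd : d ∣ N) {ξ : kˣ} {a δ e : ℕ} (h : m18cusp_Sh D (m18cusp_Z D ι d) d ξ a δ e) :
    m18cusp_xi D ι d = ξ ∧ m18cusp_a D ι d = a ∧ m18cusp_de D ι d = δ ∧ m18cusp_e D ι d = e :=
  m18cusp_Sh_unique (fun h0 => hNk (by rw [h0, Nat.cast_zero])) hd (m18cusp_spec hNk ι hd) h

end core

end Fermat.Agent.M18

end
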