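import Mathlib
import Fermat.Agent.M18.CuspCore

/-!
# S18, block (CUSP), part 2: steps of the first and second kind (prefix `m18cusp_`)

* `m18cusp_F ι p d` / `m18cusp_S ι p d` : the step `d → p * d` is of the first / second kind;
* `m18cusp_edge`     : every step is of one of the two kinds;
* `m18cusp_not_SF`, `m18cusp_FS_ne` : no backtracking;
* `m18cusp_pat`      : a step of the first kind at `d` forces `p ∤ δ (d)`;
* `m18cusp_prim`     : `p ∣ a (d)`, `p ∣ δ (d)` force `ξ (d) ^ (δ (d) / p) ≠ 1`;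
* `m18cusp_det_step`, `m18cusp_det` : `ι` is determined by `ι (J_N)`.
-/

set_option autoImplicit false
set_option linter.unusedSectionVars false
set_option linter.unusedVariables false

noncomputable section

namespace Fermat.Agent.M18

open Fermat.Agent.M28 Polynomial

section chain

variable {k Ω : Type} [Field k] [IsAlgClosed k] [Field Ω] [Algebra k Ω] {N : ℕ}
  {D : M28TowerData k Ω N}

theorem m18cusp_Z_eq_C (hNk : (N : k) ≠ 0) (ι : ↥(m28dt_E D N) →ₐ[↥(m28dt_K0 D)] Ω) {d : ℕ}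
    (hd : d ∣ N) :
    m18cusp_Z D ι d = D.C (m18cusp_xi D ι d) (m18cusp_e D ι d * m18cusp_a D ι d) :=
  (m18cusp_spec hNk ι hd).2.2.1

theorem m18cusp_a_mul_de (hNk : (N : k) ≠ 0) (ι : ↥(m28dt_E D N) →ₐ[↥(m28dt_K0 D)] Ω) {d : ℕ}
    (hd : d ∣ N) : m18cusp_a D ι d * m18cusp_de D ι d = d :=
  (m18cusp_spec hNk ι hd).1

theorem m18cusp_de_mul_e (hNk : (N : k) ≠ 0) (ι : ↥(m28dt_E D N) →ₐ[↥(m28dt_K0 D)] Ω) {d : ℕ}
    (hd : d ∣ N) : m18cusp_de D ι d * m18cusp_e D ι d = N :=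
  (m18cusp_spec hNk ι hd).2.1

theorem m18cusp_xi_pow_de (hNk : (N : k) ≠ 0) (ι : ↥(m28dt_E D N) →ₐ[↥(m28dt_K0 D)] Ω) {d : ℕ}
    (hd : d ∣ N) : m18cusp_xi D ι d ^ m18cusp_de D ι d = 1 :=
  (m18cusp_spec hNk ι hd).2.2.2

theorem m18cusp_pos (hNk : (N : k) ≠ 0) (ι : ↥(m28dt_E D N) →ₐ[↥(m28dt_K0 D)] Ω) {d : ℕ}
    (hd : d ∣ N) : 0 < m18cusp_a D ι d ∧ 0 < m18cusp_de D ι d ∧ 0 < m18cusp_e D ι d :=
  m18cusp_Sh_pos (fun h0 => hNk (by rw [h0, Nat.cast_zero])) (m18cusp_spec hNk ι hd) hd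

/-- the data only depend on the value. -/
theorem m18cusp_dat_congr (hNk : (N : k) ≠ 0) (ι ι' : ↥(m28dt_E D N) →ₐ[↥(m28dt_K0 D)] Ω)
    {d : ℕ} (hd : d ∣ N) (h : m18cusp_Z D ι d = m18cusp_Z D ι' d) :
    m18cusp_xi D ι d = m18cusp_xi D ι' d ∧ m18cusp_a D ι d = m18cusp_a D ι' d ∧
      m18cusp_de D ι d = m18cusp_de D ι' d ∧ m18cusp_e D ι d = m18cusp_e D ι' d := by
  have h1 := m18cusp_spec hNk ι' hd
  rw [← h] at h1
  exact m18cusp_eq_of_Sh hNk ι hd h1

variable (D) in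
/-- the step `d → p * d` is of the first kind. -/
def m18cusp_F (ι : ↥(m28dt_E D N) →ₐ[↥(m28dt_K0 D)] Ω) (p d : ℕ) : Prop :=
  m18cusp_xi D ι (p * d) = m18cusp_xi D ι d ^ p ∧ m18cusp_a D ι (p * d) = p * m18cusp_a D ι d ∧
    m18cusp_de D ι (p * d) = m18cusp_de D ι d ∧ m18cusp_e D ι (p * d) = m18cusp_e D ι d

variable (D) in
/-- the step `d → p * d` is of the second kind. -/
def m18cusp_S (ι : ↥(m28dt_E D N) →ₐ[↥(m28dt_K0 D)] Ω) (p d : ℕ) : Prop :=
  m18cusp_xi D ι (p * d) ^ p = m18cusp_xi D ι d ∧ m18cusp_a D ι (p * d) = m18cusp_a D ι d ∧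
    m18cusp_de D ι (p * d) = p * m18cusp_de D ι d ∧ m18cusp_e D ι d = p * m18cusp_e D ι (p * d)

/-- **the edge lemma.** -/
theorem m18cusp_edge (hNk : (N : k) ≠ 0) (ι : ↥(m28dt_E D N) →ₐ[↥(m28dt_K0 D)] Ω)
    {p d : ℕ} (hp : p.Prime) (hpd : p * d ∣ N) : m18cusp_F D ι p d ∨ m18cusp_S D ι p d := by
  have hdN : d ∣ N := (Dvd.intro_left p rfl).trans hpd
  rcases m18cusp_edge_ex hNk ι hp hpd (m18cusp_spec hNk ι hdN) with hF | ⟨η, e', hη, he, hS⟩
  · left
    obtain ⟨h1, h2, h3, h4⟩ := m18cusp_eq_of_Sh hNk ι hpd hF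
    exact ⟨h1, h2, h3, h4⟩
  · right
    obtain ⟨h1, h2, h3, h4⟩ := m18cusp_eq_of_Sh hNk ι hpd hS
    refine ⟨by rw [h1, hη], h2, h3, by rw [h4, he]⟩

/-- no step of the first kind after a step of the second kind. -/
theorem m18cusp_not_SF (hNk : (N : k) ≠ 0) (ι : ↥(m28dt_E D N) →ₐ[↥(m28dt_K0 D)] Ω)
    {p d : ℕ} (hp : p.Prime) (hppd : p * (p * d) ∣ N) (hS : m18cusp_S D ι p d)
    (hF : m18cusp_F D ι p (p * d)) : False := by
  have hN : N ≠ 0 := fun h0 => hNk (by rw [h0, Nat.cast_zero])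
  have hpdN : p * d ∣ N := (Dvd.intro_left p rfl).trans hppd
  have hdN : d ∣ N := (Dvd.intro_left p rfl).trans hpdN
  have hd0 : 0 < d := Nat.pos_of_dvd_of_pos hdN (Nat.pos_of_ne_zero hN)
  have h1 := m18cusp_Z_eq_C hNk ι hppd
  have h2 := m18cusp_Z_eq_C hNk ι hdN
  obtain ⟨s1, s2, s3, s4⟩ := hS
  obtain ⟨f1, f2, f3, f4⟩ := hF
  have h3 : m18cusp_Z D ι (p * (p * d)) = m18cusp_Z D ι d := by
    rw [h1, h2, f1, s1, f2, s2, f4, s4]
    congr 1
    ring
  have h4 := m18cusp_Z_inj D hN ι hppd hdN h3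
  have h5 : 2 * (2 * d) ≤ p * (p * d) :=
    Nat.mul_le_mul hp.two_le (Nat.mul_le_mul hp.two_le le_rfl)
  omega

/-- a step of the second kind after a step of the first kind does not come back. -/
theorem m18cusp_FS_ne (hNk : (N : k) ≠ 0) (ι : ↥(m28dt_E D N) →ₐ[↥(m28dt_K0 D)] Ω)
    {p d : ℕ} (hp : p.Prime) (hppd : p * (p * d) ∣ N) (hF : m18cusp_F D ι p d)
    (hS : m18cusp_S D ι p (p * d)) : m18cusp_xi D ι (p * (p * d)) ≠ m18cusp_xi D ι d := by
  intro hx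
  have hN : N ≠ 0 := fun h0 => hNk (by rw [h0, Nat.cast_zero])
  have hpdN : p * d ∣ N := (Dvd.intro_left p rfl).trans hppd
  have hdN : d ∣ N := (Dvd.intro_left p rfl).trans hpdN
  have hd0 : 0 < d := Nat.pos_of_dvd_of_pos hdN (Nat.pos_of_ne_zero hN)
  have h1 := m18cusp_Z_eq_C hNk ι hppd
  have h2 := m18cusp_Z_eq_C hNk ι hdN
  obtain ⟨s1, s2, s3, s4⟩ := hS
  obtain ⟨f1, f2, f3, f4⟩ := hF
  have hpe : 0 < m18cusp_e D ι (p * (p * d)) := (m18cusp_pos hNk ι hppd).2.2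
  have h3 : m18cusp_Z D ι (p * (p * d)) = m18cusp_Z D ι d := by
    rw [h1, h2, hx, s2, f2, ← f4, s4]
    congr 1
    ring
  have h4 := m18cusp_Z_inj D hN ι hppd hdN h3
  have h5 : 2 * (2 * d) ≤ p * (p * d) :=
    Nat.mul_le_mul hp.two_le (Nat.mul_le_mul hp.two_le le_rfl)
  omega

/-- an element killed by two coprime exponents is `1`. -/
theorem m18cusp_eq_one_of_pow {G : Type*} [Group G] {x : G} {m n : ℕ} (hmn : Nat.Coprime m n)
    (hm : x ^ m = 1) (hn : x ^ n = 1) : x = 1 := by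
  have h1 := orderOf_dvd_of_pow_eq_one hm
  have h2 := orderOf_dvd_of_pow_eq_one hn
  have h3 : orderOf x ∣ 1 := by
    rw [← Nat.Coprime.gcd_eq_one hmn]
    exact Nat.dvd_gcd h1 h2
  exact orderOf_eq_one_iff.mp (Nat.dvd_one.mp h3)

/-- **pattern**: a step of the first kind at `d` forces `p ∤ δ (d)`. -/
theorem m18cusp_pat (hNk : (N : k) ≠ 0) (ι : ↥(m28dt_E D N) →ₐ[↥(m28dt_K0 D)] Ω)
    {p : ℕ} (hp : p.Prime) :
    ∀ d, p * d ∣ N → m18cusp_F D ι p d → ¬ p ∣ m18cusp_de D ι d := by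
  have hN : N ≠ 0 := fun h0 => hNk (by rw [h0, Nat.cast_zero])
  intro d
  induction d using Nat.strong_induction_on with
  | _ d ih =>
    intro hpd hF hdvd
    have hdN : d ∣ N := (Dvd.intro_left p rfl).trans hpd
    have hd0 : 0 < d := Nat.pos_of_dvd_of_pos hdN (Nat.pos_of_ne_zero hN)
    have hpd' : p ∣ d := hdvd.trans (Dvd.intro_left _ (m18cusp_a_mul_de hNk ι hdN))
    obtain ⟨d', rfl⟩ := hpd'
    have hd'0 : 0 < d' := Nat.pos_of_ne_zero fun h => hd0.ne' (by rw [h, mul_zero])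
    have hlt : d' < p * d' := by
      have := hp.two_le
      nlinarith
    rcases m18cusp_edge hNk ι hp hdN with hF' | hS'
    · exact ih d' hlt hdN hF' (by rw [← hF'.2.2.1]; exact hdvd)
    · exact m18cusp_not_SF hNk ι hp hpd hS' hF

/-- **primitivity**: `p ∣ a (d)` and `p ∣ δ (d)` force `ξ (d) ^ (δ (d) / p) ≠ 1`. -/
theorem m18cusp_prim (hNk : (N : k) ≠ 0) (ι : ↥(m28dt_E D N) →ₐ[↥(m28dt_K0 D)] Ω)
    {p : ℕ} (hp : p.Prime) :
    ∀ d, d ∣ N → p ∣ m18cusp_a D ι d → p ∣ m18cusp_de D ι d →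
      m18cusp_xi D ι d ^ (m18cusp_de D ι d / p) ≠ 1 := by
  have hN : N ≠ 0 := fun h0 => hNk (by rw [h0, Nat.cast_zero])
  intro d
  induction d using Nat.strong_induction_on with
  | _ d ih =>
    intro hdN ha hde
    have hd0 : 0 < d := Nat.pos_of_dvd_of_pos hdN (Nat.pos_of_ne_zero hN)
    have hpd' : p ∣ d := hde.trans (Dvd.intro_left _ (m18cusp_a_mul_de hNk ι hdN))
    obtain ⟨d', rfl⟩ := hpd'
    have hd'0 : 0 < d' := Nat.pos_of_ne_zero fun h => hd0.ne' (by rw [h, mul_zero])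
    have hlt : d' < p * d' := by
      have := hp.two_le
      nlinarith
    have hd'N : d' ∣ N := (Dvd.intro_left p rfl).trans hdN
    rcases m18cusp_edge hNk ι hp hdN with hF | hS
    · exact absurd (by rw [← hF.2.2.1]; exact hde) (m18cusp_pat hNk ι hp d' hdN hF)
    · obtain ⟨s1, s2, s3, s4⟩ := hS
      have hdiv : m18cusp_de D ι (p * d') / p = m18cusp_de D ι d' := by
        rw [s3, Nat.mul_div_cancel_left _ hp.pos]
      rw [hdiv]
      have ha' : p ∣ m18cusp_a D ι d' := by rw [← s2]; exact ha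
      by_cases hde' : p ∣ m18cusp_de D ι d'
      · have h1 := ih d' hlt hd'N ha' hde'
        obtain ⟨c, hc⟩ := hde'
        rw [hc, Nat.mul_div_cancel_left _ hp.pos] at h1
        rw [hc, pow_mul, s1]
        exact h1
      · -- the previous step is of the first kind
        have hpd'' : p ∣ d' := ha'.trans (Dvd.intro _ (m18cusp_a_mul_de hNk ι hd'N))
        obtain ⟨d'', rfl⟩ := hpd''
        have hd''N : d'' ∣ N := (Dvd.intro_left p rfl).trans hd'N
        rcases m18cusp_edge hNk ι hp hd'N with hF' | hS'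
        · have hne := m18cusp_FS_ne hNk ι hp hdN hF' ⟨s1, s2, s3, s4⟩
          obtain ⟨f1, f2, f3, f4⟩ := hF'
          intro h1
          apply hne
          have h2 : (m18cusp_xi D ι (p * (p * d'')) * (m18cusp_xi D ι d'')⁻¹) ^ p = 1 := by
            rw [mul_pow, inv_pow, s1, f1, mul_inv_cancel]
          have h3 : (m18cusp_xi D ι (p * (p * d'')) * (m18cusp_xi D ι d'')⁻¹) ^
              m18cusp_de D ι (p * d'') = 1 := by
            rw [mul_pow, inv_pow, h1, f3, m18cusp_xi_pow_de hNk ι hd''N, inv_one, mul_one]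
          have h4 := m18cusp_eq_one_of_pow
            ((Nat.Prime.coprime_iff_not_dvd hp).mpr hde') h2 h3
          exact mul_inv_eq_one.mp h4
        · exact absurd (by rw [hS'.2.2.1]; exact Dvd.intro _ rfl) hde'

/-- **determination, one step down.** -/
theorem m18cusp_det_step (hNk : (N : k) ≠ 0) (ι ι' : ↥(m28dt_E D N) →ₐ[↥(m28dt_K0 D)] Ω)
    {p d : ℕ} (hp : p.Prime) (hpd : p * d ∣ N)
    (h : m18cusp_Z D ι (p * d) = m18cusp_Z D ι' (p * d)) :
    m18cusp_Z D ι d = m18cusp_Z D ι' d := by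
  have hN : N ≠ 0 := fun h0 => hNk (by rw [h0, Nat.cast_zero])
  have hdN : d ∣ N := (Dvd.intro_left p rfl).trans hpd
  obtain ⟨c1, c2, c3, c4⟩ := m18cusp_dat_congr hNk ι ι' hpd h
  obtain ⟨ha, hδ, he⟩ := m18cusp_pos hNk ι hdN
  obtain ⟨ha', hδ', he'⟩ := m18cusp_pos hNk ι' hdN
  rw [m18cusp_Z_eq_C hNk ι hdN, m18cusp_Z_eq_C hNk ι' hdN]
  rcases m18cusp_edge hNk ι hp hpd with hF | hS <;>
    rcases m18cusp_edge hNk ι' hp hpd with hF' | hS'
  · -- first kind twice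
    have hpat := m18cusp_pat hNk ι hp d hpd hF
    obtain ⟨f1, f2, f3, f4⟩ := hF
    obtain ⟨g1, g2, g3, g4⟩ := hF'
    have hae : m18cusp_a D ι d = m18cusp_a D ι' d := by
      apply Nat.eq_of_mul_eq_mul_left hp.pos
      rw [← f2, ← g2, c2]
    have hde : m18cusp_de D ι d = m18cusp_de D ι' d := by rw [← f3, ← g3, c3]
    have hee : m18cusp_e D ι d = m18cusp_e D ι' d := by rw [← f4, ← g4, c4]
    have h2 : (m18cusp_xi D ι d * (m18cusp_xi D ι' d)⁻¹) ^ p = 1 := by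
      rw [mul_pow, inv_pow, ← f1, ← g1, c1, mul_inv_cancel]
    have h3 : (m18cusp_xi D ι d * (m18cusp_xi D ι' d)⁻¹) ^ m18cusp_de D ι d = 1 := by
      rw [mul_pow, inv_pow, m18cusp_xi_pow_de hNk ι hdN, hde, m18cusp_xi_pow_de hNk ι' hdN,
        inv_one, mul_one]
    have h4 := m18cusp_eq_one_of_pow ((Nat.Prime.coprime_iff_not_dvd hp).mpr hpat) h2 h3
    rw [mul_inv_eq_one.mp h4, hae, hee]
  · -- mixed
    exfalso
    apply m18cusp_pat hNk ι hp d hpd hF
    rw [← hF.2.2.1, c3, hS'.2.2.1]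
    exact Dvd.intro _ rfl
  · exfalso
    apply m18cusp_pat hNk ι' hp d hpd hF'
    rw [← hF'.2.2.1, ← c3, hS.2.2.1]
    exact Dvd.intro _ rfl
  · obtain ⟨s1, s2, s3, s4⟩ := hS
    obtain ⟨t1, t2, t3, t4⟩ := hS'
    rw [← s1, ← t1, c1, ← s2, ← t2, c2, s4, t4, c4]

/-- **determination**: an embedding is determined by its value at `J_N`. -/
theorem m18cusp_det (hNk : (N : k) ≠ 0) (ι ι' : ↥(m28dt_E D N) →ₐ[↥(m28dt_K0 D)] Ω)
    (h : m18cusp_Z D ι N = m18cusp_Z D ι' N) : ι = ι' := by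
  have hN : N ≠ 0 := fun h0 => hNk (by rw [h0, Nat.cast_zero])
  have key : ∀ q d : ℕ, d * q = N → m18cusp_Z D ι d = m18cusp_Z D ι' d := by
    intro q
    induction q using Nat.strong_induction_on with
    | _ q ih =>
      intro d hdq
      have hq0 : q ≠ 0 := fun h0 => hN (by rw [← hdq, h0, mul_zero])
      rcases eq_or_ne q 1 with rfl | hq1
      · rw [mul_one] at hdq
        rw [hdq]
        exact h
      · have hp : q.minFac.Prime := Nat.minFac_prime hq1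
        obtain ⟨q', hq'⟩ := Nat.minFac_dvd q
        set p := q.minFac with hpdef
        have hq'0 : 0 < q' := Nat.pos_of_ne_zero fun h => hq0 (by rw [hq', h, mul_zero])
        have hlt : q' < q := by
          rw [hq']
          have := hp.two_le
          nlinarith
        have h1 : p * d * q' = N := by rw [← hdq, hq']; ring
        have h2 := ih q' hlt (p * d) h1
        exact m18cusp_det_step hNk ι ι' hp (Dvd.intro _ h1) h2
  apply m18cusp_ext
  intro d hd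
  obtain ⟨q, hq⟩ := hd
  exact key q d hq.symm

end chain

end Fermat.Agent.M18

end
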