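import Mathlib
import Fermat.Prelude.Def_ModularCurve_GenusNumerics
import Fermat.Agent.M18.CuspChain

/-!
# S18, block (CUSP), part 3: the orbits of the twists on the conjugate embeddings
(prefix `m18cusp_`)

* `m18cusp_tw D hN ε hε ι` : the twist `τ_ε ∘ ι` of a `K₀`-embedding, `ε ^ N = 1`;
* `m18cusp_T D hN ζ hζ`    : the permutation `ι ↦ τ_ζ ∘ ι` of the set of embeddings;
* `m18cusp_inv D ι`        : the invariant `(a, ξ ^ (δ / gcd (a, δ)))` of `ι (J_N) = C ξ (a ^ 2)`;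
* `m18cusp_inv_mem`        : it lies in `⨆_{a ∣ N} {primitive gcd (a, N / a)-th roots of unity}`;
* `m18cusp_exists_tw_of_inv_eq` : two embeddings with the same invariant differ by a twist;
* `m18cusp_card_orbits`    : the number of orbits of `T` is at most `cuspCount N`.
-/

set_option autoImplicit false
set_option linter.unusedSectionVars false
set_option linter.unusedVariables false

noncomputable section

namespace Fermat.Agent.M18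

open Fermat.Agent.M28 Polynomial ModularCurve

section orbit

variable {k Ω : Type} [Field k] [IsAlgClosed k] [Field Ω] [Algebra k Ω] {N : ℕ}
  (D : M28TowerData k Ω N)

/-- the twist of an embedding by an `N`-th root of unity. -/
def m18cusp_tw (hN : 0 < N) (ε : kˣ) (hε : ε ^ N = 1)
    (ι : ↥(m28dt_E D N) →ₐ[↥(m28dt_K0 D)] Ω) : ↥(m28dt_E D N) →ₐ[↥(m28dt_K0 D)] Ω :=
  { (D.τ ε).comp (ι : ↥(m28dt_E D N) →+* Ω) with
    commutes' := fun c => by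
      show D.τ ε (ι (algebraMap _ _ c)) = algebraMap _ _ c
      rw [ι.commutes]
      exact m28dt_fix_K0 D (D.τ ε) (D.τ_algebraMap ε)
        (by rw [D.τ_C ε 1 N hN, one_mul, hε]) c.1 c.2 }

variable {D}

theorem m18cusp_tw_apply (hN : 0 < N) (ε : kˣ) (hε : ε ^ N = 1)
    (ι : ↥(m28dt_E D N) →ₐ[↥(m28dt_K0 D)] Ω) (x : ↥(m28dt_E D N)) :
    m18cusp_tw D hN ε hε ι x = D.τ ε (ι x) := rfl

theorem m18cusp_Z_tw (hN : 0 < N) (ε : kˣ) (hε : ε ^ N = 1)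
    (ι : ↥(m28dt_E D N) →ₐ[↥(m28dt_K0 D)] Ω) {d : ℕ} (hd : d ∣ N) :
    m18cusp_Z D (m18cusp_tw D hN ε hε ι) d = D.τ ε (m18cusp_Z D ι d) := by
  rw [m18cusp_Z_eq D _ hd, m18cusp_Z_eq D _ hd, m18cusp_tw_apply]

theorem m18cusp_Z_tw_C (hNk : (N : k) ≠ 0) (hN : 0 < N) (ε : kˣ) (hε : ε ^ N = 1)
    (ι : ↥(m28dt_E D N) →ₐ[↥(m28dt_K0 D)] Ω) {d : ℕ} (hd : d ∣ N) :
    m18cusp_Z D (m18cusp_tw D hN ε hε ι) d =
      D.C (m18cusp_xi D ι d * ε ^ (m18cusp_e D ι d * m18cusp_a D ι d))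
        (m18cusp_e D ι d * m18cusp_a D ι d) := by
  obtain ⟨ha, hδ, he⟩ := m18cusp_pos hNk ι hd
  rw [m18cusp_Z_tw hN ε hε ι hd, m18cusp_Z_eq_C hNk ι hd, D.τ_C ε _ _ (Nat.mul_pos he ha)]

/-- the data of a twist. -/
theorem m18cusp_dat_tw (hNk : (N : k) ≠ 0) (hN : 0 < N) (ε : kˣ) (hε : ε ^ N = 1)
    (ι : ↥(m28dt_E D N) →ₐ[↥(m28dt_K0 D)] Ω) {d : ℕ} (hd : d ∣ N) :
    m18cusp_xi D (m18cusp_tw D hN ε hε ι) d =
        m18cusp_xi D ι d * ε ^ (m18cusp_e D ι d * m18cusp_a D ι d) ∧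
      m18cusp_a D (m18cusp_tw D hN ε hε ι) d = m18cusp_a D ι d ∧
      m18cusp_de D (m18cusp_tw D hN ε hε ι) d = m18cusp_de D ι d ∧
      m18cusp_e D (m18cusp_tw D hN ε hε ι) d = m18cusp_e D ι d := by
  apply m18cusp_eq_of_Sh hNk _ hd
  refine ⟨m18cusp_a_mul_de hNk ι hd, m18cusp_de_mul_e hNk ι hd, m18cusp_Z_tw_C hNk hN ε hε ι hd, ?_⟩
  rw [mul_pow, m18cusp_xi_pow_de hNk ι hd, one_mul, ← pow_mul,
    show m18cusp_e D ι d * m18cusp_a D ι d * m18cusp_de D ι d =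
      (m18cusp_de D ι d * m18cusp_e D ι d) * m18cusp_a D ι d by ring,
    m18cusp_de_mul_e hNk ι hd, pow_mul, hε, one_pow]

theorem m18cusp_tw_one (hNk : (N : k) ≠ 0) (hN : 0 < N)
    (ι : ↥(m28dt_E D N) →ₐ[↥(m28dt_K0 D)] Ω) :
    m18cusp_tw D hN 1 (one_pow N) ι = ι := by
  apply m18cusp_ext
  intro d hd
  rw [m18cusp_Z_tw_C hNk hN 1 (one_pow N) ι hd, one_pow, mul_one, ← m18cusp_Z_eq_C hNk ι hd]

theorem m18cusp_tw_mul (hNk : (N : k) ≠ 0) (hN : 0 < N) (ε ε' : kˣ) (hε : ε ^ N = 1)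
    (hε' : ε' ^ N = 1) (ι : ↥(m28dt_E D N) →ₐ[↥(m28dt_K0 D)] Ω) :
    m18cusp_tw D hN ε hε (m18cusp_tw D hN ε' hε' ι) =
      m18cusp_tw D hN (ε * ε') (by rw [mul_pow, hε, hε', one_mul]) ι := by
  apply m18cusp_ext
  intro d hd
  obtain ⟨d1, d2, d3, d4⟩ := m18cusp_dat_tw hNk hN ε' hε' ι hd
  rw [m18cusp_Z_tw_C hNk hN ε hε _ hd, m18cusp_Z_tw_C hNk hN (ε * ε') _ ι hd, d1, d2, d4,
    mul_pow, mul_assoc, mul_comm (ε' ^ _) (ε ^ _)]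

variable (D)

/-- the permutation `ι ↦ τ_ζ ∘ ι` of the embeddings. -/
def m18cusp_T (hNk : (N : k) ≠ 0) (hN : 0 < N) (ζ : kˣ) (hζ : ζ ^ N = 1) :
    Equiv.Perm (↥(m28dt_E D N) →ₐ[↥(m28dt_K0 D)] Ω) where
  toFun := m18cusp_tw D hN ζ hζ
  invFun := m18cusp_tw D hN ζ⁻¹ (by rw [inv_pow, hζ, inv_one])
  left_inv ι := by
    rw [m18cusp_tw_mul hNk hN]
    simp only [inv_mul_cancel]
    exact m18cusp_tw_one hNk hN ι
  right_inv ι := by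
    rw [m18cusp_tw_mul hNk hN]
    simp only [mul_inv_cancel]
    exact m18cusp_tw_one hNk hN ι

variable {D}

theorem m18cusp_T_apply (hNk : (N : k) ≠ 0) (hN : 0 < N) (ζ : kˣ) (hζ : ζ ^ N = 1)
    (ι : ↥(m28dt_E D N) →ₐ[↥(m28dt_K0 D)] Ω) :
    m18cusp_T D hNk hN ζ hζ ι = m18cusp_tw D hN ζ hζ ι := rfl

theorem m18cusp_T_symm_apply (hNk : (N : k) ≠ 0) (hN : 0 < N) (ζ : kˣ) (hζ : ζ ^ N = 1)
    (ι : ↥(m28dt_E D N) →ₐ[↥(m28dt_K0 D)] Ω) :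
    (m18cusp_T D hNk hN ζ hζ).symm ι =
      m18cusp_tw D hN ζ⁻¹ (by rw [inv_pow, hζ, inv_one]) ι := rfl

theorem m18cusp_T_pow (hNk : (N : k) ≠ 0) (hN : 0 < N) (ζ : kˣ) (hζ : ζ ^ N = 1) (j : ℕ)
    (ι : ↥(m28dt_E D N) →ₐ[↥(m28dt_K0 D)] Ω) :
    (m18cusp_T D hNk hN ζ hζ ^ j) ι =
      m18cusp_tw D hN (ζ ^ j) (by rw [← pow_mul, mul_comm, pow_mul, hζ, one_pow]) ι := by
  induction j with
  | zero =>
    simp only [pow_zero, Equiv.Perm.coe_one, id_eq]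
    exact (m18cusp_tw_one hNk hN ι).symm
  | succ j ih =>
    rw [pow_succ', Equiv.Perm.coe_mul, Function.comp_apply, ih, m18cusp_T_apply,
      m18cusp_tw_mul hNk hN]
    congr 1
    rw [pow_succ']

theorem m18cusp_T_zpow (hNk : (N : k) ≠ 0) (hN : 0 < N) (ζ : kˣ) (hζ : ζ ^ N = 1) (j : ℤ)
    (ι : ↥(m28dt_E D N) →ₐ[↥(m28dt_K0 D)] Ω) :
    (m18cusp_T D hNk hN ζ hζ ^ j) ι =
      m18cusp_tw D hN (ζ ^ j) (by rw [← zpow_natCast, ← zpow_mul, mul_comm, zpow_mul,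
        zpow_natCast, hζ, one_zpow]) ι := by
  rcases j with n | n
  · have := m18cusp_T_pow hNk hN ζ hζ n ι
    simpa using this
  · rw [zpow_negSucc, Equiv.Perm.inv_eq_iff_eq, m18cusp_T_pow hNk hN ζ hζ (n + 1),
      m18cusp_tw_mul hNk hN]
    have h3 : ζ ^ (n + 1) * ζ ^ Int.negSucc n = 1 := by
      rw [zpow_negSucc, mul_inv_cancel]
    have h4 : ∀ (ε : kˣ) (hε : ε ^ N = 1), ε = 1 → m18cusp_tw D hN ε hε ι = ι := by
      intro ε hε h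
      subst h
      exact m18cusp_tw_one hNk hN ι
    exact (h4 _ _ h3).symm

end orbit

end Fermat.Agent.M18

end
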