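import Mathlib
import Fermat.Prelude.Def_ModularCurve_GenusNumerics
import Fermat.Agent.M18.CuspOrbit

/-!
# S18, block (CUSP), part 4: the number of orbits of the twists (prefix `m18cusp_`)

* `m18cusp_inv D ι`        : the invariant `(a, ξ ^ (δ / gcd (a, δ)))` of `ι (J_N) = C ξ (a ^ 2)`,
  `a * δ = N`;
* `m18cusp_target N k`     : the disjoint union over `a ∣ N` of the sets of primitive
  `gcd (a, N / a)`-th roots of unity of `k`; its cardinality is `cuspCount N`;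
* `m18cusp_inv_mem`, `m18cusp_inv_tw` : the invariant lies in the target and is constant on
  the orbits of the twists;
* `m18cusp_exists_zpow_of_inv_eq` : two embeddings with the same invariant differ by a twist;
* `m18cusp_card_orbits`    : the number of orbits of `T` is at most `cuspCount N`.
-/

set_option autoImplicit false
set_option linter.unusedSectionVars false
set_option linter.unusedVariables false

noncomputable section

namespace Fermat.Agent.M18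

open Fermat.Agent.M28 Polynomial ModularCurve

section count

variable {k Ω : Type} [Field k] [IsAlgClosed k] [Field Ω] [Algebra k Ω] {N : ℕ}
  {D : M28TowerData k Ω N}

/-- at the top `d = N`: `a * δ = N` and `e = a`. -/
theorem m18cusp_top (hNk : (N : k) ≠ 0) (ι : ↥(m28dt_E D N) →ₐ[↥(m28dt_K0 D)] Ω) :
    m18cusp_a D ι N * m18cusp_de D ι N = N ∧ m18cusp_e D ι N = m18cusp_a D ι N := by
  have h1 := m18cusp_a_mul_de hNk ι (dvd_refl N)
  have h2 := m18cusp_de_mul_e hNk ι (dvd_refl N)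
  obtain ⟨ha, hδ, he⟩ := m18cusp_pos hNk ι (dvd_refl N)
  refine ⟨h1, ?_⟩
  apply Nat.eq_of_mul_eq_mul_left hδ
  rw [h2, mul_comm, h1]

variable (D) in
/-- the exponent `w = δ / gcd (a, δ)` (the width of the cusp). -/
def m18cusp_w (ι : ↥(m28dt_E D N) →ₐ[↥(m28dt_K0 D)] Ω) : ℕ :=
  m18cusp_de D ι N / Nat.gcd (m18cusp_a D ι N) (m18cusp_de D ι N)

variable (D) in
/-- the invariant of an embedding. -/
def m18cusp_inv (ι : ↥(m28dt_E D N) →ₐ[↥(m28dt_K0 D)] Ω) : (Σ _ : ℕ, k) :=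
  ⟨m18cusp_a D ι N, ((m18cusp_xi D ι N ^ m18cusp_w D ι : kˣ) : k)⟩

/-- the target of the invariant. -/
def m18cusp_target (N : ℕ) (k : Type) [Field k] : Finset (Σ _ : ℕ, k) :=
  N.divisors.sigma (fun a => primitiveRoots (Nat.gcd a (N / a)) k)

theorem m18cusp_card_target (hNk : (N : k) ≠ 0) : (m18cusp_target N k).card = cuspCount N := by
  have hN : N ≠ 0 := fun h0 => hNk (by rw [h0, Nat.cast_zero])
  unfold m18cusp_target cuspCount
  rw [Finset.card_sigma]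
  refine Finset.sum_congr rfl fun a ha => ?_
  have haN : a ∣ N := Nat.dvd_of_mem_divisors ha
  have hg : (Nat.gcd a (N / a) : k) ≠ 0 :=
    m28dt_natCast_ne_zero_of_dvd hNk ((Nat.gcd_dvd_left a (N / a)).trans haN)
  obtain ⟨ζ, hζ⟩ := m28dt_exists_primitiveRoot (k := k) hg
  exact IsPrimitiveRoot.card_primitiveRoots (IsPrimitiveRoot.coe_units_iff.mpr hζ)

theorem m18cusp_w_mul_gcd (hNk : (N : k) ≠ 0) (ι : ↥(m28dt_E D N) →ₐ[↥(m28dt_K0 D)] Ω) :
    m18cusp_w D ι * Nat.gcd (m18cusp_a D ι N) (m18cusp_de D ι N) = m18cusp_de D ι N :=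
  Nat.div_mul_cancel (Nat.gcd_dvd_right _ _)

theorem m18cusp_w_pos (hNk : (N : k) ≠ 0) (ι : ↥(m28dt_E D N) →ₐ[↥(m28dt_K0 D)] Ω) :
    0 < m18cusp_w D ι := by
  obtain ⟨ha, hδ, he⟩ := m18cusp_pos hNk ι (dvd_refl N)
  exact Nat.div_pos (Nat.le_of_dvd hδ (Nat.gcd_dvd_right _ _)) (Nat.gcd_pos_of_pos_left _ ha)

/-- `N ∣ a * a * w`. -/
theorem m18cusp_N_dvd (hNk : (N : k) ≠ 0) (ι : ↥(m28dt_E D N) →ₐ[↥(m28dt_K0 D)] Ω) :
    N ∣ m18cusp_a D ι N * m18cusp_a D ι N * m18cusp_w D ι := by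
  obtain ⟨c, hc⟩ := Nat.gcd_dvd_left (m18cusp_a D ι N) (m18cusp_de D ι N)
  have h1 := m18cusp_w_mul_gcd hNk ι
  have h2 := (m18cusp_top hNk ι).1
  refine ⟨c, ?_⟩
  calc m18cusp_a D ι N * m18cusp_a D ι N * m18cusp_w D ι
      = m18cusp_a D ι N * (Nat.gcd (m18cusp_a D ι N) (m18cusp_de D ι N) * c)
          * m18cusp_w D ι := by rw [← hc]
    _ = m18cusp_a D ι N *
          (m18cusp_w D ι * Nat.gcd (m18cusp_a D ι N) (m18cusp_de D ι N)) * c := by ring
    _ = N * c := by rw [h1, h2]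

theorem m18cusp_arith_div {a δ M : ℕ} (ha : 0 < a) (h : a * δ = M) :
    M / Nat.gcd M (a * a) = δ / Nat.gcd a δ := by
  subst h
  rw [Nat.gcd_mul_left, Nat.mul_div_mul_left _ _ ha, Nat.gcd_comm]

/-- `N / gcd (N, a * a) = w`. -/
theorem m18cusp_div_gcd (hNk : (N : k) ≠ 0) (ι : ↥(m28dt_E D N) →ₐ[↥(m28dt_K0 D)] Ω) :
    N / Nat.gcd N (m18cusp_a D ι N * m18cusp_a D ι N) = m18cusp_w D ι := by
  obtain ⟨ha, hδ, he⟩ := m18cusp_pos hNk ι (dvd_refl N)
  exact m18cusp_arith_div ha (m18cusp_top hNk ι).1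

theorem m18cusp_inv_mem (hNk : (N : k) ≠ 0) (ι : ↥(m28dt_E D N) →ₐ[↥(m28dt_K0 D)] Ω) :
    m18cusp_inv D ι ∈ m18cusp_target N k := by
  have hN : N ≠ 0 := fun h0 => hNk (by rw [h0, Nat.cast_zero])
  obtain ⟨ha, hδ, he⟩ := m18cusp_pos hNk ι (dvd_refl N)
  have h2 := (m18cusp_top hNk ι).1
  have hdiv : N / m18cusp_a D ι N = m18cusp_de D ι N :=
    Nat.div_eq_of_eq_mul_right ha h2.symm
  have hg0 : 0 < Nat.gcd (m18cusp_a D ι N) (m18cusp_de D ι N) := Nat.gcd_pos_of_pos_left _ ha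
  unfold m18cusp_target m18cusp_inv
  rw [Finset.mem_sigma]
  refine ⟨Nat.mem_divisors.mpr ⟨Dvd.intro _ h2, hN⟩, ?_⟩
  show ((m18cusp_xi D ι N ^ m18cusp_w D ι : kˣ) : k) ∈
    primitiveRoots (Nat.gcd (m18cusp_a D ι N) (N / m18cusp_a D ι N)) k
  rw [hdiv, mem_primitiveRoots hg0, IsPrimitiveRoot.coe_units_iff]
  have hord : orderOf (m18cusp_xi D ι N ^ m18cusp_w D ι) =
      Nat.gcd (m18cusp_a D ι N) (m18cusp_de D ι N) := by
    apply orderOf_eq_of_pow_and_pow_div_prime hg0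
    · rw [← pow_mul, m18cusp_w_mul_gcd hNk ι, m18cusp_xi_pow_de hNk ι (dvd_refl N)]
    · intro p hp hpg
      have hpa : p ∣ m18cusp_a D ι N := hpg.trans (Nat.gcd_dvd_left _ _)
      have hpδ : p ∣ m18cusp_de D ι N := hpg.trans (Nat.gcd_dvd_right _ _)
      have h3 := m18cusp_prim hNk ι hp N (dvd_refl N) hpa hpδ
      have h4 : m18cusp_w D ι * (Nat.gcd (m18cusp_a D ι N) (m18cusp_de D ι N) / p) =
          m18cusp_de D ι N / p := by
        obtain ⟨c, hc⟩ := hpg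
        rw [hc, Nat.mul_div_cancel_left _ hp.pos]
        have h5 := m18cusp_w_mul_gcd hNk ι
        rw [hc] at h5
        rw [← h5, show m18cusp_w D ι * (p * c) = p * (m18cusp_w D ι * c) by ring,
          Nat.mul_div_cancel_left _ hp.pos]
      rw [← pow_mul, h4]
      exact h3
  rw [← hord]
  exact IsPrimitiveRoot.orderOf _

/-- the invariant is constant on the orbits of the twists. -/
theorem m18cusp_inv_tw (hNk : (N : k) ≠ 0) (hN : 0 < N) (ε : kˣ) (hε : ε ^ N = 1)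
    (ι : ↥(m28dt_E D N) →ₐ[↥(m28dt_K0 D)] Ω) :
    m18cusp_inv D (m18cusp_tw D hN ε hε ι) = m18cusp_inv D ι := by
  obtain ⟨d1, d2, d3, d4⟩ := m18cusp_dat_tw hNk hN ε hε ι (dvd_refl N)
  have hw : m18cusp_w D (m18cusp_tw D hN ε hε ι) = m18cusp_w D ι := by
    unfold m18cusp_w
    rw [d2, d3]
  unfold m18cusp_inv
  rw [d2, hw, d1, mul_pow, ← pow_mul, (m18cusp_top hNk ι).2]
  obtain ⟨c, hc⟩ := m18cusp_N_dvd hNk ι
  rw [hc, pow_mul, hε, one_pow, mul_one]

/-- two embeddings with the same invariant differ by a twist. -/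
theorem m18cusp_exists_zpow_of_inv_eq (hNk : (N : k) ≠ 0) (hN : 0 < N) (ζ : kˣ)
    (hζ : IsPrimitiveRoot ζ N) (ι ι' : ↥(m28dt_E D N) →ₐ[↥(m28dt_K0 D)] Ω)
    (h : m18cusp_inv D ι = m18cusp_inv D ι') :
    ∃ j : ℤ, (m18cusp_T D hNk hN ζ hζ.pow_eq_one ^ j) ι = ι' := by
  have hN0 : N ≠ 0 := hN.ne'
  unfold m18cusp_inv at h
  rw [Sigma.mk.inj_iff] at h
  obtain ⟨hae, hu⟩ := h
  have hu' := eq_of_heq hu
  obtain ⟨ha, hδ, he⟩ := m18cusp_pos hNk ι (dvd_refl N)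
  have hδe : m18cusp_de D ι N = m18cusp_de D ι' N := by
    apply Nat.eq_of_mul_eq_mul_left ha
    rw [(m18cusp_top hNk ι).1, hae, (m18cusp_top hNk ι').1]
  have hwe : m18cusp_w D ι = m18cusp_w D ι' := by
    unfold m18cusp_w
    rw [hae, hδe]
  have hxw : m18cusp_xi D ι N ^ m18cusp_w D ι = m18cusp_xi D ι' N ^ m18cusp_w D ι := by
    apply Units.ext
    rw [hu', hwe]
  -- the generator of the group of twisting factors
  set η : kˣ := ζ ^ (m18cusp_a D ι N * m18cusp_a D ι N) with hη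
  have hordζ : orderOf ζ = N := hζ.eq_orderOf.symm
  have hordη : orderOf η = m18cusp_w D ι := by
    rw [hη, orderOf_pow' _ (Nat.mul_ne_zero ha.ne' ha.ne'), hordζ, m18cusp_div_gcd hNk ι]
  have hprim : IsPrimitiveRoot η (m18cusp_w D ι) := by
    rw [← hordη]
    exact IsPrimitiveRoot.orderOf η
  haveI : NeZero (m18cusp_w D ι) := ⟨(m18cusp_w_pos hNk ι).ne'⟩
  have hmem : m18cusp_xi D ι' N * (m18cusp_xi D ι N)⁻¹ ∈ Subgroup.zpowers η := by
    rw [hprim.zpowers_eq, mem_rootsOfUnity, mul_pow, inv_pow, ← hxw, mul_inv_cancel]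
  obtain ⟨j, hj⟩ := Subgroup.mem_zpowers_iff.mp hmem
  refine ⟨j, ?_⟩
  rw [m18cusp_T_zpow hNk hN ζ hζ.pow_eq_one j ι]
  apply m18cusp_det hNk
  rw [m18cusp_Z_tw_C hNk hN _ _ ι (dvd_refl N), m18cusp_Z_eq_C hNk ι' (dvd_refl N),
    (m18cusp_top hNk ι).2, (m18cusp_top hNk ι').2, ← hae]
  congr 1
  have h1 : (ζ ^ j) ^ (m18cusp_a D ι N * m18cusp_a D ι N) = η ^ j := by
    rw [hη, ← zpow_natCast, ← zpow_natCast, ← zpow_mul, ← zpow_mul, mul_comm]
  rw [h1, hj, mul_comm, inv_mul_cancel_right]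

/-- **the number of orbits of the twists is at most `cuspCount N`.** -/
theorem m18cusp_card_orbits (hNk : (N : k) ≠ 0) (hN : 0 < N) (ζ : kˣ)
    (hζ : IsPrimitiveRoot ζ N) :
    Nat.card (Quotient (MulAction.orbitRel
      (Subgroup.zpowers (m18cusp_T D hNk hN ζ hζ.pow_eq_one))
      (↥(m28dt_E D N) →ₐ[↥(m28dt_K0 D)] Ω))) ≤ cuspCount N := by
  classical
  set T := m18cusp_T D hNk hN ζ hζ.pow_eq_one with hT
  set r := MulAction.orbitRel (Subgroup.zpowers T) (↥(m28dt_E D N) →ₐ[↥(m28dt_K0 D)] Ω) with hr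
  have hresp : ∀ ι ι' : ↥(m28dt_E D N) →ₐ[↥(m28dt_K0 D)] Ω, r.r ι ι' →
      (⟨m18cusp_inv D ι, m18cusp_inv_mem hNk ι⟩ : ↥(m18cusp_target N k)) =
        ⟨m18cusp_inv D ι', m18cusp_inv_mem hNk ι'⟩ := by
    intro ι ι' hrel
    change ι ∈ MulAction.orbit (Subgroup.zpowers T) ι' at hrel
    obtain ⟨⟨g, hg⟩, rfl⟩ := hrel
    obtain ⟨j, rfl⟩ := Subgroup.mem_zpowers_iff.mp hg
    apply Subtype.ext
    show m18cusp_inv D ((T ^ j) ι') = m18cusp_inv D ι'
    rw [hT, m18cusp_T_zpow hNk hN ζ hζ.pow_eq_one j ι', m18cusp_inv_tw hNk hN]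
  let f : Quotient r → ↥(m18cusp_target N k) :=
    Quotient.lift (fun ι => (⟨m18cusp_inv D ι, m18cusp_inv_mem hNk ι⟩ :
      ↥(m18cusp_target N k))) hresp
  have hf : Function.Injective f := by
    intro x y
    induction x using Quotient.inductionOn with
    | h ι =>
      induction y using Quotient.inductionOn with
      | h ι' =>
        intro hxy
        have h1 : m18cusp_inv D ι = m18cusp_inv D ι' := congrArg Subtype.val hxy
        obtain ⟨j, hj⟩ := m18cusp_exists_zpow_of_inv_eq hNk hN ζ hζ ι ι' h1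
        apply Quotient.sound
        apply r.symm
        change ι' ∈ MulAction.orbit (Subgroup.zpowers T) ι
        exact ⟨⟨T ^ j, Subgroup.zpow_mem_zpowers T j⟩, hj⟩
  calc Nat.card (Quotient r) ≤ Nat.card ↥(m18cusp_target N k) :=
        Nat.card_le_card_of_injective f hf
    _ = (m18cusp_target N k).card := by
        rw [Nat.card_eq_fintype_card, Fintype.card_coe]
    _ = cuspCount N := m18cusp_card_target hNk

end count

end Fermat.Agent.M18

end
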