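import Mathlib
import Fermat.Agent.M18.CuspCore

/-!
# S18, block (CUSP), part 5: `E_N / K₀` is finite and separable (prefix `m18cusp_`)

* `m18cusp_finiteDimensional` : `E_N` is finite-dimensional over `K₀ = k (J_1)`;
* `m18cusp_J_isSeparable`     : every `J_d`, `d ∣ N`, is separable over `K₀`
  (it is a root of `Φ_p (X, J_{d / p})`, which has `p + 1` distinct roots);
* `m18cusp_isSeparable`       : `E_N / K₀` is separable.
-/

set_option autoImplicit false
set_option linter.unusedSectionVars false
set_option linter.unusedVariables false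

noncomputable section

namespace Fermat.Agent.M18

open Fermat.Agent.M28 Polynomial IntermediateField

section sep

variable {k Ω : Type} [Field k] [IsAlgClosed k] [Field Ω] [Algebra k Ω] {N : ℕ}
  (D : M28TowerData k Ω N)

theorem m18cusp_finite_Jset (hN : N ≠ 0) : (m28dt_Jset D N).Finite := by
  unfold m28dt_Jset
  apply Set.Finite.image
  apply Set.Finite.subset (Set.finite_le_nat N)
  intro d hd
  exact Nat.le_of_dvd (Nat.pos_of_ne_zero hN) hd

theorem m18cusp_finiteDimensional (hNk : (N : k) ≠ 0) :
    FiniteDimensional ↥(m28dt_K0 D) ↥(m28dt_E D N) := by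
  have hN : N ≠ 0 := fun h0 => hNk (by rw [h0, Nat.cast_zero])
  haveI : Finite ↥(m28dt_Jset D N) := (m18cusp_finite_Jset D hN).to_subtype
  unfold m28dt_E
  apply IntermediateField.finiteDimensional_adjoin
  rintro x ⟨d, hd, rfl⟩
  exact m28dt_J_isIntegral_K0 D hNk hd

theorem m18cusp_J_isSeparable (hNk : (N : k) ≠ 0) :
    ∀ d, d ∣ N → IsSeparable ↥(m28dt_K0 D) (m28dt_J D d) := by
  have hN : N ≠ 0 := fun h0 => hNk (by rw [h0, Nat.cast_zero])
  have hN0 : 0 < N := Nat.pos_of_ne_zero hN
  intro d
  induction d using Nat.strong_induction_on with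
  | _ d ih =>
    intro hd
    have hd0 : d ≠ 0 := fun h => hN (by rw [h] at hd; exact Nat.eq_zero_of_zero_dvd hd)
    rcases eq_or_ne d 1 with rfl | hd1
    · rw [m28dt_J_one]
      exact isSeparable_algebraMap (F := ↥(m28dt_K0 D)) (K := Ω)
        (⟨D.C 1 N, m28dt_C1N_mem_K0 D⟩ : ↥(m28dt_K0 D))
    · have hp : d.minFac.Prime := Nat.minFac_prime hd1
      obtain ⟨d', hd'⟩ := Nat.minFac_dvd d
      set p := d.minFac with hpdef
      have hd'0 : 0 < d' := Nat.pos_of_ne_zero fun h => hd0 (by rw [hd', h, mul_zero])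
      have hd'd : d' ∣ d := ⟨p, by rw [hd', mul_comm]⟩
      have hd'lt : d' < d := by
        rw [hd']
        have := hp.two_le
        nlinarith
      have hpN : p ∣ N := (Nat.minFac_dvd d).trans hd
      have hpk : (p : k) ≠ 0 := m28dt_natCast_ne_zero_of_dvd hNk hpN
      have ih' := ih d' hd'lt (hd'd.trans hd)
      -- the intermediate field `K₁ = K₀ (J_{d'})`
      let K1 : IntermediateField ↥(m28dt_K0 D) Ω :=
        IntermediateField.adjoin ↥(m28dt_K0 D) {m28dt_J D d'}
      haveI : Algebra.IsSeparable ↥(m28dt_K0 D) ↥K1 :=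
        (IntermediateField.isSeparable_adjoin_simple_iff_isSeparable _ _).mpr ih'
      have hmem : m28dt_J D d' ∈ K1 := IntermediateField.mem_adjoin_simple_self _ _
      let ev1 : Polynomial k →+* ↥K1 :=
        (Polynomial.aeval (R := k) (⟨m28dt_J D d', hmem⟩ : ↥K1)).toRingHom
      have hcomp : (algebraMap ↥K1 Ω).comp ev1 = m28dt_ev (m28dt_J D d') := by
        apply Polynomial.ringHom_ext
        · intro c
          simp only [RingHom.comp_apply, ev1, m28dt_ev, AlgHom.toRingHom_eq_coe, RingHom.coe_coe,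
            Polynomial.aeval_C]
          rfl
        · simp only [RingHom.comp_apply, ev1, m28dt_ev, AlgHom.toRingHom_eq_coe, RingHom.coe_coe,
            Polynomial.aeval_X]
          rfl
      set P1 : Polynomial ↥K1 := (D.prime p hp hpN).Φ.map ev1 with hP1
      have hmap : P1.map (algebraMap ↥K1 Ω) =
          (D.prime p hp hpN).Φ.map (m28dt_ev (m28dt_J D d')) := by
        rw [hP1, Polynomial.map_map, hcomp]
      have hsepP : P1.Separable := by
        rw [← Polynomial.separable_map (algebraMap ↥K1 Ω), hmap]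
        exact m28dt_separable (D.prime p hp hpN) hp hpk D.C_inj 1 (Nat.mul_pos hN0 hd'0)
          (Dvd.dvd.mul_right hpN d')
      have hroot : Polynomial.aeval (m28dt_J D d) P1 = 0 := by
        rw [Polynomial.aeval_def, ← Polynomial.eval_map, hmap, m28dt_eval_map_ev, hd']
        exact m28dt_J_root_first D hNk hp hpN hd'0
      have hsep : IsSeparable ↥K1 (m28dt_J D d) :=
        hsepP.of_dvd (minpoly.dvd ↥K1 (m28dt_J D d) hroot)
      exact IsSeparable.of_algebra_isSeparable_of_isSeparable ↥(m28dt_K0 D) hsep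

theorem m18cusp_isSeparable (hNk : (N : k) ≠ 0) :
    Algebra.IsSeparable ↥(m28dt_K0 D) ↥(m28dt_E D N) := by
  unfold m28dt_E
  rw [IntermediateField.isSeparable_adjoin_iff_isSeparable]
  rintro x ⟨d, hd, rfl⟩
  exact m18cusp_J_isSeparable D hNk d hd

end sep

end Fermat.Agent.M18

end
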