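import Mathlib
import Fermat.Agent.S24.CuspFormal
import Fermat.Agent.M28.DFinal
import Fermat.Agent.M18.CuspCount
import Fermat.Agent.M18.CuspSep

/-!
# S18, block (CUSP), part 6: the conjugate embeddings of `F~_N` into `k((t))`
(prefix `m18cusp_`)

`k` algebraically closed, `(N : k) ≠ 0`, `F = modularFunctionFieldFullC k N ⊆ k((q))`,
`Ω = AlgebraicClosure k((t))`, `q = t ^ N`.

* `m18cusp_D`    : M28's tower data;
* `m18cusp_phi`  : the isomorphism `F → E_N ⊆ Ω`, `f (q) ↦ f (t ^ N)`;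
* `m18cusp_rho ι`: the embedding `F → k((t))` attached to a `K₀`-embedding `ι : E_N → Ω`;
* `m18cusp_rho_tw` : `ρ (τ_ε ∘ ι) = twist_ε ∘ ρ ι`.
-/

set_option autoImplicit false
set_option linter.unusedSectionVars false
set_option linter.unusedVariables false

noncomputable section

namespace Fermat.Agent.M18

open Fermat.Agent.M28 Fermat.Agent.S24 ModularCurve IntermediateField HahnSeries

section data

variable (k : Type) [Field k] [IsAlgClosed k] (N : ℕ) [NeZero N] (hNk : (N : k) ≠ 0)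
  (hP : ∀ (p : ℕ) [NeZero p], p.Prime → p ∣ N → Nonempty (M28PrimeData k p))

/-- M28's tower data at level `N`. -/
def m18cusp_D : M28TowerData k (m28d_Om k) N :=
  m28di_data N (fun _ _ hpN => m28dt_natCast_ne_zero_of_dvd hNk hpN) hP

theorem m18cusp_D_C (ξ : kˣ) (m : ℕ) : (m18cusp_D k N hNk hP).C ξ m = m28di_C ξ m := rfl

theorem m18cusp_D_tau (ε : kˣ) : (m18cusp_D k N hNk hP).τ ε = m28di_tau ε := rfl

/-- `f (q) ↦ f (t ^ N)` maps `F` into `E_N`. -/
theorem m18cusp_psi_mem (f : LaurentSeries k) (hf : f ∈ modularFunctionFieldFullC k N) :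
    m28di_psi k N f ∈ m28dt_E (m18cusp_D k N hNk hP) N := by
  unfold modularFunctionFieldFullC at hf
  induction hf using IntermediateField.adjoin_induction with
  | mem x hx =>
    obtain ⟨d, hne, hd, rfl⟩ := hx
    haveI := hne
    rw [m28di_psi_Jd N (NeZero.ne N) d]
    exact m28dt_J_mem_E (m18cusp_D k N hNk hP) hd
  | algebraMap c =>
    rw [AlgHom.commutes]
    have := (m28dt_E (m18cusp_D k N hNk hP) N).algebraMap_mem
      (algebraMap k ↥(m28dt_K0 (m18cusp_D k N hNk hP)) c)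
    exact this
  | add x y _ _ hx hy => rw [map_add]; exact add_mem hx hy
  | inv x _ hx => rw [map_inv₀]; exact inv_mem hx
  | mul x y _ _ hx hy => rw [map_mul]; exact mul_mem hx hy

/-- the isomorphism `F → E_N`, as a ring homomorphism. -/
def m18cusp_phi :
    ↥(modularFunctionFieldFullC k N) →+* ↥(m28dt_E (m18cusp_D k N hNk hP) N) :=
  RingHom.codRestrict
    (((m28di_psi k N : LaurentSeries k →+* m28d_Om k)).comp
      (algebraMap ↥(modularFunctionFieldFullC k N) (LaurentSeries k)))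
    (m28dt_E (m18cusp_D k N hNk hP) N)
    (fun f => m18cusp_psi_mem k N hNk hP f.1 f.2)

theorem m18cusp_phi_coe (f : ↥(modularFunctionFieldFullC k N)) :
    ((m18cusp_phi k N hNk hP f : ↥(m28dt_E (m18cusp_D k N hNk hP) N)) : m28d_Om k) =
      m28di_psi k N (f : LaurentSeries k) := rfl

/-- the generators of `F`. -/
def m18cusp_jd (d : ℕ) (hd : d ∣ N) : ↥(modularFunctionFieldFullC k N) :=
  haveI : NeZero d := ⟨fun h => NeZero.ne N (by rw [h] at hd; exact Nat.eq_zero_of_zero_dvd hd)⟩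
  ⟨qExpand k d (jqModC k), jqModCd_mem_full k N hd⟩

theorem m18cusp_phi_jd (d : ℕ) (hd : d ∣ N) :
    m18cusp_phi k N hNk hP (m18cusp_jd k N d hd) =
      ⟨m28dt_J (m18cusp_D k N hNk hP) d, m28dt_J_mem_E _ hd⟩ := by
  haveI : NeZero d := ⟨fun h => NeZero.ne N (by rw [h] at hd; exact Nat.eq_zero_of_zero_dvd hd)⟩
  apply Subtype.ext
  rw [m18cusp_phi_coe]
  show m28di_psi k N (qExpand k d (jqModC k)) = _
  rw [m28di_psi_Jd N (NeZero.ne N) d]
  rfl

/-- `K₀` lies in the image of `k((t))`. -/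
theorem m18cusp_K0_le_range (x : m28d_Om k) (hx : x ∈ m28dt_K0 (m18cusp_D k N hNk hP)) :
    x ∈ (algebraMap (LaurentSeries k) (m28d_Om k)).range := by
  unfold m28dt_K0 at hx
  induction hx using IntermediateField.adjoin_induction with
  | mem x hx =>
    rw [Set.mem_singleton_iff] at hx
    rw [hx]
    exact ⟨m28d_C 1 N, rfl⟩
  | algebraMap c => exact ⟨algebraMap k (LaurentSeries k) c, rfl⟩
  | add x y _ _ hx hy => exact add_mem hx hy
  | inv x _ hx =>
    obtain ⟨a, rfl⟩ := hx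
    exact ⟨a⁻¹, map_inv₀ _ a⟩
  | mul x y _ _ hx hy => exact mul_mem hx hy

/-- every `K₀`-embedding of `E_N` lands in the image of `k((t))`. -/
theorem m18cusp_land (ι : ↥(m28dt_E (m18cusp_D k N hNk hP) N) →ₐ[↥(m28dt_K0
    (m18cusp_D k N hNk hP))] m28d_Om k) (e : ↥(m28dt_E (m18cusp_D k N hNk hP) N)) :
    ι e ∈ (algebraMap (LaurentSeries k) (m28d_Om k)).range := by
  obtain ⟨e, he⟩ := e
  unfold m28dt_E at he
  induction he using IntermediateField.adjoin_induction with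
  | mem x hx =>
    obtain ⟨d, hd, rfl⟩ := hx
    have h1 := m18cusp_Z_eq_C hNk ι hd
    rw [m18cusp_Z_eq _ ι hd] at h1
    show ι ⟨m28dt_J (m18cusp_D k N hNk hP) d, _⟩ ∈ _
    rw [h1]
    exact ⟨m28d_C _ _, rfl⟩
  | algebraMap c =>
    have h1 : ι ⟨algebraMap _ _ c, IntermediateField.algebraMap_mem _ c⟩ =
        algebraMap _ _ c := ι.commutes c
    rw [h1]
    exact m18cusp_K0_le_range k N hNk hP _ c.2
  | add x y hx hy ihx ihy =>
    have : ι ⟨x + y, add_mem hx hy⟩ = ι ⟨x, hx⟩ + ι ⟨y, hy⟩ := map_add ι ⟨x, hx⟩ ⟨y, hy⟩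
    rw [this]
    exact add_mem ihx ihy
  | inv x hx ihx =>
    have : ι ⟨x⁻¹, inv_mem hx⟩ = (ι ⟨x, hx⟩)⁻¹ := map_inv₀ ι ⟨x, hx⟩
    rw [this]
    obtain ⟨a, ha⟩ := ihx
    exact ⟨a⁻¹, by rw [map_inv₀, ha]⟩
  | mul x y hx hy ihx ihy =>
    have : ι ⟨x * y, mul_mem hx hy⟩ = ι ⟨x, hx⟩ * ι ⟨y, hy⟩ := map_mul ι ⟨x, hx⟩ ⟨y, hy⟩
    rw [this]
    exact mul_mem ihx ihy

/-- the embedding `F → k((t))` attached to `ι`. -/
def m18cusp_rho (ι : ↥(m28dt_E (m18cusp_D k N hNk hP) N) →ₐ[↥(m28dt_K0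
    (m18cusp_D k N hNk hP))] m28d_Om k) :
    ↥(modularFunctionFieldFullC k N) →+* LaurentSeries k :=
  ((RingEquiv.ofLeftInverse (f := algebraMap (LaurentSeries k) (m28d_Om k))
      (Function.leftInverse_invFun m28di_emb_injective)).symm : _ →+* LaurentSeries k).comp
    (RingHom.codRestrict
      ((ι : ↥(m28dt_E (m18cusp_D k N hNk hP) N) →+* m28d_Om k).comp (m18cusp_phi k N hNk hP))
      (algebraMap (LaurentSeries k) (m28d_Om k)).range
      (fun f => m18cusp_land k N hNk hP ι _))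

theorem m18cusp_rho_spec (ι : ↥(m28dt_E (m18cusp_D k N hNk hP) N) →ₐ[↥(m28dt_K0
    (m18cusp_D k N hNk hP))] m28d_Om k) (f : ↥(modularFunctionFieldFullC k N)) :
    algebraMap (LaurentSeries k) (m28d_Om k) (m18cusp_rho k N hNk hP ι f) =
      ι (m18cusp_phi k N hNk hP f) := by
  unfold m18cusp_rho
  set e := RingEquiv.ofLeftInverse (f := algebraMap (LaurentSeries k) (m28d_Om k))
      (Function.leftInverse_invFun m28di_emb_injective) with he
  set y : ↥(algebraMap (LaurentSeries k) (m28d_Om k)).range :=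
    RingHom.codRestrict
      ((ι : ↥(m28dt_E (m18cusp_D k N hNk hP) N) →+* m28d_Om k).comp (m18cusp_phi k N hNk hP))
      (algebraMap (LaurentSeries k) (m28d_Om k)).range
      (fun f => m18cusp_land k N hNk hP ι _) f with hy
  have h1 : (e (e.symm y) : m28d_Om k) = (y : m28d_Om k) := by rw [RingEquiv.apply_symm_apply]
  rw [RingEquiv.ofLeftInverse_apply] at h1
  exact h1

/-- a characterisation of `ρ ι f`. -/
theorem m18cusp_rho_eq (ι : ↥(m28dt_E (m18cusp_D k N hNk hP) N) →ₐ[↥(m28dt_K0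
    (m18cusp_D k N hNk hP))] m28d_Om k) (f : ↥(modularFunctionFieldFullC k N))
    (g : LaurentSeries k)
    (h : ι (m18cusp_phi k N hNk hP f) = algebraMap (LaurentSeries k) (m28d_Om k) g) :
    m18cusp_rho k N hNk hP ι f = g :=
  m28di_emb_injective ((m18cusp_rho_spec k N hNk hP ι f).trans h)

end data

end Fermat.Agent.M18

end
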