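import Mathlib
import Fermat.Agent.S24.Counting
import Fermat.Agent.M18.CuspData

/-!
# S18, block (CUSP), part 7: the counting data at `j~ = ∞` in characteristic `ℓ`
(prefix `m18cusp_`)

* `m18cusp_countingData` : S24's `CountingData` for `F~_N / k (j~)` at `y = 1 / j~`, with the
  `K₀`-embeddings of M28's `E_N` as conjugate embeddings and the orbits of the twists as
  classes;
* `m18cusp_main` : the number of places of `F~_N` over `j~ = ∞` is at most `cuspCount N`.
-/

set_option autoImplicit false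
set_option linter.unusedSectionVars false
set_option linter.unusedVariables false

noncomputable section

namespace Fermat.Agent.M18

open Fermat.Agent.M28 Fermat.Agent.S24 ModularCurve IntermediateField HahnSeries AlgebraicCurve
open Function

/-- the class of `x` for the orbit relation of a cyclic group is the orbit of `x`. -/
theorem m18cusp_card_class {G X : Type*} [Group G] [MulAction G X] (c : G) (x : X) :
    Nat.card {y // (MulAction.orbitRel (Subgroup.zpowers c) X).r x y}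
      = minimalPeriod (c • ·) x := by
  have hset : {y // (MulAction.orbitRel (Subgroup.zpowers c) X).r x y}
      = ↥(MulAction.orbit (Subgroup.zpowers c) x) := by
    congr 1
    ext y
    change x ∈ MulAction.orbit (Subgroup.zpowers c) y ↔ y ∈ MulAction.orbit (Subgroup.zpowers c) x
    exact ⟨fun h => (MulAction.orbitRel (Subgroup.zpowers c) X).symm h,
      fun h => (MulAction.orbitRel (Subgroup.zpowers c) X).symm h⟩
  rw [hset]
  exact (Nat.card_congr (MulAction.orbitZPowersEquiv c x)).trans (Nat.card_zmod _)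

section data

variable (k : Type) [Field k] [IsAlgClosed k] (N : ℕ) [NeZero N] (hNk : (N : k) ≠ 0)
  (hP : ∀ (p : ℕ) [NeZero p], p.Prime → p ∣ N → Nonempty (M28PrimeData k p))

/-- the set of conjugate embeddings. -/
abbrev m18cusp_QQ : Type :=
  ↥(m28dt_E (m18cusp_D k N hNk hP) N) →ₐ[↥(m28dt_K0 (m18cusp_D k N hNk hP))] m28d_Om k

instance m18cusp_fd_inst : FiniteDimensional ↥(m28dt_K0 (m18cusp_D k N hNk hP))
    ↥(m28dt_E (m18cusp_D k N hNk hP) N) :=
  m18cusp_finiteDimensional _ hNk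

instance m18cusp_sep_inst : Algebra.IsSeparable ↥(m28dt_K0 (m18cusp_D k N hNk hP))
    ↥(m28dt_E (m18cusp_D k N hNk hP) N) :=
  m18cusp_isSeparable _ hNk

/-- `j~`, as an element of the function field. -/
def m18cusp_j : ↥(modularFunctionFieldFullC k N) := ⟨jqModC k, jqModC_mem_full k N⟩

theorem m18cusp_rho_jd (ι : m18cusp_QQ k N hNk hP) (d : ℕ) (hd : d ∣ N) :
    m18cusp_rho k N hNk hP ι (m18cusp_jd k N d hd) =
      m28d_C (m18cusp_xi _ ι d) (m18cusp_e _ ι d * m18cusp_a _ ι d) := by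
  apply m18cusp_rho_eq
  rw [m18cusp_phi_jd, ← m18cusp_Z_eq _ ι hd, m18cusp_Z_eq_C hNk ι hd]
  rfl

theorem m18cusp_phi_j :
    m18cusp_phi k N hNk hP (m18cusp_j k N) =
      algebraMap ↥(m28dt_K0 (m18cusp_D k N hNk hP)) ↥(m28dt_E (m18cusp_D k N hNk hP) N)
        ⟨(m18cusp_D k N hNk hP).C 1 N, m28dt_C1N_mem_K0 _⟩ := by
  apply Subtype.ext
  rw [m18cusp_phi_coe]
  show m28di_psi k N (jqModC k) = _
  rw [m28di_psi_J]
  rfl

theorem m18cusp_rho_j (ι : m18cusp_QQ k N hNk hP) :
    m18cusp_rho k N hNk hP ι (m18cusp_j k N) = m28d_C 1 N := by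
  apply m18cusp_rho_eq
  rw [m18cusp_phi_j, ι.commutes]
  rfl

theorem m18cusp_phi_algebraMap (a : k) :
    m18cusp_phi k N hNk hP (algebraMap k ↥(modularFunctionFieldFullC k N) a) =
      algebraMap ↥(m28dt_K0 (m18cusp_D k N hNk hP)) ↥(m28dt_E (m18cusp_D k N hNk hP) N)
        (algebraMap k ↥(m28dt_K0 (m18cusp_D k N hNk hP)) a) := by
  apply Subtype.ext
  rw [m18cusp_phi_coe]
  show m28di_psi k N (algebraMap k (LaurentSeries k) a) = _
  rw [AlgHom.commutes]
  rfl

theorem m18cusp_rho_algebraMap (ι : m18cusp_QQ k N hNk hP) (a : k) :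
    m18cusp_rho k N hNk hP ι (algebraMap k ↥(modularFunctionFieldFullC k N) a) =
      algebraMap k (LaurentSeries k) a := by
  apply m18cusp_rho_eq
  rw [m18cusp_phi_algebraMap, ι.commutes]
  rfl

theorem m18cusp_rho_tw (ι : m18cusp_QQ k N hNk hP) (ε : kˣ) (hε : ε ^ N = 1)
    (f : ↥(modularFunctionFieldFullC k N)) :
    m18cusp_rho k N hNk hP
        (m18cusp_tw (m18cusp_D k N hNk hP) (Nat.pos_of_ne_zero (NeZero.ne N)) ε hε ι) f =
      cf_twist ε (m18cusp_rho k N hNk hP ι f) := by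
  apply m18cusp_rho_eq
  rw [m18cusp_tw_apply, ← m18cusp_rho_spec, m18cusp_D_tau, m28di_tau_emb]

theorem m18cusp_rho_injective : Function.Injective (m18cusp_rho k N hNk hP) := by
  intro ι ι' h
  apply m18cusp_ext
  intro d hd
  rw [m18cusp_Z_eq _ ι hd, m18cusp_Z_eq _ ι' hd, ← m18cusp_phi_jd k N hNk hP d hd,
    ← m18cusp_rho_spec, ← m18cusp_rho_spec, h]

/-- elements of `K₀` come from `k (j~) ⊆ F`. -/
theorem m18cusp_K0_preimage (z : m28d_Om k) (hz : z ∈ m28dt_K0 (m18cusp_D k N hNk hP)) :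
    ∃ g : ↥(modularFunctionFieldFullC k N), g ∈ k⟮m18cusp_j k N⟯ ∧
      m28di_psi k N (g : LaurentSeries k) = z := by
  unfold m28dt_K0 at hz
  induction hz using IntermediateField.adjoin_induction with
  | mem x hx =>
    rw [Set.mem_singleton_iff] at hx
    refine ⟨m18cusp_j k N, IntermediateField.mem_adjoin_simple_self k _, ?_⟩
    rw [hx]
    show m28di_psi k N (jqModC k) = _
    rw [m28di_psi_J]
    rfl
  | algebraMap c =>
    refine ⟨algebraMap k _ c, IntermediateField.algebraMap_mem _ c, ?_⟩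
    show m28di_psi k N (algebraMap k (LaurentSeries k) c) = _
    rw [AlgHom.commutes]
  | add x y _ _ hx hy =>
    obtain ⟨g1, h1, h1'⟩ := hx
    obtain ⟨g2, h2, h2'⟩ := hy
    refine ⟨g1 + g2, add_mem h1 h2, ?_⟩
    rw [← h1', ← h2', ← map_add]
    rfl
  | inv x _ hx =>
    obtain ⟨g1, h1, h1'⟩ := hx
    refine ⟨g1⁻¹, inv_mem h1, ?_⟩
    rw [← h1', ← map_inv₀]
    rfl
  | mul x y _ _ hx hy =>
    obtain ⟨g1, h1, h1'⟩ := hx
    obtain ⟨g2, h2, h2'⟩ := hy
    refine ⟨g1 * g2, mul_mem h1 h2, ?_⟩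
    rw [← h1', ← h2', ← map_mul]
    rfl

theorem m18cusp_norm_mem (f : ↥(modularFunctionFieldFullC k N)) :
    ∃ g ∈ k⟮m18cusp_j k N⟯, ∀ q : m18cusp_QQ k N hNk hP,
      m18cusp_rho k N hNk hP q g = ∏ q' : m18cusp_QQ k N hNk hP, m18cusp_rho k N hNk hP q' f := by
  set n : ↥(m28dt_K0 (m18cusp_D k N hNk hP)) :=
    Algebra.norm ↥(m28dt_K0 (m18cusp_D k N hNk hP)) (m18cusp_phi k N hNk hP f) with hn
  obtain ⟨g, hg, hg'⟩ := m18cusp_K0_preimage k N hNk hP (n : m28d_Om k) n.2
  refine ⟨g, hg, fun q => ?_⟩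
  apply m18cusp_rho_eq
  have h1 : m18cusp_phi k N hNk hP g =
      algebraMap ↥(m28dt_K0 (m18cusp_D k N hNk hP)) ↥(m28dt_E (m18cusp_D k N hNk hP) N) n := by
    apply Subtype.ext
    rw [m18cusp_phi_coe, hg']
    rfl
  rw [h1, q.commutes, hn,
    Algebra.norm_eq_prod_embeddings ↥(m28dt_K0 (m18cusp_D k N hNk hP)) (m28d_Om k), map_prod]
  refine Finset.prod_congr rfl fun σ _ => ?_
  rw [m18cusp_rho_spec]

end data

end Fermat.Agent.M18

end
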