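/-
S18, package (CUSP-M) (helper7): valuations of polynomial expressions in an element `T` of a
field `F ⊇ k`, for a valuation which is trivial on `k`; poles of `J = Num(T) / Den(T)`.
-/
import Mathlib
import Fermat.Agent.M18.CoreBasic

set_option autoImplicit false
set_option linter.unusedSectionVars false
set_option linter.style.longLine false

noncomputable section

namespace Fermat.Agent.M18

open Polynomial AlgebraicCurve

section val

variable {k F Γ₀ : Type*} [Field k] [Field F] [Algebra k F]
  [LinearOrderedCommGroupWithZero Γ₀] (w : Valuation F Γ₀)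

/-- `w T ≤ 1` implies `w (P(T)) ≤ 1`. -/
theorem m18cm_val_aeval_le (hw : ∀ c : k, w (algebraMap k F c) ≤ 1) {T : F} (hT : w T ≤ 1)
    (P : k[X]) : w (aeval T P) ≤ 1 := by
  rw [aeval_eq_sum_range]
  refine w.map_sum_le fun i _ => ?_
  rw [Algebra.smul_def, map_mul, map_pow]
  exact mul_le_one' (hw _) (pow_le_one' hT i)

/-- `P(T) - P(a)` is divisible by `T - a`. -/
theorem m18cm_aeval_sub (T : F) (a : k) (P : k[X]) :
    ∃ Q : k[X], aeval T P = algebraMap k F (P.eval a) + (T - algebraMap k F a) * aeval T Q := by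
  obtain ⟨Q, hQ⟩ := Polynomial.X_sub_C_dvd_sub_C_eval (a := a) (p := P)
  refine ⟨Q, ?_⟩
  have h := congrArg (aeval T) hQ
  rw [map_sub, map_mul, map_sub, aeval_X, aeval_C, aeval_C] at h
  linear_combination h

theorem m18cm_val_le_of_sub {T : F} (hw : ∀ c : k, w (algebraMap k F c) ≤ 1) {a : k}
    (ha : w (T - algebraMap k F a) < 1) : w T ≤ 1 := by
  have h : T = (T - algebraMap k F a) + algebraMap k F a := by ring
  rw [h]
  exact w.map_add_le ha.le (hw a)

/-- a root of `P` modulo the place. -/
theorem m18cm_val_aeval_root (hw : ∀ c : k, w (algebraMap k F c) ≤ 1) {T : F} {a : k}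
    (ha : w (T - algebraMap k F a) < 1) {P : k[X]} (hP : P.eval a = 0) :
    w (aeval T P) < 1 := by
  obtain ⟨Q, hQ⟩ := m18cm_aeval_sub T a P
  rw [hQ, hP, map_zero, zero_add, map_mul]
  have h1 := m18cm_val_aeval_le w hw (m18cm_val_le_of_sub w hw ha) Q
  calc w (T - algebraMap k F a) * w (aeval T Q) ≤ w (T - algebraMap k F a) * 1 :=
        mul_le_mul_right h1 _
    _ < 1 := by rwa [mul_one]

theorem m18cm_val_const (hw : ∀ c : k, w (algebraMap k F c) ≤ 1) {c : k} (hc : c ≠ 0) :
    w (algebraMap k F c) = 1 := by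
  have h1 := hw c
  have h2 := hw c⁻¹
  have h3 : w (algebraMap k F c) * w (algebraMap k F c⁻¹) = 1 := by
    rw [← map_mul, ← map_mul, mul_inv_cancel₀ hc, map_one, map_one]
  refine le_antisymm h1 ?_
  by_contra hlt
  rw [not_le] at hlt
  have h4 : w (algebraMap k F c) * w (algebraMap k F c⁻¹) < 1 := by
    calc w (algebraMap k F c) * w (algebraMap k F c⁻¹) ≤ w (algebraMap k F c) * 1 :=
          mul_le_mul_right h2 _
      _ < 1 := by rwa [mul_one]
  rw [h3] at h4
  exact lt_irrefl _ h4

/-- a non-root of `P` modulo the place. -/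
theorem m18cm_val_aeval_unit (hw : ∀ c : k, w (algebraMap k F c) ≤ 1) {T : F} {a : k}
    (ha : w (T - algebraMap k F a) < 1) {P : k[X]} (hP : P.eval a ≠ 0) :
    w (aeval T P) = 1 := by
  obtain ⟨Q, hQ⟩ := m18cm_aeval_sub T a P
  have h1 := m18cm_val_aeval_le w hw (m18cm_val_le_of_sub w hw ha) Q
  have h2 : w ((T - algebraMap k F a) * aeval T Q) < 1 := by
    rw [map_mul]
    calc w (T - algebraMap k F a) * w (aeval T Q) ≤ w (T - algebraMap k F a) * 1 :=
          mul_le_mul_right h1 _
      _ < 1 := by rwa [mul_one]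
  have h3 := m18cm_val_const w hw hP
  rw [hQ, w.map_add_eq_of_lt_left (by rw [h3]; exact h2), h3]

/-- a monic polynomial at a pole. -/
theorem m18cm_val_aeval_monic (hw : ∀ c : k, w (algebraMap k F c) ≤ 1) {T : F} (hT : 1 < w T)
    {P : k[X]} (hP : P.Monic) : w (aeval T P) = w T ^ P.natDegree := by
  have hT0 : w T ≠ 0 := fun h => by rw [h] at hT; exact not_lt.mpr zero_le_one hT
  have hdec : P = X ^ P.natDegree + P.eraseLead := by
    have h := P.eraseLead_add_C_mul_X_pow
    rw [hP.leadingCoeff, map_one, one_mul] at h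
    rw [add_comm]
    exact h.symm
  have hlt : w (aeval T P.eraseLead) < w T ^ P.natDegree := by
    rcases Nat.eq_zero_or_pos P.natDegree with h0 | hpos
    · have : P.eraseLead = 0 := by
        have h1 := Polynomial.eq_one_of_monic_natDegree_zero hP h0
        rw [h1, ← Polynomial.C_1, Polynomial.eraseLead_C]
      rw [this, map_zero, map_zero, h0, pow_zero]
      exact zero_lt_one
    · rw [aeval_eq_sum_range' (n := P.natDegree)
        (lt_of_le_of_lt (Polynomial.eraseLead_natDegree_le P) (by omega))]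
      refine w.map_sum_lt (pow_ne_zero _ hT0) fun i hi => ?_
      rw [Finset.mem_range] at hi
      rw [Algebra.smul_def, map_mul, map_pow]
      calc w (algebraMap k F (P.eraseLead.coeff i)) * w T ^ i ≤ 1 * w T ^ i :=
            mul_le_mul_left (hw _) _
        _ = w T ^ i := one_mul _
        _ < w T ^ P.natDegree := pow_lt_pow_right₀ hT hi
  conv_lhs => rw [hdec]
  rw [map_add, map_pow, aeval_X, w.map_add_eq_of_lt_left (by rw [map_pow]; exact hlt), map_pow]

/-- **pole of `J = Num(T)/Den(T)` at a pole of `T`**. -/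
theorem m18cm_pole_inf (hw : ∀ c : k, w (algebraMap k F c) ≤ 1) {T J : F} (hT : 1 < w T)
    {Num Den : k[X]} (hN : Num.Monic) (hD : Den.Monic) (hdeg : Den.natDegree < Num.natDegree)
    (hrel : J * aeval T Den = aeval T Num) : 1 < w J := by
  have hT0 : w T ≠ 0 := fun h => by rw [h] at hT; exact not_lt.mpr zero_le_one hT
  have h := congrArg w hrel
  rw [map_mul, m18cm_val_aeval_monic w hw hT hN, m18cm_val_aeval_monic w hw hT hD] at h
  by_contra hle
  rw [not_lt] at hle
  have h1 : w J * w T ^ Den.natDegree ≤ 1 * w T ^ Den.natDegree := mul_le_mul_left hle _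
  rw [h, one_mul] at h1
  exact absurd (pow_lt_pow_right₀ hT hdeg) (not_lt.mpr h1)

/-- **pole of `J = Num(T)/Den(T)` at a zero of `Den` which is not a zero of `Num`**. -/
theorem m18cm_pole_fin (hw : ∀ c : k, w (algebraMap k F c) ≤ 1) {T J : F} {a : k}
    (ha : w (T - algebraMap k F a) < 1) {Num Den : k[X]} (hNa : Num.eval a ≠ 0)
    (hDa : Den.eval a = 0) (hrel : J * aeval T Den = aeval T Num) : 1 < w J := by
  have h := congrArg w hrel
  rw [map_mul, m18cm_val_aeval_unit w hw ha hNa] at h
  have hD := m18cm_val_aeval_root w hw ha hDa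
  by_contra hle
  rw [not_lt] at hle
  have h1 : w J * w (aeval T Den) ≤ 1 * w (aeval T Den) := mul_le_mul_left hle _
  rw [h, one_mul] at h1
  exact absurd hD (not_lt.mpr h1)

end val

section place

variable {k F : Type*} [Field k] [Field F] [Algebra k F] (v : Place k F)

theorem m18cm_ord_neg_iff {x : F} : v.ord x < 0 ↔ 1 < v.adicValuation x := by
  rw [← not_le, m18c_ord_nonneg_iff, not_le]

theorem m18cm_val_lt_of_ord_pos {x : F} (h : 0 < v.ord x) : v.adicValuation x < 1 :=
  (m18c_val_lt_one_iff v).mpr (Or.inr h)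

/-- place form, at a pole of `T`. -/
theorem m18cm_place_inf {T J : F} (hT : v.ord T < 0) {Num Den : k[X]} (hN : Num.Monic)
    (hD : Den.Monic) (hdeg : Den.natDegree < Num.natDegree)
    (hrel : J * aeval T Den = aeval T Num) : v.ord J < 0 :=
  (m18cm_ord_neg_iff v).mpr (m18cm_pole_inf v.adicValuation (m18c_val_const_le v)
    ((m18cm_ord_neg_iff v).mp hT) hN hD hdeg hrel)

/-- place form, at a zero of `Den`. -/
theorem m18cm_place_fin {T J : F} {a : k} (ha : 0 < v.ord (T - algebraMap k F a))
    {Num Den : k[X]} (hNa : Num.eval a ≠ 0) (hDa : Den.eval a = 0)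
    (hrel : J * aeval T Den = aeval T Num) : v.ord J < 0 :=
  (m18cm_ord_neg_iff v).mpr (m18cm_pole_fin v.adicValuation (m18c_val_const_le v)
    (m18cm_val_lt_of_ord_pos v ha) hNa hDa hrel)

end place

end Fermat.Agent.M18

end
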