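/-
M18 (S18 project), package HM (explicit Hauptmoduln), part 0 (helper7), prefix `m18hm_`:
congruences of power series modulo `X ^ m`, and the low coefficients of `etaProd`.
-/
import Mathlib
import Fermat.Prelude.Def_ModularCurve_X0

set_option autoImplicit false
set_option linter.unusedSectionVars false
set_option linter.unusedVariables false
set_option linter.style.longLine false

noncomputable section

namespace Fermat.Agent.M18

open PowerSeries ModularCurve Filter Topology

section cong

variable {R : Type*} [CommRing R]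

/-- `f ≡ g mod X ^ m`. -/
def m18hm_C (m : ℕ) (f g : PowerSeries R) : Prop := (X : PowerSeries R) ^ m ∣ f - g

theorem m18hm_C_iff (m : ℕ) (f g : PowerSeries R) :
    m18hm_C m f g ↔ ∀ k < m, coeff k f = coeff k g := by
  unfold m18hm_C
  rw [PowerSeries.X_pow_dvd_iff]
  refine forall_congr' fun k => forall_congr' fun _ => ?_
  rw [map_sub, sub_eq_zero]

theorem m18hm_C_refl (m : ℕ) (f : PowerSeries R) : m18hm_C m f f := by
  unfold m18hm_C
  rw [sub_self]
  exact dvd_zero _

theorem m18hm_C.symm {m : ℕ} {f g : PowerSeries R} (h : m18hm_C m f g) : m18hm_C m g f := by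
  unfold m18hm_C at h ⊢
  rw [← neg_sub]
  exact (dvd_neg).mpr h

theorem m18hm_C.trans {m : ℕ} {f g h : PowerSeries R} (h1 : m18hm_C m f g) (h2 : m18hm_C m g h) :
    m18hm_C m f h := by
  unfold m18hm_C at h1 h2 ⊢
  have := dvd_add h1 h2
  rwa [sub_add_sub_cancel] at this

theorem m18hm_C.add {m : ℕ} {f g f' g' : PowerSeries R} (h1 : m18hm_C m f g)
    (h2 : m18hm_C m f' g') : m18hm_C m (f + f') (g + g') := by
  unfold m18hm_C at h1 h2 ⊢
  have := dvd_add h1 h2
  rwa [show f - g + (f' - g') = f + f' - (g + g') by ring] at this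

theorem m18hm_C.sub {m : ℕ} {f g f' g' : PowerSeries R} (h1 : m18hm_C m f g)
    (h2 : m18hm_C m f' g') : m18hm_C m (f - f') (g - g') := by
  unfold m18hm_C at h1 h2 ⊢
  have := dvd_sub h1 h2
  rwa [show f - g - (f' - g') = f - f' - (g - g') by ring] at this

theorem m18hm_C.mul {m : ℕ} {f g f' g' : PowerSeries R} (h1 : m18hm_C m f g)
    (h2 : m18hm_C m f' g') : m18hm_C m (f * f') (g * g') := by
  unfold m18hm_C at h1 h2 ⊢
  have := dvd_add (Dvd.dvd.mul_right h1 f') (Dvd.dvd.mul_left h2 g)
  rwa [show (f - g) * f' + g * (f' - g') = f * f' - g * g' by ring] at this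

theorem m18hm_C.pow {m : ℕ} {f g : PowerSeries R} (h : m18hm_C m f g) (n : ℕ) :
    m18hm_C m (f ^ n) (g ^ n) := by
  unfold m18hm_C at h ⊢
  exact h.trans (sub_dvd_pow_sub_pow f g n)

theorem m18hm_C.mono {m m' : ℕ} {f g : PowerSeries R} (h : m18hm_C m f g) (hm : m' ≤ m) :
    m18hm_C m' f g := by
  unfold m18hm_C at h ⊢
  exact (pow_dvd_pow _ hm).trans h

/-- from an explicit cofactor. -/
theorem m18hm_C_of_eq {m : ℕ} {f g : PowerSeries R} (c : PowerSeries R)
    (h : f = g + X ^ m * c) : m18hm_C m f g := by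
  unfold m18hm_C
  rw [h, add_sub_cancel_left]
  exact dvd_mul_right _ _

/-- inverses: if `f * f' = 1`, `f ≡ g`, `g * g' ≡ 1` then `f' ≡ g'`. -/
theorem m18hm_C.inv {m : ℕ} {f f' g g' : PowerSeries R} (h : m18hm_C m f g) (hf : f * f' = 1)
    (hg : m18hm_C m (g * g') 1) : m18hm_C m f' g' := by
  have h1 : m18hm_C m (f * g') 1 := (h.mul (m18hm_C_refl m g')).trans hg
  have h2 := (m18hm_C_refl m f').mul h1
  rw [mul_one, ← mul_assoc, mul_comm f' f, hf, one_mul] at h2
  exact h2.symm

theorem m18hm_C.map {S : Type*} [CommRing S] (φ : R →+* S) {m : ℕ} {f g : PowerSeries R}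
    (h : m18hm_C m f g) : m18hm_C m (PowerSeries.map φ f) (PowerSeries.map φ g) := by
  rw [m18hm_C_iff] at h ⊢
  intro k hk
  rw [PowerSeries.coeff_map, PowerSeries.coeff_map, h k hk]

end cong

end Fermat.Agent.M18

end
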