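/-
M18 (S18 project), package HM, part 1 (helper7): the formal Euler product `etaProd` modulo
`X ^ (n + 1)` is the finite product `∏_{i < n} (1 - X ^ (i + 1))`.
-/
import Mathlib
import Fermat.Prelude.Def_ModularCurve_X0
import Fermat.Agent.M18.HmCong

set_option autoImplicit false
set_option linter.unusedSectionVars false
set_option linter.unusedVariables false
set_option linter.style.longLine false

noncomputable section

namespace Fermat.Agent.M18

open PowerSeries ModularCurve Filter Topology
open scoped PowerSeries.WithPiTopology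

theorem m18hm_prod_C_one {R : Type*} [CommRing R] (m : ℕ) {ι : Type*} (s : Finset ι)
    (f : ι → PowerSeries R) (h : ∀ i ∈ s, m18hm_C m (f i) 1) : m18hm_C m (∏ i ∈ s, f i) 1 := by
  classical
  induction s using Finset.induction_on with
  | empty =>
    rw [Finset.prod_empty]
    exact m18hm_C_refl m 1
  | insert a s ha ih =>
    rw [Finset.prod_insert ha]
    have h1 := (h a (Finset.mem_insert_self a s)).mul
      (ih fun i hi => h i (Finset.mem_insert_of_mem hi))
    rwa [mul_one] at h1

/-- `etaProd ≡ ∏_{i < n} (1 - X ^ (i + 1))  mod X ^ (n + 1)`. -/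
theorem m18hm_etaProd_C (n : ℕ) :
    m18hm_C (n + 1) etaProd (∏ i ∈ Finset.range n, (1 - X ^ (i + 1) : PowerSeries ℤ)) := by
  rw [m18hm_C_iff]
  intro k hk
  have h1 : HasProd (fun n : ℕ => (1 : PowerSeries ℤ) - PowerSeries.X ^ (n + 1)) etaProd :=
    (PowerSeries.WithPiTopology.multipliable_one_sub_X_pow ℤ).hasProd
  have h2 : Tendsto (fun s : Finset ℕ => ∏ i ∈ s, ((1 : PowerSeries ℤ) - PowerSeries.X ^ (i + 1)))
      atTop (𝓝 etaProd) := by
    simpa [HasProd] using h1
  have h3 := ((PowerSeries.WithPiTopology.continuous_coeff ℤ k).tendsto _).comp h2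
  -- in the discrete topology of `ℤ` the net is eventually constant
  have h4 : ∀ᶠ s : Finset ℕ in atTop,
      coeff k (∏ i ∈ s, ((1 : PowerSeries ℤ) - PowerSeries.X ^ (i + 1))) = coeff k etaProd := by
    have hopen : IsOpen ({coeff k etaProd} : Set ℤ) := isOpen_discrete _
    have := h3.eventually (hopen.mem_nhds rfl)
    exact this.mono fun s hs => hs
  obtain ⟨s₀, hs₀⟩ := Filter.eventually_atTop.mp h4
  have h5 := hs₀ (s₀ ∪ Finset.range n) Finset.subset_union_left
  rw [← h5]
  -- split the product
  have hsplit : ∏ i ∈ s₀ ∪ Finset.range n, ((1 : PowerSeries ℤ) - PowerSeries.X ^ (i + 1))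
      = (∏ i ∈ Finset.range n, ((1 : PowerSeries ℤ) - PowerSeries.X ^ (i + 1)))
        * ∏ i ∈ (s₀ ∪ Finset.range n) \ Finset.range n,
            ((1 : PowerSeries ℤ) - PowerSeries.X ^ (i + 1)) := by
    rw [mul_comm]
    exact (Finset.prod_sdiff Finset.subset_union_right).symm
  have htail : m18hm_C (n + 1) (∏ i ∈ (s₀ ∪ Finset.range n) \ Finset.range n,
      ((1 : PowerSeries ℤ) - PowerSeries.X ^ (i + 1))) 1 := by
    refine m18hm_prod_C_one (n + 1) _ _ fun i hi => ?_
    have hi' : n ≤ i := by
      have := (Finset.mem_sdiff.mp hi).2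
      rw [Finset.mem_range, not_lt] at this
      exact this
    unfold m18hm_C
    rw [sub_sub_cancel_left]
    exact (dvd_neg).mpr (pow_dvd_pow _ (by omega))
  have h6 := (m18hm_C_refl (n + 1) (∏ i ∈ Finset.range n,
    ((1 : PowerSeries ℤ) - PowerSeries.X ^ (i + 1)))).mul htail
  rw [mul_one, ← hsplit] at h6
  exact (m18hm_C_iff _ _ _).mp h6 k hk

end Fermat.Agent.M18

end
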