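/-
M18 (S18 project), package HM, part 2 (helper7): explicit truncations of `etaProd`,
`dedekindEtaUnit`, `dedekindEtaUnitInv`, `eisenstein4`, `jNum`.  (Generated numerics, every
step is checked by `ring`.)
-/
import Mathlib
import Fermat.Prelude.Def_ModularCurve_X0
import Fermat.Agent.M18.HmCong
import Fermat.Agent.M18.HmEta

set_option autoImplicit false
set_option linter.unusedSectionVars false
set_option linter.unusedVariables false
set_option linter.style.longLine false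
set_option maxRecDepth 100000

noncomputable section

namespace Fermat.Agent.M18

open PowerSeries ModularCurve

/-- `expand` and congruences. -/
theorem m18hm_C.expand {R : Type*} [CommRing R] (d : ℕ) (hd : d ≠ 0) {m : ℕ}
    {f g : PowerSeries R} (h : m18hm_C m f g) :
    m18hm_C (d * m) (PowerSeries.expand d hd f) (PowerSeries.expand d hd g) := by
  unfold m18hm_C at h ⊢
  obtain ⟨c, hc⟩ := h
  refine ⟨PowerSeries.expand d hd c, ?_⟩
  rw [← map_sub, hc, map_mul, map_pow, PowerSeries.expand_X, ← pow_mul]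

/-- `etaProd mod X ^ 8`. -/
def m18hm_E8 : PowerSeries ℤ := (1) + (-1) * X + (-1) * X ^ 2 + (1) * X ^ 5 + (1) * X ^ 7

theorem m18hm_etaProd_E8 : m18hm_C 8 etaProd m18hm_E8 := by
  refine (m18hm_etaProd_C 7).trans ?_
  refine m18hm_C_of_eq ((1) + (-1) * X ^ 2 + (-1) * X ^ 3 + (-2) * X ^ 4 + (2) * X ^ 8 + (1) * X ^ 9 + (1) * X ^ 10 + (-1) * X ^ 12 + (-1) * X ^ 13 + (-1) * X ^ 15 + (1) * X ^ 18 + (1) * X ^ 19 + (-1) * X ^ 20) ?_
  simp only [Finset.prod_range_succ, Finset.prod_range_zero, m18hm_E8]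
  ring

/-- `etaProd ^ 2 mod X ^ 8` -/
def m18hm_P2 : PowerSeries ℤ := (1) + (-2) * X + (-1) * X ^ 2 + (2) * X ^ 3 + (1) * X ^ 4 + (2) * X ^ 5 + (-2) * X ^ 6

theorem m18hm_P2_eq : m18hm_C 8 (m18hm_E8 * m18hm_E8) m18hm_P2 := by
  refine m18hm_C_of_eq ((-2) + (-2) * X + (1) * X ^ 2 + (2) * X ^ 4 + (1) * X ^ 6) ?_
  simp only [m18hm_E8, m18hm_E8, m18hm_P2]
  ring

/-- `etaProd ^ 4 mod X ^ 8` -/
def m18hm_P4 : PowerSeries ℤ := (1) + (-4) * X + (2) * X ^ 2 + (8) * X ^ 3 + (-5) * X ^ 4 + (-4) * X ^ 5 + (-10) * X ^ 6 + (8) * X ^ 7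

theorem m18hm_P4_eq : m18hm_C 8 (m18hm_P2 * m18hm_P2) m18hm_P4 := by
  refine m18hm_C_of_eq ((13) + (-4) * X + (-8) * X ^ 3 + (4) * X ^ 4) ?_
  simp only [m18hm_P2, m18hm_P2, m18hm_P4]
  ring

/-- `etaProd ^ 8 mod X ^ 8` -/
def m18hm_P8 : PowerSeries ℤ := (1) + (-8) * X + (20) * X ^ 2 + (-70) * X ^ 4 + (64) * X ^ 5 + (56) * X ^ 6

theorem m18hm_P8_eq : m18hm_C 8 (m18hm_P4 * m18hm_P4) m18hm_P8 := by
  refine m18hm_C_of_eq ((-143) + (-88) * X + (244) * X ^ 2 + (36) * X ^ 4 + (-160) * X ^ 5 + (64) * X ^ 6) ?_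
  simp only [m18hm_P4, m18hm_P4, m18hm_P8]
  ring

/-- `etaProd ^ 16 mod X ^ 8` -/
def m18hm_P16 : PowerSeries ℤ := (1) + (-16) * X + (104) * X ^ 2 + (-320) * X ^ 3 + (260) * X ^ 4 + (1248) * X ^ 5 + (-3712) * X ^ 6 + (1664) * X ^ 7

theorem m18hm_P16_eq : m18hm_C 8 (m18hm_P8 * m18hm_P8) m18hm_P16 := by
  refine m18hm_C_of_eq ((7140) + (-8960) * X + (-3744) * X ^ 2 + (7168) * X ^ 3 + (3136) * X ^ 4) ?_
  simp only [m18hm_P8, m18hm_P8, m18hm_P16]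
  ring

/-- `etaProd ^ 24 mod X ^ 8` -/
def m18hm_D8 : PowerSeries ℤ := (1) + (-24) * X + (252) * X ^ 2 + (-1472) * X ^ 3 + (4830) * X ^ 4 + (-6048) * X ^ 5 + (-16744) * X ^ 6 + (84480) * X ^ 7

theorem m18hm_D8_eq : m18hm_C 8 (m18hm_P16 * m18hm_P8) m18hm_D8 := by
  refine m18hm_C_of_eq ((-120408) + (-55360) * X + (354272) * X ^ 2 + (-284160) * X ^ 3 + (-101376) * X ^ 4 + (93184) * X ^ 5) ?_
  simp only [m18hm_P16, m18hm_P8, m18hm_D8]
  ring

theorem m18hm_eta_D8 : m18hm_C 8 dedekindEtaUnit m18hm_D8 := by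
  have h1 := m18hm_etaProd_E8
  have h2 : m18hm_C 8 (etaProd ^ 2) m18hm_P2 := by
    rw [pow_two]
    exact (h1.mul h1).trans m18hm_P2_eq
  have h4 : m18hm_C 8 (etaProd ^ 4) m18hm_P4 := by
    rw [show etaProd ^ 4 = etaProd ^ 2 * etaProd ^ 2 by ring]
    exact (h2.mul h2).trans m18hm_P4_eq
  have h8 : m18hm_C 8 (etaProd ^ 8) m18hm_P8 := by
    rw [show etaProd ^ 8 = etaProd ^ 4 * etaProd ^ 4 by ring]
    exact (h4.mul h4).trans m18hm_P8_eq
  have h16 : m18hm_C 8 (etaProd ^ 16) m18hm_P16 := by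
    rw [show etaProd ^ 16 = etaProd ^ 8 * etaProd ^ 8 by ring]
    exact (h8.mul h8).trans m18hm_P16_eq
  rw [dedekindEtaUnit, show etaProd ^ 24 = etaProd ^ 16 * etaProd ^ 8 by ring]
  exact (h16.mul h8).trans m18hm_D8_eq

/-- `dedekindEtaUnitInv mod X ^ 3`. -/
def m18hm_I3 : PowerSeries ℤ := (1) + (24) * X + (324) * X ^ 2

/-- `dedekindEtaUnit mod X ^ 3`. -/
def m18hm_D3 : PowerSeries ℤ := (1) + (-24) * X + (252) * X ^ 2

theorem m18hm_eta_D3 : m18hm_C 3 dedekindEtaUnit m18hm_D3 := by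
  refine (m18hm_eta_D8.mono (by norm_num)).trans ?_
  refine m18hm_C_of_eq ((-1472) + (4830) * X + (-6048) * X ^ 2 + (-16744) * X ^ 3 + (84480) * X ^ 4) ?_
  simp only [m18hm_D8, m18hm_D3]
  ring

theorem m18hm_etaInv_I3 : m18hm_C 3 dedekindEtaUnitInv m18hm_I3 := by
  refine m18hm_eta_D3.inv dedekindEtaUnit_mul_inv ?_
  refine m18hm_C_of_eq ((-1728) + (81648) * X) ?_
  simp only [m18hm_D3, m18hm_I3]
  ring

/-- `eisenstein4 mod X ^ 3`. -/
def m18hm_F3 : PowerSeries ℤ := (1) + (240) * X + (2160) * X ^ 2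

theorem m18hm_E4_F3 : m18hm_C 3 eisenstein4 m18hm_F3 := by
  have hF : m18hm_F3 = C (1:ℤ) + C (240:ℤ) * X + C (2160:ℤ) * X^2 := by
    simp only [m18hm_F3, map_one, map_ofNat]
  have hs2 : (Nat.divisors 2) = {1, 2} := by decide
  rw [m18hm_C_iff]
  intro k hk
  rw [hF, map_add, map_add, coeff_C_mul, coeff_C_mul, coeff_C, coeff_X, coeff_X_pow,
    eisenstein4, coeff_mk]
  interval_cases k
  · norm_num
  · norm_num
  · rw [hs2]
    norm_num

/-- `jNum mod X ^ 3`. -/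
def m18hm_J3 : PowerSeries ℤ := (1) + (744) * X + (196884) * X ^ 2

theorem m18hm_jNum_J3 : m18hm_C 3 jNum m18hm_J3 := by
  rw [jNum]
  refine ((m18hm_E4_F3.pow 3).mul m18hm_etaInv_I3).trans ?_
  refine m18hm_C_of_eq ((21470400) + (851757120) * X + (18139852800) * X ^ 2 + (216166579200) * X ^ 3 + (1330255872000) * X ^ 4 + (3265173504000) * X ^ 5) ?_
  simp only [m18hm_F3, m18hm_I3, m18hm_J3]
  ring

end Fermat.Agent.M18

end
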