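/-
S18, package (HM) (helper7): the formal modular unit `u = Δ(t) / Δ(t^p)` (the expansion at the
cusp `0` of `φ = p^12 Δ(pτ)/Δ(τ)`), general facts.
-/
import Mathlib
import Fermat.Agent.M28.PfW
import Fermat.Agent.M18.HmCoef

set_option autoImplicit false
set_option linter.unusedSectionVars false
set_option linter.style.longLine false

noncomputable section

namespace Fermat.Agent.M18

open ModularCurve Fermat.Agent.M28

section

variable (R : Type*) [CommRing R] (p : ℕ) [NeZero p]

/-- the numerator `η24(t) / η24(t^p)` of `u`. -/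
def m18hm_uNum : PowerSeries R :=
  m28pf_eta R * PowerSeries.expand p (NeZero.ne p) (m28pf_etaInv R)

/-- `u = Δ(t) / Δ(t^p)`. -/
def m18hm_u : LaurentSeries R := m28pf_delta R * qExpand R p (m28pf_deltaInv R)

theorem m18hm_u_eq : m18hm_u R p
    = HahnSeries.single (1 - (p : ℤ)) (1 : R) * HahnSeries.ofPowerSeries ℤ R (m18hm_uNum R p) := by
  rw [m18hm_u, m28pf_delta, m28pf_deltaInv, map_mul, qExpand_single, m28pf_qExpand_ofPowerSeries,
    mul_mul_mul_comm, m28pf_single_mul_single, ← map_mul, m18hm_uNum]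
  congr 2
  rw [mul_neg, mul_one, sub_eq_add_neg]

theorem m18hm_u_mul_w : m18hm_u R p * m28pf_w R p = 1 := by
  have h1 := m28pf_delta_mul_inv R
  have h2 : qExpand R p (m28pf_delta R) * qExpand R p (m28pf_deltaInv R) = 1 := by
    rw [← map_mul, h1, map_one]
  rw [m18hm_u, m28pf_w_eq]
  linear_combination (qExpand R p (m28pf_delta R) * qExpand R p (m28pf_deltaInv R)) * h1 + h2

theorem m18hm_coeff_u_of_lt {n : ℤ} (hn : n < 1 - (p : ℤ)) : (m18hm_u R p).coeff n = 0 := by
  rw [m18hm_u_eq, HahnSeries.coeff_single_mul, one_mul]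
  exact ofPowerSeries_coeff_of_neg _ (by omega)

theorem m18hm_constantCoeff_uNum : PowerSeries.constantCoeff (m18hm_uNum R p) = 1 := by
  rw [m18hm_uNum, map_mul, m28pf_constantCoeff_eta, one_mul,
    ← PowerSeries.coeff_zero_eq_constantCoeff_apply]
  have h := PowerSeries.coeff_expand_mul p (NeZero.ne p) (m28pf_etaInv R) 0
  rw [mul_zero] at h
  rw [h, PowerSeries.coeff_zero_eq_constantCoeff_apply, m28pf_constantCoeff_etaInv]

theorem m18hm_coeff_u_self : (m18hm_u R p).coeff (1 - (p : ℤ)) = 1 := by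
  rw [m18hm_u_eq, HahnSeries.coeff_single_mul, one_mul, sub_self,
    show (0 : ℤ) = ((0 : ℕ) : ℤ) from rfl,
    HahnSeries.ofPowerSeries_apply_coeff, PowerSeries.coeff_zero_eq_constantCoeff_apply,
    m18hm_constantCoeff_uNum]

end

section map

variable {R S : Type*} [CommRing R] [CommRing S]

theorem m18hm_coeffMap_u (f : R →+* S) (p : ℕ) [NeZero p] :
    coeffMap f (m18hm_u R p) = m18hm_u S p := by
  rw [m18hm_u, m18hm_u, map_mul, coeffMap_qExpand, m28pf_coeffMap_delta,
    m28pf_coeffMap_deltaInv]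

theorem m18hm_coeffMap_injective (f : R →+* S) (hf : Function.Injective f) :
    Function.Injective (coeffMap f) := by
  intro x y h
  ext n
  apply hf
  rw [← coeffMap_coeff, ← coeffMap_coeff, h]

/-- a Laurent series which is a power series without constant term. -/
theorem m18hm_coeff_ofPS_nonpos (P : PowerSeries R) (h0 : PowerSeries.constantCoeff P = 0)
    {n : ℤ} (hn : n ≤ 0) : (HahnSeries.ofPowerSeries ℤ R P).coeff n = 0 := by
  rcases lt_or_eq_of_le hn with h | h
  · exact ofPowerSeries_coeff_of_neg _ h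
  · subst h
    rw [show (0 : ℤ) = ((0 : ℕ) : ℤ) from rfl, HahnSeries.ofPowerSeries_apply_coeff,
      PowerSeries.coeff_zero_eq_constantCoeff_apply, h0]

end map

end Fermat.Agent.M18

end
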