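/-
S18, package (HM) (helper7): level 2, the two formal low-order computations.

`a = j * (4096 w) - (4096 w + 16)^3` (`w = Δ(q²)/Δ(q)`) has no terms of exponent `≤ 0`, and
`b = j(t²) * u - (u + 16)^3` (`u = Δ(t)/Δ(t²)`) has no terms of negative exponent.
-/
import Mathlib
import Fermat.Agent.M18.HmU

set_option autoImplicit false
set_option linter.unusedSectionVars false
set_option linter.unusedVariables false
set_option linter.style.longLine false
set_option maxRecDepth 100000

noncomputable section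

namespace Fermat.Agent.M18

open ModularCurve Fermat.Agent.M28

section

variable (R : Type*) [CommRing R]

/-- `a = j * (4096 w) - (4096 w + 16)^3`. -/
def m18hm_a2 : LaurentSeries R :=
  jqModC R * (4096 * m28pf_w R 2) - (4096 * m28pf_w R 2 + 16) ^ 3

/-- `b = j(t²) * u - (u + 16)^3`. -/
def m18hm_b2 : LaurentSeries R :=
  qExpand R 2 (jqModC R) * m18hm_u R 2 - (m18hm_u R 2 + 16) ^ 3

theorem m18hm_single_neg_mul_X :
    (HahnSeries.single (-1 : ℤ) (1 : R) : LaurentSeries R)
      * HahnSeries.ofPowerSeries ℤ R PowerSeries.X = 1 := by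
  rw [HahnSeries.ofPowerSeries_X, m28pf_single_mul_single]
  rfl

theorem m18hm_constantCoeff_jNum_map :
    PowerSeries.constantCoeff (jNum.map (Int.castRingHom R)) = 1 := by
  rw [← PowerSeries.coeff_zero_eq_constantCoeff_apply, PowerSeries.coeff_map,
    PowerSeries.coeff_zero_eq_constantCoeff_apply, constantCoeff_jNum]
  simp

theorem m18hm_a2_eq : m18hm_a2 R = HahnSeries.ofPowerSeries ℤ R
    (jNum.map (Int.castRingHom R) * (4096 * m28pf_wNum R 2)
      - (4096 * (PowerSeries.X * m28pf_wNum R 2) + 16) ^ 3) := by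
  have hsx := m18hm_single_neg_mul_X R
  have hw : m28pf_w R 2 = HahnSeries.ofPowerSeries ℤ R PowerSeries.X
      * HahnSeries.ofPowerSeries ℤ R (m28pf_wNum R 2) := by
    rw [m28pf_w, HahnSeries.ofPowerSeries_X]
    norm_num
  rw [m18hm_a2, jqModC, hw, map_sub, map_mul, map_pow, map_add, map_mul, map_mul, map_mul,
    map_ofNat, map_ofNat]
  linear_combination (HahnSeries.ofPowerSeries ℤ R (jNum.map (Int.castRingHom R)) * 4096
    * HahnSeries.ofPowerSeries ℤ R (m28pf_wNum R 2)) * hsx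

theorem m18hm_a2_low {n : ℤ} (hn : n ≤ 0) : (m18hm_a2 R).coeff n = 0 := by
  rw [m18hm_a2_eq]
  refine m18hm_coeff_ofPS_nonpos _ ?_ hn
  simp only [map_sub, map_mul, map_pow, map_add, map_ofNat, PowerSeries.constantCoeff_X,
    m18hm_constantCoeff_jNum_map, m28pf_constantCoeff_wNum]
  norm_num

end

/-! ### the congruence modulo `X ^ 3` -/

section

open PowerSeries

theorem m18hm_expand_jNum_2 :
    m18hm_C 3 (PowerSeries.expand 2 two_ne_zero jNum) (1 + 744 * X ^ 2) := by
  have h1 : m18hm_C 2 jNum (1 + 744 * X) := by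
    refine (m18hm_jNum_J3.mono (by norm_num)).trans ?_
    refine m18hm_C_of_eq (196884) ?_
    simp only [m18hm_J3]
    ring
  have h2 := (h1.expand 2 two_ne_zero).mono (show 3 ≤ 2 * 2 by norm_num)
  have h3 : PowerSeries.expand 2 two_ne_zero (1 + 744 * X : PowerSeries ℤ) = 1 + 744 * X ^ 2 := by
    rw [map_add, map_mul, map_one, map_ofNat, PowerSeries.expand_X]
  rwa [h3] at h2

theorem m18hm_expand_etaInv_2 :
    m18hm_C 3 (PowerSeries.expand 2 two_ne_zero dedekindEtaUnitInv) (1 + 24 * X ^ 2) := by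
  have h1 : m18hm_C 2 dedekindEtaUnitInv (1 + 24 * X) := by
    refine (m18hm_etaInv_I3.mono (by norm_num)).trans ?_
    refine m18hm_C_of_eq (324) ?_
    simp only [m18hm_I3]
    ring
  have h2 := (h1.expand 2 two_ne_zero).mono (show 3 ≤ 2 * 2 by norm_num)
  have h3 : PowerSeries.expand 2 two_ne_zero (1 + 24 * X : PowerSeries ℤ) = 1 + 24 * X ^ 2 := by
    rw [map_add, map_mul, map_one, map_ofNat, PowerSeries.expand_X]
  rwa [h3] at h2

/-- the key congruence over `ℤ`. -/
theorem m18hm_B2_int :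
    m18hm_C 3 (PowerSeries.expand 2 two_ne_zero jNum
        * (dedekindEtaUnit * PowerSeries.expand 2 two_ne_zero dedekindEtaUnitInv))
      ((dedekindEtaUnit * PowerSeries.expand 2 two_ne_zero dedekindEtaUnitInv + 16 * X) ^ 3) := by
  have hU : m18hm_C 3 (dedekindEtaUnit * PowerSeries.expand 2 two_ne_zero dedekindEtaUnitInv)
      (m18hm_D3 * (1 + 24 * X ^ 2)) := m18hm_eta_D3.mul m18hm_expand_etaInv_2
  have hL := m18hm_expand_jNum_2.mul hU
  have hR := (hU.add (m18hm_C_refl 3 (16 * X : PowerSeries ℤ))).pow 3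
  refine hL.trans (m18hm_C.trans ?_ hR.symm)
  refine m18hm_C_of_eq ((-2944) + (-115920) * X + (2754432) * X ^ 2 + (-36327744) * X ^ 3 + (240620544) * X ^ 4 + (-1933797888) * X ^ 5 + (6837903360) * X ^ 6 + (-36306579456) * X ^ 7 + (63207309312) * X ^ 8 + (-221225582592) * X ^ 9) ?_
  simp only [m18hm_D3]
  ring

end

section

variable (R : Type*) [CommRing R]

theorem m18hm_B2 : ∃ B : PowerSeries R,
    PowerSeries.expand 2 two_ne_zero (jNum.map (Int.castRingHom R)) * m18hm_uNum R 2
      - (m18hm_uNum R 2 + 16 * PowerSeries.X) ^ 3 = PowerSeries.X ^ 3 * B := by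
  have h := m18hm_B2_int.map (Int.castRingHom R)
  obtain ⟨B, hB⟩ := h
  refine ⟨B, ?_⟩
  rw [← hB, m18hm_uNum, m28pf_eta, m28pf_etaInv]
  simp only [map_mul, map_pow, map_add, PowerSeries.map_expand, PowerSeries.map_X, map_ofNat]

theorem m18hm_b2_eq : ∃ B : PowerSeries R, m18hm_b2 R = HahnSeries.ofPowerSeries ℤ R B := by
  obtain ⟨B, hB⟩ := m18hm_B2 R
  refine ⟨B, ?_⟩
  have hsx := m18hm_single_neg_mul_X R
  have hj : qExpand R 2 (jqModC R) = HahnSeries.single (-1 : ℤ) (1 : R) ^ 2
      * HahnSeries.ofPowerSeries ℤ R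
        (PowerSeries.expand 2 two_ne_zero (jNum.map (Int.castRingHom R))) := by
    rw [jqModC, map_mul, qExpand_single, m28pf_qExpand_ofPowerSeries, pow_two,
      m28pf_single_mul_single]
    norm_num
  have hu : m18hm_u R 2 = HahnSeries.single (-1 : ℤ) (1 : R)
      * HahnSeries.ofPowerSeries ℤ R (m18hm_uNum R 2) := by
    rw [m18hm_u_eq]
    norm_num
  have hB' := congrArg (HahnSeries.ofPowerSeries ℤ R) hB
  rw [map_sub, map_mul, map_pow, map_add, map_mul, map_mul, map_pow, map_ofNat] at hB'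
  rw [m18hm_b2, hj, hu]
  set s : LaurentSeries R := HahnSeries.single (-1 : ℤ) (1 : R)
  set x : LaurentSeries R := HahnSeries.ofPowerSeries ℤ R PowerSeries.X
  set U : LaurentSeries R := HahnSeries.ofPowerSeries ℤ R (m18hm_uNum R 2)
  set J : LaurentSeries R := HahnSeries.ofPowerSeries ℤ R
        (PowerSeries.expand 2 two_ne_zero (jNum.map (Int.castRingHom R)))
  set Bc : LaurentSeries R := HahnSeries.ofPowerSeries ℤ R B
  have hsx3 : s ^ 3 * x ^ 3 = 1 := by rw [← mul_pow, hsx, one_pow]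
  linear_combination s ^ 3 * hB' + Bc * hsx3
    + 16 * ((s * U + 16 * (s * x)) ^ 2 + (s * U + 16 * (s * x)) * (s * U + 16)
      + (s * U + 16) ^ 2) * hsx

theorem m18hm_b2_low {n : ℤ} (hn : n < 0) : (m18hm_b2 R).coeff n = 0 := by
  obtain ⟨B, hB⟩ := m18hm_b2_eq R
  rw [hB]
  exact ofPowerSeries_coeff_of_neg _ hn

end

end Fermat.Agent.M18

end
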