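/-
S18, package (HM) (helper7): the vanishing criterion for `Γ₀(p)`-invariant functions.

A holomorphic `Γ₀(p)`-invariant function whose expansion at `∞` has no terms of exponent `≤ 0`
and whose expansion at `0` has no terms of negative exponent is zero (its norm to level one is a
polynomial in `J` with vanishing principal part and constant term).
-/
import Mathlib
import Fermat.Agent.M16.IntTr
import Fermat.Agent.M16.Int5Ser
import Fermat.Agent.M16.Int5Red
import Fermat.Agent.M16.IntUnit

set_option autoImplicit false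
set_option linter.unusedSectionVars false
set_option linter.style.longLine false

noncomputable section

namespace Fermat.Agent.M18

open UpperHalfPlane hiding I
open Filter Function Topology ModularForm Complex ModularCurve
open scoped Manifold MatrixGroups ModularForm Real CongruenceSubgroup
open CongruenceSubgroup Polynomial
open Fermat.Agent.S23 Fermat.Agent.S24 Fermat.Agent.M28 Fermat.Agent.M16

variable (p : ℕ) [Fact p.Prime]

/-- the norm of `f` to level one. -/
def m18hm_Nm (f : ana_ring p) : ana_ring p := ∏ c : Option (ZMod p), m16h1_cj p f c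

theorem m18hm_Nm_T (f : ana_ring p) (hΓ : ∀ γ ∈ Gamma0 p, ana_comp p γ f = f) :
    ana_comp p ModularGroup.T (m18hm_Nm p f) = m18hm_Nm p f := by
  unfold m18hm_Nm
  rw [map_prod]
  simp_rw [m16h1_comp_T_cj p f hΓ]
  exact Equiv.prod_comp (m16h1_sT p) (fun c => m16h1_cj p f c)

theorem m18hm_Nm_S (f : ana_ring p) (hΓ : ∀ γ ∈ Gamma0 p, ana_comp p γ f = f) :
    ana_comp p ModularGroup.S (m18hm_Nm p f) = m18hm_Nm p f := by
  unfold m18hm_Nm
  rw [map_prod]
  simp_rw [m16h1_comp_S_cj p f hΓ]
  exact Equiv.prod_comp (m16h1_sS p) (fun c => m16h1_cj p f c)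

theorem m18hm_Nm_low (f : ana_ring p)
    (hinf : ∀ n : ℤ, n ≤ 0 → (ana_qexp p f).coeff n = 0)
    (hzero : ∀ n : ℤ, n < 0 → (ana_qexp p (ana_comp p ModularGroup.S f)).coeff n = 0) :
    ∀ n : ℤ, n ≤ 0 → (ana_qexp p (m18hm_Nm p f)).coeff n = 0 := by
  classical
  intro n hn
  unfold m18hm_Nm
  rw [map_prod]
  have h := (m16intu_prod_low (Finset.univ : Finset (Option (ZMod p)))
    (fun c => ana_qexp p (m16h1_cj p f c)) (fun c => if c = none then 1 else 0) ?_).1
  · apply h
    rw [Fintype.sum_option]
    simp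
    omega
  · intro c _ m hm
    cases c with
    | none =>
      simp only [if_true] at hm
      exact hinf m (by omega)
    | some k =>
      simp only [reduceCtorEq, if_false] at hm
      rw [m16intt_qexp_cj_some_coeff, hzero m hm, mul_zero]

/-- **the vanishing criterion**. -/
theorem m18hm_vanish (f : ana_ring p) (hΓ : ∀ γ ∈ Gamma0 p, ana_comp p γ f = f)
    (hinf : ∀ n : ℤ, n ≤ 0 → (ana_qexp p f).coeff n = 0)
    (hzero : ∀ n : ℤ, n < 0 → (ana_qexp p (ana_comp p ModularGroup.S f)).coeff n = 0) :
    f = 0 := by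
  classical
  have hinv := m16h1_inv_of_ST p (m18hm_Nm p f) (m18hm_Nm_S p f hΓ) (m18hm_Nm_T p f hΓ)
  obtain ⟨P, -, -, hq⟩ := m16h1_level_one_poly p ⊤ (m18hm_Nm p f) hinv
    ((m16h1_mem_LR_iff _ _).mpr fun n => Subring.mem_top _)
  have hq' : ana_qexp p (m18hm_Nm p f) = aeval (m16int_J1 p) P := by
    rw [hq, Polynomial.aeval_def, m16int_J1, m16int_J0_eq_jqModC]
    congr 1
    ext a : 1
    exact (m16int_algebraMap_eq_C a).symm
  have hlow := m18hm_Nm_low p f hinf hzero
  have hP0 : P = 0 := by
    have h := m16int_poly_coeff_mem p ⊥ P (fun n hn => by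
      rw [← hq', hlow n hn]
      exact AddSubgroup.zero_mem _)
    ext i
    have := h i
    rw [AddSubgroup.mem_bot] at this
    rw [this, Polynomial.coeff_zero]
  have hN0 : m18hm_Nm p f = 0 := by
    apply ana_qexp_injective p
    rw [hq', hP0, map_zero, map_zero]
  unfold m18hm_Nm at hN0
  obtain ⟨c, -, hc⟩ := Finset.prod_eq_zero_iff.mp hN0
  cases c with
  | none => exact hc
  | some k =>
    rw [m16h1_cj_some] at hc
    unfold m16h1_cjZ at hc
    have h1 := ana_comp_injective p _ (hc.trans (map_zero _).symm)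
    exact ana_comp_injective p _ (h1.trans (map_zero _).symm)

end Fermat.Agent.M18

end
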