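/-
S18, package (HM) (helper7): the level 2 identities
`j * (4096 w) = (4096 w + 16)^3` (`w = Δ(q²)/Δ(q)`) and `j(q²) * u = (u + 16)^3`
(`u = Δ(q)/Δ(q²)`), over every commutative ring.
-/
import Mathlib
import Fermat.Agent.M18.HmVan
import Fermat.Agent.M18.HmLow2

set_option autoImplicit false
set_option linter.unusedSectionVars false
set_option linter.style.longLine false

noncomputable section

namespace Fermat.Agent.M18

open UpperHalfPlane hiding I
open Filter Function Topology ModularForm Complex ModularCurve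
open scoped Manifold MatrixGroups ModularForm Real CongruenceSubgroup
open CongruenceSubgroup Polynomial
open Fermat.Agent.S23 Fermat.Agent.S24 Fermat.Agent.M28 Fermat.Agent.M16

local notation "Δ" => ModularForm.discriminant

/-- the expansion of `φ` at the cusp `0`. -/
theorem m18hm_E0_phi (p : ℕ) [Fact p.Prime] :
    ana_qexp p (ana_comp p ModularGroup.S (m28pb_phi p)) = m18hm_u ℂ p := by
  have hδ : HahnSeries.ofPowerSeries ℤ ℂ
      (PowerSeries.X * ModularCurve.dedekindEtaUnit.map (Int.castRingHom ℂ)) = m28pf_delta ℂ := by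
    rw [m28pf_delta, map_mul, HahnSeries.ofPowerSeries_X, m28pf_eta]
  have hnice := m28pa_nice_div p pj_disc_mem 0
  have heq : ((ana_comp p ModularGroup.S (m28pb_phi p) : ana_ring p) : ℍ → ℂ)
      = fun τ => (fun τ => Δ (m28pa_div p 0 τ)) τ / Δ τ := by
    funext τ
    rw [ana_comp_apply, m28pb_phi_apply, m16h1y_phi_S]
  rw [ana_qexp_apply, heq, m28pb_laurent_div p hnice, m28pa_laurent_div p pj_disc_mem 0,
    br_qExpansion_discriminant, hδ, zpow_zero, cf_twist_one, m18hm_u]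

/-- `J φ - (φ + 16)^3` at level `2`. -/
def m18hm_f2 : ana_ring 2 := ana_J 2 * m28pb_phi 2 - (m28pb_phi 2 + 16) ^ 3

theorem m18hm_f2_inv (γ : SL(2, ℤ)) (hγ : γ ∈ Gamma0 2) :
    ana_comp 2 γ m18hm_f2 = m18hm_f2 := by
  have h := (m16h1y_good_phi 2 ⊤).inv γ hγ
  rw [m18hm_f2, map_sub, map_mul, map_pow, map_add, map_ofNat, ana_comp_J, h]

theorem m18hm_f2_inf : ana_qexp 2 m18hm_f2 = qExpand ℂ 2 (m18hm_a2 ℂ) := by
  have hc : (HahnSeries.C (((2 : ℕ) : ℂ) ^ 12) : LaurentSeries ℂ) = 4096 := by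
    rw [show (((2 : ℕ) : ℂ) ^ 12) = 4096 by norm_num, map_ofNat]
  rw [m18hm_f2, m18hm_a2, map_sub, map_mul, map_pow, map_add, map_ofNat, m28pa_E_J, m28pb_E_phi,
    hc]
  simp only [map_sub, map_mul, map_pow, map_add, map_ofNat]

theorem m18hm_f2_zero : ana_qexp 2 (ana_comp 2 ModularGroup.S m18hm_f2) = m18hm_b2 ℂ := by
  rw [m18hm_f2, m18hm_b2]
  simp only [map_sub, map_mul, map_pow, map_add, map_ofNat, ana_comp_J, m28pa_E_J, m18hm_E0_phi]

theorem m18hm_f2_eq : m18hm_f2 = 0 := by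
  refine m18hm_vanish 2 m18hm_f2 m18hm_f2_inv ?_ ?_
  · intro n hn
    rw [m18hm_f2_inf]
    by_cases hd : ((2 : ℕ) : ℤ) ∣ n
    · obtain ⟨m, rfl⟩ := hd
      rw [qExpand_coeff_mul]
      exact m18hm_a2_low ℂ (by push_cast at hn; omega)
    · exact qExpand_coeff_of_not_dvd 2 _ hd
  · intro n hn
    rw [m18hm_f2_zero]
    exact m18hm_b2_low ℂ hn

theorem m18hm_a2_C : m18hm_a2 ℂ = 0 := by
  apply qExpand_injective (R := ℂ) 2
  rw [← m18hm_f2_inf, m18hm_f2_eq, map_zero, map_zero]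

theorem m18hm_b2_C : m18hm_b2 ℂ = 0 := by
  rw [← m18hm_f2_zero, m18hm_f2_eq, map_zero, map_zero]

theorem m18hm_coeffMap_a2 {R S : Type*} [CommRing R] [CommRing S] (f : R →+* S) :
    coeffMap f (m18hm_a2 R) = m18hm_a2 S := by
  rw [m18hm_a2, m18hm_a2, map_sub, map_mul, map_pow, map_add, map_mul, map_ofNat, map_ofNat,
    m16int_coeffMap_jqModC, m28pf_coeffMap_w]

theorem m18hm_coeffMap_b2 {R S : Type*} [CommRing R] [CommRing S] (f : R →+* S) :
    coeffMap f (m18hm_b2 R) = m18hm_b2 S := by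
  rw [m18hm_b2, m18hm_b2, map_sub, map_mul, map_pow, map_add, map_ofNat, coeffMap_qExpand,
    m16int_coeffMap_jqModC, m18hm_coeffMap_u]

/-- **level 2, at `∞`**: `j * (4096 w) = (4096 w + 16)^3`. -/
theorem m18hm_a2_zero (R : Type*) [CommRing R] : m18hm_a2 R = 0 := by
  have hZ : m18hm_a2 ℤ = 0 := by
    apply m18hm_coeffMap_injective (Int.castRingHom ℂ) Int.cast_injective
    rw [m18hm_coeffMap_a2, m18hm_a2_C, map_zero]
  rw [← m18hm_coeffMap_a2 (Int.castRingHom R), hZ, map_zero]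

/-- **level 2, at `0`**: `j(q²) * u = (u + 16)^3`. -/
theorem m18hm_b2_zero (R : Type*) [CommRing R] : m18hm_b2 R = 0 := by
  have hZ : m18hm_b2 ℤ = 0 := by
    apply m18hm_coeffMap_injective (Int.castRingHom ℂ) Int.cast_injective
    rw [m18hm_coeffMap_b2, m18hm_b2_C, map_zero]
  rw [← m18hm_coeffMap_b2 (Int.castRingHom R), hZ, map_zero]

end Fermat.Agent.M18

end
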