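/-
S18, package (HM) (helper7): the Hauptmodul `t4 = q⁻¹ - 8 + …` of level 4 and the identities
`j t⁴ (t+16) = (t² + 256 t + 4096)³`, `j(q²) t² (t+16)² = (t² + 16 t + 256)³`,
`j(q⁴) t (t+16) = (t² + 16 t + 16)³`, over every commutative ring (pure algebra on top of the
level 2 identities).
-/
import Mathlib
import Fermat.Agent.M18.HmLvl2

set_option autoImplicit false
set_option linter.unusedSectionVars false
set_option linter.style.longLine false

noncomputable section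

namespace Fermat.Agent.M18

open ModularCurve Fermat.Agent.M28 Fermat.Agent.M16

/-- cancellation of the square of a unit. -/
theorem m18hm_cancel_sq {A : Type*} [CommRing A] {a w z : A} (hw : a * w = 1)
    (h : a ^ 2 * z = 0) : z = 0 := by
  linear_combination (w ^ 2) * h - z * (a * w + 1) * hw

/-! ### the definition over `ℤ` -/

/-- the inverse of the numerator of `u + 16`. -/
def m18hm_vNum : PowerSeries ℤ := (m18hm_uNum ℤ 2 + 16 * PowerSeries.X).invOfUnit 1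

theorem m18hm_vNum_mul : (m18hm_uNum ℤ 2 + 16 * PowerSeries.X) * m18hm_vNum = 1 := by
  refine PowerSeries.mul_invOfUnit _ 1 ?_
  rw [map_add, map_mul, PowerSeries.constantCoeff_X, mul_zero, add_zero,
    m18hm_constantCoeff_uNum, Units.val_one]

/-- the numerator of `t4`. -/
def m18hm_tNum : PowerSeries ℤ :=
  (PowerSeries.expand 2 two_ne_zero (m18hm_uNum ℤ 2) - 16 * PowerSeries.X * m18hm_uNum ℤ 2)
    * m18hm_vNum

theorem m18hm_constantCoeff_vNum : PowerSeries.constantCoeff m18hm_vNum = 1 := by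
  have h := congrArg PowerSeries.constantCoeff m18hm_vNum_mul
  simpa [m18hm_constantCoeff_uNum] using h

theorem m18hm_constantCoeff_tNum : PowerSeries.constantCoeff m18hm_tNum = 1 := by
  have h := PowerSeries.coeff_expand_mul 2 two_ne_zero (m18hm_uNum ℤ 2) 0
  rw [mul_zero, PowerSeries.coeff_zero_eq_constantCoeff_apply,
    PowerSeries.coeff_zero_eq_constantCoeff_apply, m18hm_constantCoeff_uNum] at h
  rw [m18hm_tNum, map_mul, map_sub, h, m18hm_constantCoeff_vNum]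
  simp

/-- the Hauptmodul of level `4` over `ℤ`. -/
def m18hm_t4Z : LaurentSeries ℤ :=
  HahnSeries.single (-1 : ℤ) (1 : ℤ) * HahnSeries.ofPowerSeries ℤ ℤ m18hm_tNum

local notation "uZ" => m18hm_u ℤ 2
local notation "uZ'" => qExpand ℤ 2 (m18hm_u ℤ 2)
local notation "jZ" => jqModC ℤ
local notation "tZ" => m18hm_t4Z

theorem m18hm_uZ_eq : uZ = HahnSeries.single (-1 : ℤ) (1 : ℤ)
    * HahnSeries.ofPowerSeries ℤ ℤ (m18hm_uNum ℤ 2) := by
  rw [m18hm_u_eq]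
  norm_num

theorem m18hm_uZ'_eq : uZ' = HahnSeries.single (-1 : ℤ) (1 : ℤ) ^ 2
    * HahnSeries.ofPowerSeries ℤ ℤ (PowerSeries.expand 2 two_ne_zero (m18hm_uNum ℤ 2)) := by
  rw [m18hm_uZ_eq, map_mul, qExpand_single, m28pf_qExpand_ofPowerSeries, pow_two,
    m28pf_single_mul_single]
  norm_num

/-- `t (u + 16) = u' - 16 u`. -/
theorem m18hm_t4Z_mul : tZ * (uZ + 16) = uZ' - 16 * uZ := by
  have hsx := m18hm_single_neg_mul_X ℤ
  have hv := congrArg (HahnSeries.ofPowerSeries ℤ ℤ) m18hm_vNum_mul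
  rw [map_mul, map_add, map_mul, map_ofNat, map_one] at hv
  rw [m18hm_uZ'_eq, m18hm_uZ_eq, m18hm_t4Z, m18hm_tNum, map_mul, map_sub, map_mul, map_mul,
    map_ofNat (HahnSeries.ofPowerSeries ℤ ℤ) 16]
  set s : LaurentSeries ℤ := HahnSeries.single (-1 : ℤ) (1 : ℤ)
  set x : LaurentSeries ℤ := HahnSeries.ofPowerSeries ℤ ℤ PowerSeries.X
  set U : LaurentSeries ℤ := HahnSeries.ofPowerSeries ℤ ℤ (m18hm_uNum ℤ 2)
  set U' : LaurentSeries ℤ := HahnSeries.ofPowerSeries ℤ ℤ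
    (PowerSeries.expand 2 two_ne_zero (m18hm_uNum ℤ 2))
  set V : LaurentSeries ℤ := HahnSeries.ofPowerSeries ℤ ℤ m18hm_vNum
  linear_combination (s ^ 2 * (U' - 16 * x * U)) * hv
    + (-16 * s * (U' - 16 * x * U) * V - 16 * s * U) * hsx

/-- the inverse of `u + 16`. -/
theorem m18hm_uZ_add_inv : ∃ w : LaurentSeries ℤ, (uZ + 16) * w = 1 := by
  have hsx := m18hm_single_neg_mul_X ℤ
  have hv := congrArg (HahnSeries.ofPowerSeries ℤ ℤ) m18hm_vNum_mul
  rw [map_mul, map_add, map_mul, map_ofNat, map_one] at hv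
  refine ⟨HahnSeries.ofPowerSeries ℤ ℤ PowerSeries.X * HahnSeries.ofPowerSeries ℤ ℤ m18hm_vNum, ?_⟩
  rw [m18hm_uZ_eq]
  set s : LaurentSeries ℤ := HahnSeries.single (-1 : ℤ) (1 : ℤ)
  set x : LaurentSeries ℤ := HahnSeries.ofPowerSeries ℤ ℤ PowerSeries.X
  set U : LaurentSeries ℤ := HahnSeries.ofPowerSeries ℤ ℤ (m18hm_uNum ℤ 2)
  set V : LaurentSeries ℤ := HahnSeries.ofPowerSeries ℤ ℤ m18hm_vNum
  linear_combination hv + (U * V) * hsx

/-! ### the level 2 identities over `ℤ` -/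

theorem m18hm_ofNat_ne_zero (n : ℕ) [n.AtLeastTwo] : (OfNat.ofNat n : LaurentSeries ℤ) ≠ 0 := by
  intro h
  have h1 := congrArg (fun x : LaurentSeries ℤ => x.coeff 0) h
  rw [← map_ofNat (HahnSeries.C : ℤ →+* LaurentSeries ℤ) n] at h1
  simp only [HahnSeries.C_apply, HahnSeries.coeff_single_same, HahnSeries.coeff_zero] at h1
  exact (NeZero.ne (OfNat.ofNat n : ℤ)) h1

/-- `j u² = (u + 256)³`. -/
theorem m18hm_Z_a : jZ * uZ ^ 2 = (uZ + 256) ^ 3 := by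
  have ha := m18hm_a2_zero ℤ
  have huw := m18hm_u_mul_w ℤ 2
  rw [m18hm_a2] at ha
  have h4 : (4096 : LaurentSeries ℤ) ≠ 0 := m18hm_ofNat_ne_zero 4096
  apply mul_left_cancel₀ h4
  linear_combination (uZ ^ 3) * ha
    + (-4096 * jZ * uZ ^ 2 + 4096 * ((4096 * m28pf_w ℤ 2 * uZ + 16 * uZ) ^ 2
      + (4096 * m28pf_w ℤ 2 * uZ + 16 * uZ) * (4096 + 16 * uZ) + (4096 + 16 * uZ) ^ 2)) * huw

/-- `j(q²) u = (u + 16)³`. -/
theorem m18hm_Z_b : qExpand ℤ 2 jZ * uZ = (uZ + 16) ^ 3 := by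
  have hb := m18hm_b2_zero ℤ
  rw [m18hm_b2] at hb
  linear_combination hb

/-- `j(q²) u'² = (u' + 256)³`. -/
theorem m18hm_Z_a' : qExpand ℤ 2 jZ * uZ' ^ 2 = (uZ' + 256) ^ 3 := by
  have h := congrArg (qExpand ℤ 2) m18hm_Z_a
  simpa only [map_mul, map_pow, map_add, map_ofNat] using h

theorem m18hm_qExpand_2_2 {R : Type*} [CommRing R] (f : LaurentSeries R) :
    qExpand R 2 (qExpand R 2 f) = qExpand R 4 f := by
  rw [qExpand_qExpand]

/-- `j(q⁴) u' = (u' + 16)³`. -/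
theorem m18hm_Z_b' : qExpand ℤ 4 jZ * uZ' = (uZ' + 16) ^ 3 := by
  have h := congrArg (qExpand ℤ 2) m18hm_Z_b
  rw [map_mul, m18hm_qExpand_2_2] at h
  simpa only [map_mul, map_pow, map_add, map_ofNat] using h

/-! ### the modular equation of level 2 and its good factor -/

theorem m18hm_uZ_mul_ne : uZ * uZ' - 4096 ≠ 0 := by
  intro h
  have h1 := (m16intu_mul_low uZ uZ' (-1) (-2)
    (fun n hn => m18hm_coeff_u_of_lt ℤ 2 (by push_cast; omega))
    (fun n hn => by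
      by_cases hd : ((2 : ℕ) : ℤ) ∣ n
      · obtain ⟨m, rfl⟩ := hd
        rw [qExpand_coeff_mul]
        exact m18hm_coeff_u_of_lt ℤ 2 (by push_cast at hn ⊢; omega)
      · exact qExpand_coeff_of_not_dvd 2 _ hd)).2
  have h2 : (uZ').coeff (-2) = 1 := by
    have := qExpand_coeff_mul (R := ℤ) 2 uZ (-1)
    rw [show ((2 : ℕ) : ℤ) * (-1) = -2 by norm_num] at this
    rw [this]
    have h3 := m18hm_coeff_u_self ℤ 2
    rwa [show (1 : ℤ) - ((2 : ℕ) : ℤ) = -1 by norm_num] at h3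
  have h3 : (uZ).coeff (-1) = 1 := by
    have h3 := m18hm_coeff_u_self ℤ 2
    rwa [show (1 : ℤ) - ((2 : ℕ) : ℤ) = -1 by norm_num] at h3
  rw [h2, h3, mul_one, show (-1 : ℤ) + -2 = -3 by norm_num] at h1
  have h4 : uZ * uZ' = 4096 := by linear_combination h
  rw [h4, ← map_ofNat (HahnSeries.C : ℤ →+* LaurentSeries ℤ) 4096, HahnSeries.C_apply,
    HahnSeries.coeff_single_of_ne (by norm_num)] at h1
  exact zero_ne_one h1

/-- the good factor of the modular equation. -/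
theorem m18hm_Z_Q : uZ' ^ 2 - uZ ^ 2 * uZ' - 48 * uZ * uZ' - 4096 * uZ = 0 := by
  have hb := m18hm_Z_b
  have ha' := m18hm_Z_a'
  have h : (uZ * uZ' - 4096) * (uZ' ^ 2 - uZ ^ 2 * uZ' - 48 * uZ * uZ' - 4096 * uZ) = 0 := by
    linear_combination (uZ' ^ 2) * hb - uZ * ha'
  rcases mul_eq_zero.mp h with h1 | h1
  · exact absurd h1 m18hm_uZ_mul_ne
  · exact h1

/-- `t² = u (t + 16)`. -/
theorem m18hm_Z_T1 : tZ ^ 2 = uZ * (tZ + 16) := by
  obtain ⟨w, hw⟩ := m18hm_uZ_add_inv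
  have ht := m18hm_t4Z_mul
  have hQ := m18hm_Z_Q
  have h : (uZ + 16) ^ 2 * (tZ ^ 2 - uZ * (tZ + 16)) = 0 := by
    linear_combination (tZ * (uZ + 16) + (uZ' - 16 * uZ) - uZ * (uZ + 16)) * ht + hQ
  have h3 := m18hm_cancel_sq hw h
  linear_combination h3

/-- `u' = t (t + 16)`. -/
theorem m18hm_Z_T2 : uZ' = tZ * (tZ + 16) := by
  obtain ⟨w, hw⟩ := m18hm_uZ_add_inv
  have ht := m18hm_t4Z_mul
  have hQ := m18hm_Z_Q
  have h : (uZ + 16) ^ 2 * (tZ * (tZ + 16) - uZ') = 0 := by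
    linear_combination (tZ * (uZ + 16) + (uZ' - 16 * uZ) + 16 * (uZ + 16)) * ht + hQ
  have h3 := m18hm_cancel_sq hw h
  linear_combination -h3

/-! ### the three identities over `ℤ` -/

theorem m18hm_Z_J1 : jZ * (tZ ^ 4 * (tZ + 16)) = (tZ ^ 2 + 256 * tZ + 4096) ^ 3 := by
  have ha := m18hm_Z_a
  have h1 := m18hm_Z_T1
  linear_combination ((tZ + 16) ^ 3) * ha
    + (jZ * (tZ + 16) * (tZ ^ 2 + uZ * (tZ + 16))
      - ((tZ ^ 2 + 256 * tZ + 4096) ^ 2 + (tZ ^ 2 + 256 * tZ + 4096) * ((uZ + 256) * (tZ + 16))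
        + ((uZ + 256) * (tZ + 16)) ^ 2)) * h1

theorem m18hm_Z_J2 :
    qExpand ℤ 2 jZ * (tZ ^ 2 * (tZ + 16) ^ 2) = (tZ ^ 2 + 16 * tZ + 256) ^ 3 := by
  have hb := m18hm_Z_b
  have h1 := m18hm_Z_T1
  linear_combination ((tZ + 16) ^ 3) * hb
    + (qExpand ℤ 2 jZ * (tZ + 16) ^ 2
      - ((tZ ^ 2 + 16 * tZ + 256) ^ 2 + (tZ ^ 2 + 16 * tZ + 256) * ((uZ + 16) * (tZ + 16))
        + ((uZ + 16) * (tZ + 16)) ^ 2)) * h1

theorem m18hm_Z_J4 :
    qExpand ℤ 4 jZ * (tZ * (tZ + 16)) = (tZ ^ 2 + 16 * tZ + 16) ^ 3 := by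
  have hb' := m18hm_Z_b'
  have h2 := m18hm_Z_T2
  rw [h2] at hb'
  linear_combination hb'

end Fermat.Agent.M18

end
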