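/-
S18, package (HM) (helper7): the Hauptmodul `t4` of level 4 over a commutative ring / a field in
which `2 ≠ 0`: identities, membership in `modularFunctionFieldFullC K 4`, generation
`modularFunctionFieldFullC K 4 = K⟮t4⟯`, transcendence.
-/
import Mathlib
import Fermat.Agent.M18.HmLvl4

set_option autoImplicit false
set_option linter.unusedSectionVars false
set_option linter.style.longLine false

noncomputable section

namespace Fermat.Agent.M18

open ModularCurve Fermat.Agent.M28 Fermat.Agent.M16 IntermediateField Polynomial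

/-! ### over a commutative ring -/

section ring

variable (R : Type*) [CommRing R]

/-- the Hauptmodul of level `4`, `t4 = q⁻¹ - 8 + 20 q - …`. -/
def m18hm_t4 : LaurentSeries R := coeffMap (Int.castRingHom R) m18hm_t4Z

theorem m18hm_coeffMap_t4 {S : Type*} [CommRing S] (f : R →+* S) :
    coeffMap f (m18hm_t4 R) = m18hm_t4 S := by
  rw [m18hm_t4, m18hm_t4, coeffMap_coeffMap]
  exact coeffMap_congr (RingHom.ext_int _ _) _

theorem m18hm_t4_J1 : jqModC R * (m18hm_t4 R ^ 4 * (m18hm_t4 R + 16))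
    = (m18hm_t4 R ^ 2 + 256 * m18hm_t4 R + 4096) ^ 3 := by
  have h := congrArg (coeffMap (Int.castRingHom R)) m18hm_Z_J1
  simpa only [map_mul, map_pow, map_add, map_ofNat, m16int_coeffMap_jqModC, m18hm_t4] using h

theorem m18hm_t4_J2 : qExpand R 2 (jqModC R) * (m18hm_t4 R ^ 2 * (m18hm_t4 R + 16) ^ 2)
    = (m18hm_t4 R ^ 2 + 16 * m18hm_t4 R + 256) ^ 3 := by
  have h := congrArg (coeffMap (Int.castRingHom R)) m18hm_Z_J2
  simpa only [map_mul, map_pow, map_add, map_ofNat, coeffMap_qExpand, m16int_coeffMap_jqModC,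
    m18hm_t4] using h

theorem m18hm_t4_J4 : qExpand R 4 (jqModC R) * (m18hm_t4 R * (m18hm_t4 R + 16))
    = (m18hm_t4 R ^ 2 + 16 * m18hm_t4 R + 16) ^ 3 := by
  have h := congrArg (coeffMap (Int.castRingHom R)) m18hm_Z_J4
  simpa only [map_mul, map_pow, map_add, map_ofNat, coeffMap_qExpand, m16int_coeffMap_jqModC,
    m18hm_t4] using h

/-- `t (u + 16) = u(q²) - 16 u`. -/
theorem m18hm_t4_mul : m18hm_t4 R * (m18hm_u R 2 + 16)
    = qExpand R 2 (m18hm_u R 2) - 16 * m18hm_u R 2 := by
  have h := congrArg (coeffMap (Int.castRingHom R)) m18hm_t4Z_mul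
  simpa only [map_mul, map_pow, map_add, map_sub, map_ofNat, coeffMap_qExpand, m18hm_coeffMap_u,
    m18hm_t4] using h

/-- `j u² = (u + 256)³`. -/
theorem m18hm_u_a : jqModC R * m18hm_u R 2 ^ 2 = (m18hm_u R 2 + 256) ^ 3 := by
  have h := congrArg (coeffMap (Int.castRingHom R)) m18hm_Z_a
  simpa only [map_mul, map_pow, map_add, map_sub, map_ofNat, coeffMap_qExpand, m18hm_coeffMap_u,
    m16int_coeffMap_jqModC] using h

/-- `j(q²) u = (u + 16)³`. -/
theorem m18hm_u_b : qExpand R 2 (jqModC R) * m18hm_u R 2 = (m18hm_u R 2 + 16) ^ 3 := by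
  have h := congrArg (coeffMap (Int.castRingHom R)) m18hm_Z_b
  simpa only [map_mul, map_pow, map_add, map_sub, map_ofNat, coeffMap_qExpand, m18hm_coeffMap_u,
    m16int_coeffMap_jqModC] using h

theorem m18hm_t4_coeff_of_lt {n : ℤ} (hn : n < -1) : (m18hm_t4 R).coeff n = 0 := by
  rw [m18hm_t4, coeffMap_coeff, m18hm_t4Z, HahnSeries.coeff_single_mul, one_mul,
    ofPowerSeries_coeff_of_neg _ (by omega), map_zero]

theorem m18hm_t4_coeff_neg_one : (m18hm_t4 R).coeff (-1) = 1 := by
  rw [m18hm_t4, coeffMap_coeff, m18hm_t4Z, HahnSeries.coeff_single_mul, one_mul, sub_self,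
    show (0 : ℤ) = ((0 : ℕ) : ℤ) from rfl, HahnSeries.ofPowerSeries_apply_coeff,
    PowerSeries.coeff_zero_eq_constantCoeff_apply, m18hm_constantCoeff_tNum, map_one]

end ring

/-! ### series with a simple pole -/

section pole

variable {K : Type*} [Field K]

/-- `x = q⁻¹ + …`. -/
def m18hm_Pole1 (x : LaurentSeries K) : Prop := x.coeff (-1) = 1 ∧ ∀ n : ℤ, n < -1 → x.coeff n = 0

theorem m18hm_Pole1.pow {x : LaurentSeries K} (hx : m18hm_Pole1 x) (n : ℕ) :
    (x ^ n).coeff (-(n : ℤ)) = 1 ∧ ∀ m : ℤ, m < -(n : ℤ) → (x ^ n).coeff m = 0 := by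
  induction n with
  | zero =>
    constructor
    · simp
    · intro m hm
      rw [pow_zero, HahnSeries.coeff_one, if_neg]
      push_cast at hm
      omega
  | succ n ih =>
    have h := m16intu_mul_low (x ^ n) x (-(n : ℤ)) (-1) ih.2 hx.2
    rw [pow_succ]
    constructor
    · have h2 := h.2
      rw [ih.1, hx.1, mul_one] at h2
      rw [← h2]
      congr 1
      push_cast
      ring
    · intro m hm
      exact h.1 m (by push_cast at hm; omega)

theorem m18hm_Pole1.coeff_aeval {x : LaurentSeries K} (hx : m18hm_Pole1 x) (P : K[X]) :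
    (aeval x P).coeff (-(P.natDegree : ℤ)) = P.leadingCoeff := by
  rw [aeval_def, eval₂_eq_sum_range, HahnSeries.coeff_sum]
  rw [Finset.sum_eq_single P.natDegree]
  · rw [m16int_algebraMap_eq_C, HahnSeries.C_apply, HahnSeries.coeff_single_zero_mul,
      (hx.pow _).1, mul_one]
    rfl
  · intro i hi hne
    have hle : i ≤ P.natDegree := Nat.lt_succ_iff.mp (Finset.mem_range.mp hi)
    rw [m16int_algebraMap_eq_C, HahnSeries.C_apply, HahnSeries.coeff_single_zero_mul,
      (hx.pow i).2 _ (by have := lt_of_le_of_ne hle hne; omega), mul_zero]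
  · intro h
    exact absurd (Finset.mem_range.mpr (Nat.lt_succ_self _)) h

theorem m18hm_Pole1.transcendental {x : LaurentSeries K} (hx : m18hm_Pole1 x) :
    Transcendental K x := by
  rintro ⟨P, hP0, hP⟩
  have h := hx.coeff_aeval P
  rw [hP, HahnSeries.coeff_zero] at h
  exact hP0 (leadingCoeff_eq_zero.mp h.symm)

theorem m18hm_Pole1.ne_zero {x : LaurentSeries K} (hx : m18hm_Pole1 x) : x ≠ 0 := by
  intro h
  have := hx.1
  rw [h, HahnSeries.coeff_zero] at this
  exact zero_ne_one this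

theorem m18hm_Pole1.add_const {x : LaurentSeries K} (hx : m18hm_Pole1 x) (c : K) :
    m18hm_Pole1 (x + HahnSeries.C c) := by
  constructor
  · rw [HahnSeries.coeff_add, hx.1, HahnSeries.C_apply,
      HahnSeries.coeff_single_of_ne (by norm_num), add_zero]
  · intro n hn
    rw [HahnSeries.coeff_add, hx.2 n hn, HahnSeries.C_apply,
      HahnSeries.coeff_single_of_ne (by omega), add_zero]

theorem m18hm_t4_pole1 : m18hm_Pole1 (m18hm_t4 K) :=
  ⟨m18hm_t4_coeff_neg_one K, fun _ hn => m18hm_t4_coeff_of_lt K hn⟩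

theorem m18hm_u_pole1 : m18hm_Pole1 (m18hm_u K 2) := by
  constructor
  · have h := m18hm_coeff_u_self K 2
    rwa [show (1 : ℤ) - ((2 : ℕ) : ℤ) = -1 by norm_num] at h
  · intro n hn
    exact m18hm_coeff_u_of_lt K 2 (by push_cast; omega)

theorem m18hm_jq_pole1 : m18hm_Pole1 (jqModC K) :=
  ⟨coeff_jqModC_neg_one K, fun _ hn => coeff_jqModC_of_lt K hn⟩

end pole

end Fermat.Agent.M18

end
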