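/-
S18, package (HM) (helper7): over a field `K` with `2 ≠ 0`, the Hauptmodul `t4` lies in
`modularFunctionFieldFullC K 4` and generates it.
-/
import Mathlib
import Fermat.Agent.M18.HmFld4

set_option autoImplicit false
set_option linter.unusedSectionVars false
set_option linter.style.longLine false

noncomputable section

namespace Fermat.Agent.M18

open ModularCurve Fermat.Agent.M28 Fermat.Agent.M16 IntermediateField Polynomial

/-- elimination: a common root `v` of `x v² = (v + 256)³` and `y v = (v + 16)³` is a rational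
function of `x` and `y`. -/
theorem m18hm_elim {K L : Type*} [Field K] [Field L] [Algebra K L] (S : IntermediateField K L)
    {x y v : L} (hx : x ∈ S) (hy : y ∈ S)
    (ha : x * v ^ 2 = (v + 256) ^ 3) (hb : y * v = (v + 16) ^ 3)
    (hnum : (y + 195840 + 48 * (x - 720)) * 16773120 + 4096 * (x - 720) ^ 2 ≠ 0) : v ∈ S := by
  set A : L := x - 720 with hA
  set B : L := y + 195840 with hB
  have hAS : A ∈ S := sub_mem hx (ofNat_mem S 720)
  have hBS : B ∈ S := add_mem hy (ofNat_mem S 195840)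
  set den : L := (B + 48 * A) * B + A * 16773120 + (768 - y) * A ^ 2 with hden
  set num : L := (B + 48 * A) * 16773120 + 4096 * A ^ 2 with hnumdef
  have hdenS : den ∈ S := by
    refine add_mem (add_mem (mul_mem (add_mem hBS (mul_mem (ofNat_mem S 48) hAS)) hBS)
      (mul_mem hAS (ofNat_mem S 16773120))) (mul_mem (sub_mem (ofNat_mem S 768) hy) (pow_mem hAS 2))
  have hnumS : num ∈ S := by
    refine add_mem (mul_mem (add_mem hBS (mul_mem (ofNat_mem S 48) hAS)) (ofNat_mem S 16773120))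
      (mul_mem (ofNat_mem S 4096) (pow_mem hAS 2))
  have key : v * den + num = 0 := by
    rw [hden, hnumdef, hA, hB]
    linear_combination (-((x - 720) ^ 2)) * hb
      - ((x - 720) * v + (y + 195840) + 48 * (x - 720)) * (ha - hb)
  have hden0 : den ≠ 0 := by
    intro h0
    rw [h0, mul_zero, zero_add] at key
    exact hnum key
  have hv : v = -num / den := by
    rw [eq_div_iff hden0]
    linear_combination key
  rw [hv]
  exact div_mem (neg_mem hnumS) hdenS

section field

variable (K : Type*) [Field K]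

theorem m18hm_coeff_ofNat_mul (n : ℕ) [n.AtLeastTwo] (f : LaurentSeries K) (m : ℤ) :
    ((OfNat.ofNat n : LaurentSeries K) * f).coeff m = (OfNat.ofNat n : K) * f.coeff m := by
  rw [← map_ofNat (HahnSeries.C : K →+* LaurentSeries K) n, HahnSeries.C_apply,
    HahnSeries.coeff_single_zero_mul]

theorem m18hm_coeff_ofNat (n : ℕ) [n.AtLeastTwo] {m : ℤ} (hm : m ≠ 0) :
    (OfNat.ofNat n : LaurentSeries K).coeff m = 0 := by
  rw [← map_ofNat (HahnSeries.C : K →+* LaurentSeries K) n, HahnSeries.C_apply,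
    HahnSeries.coeff_single_of_ne hm]

theorem m18hm_num_ne (h2 : (2 : K) ≠ 0) :
    (qExpand K 2 (jqModC K) + 195840 + 48 * (jqModC K - 720)) * 16773120
      + 4096 * (jqModC K - 720) ^ 2 ≠ 0 := by
  intro h
  have hA : m18hm_Pole1 (jqModC K - 720) := by
    have := (m18hm_jq_pole1 (K := K)).add_const (-720)
    rwa [map_neg, map_ofNat, ← sub_eq_add_neg] at this
  have hA2 := (hA.pow 2).1
  rw [show (-((2 : ℕ) : ℤ)) = -2 by norm_num] at hA2
  have hj2 : (qExpand K 2 (jqModC K)).coeff (-2) = 1 := by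
    have := qExpand_coeff_mul (R := K) 2 (jqModC K) (-1)
    rw [show ((2 : ℕ) : ℤ) * (-1) = -2 by norm_num] at this
    rw [this, coeff_jqModC_neg_one]
  have hA' : (jqModC K - 720).coeff (-2) = 0 := hA.2 _ (by norm_num)
  have h1 := congrArg (fun z : LaurentSeries K => z.coeff (-2)) h
  simp only [HahnSeries.coeff_zero] at h1
  rw [mul_comm _ (16773120 : LaurentSeries K), HahnSeries.coeff_add, m18hm_coeff_ofNat_mul,
    m18hm_coeff_ofNat_mul, HahnSeries.coeff_add, HahnSeries.coeff_add, m18hm_coeff_ofNat_mul,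
    hj2, hA', hA2, m18hm_coeff_ofNat K 195840 (by norm_num)] at h1
  have h4 : (2 : K) ^ 24 = 0 := by
    linear_combination h1
  exact h2 (pow_eq_zero_iff (by norm_num) |>.mp h4)

/-- `u = Δ(q)/Δ(q²)` is a rational function of `j` and `j(q²)`. -/
theorem m18hm_u_mem (h2 : (2 : K) ≠ 0) (S : IntermediateField K (LaurentSeries K))
    (hj : jqModC K ∈ S) (hj2 : qExpand K 2 (jqModC K) ∈ S) : m18hm_u K 2 ∈ S :=
  m18hm_elim S hj hj2 (m18hm_u_a K) (m18hm_u_b K) (m18hm_num_ne K h2)

/-- `u(q²)` is a rational function of `j(q²)` and `j(q⁴)`. -/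
theorem m18hm_u'_mem (h2 : (2 : K) ≠ 0) (S : IntermediateField K (LaurentSeries K))
    (hj2 : qExpand K 2 (jqModC K) ∈ S) (hj4 : qExpand K 4 (jqModC K) ∈ S) :
    qExpand K 2 (m18hm_u K 2) ∈ S := by
  have ha := congrArg (qExpand K 2) (m18hm_u_a K)
  have hb := congrArg (qExpand K 2) (m18hm_u_b K)
  rw [map_mul, m18hm_qExpand_2_2] at hb
  simp only [map_mul, map_pow, map_add, map_ofNat] at ha hb
  refine m18hm_elim S hj2 hj4 ha hb ?_
  intro h
  apply m18hm_num_ne K h2
  apply qExpand_injective (R := K) 2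
  simp only [map_mul, map_pow, map_add, map_sub, map_ofNat, map_zero, m18hm_qExpand_2_2]
  exact h

theorem m18hm_u_add_ne : m18hm_u K 2 + 16 ≠ 0 := by
  have h := (m18hm_u_pole1 (K := K)).add_const 16
  rw [map_ofNat] at h
  exact h.ne_zero

theorem m18hm_t4_add_ne : m18hm_t4 K + 16 ≠ 0 := by
  have h := (m18hm_t4_pole1 (K := K)).add_const 16
  rw [map_ofNat] at h
  exact h.ne_zero

theorem m18hm_t4_ne : m18hm_t4 K ≠ 0 := (m18hm_t4_pole1 (K := K)).ne_zero

/-- **`t4 ∈ F_4`**. -/
theorem m18hm_t4_mem (h2 : (2 : K) ≠ 0) : m18hm_t4 K ∈ modularFunctionFieldFullC K 4 := by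
  have hj : jqModC K ∈ modularFunctionFieldFullC K 4 := jqModC_mem_full K 4
  have hj2 : qExpand K 2 (jqModC K) ∈ modularFunctionFieldFullC K 4 :=
    jqModCd_mem_full K 4 (by norm_num)
  have hj4 : qExpand K 4 (jqModC K) ∈ modularFunctionFieldFullC K 4 :=
    jqModCd_mem_full K 4 dvd_rfl
  have hu := m18hm_u_mem K h2 _ hj hj2
  have hu' := m18hm_u'_mem K h2 _ hj2 hj4
  have ht := m18hm_t4_mul K
  have hne := m18hm_u_add_ne K
  have : m18hm_t4 K = (qExpand K 2 (m18hm_u K 2) - 16 * m18hm_u K 2) / (m18hm_u K 2 + 16) := by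
    rw [eq_div_iff hne, ht]
  rw [this]
  exact div_mem (sub_mem hu' (mul_mem (ofNat_mem _ 16) hu)) (add_mem hu (ofNat_mem _ 16))

/-- **`F_4 = K(t4)`**. -/
theorem m18hm_full4_eq (h2 : (2 : K) ≠ 0) :
    modularFunctionFieldFullC K 4 = K⟮m18hm_t4 K⟯ := by
  apply le_antisymm
  · rw [modularFunctionFieldFullC, adjoin_le_iff]
    rintro x ⟨d, hd0, hd, rfl⟩
    have ht : m18hm_t4 K ∈ K⟮m18hm_t4 K⟯ := mem_adjoin_simple_self K _
    have hd4 : d ∈ Nat.divisors 4 := Nat.mem_divisors.mpr ⟨hd, by norm_num⟩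
    have hdiv : Nat.divisors 4 = {1, 2, 4} := by decide
    rw [hdiv] at hd4
    simp only [Finset.mem_insert, Finset.mem_singleton] at hd4
    have hne := m18hm_t4_ne K
    have hne' := m18hm_t4_add_ne K
    rcases hd4 with rfl | rfl | rfl
    · have h := m18hm_t4_J1 K
      have e : qExpand K 1 (jqModC K) = (m18hm_t4 K ^ 2 + 256 * m18hm_t4 K + 4096) ^ 3
          / (m18hm_t4 K ^ 4 * (m18hm_t4 K + 16)) := by
        rw [qExpand_one_apply, eq_div_iff (mul_ne_zero (pow_ne_zero _ hne) hne'), h]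
      rw [SetLike.mem_coe, e]
      exact div_mem (pow_mem (add_mem (add_mem (pow_mem ht 2) (mul_mem (ofNat_mem _ 256) ht))
        (ofNat_mem _ 4096)) 3) (mul_mem (pow_mem ht 4) (add_mem ht (ofNat_mem _ 16)))
    · have h := m18hm_t4_J2 K
      have e : qExpand K 2 (jqModC K) = (m18hm_t4 K ^ 2 + 16 * m18hm_t4 K + 256) ^ 3
          / (m18hm_t4 K ^ 2 * (m18hm_t4 K + 16) ^ 2) := by
        rw [eq_div_iff (mul_ne_zero (pow_ne_zero _ hne) (pow_ne_zero _ hne')), h]
      rw [SetLike.mem_coe, e]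
      exact div_mem (pow_mem (add_mem (add_mem (pow_mem ht 2) (mul_mem (ofNat_mem _ 16) ht))
        (ofNat_mem _ 256)) 3) (mul_mem (pow_mem ht 2) (pow_mem (add_mem ht (ofNat_mem _ 16)) 2))
    · have h := m18hm_t4_J4 K
      have e : qExpand K 4 (jqModC K) = (m18hm_t4 K ^ 2 + 16 * m18hm_t4 K + 16) ^ 3
          / (m18hm_t4 K * (m18hm_t4 K + 16)) := by
        rw [eq_div_iff (mul_ne_zero hne hne'), h]
      rw [SetLike.mem_coe, e]
      exact div_mem (pow_mem (add_mem (add_mem (pow_mem ht 2) (mul_mem (ofNat_mem _ 16) ht))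
        (ofNat_mem _ 16)) 3) (mul_mem ht (add_mem ht (ofNat_mem _ 16)))
  · rw [adjoin_simple_le_iff]
    exact m18hm_t4_mem K h2

theorem m18hm_t4_transcendental : Transcendental K (m18hm_t4 K) :=
  (m18hm_t4_pole1 (K := K)).transcendental

end field

end Fermat.Agent.M18

end
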