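/-
S18, package (CUSP-M) (helper7), `M = 4`: the three cusps `t = ∞, 0, -16` of the `t`-line
(`t = t4` the Hauptmodul of level 4) are poles of `j`, in every field `F ⊇ k(t, j)` with
`j t⁴ (t + 16) = (t² + 256 t + 4096)³`, `2 ≠ 0` in `k`.
-/
import Mathlib
import Fermat.Agent.M18.CuspMVal
import Fermat.Agent.M18.HmMem4

set_option autoImplicit false
set_option linter.unusedSectionVars false
set_option linter.style.longLine false

noncomputable section

namespace Fermat.Agent.M18

open Polynomial AlgebraicCurve ModularCurve IntermediateField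

section general

variable (k : Type*) [Field k]

/-- the finite cusps of the `t4`-line. -/
def m18cm_a4 : Fin 2 → k := ![0, -16]

theorem m18cm_two_pow_ne (h2 : (2 : k) ≠ 0) (n : ℕ) : (2 : k) ^ n ≠ 0 := pow_ne_zero n h2

theorem m18cm_a4_zero : m18cm_a4 k 0 = 0 := rfl

theorem m18cm_a4_one : m18cm_a4 k 1 = -16 := rfl

theorem m18cm_fin_two (i : Fin 2) : i = 0 ∨ i = 1 := by
  fin_cases i
  · exact Or.inl rfl
  · exact Or.inr rfl

theorem m18cm_a4_injective (h2 : (2 : k) ≠ 0) : Function.Injective (m18cm_a4 k) := by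
  have h16 : (16 : k) ≠ 0 := by
    have := m18cm_two_pow_ne k h2 4
    norm_num at this
    exact this
  intro i j hij
  rcases m18cm_fin_two i with rfl | rfl <;> rcases m18cm_fin_two j with rfl | rfl
  · rfl
  · exfalso
    rw [m18cm_a4_zero, m18cm_a4_one] at hij
    apply h16
    linear_combination hij
  · exfalso
    rw [m18cm_a4_zero, m18cm_a4_one] at hij
    apply h16
    linear_combination -hij
  · rfl

/-- the numerator of `j` as a function of `t4`. -/
def m18cm_Num4 : k[X] := (X ^ 2 + 256 * X + 4096) ^ 3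

/-- the denominator of `j` as a function of `t4`. -/
def m18cm_Den4 : k[X] := X ^ 4 * (X + 16)

theorem m18cm_Num4_monic : (m18cm_Num4 k).Monic := by
  unfold m18cm_Num4
  apply Monic.pow
  have h : (X ^ 2 + 256 * X + 4096 : k[X]) = X ^ 2 + (C 256 * X + C 4096) := by
    simp only [map_ofNat]
    ring
  rw [h]
  apply monic_X_pow_add
  compute_degree!

theorem m18cm_Den4_monic : (m18cm_Den4 k).Monic := by
  unfold m18cm_Den4
  apply Monic.mul (monic_X_pow 4)
  have h : (X + 16 : k[X]) = X + C 16 := by simp only [map_ofNat]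
  rw [h]
  exact monic_X_add_C 16

theorem m18cm_Num4_natDegree : (m18cm_Num4 k).natDegree = 6 := by
  unfold m18cm_Num4
  have h : (X ^ 2 + 256 * X + 4096 : k[X]) = X ^ 2 + (C 256 * X + C 4096) := by
    simp only [map_ofNat]
    ring
  have hm : (X ^ 2 + 256 * X + 4096 : k[X]).Monic := by
    rw [h]
    apply monic_X_pow_add
    compute_degree!
  have hd : (X ^ 2 + 256 * X + 4096 : k[X]).natDegree = 2 := by
    rw [h]
    compute_degree!
  rw [hm.natDegree_pow, hd]

theorem m18cm_Den4_natDegree_le : (m18cm_Den4 k).natDegree ≤ 5 := by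
  unfold m18cm_Den4
  compute_degree

end general

section place

variable {k F : Type*} [Field k] [Field F] [Algebra k F]

theorem m18cm_aeval_Num4 (T : F) : aeval T (m18cm_Num4 k) = (T ^ 2 + 256 * T + 4096) ^ 3 := by
  simp only [m18cm_Num4, map_pow, map_add, map_mul, aeval_X, map_ofNat]

theorem m18cm_aeval_Den4 (T : F) : aeval T (m18cm_Den4 k) = T ^ 4 * (T + 16) := by
  simp only [m18cm_Den4, map_pow, map_add, map_mul, aeval_X, map_ofNat]

/-- **(CUSP-M), `M = 4`**: the places over `t = ∞, 0, -16` are poles of `j`. -/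
theorem m18cm_hC4 (h2 : (2 : k) ≠ 0) {J T : F}
    (hrel : J * (T ^ 4 * (T + 16)) = (T ^ 2 + 256 * T + 4096) ^ 3) (v : Place k F)
    (hv : v.ord T < 0 ∨ ∃ i, 0 < v.ord (T - algebraMap k F (m18cm_a4 k i))) : v.ord J < 0 := by
  have hrel' : J * aeval T (m18cm_Den4 k) = aeval T (m18cm_Num4 k) := by
    rw [m18cm_aeval_Num4, m18cm_aeval_Den4, hrel]
  rcases hv with hT | ⟨i, hi⟩
  · refine m18cm_place_inf v hT (m18cm_Num4_monic k) (m18cm_Den4_monic k) ?_ hrel'
    rw [m18cm_Num4_natDegree]
    exact lt_of_le_of_lt (m18cm_Den4_natDegree_le k) (by norm_num)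
  · rcases m18cm_fin_two i with rfl | rfl
    · rw [m18cm_a4_zero] at hi
      refine m18cm_place_fin v hi ?_ ?_ hrel'
      · simp only [m18cm_Num4, eval_pow, eval_add, eval_mul, eval_X, eval_ofNat]
        have := m18cm_two_pow_ne k h2 36
        intro h
        apply this
        linear_combination h
      · simp [m18cm_Den4]
    · rw [m18cm_a4_one] at hi
      refine m18cm_place_fin v hi ?_ ?_ hrel'
      · simp only [m18cm_Num4, eval_pow, eval_add, eval_mul, eval_X, eval_ofNat]
        have := m18cm_two_pow_ne k h2 24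
        intro h
        apply this
        linear_combination h
      · simp [m18cm_Den4]

end place

end Fermat.Agent.M18

end
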