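/-
S18, package (CUSP-M) (helper7), `M = 4`, concrete form: for `4 ∣ N'` and `2 ≠ 0` in `k`, the
Hauptmodul `t4` is an element of `F~_{N'} = modularFunctionFieldFullC k N'`, transcendental over
`k`, and the places of `F~_{N'}` over `t4 = ∞, 0, -16` are poles of `j~`.
-/
import Mathlib
import Fermat.Agent.M18.CuspM4

set_option autoImplicit false
set_option linter.unusedSectionVars false
set_option linter.style.longLine false
set_option synthInstance.maxHeartbeats 400000

noncomputable section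

namespace Fermat.Agent.M18

open Polynomial AlgebraicCurve ModularCurve IntermediateField

section

variable (k : Type*) [Field k] (N' : ℕ) [NeZero N']

/-- `j~` as an element of `F~_{N'}`. -/
def m18cm_jF : ↥(modularFunctionFieldFullC k N') := ⟨jqModC k, jqModC_mem_full k N'⟩

/-- `t4` as an element of `F~_{N'}`, `4 ∣ N'`. -/
def m18cm_t4F (h2 : (2 : k) ≠ 0) (h4 : 4 ∣ N') : ↥(modularFunctionFieldFullC k N') :=
  ⟨m18hm_t4 k, full_degeneracyC_le k h4 (m18hm_t4_mem k h2)⟩

theorem m18cm_t4F_coe (h2 : (2 : k) ≠ 0) (h4 : 4 ∣ N') :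
    ((m18cm_t4F k N' h2 h4 : ↥(modularFunctionFieldFullC k N')) : LaurentSeries k)
      = m18hm_t4 k := rfl

theorem m18cm_t4F_transcendental (h2 : (2 : k) ≠ 0) (h4 : 4 ∣ N') :
    Transcendental k (m18cm_t4F k N' h2 h4) := by
  intro halg
  apply m18hm_t4_transcendental k
  have := (isAlgebraic_algHom_iff (modularFunctionFieldFullC k N').val
    Subtype.val_injective).mpr halg
  exact this

theorem m18cm_t4F_rel (h2 : (2 : k) ≠ 0) (h4 : 4 ∣ N') :
    m18cm_jF k N' * (m18cm_t4F k N' h2 h4 ^ 4 * (m18cm_t4F k N' h2 h4 + 16))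
      = (m18cm_t4F k N' h2 h4 ^ 2 + 256 * m18cm_t4F k N' h2 h4 + 4096) ^ 3 := by
  apply Subtype.ext
  exact m18hm_t4_J1 k

/-- **(CUSP-M), `M = 4`, concrete form.** -/
theorem m18cm_main4 (h2 : (2 : k) ≠ 0) (h4 : 4 ∣ N')
    (v : Place k ↥(modularFunctionFieldFullC k N'))
    (hv : v.ord (m18cm_t4F k N' h2 h4) < 0 ∨ ∃ i, 0 < v.ord (m18cm_t4F k N' h2 h4
      - algebraMap k ↥(modularFunctionFieldFullC k N') (m18cm_a4 k i))) :
    v.ord (m18cm_jF k N') < 0 :=
  m18cm_hC4 h2 (m18cm_t4F_rel k N' h2 h4) v hv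

/-- `F~_4 = k(t4)` inside `F~_{N'}`: every element of `F~_4` is a rational function of `t4`. -/
theorem m18cm_full4_le (h2 : (2 : k) ≠ 0) :
    modularFunctionFieldFullC k 4 ≤ k⟮m18hm_t4 k⟯ := (m18hm_full4_eq k h2).le

end

end Fermat.Agent.M18

end
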