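/-
S18, package (HM) (helper7): the degree argument.  If `h` is a root of a monic polynomial of
degree `n` over `E = k(j)` and `E(h)` contains `n` elements which are linearly independent over
`E`, then `h` is an `E`-linear combination of them.
-/
import Mathlib

set_option autoImplicit false
set_option linter.unusedSectionVars false
set_option linter.style.longLine false

noncomputable section

namespace Fermat.Agent.M18

open Polynomial IntermediateField

theorem m18hm_mem_of_indep {k L : Type*} [Field k] [Field L] [Algebra k L]
    (E : IntermediateField k L) (h : L) (n : ℕ)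
    (p : Polynomial ↥E) (hp : p.Monic) (hn : p.natDegree = n) (hroot : aeval h p = 0)
    (v : Fin n → L) (hv : ∀ i, v i ∈ E⟮h⟯) (hlin : LinearIndependent ↥E v)
    (F : IntermediateField k L) (hEF : E ≤ F) (hvF : ∀ i, v i ∈ F) : h ∈ F := by
  have hint : IsIntegral ↥E h := ⟨p, hp, hroot⟩
  have hfd : FiniteDimensional ↥E ↥(E⟮h⟯) := IntermediateField.adjoin.finiteDimensional hint
  have hfin : Module.finrank ↥E ↥(E⟮h⟯) = (minpoly ↥E h).natDegree :=
    IntermediateField.adjoin.finrank hint
  have hle : (minpoly ↥E h).natDegree ≤ n := by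
    rw [← hn]
    exact natDegree_le_natDegree (minpoly.min ↥E h hp hroot)
  set v' : Fin n → ↥(E⟮h⟯) := fun i => ⟨v i, hv i⟩ with hv'
  have hlin' : LinearIndependent ↥E v' := by
    refine LinearIndependent.of_comp (E⟮h⟯).val.toLinearMap ?_
    exact hlin
  have hcard : Fintype.card (Fin n) = Module.finrank ↥E ↥(E⟮h⟯) := by
    refine le_antisymm hlin'.fintype_card_le_finrank ?_
    rw [hfin, Fintype.card_fin]
    exact hle
  have hspan : Submodule.span ↥E (Set.range v') = ⊤ :=
    hlin'.span_eq_top_of_card_eq_finrank' hcard
  have hmem : (⟨h, mem_adjoin_simple_self ↥E h⟩ : ↥(E⟮h⟯)) ∈ Submodule.span ↥E (Set.range v') := by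
    rw [hspan]
    exact Submodule.mem_top
  have key : ∀ y ∈ Submodule.span ↥E (Set.range v'), ((y : ↥(E⟮h⟯)) : L) ∈ F := by
    intro y hy
    induction hy using Submodule.span_induction with
    | mem x hx =>
      obtain ⟨i, rfl⟩ := hx
      exact hvF i
    | zero => exact F.zero_mem
    | add x y _ _ hx hy => exact F.add_mem hx hy
    | smul c x _ hx =>
      have : ((c • x : ↥(E⟮h⟯)) : L) = (c : L) * (x : L) := rfl
      rw [this]
      exact F.mul_mem (hEF c.2) hx
  exact key _ hmem

end Fermat.Agent.M18

end
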