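/-
S18, package (HM) (helper7): level 3, the two formal low-order computations for
`Ψ(φ, j) = (φ² + 270 φ + 729)² - φ (j - 36 φ - 756)²`.
-/
import Mathlib
import Fermat.Agent.M18.HmLow2

set_option autoImplicit false
set_option linter.unusedSectionVars false
set_option linter.unusedVariables false
set_option linter.style.longLine false
set_option maxRecDepth 100000
set_option maxHeartbeats 4000000

noncomputable section

namespace Fermat.Agent.M18

open ModularCurve Fermat.Agent.M28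

section

variable (R : Type*) [CommRing R]

/-- `a = Ψ(3^12 w, j)`. -/
def m18hm_a3 : LaurentSeries R :=
  ((531441 * m28pf_w R 3) ^ 2 + 270 * (531441 * m28pf_w R 3) + 729) ^ 2
    - (531441 * m28pf_w R 3) * (jqModC R - 36 * (531441 * m28pf_w R 3) - 756) ^ 2

/-- `b = Ψ(u, j(t³))`. -/
def m18hm_b3 : LaurentSeries R :=
  (m18hm_u R 3 ^ 2 + 270 * m18hm_u R 3 + 729) ^ 2
    - m18hm_u R 3 * (qExpand R 3 (jqModC R) - 36 * m18hm_u R 3 - 756) ^ 2

theorem m18hm_a3_eq : m18hm_a3 R = HahnSeries.ofPowerSeries ℤ R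
    (((531441 * (PowerSeries.X ^ 2 * m28pf_wNum R 3)) ^ 2
        + 270 * (531441 * (PowerSeries.X ^ 2 * m28pf_wNum R 3)) + 729) ^ 2
      - 531441 * m28pf_wNum R 3 * (jNum.map (Int.castRingHom R)
        - PowerSeries.X * (36 * (531441 * (PowerSeries.X ^ 2 * m28pf_wNum R 3)) + 756)) ^ 2) := by
  have hsx := m18hm_single_neg_mul_X R
  have hw : m28pf_w R 3 = HahnSeries.ofPowerSeries ℤ R PowerSeries.X ^ 2
      * HahnSeries.ofPowerSeries ℤ R (m28pf_wNum R 3) := by
    rw [m28pf_w, HahnSeries.ofPowerSeries_X, pow_two, m28pf_single_mul_single]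
    norm_num
  rw [m18hm_a3, jqModC, hw]
  simp only [map_sub, map_mul, map_pow, map_add, map_ofNat]
  set s : LaurentSeries R := HahnSeries.single (-1 : ℤ) (1 : R)
  set x : LaurentSeries R := HahnSeries.ofPowerSeries ℤ R PowerSeries.X
  set W : LaurentSeries R := HahnSeries.ofPowerSeries ℤ R (m28pf_wNum R 3)
  set J : LaurentSeries R := HahnSeries.ofPowerSeries ℤ R (jNum.map (Int.castRingHom R))
  have h1 : x * (s * J - 36 * (531441 * (x ^ 2 * W)) - 756)
      = J - x * (36 * (531441 * (x ^ 2 * W)) + 756) := by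
    linear_combination J * hsx
  have h2 : 531441 * (x ^ 2 * W) * (s * J - 36 * (531441 * (x ^ 2 * W)) - 756) ^ 2
      = 531441 * W * (x * (s * J - 36 * (531441 * (x ^ 2 * W)) - 756)) ^ 2 := by ring
  rw [h2, h1]

theorem m18hm_a3_low {n : ℤ} (hn : n ≤ 0) : (m18hm_a3 R).coeff n = 0 := by
  rw [m18hm_a3_eq]
  refine m18hm_coeff_ofPS_nonpos _ ?_ hn
  simp only [map_sub, map_mul, map_pow, map_add, map_ofNat, PowerSeries.constantCoeff_X,
    m18hm_constantCoeff_jNum_map, m28pf_constantCoeff_wNum]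
  norm_num

end

/-! ### the congruence modulo `X ^ 8` -/

section

open PowerSeries

theorem m18hm_expand_jNum_3 :
    m18hm_C 8 (PowerSeries.expand 3 three_ne_zero jNum) (1 + 744 * X ^ 3 + 196884 * X ^ 6) := by
  have h2 := (m18hm_jNum_J3.expand 3 three_ne_zero).mono (show 8 ≤ 3 * 3 by norm_num)
  have h3 : PowerSeries.expand 3 three_ne_zero m18hm_J3 = 1 + 744 * X ^ 3 + 196884 * X ^ 6 := by
    rw [m18hm_J3]
    simp only [map_add, map_mul, map_one, map_ofNat, map_pow, PowerSeries.expand_X]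
    ring
  rwa [h3] at h2

theorem m18hm_expand_etaInv_3 :
    m18hm_C 8 (PowerSeries.expand 3 three_ne_zero dedekindEtaUnitInv)
      (1 + 24 * X ^ 3 + 324 * X ^ 6) := by
  have h2 := (m18hm_etaInv_I3.expand 3 three_ne_zero).mono (show 8 ≤ 3 * 3 by norm_num)
  have h3 : PowerSeries.expand 3 three_ne_zero m18hm_I3 = 1 + 24 * X ^ 3 + 324 * X ^ 6 := by
    rw [m18hm_I3]
    simp only [map_add, map_mul, map_one, map_ofNat, map_pow, PowerSeries.expand_X]
    ring
  rwa [h3] at h2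

/-- `η24(t)/η24(t³) mod X ^ 8`. -/
def m18hm_U8 : PowerSeries ℤ := (1) + (-24) * X + (252) * X ^ 2 + (-1448) * X ^ 3 + (4254) * X ^ 4 + (-51748) * X ^ 6 + (192624) * X ^ 7

theorem m18hm_uNum3_U8 :
    m18hm_C 8 (dedekindEtaUnit * PowerSeries.expand 3 three_ne_zero dedekindEtaUnitInv)
      m18hm_U8 := by
  refine (m18hm_eta_D8.mul m18hm_expand_etaInv_3).trans ?_
  refine m18hm_C_of_eq ((-63504) + (-878784) * X + (3592440) * X ^ 2 + (-1959552) * X ^ 3 + (-5425056) * X ^ 4 + (27371520) * X ^ 5) ?_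
  simp only [m18hm_D8, m18hm_U8]
  ring

/-- the key congruence over `ℤ`. -/
theorem m18hm_B3_int :
    m18hm_C 8
      (((dedekindEtaUnit * PowerSeries.expand 3 three_ne_zero dedekindEtaUnitInv) ^ 2
        + 270 * X ^ 2 * (dedekindEtaUnit * PowerSeries.expand 3 three_ne_zero dedekindEtaUnitInv)
        + 729 * X ^ 4) ^ 2)
      ((dedekindEtaUnit * PowerSeries.expand 3 three_ne_zero dedekindEtaUnitInv)
        * (PowerSeries.expand 3 three_ne_zero jNum
          - 36 * X * (dedekindEtaUnit * PowerSeries.expand 3 three_ne_zero dedekindEtaUnitInv)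
          - 756 * X ^ 3) ^ 2) := by
  have hU := m18hm_uNum3_U8
  have hJ := m18hm_expand_jNum_3
  have hL := (((hU.pow 2).add ((m18hm_C_refl 8 (270 * X ^ 2 : PowerSeries ℤ)).mul hU)).add
    (m18hm_C_refl 8 (729 * X ^ 4 : PowerSeries ℤ))).pow 2
  have hR := hU.mul (((hJ.sub ((m18hm_C_refl 8 (36 * X : PowerSeries ℤ)).mul hU)).sub
    (m18hm_C_refl 8 (756 * X ^ 3 : PowerSeries ℤ))).pow 2)
  refine hL.trans (m18hm_C.trans ?_ hR.symm)
  refine m18hm_C_of_eq ((531441) + (20452864) * X + (-1988035368) * X ^ 2 + (77018120064) * X ^ 3 + (-1666514437448) * X ^ 4 + (22981634377728) * X ^ 5 + (-215467253931456) * X ^ 6 + (1397564619518720) * X ^ 7 + (-5915300616334128) * X ^ 8 + (10846673477544960) * X ^ 9 + (49752351924749120) * X ^ 10 + (-489625539554479872) * X ^ 11 + (1861348498606021248) * X ^ 12 + (-2607131521089863680) * X ^ 13 + (-9429812845972145664) * X ^ 14 + (61495544246677346304) * X ^ 15 + (-132240344494644068096) * X ^ 16 + (14844970950389501952)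 * X ^ 17 + (596154990099403137024) * X ^ 18 + (-1479397062854698795008) * X ^ 19 + (1376707214942236901376) * X ^ 20) ?_
  simp only [m18hm_U8]
  ring

end

section

variable (R : Type*) [CommRing R]

theorem m18hm_B3 : ∃ B : PowerSeries R,
    (m18hm_uNum R 3 ^ 2 + 270 * PowerSeries.X ^ 2 * m18hm_uNum R 3 + 729 * PowerSeries.X ^ 4) ^ 2
      - m18hm_uNum R 3 * (PowerSeries.expand 3 three_ne_zero (jNum.map (Int.castRingHom R))
        - 36 * PowerSeries.X * m18hm_uNum R 3 - 756 * PowerSeries.X ^ 3) ^ 2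
      = PowerSeries.X ^ 8 * B := by
  have h := m18hm_B3_int.map (Int.castRingHom R)
  obtain ⟨B, hB⟩ := h
  refine ⟨B, ?_⟩
  rw [← hB, m18hm_uNum, m28pf_eta, m28pf_etaInv]
  simp only [map_mul, map_pow, map_add, map_sub, PowerSeries.map_expand, PowerSeries.map_X,
    map_ofNat]

theorem m18hm_b3_eq : ∃ B : PowerSeries R, m18hm_b3 R = HahnSeries.ofPowerSeries ℤ R B := by
  obtain ⟨B, hB⟩ := m18hm_B3 R
  refine ⟨B, ?_⟩
  have hsx := m18hm_single_neg_mul_X R
  have hj : qExpand R 3 (jqModC R) = HahnSeries.single (-1 : ℤ) (1 : R) ^ 3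
      * HahnSeries.ofPowerSeries ℤ R
        (PowerSeries.expand 3 three_ne_zero (jNum.map (Int.castRingHom R))) := by
    rw [jqModC, map_mul, qExpand_single, m28pf_qExpand_ofPowerSeries, pow_succ, pow_two,
      m28pf_single_mul_single, m28pf_single_mul_single]
    norm_num
  have hu : m18hm_u R 3 = HahnSeries.single (-1 : ℤ) (1 : R) ^ 2
      * HahnSeries.ofPowerSeries ℤ R (m18hm_uNum R 3) := by
    rw [m18hm_u_eq, pow_two, m28pf_single_mul_single]
    norm_num
  have hB' := congrArg (HahnSeries.ofPowerSeries ℤ R) hB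
  simp only [map_sub, map_mul, map_pow, map_add, map_ofNat] at hB'
  rw [m18hm_b3, hj, hu]
  set s : LaurentSeries R := HahnSeries.single (-1 : ℤ) (1 : R)
  set x : LaurentSeries R := HahnSeries.ofPowerSeries ℤ R PowerSeries.X
  set U : LaurentSeries R := HahnSeries.ofPowerSeries ℤ R (m18hm_uNum R 3)
  set J : LaurentSeries R := HahnSeries.ofPowerSeries ℤ R
        (PowerSeries.expand 3 three_ne_zero (jNum.map (Int.castRingHom R)))
  set Bc : LaurentSeries R := HahnSeries.ofPowerSeries ℤ R B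
  have hsx8 : s ^ 8 * x ^ 8 = 1 := by rw [← mul_pow, hsx, one_pow]
  -- the homogenised forms
  have hxs2 : x ^ 2 * s ^ 2 = 1 := by rw [← mul_pow, mul_comm, hsx, one_pow]
  have hxs3 : x ^ 3 * s ^ 3 = 1 := by rw [← mul_pow, mul_comm, hsx, one_pow]
  have hxs4 : x ^ 4 * s ^ 4 = 1 := by rw [← mul_pow, mul_comm, hsx, one_pow]
  have e1' : s ^ 4 * (U ^ 2 + 270 * x ^ 2 * U + 729 * x ^ 4)
      = (s ^ 2 * U) ^ 2 + 270 * (s ^ 2 * U) + 729 := by
    linear_combination (270 * s ^ 2 * U) * hxs2 + 729 * hxs4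
  have e2' : s ^ 3 * (J - 36 * x * U - 756 * x ^ 3)
      = s ^ 3 * J - 36 * (s ^ 2 * U) - 756 := by
    linear_combination (-36 * s ^ 2 * U) * hsx - 756 * hxs3
  rw [← e1', ← e2']
  linear_combination s ^ 8 * hB' + Bc * hsx8

theorem m18hm_b3_low {n : ℤ} (hn : n < 0) : (m18hm_b3 R).coeff n = 0 := by
  obtain ⟨B, hB⟩ := m18hm_b3_eq R
  rw [hB]
  exact ofPowerSeries_coeff_of_neg _ hn

end

end Fermat.Agent.M18

end
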