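/-
S18, package (HM) (helper7): the level 3 identities
`Ψ(3^12 w, j) = 0` (`w = Δ(q³)/Δ(q)`) and `Ψ(u, j(q³)) = 0` (`u = Δ(q)/Δ(q³)`), where
`Ψ(φ, j) = (φ² + 270 φ + 729)² - φ (j - 36 φ - 756)²`, over every commutative ring.
-/
import Mathlib
import Fermat.Agent.M18.HmLvl2
import Fermat.Agent.M18.HmLow3

set_option autoImplicit false
set_option linter.unusedSectionVars false
set_option linter.style.longLine false

noncomputable section

namespace Fermat.Agent.M18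

open UpperHalfPlane hiding I
open Filter Function Topology ModularForm Complex ModularCurve
open scoped Manifold MatrixGroups ModularForm Real CongruenceSubgroup
open CongruenceSubgroup Polynomial
open Fermat.Agent.S23 Fermat.Agent.S24 Fermat.Agent.M28 Fermat.Agent.M16

/-- `Ψ(φ, J)` at level `3`. -/
def m18hm_f3 : ana_ring 3 :=
  (m28pb_phi 3 ^ 2 + 270 * m28pb_phi 3 + 729) ^ 2
    - m28pb_phi 3 * (ana_J 3 - 36 * m28pb_phi 3 - 756) ^ 2

theorem m18hm_f3_inv (γ : SL(2, ℤ)) (hγ : γ ∈ Gamma0 3) :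
    ana_comp 3 γ m18hm_f3 = m18hm_f3 := by
  have h := (m16h1y_good_phi 3 ⊤).inv γ hγ
  rw [m18hm_f3]
  simp only [map_sub, map_mul, map_pow, map_add, map_ofNat, ana_comp_J, h]

theorem m18hm_f3_inf : ana_qexp 3 m18hm_f3 = qExpand ℂ 3 (m18hm_a3 ℂ) := by
  have hc : (HahnSeries.C (((3 : ℕ) : ℂ) ^ 12) : LaurentSeries ℂ) = 531441 := by
    rw [show (((3 : ℕ) : ℂ) ^ 12) = 531441 by norm_num, map_ofNat]
  rw [m18hm_f3, m18hm_a3]
  simp only [map_sub, map_mul, map_pow, map_add, map_ofNat, m28pa_E_J, m28pb_E_phi, hc]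

theorem m18hm_f3_zero : ana_qexp 3 (ana_comp 3 ModularGroup.S m18hm_f3) = m18hm_b3 ℂ := by
  rw [m18hm_f3, m18hm_b3]
  simp only [map_sub, map_mul, map_pow, map_add, map_ofNat, ana_comp_J, m28pa_E_J, m18hm_E0_phi]

theorem m18hm_f3_eq : m18hm_f3 = 0 := by
  refine m18hm_vanish 3 m18hm_f3 m18hm_f3_inv ?_ ?_
  · intro n hn
    rw [m18hm_f3_inf]
    by_cases hd : ((3 : ℕ) : ℤ) ∣ n
    · obtain ⟨m, rfl⟩ := hd
      rw [qExpand_coeff_mul]
      exact m18hm_a3_low ℂ (by push_cast at hn; omega)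
    · exact qExpand_coeff_of_not_dvd 3 _ hd
  · intro n hn
    rw [m18hm_f3_zero]
    exact m18hm_b3_low ℂ hn

theorem m18hm_a3_C : m18hm_a3 ℂ = 0 := by
  apply qExpand_injective (R := ℂ) 3
  rw [← m18hm_f3_inf, m18hm_f3_eq, map_zero, map_zero]

theorem m18hm_b3_C : m18hm_b3 ℂ = 0 := by
  rw [← m18hm_f3_zero, m18hm_f3_eq, map_zero, map_zero]

theorem m18hm_coeffMap_a3 {R S : Type*} [CommRing R] [CommRing S] (f : R →+* S) :
    coeffMap f (m18hm_a3 R) = m18hm_a3 S := by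
  rw [m18hm_a3, m18hm_a3]
  simp only [map_sub, map_mul, map_pow, map_add, map_ofNat, m16int_coeffMap_jqModC,
    m28pf_coeffMap_w]

theorem m18hm_coeffMap_b3 {R S : Type*} [CommRing R] [CommRing S] (f : R →+* S) :
    coeffMap f (m18hm_b3 R) = m18hm_b3 S := by
  rw [m18hm_b3, m18hm_b3]
  simp only [map_sub, map_mul, map_pow, map_add, map_ofNat, coeffMap_qExpand,
    m16int_coeffMap_jqModC, m18hm_coeffMap_u]

/-- **level 3, at `∞`**: `Ψ(3^12 w, j) = 0`. -/
theorem m18hm_a3_zero (R : Type*) [CommRing R] : m18hm_a3 R = 0 := by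
  have hZ : m18hm_a3 ℤ = 0 := by
    apply m18hm_coeffMap_injective (Int.castRingHom ℂ) Int.cast_injective
    rw [m18hm_coeffMap_a3, m18hm_a3_C, map_zero]
  rw [← m18hm_coeffMap_a3 (Int.castRingHom R), hZ, map_zero]

/-- **level 3, at `0`**: `Ψ(u, j(q³)) = 0`. -/
theorem m18hm_b3_zero (R : Type*) [CommRing R] : m18hm_b3 R = 0 := by
  have hZ : m18hm_b3 ℤ = 0 := by
    apply m18hm_coeffMap_injective (Int.castRingHom ℂ) Int.cast_injective
    rw [m18hm_coeffMap_b3, m18hm_b3_C, map_zero]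
  rw [← m18hm_coeffMap_b3 (Int.castRingHom R), hZ, map_zero]

end Fermat.Agent.M18

end
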