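/-
S18, package (HM) (helper7): the Hauptmodul `T = t3 = (η(q)/η(q³))^12 = q⁻¹ - 12 + …` of level 3
over `ℤ` and the identities `j T³ = (T + 27)(T + 243)³`, `j(q³) T = (T + 27)(T + 3)³`.
-/
import Mathlib
import Fermat.Agent.M18.HmLvl3
import Fermat.Agent.M18.HmLvl4

set_option autoImplicit false
set_option linter.unusedSectionVars false
set_option linter.style.longLine false

noncomputable section

namespace Fermat.Agent.M18

open ModularCurve Fermat.Agent.M28 Fermat.Agent.M16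

/-! ### formal definitions -/

/-- the inverse of `etaProd ^ 12`. -/
def m18hm_e12inv : PowerSeries ℤ := etaProd ^ 12 * dedekindEtaUnitInv

theorem m18hm_e12_mul_inv : etaProd ^ 12 * m18hm_e12inv = 1 := by
  have h := dedekindEtaUnit_mul_inv
  rw [dedekindEtaUnit] at h
  rw [m18hm_e12inv]
  linear_combination h

theorem m18hm_e12inv_sq : m18hm_e12inv ^ 2 = dedekindEtaUnitInv := by
  have h := dedekindEtaUnit_mul_inv
  rw [dedekindEtaUnit] at h
  rw [m18hm_e12inv]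
  linear_combination dedekindEtaUnitInv * h

theorem m18hm_constantCoeff_e12inv : PowerSeries.constantCoeff m18hm_e12inv = 1 := by
  rw [m18hm_e12inv, map_mul, map_pow, constantCoeff_etaProd, constantCoeff_dedekindEtaUnitInv]
  norm_num

theorem m18hm_constantCoeff_expand (d : ℕ) (hd : d ≠ 0) (f : PowerSeries ℤ) :
    PowerSeries.constantCoeff (PowerSeries.expand d hd f) = PowerSeries.constantCoeff f := by
  have h := PowerSeries.coeff_expand_mul d hd f 0
  rw [mul_zero] at h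
  rw [← PowerSeries.coeff_zero_eq_constantCoeff_apply, h,
    PowerSeries.coeff_zero_eq_constantCoeff_apply]

/-- the numerator of `T`. -/
def m18hm_T3num : PowerSeries ℤ := etaProd ^ 12 * PowerSeries.expand 3 three_ne_zero m18hm_e12inv

/-- the numerator of `T⁻¹`. -/
def m18hm_T3invNum : PowerSeries ℤ :=
  PowerSeries.expand 3 three_ne_zero (etaProd ^ 12) * m18hm_e12inv

theorem m18hm_T3num_mul_inv : m18hm_T3num * m18hm_T3invNum = 1 := by
  have h1 := m18hm_e12_mul_inv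
  have h2 := congrArg (PowerSeries.expand 3 three_ne_zero) m18hm_e12_mul_inv
  rw [map_mul, map_one] at h2
  rw [m18hm_T3num, m18hm_T3invNum]
  linear_combination (PowerSeries.expand 3 three_ne_zero (etaProd ^ 12)
    * PowerSeries.expand 3 three_ne_zero m18hm_e12inv) * h1 + h2

theorem m18hm_constantCoeff_T3num : PowerSeries.constantCoeff m18hm_T3num = 1 := by
  rw [m18hm_T3num, map_mul, map_pow, constantCoeff_etaProd, m18hm_constantCoeff_expand,
    m18hm_constantCoeff_e12inv]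
  norm_num

theorem m18hm_constantCoeff_T3invNum : PowerSeries.constantCoeff m18hm_T3invNum = 1 := by
  rw [m18hm_T3invNum, map_mul, m18hm_constantCoeff_expand, map_pow, constantCoeff_etaProd,
    m18hm_constantCoeff_e12inv]
  norm_num

/-- `T = t3` over `ℤ`. -/
def m18hm_T3Z : LaurentSeries ℤ :=
  HahnSeries.single (-1 : ℤ) (1 : ℤ) * HahnSeries.ofPowerSeries ℤ ℤ m18hm_T3num

/-- `T⁻¹` over `ℤ`. -/
def m18hm_T3invZ : LaurentSeries ℤ :=
  HahnSeries.ofPowerSeries ℤ ℤ PowerSeries.X * HahnSeries.ofPowerSeries ℤ ℤ m18hm_T3invNum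

theorem m18hm_T3Z_mul_inv : m18hm_T3Z * m18hm_T3invZ = 1 := by
  have hsx := m18hm_single_neg_mul_X ℤ
  have h := congrArg (HahnSeries.ofPowerSeries ℤ ℤ) m18hm_T3num_mul_inv
  rw [map_mul, map_one] at h
  rw [m18hm_T3Z, m18hm_T3invZ]
  linear_combination (HahnSeries.single (-1 : ℤ) (1 : ℤ)
    * HahnSeries.ofPowerSeries ℤ ℤ PowerSeries.X) * h + hsx

theorem m18hm_eta_int : m28pf_eta ℤ = dedekindEtaUnit := by
  rw [m28pf_eta]
  ext n
  simp

theorem m18hm_etaInv_int : m28pf_etaInv ℤ = dedekindEtaUnitInv := by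
  rw [m28pf_etaInv]
  ext n
  simp

/-- `T² = u = Δ(q)/Δ(q³)`. -/
theorem m18hm_T3Z_sq : m18hm_T3Z ^ 2 = m18hm_u ℤ 3 := by
  have h2 := congrArg (PowerSeries.expand 3 three_ne_zero) m18hm_e12inv_sq
  rw [map_pow] at h2
  have h3 : m18hm_T3num ^ 2 = m18hm_uNum ℤ 3 := by
    rw [m18hm_uNum, m18hm_eta_int, m18hm_etaInv_int, m18hm_T3num, dedekindEtaUnit, ← h2]
    ring
  rw [m18hm_u_eq, ← h3, m18hm_T3Z, map_pow, mul_pow, pow_two (HahnSeries.single (-1 : ℤ) (1 : ℤ)),
    m28pf_single_mul_single]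
  norm_num

/-- `(T⁻¹)² = w = Δ(q³)/Δ(q)`. -/
theorem m18hm_T3invZ_sq : m18hm_T3invZ ^ 2 = m28pf_w ℤ 3 := by
  have h3 : m18hm_T3invNum ^ 2 = m28pf_wNum ℤ 3 := by
    rw [m28pf_wNum, m18hm_eta_int, m18hm_etaInv_int, m18hm_T3invNum, dedekindEtaUnit,
      mul_pow, m18hm_e12inv_sq, ← map_pow, ← pow_mul]
  rw [m28pf_w, ← h3, m18hm_T3invZ, map_pow, mul_pow, HahnSeries.ofPowerSeries_X, pow_two
    (HahnSeries.single (1 : ℤ) (1 : ℤ)), m28pf_single_mul_single]
  norm_num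

/-! ### nonvanishing via the constant coefficient -/

theorem m18hm_ofPS_ne_zero {P : PowerSeries ℤ} (h : PowerSeries.constantCoeff P ≠ 0) :
    HahnSeries.ofPowerSeries ℤ ℤ P ≠ 0 := by
  intro h0
  apply h
  have h1 : P = 0 := by
    apply HahnSeries.ofPowerSeries_injective (Γ := ℤ) (R := ℤ)
    rw [h0, map_zero]
  rw [h1, map_zero]

theorem m18hm_spow_mul_ne_zero (n : ℕ) {P : PowerSeries ℤ}
    (h : PowerSeries.constantCoeff P ≠ 0) :
    HahnSeries.single (-1 : ℤ) (1 : ℤ) ^ n * HahnSeries.ofPowerSeries ℤ ℤ P ≠ 0 := by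
  intro h0
  apply m18hm_ofPS_ne_zero h
  have hsx := m18hm_single_neg_mul_X ℤ
  have hsxn : HahnSeries.single (-1 : ℤ) (1 : ℤ) ^ n
      * HahnSeries.ofPowerSeries ℤ ℤ PowerSeries.X ^ n = 1 := by
    rw [← mul_pow, hsx, one_pow]
  linear_combination (HahnSeries.ofPowerSeries ℤ ℤ PowerSeries.X ^ n) * h0
    - (HahnSeries.ofPowerSeries ℤ ℤ P) * hsxn

/-! ### the level 3 identities over `ℤ` -/

local notation "TZ" => m18hm_T3Z
local notation "jZ" => jqModC ℤ

/-- **`j(q³) T = (T + 27)(T + 3)³`**. -/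
theorem m18hm_Z_L3b : qExpand ℤ 3 jZ * TZ = (TZ + 27) * (TZ + 3) ^ 3 := by
  have hb := m18hm_b3_zero ℤ
  rw [m18hm_b3, ← m18hm_T3Z_sq] at hb
  have hfac : ((TZ ^ 4 + 270 * TZ ^ 2 + 729) - TZ * (qExpand ℤ 3 jZ - 36 * TZ ^ 2 - 756))
      * ((TZ ^ 4 + 270 * TZ ^ 2 + 729) + TZ * (qExpand ℤ 3 jZ - 36 * TZ ^ 2 - 756)) = 0 := by
    linear_combination hb
  have hbad : (TZ ^ 4 + 270 * TZ ^ 2 + 729) + TZ * (qExpand ℤ 3 jZ - 36 * TZ ^ 2 - 756) ≠ 0 := by
    have hsx := m18hm_single_neg_mul_X ℤ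
    have hj : qExpand ℤ 3 jZ = HahnSeries.single (-1 : ℤ) (1 : ℤ) ^ 3
        * HahnSeries.ofPowerSeries ℤ ℤ
          (PowerSeries.expand 3 three_ne_zero (jNum.map (Int.castRingHom ℤ))) := by
      rw [jqModC, map_mul, qExpand_single, m28pf_qExpand_ofPowerSeries, pow_succ, pow_two,
        m28pf_single_mul_single, m28pf_single_mul_single]
      norm_num
    set Jn : PowerSeries ℤ := PowerSeries.expand 3 three_ne_zero (jNum.map (Int.castRingHom ℤ))
      with hJn
    have hcJ : PowerSeries.constantCoeff Jn = 1 := by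
      rw [hJn, m18hm_constantCoeff_expand, m18hm_constantCoeff_jNum_map]
    have key : (TZ ^ 4 + 270 * TZ ^ 2 + 729) + TZ * (qExpand ℤ 3 jZ - 36 * TZ ^ 2 - 756)
        = HahnSeries.single (-1 : ℤ) (1 : ℤ) ^ 4 * HahnSeries.ofPowerSeries ℤ ℤ
          (m18hm_T3num ^ 4 + 270 * PowerSeries.X ^ 2 * m18hm_T3num ^ 2 + 729 * PowerSeries.X ^ 4
            + m18hm_T3num * (Jn - 36 * PowerSeries.X * m18hm_T3num ^ 2
              - 756 * PowerSeries.X ^ 3)) := by
      rw [hj, m18hm_T3Z]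
      simp only [map_sub, map_mul, map_pow, map_add, map_ofNat]
      set s : LaurentSeries ℤ := HahnSeries.single (-1 : ℤ) (1 : ℤ)
      set x : LaurentSeries ℤ := HahnSeries.ofPowerSeries ℤ ℤ PowerSeries.X
      set Tn : LaurentSeries ℤ := HahnSeries.ofPowerSeries ℤ ℤ m18hm_T3num
      set J : LaurentSeries ℤ := HahnSeries.ofPowerSeries ℤ ℤ Jn
      have h1 : s ^ 1 * x ^ 1 = 1 := by rw [pow_one, pow_one, hsx]
      have h2 : s ^ 2 * x ^ 2 = 1 := by rw [← mul_pow, hsx, one_pow]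
      have h3 : s ^ 3 * x ^ 3 = 1 := by rw [← mul_pow, hsx, one_pow]
      have h4 : s ^ 4 * x ^ 4 = 1 := by rw [← mul_pow, hsx, one_pow]
      linear_combination (-(270 * s ^ 2 * Tn ^ 2)) * h2 - 729 * h4
        + (36 * s ^ 3 * Tn ^ 3) * hsx + (756 * s * Tn) * h3
    rw [key]
    apply m18hm_spow_mul_ne_zero
    simp only [map_sub, map_mul, map_pow, map_add, map_ofNat, PowerSeries.constantCoeff_X,
      m18hm_constantCoeff_T3num, hcJ]
    norm_num
  rcases mul_eq_zero.mp hfac with h | h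
  · linear_combination -h
  · exact absurd h hbad

/-- `j H = (H + 27)(H + 3)³` for `H = 729 / T`. -/
theorem m18hm_Z_L3a_H : jZ * (729 * m18hm_T3invZ)
    = (729 * m18hm_T3invZ + 27) * (729 * m18hm_T3invZ + 3) ^ 3 := by
  have ha := m18hm_a3_zero ℤ
  rw [m18hm_a3, ← m18hm_T3invZ_sq] at ha
  set H : LaurentSeries ℤ := 729 * m18hm_T3invZ with hH
  have hfac : ((H ^ 4 + 270 * H ^ 2 + 729) - H * (jZ - 36 * H ^ 2 - 756))
      * ((H ^ 4 + 270 * H ^ 2 + 729) + H * (jZ - 36 * H ^ 2 - 756)) = 0 := by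
    rw [hH]
    linear_combination ha
  have hbad : (H ^ 4 + 270 * H ^ 2 + 729) + H * (jZ - 36 * H ^ 2 - 756) ≠ 0 := by
    have hsx := m18hm_single_neg_mul_X ℤ
    set Jn : PowerSeries ℤ := jNum.map (Int.castRingHom ℤ) with hJn
    have hcJ : PowerSeries.constantCoeff Jn = 1 := m18hm_constantCoeff_jNum_map ℤ
    have key : (H ^ 4 + 270 * H ^ 2 + 729) + H * (jZ - 36 * H ^ 2 - 756)
        = HahnSeries.ofPowerSeries ℤ ℤ
          ((729 * (PowerSeries.X * m18hm_T3invNum)) ^ 4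
            + 270 * (729 * (PowerSeries.X * m18hm_T3invNum)) ^ 2 + 729
            + 729 * m18hm_T3invNum * Jn
            - (729 * (PowerSeries.X * m18hm_T3invNum))
              * (36 * (729 * (PowerSeries.X * m18hm_T3invNum)) ^ 2 + 756)) := by
      rw [hH, jqModC, m18hm_T3invZ]
      simp only [map_sub, map_mul, map_pow, map_add, map_ofNat]
      set s : LaurentSeries ℤ := HahnSeries.single (-1 : ℤ) (1 : ℤ)
      set x : LaurentSeries ℤ := HahnSeries.ofPowerSeries ℤ ℤ PowerSeries.X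
      set Ti : LaurentSeries ℤ := HahnSeries.ofPowerSeries ℤ ℤ m18hm_T3invNum
      set J : LaurentSeries ℤ := HahnSeries.ofPowerSeries ℤ ℤ Jn
      linear_combination (729 * Ti * J) * hsx
    rw [key]
    apply m18hm_ofPS_ne_zero
    simp only [map_sub, map_mul, map_pow, map_add, map_ofNat, PowerSeries.constantCoeff_X,
      m18hm_constantCoeff_T3invNum, hcJ]
    norm_num
  rcases mul_eq_zero.mp hfac with h | h
  · linear_combination -h
  · exact absurd h hbad

/-- **`j T³ = (T + 27)(T + 243)³`**. -/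
theorem m18hm_Z_L3a : jZ * TZ ^ 3 = (TZ + 27) * (TZ + 243) ^ 3 := by
  have h := m18hm_Z_L3a_H
  have hT := m18hm_T3Z_mul_inv
  have h729 : (729 : LaurentSeries ℤ) ≠ 0 := m18hm_ofNat_ne_zero 729
  apply mul_left_cancel₀ h729
  have e : ∀ c : LaurentSeries ℤ, TZ * (729 * m18hm_T3invZ + c) = 729 + c * TZ := by
    intro c
    linear_combination 729 * hT
  have h2 : TZ ^ 4 * (jZ * (729 * m18hm_T3invZ))
      = TZ ^ 4 * ((729 * m18hm_T3invZ + 27) * (729 * m18hm_T3invZ + 3) ^ 3) := by rw [h]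
  have h3 : TZ ^ 4 * (jZ * (729 * m18hm_T3invZ)) = 729 * (jZ * TZ ^ 3) := by
    linear_combination (729 * jZ * TZ ^ 3) * hT
  have h4 : TZ ^ 4 * ((729 * m18hm_T3invZ + 27) * (729 * m18hm_T3invZ + 3) ^ 3)
      = (TZ * (729 * m18hm_T3invZ + 27)) * (TZ * (729 * m18hm_T3invZ + 3)) ^ 3 := by ring
  rw [h3, h4, e 27, e 3] at h2
  linear_combination h2

end Fermat.Agent.M18

end
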