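/-
S18, package (HM) (helper7): the Hauptmodul `h = t9 = q⁻¹ - 3 + …` of level 9 over `ℤ` and the
identities for `j`, `j(q³)`, `j(q⁹)` (pure algebra on top of the level 3 identities).
-/
import Mathlib
import Fermat.Agent.M18.HmT3

set_option autoImplicit false
set_option linter.unusedSectionVars false
set_option linter.style.longLine false
set_option linter.unusedSimpArgs false
set_option maxHeartbeats 1000000

noncomputable section

namespace Fermat.Agent.M18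

open ModularCurve Fermat.Agent.M28 Fermat.Agent.M16

local notation "T" => m18hm_T3Z
local notation "T'" => qExpand ℤ 3 m18hm_T3Z
local notation "jZ" => jqModC ℤ

/-! ### the modular equation of level 3 in terms of `T` -/

theorem m18hm_qExpand_3_3 {R : Type*} [CommRing R] (f : LaurentSeries R) :
    qExpand R 3 (qExpand R 3 f) = qExpand R 9 f := by
  rw [qExpand_qExpand]

theorem m18hm_Z_L3a' : qExpand ℤ 3 jZ * T' ^ 3 = (T' + 27) * (T' + 243) ^ 3 := by
  have h := congrArg (qExpand ℤ 3) m18hm_Z_L3a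
  simpa only [map_mul, map_pow, map_add, map_ofNat] using h

theorem m18hm_Z_L3b' : qExpand ℤ 9 jZ * T' = (T' + 27) * (T' + 3) ^ 3 := by
  have h := congrArg (qExpand ℤ 3) m18hm_Z_L3b
  rw [map_mul, m18hm_qExpand_3_3] at h
  simpa only [map_mul, map_pow, map_add, map_ofNat] using h

theorem m18hm_T3'_eq : T' = HahnSeries.single (-1 : ℤ) (1 : ℤ) ^ 3
    * HahnSeries.ofPowerSeries ℤ ℤ (PowerSeries.expand 3 three_ne_zero m18hm_T3num) := by
  rw [m18hm_T3Z, map_mul, qExpand_single, m28pf_qExpand_ofPowerSeries, pow_succ, pow_two,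
    m28pf_single_mul_single, m28pf_single_mul_single]
  norm_num

theorem m18hm_TT'_ne : T * T' - 729 ≠ 0 := by
  have hsx := m18hm_single_neg_mul_X ℤ
  have key : T * T' - 729 = HahnSeries.single (-1 : ℤ) (1 : ℤ) ^ 4
      * HahnSeries.ofPowerSeries ℤ ℤ
        (m18hm_T3num * PowerSeries.expand 3 three_ne_zero m18hm_T3num
          - 729 * PowerSeries.X ^ 4) := by
    rw [m18hm_T3'_eq, m18hm_T3Z]
    simp only [map_sub, map_mul, map_pow, map_add, map_ofNat]
    set s : LaurentSeries ℤ := HahnSeries.single (-1 : ℤ) (1 : ℤ)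
    set x : LaurentSeries ℤ := HahnSeries.ofPowerSeries ℤ ℤ PowerSeries.X
    have h4 : s ^ 4 * x ^ 4 = 1 := by rw [← mul_pow, hsx, one_pow]
    linear_combination 729 * h4
  rw [key]
  apply m18hm_spow_mul_ne_zero
  simp only [map_sub, map_mul, map_pow, map_add, map_ofNat, PowerSeries.constantCoeff_X,
    m18hm_constantCoeff_T3num, m18hm_constantCoeff_expand]
  norm_num

/-- the good factor `G(T, T') = 0` of the modular equation. -/
theorem m18hm_Z_G : (-1) * T' ^ 3 + (531441) * T + (26244) * T * T' + (270) * T * T' ^ 2 + (729) * T ^ 2 * T' + (36) * T ^ 2 * T' ^ 2 + (1) * T ^ 3 * T' ^ 2 = 0 := by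
  have hb := m18hm_Z_L3b
  have ha' := m18hm_Z_L3a'
  have h : (T * T' - 729) * ((-1) * T' ^ 3 + (531441) * T + (26244) * T * T' + (270) * T * T' ^ 2 + (729) * T ^ 2 * T' + (36) * T ^ 2 * T' ^ 2 + (1) * T ^ 3 * T' ^ 2) = 0 := by
    linear_combination (-(T' ^ 3)) * hb + T * ha'
  rcases mul_eq_zero.mp h with h1 | h1
  · exact absurd h1 m18hm_TT'_ne
  · exact h1

/-! ### the Hauptmodul of level 9 -/

/-- numerator of `D = T T' + 9 T' - 243 T + 729`. -/
def m18hm_D9num : PowerSeries ℤ :=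
  m18hm_T3num * PowerSeries.expand 3 three_ne_zero m18hm_T3num
    + 9 * PowerSeries.X * PowerSeries.expand 3 three_ne_zero m18hm_T3num
    - 243 * PowerSeries.X ^ 3 * m18hm_T3num + 729 * PowerSeries.X ^ 4

/-- numerator of `N = (T² + 18 T + 27) T' + 1458 T`. -/
def m18hm_N9num : PowerSeries ℤ :=
  (m18hm_T3num ^ 2 + 18 * PowerSeries.X * m18hm_T3num + 27 * PowerSeries.X ^ 2)
      * PowerSeries.expand 3 three_ne_zero m18hm_T3num
    + 1458 * PowerSeries.X ^ 4 * m18hm_T3num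

theorem m18hm_constantCoeff_D9num : PowerSeries.constantCoeff m18hm_D9num = 1 := by
  rw [m18hm_D9num]
  simp only [map_sub, map_mul, map_pow, map_add, map_ofNat, PowerSeries.constantCoeff_X,
    m18hm_constantCoeff_T3num, m18hm_constantCoeff_expand]
  norm_num

theorem m18hm_constantCoeff_N9num : PowerSeries.constantCoeff m18hm_N9num = 1 := by
  rw [m18hm_N9num]
  simp only [map_sub, map_mul, map_pow, map_add, map_ofNat, PowerSeries.constantCoeff_X,
    m18hm_constantCoeff_T3num, m18hm_constantCoeff_expand]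
  norm_num

/-- the inverse of `D9num`. -/
def m18hm_D9inv : PowerSeries ℤ := m18hm_D9num.invOfUnit 1

theorem m18hm_D9num_mul_inv : m18hm_D9num * m18hm_D9inv = 1 := by
  refine PowerSeries.mul_invOfUnit _ 1 ?_
  rw [m18hm_constantCoeff_D9num, Units.val_one]

theorem m18hm_constantCoeff_D9inv : PowerSeries.constantCoeff m18hm_D9inv = 1 := by
  have h := congrArg PowerSeries.constantCoeff m18hm_D9num_mul_inv
  rwa [map_mul, m18hm_constantCoeff_D9num, one_mul, map_one] at h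

/-- the numerator of `h`. -/
def m18hm_h9num : PowerSeries ℤ := m18hm_N9num * m18hm_D9inv

theorem m18hm_constantCoeff_h9num : PowerSeries.constantCoeff m18hm_h9num = 1 := by
  rw [m18hm_h9num, map_mul, m18hm_constantCoeff_N9num, m18hm_constantCoeff_D9inv, one_mul]

/-- the Hauptmodul of level `9` over `ℤ`. -/
def m18hm_h9Z : LaurentSeries ℤ :=
  HahnSeries.single (-1 : ℤ) (1 : ℤ) * HahnSeries.ofPowerSeries ℤ ℤ m18hm_h9num

local notation "hZ" => m18hm_h9Z

theorem m18hm_D9_eq : T * T' + 9 * T' - 243 * T + 729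
    = HahnSeries.single (-1 : ℤ) (1 : ℤ) ^ 4 * HahnSeries.ofPowerSeries ℤ ℤ m18hm_D9num := by
  have hsx := m18hm_single_neg_mul_X ℤ
  rw [m18hm_T3'_eq, m18hm_T3Z, m18hm_D9num]
  simp only [map_sub, map_mul, map_pow, map_add, map_ofNat]
  set s : LaurentSeries ℤ := HahnSeries.single (-1 : ℤ) (1 : ℤ)
  set x : LaurentSeries ℤ := HahnSeries.ofPowerSeries ℤ ℤ PowerSeries.X
  set Tn : LaurentSeries ℤ := HahnSeries.ofPowerSeries ℤ ℤ m18hm_T3num
  set Tn' : LaurentSeries ℤ := HahnSeries.ofPowerSeries ℤ ℤ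
    (PowerSeries.expand 3 three_ne_zero m18hm_T3num)
  have h3 : s ^ 3 * x ^ 3 = 1 := by rw [← mul_pow, hsx, one_pow]
  have h4 : s ^ 4 * x ^ 4 = 1 := by rw [← mul_pow, hsx, one_pow]
  linear_combination (-(9 * s ^ 3 * Tn')) * hsx + (243 * s * Tn) * h3 - 729 * h4

theorem m18hm_N9_eq : (T ^ 2 + 18 * T + 27) * T' + 1458 * T
    = HahnSeries.single (-1 : ℤ) (1 : ℤ) ^ 5 * HahnSeries.ofPowerSeries ℤ ℤ m18hm_N9num := by
  have hsx := m18hm_single_neg_mul_X ℤ
  rw [m18hm_T3'_eq, m18hm_T3Z, m18hm_N9num]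
  simp only [map_sub, map_mul, map_pow, map_add, map_ofNat]
  set s : LaurentSeries ℤ := HahnSeries.single (-1 : ℤ) (1 : ℤ)
  set x : LaurentSeries ℤ := HahnSeries.ofPowerSeries ℤ ℤ PowerSeries.X
  set Tn : LaurentSeries ℤ := HahnSeries.ofPowerSeries ℤ ℤ m18hm_T3num
  set Tn' : LaurentSeries ℤ := HahnSeries.ofPowerSeries ℤ ℤ
    (PowerSeries.expand 3 three_ne_zero m18hm_T3num)
  have h2 : s ^ 2 * x ^ 2 = 1 := by rw [← mul_pow, hsx, one_pow]
  have h4 : s ^ 4 * x ^ 4 = 1 := by rw [← mul_pow, hsx, one_pow]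
  linear_combination (-(18 * s ^ 4 * Tn * Tn')) * hsx - (27 * s ^ 3 * Tn') * h2
    - (1458 * s * Tn) * h4

/-- `D` is invertible. -/
theorem m18hm_D9_inv : ∃ w : LaurentSeries ℤ, (T * T' + 9 * T' - 243 * T + 729) * w = 1 := by
  have hsx := m18hm_single_neg_mul_X ℤ
  have hv := congrArg (HahnSeries.ofPowerSeries ℤ ℤ) m18hm_D9num_mul_inv
  rw [map_mul, map_one] at hv
  refine ⟨HahnSeries.ofPowerSeries ℤ ℤ PowerSeries.X ^ 4
    * HahnSeries.ofPowerSeries ℤ ℤ m18hm_D9inv, ?_⟩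
  rw [m18hm_D9_eq]
  set s : LaurentSeries ℤ := HahnSeries.single (-1 : ℤ) (1 : ℤ)
  set x : LaurentSeries ℤ := HahnSeries.ofPowerSeries ℤ ℤ PowerSeries.X
  have h4 : s ^ 4 * x ^ 4 = 1 := by rw [← mul_pow, hsx, one_pow]
  linear_combination (s ^ 4 * x ^ 4) * hv + h4

/-- `h D = N`. -/
theorem m18hm_h9Z_mul : hZ * (T * T' + 9 * T' - 243 * T + 729)
    = (T ^ 2 + 18 * T + 27) * T' + 1458 * T := by
  have hv := congrArg (HahnSeries.ofPowerSeries ℤ ℤ) m18hm_D9num_mul_inv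
  rw [map_mul, map_one] at hv
  rw [m18hm_D9_eq, m18hm_N9_eq, m18hm_h9Z, m18hm_h9num, map_mul]
  linear_combination (HahnSeries.single (-1 : ℤ) (1 : ℤ) ^ 5
    * HahnSeries.ofPowerSeries ℤ ℤ m18hm_N9num) * hv

/-- cancellation of the cube of a unit. -/
theorem m18hm_cancel_cube {A : Type*} [CommRing A] {a w z : A} (hw : a * w = 1)
    (h : a ^ 3 * z = 0) : z = 0 := by
  linear_combination (w ^ 3) * h - z * ((a * w) ^ 2 + a * w + 1) * hw

/-- `T' = h (h² + 9 h + 27)`. -/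
theorem m18hm_Z_E1 : T' = hZ * (hZ ^ 2 + 9 * hZ + 27) := by
  obtain ⟨w, hw⟩ := m18hm_D9_inv
  have hh := m18hm_h9Z_mul
  have hG := m18hm_Z_G
  set D : LaurentSeries ℤ := T * T' + 9 * T' - 243 * T + 729 with hD
  set N : LaurentSeries ℤ := (T ^ 2 + 18 * T + 27) * T' + 1458 * T with hN
  have hE : T' * D ^ 3 - N * (N ^ 2 + 9 * N * D + 27 * D ^ 2) = 0 := by
    rw [hD, hN]
    linear_combination ((-39366) + (-729) * T' + (-243) * T * T' + (-1458) * T ^ 2 + (-27) * T ^ 2 * T' + (-1) * T ^ 3 * T') * hG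
  have h : D ^ 3 * (T' - hZ * (hZ ^ 2 + 9 * hZ + 27)) = 0 := by
    linear_combination hE
      - ((hZ * D) ^ 2 + (hZ * D) * N + N ^ 2 + 9 * D * (hZ * D + N) + 27 * D ^ 2) * hh
  have h3 := m18hm_cancel_cube hw h
  linear_combination h3

/-- `T (h² + 9 h + 27) = h³`. -/
theorem m18hm_Z_E2 : T * (hZ ^ 2 + 9 * hZ + 27) = hZ ^ 3 := by
  obtain ⟨w, hw⟩ := m18hm_D9_inv
  have hh := m18hm_h9Z_mul
  have hG := m18hm_Z_G
  set D : LaurentSeries ℤ := T * T' + 9 * T' - 243 * T + 729 with hD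
  set N : LaurentSeries ℤ := (T ^ 2 + 18 * T + 27) * T' + 1458 * T with hN
  have hE : T * D * (N ^ 2 + 9 * N * D + 27 * D ^ 2) - N ^ 3 = 0 := by
    rw [hD, hN]
    linear_combination ((19683) + (-6561) * T + (-5103) * T ^ 2 + (-243) * T ^ 3) * hG
  have h : D ^ 3 * (T * (hZ ^ 2 + 9 * hZ + 27) - hZ ^ 3) = 0 := by
    linear_combination hE
      + (T * D * (hZ * D + N + 9 * D) - ((hZ * D) ^ 2 + (hZ * D) * N + N ^ 2)) * hh
  have h3 := m18hm_cancel_cube hw h
  linear_combination h3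

/-! ### the three identities over `ℤ` -/

theorem m18hm_Z_J9_1 : jZ * (hZ ^ 9 * (hZ ^ 2 + 9 * hZ + 27))
    = ((hZ + 9) * (hZ ^ 3 + 243 * hZ ^ 2 + 2187 * hZ + 6561)) ^ 3 := by
  have ha := m18hm_Z_L3a
  have h2 := m18hm_Z_E2
  set P : LaurentSeries ℤ := hZ ^ 2 + 9 * hZ + 27 with hP
  have key : jZ * ((T * P) ^ 3 * P) = ((T * P) + 27 * P) * ((T * P) + 243 * P) ^ 3 := by
    linear_combination (P ^ 4) * ha
  rw [h2] at key
  rw [hP] at key ⊢
  linear_combination key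

theorem m18hm_Z_J9_3 : qExpand ℤ 3 jZ * (hZ ^ 3 * (hZ ^ 2 + 9 * hZ + 27) ^ 3)
    = ((hZ + 3) * (hZ ^ 3 + 9 * hZ ^ 2 + 27 * hZ + 243)) ^ 3 := by
  have hb := m18hm_Z_L3b
  have h2 := m18hm_Z_E2
  set P : LaurentSeries ℤ := hZ ^ 2 + 9 * hZ + 27 with hP
  have key : qExpand ℤ 3 jZ * ((T * P) * P ^ 3) = ((T * P) + 27 * P) * ((T * P) + 3 * P) ^ 3 := by
    linear_combination (P ^ 4) * hb
  rw [h2] at key
  rw [hP] at key ⊢
  linear_combination key

theorem m18hm_Z_J9_9 : qExpand ℤ 9 jZ * (hZ * (hZ ^ 2 + 9 * hZ + 27))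
    = ((hZ + 3) * (hZ ^ 3 + 9 * hZ ^ 2 + 27 * hZ + 3)) ^ 3 := by
  have hb' := m18hm_Z_L3b'
  have h1 := m18hm_Z_E1
  rw [h1] at hb'
  linear_combination hb'

end Fermat.Agent.M18

end
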