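/-
S18, package (HM) (helper7): the Hauptmodul `h = t9` of level 9 over a commutative ring:
identities, leading term, transcendence.
-/
import Mathlib
import Fermat.Agent.M18.HmLvl9
import Fermat.Agent.M18.HmFld4

set_option autoImplicit false
set_option linter.unusedSectionVars false
set_option linter.style.longLine false

noncomputable section

namespace Fermat.Agent.M18

open ModularCurve Fermat.Agent.M28 Fermat.Agent.M16 IntermediateField Polynomial

section ring

variable (R : Type*) [CommRing R]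

/-- the Hauptmodul of level `9`, `h = q⁻¹ - 3 + 5 q² - …`. -/
def m18hm_h9 : LaurentSeries R := coeffMap (Int.castRingHom R) m18hm_h9Z

theorem m18hm_coeffMap_h9 {S : Type*} [CommRing S] (f : R →+* S) :
    coeffMap f (m18hm_h9 R) = m18hm_h9 S := by
  rw [m18hm_h9, m18hm_h9, coeffMap_coeffMap]
  exact coeffMap_congr (RingHom.ext_int _ _) _

theorem m18hm_h9_J1 : jqModC R * (m18hm_h9 R ^ 9 * (m18hm_h9 R ^ 2 + 9 * m18hm_h9 R + 27))
    = ((m18hm_h9 R + 9) * (m18hm_h9 R ^ 3 + 243 * m18hm_h9 R ^ 2 + 2187 * m18hm_h9 R + 6561)) ^ 3 := by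
  have h := congrArg (coeffMap (Int.castRingHom R)) m18hm_Z_J9_1
  simpa only [map_mul, map_pow, map_add, map_ofNat, m16int_coeffMap_jqModC, m18hm_h9] using h

theorem m18hm_h9_J3 : qExpand R 3 (jqModC R)
      * (m18hm_h9 R ^ 3 * (m18hm_h9 R ^ 2 + 9 * m18hm_h9 R + 27) ^ 3)
    = ((m18hm_h9 R + 3) * (m18hm_h9 R ^ 3 + 9 * m18hm_h9 R ^ 2 + 27 * m18hm_h9 R + 243)) ^ 3 := by
  have h := congrArg (coeffMap (Int.castRingHom R)) m18hm_Z_J9_3
  simpa only [map_mul, map_pow, map_add, map_ofNat, coeffMap_qExpand, m16int_coeffMap_jqModC,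
    m18hm_h9] using h

theorem m18hm_h9_J9 : qExpand R 9 (jqModC R)
      * (m18hm_h9 R * (m18hm_h9 R ^ 2 + 9 * m18hm_h9 R + 27))
    = ((m18hm_h9 R + 3) * (m18hm_h9 R ^ 3 + 9 * m18hm_h9 R ^ 2 + 27 * m18hm_h9 R + 3)) ^ 3 := by
  have h := congrArg (coeffMap (Int.castRingHom R)) m18hm_Z_J9_9
  simpa only [map_mul, map_pow, map_add, map_ofNat, coeffMap_qExpand, m16int_coeffMap_jqModC,
    m18hm_h9] using h

theorem m18hm_h9_coeff_of_lt {n : ℤ} (hn : n < -1) : (m18hm_h9 R).coeff n = 0 := by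
  rw [m18hm_h9, coeffMap_coeff, m18hm_h9Z, HahnSeries.coeff_single_mul, one_mul,
    ofPowerSeries_coeff_of_neg _ (by omega), map_zero]

theorem m18hm_h9_coeff_neg_one : (m18hm_h9 R).coeff (-1) = 1 := by
  rw [m18hm_h9, coeffMap_coeff, m18hm_h9Z, HahnSeries.coeff_single_mul, one_mul, sub_self,
    show (0 : ℤ) = ((0 : ℕ) : ℤ) from rfl, HahnSeries.ofPowerSeries_apply_coeff,
    PowerSeries.coeff_zero_eq_constantCoeff_apply, m18hm_constantCoeff_h9num, map_one]

end ring

section field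

variable (K : Type*) [Field K]

theorem m18hm_h9_pole1 : m18hm_Pole1 (m18hm_h9 K) :=
  ⟨m18hm_h9_coeff_neg_one K, fun _ hn => m18hm_h9_coeff_of_lt K hn⟩

theorem m18hm_h9_transcendental : Transcendental K (m18hm_h9 K) :=
  (m18hm_h9_pole1 K).transcendental

theorem m18hm_h9_ne : m18hm_h9 K ≠ 0 := (m18hm_h9_pole1 K).ne_zero

/-- a polynomial expression of positive degree in `h` does not vanish. -/
theorem m18hm_h9_aeval_ne (P : K[X]) (hP : P ≠ 0) : aeval (m18hm_h9 K) P ≠ 0 := fun h =>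
  (m18hm_h9_transcendental K) ⟨P, hP, h⟩

theorem m18hm_t4_aeval_ne (P : K[X]) (hP : P ≠ 0) : aeval (m18hm_t4 K) P ≠ 0 := fun h =>
  (m18hm_t4_pole1 (K := K)).transcendental ⟨P, hP, h⟩

end field

end Fermat.Agent.M18

end
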