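/-
S18, package (HM) (helper7): the Hauptmodul `h = t9` lies in `modularFunctionFieldFullC k 9` and
generates it, as soon as `F~_9` contains `12 = ψ(9)` elements which are linearly independent
over `k(j~)` (the M28 degree theorem; in particular for `k` algebraically closed of
characteristic `ℓ ≠ 3` with prime data at `3`).
-/
import Mathlib
import Fermat.Agent.M18.HmDeg
import Fermat.Agent.M18.HmFld9
import Fermat.Agent.M18.HmMem4

set_option autoImplicit false
set_option linter.unusedSectionVars false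
set_option linter.style.longLine false

noncomputable section

namespace Fermat.Agent.M18

open ModularCurve Fermat.Agent.M28 Fermat.Agent.M16 IntermediateField Polynomial

section

variable (k : Type*) [Field k]

/-- `j~` as an element of `k(j~)`. -/
def m18hm_jE : ↥(k⟮jqModC k⟯) := ⟨jqModC k, mem_adjoin_simple_self k _⟩

/-- the monic part of the equation of `h9` over `k(j~)`. -/
def m18hm_A9 : Polynomial ↥(k⟮jqModC k⟯) :=
  (X + C 9) ^ 3 * (X ^ 3 + (C 243 * X ^ 2 + C 2187 * X + C 6561)) ^ 3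

/-- the `j`-part of the equation of `h9` over `k(j~)`. -/
def m18hm_B9 : Polynomial ↥(k⟮jqModC k⟯) :=
  C (m18hm_jE k) * (X ^ 9 * (X ^ 2 + C 9 * X + C 27))

theorem m18hm_cubic_monic :
    (X ^ 3 + (C 243 * X ^ 2 + C 2187 * X + C 6561) : Polynomial ↥(k⟮jqModC k⟯)).Monic := by
  apply monic_X_pow_add
  compute_degree!

theorem m18hm_cubic_natDegree :
    (X ^ 3 + (C 243 * X ^ 2 + C 2187 * X + C 6561) : Polynomial ↥(k⟮jqModC k⟯)).natDegree = 3 := by
  compute_degree!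

theorem m18hm_A9_monic : (m18hm_A9 k).Monic :=
  ((monic_X_add_C 9).pow 3).mul ((m18hm_cubic_monic k).pow 3)

theorem m18hm_A9_natDegree : (m18hm_A9 k).natDegree = 12 := by
  unfold m18hm_A9
  rw [(((monic_X_add_C 9).pow 3)).natDegree_mul ((m18hm_cubic_monic k).pow 3),
    (monic_X_add_C 9).natDegree_pow, (m18hm_cubic_monic k).natDegree_pow,
    natDegree_X_add_C, m18hm_cubic_natDegree]

theorem m18hm_B9_natDegree_le : (m18hm_B9 k).natDegree ≤ 11 := by
  unfold m18hm_B9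
  compute_degree

/-- the equation of `h9` over `k(j~)`. -/
def m18hm_p9 : Polynomial ↥(k⟮jqModC k⟯) := m18hm_A9 k - m18hm_B9 k

theorem m18hm_B9_degree_lt : (m18hm_B9 k).degree < (m18hm_A9 k).degree := by
  rw [degree_eq_natDegree (m18hm_A9_monic k).ne_zero, m18hm_A9_natDegree]
  refine lt_of_le_of_lt degree_le_natDegree ?_
  have := m18hm_B9_natDegree_le k
  exact_mod_cast (lt_of_le_of_lt this (by norm_num) : (m18hm_B9 k).natDegree < 12)

theorem m18hm_p9_monic : (m18hm_p9 k).Monic :=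
  (m18hm_A9_monic k).sub_of_left (m18hm_B9_degree_lt k)

theorem m18hm_p9_natDegree : (m18hm_p9 k).natDegree = 12 := by
  unfold m18hm_p9
  rw [natDegree_sub_eq_left_of_natDegree_lt, m18hm_A9_natDegree]
  rw [m18hm_A9_natDegree]
  exact lt_of_le_of_lt (m18hm_B9_natDegree_le k) (by norm_num)

theorem m18hm_p9_root : aeval (m18hm_h9 k) (m18hm_p9 k) = 0 := by
  have h := m18hm_h9_J1 k
  have hC : ∀ n : ℕ, aeval (m18hm_h9 k) (C (n : ↥(k⟮jqModC k⟯)))
      = ((n : ℕ) : LaurentSeries k) := by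
    intro n
    rw [aeval_C]
    simp
  have e9 : aeval (m18hm_h9 k) (C (9 : ↥(k⟮jqModC k⟯))) = 9 := by
    have := hC 9; exact_mod_cast this
  have e27 : aeval (m18hm_h9 k) (C (27 : ↥(k⟮jqModC k⟯))) = 27 := by
    have := hC 27; exact_mod_cast this
  have e243 : aeval (m18hm_h9 k) (C (243 : ↥(k⟮jqModC k⟯))) = 243 := by
    have := hC 243; exact_mod_cast this
  have e2187 : aeval (m18hm_h9 k) (C (2187 : ↥(k⟮jqModC k⟯))) = 2187 := by
    have := hC 2187; exact_mod_cast this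
  have e6561 : aeval (m18hm_h9 k) (C (6561 : ↥(k⟮jqModC k⟯))) = 6561 := by
    have := hC 6561; exact_mod_cast this
  have ej : aeval (m18hm_h9 k) (C (m18hm_jE k)) = jqModC k := by
    rw [aeval_C]
    rfl
  unfold m18hm_p9 m18hm_A9 m18hm_B9
  simp only [map_sub, map_mul, map_pow, map_add, aeval_X, e9, e27, e243, e2187, e6561, ej]
  linear_combination -h

theorem m18hm_h9_quad_ne : m18hm_h9 k ^ 2 + 9 * m18hm_h9 k + 27 ≠ 0 := by
  have h := m18hm_h9_aeval_ne k (X ^ 2 + (C 9 * X + C 27))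
    (monic_X_pow_add (by compute_degree!)).ne_zero
  simp only [map_add, map_mul, map_pow, aeval_X, aeval_C] at h
  intro h0
  apply h
  have e9 : algebraMap k (LaurentSeries k) 9 = 9 := map_ofNat _ _
  have e27 : algebraMap k (LaurentSeries k) 27 = 27 := map_ofNat _ _
  rw [e9, e27]
  linear_combination h0

/-- the generators of `F~_9` are rational functions of `h9`. -/
theorem m18hm_gen9_mem (S : Set (LaurentSeries k)) (hS : ∀ a b : LaurentSeries k,
    a ∈ S → b ∈ S → a + b ∈ S ∧ a * b ∈ S ∧ a / b ∈ S) (hnat : ∀ n : ℕ, (n : LaurentSeries k) ∈ S)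
    (hh : m18hm_h9 k ∈ S) (hj : jqModC k ∈ S) {x : LaurentSeries k}
    (hx : x ∈ divisorExpansionsC k 9) : x ∈ S := by
  obtain ⟨d, hd0, hd, rfl⟩ := hx
  have hd9 : d ∈ Nat.divisors 9 := Nat.mem_divisors.mpr ⟨hd, by norm_num⟩
  have hdiv : Nat.divisors 9 = {1, 3, 9} := by decide
  rw [hdiv] at hd9
  simp only [Finset.mem_insert, Finset.mem_singleton] at hd9
  have hne := m18hm_h9_ne k
  have hq := m18hm_h9_quad_ne k
  have hadd : ∀ a b, a ∈ S → b ∈ S → a + b ∈ S := fun a b ha hb => (hS a b ha hb).1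
  have hmul : ∀ a b, a ∈ S → b ∈ S → a * b ∈ S := fun a b ha hb => (hS a b ha hb).2.1
  have hdivS : ∀ a b, a ∈ S → b ∈ S → a / b ∈ S := fun a b ha hb => (hS a b ha hb).2.2
  have hpow : ∀ (a : LaurentSeries k) (n : ℕ), a ∈ S → a ^ (n + 1) ∈ S := by
    intro a n ha
    induction n with
    | zero => simpa using ha
    | succ n ih => rw [pow_succ]; exact hmul _ _ ih ha
  have h3 : (3 : LaurentSeries k) ∈ S := by exact_mod_cast hnat 3
  have h9 : (9 : LaurentSeries k) ∈ S := by exact_mod_cast hnat 9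
  have h27 : (27 : LaurentSeries k) ∈ S := by exact_mod_cast hnat 27
  have h243 : (243 : LaurentSeries k) ∈ S := by exact_mod_cast hnat 243
  have hP : m18hm_h9 k ^ 2 + 9 * m18hm_h9 k + 27 ∈ S :=
    hadd _ _ (hadd _ _ (hpow _ 1 hh) (hmul _ _ h9 hh)) h27
  rcases hd9 with rfl | rfl | rfl
  · rw [qExpand_one_apply]
    exact hj
  · have h := m18hm_h9_J3 k
    have e : qExpand k 3 (jqModC k) = ((m18hm_h9 k + 3) * (m18hm_h9 k ^ 3 + 9 * m18hm_h9 k ^ 2
        + 27 * m18hm_h9 k + 243)) ^ 3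
        / (m18hm_h9 k ^ 3 * (m18hm_h9 k ^ 2 + 9 * m18hm_h9 k + 27) ^ 3) := by
      rw [eq_div_iff (mul_ne_zero (pow_ne_zero _ hne) (pow_ne_zero _ hq)), h]
    rw [e]
    exact hdivS _ _ (hpow _ 2 (hmul _ _ (hadd _ _ hh h3) (hadd _ _ (hadd _ _ (hadd _ _
      (hpow _ 2 hh) (hmul _ _ h9 (hpow _ 1 hh))) (hmul _ _ h27 hh)) h243)))
      (hmul _ _ (hpow _ 2 hh) (hpow _ 2 hP))
  · have h := m18hm_h9_J9 k
    have e : qExpand k 9 (jqModC k) = ((m18hm_h9 k + 3) * (m18hm_h9 k ^ 3 + 9 * m18hm_h9 k ^ 2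
        + 27 * m18hm_h9 k + 3)) ^ 3
        / (m18hm_h9 k * (m18hm_h9 k ^ 2 + 9 * m18hm_h9 k + 27)) := by
      rw [eq_div_iff (mul_ne_zero hne hq), h]
    rw [e]
    exact hdivS _ _ (hpow _ 2 (hmul _ _ (hadd _ _ hh h3) (hadd _ _ (hadd _ _ (hadd _ _
      (hpow _ 2 hh) (hmul _ _ h9 (hpow _ 1 hh))) (hmul _ _ h27 hh)) h3)))
      (hmul _ _ hh hP)

/-- `j~` is a rational function of `h9`. -/
theorem m18hm_j_mem_h9 : jqModC k ∈ k⟮m18hm_h9 k⟯ := by
  have hh : m18hm_h9 k ∈ k⟮m18hm_h9 k⟯ := mem_adjoin_simple_self k _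
  have hne := m18hm_h9_ne k
  have hq := m18hm_h9_quad_ne k
  have h := m18hm_h9_J1 k
  have e : jqModC k = ((m18hm_h9 k + 9) * (m18hm_h9 k ^ 3 + 243 * m18hm_h9 k ^ 2
      + 2187 * m18hm_h9 k + 6561)) ^ 3
      / (m18hm_h9 k ^ 9 * (m18hm_h9 k ^ 2 + 9 * m18hm_h9 k + 27)) := by
    rw [eq_div_iff (mul_ne_zero (pow_ne_zero _ hne) hq), h]
  rw [e]
  exact div_mem (pow_mem (mul_mem (add_mem hh (ofNat_mem _ 9)) (add_mem (add_mem (add_mem
    (pow_mem hh 3) (mul_mem (ofNat_mem _ 243) (pow_mem hh 2))) (mul_mem (ofNat_mem _ 2187) hh))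
    (ofNat_mem _ 6561))) 3)
    (mul_mem (pow_mem hh 9) (add_mem (add_mem (pow_mem hh 2) (mul_mem (ofNat_mem _ 9) hh))
      (ofNat_mem _ 27)))

/-- `F~_9 ⊆ k(h9)`. -/
theorem m18hm_full9_le : modularFunctionFieldFullC k 9 ≤ k⟮m18hm_h9 k⟯ := by
  rw [modularFunctionFieldFullC, adjoin_le_iff]
  intro x hx
  refine m18hm_gen9_mem k (k⟮m18hm_h9 k⟯ : Set (LaurentSeries k)) ?_ ?_ ?_ ?_ hx
  · intro a b ha hb
    exact ⟨add_mem ha hb, mul_mem ha hb, div_mem ha hb⟩
  · intro n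
    exact _root_.natCast_mem _ n
  · exact mem_adjoin_simple_self k _
  · exact m18hm_j_mem_h9 k

/-- **`h9 ∈ F~_9`**, from `12` independent elements. -/
theorem m18hm_h9_mem_of
    (hind : ∃ v : Fin 12 → LaurentSeries k,
      (∀ i, v i ∈ Algebra.adjoin k (divisorExpansionsC k 9)) ∧
      LinearIndependent ↥(k⟮jqModC k⟯) v) :
    m18hm_h9 k ∈ modularFunctionFieldFullC k 9 := by
  obtain ⟨v, hv, hlin⟩ := hind
  refine m18hm_mem_of_indep (k⟮jqModC k⟯) (m18hm_h9 k) 12 (m18hm_p9 k) (m18hm_p9_monic k)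
    (m18hm_p9_natDegree k) (m18hm_p9_root k) v ?_ hlin (modularFunctionFieldFullC k 9) ?_ ?_
  · intro i
    have hle : Algebra.adjoin k (divisorExpansionsC k 9)
        ≤ (IntermediateField.restrictScalars k ((k⟮jqModC k⟯)⟮m18hm_h9 k⟯)).toSubalgebra := by
      apply Algebra.adjoin_le
      intro x hx
      refine m18hm_gen9_mem k (((k⟮jqModC k⟯)⟮m18hm_h9 k⟯ :
        IntermediateField ↥(k⟮jqModC k⟯) (LaurentSeries k)) : Set (LaurentSeries k))
        ?_ ?_ ?_ ?_ hx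
      · intro a b ha hb
        exact ⟨add_mem ha hb, mul_mem ha hb, div_mem ha hb⟩
      · intro n
        exact _root_.natCast_mem _ n
      · exact mem_adjoin_simple_self _ _
      · exact ((k⟮jqModC k⟯)⟮m18hm_h9 k⟯).algebraMap_mem (m18hm_jE k)
    exact hle (hv i)
  · rw [adjoin_simple_le_iff]
    exact jqModC_mem_full k 9
  · intro i
    have hle := IntermediateField.algebra_adjoin_le_adjoin k (divisorExpansionsC k 9)
    exact hle (hv i)

/-- **`F~_9 = k(h9)`**. -/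
theorem m18hm_full9_eq_of
    (hind : ∃ v : Fin 12 → LaurentSeries k,
      (∀ i, v i ∈ Algebra.adjoin k (divisorExpansionsC k 9)) ∧
      LinearIndependent ↥(k⟮jqModC k⟯) v) :
    modularFunctionFieldFullC k 9 = k⟮m18hm_h9 k⟯ := by
  apply le_antisymm (m18hm_full9_le k)
  rw [adjoin_simple_le_iff]
  exact m18hm_h9_mem_of k hind

end

end Fermat.Agent.M18

end
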