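/-
S18, package (CUSP-M) (helper7), `M = 9`: the four cusps `h = ∞, 0, ω, -9 - ω` of the `h`-line
(`h = t9` the Hauptmodul of level 9, `ω² + 9 ω + 27 = 0`) are poles of `j`, in every field
`F ⊇ k(h, j)` with `j h⁹ (h² + 9 h + 27) = ((h + 9)(h³ + 243 h² + 2187 h + 6561))³`, `3 ≠ 0` in `k`.
-/
import Mathlib
import Fermat.Agent.M18.CuspMVal
import Fermat.Agent.M18.HmMem9

set_option autoImplicit false
set_option linter.unusedSectionVars false
set_option linter.style.longLine false

noncomputable section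

namespace Fermat.Agent.M18

open Polynomial AlgebraicCurve ModularCurve IntermediateField

section general

variable (k : Type*) [Field k]

theorem m18cm_three_pow_ne (h3 : (3 : k) ≠ 0) (n : ℕ) : (3 : k) ^ n ≠ 0 := pow_ne_zero n h3

/-- the numerator of `j` as a function of `h9`. -/
def m18cm_Num9 : k[X] := ((X + C 9) * (X ^ 3 + (C 243 * X ^ 2 + C 2187 * X + C 6561))) ^ 3

/-- the denominator of `j` as a function of `h9`. -/
def m18cm_Den9 : k[X] := X ^ 9 * (X ^ 2 + (C 9 * X + C 27))

theorem m18cm_cubic_monic : (X ^ 3 + (C 243 * X ^ 2 + C 2187 * X + C 6561) : k[X]).Monic := by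
  apply monic_X_pow_add
  compute_degree!

theorem m18cm_cubic_natDegree :
    (X ^ 3 + (C 243 * X ^ 2 + C 2187 * X + C 6561) : k[X]).natDegree = 3 := by
  compute_degree!

theorem m18cm_quad_monic : (X ^ 2 + (C 9 * X + C 27) : k[X]).Monic := by
  apply monic_X_pow_add
  compute_degree!

theorem m18cm_Num9_monic : (m18cm_Num9 k).Monic :=
  ((monic_X_add_C 9).mul (m18cm_cubic_monic k)).pow 3

theorem m18cm_Den9_monic : (m18cm_Den9 k).Monic :=
  (monic_X_pow 9).mul (m18cm_quad_monic k)

theorem m18cm_Num9_natDegree : (m18cm_Num9 k).natDegree = 12 := by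
  unfold m18cm_Num9
  rw [((monic_X_add_C 9).mul (m18cm_cubic_monic k)).natDegree_pow,
    (monic_X_add_C 9).natDegree_mul (m18cm_cubic_monic k), natDegree_X_add_C,
    m18cm_cubic_natDegree]

theorem m18cm_Den9_natDegree_le : (m18cm_Den9 k).natDegree ≤ 11 := by
  unfold m18cm_Den9
  compute_degree

/-- the numerator at a root of `X² + 9 X + 27`. -/
theorem m18cm_Num9_eval_root (h3 : (3 : k) ≠ 0) {r : k} (hr : r ^ 2 + 9 * r + 27 = 0) :
    (m18cm_Num9 k).eval r ≠ 0 := by
  have hval : (m18cm_Num9 k).eval r = (243 * (r + 3)) ^ 3 := by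
    simp only [m18cm_Num9, eval_pow, eval_add, eval_mul, eval_X, eval_C]
    have e : (r + 9) * (r ^ 3 + (243 * r ^ 2 + 2187 * r + 6561)) = 243 * (r + 3) := by
      linear_combination (r ^ 2 + 243 * r + 2160) * hr
    rw [e]
  rw [hval]
  have h243 : (243 : k) ≠ 0 := by
    have := m18cm_three_pow_ne k h3 5
    norm_num at this
    exact this
  have hr3 : r + 3 ≠ 0 := by
    intro h0
    have h9 : (3 : k) ^ 2 = 0 := by
      have hr' : r = -3 := by linear_combination h0
      rw [hr'] at hr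
      linear_combination hr
    exact m18cm_three_pow_ne k h3 2 h9
  exact pow_ne_zero 3 (mul_ne_zero h243 hr3)

theorem m18cm_Num9_eval_zero (h3 : (3 : k) ≠ 0) : (m18cm_Num9 k).eval 0 ≠ 0 := by
  simp only [m18cm_Num9, eval_pow, eval_add, eval_mul, eval_X, eval_C]
  have := m18cm_three_pow_ne k h3 30
  intro h
  apply this
  linear_combination h

theorem m18cm_Den9_eval_zero : (m18cm_Den9 k).eval 0 = 0 := by
  simp [m18cm_Den9]

theorem m18cm_Den9_eval_root {r : k} (hr : r ^ 2 + 9 * r + 27 = 0) :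
    (m18cm_Den9 k).eval r = 0 := by
  simp only [m18cm_Den9, eval_pow, eval_add, eval_mul, eval_X, eval_C]
  linear_combination (r ^ 9) * hr

end general

section roots

variable (k : Type*) [Field k] [IsAlgClosed k]

theorem m18cm_exists_root : ∃ r : k, r ^ 2 + 9 * r + 27 = 0 := by
  obtain ⟨r, hr⟩ := IsAlgClosed.exists_root (X ^ 2 + (C 9 * X + C 27) : k[X]) (by
    rw [degree_eq_natDegree (m18cm_quad_monic k).ne_zero]
    have : (X ^ 2 + (C 9 * X + C 27) : k[X]).natDegree = 2 := by compute_degree!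
    rw [this]
    norm_num)
  refine ⟨r, ?_⟩
  simp only [IsRoot.def, eval_pow, eval_add, eval_mul, eval_X, eval_C] at hr
  linear_combination hr

/-- a root of `X² + 9 X + 27`. -/
def m18cm_w9 : k := (m18cm_exists_root k).choose

theorem m18cm_w9_spec : m18cm_w9 k ^ 2 + 9 * m18cm_w9 k + 27 = 0 :=
  (m18cm_exists_root k).choose_spec

theorem m18cm_w9'_spec : (-9 - m18cm_w9 k) ^ 2 + 9 * (-9 - m18cm_w9 k) + 27 = 0 := by
  linear_combination m18cm_w9_spec k

/-- the finite cusps of the `h9`-line. -/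
def m18cm_a9 : Fin 3 → k := ![0, m18cm_w9 k, -9 - m18cm_w9 k]

theorem m18cm_a9_zero : m18cm_a9 k 0 = 0 := rfl

theorem m18cm_a9_one : m18cm_a9 k 1 = m18cm_w9 k := rfl

theorem m18cm_a9_two : m18cm_a9 k 2 = -9 - m18cm_w9 k := rfl

theorem m18cm_fin_three (i : Fin 3) : i = 0 ∨ i = 1 ∨ i = 2 := by
  fin_cases i
  · exact Or.inl rfl
  · exact Or.inr (Or.inl rfl)
  · exact Or.inr (Or.inr rfl)

theorem m18cm_a9_injective (h3 : (3 : k) ≠ 0) : Function.Injective (m18cm_a9 k) := by
  have hw := m18cm_w9_spec k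
  have h27 : (3 : k) ^ 3 ≠ 0 := m18cm_three_pow_ne k h3 3
  -- the three inequalities
  have h01 : (0 : k) ≠ m18cm_w9 k := by
    intro h
    apply h27
    rw [← h] at hw
    linear_combination hw
  have h02 : (0 : k) ≠ -9 - m18cm_w9 k := by
    intro h
    apply h27
    have hw' : m18cm_w9 k = -9 := by linear_combination h
    rw [hw'] at hw
    linear_combination hw
  have h12 : m18cm_w9 k ≠ -9 - m18cm_w9 k := by
    intro h
    apply h27
    have h2 : 2 * m18cm_w9 k + 9 = 0 := by linear_combination h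
    linear_combination (4 : k) * hw - (2 * m18cm_w9 k + 9) * h2
  intro i j hij
  rcases m18cm_fin_three i with rfl | rfl | rfl <;>
    rcases m18cm_fin_three j with rfl | rfl | rfl
  · rfl
  · exact absurd hij h01
  · exact absurd hij h02
  · exact absurd hij.symm h01
  · rfl
  · exact absurd hij h12
  · exact absurd hij.symm h02
  · exact absurd hij.symm h12
  · rfl

end roots

section place

variable {k F : Type*} [Field k] [Field F] [Algebra k F]

theorem m18cm_aeval_Num9 (T : F) : aeval T (m18cm_Num9 k)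
    = ((T + 9) * (T ^ 3 + 243 * T ^ 2 + 2187 * T + 6561)) ^ 3 := by
  have e : ∀ n : ℕ, aeval T (C (n : k)) = ((n : ℕ) : F) := by
    intro n
    rw [aeval_C]
    simp
  have e9 : aeval T (C (9 : k)) = 9 := by have := e 9; exact_mod_cast this
  have e243 : aeval T (C (243 : k)) = 243 := by have := e 243; exact_mod_cast this
  have e2187 : aeval T (C (2187 : k)) = 2187 := by have := e 2187; exact_mod_cast this
  have e6561 : aeval T (C (6561 : k)) = 6561 := by have := e 6561; exact_mod_cast this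
  simp only [m18cm_Num9, map_pow, map_add, map_mul, aeval_X, e9, e243, e2187, e6561]
  ring

theorem m18cm_aeval_Den9 (T : F) : aeval T (m18cm_Den9 k) = T ^ 9 * (T ^ 2 + 9 * T + 27) := by
  have e : ∀ n : ℕ, aeval T (C (n : k)) = ((n : ℕ) : F) := by
    intro n
    rw [aeval_C]
    simp
  have e9 : aeval T (C (9 : k)) = 9 := by have := e 9; exact_mod_cast this
  have e27 : aeval T (C (27 : k)) = 27 := by have := e 27; exact_mod_cast this
  simp only [m18cm_Den9, map_pow, map_add, map_mul, aeval_X, e9, e27]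
  ring

/-- **(CUSP-M), `M = 9`**: the places over `h = ∞, 0, ω, -9 - ω` are poles of `j`. -/
theorem m18cm_hC9 [IsAlgClosed k] (h3 : (3 : k) ≠ 0) {J T : F}
    (hrel : J * (T ^ 9 * (T ^ 2 + 9 * T + 27))
      = ((T + 9) * (T ^ 3 + 243 * T ^ 2 + 2187 * T + 6561)) ^ 3) (v : Place k F)
    (hv : v.ord T < 0 ∨ ∃ i, 0 < v.ord (T - algebraMap k F (m18cm_a9 k i))) : v.ord J < 0 := by
  have hrel' : J * aeval T (m18cm_Den9 k) = aeval T (m18cm_Num9 k) := by
    rw [m18cm_aeval_Num9, m18cm_aeval_Den9, hrel]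
  rcases hv with hT | ⟨i, hi⟩
  · refine m18cm_place_inf v hT (m18cm_Num9_monic k) (m18cm_Den9_monic k) ?_ hrel'
    rw [m18cm_Num9_natDegree]
    exact lt_of_le_of_lt (m18cm_Den9_natDegree_le k) (by norm_num)
  · rcases m18cm_fin_three i with rfl | rfl | rfl
    · rw [m18cm_a9_zero] at hi
      exact m18cm_place_fin v hi (m18cm_Num9_eval_zero k h3) (m18cm_Den9_eval_zero k) hrel'
    · rw [m18cm_a9_one] at hi
      exact m18cm_place_fin v hi (m18cm_Num9_eval_root k h3 (m18cm_w9_spec k))
        (m18cm_Den9_eval_root k (m18cm_w9_spec k)) hrel'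
    · rw [m18cm_a9_two] at hi
      exact m18cm_place_fin v hi (m18cm_Num9_eval_root k h3 (m18cm_w9'_spec k))
        (m18cm_Den9_eval_root k (m18cm_w9'_spec k)) hrel'

end place

end Fermat.Agent.M18

end
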