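/-
S18, package (CUSP-M) (helper7), `M = 9`, concrete form: for `9 ∣ N'`, `k` algebraically closed
with `3 ≠ 0`, the Hauptmodul `h9` is an element of `F~_{N'} = modularFunctionFieldFullC k N'`
(given `h9 ∈ F~_9`, see `m18hm_h9_mem`), transcendental over `k`, and the places of `F~_{N'}`
over `h9 = ∞, 0, ω, -9 - ω` are poles of `j~`.
-/
import Mathlib
import Fermat.Agent.M18.CuspM9
import Fermat.Agent.M18.CuspM4F

set_option autoImplicit false
set_option linter.unusedSectionVars false
set_option linter.style.longLine false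
set_option synthInstance.maxHeartbeats 400000

noncomputable section

namespace Fermat.Agent.M18

open Polynomial AlgebraicCurve ModularCurve IntermediateField

section

variable (k : Type*) [Field k] (N' : ℕ) [NeZero N']

/-- `h9` as an element of `F~_{N'}`, `9 ∣ N'`. -/
def m18cm_t9F (hmem : m18hm_h9 k ∈ modularFunctionFieldFullC k 9) (h9 : 9 ∣ N') :
    ↥(modularFunctionFieldFullC k N') :=
  ⟨m18hm_h9 k, full_degeneracyC_le k h9 hmem⟩

theorem m18cm_t9F_coe (hmem : m18hm_h9 k ∈ modularFunctionFieldFullC k 9) (h9 : 9 ∣ N') :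
    ((m18cm_t9F k N' hmem h9 : ↥(modularFunctionFieldFullC k N')) : LaurentSeries k)
      = m18hm_h9 k := rfl

theorem m18cm_t9F_transcendental (hmem : m18hm_h9 k ∈ modularFunctionFieldFullC k 9)
    (h9 : 9 ∣ N') : Transcendental k (m18cm_t9F k N' hmem h9) := by
  intro halg
  apply m18hm_h9_transcendental k
  have := (isAlgebraic_algHom_iff (modularFunctionFieldFullC k N').val
    Subtype.val_injective).mpr halg
  exact this

theorem m18cm_t9F_rel (hmem : m18hm_h9 k ∈ modularFunctionFieldFullC k 9) (h9 : 9 ∣ N') :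
    m18cm_jF k N' * (m18cm_t9F k N' hmem h9 ^ 9
        * (m18cm_t9F k N' hmem h9 ^ 2 + 9 * m18cm_t9F k N' hmem h9 + 27))
      = ((m18cm_t9F k N' hmem h9 + 9) * (m18cm_t9F k N' hmem h9 ^ 3
        + 243 * m18cm_t9F k N' hmem h9 ^ 2 + 2187 * m18cm_t9F k N' hmem h9 + 6561)) ^ 3 := by
  apply Subtype.ext
  exact m18hm_h9_J1 k

/-- **(CUSP-M), `M = 9`, concrete form.** -/
theorem m18cm_main9 [IsAlgClosed k] (h3 : (3 : k) ≠ 0)
    (hmem : m18hm_h9 k ∈ modularFunctionFieldFullC k 9) (h9 : 9 ∣ N')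
    (v : Place k ↥(modularFunctionFieldFullC k N'))
    (hv : v.ord (m18cm_t9F k N' hmem h9) < 0 ∨ ∃ i, 0 < v.ord (m18cm_t9F k N' hmem h9
      - algebraMap k ↥(modularFunctionFieldFullC k N') (m18cm_a9 k i))) :
    v.ord (m18cm_jF k N') < 0 :=
  m18cm_hC9 h3 (m18cm_t9F_rel k N' hmem h9) v hv

end

end Fermat.Agent.M18

end
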