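import Mathlib
import Fermat.Agent.S24.Counting
import Fermat.Agent.M18.CuspCD

/-!
# S18, block (CUSP), part 8: the places of `F~_N` over `j~ = ∞` (prefix `m18cusp_`)

* `m18cusp_countingData` : S24's `CountingData` for `F~_N / k (j~)` at `y = 1 / j~`, with the
  `K₀`-embeddings of M28's `E_N` as conjugate embeddings and the orbits of the twists as
  classes;
* `m18cusp_main` : the set of places of `F~_N` over `j~ = ∞` is finite, of cardinality at most
  `cuspCount N`;
* `m18cusp_ord_le` : the ramification index of such a place is at most `N`.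
-/

set_option autoImplicit false
set_option linter.unusedSectionVars false
set_option linter.unusedVariables false

noncomputable section

namespace Fermat.Agent.M18

open Fermat.Agent.M28 Fermat.Agent.S24 ModularCurve IntermediateField HahnSeries AlgebraicCurve
open Function

section data

variable (k : Type) [Field k] [IsAlgClosed k] (N : ℕ) [NeZero N] (hNk : (N : k) ≠ 0)
  (hP : ∀ (p : ℕ) [NeZero p], p.Prime → p ∣ N → Nonempty (M28PrimeData k p))

/-- the permutation of the conjugate embeddings given by the twist by `ζ`. -/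
abbrev m18cusp_TT (ζ : kˣ) (hζ : ζ ^ N = 1) : Equiv.Perm (m18cusp_QQ k N hNk hP) :=
  m18cusp_T (m18cusp_D k N hNk hP) hNk (Nat.pos_of_ne_zero (NeZero.ne N)) ζ hζ

theorem m18cusp_tw_of_eq_one (ι : m18cusp_QQ k N hNk hP) (ε : kˣ) (hε : ε ^ N = 1)
    (h : ε = 1) :
    m18cusp_tw (m18cusp_D k N hNk hP) (Nat.pos_of_ne_zero (NeZero.ne N)) ε hε ι = ι := by
  subst h
  exact m18cusp_tw_one hNk _ ι

theorem m18cusp_TT_pow_N (ζ : kˣ) (hζ : ζ ^ N = 1) (ι : m18cusp_QQ k N hNk hP) :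
    (m18cusp_TT k N hNk hP ζ hζ ^ N) ι = ι := by
  rw [m18cusp_T_pow hNk _ ζ hζ N ι]
  exact m18cusp_tw_of_eq_one k N hNk hP ι _ _ hζ

theorem m18cusp_rho_TT_pow (ζ : kˣ) (hζ : ζ ^ N = 1) (j : ℕ) (ι : m18cusp_QQ k N hNk hP)
    (f : ↥(modularFunctionFieldFullC k N)) :
    m18cusp_rho k N hNk hP ((m18cusp_TT k N hNk hP ζ hζ ^ j) ι) f =
      cf_twist (ζ ^ j) (m18cusp_rho k N hNk hP ι f) := by
  rw [m18cusp_T_pow hNk _ ζ hζ j ι, m18cusp_rho_tw]

theorem m18cusp_rho_TT_zpow (ζ : kˣ) (hζ : ζ ^ N = 1) (j : ℤ) (ι : m18cusp_QQ k N hNk hP)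
    (f : ↥(modularFunctionFieldFullC k N)) :
    m18cusp_rho k N hNk hP ((m18cusp_TT k N hNk hP ζ hζ ^ j) ι) f =
      cf_twist (ζ ^ j) (m18cusp_rho k N hNk hP ι f) := by
  rw [m18cusp_T_zpow hNk _ ζ hζ j ι, m18cusp_rho_tw]

theorem m18cusp_class_dvd (ζ : kˣ) (hζ : ζ ^ N = 1) (q : m18cusp_QQ k N hNk hP) :
    Nat.card {q' // (MulAction.orbitRel (Subgroup.zpowers (m18cusp_TT k N hNk hP ζ hζ))
      (m18cusp_QQ k N hNk hP)).r q q'} ∣ N := by
  rw [m18cusp_card_class]
  apply IsPeriodicPt.minimalPeriod_dvd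
  rw [IsPeriodicPt, IsFixedPt, smul_iterate]
  exact m18cusp_TT_pow_N k N hNk hP ζ hζ q

theorem m18cusp_class_fix (ζ : kˣ) (hζ : ζ ^ N = 1) (q : m18cusp_QQ k N hNk hP) :
    (m18cusp_TT k N hNk hP ζ hζ ^
      Nat.card {q' // (MulAction.orbitRel (Subgroup.zpowers (m18cusp_TT k N hNk hP ζ hζ))
        (m18cusp_QQ k N hNk hP)).r q q'}) q = q := by
  rw [m18cusp_card_class]
  have h := isPeriodicPt_minimalPeriod ((m18cusp_TT k N hNk hP ζ hζ) • ·) q
  rw [IsPeriodicPt, IsFixedPt, smul_iterate] at h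
  exact h

/-- **the counting data at `j~ = ∞`.** -/
def m18cusp_countingData (ζ : kˣ) (hζ : IsPrimitiveRoot ζ N) :
    CountingData k ↥(modularFunctionFieldFullC k N) (m18cusp_j k N) (m18cusp_j k N)⁻¹
      (m18cusp_QQ k N hNk hP)
      (MulAction.orbitRel (Subgroup.zpowers (m18cusp_TT k N hNk hP ζ hζ.pow_eq_one))
        (m18cusp_QQ k N hNk hP)) N where
  M := LaurentSeries k
  fieldM := inferInstance
  ρ := m18cusp_rho k N hNk hP
  ρ_injective := m18cusp_rho_injective k N hNk hP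
  ρ_x := fun q q' => by rw [m18cusp_rho_j, m18cusp_rho_j]
  ρ_K := fun q q' a => by rw [m18cusp_rho_algebraMap, m18cusp_rho_algebraMap]
  norm_mem := m18cusp_norm_mem k N hNk hP
  w := cf_val
  w_K := fun q a ha => by
    rw [m18cusp_rho_algebraMap]
    exact cf_val_algebraMap ha
  o_pos := Nat.pos_of_ne_zero (NeZero.ne N)
  w_y := fun q => by
    rw [map_inv₀, m18cusp_rho_j, map_inv₀, cf_val_eq (m28d_C_ne_zero 1 N),
      m28d_order_C 1 (NeZero.ne N), neg_neg, ← WithZero.exp_neg]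
  w_inv := by
    intro q q' hr f
    change q ∈ MulAction.orbit (Subgroup.zpowers (m18cusp_TT k N hNk hP ζ hζ.pow_eq_one)) q' at hr
    obtain ⟨⟨g, hg⟩, rfl⟩ := hr
    obtain ⟨j, rfl⟩ := Subgroup.mem_zpowers_iff.mp hg
    show cf_val (m18cusp_rho k N hNk hP ((m18cusp_TT k N hNk hP ζ hζ.pow_eq_one ^ j) q') f) = _
    rw [m18cusp_rho_TT_zpow, cf_val_twist]
  card_dvd := m18cusp_class_dvd k N hNk hP ζ hζ.pow_eq_one
  w_div := by
    intro q f hf
    have hfix := m18cusp_class_fix k N hNk hP ζ hζ.pow_eq_one q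
    have hne : m18cusp_rho k N hNk hP q f ≠ 0 := (map_ne_zero _).mpr hf
    apply cf_val_of_twist_eq (NeZero.ne N) (m18cusp_class_dvd k N hNk hP ζ hζ.pow_eq_one q) hζ hne
    rw [← m18cusp_rho_TT_pow k N hNk hP ζ hζ.pow_eq_one, hfix]

include hNk hP in
/-- **(CUSP)**: the set of places of `F~_N` over `j~ = ∞` is finite, of cardinality at most
`cuspCount N`. -/
theorem m18cusp_main :
    Finite {v : Place k ↥(modularFunctionFieldFullC k N) //
        v.ord (⟨jqModC k, jqModC_mem_full k N⟩ : ↥(modularFunctionFieldFullC k N)) < 0} ∧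
      Nat.card {v : Place k ↥(modularFunctionFieldFullC k N) //
        v.ord (⟨jqModC k, jqModC_mem_full k N⟩ : ↥(modularFunctionFieldFullC k N)) < 0}
        ≤ cuspCount N := by
  classical
  obtain ⟨ζ, hζ⟩ := m28dt_exists_primitiveRoot (k := k) hNk
  set d := m18cusp_countingData k N hNk hP ζ hζ with hd
  set r := MulAction.orbitRel (Subgroup.zpowers (m18cusp_TT k N hNk hP ζ hζ.pow_eq_one))
    (m18cusp_QQ k N hNk hP) with hr
  haveI : Nonempty (m18cusp_QQ k N hNk hP) := ⟨(m28dt_E (m18cusp_D k N hNk hP) N).val⟩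
  let g : Quotient r →
      {v : Place k ↥(modularFunctionFieldFullC k N) // 0 < v.ord (m18cusp_j k N)⁻¹} :=
    Quotient.lift (fun q => ⟨ct_vq d q, (ct_vq_ord_y d q).1⟩)
      (fun q q' h => Subtype.ext (ct_vq_eq_of_rel d h))
  have hg : Function.Surjective g := by
    rintro ⟨v, hv⟩
    obtain ⟨q, hq⟩ := ct_exists_vq_eq d (Or.inr rfl) v hv
    exact ⟨Quotient.mk r q, Subtype.ext hq⟩
  have hfin : Finite {v : Place k ↥(modularFunctionFieldFullC k N) //
      0 < v.ord (m18cusp_j k N)⁻¹} := Finite.of_surjective g hg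
  have hcard : Nat.card {v : Place k ↥(modularFunctionFieldFullC k N) //
      0 < v.ord (m18cusp_j k N)⁻¹} ≤ cuspCount N :=
    (Nat.card_le_card_of_surjective g hg).trans
      (m18cusp_card_orbits hNk (Nat.pos_of_ne_zero (NeZero.ne N)) ζ hζ)
  have e : {v : Place k ↥(modularFunctionFieldFullC k N) //
        v.ord (⟨jqModC k, jqModC_mem_full k N⟩ : ↥(modularFunctionFieldFullC k N)) < 0} ≃
      {v : Place k ↥(modularFunctionFieldFullC k N) // 0 < v.ord (m18cusp_j k N)⁻¹} :=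
    Equiv.subtypeEquivRight fun v => by
      rw [Place.ord_inv, neg_pos]
      rfl
  exact ⟨Finite.of_equiv _ e.symm, by rw [Nat.card_congr e]; exact hcard⟩

include hNk hP in
/-- the ramification index of a place over `j~ = ∞` is at most `N`. -/
theorem m18cusp_ord_le (v : Place k ↥(modularFunctionFieldFullC k N))
    (hv : v.ord (⟨jqModC k, jqModC_mem_full k N⟩ : ↥(modularFunctionFieldFullC k N)) < 0) :
    - v.ord (⟨jqModC k, jqModC_mem_full k N⟩ : ↥(modularFunctionFieldFullC k N)) ≤ (N : ℤ) := by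
  classical
  obtain ⟨ζ, hζ⟩ := m28dt_exists_primitiveRoot (k := k) hNk
  set d := m18cusp_countingData k N hNk hP ζ hζ with hd
  haveI : Nonempty (m18cusp_QQ k N hNk hP) := ⟨(m28dt_E (m18cusp_D k N hNk hP) N).val⟩
  have hv' : 0 < v.ord (m18cusp_j k N)⁻¹ := by
    rw [Place.ord_inv, neg_pos]
    exact hv
  obtain ⟨q, hq⟩ := ct_exists_vq_eq d (Or.inr rfl) v hv'
  have h1 := (ct_vq_ord_y d q).2
  rw [hq, Place.ord_inv] at h1
  have h2 := Nat.le_of_dvd (Nat.pos_of_ne_zero (NeZero.ne N))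
    (m18cusp_class_dvd k N hNk hP ζ hζ.pow_eq_one q)
  have h3 : ((Nat.card {q' // (MulAction.orbitRel
      (Subgroup.zpowers (m18cusp_TT k N hNk hP ζ hζ.pow_eq_one))
      (m18cusp_QQ k N hNk hP)).r q q'} : ℕ) : ℤ) ≤ (N : ℤ) := by exact_mod_cast h2
  exact h1.trans h3

end data

end Fermat.Agent.M18

end
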