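/-
S18 (M18), small facts about the residue field `k = IsLocalRing.ResidueField A` of a valuation
subring `A` of the algebraic closure of `ℚ`, and level arithmetic (lead).

* `m18rf_isAlgClosed`            : `k` is algebraically closed;
* `m18rf_charP`, `m18rf_natCast_ne_zero`, `m18rf_residue_natCast_eq_zero` : characteristic;
* `m18rf_toQbar`, `m18rf_toA`, `m18rf_toK` : the algebraic integers of `ℂ` map to `A` and to `k`;
* `m18rf_primeData`              : the prime-level package of M28 over `k`;
* `m18rf_nuTwo_eq_zero`, `m18rf_nuThree_eq_zero`, `m18rf_genusFormula`,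
  `m18rf_two_genusFormula_sub_two` : no elliptic points at a level divisible by `4` or `9`;
* `m18rf_dedekindPsi_four/nine`, `m18rf_cuspCount_four/nine`.
-/
import Mathlib
import Fermat.Prelude.Def_FLTPrelim_Ramification
import Fermat.Prelude.Def_ModularCurve_GenusNumerics
import Fermat.Agent.M28.Defs
import Fermat.Agent.M28.KMap
import Fermat.Agent.M28.PaPhi

set_option autoImplicit false

namespace Fermat.Agent.M18

open Polynomial ModularCurve Fermat.Agent.M28

theorem m18rf_isAlgClosed {K : Type*} [Field K] [IsAlgClosed K] (A : ValuationSubring K) :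
    IsAlgClosed (IsLocalRing.ResidueField A) := by
  refine IsAlgClosed.of_exists_root _ ?_
  intro p hpm hpirr
  obtain ⟨P, hPmap, hPdeg, hPmonic⟩ :=
    Polynomial.lifts_and_natDegree_eq_and_monic
      ((Polynomial.mem_lifts p).2
        (Polynomial.map_surjective _ (IsLocalRing.residue_surjective (R := A)) p)) hpm
  have hdeg : (P.map (algebraMap A K)).degree ≠ 0 := by
    rw [Polynomial.degree_map_eq_of_injective (IsFractionRing.injective A K)]
    intro h0
    have h1 : P.natDegree = 0 := by
      rw [Polynomial.natDegree_eq_zero_iff_degree_le_zero, h0]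
    have h2 : p.natDegree = 0 := by rw [← hPdeg, h1]
    exact (Polynomial.natDegree_pos_iff_degree_pos.mpr
      (Polynomial.degree_pos_of_irreducible hpirr)).ne' h2
  obtain ⟨x, hx⟩ := IsAlgClosed.exists_root (P.map (algebraMap A K)) hdeg
  have hxint : IsIntegral A x := ⟨P, hPmonic, by rwa [← Polynomial.eval_map]⟩
  obtain ⟨a, ha⟩ := (IsIntegrallyClosed.isIntegral_iff (R := A) (K := K)).mp hxint
  refine ⟨IsLocalRing.residue A a, ?_⟩
  have h0 : P.eval a = 0 := by
    apply IsFractionRing.injective A K
    rw [map_zero, ← Polynomial.eval₂_at_apply, ha, ← Polynomial.eval_map]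
    exact hx
  rw [← hPmap, Polynomial.eval_map, Polynomial.eval₂_at_apply, h0, map_zero]

theorem m18rf_residue_natCast_eq_zero {L : Type} [Field L] (A : ValuationSubring L) {ℓ : ℕ}
    (hA : A.LiesOverPrime ℓ) : ((ℓ : ℕ) : IsLocalRing.ResidueField A) = 0 := by
  have h1 : ((ℓ : A) : L) ∈ A.nonunits := by
    have h : ((ℓ : ℕ) : L) ∈ A.nonunits := hA
    simpa using h
  have h2 : (ℓ : A) ∈ IsLocalRing.maximalIdeal A := by
    rw [IsLocalRing.mem_maximalIdeal, mem_nonunits_iff]
    intro hu
    have := (ValuationSubring.mem_nonunits_iff_exists_mem_maximalIdeal (A := A)).mp h1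
    obtain ⟨ha, hmem⟩ := this
    rw [IsLocalRing.mem_maximalIdeal, mem_nonunits_iff] at hmem
    apply hmem
    convert hu
  have h3 := (IsLocalRing.residue_eq_zero_iff (ℓ : A)).mpr h2
  rwa [map_natCast] at h3

theorem m18rf_charP {L : Type} [Field L] (A : ValuationSubring L) (ℓ : ℕ) [hℓ : Fact ℓ.Prime]
    (hA : A.LiesOverPrime ℓ) : CharP (IsLocalRing.ResidueField A) ℓ := by
  have h0 := m18rf_residue_natCast_eq_zero A hA
  have hdvd : ringChar (IsLocalRing.ResidueField A) ∣ ℓ := ringChar.dvd h0
  rcases (Nat.dvd_prime hℓ.out).mp hdvd with h1 | h1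
  · exfalso
    have := CharP.ringChar_ne_one (R := IsLocalRing.ResidueField A)
    exact this h1
  · rw [← h1]
    exact ringChar.charP _

theorem m18rf_natCast_ne_zero {L : Type} [Field L] (A : ValuationSubring L) (ℓ : ℕ)
    [hℓ : Fact ℓ.Prime] (hA : A.LiesOverPrime ℓ) {m : ℕ} (hm : ¬ ℓ ∣ m) :
    ((m : ℕ) : IsLocalRing.ResidueField A) ≠ 0 := by
  have := m18rf_charP A ℓ hA
  rw [Ne, CharP.cast_eq_zero_iff (IsLocalRing.ResidueField A) ℓ]
  exact hm

theorem m18rf_mem_of_isIntegral_int (A : ValuationSubring (AlgebraicClosure ℚ))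
    {x : AlgebraicClosure ℚ} (hx : IsIntegral ℤ x) : x ∈ A := by
  have h1 : IsIntegral A x := hx.tower_top
  obtain ⟨a, ha⟩ := (IsIntegrallyClosed.isIntegral_iff (R := A) (K := AlgebraicClosure ℚ)).mp h1
  rw [← ha]
  exact a.2

/-- the algebraic integers of `ℂ`, mapped to the algebraic closure of `ℚ`. -/
noncomputable def m18rf_toQbar : m28Zbar →+* AlgebraicClosure ℚ :=
  ((IsAlgClosed.lift : m28Zbar →ₐ[ℤ] AlgebraicClosure ℚ) : m28Zbar →+* AlgebraicClosure ℚ)

theorem m18rf_toQbar_isIntegral (z : m28Zbar) : IsIntegral ℤ (m18rf_toQbar z) := by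
  have hz : IsIntegral ℤ z := by
    have h := z.2
    exact (isIntegral_algebraMap_iff (B := ℂ) (Subtype.val_injective)).mp h
  exact map_isIntegral_int m18rf_toQbar hz

/-- the algebraic integers of `ℂ` map to every valuation subring of the algebraic closure of `ℚ`. -/
noncomputable def m18rf_toA (A : ValuationSubring (AlgebraicClosure ℚ)) : m28Zbar →+* A :=
  RingHom.codRestrict m18rf_toQbar A
    (fun z => m18rf_mem_of_isIntegral_int A (m18rf_toQbar_isIntegral z))

/-- the algebraic integers of `ℂ` map to the residue field. -/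
noncomputable def m18rf_toK (A : ValuationSubring (AlgebraicClosure ℚ)) :
    m28Zbar →+* IsLocalRing.ResidueField A :=
  (IsLocalRing.residue A).comp (m18rf_toA A)

theorem m18rf_primeData (A : ValuationSubring (AlgebraicClosure ℚ)) (p : ℕ) [NeZero p]
    (hp : p.Prime) : Nonempty (M28PrimeData (IsLocalRing.ResidueField A) p) :=
  ⟨m28k_map (m18rf_toK A) p (m28p_primeData p hp).some⟩

theorem m18rf_nuTwo_eq_zero {N : ℕ} (h : 4 ∣ N ∨ 9 ∣ N) : nuTwo N = 0 := by
  unfold nuTwo
  have hemp : IsEmpty {x : ZMod N // x ^ 2 + 1 = 0} := by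
    refine ⟨fun ⟨x, hx⟩ => ?_⟩
    rcases h with h | h
    · have h1 := congrArg (ZMod.castHom h (ZMod 4)) hx
      simp only [map_add, map_pow, map_one, map_zero] at h1
      revert h1
      generalize (ZMod.castHom h (ZMod 4)) x = y
      revert y
      decide
    · have h1 := congrArg (ZMod.castHom h (ZMod 9)) hx
      simp only [map_add, map_pow, map_one, map_zero] at h1
      revert h1
      generalize (ZMod.castHom h (ZMod 9)) x = y
      revert y
      decide
  exact Nat.card_of_isEmpty

theorem m18rf_nuThree_eq_zero {N : ℕ} (h : 4 ∣ N ∨ 9 ∣ N) : nuThree N = 0 := by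
  unfold nuThree
  have hemp : IsEmpty {x : ZMod N // x ^ 2 + x + 1 = 0} := by
    refine ⟨fun ⟨x, hx⟩ => ?_⟩
    rcases h with h | h
    · have h1 := congrArg (ZMod.castHom h (ZMod 4)) hx
      simp only [map_add, map_pow, map_one, map_zero] at h1
      revert h1
      generalize (ZMod.castHom h (ZMod 4)) x = y
      revert y
      decide
    · have h1 := congrArg (ZMod.castHom h (ZMod 9)) hx
      simp only [map_add, map_pow, map_one, map_zero] at h1
      revert h1
      generalize (ZMod.castHom h (ZMod 9)) x = y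
      revert y
      decide
  exact Nat.card_of_isEmpty

/-- the genus formula at a level divisible by `4` or by `9` (no elliptic points). -/
theorem m18rf_genusFormula {N : ℕ} (h : 4 ∣ N ∨ 9 ∣ N) :
    genusFormula N = 1 + (dedekindPsi N : ℚ) / 12 - (cuspCount N : ℚ) / 2 := by
  unfold genusFormula
  rw [m18rf_nuTwo_eq_zero h, m18rf_nuThree_eq_zero h]
  simp

theorem m18rf_two_genusFormula_sub_two {N : ℕ} (h : 4 ∣ N ∨ 9 ∣ N) :
    2 * genusFormula N - 2 = (dedekindPsi N : ℚ) / 6 - (cuspCount N : ℚ) := by
  rw [m18rf_genusFormula h]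
  ring

theorem m18rf_not_squarefree_four : ¬ Squarefree 4 := by
  intro h
  have := h 2 ⟨1, by norm_num⟩
  simp at this

theorem m18rf_not_squarefree_nine : ¬ Squarefree 9 := by
  intro h
  have := h 3 ⟨1, by norm_num⟩
  simp at this

theorem m18rf_dedekindPsi_four : dedekindPsi 4 = 6 := by
  unfold dedekindPsi
  rw [show Nat.divisors 4 = {1, 2, 4} from by decide]
  rw [Finset.sum_filter]
  have h2 : Squarefree 2 := Nat.prime_two.squarefree
  simp [h2, m18rf_not_squarefree_four]

theorem m18rf_dedekindPsi_nine : dedekindPsi 9 = 12 := by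
  unfold dedekindPsi
  rw [show Nat.divisors 9 = {1, 3, 9} from by decide]
  rw [Finset.sum_filter]
  have h2 : Squarefree 3 := Nat.prime_three.squarefree
  simp [h2, m18rf_not_squarefree_nine]

theorem m18rf_cuspCount_four : cuspCount 4 = 3 := by decide
theorem m18rf_cuspCount_nine : cuspCount 9 = 4 := by decide

end Fermat.Agent.M18
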