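/-
S18, package (HM) (helper7): `h9 ∈ F~_9` and `F~_9 = k(h9)` for `k` algebraically closed of
characteristic `ℓ ≠ 3`, from the M28 degree theorem.
-/
import Mathlib
import Fermat.Agent.M18.HmMem9
import Fermat.Agent.M18.ResField
import Fermat.Agent.M28.DFinal
import Fermat.Agent.M28.BmMain

set_option autoImplicit false
set_option linter.unusedSectionVars false
set_option linter.style.longLine false

noncomputable section

namespace Fermat.Agent.M18

open ModularCurve Fermat.Agent.M28 IntermediateField Polynomial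

section

variable (k : Type) [Field k] [IsAlgClosed k] (ℓ : ℕ) [Fact ℓ.Prime] [CharP k ℓ]

/-- the M28 degree theorem at level `9`. -/
theorem m18hm_ind9 (hℓ : ¬ ℓ ∣ 9)
    (hP : ∀ (p : ℕ) [NeZero p], p.Prime → p ∣ 9 → Nonempty (M28PrimeData k p)) :
    ∃ v : Fin 12 → LaurentSeries k,
      (∀ i, v i ∈ Algebra.adjoin k (divisorExpansionsC k 9)) ∧
      LinearIndependent ↥(k⟮jqModC k⟯) v := by
  obtain ⟨v, hv, hlin⟩ := m28di_tower_of m28b_tower_main k ℓ 9 hℓ hP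
  have h12 : dedekindPsi 9 = 12 := m18rf_dedekindPsi_nine
  refine ⟨v ∘ Fin.cast h12.symm, fun i => hv _, ?_⟩
  exact hlin.comp _ (Fin.cast_injective _)

/-- **`h9 ∈ F~_9`**. -/
theorem m18hm_h9_mem (hℓ : ¬ ℓ ∣ 9)
    (hP : ∀ (p : ℕ) [NeZero p], p.Prime → p ∣ 9 → Nonempty (M28PrimeData k p)) :
    m18hm_h9 k ∈ modularFunctionFieldFullC k 9 :=
  m18hm_h9_mem_of k (m18hm_ind9 k ℓ hℓ hP)

/-- **`F~_9 = k(h9)`**. -/
theorem m18hm_full9_eq (hℓ : ¬ ℓ ∣ 9)
    (hP : ∀ (p : ℕ) [NeZero p], p.Prime → p ∣ 9 → Nonempty (M28PrimeData k p)) :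
    modularFunctionFieldFullC k 9 = k⟮m18hm_h9 k⟯ :=
  m18hm_full9_eq_of k (m18hm_ind9 k ℓ hℓ hP)

end

end Fermat.Agent.M18

end
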