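import Fermat.Agent.M18.RrExtra
import Fermat.Agent.M16.PsiRR

/-!
# M18 / RRl-1, part 8: the genus bridge in characteristic `0`, and consumer-shaped variants

* `m18rr_finrank_W_eq_tame` : in characteristic `0`, `ℓ(m18rr_W x) = ℓ(W)` for the tame divisor
  `W` of `dx` of S20 (`IsDivisorOfD x W`): both are `h¹(0)`;
* `m18rr_genus_X0` : `ℓ(m18rr_W j) = genusFormula N` for the function field of `X₀(N)` over `ℚ̄`;
* `m18rr_nonspecial_step'` : the non-special step with a `Finset` of exceptions;
* `m18rr_infinite` : there are infinitely many places.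
-/

set_option autoImplicit false
set_option linter.style.haveILetI false
set_option linter.unusedSectionVars false
set_option linter.unusedVariables false
set_option linter.deprecated false

noncomputable section

namespace Fermat.Agent.M18

open Fermat.Agent.S20 Fermat.Agent.S24 Fermat.Agent.M16
open AlgebraicCurve IntermediateField Module ModularCurve

section char0

variable {K F : Type*} [Field K] [Field F] [Algebra K F] [IsAlgClosed K] [CharZero K]

/-- separability is automatic in characteristic zero. -/
theorem m18rr_isSeparable_of_charZero (x : F) [FiniteDimensional K⟮x⟯ F] :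
    Algebra.IsSeparable K⟮x⟯ F := by
  haveI : CharZero K⟮x⟯ := charZero_of_injective_algebraMap (algebraMap K K⟮x⟯).injective
  infer_instance

/-- in characteristic zero the trace-defined canonical divisor and the tame one have the same
`ℓ`: both are `h¹(0)`. -/
theorem m18rr_finrank_W_eq_tame (x : F) (hx : Transcendental K x) [FiniteDimensional K⟮x⟯ F]
    (W : Divisor K F) (hW : IsDivisorOfD x W) :
    finrank K (riemannRochSpace (m18rr_W (K := K) x)) = finrank K (riemannRochSpace W) := by
  haveI := m18rr_isSeparable_of_charZero (K := K) x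
  have h1 := m18rr_h1 x hx (0 : Divisor K F)
  rw [sub_zero] at h1
  rw [← h1, m16psi_h1_zero x hx W hW]

/-- in characteristic zero the two canonical divisors have the same degree. -/
theorem m18rr_degree_W_eq_tame (x : F) (hx : Transcendental K x) [FiniteDimensional K⟮x⟯ F]
    (W : Divisor K F) (hW : IsDivisorOfD x W) :
    Divisor.degree (m18rr_W (K := K) x) = Divisor.degree W := by
  haveI := m18rr_isSeparable_of_charZero (K := K) x
  rw [m18rr_deg_W x hx, m18rr_finrank_W_eq_tame x hx W hW, ← rr_canonical x hx W hW]

end char0

section X0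

variable (N : ℕ) [NeZero N]

/-- **genus bridge**: for the function field of `X₀(N)` over `ℚ̄`,
`ℓ(m18rr_W j) = genusFormula N`. -/
theorem m18rr_genus_X0 :
    (finrank s24K (riemannRochSpace (m18rr_W (K := s24K) (s24j N))) : ℚ) = genusFormula N := by
  haveI hfin : FiniteDimensional (IntermediateField.adjoin s24K {s24j N}) (s24F N) :=
    deg_finiteDimensional N
  have hx := ana_transcendental N
  obtain ⟨W, hW⟩ := m16psi_exists_W N
  obtain ⟨g, hgq, hgz⟩ := hurw_degree_W (m16psi_pkgG N) hx W hW
  have h1 := rr_canonical (s24j N) hx W hW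
  have h2 : finrank s24K (riemannRochSpace W) = g := by omega
  rw [m18rr_finrank_W_eq_tame (s24j N) hx W hW, h2, hgq]

/-- the degree of the canonical divisor of `X₀(N)` over `ℚ̄`. -/
theorem m18rr_degree_W_X0 :
    ((Divisor.degree (m18rr_W (K := s24K) (s24j N)) : ℤ) : ℚ) = 2 * genusFormula N - 2 := by
  haveI hfin : FiniteDimensional (IntermediateField.adjoin s24K {s24j N}) (s24F N) :=
    deg_finiteDimensional N
  haveI := m18rr_isSeparable_of_charZero (K := s24K) (s24j N)
  rw [m18rr_deg_W (s24j N) (ana_transcendental N), ← m18rr_genus_X0 N]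
  push_cast
  ring

end X0

section shapes

variable {K F : Type*} [Field K] [Field F] [Algebra K F] [IsAlgClosed K]

/-- the non-special step with a `Finset` of exceptional places. -/
theorem m18rr_nonspecial_step' (x : F) (hx : Transcendental K x) [FiniteDimensional K⟮x⟯ F]
    [Algebra.IsSeparable K⟮x⟯ F] (D : Divisor K F)
    (h1 : finrank K (riemannRochSpace D) = 1)
    (hdeg : Divisor.degree D < (finrank K (riemannRochSpace (m18rr_W (K := K) x)) : ℤ)) :
    ∃ T : Finset (Place K F),
      ∀ Q : Place K F, Q ∉ T → finrank K (riemannRochSpace (D + Finsupp.single Q (1 : ℤ))) = 1 := by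
  obtain ⟨T, hT, h⟩ := m18rr_nonspecial_step x hx D h1 hdeg
  exact ⟨hT.toFinset, fun Q hQ => h Q (fun hQT => hQ (hT.mem_toFinset.2 hQT))⟩

/-- there are infinitely many places. -/
theorem m18rr_infinite (x : F) (hx : Transcendental K x) [FiniteDimensional K⟮x⟯ F]
    [Algebra.IsSeparable K⟮x⟯ F] : Infinite (Place K F) := by
  refine ⟨fun hfin => ?_⟩
  obtain ⟨Q, hQ⟩ := m18rr_infinite_places x hx Set.univ Set.finite_univ
  exact hQ (Set.mem_univ Q)

end shapes

end Fermat.Agent.M18

end
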