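import Fermat.Agent.M18.DifPlace
import Fermat.Agent.S20.DiffCore

/-!
# M18 / (R3) bridge, part 2: the different exponent in terms of places

AKLB with constants: `A ⊆ B` Dedekind, `L = Frac A`, `F = Frac B` finite separable over `L`,
`B` the integral closure of `A` in `F`, everything over a field of constants `K`.
For `P : HeightOneSpectrum B`, `v_P := Place.ofHeightOneSpectrum P` and
`d_P := multiplicity P.asIdeal (differentIdeal A B)`:

* `m18dif_codiff_ord_ge` : `g ∈ traceDual A L (1 : Submodule B F)`, `g ≠ 0` ⟹ `-d_P ≤ v_P.ord g`;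
* `m18dif_codiff_ord_attained` : some `g ≠ 0` in the trace dual has `v_P.ord g = -d_P`;
* `m18dif_W_eq` : an integer satisfying these two properties is `d_P`
  (this is how a divisor of `dx` defined through the trace dual attaches to Mathlib's different);
* `m18dif_ord_eq_ramificationIdx` : `v_P.ord t = e(P/p)` for a generator `t` of `p = P ∩ A`;
* `m18dif_pred_le_different` : Dedekind's bound `v_P.ord t - 1 ≤ d_P`;
* `m18dif_different_le_ord_derivative` : `d_P ≤ v_P.ord (f'(θ))` for a generator `θ ∈ B` of `F/L`
  with minimal polynomial `f`; `m18dif_different_eq_ord_derivative` : equality if `P` does not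
  contain the conductor of `A[θ]`.
-/

set_option autoImplicit false
set_option linter.deprecated false
set_option linter.style.haveILetI false
set_option linter.unusedSectionVars false
set_option linter.unusedVariables false
set_option linter.overlappingInstances false

noncomputable section

namespace Fermat.Agent.M18

open AlgebraicCurve IsDedekindDomain WithZero Fermat.Agent.S24 Fermat.Agent.S20

attribute [local instance] FractionRing.liftAlgebra FractionRing.isScalarTower_liftAlgebra

/-- The different is a nonzero ideal (AKLB form). -/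
theorem m18dif_different_ne_bot {A : Type*} (L F : Type*) {B : Type*} [Field F]
    [CommRing A] [IsDedekindDomain A] [Field L] [Algebra A L]
    [IsFractionRing A L] [Algebra L F] [Algebra A F] [IsScalarTower A L F]
    [CommRing B] [IsDedekindDomain B] [Algebra A B] [Module.IsTorsionFree A B] [Algebra B F]
    [IsFractionRing B F] [IsScalarTower A B F] [Module.Finite A B] [IsIntegralClosure B A F]
    [FiniteDimensional L F] [Algebra.IsSeparable L F] : differentIdeal A B ≠ ⊥ := by
  haveI : Algebra.IsSeparable (FractionRing A) (FractionRing B) := diffc_isSeparable A L (L := F)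
  exact differentIdeal_ne_bot

/-- For `θ ∈ B` with minimal polynomial `f` over `A`: `f'(θ) ≠ 0` (separability). -/
theorem m18dif_aeval_derivative_ne_zero {A : Type*} (L F : Type*) {B : Type*} [Field F]
    [CommRing A] [IsDedekindDomain A] [Field L] [Algebra A L]
    [IsFractionRing A L] [Algebra L F] [Algebra A F] [IsScalarTower A L F]
    [CommRing B] [IsDedekindDomain B] [Algebra A B] [Module.IsTorsionFree A B] [Algebra B F]
    [IsFractionRing B F] [IsScalarTower A B F] [Module.Finite A B] [IsIntegralClosure B A F]
    [FiniteDimensional L F] [Algebra.IsSeparable L F] (θ : B) :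
    Polynomial.aeval θ (Polynomial.derivative (minpoly A θ)) ≠ 0 := by
  have hAx : IsIntegral A θ := IsIntegralClosure.isIntegral A F θ
  have hne₁ : Polynomial.aeval (algebraMap B F θ)
      (Polynomial.derivative (minpoly L (algebraMap B F θ))) ≠ 0 :=
    (Algebra.IsSeparable.isSeparable L (algebraMap B F θ)).aeval_derivative_ne_zero
      (minpoly.aeval _ _)
  have h2 : algebraMap B F (Polynomial.aeval θ (Polynomial.derivative (minpoly A θ))) ≠ 0 := by
    rwa [minpoly.isIntegrallyClosed_eq_field_fractions L F hAx, Polynomial.derivative_map,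
      Polynomial.aeval_map_algebraMap, Polynomial.aeval_algebraMap_apply] at hne₁
  intro h0
  rw [h0, map_zero] at h2
  exact h2 rfl

section aklb

variable {K F : Type*} [Field K] [Field F] [Algebra K F]
    {A : Type*} (L : Type*) {B : Type*} [CommRing A] [IsDedekindDomain A] [Field L] [Algebra A L]
    [IsFractionRing A L] [Algebra L F] [Algebra A F] [IsScalarTower A L F]
    [CommRing B] [IsDedekindDomain B] [Algebra A B] [Module.IsTorsionFree A B] [Algebra B F]
    [IsFractionRing B F] [IsScalarTower A B F] [Module.Finite A B] [IsIntegralClosure B A F]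
    [Algebra K A] [Algebra K B] [IsScalarTower K A B] [IsScalarTower K B F]
    [FiniteDimensional L F] [Algebra.IsSeparable L F]

/-- Elements of the trace dual have order at least `-d_P` at `P`. -/
theorem m18dif_codiff_ord_ge (P : HeightOneSpectrum B) {g : F}
    (hg : g ∈ Submodule.traceDual A L (1 : Submodule B F)) (hg0 : g ≠ 0) :
    -(multiplicity P.asIdeal (differentIdeal A B) : ℤ) ≤
      (Place.ofHeightOneSpectrum (K := K) (F := F) P).ord g := by
  have hD : differentIdeal A B ≠ ⊥ := m18dif_different_ne_bot (A := A) L F (B := B)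
  obtain ⟨δ, hδ, hδ0, hordδ⟩ := m18dif_exists_ord_eq_multiplicity (K := K) (F := F) P hD
  rw [diffc_mem_traceDual_iff_different A L g] at hg
  obtain ⟨b, hb⟩ := hg δ hδ
  have hδF : algebraMap B F δ ≠ 0 := by
    rw [ne_eq, FaithfulSMul.algebraMap_eq_zero_iff]
    exact hδ0
  have h1 : 0 ≤ (Place.ofHeightOneSpectrum (K := K) (F := F) P).ord (algebraMap B F b) :=
    m18dif_ord_nonneg (K := K) P b
  rw [hb, (Place.ofHeightOneSpectrum (K := K) (F := F) P).ord_mul hg0 hδF, hordδ] at h1
  omega

/-- Some nonzero element of the trace dual has order exactly `-d_P` at `P`. -/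
theorem m18dif_codiff_ord_attained (P : HeightOneSpectrum B) :
    ∃ g ∈ Submodule.traceDual A L (1 : Submodule B F), g ≠ 0 ∧
      (Place.ofHeightOneSpectrum (K := K) (F := F) P).ord g =
        -(multiplicity P.asIdeal (differentIdeal A B) : ℤ) := by
  have hD : differentIdeal A B ≠ ⊥ := m18dif_different_ne_bot (A := A) L F (B := B)
  obtain ⟨δ, hδ, hδ0, hordδ⟩ := m18dif_exists_ord_eq_multiplicity (K := K) (F := F) P hD
  have hδF : algebraMap B F δ ≠ 0 := by
    rw [ne_eq, FaithfulSMul.algebraMap_eq_zero_iff]
    exact hδ0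
  -- `(δ) = 𝔇 * I'`
  obtain ⟨I', hI'⟩ : differentIdeal A B ∣ Ideal.span {δ} := Ideal.dvd_span_singleton.mpr hδ
  -- `I'` is not contained in `P`
  have hI'P : ¬ I' ≤ P.asIdeal := by
    intro hle
    have hfm : FiniteMultiplicity P.asIdeal (differentIdeal A B) :=
      FiniteMultiplicity.of_prime_left P.prime hD
    have h1 : P.asIdeal ^ (multiplicity P.asIdeal (differentIdeal A B) + 1) ∣ Ideal.span {δ} := by
      rw [hI', pow_succ]
      exact mul_dvd_mul (pow_multiplicity_dvd _ _) (Ideal.dvd_iff_le.mpr hle)
    have h2 : δ ∈ P.asIdeal ^ (multiplicity P.asIdeal (differentIdeal A B) + 1) :=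
      Ideal.dvd_span_singleton.mp h1
    rw [m18dif_mem_pow_iff (K := K) (F := F) P δ] at h2
    rcases h2 with h2 | h2
    · exact hδ0 h2
    · rw [hordδ] at h2
      push_cast at h2
      omega
  rw [SetLike.not_le_iff_exists] at hI'P
  obtain ⟨c, hcI', hcP⟩ := hI'P
  have hc0 : c ≠ 0 := by
    rintro rfl
    exact hcP (Ideal.zero_mem _)
  have hcF : algebraMap B F c ≠ 0 := by
    rw [ne_eq, FaithfulSMul.algebraMap_eq_zero_iff]
    exact hc0
  refine ⟨algebraMap B F c / algebraMap B F δ, ?_, div_ne_zero hcF hδF, ?_⟩
  · rw [diffc_mem_traceDual_iff_different A L]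
    intro y hy
    have h1 : y * c ∈ Ideal.span {δ} := by
      rw [hI']
      exact Ideal.mul_mem_mul hy hcI'
    obtain ⟨b, hb⟩ := Ideal.mem_span_singleton'.mp h1
    refine ⟨b, ?_⟩
    have h2 : algebraMap B F b * algebraMap B F δ = algebraMap B F y * algebraMap B F c := by
      rw [← map_mul, ← map_mul, hb]
    field_simp
    rw [h2]
    ring
  · rw [div_eq_mul_inv, (Place.ofHeightOneSpectrum (K := K) (F := F) P).ord_mul hcF
      (inv_ne_zero hδF), Place.ord_inv, hordδ]
    have h3 : (Place.ofHeightOneSpectrum (K := K) (F := F) P).ord (algebraMap B F c) = 0 := by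
      have h4 := m18dif_ord_nonneg (K := K) (F := F) P c
      have h5 := (m18dif_mem_iff (K := K) (F := F) P c).not.mp hcP
      rw [not_or, not_lt] at h5
      have h6 := h5.2
      omega
    rw [h3, zero_add]

/-- **Characterisation of the different exponent**: an integer `Wv` which is the maximum of
`-ord g` over the nonzero elements `g` of the trace dual is the exponent of `P` in the
different. -/
theorem m18dif_W_eq (P : HeightOneSpectrum B) (Wv : ℤ)
    (hle : ∀ g ∈ Submodule.traceDual A L (1 : Submodule B F), g ≠ 0 →
      -Wv ≤ (Place.ofHeightOneSpectrum (K := K) (F := F) P).ord g)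
    (hatt : ∃ g ∈ Submodule.traceDual A L (1 : Submodule B F), g ≠ 0 ∧
      (Place.ofHeightOneSpectrum (K := K) (F := F) P).ord g = -Wv) :
    Wv = (multiplicity P.asIdeal (differentIdeal A B) : ℤ) := by
  obtain ⟨g, hg, hg0, hgo⟩ := hatt
  obtain ⟨g', hg', hg'0, hg'o⟩ := m18dif_codiff_ord_attained (K := K) (F := F) (A := A) L P
  have h1 := m18dif_codiff_ord_ge (K := K) (F := F) (A := A) L P hg hg0
  have h2 := hle g' hg' hg'0
  omega

/-- The order of a generator `t` of a prime `p` of `A` at the place of `P` is the ramification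
index `e(P/p)`. -/
theorem m18dif_ord_eq_ramificationIdx (P : HeightOneSpectrum B) {t : A} (ht : Prime t) :
    (Place.ofHeightOneSpectrum (K := K) (F := F) P).ord (algebraMap A F t) =
      (Ideal.ramificationIdx' (Ideal.span {t}) P.asIdeal : ℤ) := by
  have ht0 : algebraMap A B t ≠ 0 := by
    rw [ne_eq, FaithfulSMul.algebraMap_eq_zero_iff]
    exact ht.ne_zero
  have hmap : Ideal.map (algebraMap A B) (Ideal.span {t}) = Ideal.span {algebraMap A B t} := by
    rw [Ideal.map_span, Set.image_singleton]
  have hne : Ideal.map (algebraMap A B) (Ideal.span {t}) ≠ ⊥ := by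
    rw [hmap, ne_eq, Ideal.span_singleton_eq_bot]
    exact ht0
  rw [IsScalarTower.algebraMap_apply A B F, m18dif_ord_eq_multiplicity (K := K) P ht0,
    Ideal.IsDedekindDomain.ramificationIdx'_eq_multiplicity hne P.isPrime, hmap]

include L in
/-- **Dedekind's bound**: `e - 1 ≤ d_P`, where `e` is the order at `P` of a prime element `t` of
`A`. -/
theorem m18dif_pred_le_different (P : HeightOneSpectrum B) {t : A} (ht : Prime t) :
    (Place.ofHeightOneSpectrum (K := K) (F := F) P).ord (algebraMap A F t) - 1 ≤
      (multiplicity P.asIdeal (differentIdeal A B) : ℤ) := by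
  haveI : Algebra.IsSeparable (FractionRing A) (FractionRing B) := diffc_isSeparable A L (L := F)
  have hD : differentIdeal A B ≠ ⊥ := m18dif_different_ne_bot (A := A) L F (B := B)
  have hfm : FiniteMultiplicity P.asIdeal (differentIdeal A B) :=
    FiniteMultiplicity.of_prime_left P.prime hD
  have ht0 : algebraMap A B t ≠ 0 := by
    rw [ne_eq, FaithfulSMul.algebraMap_eq_zero_iff]
    exact ht.ne_zero
  have hmap : Ideal.map (algebraMap A B) (Ideal.span {t}) = Ideal.span {algebraMap A B t} := by
    rw [Ideal.map_span, Set.image_singleton]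
  have hpprime : (Ideal.span {t}).IsPrime := (Ideal.span_singleton_prime ht.ne_zero).mpr ht
  have hp0 : Ideal.span {t} ≠ ⊥ := by
    rw [ne_eq, Ideal.span_singleton_eq_bot]
    exact ht.ne_zero
  haveI hpmax : (Ideal.span {t}).IsMaximal := hpprime.isMaximal hp0
  rw [IsScalarTower.algebraMap_apply A B F, m18dif_ord_eq_multiplicity (K := K) P ht0]
  have hdvd : P.asIdeal ^ multiplicity P.asIdeal (Ideal.span {algebraMap A B t}) ∣
      Ideal.map (algebraMap A B) (Ideal.span {t}) := by
    rw [hmap]
    exact pow_multiplicity_dvd _ _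
  have h1 := pow_sub_one_dvd_differentIdeal A P.asIdeal _ hp0 hdvd
  have h2 := hfm.le_multiplicity_of_pow_dvd h1
  omega

/-- **Different ≤ derivative**: if `θ ∈ B` generates `F / L`, with minimal polynomial `f` over
`A`, then `d_P ≤ v_P.ord (f'(θ))`. -/
theorem m18dif_different_le_ord_derivative (P : HeightOneSpectrum B) (θ : B)
    (hθ : Algebra.adjoin L {algebraMap B F θ} = ⊤) :
    (multiplicity P.asIdeal (differentIdeal A B) : ℤ) ≤
      (Place.ofHeightOneSpectrum (K := K) (F := F) P).ord
        (algebraMap B F (Polynomial.aeval θ (Polynomial.derivative (minpoly A θ)))) := by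
  have hD : differentIdeal A B ≠ ⊥ := m18dif_different_ne_bot (A := A) L F (B := B)
  exact m18dif_multiplicity_le_ord (K := K) (F := F) P hD
    (aeval_derivative_mem_differentIdeal A L F θ hθ)
    (m18dif_aeval_derivative_ne_zero (A := A) L F θ)

/-- **Different = derivative away from the conductor**: if `θ ∈ B` generates `F / L`, with
minimal polynomial `f` over `A`, and `P` does not contain the conductor of `A[θ]`, then
`d_P = v_P.ord (f'(θ))`. -/
theorem m18dif_different_eq_ord_derivative (P : HeightOneSpectrum B) (θ : B)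
    (hθ : Algebra.adjoin L {algebraMap B F θ} = ⊤) (hc : ¬ conductor A θ ≤ P.asIdeal) :
    (Place.ofHeightOneSpectrum (K := K) (F := F) P).ord
        (algebraMap B F (Polynomial.aeval θ (Polynomial.derivative (minpoly A θ)))) =
      (multiplicity P.asIdeal (differentIdeal A B) : ℤ) := by
  have hD : differentIdeal A B ≠ ⊥ := m18dif_different_ne_bot (A := A) L F (B := B)
  have hne := m18dif_aeval_derivative_ne_zero (A := A) L F θ
  have h := conductor_mul_differentIdeal A L F θ hθ
  have hfm : FiniteMultiplicity P.asIdeal (differentIdeal A B) :=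
    FiniteMultiplicity.of_prime_left P.prime hD
  have hcne : conductor A θ ≠ ⊥ := by
    rintro h0
    rw [h0] at hc
    exact hc bot_le
  have hfmc : FiniteMultiplicity P.asIdeal (conductor A θ) :=
    FiniteMultiplicity.of_prime_left P.prime hcne
  have hc0 : multiplicity P.asIdeal (conductor A θ) = 0 := by
    rw [multiplicity_eq_zero]
    rwa [Ideal.dvd_iff_le]
  have hspan : Ideal.span {Polynomial.aeval θ (Polynomial.derivative (minpoly A θ))} ≠ ⊥ := by
    rw [ne_eq, Ideal.span_singleton_eq_bot]
    exact hne
  have hfmm : FiniteMultiplicity P.asIdeal (conductor A θ * differentIdeal A B) := by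
    rw [h]
    exact FiniteMultiplicity.of_prime_left P.prime hspan
  rw [m18dif_ord_eq_multiplicity (K := K) P hne, ← h, multiplicity_mul P.prime hfmm, hc0,
    zero_add]

/-- A sufficient criterion for `P ∤ conductor`: some `b ∈ A`, `b ∉ P`, multiplies `B` into
`A[θ]`. -/
theorem m18dif_conductor_not_le (P : HeightOneSpectrum B) (θ : B) (b : A)
    (hbP : algebraMap A B b ∉ P.asIdeal)
    (hb : ∀ y : B, algebraMap A B b * y ∈ Algebra.adjoin A {θ}) :
    ¬ conductor A θ ≤ P.asIdeal := by
  intro hle
  apply hbP
  apply hle
  rw [mem_conductor_iff]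
  exact hb

end aklb

end Fermat.Agent.M18
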