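import Fermat.Agent.M18.RrDiff
import Fermat.Agent.M18.DifPlaceD

/-!
# M18 / (R3) bridge, part 3: the divisor of `dx` (`m18rr_W`) and Mathlib's different

`K` algebraically closed (any characteristic), `x : F` transcendental with `F / K(x)` finite
separable, `A = K[x] = Algebra.adjoin K {x}`, `B = integralClosure A F`.

* `m18dif_inst` : the four standard instances for `A`, `B`;
* `m18dif_exists_prime` : every place `v` with `0 ≤ v.ord x` is the place of a prime `P` of `B`;
* `m18dif_W_eq_multiplicity` : `m18rr_W x v_P = multiplicity P (differentIdeal A B)`;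
* `m18dif_W_ge_fin` : `ord_v (x - a) - 1 ≤ m18rr_W x v` at a zero `v` of `x - a`;
* `m18dif_W_ge_inf` : `ord_v x - 1 ≤ m18rr_W x v` at a pole `v` of `x`;
* `m18dif_W_le_ord_derivative` / `m18dif_W_eq_ord_derivative` : for `θ ∈ B` generating `F/K(x)`
  with minimal polynomial `f` over `A`: `m18rr_W x v ≤ ord_v (f'(θ))` at every finite place, with
  equality if some `b ∈ A` with `ord_v b = 0` multiplies `B` into `A[θ]`.
-/

set_option autoImplicit false
set_option linter.deprecated false
set_option linter.style.haveILetI false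
set_option linter.unusedSectionVars false
set_option linter.unusedVariables false
set_option linter.overlappingInstances false

noncomputable section

namespace Fermat.Agent.M18

open Fermat.Agent.S20 Fermat.Agent.S24
open AlgebraicCurve IntermediateField Polynomial IsDedekindDomain WithZero
open scoped IntermediateField.algebraAdjoinAdjoin

section inst

variable {K F : Type*} [Field K] [Field F] [Algebra K F] [IsAlgClosed K]

/-- The standard instances for `A = K[x]` and `B = integralClosure A F`
(use with `obtain ⟨h1, h2, h3, h4⟩ := m18dif_inst x hx; haveI := h1; ...`). -/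
theorem m18dif_inst (x : F) (hx : Transcendental K x) [FiniteDimensional K⟮x⟯ F]
    [Algebra.IsSeparable K⟮x⟯ F] :
    IsDedekindDomain (Algebra.adjoin K ({x} : Set F)) ∧
    IsDedekindDomain (integralClosure (Algebra.adjoin K ({x} : Set F)) F) ∧
    IsFractionRing (integralClosure (Algebra.adjoin K ({x} : Set F)) F) F ∧
    Module.Finite (Algebra.adjoin K ({x} : Set F))
      (integralClosure (Algebra.adjoin K ({x} : Set F)) F) := by
  have hDed : IsDedekindDomain (Algebra.adjoin K ({x} : Set F)) := algaz_isDedekindDomain x hx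
  have hDedB : IsDedekindDomain (integralClosure (Algebra.adjoin K ({x} : Set F)) F) :=
    integralClosure.isDedekindDomain (Algebra.adjoin K ({x} : Set F)) K⟮x⟯ F
  have hFracB : IsFractionRing (integralClosure (Algebra.adjoin K ({x} : Set F)) F) F :=
    integralClosure.isFractionRing_of_finite_extension K⟮x⟯ F
  have hFinB : Module.Finite (Algebra.adjoin K ({x} : Set F))
      (integralClosure (Algebra.adjoin K ({x} : Set F)) F) :=
    IsIntegralClosure.finite (Algebra.adjoin K ({x} : Set F)) K⟮x⟯ F
      (integralClosure (Algebra.adjoin K ({x} : Set F)) F)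
  exact ⟨hDed, hDedB, hFracB, hFinB⟩

end inst

section main

variable {K F : Type*} [Field K] [Field F] [Algebra K F] [IsAlgClosed K]
variable (x : F) (hx : Transcendental K x) [FiniteDimensional K⟮x⟯ F]
  [Algebra.IsSeparable K⟮x⟯ F]
  [IsDedekindDomain (Algebra.adjoin K ({x} : Set F))]
  [IsDedekindDomain (integralClosure (Algebra.adjoin K ({x} : Set F)) F)]
  [IsFractionRing (integralClosure (Algebra.adjoin K ({x} : Set F)) F) F]
  [Module.Finite (Algebra.adjoin K ({x} : Set F))
    (integralClosure (Algebra.adjoin K ({x} : Set F)) F)]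

/-- The place of a prime of `B` is a finite place. -/
theorem m18dif_ord_x_nonneg
    (P : HeightOneSpectrum (integralClosure (Algebra.adjoin K ({x} : Set F)) F)) :
    0 ≤ (Place.ofHeightOneSpectrum (K := K) (F := F) P).ord x := by
  have hxB : x ∈ integralClosure (Algebra.adjoin K ({x} : Set F)) F :=
    (integralClosure (Algebra.adjoin K ({x} : Set F)) F).algebraMap_mem
      ⟨x, Algebra.self_mem_adjoin_singleton K x⟩
  exact m18dif_ord_nonneg (K := K) (F := F) P
    (⟨x, hxB⟩ : integralClosure (Algebra.adjoin K ({x} : Set F)) F)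

include hx in
/-- Every finite place is the place of a unique prime of `B`. -/
theorem m18dif_exists_prime (v : Place K F) (hv : 0 ≤ v.ord x) :
    ∃ P : HeightOneSpectrum (integralClosure (Algebra.adjoin K ({x} : Set F)) F),
      Place.ofHeightOneSpectrum (K := K) (F := F) P = v := by
  have hR : ∀ b : integralClosure (Algebra.adjoin K ({x} : Set F)) F,
      algebraMap (integralClosure (Algebra.adjoin K ({x} : Set F)) F) F b
        ∈ v.toValuationSubring := by
    intro b
    show (b : F) ∈ v.toValuationSubring
    exact alga_mem_of_ord_nonneg v (m18rr_B_ord_nonneg x hx b v hv)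
  obtain ⟨P, hP, -⟩ := algad_exists_heightOneSpectrum
    (R := integralClosure (Algebra.adjoin K ({x} : Set F)) F) v hR
  exact ⟨P, hP⟩

include hx in
/-- **The bridge**: the divisor of `dx` at the place of `P` is the exponent of `P` in Mathlib's
different ideal. -/
theorem m18dif_W_eq_multiplicity
    (P : HeightOneSpectrum (integralClosure (Algebra.adjoin K ({x} : Set F)) F)) :
    m18rr_W (K := K) x (Place.ofHeightOneSpectrum (K := K) (F := F) P) =
      (multiplicity P.asIdeal (differentIdeal (Algebra.adjoin K ({x} : Set F))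
        (integralClosure (Algebra.adjoin K ({x} : Set F)) F)) : ℤ) := by
  have hv := m18dif_ord_x_nonneg (K := K) x P
  exact m18dif_W_eq (K := K) (F := F) (A := Algebra.adjoin K ({x} : Set F)) K⟮x⟯ P _
    (fun g hg hg0 => m18rr_W_spec_le x hx _ hv g hg hg0)
    (m18rr_W_spec_attained x hx _ hv)

end main

section place

variable {K F : Type*} [Field K] [Field F] [Algebra K F] [IsAlgClosed K]

/-- A zero of `x - a` is a finite place of `x`. -/
theorem m18dif_ord_nonneg_of_zero (x : F) (v : Place K F) (a : K)
    (h : 0 < v.ord (x - algebraMap K F a)) : 0 ≤ v.ord x := by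
  apply alga_ord_nonneg_of_mem
  have h1 : x - algebraMap K F a ∈ v.toValuationSubring := alga_mem_of_ord_nonneg v h.le
  have h2 : algebraMap K F a ∈ v.toValuationSubring := v.algebraMap_mem' a
  have h3 := v.toValuationSubring.add_mem _ _ h1 h2
  rwa [sub_add_cancel] at h3

/-- **Dedekind's bound for the divisor of `dx`, finite places**:
`ord_v (x - a) - 1 ≤ W_x(v)` at a zero `v` of `x - a`. -/
theorem m18dif_W_ge_fin (x : F) (hx : Transcendental K x) [FiniteDimensional K⟮x⟯ F]
    [Algebra.IsSeparable K⟮x⟯ F] (v : Place K F) (a : K)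
    (h : 0 < v.ord (x - algebraMap K F a)) :
    v.ord (x - algebraMap K F a) - 1 ≤ m18rr_W (K := K) x v := by
  obtain ⟨h1, h2, h3, h4⟩ := m18dif_inst (K := K) x hx
  haveI := h1
  haveI := h2
  haveI := h3
  haveI := h4
  have hv : 0 ≤ v.ord x := m18dif_ord_nonneg_of_zero x v a h
  obtain ⟨P, rfl⟩ := m18dif_exists_prime (K := K) x hx v hv
  have h5 := m18dif_pred_le_different (K := K) (F := F) (A := Algebra.adjoin K ({x} : Set F))
    K⟮x⟯ P (difff_prime x hx a)
  have h6 : algebraMap (Algebra.adjoin K ({x} : Set F)) F (difffGen x a) =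
      x - algebraMap K F a := rfl
  rw [h6] at h5
  rw [m18dif_W_eq_multiplicity (K := K) x hx P]
  exact h5

/-- The divisor of `dx` is effective at the finite places. -/
theorem m18dif_W_nonneg_fin (x : F) (hx : Transcendental K x) [FiniteDimensional K⟮x⟯ F]
    [Algebra.IsSeparable K⟮x⟯ F] (v : Place K F) (hv : 0 ≤ v.ord x) :
    0 ≤ m18rr_W (K := K) x v := by
  rw [m18rr_W_fin x hx v hv]
  exact m18rr_dfin_nonneg x hx v hv

/-- **Dedekind's bound for the divisor of `dx`, poles**: `ord_v x - 1 ≤ W_x(v)` at a pole `v`
of `x` (i.e. `W_x(v) ≥ -e - 1`, `e = -ord_v x`). -/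
theorem m18dif_W_ge_inf (x : F) (hx : Transcendental K x) [FiniteDimensional K⟮x⟯ F]
    [Algebra.IsSeparable K⟮x⟯ F] (v : Place K F) (h : v.ord x < 0) :
    v.ord x - 1 ≤ m18rr_W (K := K) x v := by
  haveI := m18rr_fd_inv (K := K) x
  haveI := m18rr_sep_inv (K := K) x
  have hxi : Transcendental K x⁻¹ := algaz_transcendental_inv hx
  have hpos : 0 < v.ord (x⁻¹ - algebraMap K F 0) := by
    rw [map_zero, sub_zero, Place.ord_inv]
    omega
  have h1 := m18dif_W_ge_fin (K := K) x⁻¹ hxi v 0 hpos
  rw [map_zero, sub_zero, Place.ord_inv] at h1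
  have hvi : 0 ≤ v.ord x⁻¹ := by
    rw [Place.ord_inv]
    omega
  rw [m18rr_W_fin x⁻¹ hxi v hvi] at h1
  rw [m18rr_W_inf x hx v h]
  omega

end place

end Fermat.Agent.M18
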