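import Fermat.Agent.M18.RrMore

/-!
# M18 / RRl-1, part 7: degree sums, the Hurwitz form of `deg W`, principal divisors

* `m18rr_degree_eq_sum`, `m18rr_degree_ge` : the degree of a divisor as a sum;
* `m18rr_dexp x v` : the different exponent at `v` (in the chart `x` at the finite places, in the
  chart `1 / x` at the poles of `x`), `m18rr_dexp_nonneg`, `m18rr_W_eq_dexp`;
* `m18rr_hurwitz` : `deg W + 2 [F : K(x)] = ∑ᶠ v, dexp x v`;
* `m18rr_hurwitz_ge` : `∑_{v ∈ T} c v ≤ deg W + 2 [F : K(x)]` whenever `c ≤ dexp` on `T`;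
* `m18rr_finrank_add_div` : `ℓ(E + div f) = ℓ(E)`;
* `m18rr_principal` : `HasPrincipalDivisors K F` (every `f ≠ 0`, separable or not).
-/

set_option autoImplicit false
set_option linter.style.haveILetI false
set_option linter.unusedSectionVars false
set_option linter.unusedVariables false
set_option linter.deprecated false

noncomputable section

namespace Fermat.Agent.M18

open Fermat.Agent.S20 Fermat.Agent.S24
open AlgebraicCurve IntermediateField Module Polynomial WithZero

section degree

variable {K F : Type*} [Field K] [Field F] [Algebra K F] [IsAlgClosed K]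

/-- the degree of a divisor is the sum of its values (residue degrees are `1`). -/
theorem m18rr_degree_eq_sum (x : F) [FiniteDimensional K⟮x⟯ F] (D : Divisor K F) :
    Divisor.degree D = ∑ v ∈ D.support, D v := by
  simp only [Divisor.degree, Finsupp.liftAddHom_apply, Finsupp.sum]
  refine Finset.sum_congr rfl fun v _ => ?_
  rw [AddMonoidHom.coe_mulRight, m18rr_deg_eq_one x v, Nat.cast_one]
  show D v * 1 = D v
  rw [mul_one]

/-- the degree as a sum over any finite set containing the support. -/
theorem m18rr_degree_eq_sum_of (x : F) [FiniteDimensional K⟮x⟯ F] (D : Divisor K F)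
    (T : Finset (Place K F)) (hT : D.support ⊆ T) : Divisor.degree D = ∑ v ∈ T, D v := by
  rw [m18rr_degree_eq_sum x D]
  refine Finset.sum_subset hT fun v _ hv => ?_
  rwa [Finsupp.notMem_support_iff] at hv

/-- lower bound for the degree. -/
theorem m18rr_degree_ge (x : F) [FiniteDimensional K⟮x⟯ F] (D : Divisor K F)
    (T : Finset (Place K F)) (c : Place K F → ℤ) (hT : ∀ v ∈ T, c v ≤ D v)
    (hnT : ∀ v, v ∉ T → 0 ≤ D v) : ∑ v ∈ T, c v ≤ Divisor.degree D := by
  classical
  rw [m18rr_degree_eq_sum_of x D (T ∪ D.support) Finset.subset_union_right]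
  calc ∑ v ∈ T, c v ≤ ∑ v ∈ T, D v := Finset.sum_le_sum hT
    _ ≤ ∑ v ∈ T ∪ D.support, D v := by
        refine Finset.sum_le_sum_of_subset_of_nonneg Finset.subset_union_left fun v _ hv => ?_
        exact hnT v hv

end degree

section hurwitz

variable {K F : Type*} [Field K] [Field F] [Algebra K F]

/-- the different exponent at `v`: in the chart `x` if `x` is regular at `v`, in the chart
`1 / x` at the poles of `x`. -/
def m18rr_dexp (x : F) (v : Place K F) : ℤ :=
  if 0 ≤ v.ord x then m18rr_dfin (K := K) x v else m18rr_dfin (K := K) x⁻¹ v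

variable [IsAlgClosed K]

theorem m18rr_dexp_nonneg (x : F) (hx : Transcendental K x) [FiniteDimensional K⟮x⟯ F]
    [Algebra.IsSeparable K⟮x⟯ F] (v : Place K F) : 0 ≤ m18rr_dexp (K := K) x v := by
  unfold m18rr_dexp
  split_ifs with h
  · exact m18rr_dfin_nonneg x hx v h
  · haveI := m18rr_fd_inv (K := K) x
    haveI := m18rr_sep_inv (K := K) x
    exact m18rr_dfin_nonneg x⁻¹ (algaz_transcendental_inv hx) v (by rw [Place.ord_inv]; omega)

/-- the divisor of `dx` in terms of different exponents: `W v = dexp v + 2 min (ord_v x) 0`. -/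
theorem m18rr_W_eq_dexp (x : F) (hx : Transcendental K x) [FiniteDimensional K⟮x⟯ F]
    [Algebra.IsSeparable K⟮x⟯ F] (v : Place K F) :
    m18rr_W (K := K) x v = m18rr_dexp (K := K) x v + 2 * min (v.ord x) 0 := by
  unfold m18rr_dexp
  split_ifs with h
  · rw [m18rr_W_fin x hx v h, min_eq_right h]
    ring
  · rw [m18rr_W_inf x hx v (by omega), min_eq_left (by omega)]

/-- the different exponents vanish outside a finite set. -/
theorem m18rr_dexp_finite (x : F) (hx : Transcendental K x) [FiniteDimensional K⟮x⟯ F]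
    [Algebra.IsSeparable K⟮x⟯ F] : (Function.support (m18rr_dexp (K := K) x)).Finite := by
  refine ((m18rr_dfin_finite (K := K) x hx).union (m18rr_finite_poles_gen x hx)).subset ?_
  intro v hv
  rw [Function.mem_support] at hv
  by_cases h : 0 ≤ v.ord x
  · left
    refine ⟨h, ?_⟩
    rwa [m18rr_dexp, if_pos h] at hv
  · right
    show v.ord x < 0
    omega

/-- **Hurwitz form of the degree of the canonical divisor**:
`deg W + 2 [F : K(x)] = ∑ᶠ v, dexp x v`. -/
theorem m18rr_hurwitz (x : F) (hx : Transcendental K x) [FiniteDimensional K⟮x⟯ F]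
    [Algebra.IsSeparable K⟮x⟯ F] :
    Divisor.degree (m18rr_W (K := K) x) + 2 * (finrank K⟮x⟯ F : ℤ)
      = ∑ᶠ v, m18rr_dexp (K := K) x v := by
  classical
  set T : Finset (Place K F) := (m18rr_W (K := K) x).support ∪ (m18rr_dexp_finite x hx).toFinset
    ∪ (m18rr_finite_poles_gen (K := K) x hx).toFinset with hT
  have h1 : Divisor.degree (m18rr_W (K := K) x) = ∑ v ∈ T, m18rr_W (K := K) x v :=
    m18rr_degree_eq_sum_of x _ T (fun v hv =>
      Finset.mem_union_left _ (Finset.mem_union_left _ hv))
  have h2 : ∑ᶠ v, m18rr_dexp (K := K) x v = ∑ v ∈ T, m18rr_dexp (K := K) x v := by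
    refine finsum_eq_sum_of_support_subset _ fun v hv => ?_
    rw [Finset.mem_coe]
    exact Finset.mem_union_left _ (Finset.mem_union_right _
      ((Set.Finite.mem_toFinset _).2 hv))
  have h3 : (finrank K⟮x⟯ F : ℤ) = ∑ v ∈ T, -min (v.ord x) 0 := by
    rw [← m18rr_sum_poles x hx, finsum_mem_eq_finite_toFinset_sum _ (m18rr_finite_poles_gen x hx)]
    have hsub : (m18rr_finite_poles_gen (K := K) x hx).toFinset ⊆ T :=
      Finset.subset_union_right
    rw [← Finset.sum_subset hsub (f := fun v => -min (v.ord x) 0)]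
    · refine Finset.sum_congr rfl fun v hv => ?_
      have : v.ord x < 0 := (m18rr_finite_poles_gen (K := K) x hx).mem_toFinset.1 hv
      rw [min_eq_left this.le]
    · intro v _ hv
      have : ¬ v.ord x < 0 := fun h =>
        hv ((m18rr_finite_poles_gen (K := K) x hx).mem_toFinset.2 h)
      rw [min_eq_right (by omega)]
      rfl
  rw [h1, h2, h3, Finset.mul_sum, ← Finset.sum_add_distrib]
  refine Finset.sum_congr rfl fun v _ => ?_
  rw [m18rr_W_eq_dexp x hx v]
  ring

/-- **Hurwitz inequality**: lower bounds for finitely many different exponents bound `deg W`. -/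
theorem m18rr_hurwitz_ge (x : F) (hx : Transcendental K x) [FiniteDimensional K⟮x⟯ F]
    [Algebra.IsSeparable K⟮x⟯ F] (T : Finset (Place K F)) (c : Place K F → ℤ)
    (hc : ∀ v ∈ T, c v ≤ m18rr_dexp (K := K) x v) :
    ∑ v ∈ T, c v ≤ Divisor.degree (m18rr_W (K := K) x) + 2 * (finrank K⟮x⟯ F : ℤ) := by
  classical
  rw [m18rr_hurwitz x hx]
  set T' : Finset (Place K F) := T ∪ (m18rr_dexp_finite (K := K) x hx).toFinset with hT'
  have h2 : ∑ᶠ v, m18rr_dexp (K := K) x v = ∑ v ∈ T', m18rr_dexp (K := K) x v := by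
    refine finsum_eq_sum_of_support_subset _ fun v hv => ?_
    rw [Finset.mem_coe]
    exact Finset.mem_union_right _ ((Set.Finite.mem_toFinset _).2 hv)
  rw [h2]
  calc ∑ v ∈ T, c v ≤ ∑ v ∈ T, m18rr_dexp (K := K) x v := Finset.sum_le_sum hc
    _ ≤ ∑ v ∈ T', m18rr_dexp (K := K) x v :=
        Finset.sum_le_sum_of_subset_of_nonneg Finset.subset_union_left
          fun v _ _ => m18rr_dexp_nonneg x hx v

end hurwitz

section principal

variable {K F : Type*} [Field K] [Field F] [Algebra K F] [IsAlgClosed K]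

/-- multiplication by `f` maps `L(E + div f)` into `L(E)`. -/
theorem m18rr_mul_mem_rr {E Df : Divisor K F} {f : F} (hf0 : f ≠ 0)
    (hDf : ∀ v : Place K F, Df v = v.ord f) {g : F} (hg : g ∈ riemannRochSpace (E + Df)) :
    f * g ∈ riemannRochSpace E := by
  rw [mem_riemannRochSpace_iff] at hg ⊢
  intro v
  rcases eq_or_ne g 0 with rfl | hg0
  · left; exact mul_zero _
  right
  have h := (hg v).resolve_left hg0
  rw [Finsupp.add_apply, hDf v] at h
  rw [v.ord_mul hf0 hg0]
  omega

/-- `ℓ(E + div f) ≤ ℓ(E)`. -/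
theorem m18rr_finrank_add_div_le (x : F) (hx : Transcendental K x) [FiniteDimensional K⟮x⟯ F]
    [Algebra.IsSeparable K⟮x⟯ F] (E Df : Divisor K F) (f : F) (hf0 : f ≠ 0)
    (hDf : ∀ v : Place K F, Df v = v.ord f) :
    finrank K (riemannRochSpace (E + Df)) ≤ finrank K (riemannRochSpace E) := by
  haveI := m18rr_finite x hx E
  haveI := m18rr_finite x hx (E + Df)
  let φ : ↥(riemannRochSpace (E + Df)) →ₗ[K] ↥(riemannRochSpace E) :=
    (LinearMap.mulLeft K f).restrict (fun g hg => m18rr_mul_mem_rr hf0 hDf hg)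
  refine LinearMap.finrank_le_finrank_of_injective (f := φ) ?_
  intro a b hab
  have h := congrArg Subtype.val hab
  have h' : f * (a : F) = f * (b : F) := h
  exact Subtype.ext (mul_left_cancel₀ hf0 h')

/-- `ℓ(E + div f) = ℓ(E)`. -/
theorem m18rr_finrank_add_div (x : F) (hx : Transcendental K x) [FiniteDimensional K⟮x⟯ F]
    [Algebra.IsSeparable K⟮x⟯ F] (E Df : Divisor K F) (f : F) (hf0 : f ≠ 0)
    (hDf : ∀ v : Place K F, Df v = v.ord f) :
    finrank K (riemannRochSpace (E + Df)) = finrank K (riemannRochSpace E) := by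
  refine le_antisymm (m18rr_finrank_add_div_le x hx E Df f hf0 hDf) ?_
  have h := m18rr_finrank_add_div_le x hx (E + Df) (-Df) f⁻¹ (inv_ne_zero hf0) (fun v => by
    rw [Finsupp.neg_apply, hDf v, Place.ord_inv])
  rwa [add_neg_cancel_right] at h

/-- the divisor of a function has degree `0`. -/
theorem m18rr_degree_div (x : F) (hx : Transcendental K x) [FiniteDimensional K⟮x⟯ F]
    [Algebra.IsSeparable K⟮x⟯ F] (Df : Divisor K F) (f : F) (hf0 : f ≠ 0)
    (hDf : ∀ v : Place K F, Df v = v.ord f) : Divisor.degree Df = 0 := by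
  have h1 := m18rr_main x hx (0 : Divisor K F)
  have h2 := m18rr_main x hx ((0 : Divisor K F) + Df)
  have e1 := m18rr_finrank_add_div x hx 0 Df f hf0 hDf
  have e2 : finrank K (riemannRochSpace (m18rr_W (K := K) x - ((0 : Divisor K F) + Df)))
      = finrank K (riemannRochSpace (m18rr_W (K := K) x - 0)) := by
    have h := m18rr_finrank_add_div x hx (m18rr_W (K := K) x - 0) (-Df) f⁻¹ (inv_ne_zero hf0)
      (fun v => by rw [Finsupp.neg_apply, hDf v, Place.ord_inv])
    rw [← h]
    refine rra_finrank_congr (congrArg riemannRochSpace ?_)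
    abel
  rw [e1, e2, map_add, map_zero] at h2
  rw [map_zero] at h1
  linarith

/-- **principal divisors exist and have degree `0`** (any characteristic, every `f ≠ 0`). -/
theorem m18rr_principal (x : F) (hx : Transcendental K x) [FiniteDimensional K⟮x⟯ F]
    [Algebra.IsSeparable K⟮x⟯ F] : HasPrincipalDivisors K F := by
  classical
  refine ⟨fun f hf => ?_⟩
  have hsupp : (Function.support fun v : Place K F => v.ord f)
      = {v | 0 < v.ord f} ∪ {v | v.ord f < 0} := by
    ext v
    simp only [Function.mem_support, Set.mem_union, Set.mem_setOf_eq]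
    omega
  have hfin : (Function.support fun v : Place K F => v.ord f).Finite := by
    rw [hsupp]
    exact (m18rr_finite_zeros_any x hx f).union (m18rr_finite_poles x hx f)
  refine ⟨Finsupp.ofSupportFinite (fun v => v.ord f) hfin, fun v => rfl, ?_⟩
  exact m18rr_degree_div x hx _ f hf (fun v => rfl)

end principal

section exact

variable {K F : Type*} [Field K] [Field F] [Algebra K F] [IsAlgClosed K]

/-- **exact orders at finitely many finite places**: a function with order exactly `n v` at the
places `v ∈ T` (all finite for `x`) and regular at all other finite places. -/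
theorem m18rr_exists_exact (x : F) (hx : Transcendental K x) [FiniteDimensional K⟮x⟯ F]
    [Algebra.IsSeparable K⟮x⟯ F] (T : Finset (Place K F)) (hT : ∀ v ∈ T, 0 ≤ v.ord x)
    (n : Place K F → ℤ) :
    ∃ f : F, f ≠ 0 ∧ (∀ v ∈ T, v.ord f = n v) ∧
      ∀ v : Place K F, 0 ≤ v.ord x → v ∉ T → 0 ≤ v.ord f := by
  classical
  rcases T.eq_empty_or_nonempty with rfl | hne
  · exact ⟨1, one_ne_zero, fun v hv => absurd hv (Finset.notMem_empty v), fun v _ _ => by simp⟩
  -- the auxiliary divisor
  set D : Divisor K F := ∑ w ∈ T, Finsupp.single w (-(n w) - 1) with hD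
  have hDin : ∀ w ∈ T, D w = -(n w) - 1 := by
    intro w hw
    rw [hD, Finsupp.finset_sum_apply, Finset.sum_eq_single w]
    · exact Finsupp.single_eq_same
    · intro b _ hb
      exact Finsupp.single_eq_of_ne (fun h => hb h.symm)
    · intro h
      exact absurd hw h
  have hDout : ∀ w, w ∉ T → D w = 0 := by
    intro w hw
    rw [hD, Finsupp.finset_sum_apply]
    refine Finset.sum_eq_zero fun b hb => ?_
    exact Finsupp.single_eq_of_ne (fun h => hw (h ▸ hb))
  have hex : ∀ v : Place K F, ∃ f₀ : F, v ∈ T → (f₀ ≠ 0 ∧ v.ord f₀ = n v ∧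
      ∀ w : Place K F, 0 ≤ w.ord x → w ≠ v → -D w ≤ w.ord f₀) := by
    intro v
    by_cases hv : v ∈ T
    · obtain ⟨f₀, h1, h2, h3⟩ := m18rr_exists_fin x hx D v (hT v hv) (n v)
      exact ⟨f₀, fun _ => ⟨h1, h2, h3⟩⟩
    · exact ⟨0, fun h => absurd h hv⟩
  choose fv hfv using hex
  set f : F := ∑ v ∈ T, fv v with hf
  -- the valuation of `f` at a place of `T`
  have hval : ∀ w ∈ T, w.adicValuation f = exp (-(n w)) := by
    intro w hw
    obtain ⟨h1, h2, -⟩ := hfv w hw
    have hw1 : w.adicValuation (fv w) = exp (-(n w)) := by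
      rw [w.adicValuation_eq_exp_neg_ord h1, h2]
    have hrest : w.adicValuation (∑ v ∈ T.erase w, fv v) < exp (-(n w)) := by
      refine Valuation.map_sum_lt _ exp_ne_zero fun v hv => ?_
      obtain ⟨hvw, hvT⟩ := Finset.mem_erase.1 hv
      obtain ⟨g1, -, g3⟩ := hfv v hvT
      have := g3 w (hT w hw) (fun h => hvw h.symm)
      rw [hDin w hw] at this
      rw [w.adicValuation_eq_exp_neg_ord g1, exp_lt_exp]
      omega
    have e : f = fv w + ∑ v ∈ T.erase w, fv v := by
      rw [hf, Finset.add_sum_erase T fv hw]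
    rw [e, Valuation.map_add_eq_of_lt_left _ (by rw [hw1]; exact hrest), hw1]
  have hf0 : f ≠ 0 := by
    obtain ⟨w, hw⟩ := hne
    intro h0
    have := hval w hw
    rw [h0, map_zero] at this
    exact exp_ne_zero this.symm
  refine ⟨f, hf0, fun v hv => ?_, fun v hvx hvT => ?_⟩
  · have := hval v hv
    rw [v.adicValuation_eq_exp_neg_ord hf0, exp_inj] at this
    omega
  · have hle : v.adicValuation f ≤ 1 := by
      rw [hf]
      refine Valuation.map_sum_le _ fun w hw => ?_
      obtain ⟨g1, -, g3⟩ := hfv w hw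
      have := g3 v hvx (fun h => hvT (h ▸ hw))
      rw [hDout v hvT] at this
      rw [v.adicValuation_le_one_iff]
      right
      omega
    exact (v.adicValuation_le_one_iff.1 hle).resolve_left hf0

end exact

end Fermat.Agent.M18

end
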