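import Fermat.Agent.M18.RrDual
import Fermat.Agent.M18.Defs

/-!
# M18 / RRl-1, part 5: the Riemann–Roch theorem (any characteristic)

`K` algebraically closed, `x : F` transcendental with `F / K(x)` finite separable,
`W = m18rr_W x` the divisor of `dx`, `ℓ(D) = finrank K (riemannRochSpace D)`.

* `m18rr_h1`      : `dim F / (Λ(D) + Λ_∞(D)) = ℓ(W - D)`;
* `m18rr_main`    : `ℓ(D) - ℓ(W - D) = deg D + 1 - ℓ(W)`;
* `m18rr_deg_W`   : `deg W = 2 ℓ(W) - 2`;
* `m18rr_riemann` : `deg D + 1 - ℓ(W) ≤ ℓ(D)`;
* `m18rr_Riem`    : the architect's `m18_Riem K F (ℓ(W))`.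
-/

set_option autoImplicit false
set_option linter.style.haveILetI false
set_option linter.unusedSectionVars false
set_option linter.unusedVariables false
set_option linter.deprecated false

noncomputable section

namespace Fermat.Agent.M18

open Fermat.Agent.S20 Fermat.Agent.S24
open AlgebraicCurve IntermediateField Module Polynomial WithZero

section main

variable {K F : Type*} [Field K] [Field F] [Algebra K F] [IsAlgClosed K]

/-- **Serre duality, dimension form**: `h¹(D) = ℓ(W - D)`. -/
theorem m18rr_h1 (x : F) (hx : Transcendental K x) [FiniteDimensional K⟮x⟯ F]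
    [Algebra.IsSeparable K⟮x⟯ F] (D : Divisor K F) :
    finrank K (F ⧸ (rrLam x D ⊔ rrLamInf x D))
      = finrank K (riemannRochSpace (m18rr_W (K := K) x - D)) := by
  classical
  obtain ⟨B, hB⟩ := rrb_exists (K := K) x hx
  obtain ⟨b, hb⟩ := m18rr_lam_isLattice x hx B hB D
  obtain ⟨c, hc⟩ := m18rr_lamInf_isLattice x hx B hB D
  have hβ : (Algebra.traceForm K⟮x⟯ F).Nondegenerate := traceForm_nondegenerate K⟮x⟯ F
  obtain ⟨-, -, -, -, h1, -⟩ := B.nf_duality (Algebra.traceForm K⟮x⟯ F) hβ b c
  rw [← hb, ← hc, m18rr_dualA x hx B hB D, m18rr_dualInf x hx B hB D,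
    rra_finrank_congr (rr_inf_eq x (m18rr_W (K := K) x - D))] at h1
  exact h1.symm

/-- the Euler characteristic in terms of Riemann–Roch spaces. -/
theorem m18rr_chi_eq (x : F) (hx : Transcendental K x) [FiniteDimensional K⟮x⟯ F]
    [Algebra.IsSeparable K⟮x⟯ F] (D : Divisor K F) :
    rrcChi x D = (finrank K (riemannRochSpace D) : ℤ)
      - finrank K (riemannRochSpace (m18rr_W (K := K) x - D)) := by
  unfold rrcChi
  rw [m18rr_h1 x hx D, rra_finrank_congr (rr_inf_eq x D)]

/-- **Riemann–Roch.** -/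
theorem m18rr_main (x : F) (hx : Transcendental K x) [FiniteDimensional K⟮x⟯ F]
    [Algebra.IsSeparable K⟮x⟯ F] (D : Divisor K F) :
    (finrank K (riemannRochSpace D) : ℤ) - finrank K (riemannRochSpace (m18rr_W (K := K) x - D))
      = Divisor.degree D + 1 - finrank K (riemannRochSpace (m18rr_W (K := K) x)) := by
  have h := (m18rr_chi x hx D).2
  rw [m18rr_chi_eq x hx D, m18rr_chi_eq x hx 0, sub_zero, m18rr_finrank_zero x hx] at h
  rw [h]
  push_cast
  ring

/-- the degree of the canonical divisor. -/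
theorem m18rr_deg_W (x : F) (hx : Transcendental K x) [FiniteDimensional K⟮x⟯ F]
    [Algebra.IsSeparable K⟮x⟯ F] :
    Divisor.degree (m18rr_W (K := K) x)
      = 2 * (finrank K (riemannRochSpace (m18rr_W (K := K) x)) : ℤ) - 2 := by
  have h := m18rr_main x hx (m18rr_W (K := K) x)
  rw [sub_self, m18rr_finrank_zero x hx] at h
  push_cast at h
  linarith

/-- **Riemann's inequality.** -/
theorem m18rr_riemann (x : F) (hx : Transcendental K x) [FiniteDimensional K⟮x⟯ F]
    [Algebra.IsSeparable K⟮x⟯ F] (D : Divisor K F) :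
    Divisor.degree D + 1 - finrank K (riemannRochSpace (m18rr_W (K := K) x))
      ≤ (finrank K (riemannRochSpace D) : ℤ) := by
  have h := m18rr_main x hx D
  have h2 : (0 : ℤ) ≤ finrank K (riemannRochSpace (m18rr_W (K := K) x - D)) :=
    Int.natCast_nonneg _
  linarith

/-- a Riemann–Roch space of positive dimension contains a nonzero function. -/
theorem m18rr_exists_ne_zero (x : F) (hx : Transcendental K x) [FiniteDimensional K⟮x⟯ F]
    [Algebra.IsSeparable K⟮x⟯ F] (D : Divisor K F)
    (h : 0 < finrank K (riemannRochSpace D)) : ∃ f : F, f ≠ 0 ∧ f ∈ riemannRochSpace D := by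
  haveI := m18rr_finite x hx D
  have hnt : Nontrivial ↥(riemannRochSpace D) := Module.nontrivial_of_finrank_pos (R := K) h
  obtain ⟨⟨f, hf⟩, hne⟩ := exists_ne (0 : ↥(riemannRochSpace D))
  exact ⟨f, fun h0 => hne (Subtype.ext h0), hf⟩

/-- **Riemann's inequality in the architect's form** (`m18_Riem`), with `g = ℓ(W)`. -/
theorem m18rr_Riem (x : F) (hx : Transcendental K x) [FiniteDimensional K⟮x⟯ F]
    [Algebra.IsSeparable K⟮x⟯ F] :
    m18_Riem K F (finrank K (riemannRochSpace (m18rr_W (K := K) x))) := by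
  intro E hE
  have h := m18rr_riemann x hx E
  exact m18rr_exists_ne_zero x hx E (by omega)

end main

end Fermat.Agent.M18

end
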