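import Fermat.Agent.M18.RrMain

/-!
# M18 / RRl-1, part 6: consequences of Riemann–Roch (any characteristic)

* `m18rr_infinite_places`  : every finite set of places misses a place;
* `m18rr_nonspecial_step`  : `ℓ(D) = 1`, `deg D < g` ⇒ `ℓ(D + Q) = 1` for all but finitely many `Q`;
* `m18rr_nonspecial`       : for `n ≤ g` and a finite set `S` of places there are `n` distinct
  places `Q i ∉ S` with `ℓ(∑ Q i) = 1`;
* `m18rr_const_of_finrank_one` : then `L(∑ Q i)` consists of constants;
* `m18rr_exists_exact`     : functions with exact orders at finitely many finite places, integral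
  at the other finite places;
* `m18rr_degree_eq_sum`, `m18rr_degree_ge` : the degree as a sum (residue degrees are `1`).
-/

set_option autoImplicit false
set_option linter.style.haveILetI false
set_option linter.unusedSectionVars false
set_option linter.unusedVariables false
set_option linter.deprecated false

noncomputable section

namespace Fermat.Agent.M18

open Fermat.Agent.S20 Fermat.Agent.S24
open AlgebraicCurve IntermediateField Module Polynomial WithZero

section mono

variable {K F : Type*} [Field K] [Field F] [Algebra K F]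

theorem m18rr_rr_mono {D D' : Divisor K F} (h : ∀ v, D v ≤ D' v) :
    riemannRochSpace D ≤ riemannRochSpace D' := by
  intro f hf
  rw [mem_riemannRochSpace_iff] at hf ⊢
  intro v
  rcases hf v with h0 | h0
  · exact Or.inl h0
  · right
    have := h v
    omega

end mono

section places

variable {K F : Type*} [Field K] [Field F] [Algebra K F] [IsAlgClosed K]

/-- there is a place over every value of `x`. -/
theorem m18rr_exists_place_over (x : F) (hx : Transcendental K x) [FiniteDimensional K⟮x⟯ F]
    [Algebra.IsSeparable K⟮x⟯ F] (a : K) : ∃ v : Place K F, 0 < v.ord (x - algebraMap K F a) := by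
  by_contra hcon
  push Not at hcon
  have h := m18rr_sum_zeros x hx a
  have hempty : {v : Place K F | 0 < v.ord (x - algebraMap K F a)} = ∅ := by
    ext v
    simp only [Set.mem_ofPred_eq, Set.mem_empty_iff_false, iff_false, not_lt]
    exact hcon v
  rw [hempty, finsum_mem_empty] at h
  have hpos : 0 < Module.finrank K⟮x⟯ F := Module.finrank_pos
  omega

/-- a place lies over at most one value of `x`. -/
theorem m18rr_value_unique (x : F) (v : Place K F) (a b : K)
    (ha : 0 < v.ord (x - algebraMap K F a)) (hb : 0 < v.ord (x - algebraMap K F b)) : a = b := by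
  by_contra hne
  have hab : algebraMap K F (b - a) ≠ 0 := by
    rw [ne_eq, map_eq_zero_iff _ (algebraMap K F).injective, sub_eq_zero]
    exact fun h => hne h.symm
  have h0 : v.ord (algebraMap K F (b - a)) = 0 := alga_ord_algebraMap v _
  have hkey : algebraMap K F (b - a) = (x - algebraMap K F a) + -(x - algebraMap K F b) := by
    rw [map_sub]; ring
  have hxb : x - algebraMap K F b ≠ 0 := ct_ne_zero_of_ord_pos v hb
  have hneg1 : v.ord (-1 : F) = 0 := by
    have := alga_ord_algebraMap v (-1 : K)
    simpa using this
  have h2 : 0 < v.ord (-(x - algebraMap K F b)) := by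
    rw [← neg_one_mul, v.ord_mul (by simp) hxb, hneg1, zero_add]
    exact hb
  have h3 := alga_ord_add_pos v ha h2 (by rw [← hkey]; exact hab)
  rw [← hkey, h0] at h3
  exact lt_irrefl _ h3

/-- every finite set of places misses a place. -/
theorem m18rr_infinite_places (x : F) (hx : Transcendental K x) [FiniteDimensional K⟮x⟯ F]
    [Algebra.IsSeparable K⟮x⟯ F] (T : Set (Place K F)) (hT : T.Finite) :
    ∃ Q : Place K F, Q ∉ T := by
  classical
  by_contra hcon
  push Not at hcon
  choose v hv using fun a : K => m18rr_exists_place_over x hx a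
  have hinj : Function.Injective v := by
    intro a b hab
    have h1 := hv a
    have h2 := hv b
    rw [← hab] at h2
    exact m18rr_value_unique x (v a) a b h1 h2
  haveI : Infinite K := IsAlgClosed.instInfinite
  have hinf : (Set.range v).Infinite := Set.infinite_range_of_injective hinj
  exact hinf (hT.subset fun Q _ => hcon Q)

end places

section nonspecial

variable {K F : Type*} [Field K] [Field F] [Algebra K F] [IsAlgClosed K]

/-- **non-special step**: if `ℓ(D) = 1` and `deg D < g`, then `ℓ(D + Q) = 1` for all places `Q`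
outside a finite set. -/
theorem m18rr_nonspecial_step (x : F) (hx : Transcendental K x) [FiniteDimensional K⟮x⟯ F]
    [Algebra.IsSeparable K⟮x⟯ F] (D : Divisor K F)
    (h1 : finrank K (riemannRochSpace D) = 1)
    (hdeg : Divisor.degree D < (finrank K (riemannRochSpace (m18rr_W (K := K) x)) : ℤ)) :
    ∃ T : Set (Place K F), T.Finite ∧
      ∀ Q : Place K F, Q ∉ T → finrank K (riemannRochSpace (D + Finsupp.single Q (1 : ℤ))) = 1 := by
  classical
  have hRR := m18rr_main x hx D
  rw [h1] at hRR
  have hpos : 0 < finrank K (riemannRochSpace (m18rr_W (K := K) x - D)) := by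
    have : (0 : ℤ) < finrank K (riemannRochSpace (m18rr_W (K := K) x - D)) := by
      push_cast at hRR
      linarith
    exact_mod_cast this
  obtain ⟨ω, hω0, hω⟩ := m18rr_exists_ne_zero x hx _ hpos
  refine ⟨{v | 0 < v.ord ω} ∪ {v | v.ord ω < 0} ∪ ↑(m18rr_W (K := K) x - D).support,
    ((m18rr_finite_zeros_any x hx ω).union (m18rr_finite_poles x hx ω)).union
      (Finset.finite_toSet _), fun Q hQ => ?_⟩
  simp only [Set.mem_union, Set.mem_setOf_eq, Finset.mem_coe, Finsupp.mem_support_iff, not_or,
    not_lt, not_not] at hQ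
  obtain ⟨⟨hQ1, hQ2⟩, hQ3⟩ := hQ
  have hord : Q.ord ω = 0 := le_antisymm hQ1 hQ2
  -- the index of speciality drops
  have hWD : m18rr_W (K := K) x - (D + Finsupp.single Q (1 : ℤ))
      = (m18rr_W (K := K) x - D) - Finsupp.single Q (1 : ℤ) := by abel
  have hle : riemannRochSpace ((m18rr_W (K := K) x - D) - Finsupp.single Q (1 : ℤ))
      ≤ riemannRochSpace (m18rr_W (K := K) x - D) := by
    refine m18rr_rr_mono fun v => ?_
    rw [Finsupp.sub_apply, Finsupp.single_apply]
    split_ifs <;> omega
  have hnot : ω ∉ riemannRochSpace ((m18rr_W (K := K) x - D) - Finsupp.single Q (1 : ℤ)) := by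
    intro h
    rw [mem_riemannRochSpace_iff] at h
    have := (h Q).resolve_left hω0
    rw [Finsupp.sub_apply, Finsupp.single_eq_same, hQ3, hord] at this
    omega
  have hlt : riemannRochSpace ((m18rr_W (K := K) x - D) - Finsupp.single Q (1 : ℤ))
      < riemannRochSpace (m18rr_W (K := K) x - D) :=
    lt_of_le_of_ne hle (fun h => hnot (h ▸ hω))
  haveI := m18rr_finite x hx (m18rr_W (K := K) x - D)
  have hfr := Submodule.finrank_lt_finrank_of_lt hlt
  -- Riemann–Roch for `D + Q`
  have hRR' := m18rr_main x hx (D + Finsupp.single Q (1 : ℤ))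
  rw [hWD, map_add, Divisor.degree_single, m18rr_deg_eq_one x Q] at hRR'
  push_cast at hRR' hRR
  -- lower bound
  haveI := m18rr_finite x hx (D + Finsupp.single Q (1 : ℤ))
  have hge : finrank K (riemannRochSpace D)
      ≤ finrank K (riemannRochSpace (D + Finsupp.single Q (1 : ℤ))) := by
    refine Submodule.finrank_mono (m18rr_rr_mono fun v => ?_)
    rw [Finsupp.add_apply, Finsupp.single_apply]
    split_ifs <;> omega
  rw [h1] at hge
  have hfr' : (finrank K (riemannRochSpace ((m18rr_W (K := K) x - D) - Finsupp.single Q (1 : ℤ))) : ℤ)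
      + 1 ≤ finrank K (riemannRochSpace (m18rr_W (K := K) x - D)) := by
    exact_mod_cast hfr
  have hge' : (1 : ℤ) ≤ finrank K (riemannRochSpace (D + Finsupp.single Q (1 : ℤ))) := by
    exact_mod_cast hge
  have : (finrank K (riemannRochSpace (D + Finsupp.single Q (1 : ℤ))) : ℤ) = 1 := by
    linarith
  exact_mod_cast this

/-- **non-special divisors**: for `n ≤ g = ℓ(W)` and any finite set `S` of places there are `n`
distinct places outside `S` whose sum `E` satisfies `ℓ(E) = 1`. -/
theorem m18rr_nonspecial (x : F) (hx : Transcendental K x) [FiniteDimensional K⟮x⟯ F]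
    [Algebra.IsSeparable K⟮x⟯ F] (S : Set (Place K F)) (hS : S.Finite) (n : ℕ)
    (hn : n ≤ finrank K (riemannRochSpace (m18rr_W (K := K) x))) :
    ∃ Q : Fin n → Place K F, Function.Injective Q ∧ (∀ i, Q i ∉ S) ∧
      finrank K (riemannRochSpace (∑ i, Finsupp.single (Q i) (1 : ℤ))) = 1 := by
  classical
  induction n with
  | zero =>
    refine ⟨Fin.elim0, fun i => i.elim0, fun i => i.elim0, ?_⟩
    rw [Finset.univ_eq_empty, Finset.sum_empty]
    exact m18rr_finrank_zero x hx
  | succ n ih =>
    obtain ⟨Q, hQinj, hQS, hQ1⟩ := ih (Nat.le_of_succ_le hn)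
    have hdegE : Divisor.degree (∑ i, Finsupp.single (Q i) (1 : ℤ)) = n := by
      rw [map_sum]
      simp only [Divisor.degree_single, m18rr_deg_eq_one x, Nat.cast_one, mul_one]
      simp
    obtain ⟨T, hT, hTQ⟩ := m18rr_nonspecial_step x hx _ hQ1 (by rw [hdegE]; exact_mod_cast hn)
    obtain ⟨Q₀, hQ₀⟩ := m18rr_infinite_places x hx (T ∪ S ∪ Set.range Q)
      ((hT.union hS).union (Set.finite_range Q))
    simp only [Set.mem_union, Set.mem_range, not_or, not_exists] at hQ₀
    obtain ⟨⟨hQ₀T, hQ₀S⟩, hQ₀Q⟩ := hQ₀
    refine ⟨Fin.snoc Q Q₀, ?_, ?_, ?_⟩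
    · intro i j hij
      induction i using Fin.lastCases with
      | last =>
        induction j using Fin.lastCases with
        | last => rfl
        | cast j =>
          rw [Fin.snoc_last, Fin.snoc_castSucc] at hij
          exact absurd hij.symm (hQ₀Q j)
      | cast i =>
        induction j using Fin.lastCases with
        | last =>
          rw [Fin.snoc_last, Fin.snoc_castSucc] at hij
          exact absurd hij (hQ₀Q i)
        | cast j =>
          rw [Fin.snoc_castSucc, Fin.snoc_castSucc] at hij
          rw [hQinj hij]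
    · intro i
      induction i using Fin.lastCases with
      | last =>
        rw [Fin.snoc_last]
        exact hQ₀S
      | cast i =>
        rw [Fin.snoc_castSucc]
        exact hQS i
    · have hE : (∑ i : Fin (n + 1), Finsupp.single ((Fin.snoc Q Q₀ : Fin (n + 1) → Place K F) i)
          (1 : ℤ)) = (∑ i, Finsupp.single (Q i) (1 : ℤ)) + Finsupp.single Q₀ (1 : ℤ) := by
        rw [Fin.sum_univ_castSucc]
        simp only [Fin.snoc_castSucc, Fin.snoc_last]
      rw [rra_finrank_congr (congrArg riemannRochSpace hE)]
      exact hTQ Q₀ hQ₀T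

/-- if `D ≥ 0` and `ℓ(D) = 1` then `L(D)` consists of the constants. -/
theorem m18rr_const_of_finrank_one (D : Divisor K F) (hD : ∀ v, 0 ≤ D v)
    (h1 : finrank K (riemannRochSpace D) = 1) (φ : F) (hφ : φ ∈ riemannRochSpace D) :
    ∃ c : K, φ = algebraMap K F c := by
  have hone : (1 : F) ∈ riemannRochSpace D := by
    rw [mem_riemannRochSpace_iff]
    intro v
    right
    rw [Place.ord_one]
    have := hD v
    omega
  have hne : (⟨1, hone⟩ : ↥(riemannRochSpace D)) ≠ 0 := by
    intro h
    have := congrArg Subtype.val h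
    simp at this
  obtain ⟨c, hc⟩ := (finrank_eq_one_iff_of_nonzero' _ hne).1 h1 ⟨φ, hφ⟩
  refine ⟨c, ?_⟩
  have := congrArg Subtype.val hc
  simp only [Submodule.coe_smul] at this
  rw [← this, Algebra.smul_def, mul_one]

end nonspecial

end Fermat.Agent.M18

end
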