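/-
M18 (S18 project), block (SQ6), part 1 (lead), prefix `m18sq6_`.

The Hurwitz count: for a separating element `t` of a function field `F` over an algebraically
closed field `K` (any characteristic), distinct values `a_1, .., a_m ∈ K`, and a finite set `C`
of places containing the poles of `t` and the zeros of the `t - a_i`:

  `(m - 1) * [F : K(t)] - #C ≤ deg (div dt)`.

The local inputs (Dedekind's bound for the different) are hypotheses `hWz`, `hWp`.
-/
import Mathlib
import Fermat.Agent.M18.RrMore
import Fermat.Agent.M18.NrmAsm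

set_option autoImplicit false
set_option linter.unusedSectionVars false
set_option linter.unusedVariables false
set_option linter.style.haveILetI false

noncomputable section

namespace Fermat.Agent.M18

open AlgebraicCurve IntermediateField

section count

variable {K F : Type*} [Field K] [Field F] [Algebra K F] [IsAlgClosed K]

/-- a finsum over a finite set of places as a sum over a larger finset. -/
theorem m18sq6_finsum_eq {α : Type*} (S : Set α) (hS : S.Finite) (f : α → ℤ) (s : Finset α)
    (hs : S ⊆ (s : Set α)) [DecidablePred (· ∈ S)] :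
    ∑ᶠ v ∈ S, f v = ∑ v ∈ s, if v ∈ S then f v else 0 := by
  classical
  rw [finsum_mem_eq_finite_toFinset_sum f hS]
  rw [← Finset.sum_filter]
  apply Finset.sum_congr
  · ext v
    simp only [Set.Finite.mem_toFinset, Finset.mem_filter]
    constructor
    · intro h
      exact ⟨hs h, h⟩
    · intro h
      exact h.2
  · intro _ _
    rfl

open Classical in
/-- **the Hurwitz count.** -/
theorem m18sq6_count (t : F) (ht : Transcendental K t) [FiniteDimensional K⟮t⟯ F]
    [Algebra.IsSeparable K⟮t⟯ F]
    (hWz : ∀ (v : Place K F) (a : K), 0 < v.ord (t - algebraMap K F a) →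
      v.ord (t - algebraMap K F a) - 1 ≤ m18rr_W (K := K) t v)
    (hWp : ∀ v : Place K F, v.ord t < 0 → v.ord t - 1 ≤ m18rr_W (K := K) t v)
    {m : ℕ} (a : Fin m → K) (ha : Function.Injective a)
    (C : Finset (Place K F))
    (hC : ∀ v : Place K F,
      (v.ord t < 0 ∨ ∃ i, 0 < v.ord (t - algebraMap K F (a i))) → v ∈ C) :
    ((m : ℤ) - 1) * (Module.finrank K⟮t⟯ F : ℤ) - (C.card : ℤ)
      ≤ Divisor.degree (m18rr_W (K := K) t) := by
  set W := m18rr_W (K := K) t with hW
  set s : Finset (Place K F) := W.support ∪ C with hs
  have hdeg : Divisor.degree W = ∑ v ∈ s, W v := by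
    rw [m18nrm_degree_apply' W s Finset.subset_union_left]
    apply Finset.sum_congr rfl
    intro v _
    rw [m18rr_deg_eq_one t v, Nat.cast_one, mul_one]
  -- the lower bound function
  set Lp : Place K F → ℤ := fun v => if v ∈ {v : Place K F | v.ord t < 0} then -(-v.ord t) else 0
    with hLp
  set Lz : Fin m → Place K F → ℤ := fun i v =>
    if v ∈ {v : Place K F | 0 < v.ord (t - algebraMap K F (a i))}
      then v.ord (t - algebraMap K F (a i)) else 0 with hLz
  set Lc : Place K F → ℤ := fun v => if v ∈ C then 1 else 0 with hLc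
  have hpoint : ∀ v, Lp v + ∑ i, Lz i v - Lc v ≤ W v := by
    intro v
    by_cases hp : v.ord t < 0
    · -- a pole
      have h1 : Lp v = v.ord t := by
        simp only [hLp, Set.mem_ofPred_eq, if_pos hp, neg_neg]
      have h2 : ∀ i, Lz i v = 0 := by
        intro i
        have hnot : ¬ 0 < v.ord (t - algebraMap K F (a i)) := by
          intro hpos
          have hmem : t - algebraMap K F (a i) ∈ v.toValuationSubring :=
            Fermat.Agent.S24.alga_mem_of_ord_nonneg v hpos.le
          have hmem2 : t ∈ v.toValuationSubring := by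
            have := v.toValuationSubring.add_mem _ _ hmem (v.algebraMap_mem' (a i))
            simpa using this
          have := Fermat.Agent.S24.alga_ord_nonneg_of_mem v hmem2
          omega
        simp only [hLz, Set.mem_ofPred_eq, if_neg hnot]
      have h3 : Lc v = 1 := by
        simp only [hLc, if_pos (hC v (Or.inl hp))]
      rw [h1, Finset.sum_eq_zero (fun i _ => h2 i), h3, add_zero]
      exact hWp v hp
    · -- a finite place
      have hp' : 0 ≤ v.ord t := not_lt.mp hp
      have h1 : Lp v = 0 := by
        simp only [hLp, Set.mem_ofPred_eq, if_neg hp]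
      have hWnn : 0 ≤ W v := by
        rw [hW, m18rr_W_fin t ht v hp']
        exact m18rr_dfin_nonneg t ht v hp'
      by_cases hz : ∃ i, 0 < v.ord (t - algebraMap K F (a i))
      · obtain ⟨i0, hi0⟩ := hz
        have h2 : ∀ i, i ≠ i0 → Lz i v = 0 := by
          intro i hi
          have hnot : ¬ 0 < v.ord (t - algebraMap K F (a i)) := by
            intro hpos
            exact hi (ha (m18rr_value_unique t v (a i) (a i0) hpos hi0))
          simp only [hLz, Set.mem_ofPred_eq, if_neg hnot]
        have h3 : ∑ i, Lz i v = v.ord (t - algebraMap K F (a i0)) := by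
          rw [Finset.sum_eq_single i0 (fun i _ hi => h2 i hi)
            (fun h => absurd (Finset.mem_univ _) h)]
          simp only [hLz, Set.mem_ofPred_eq, if_pos hi0]
        have h4 : Lc v = 1 := by
          simp only [hLc, if_pos (hC v (Or.inr ⟨i0, hi0⟩))]
        rw [h1, h3, h4, zero_add]
        exact hWz v (a i0) hi0
      · have h2 : ∀ i, Lz i v = 0 := by
          intro i
          have hnot : ¬ 0 < v.ord (t - algebraMap K F (a i)) := fun h => hz ⟨i, h⟩
          simp only [hLz, Set.mem_ofPred_eq, if_neg hnot]
        have h3 : 0 ≤ Lc v := by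
          simp only [hLc]
          split_ifs <;> norm_num
        have h3' : Lc v ≤ 1 := by
          simp only [hLc]
          split_ifs <;> norm_num
        rw [h1, Finset.sum_eq_zero (fun i _ => h2 i), zero_add]
        have : 0 - Lc v ≤ 0 := by omega
        exact le_trans this hWnn
  -- the sums
  have hCs : C ⊆ s := Finset.subset_union_right
  have hsumP : ∑ v ∈ s, Lp v = -(Module.finrank K⟮t⟯ F : ℤ) := by
    have hsub : {v : Place K F | v.ord t < 0} ⊆ (s : Set (Place K F)) :=
      fun v hv => hCs (hC v (Or.inl hv))
    have h := m18sq6_finsum_eq {v : Place K F | v.ord t < 0} (m18rr_finite_poles_gen t ht)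
      (fun v => -v.ord t) s hsub
    rw [m18rr_sum_poles t ht] at h
    have h2 : ∑ v ∈ s, Lp v = -∑ v ∈ s, if v ∈ {v : Place K F | v.ord t < 0} then -v.ord t else 0 := by
      rw [← Finset.sum_neg_distrib]
      apply Finset.sum_congr rfl
      intro v _
      simp only [hLp]
      split_ifs <;> simp
    rw [h2, ← h]
  have hsumZ : ∀ i, ∑ v ∈ s, Lz i v = (Module.finrank K⟮t⟯ F : ℤ) := by
    intro i
    have hsub : {v : Place K F | 0 < v.ord (t - algebraMap K F (a i))} ⊆ (s : Set (Place K F)) :=
      fun v hv => hCs (hC v (Or.inr ⟨i, hv⟩))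
    have h := m18sq6_finsum_eq {v : Place K F | 0 < v.ord (t - algebraMap K F (a i))}
      (m18rr_finite_zeros t ht (a i)) (fun v => v.ord (t - algebraMap K F (a i))) s hsub
    rw [m18rr_sum_zeros t ht (a i)] at h
    rw [h]
  have hsumC : ∑ v ∈ s, Lc v = (C.card : ℤ) := by
    simp only [hLc]
    rw [← Finset.sum_filter, Finset.filter_mem_eq_inter, Finset.inter_eq_right.mpr hCs]
    simp
  have htotal : ∑ v ∈ s, (Lp v + ∑ i, Lz i v - Lc v)
      = ((m : ℤ) - 1) * (Module.finrank K⟮t⟯ F : ℤ) - (C.card : ℤ) := by
    rw [Finset.sum_sub_distrib, Finset.sum_add_distrib, hsumP, hsumC, Finset.sum_comm]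
    simp only [hsumZ, Finset.sum_const, Finset.card_univ, Fintype.card_fin, nsmul_eq_mul]
    ring
  rw [hdeg, ← htotal]
  exact Finset.sum_le_sum (fun v _ => hpoint v)

end count

end Fermat.Agent.M18

end
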