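/-
M18 (S18 project), block (SQ6), part 2 (lead), prefix `m18sq6_`.

* `m18sq6_rr_eq_zero_of_deg_neg` : `ℓ(E) = 0` for `deg E < 0`;
* `m18sq6_genus_indep` : `ℓ(W_x) = ℓ(W_y)` for two separating elements `x`, `y`
  (the genus does not depend on the separating element);
* `m18sq6_two_genus_ge` : `(m - 1) [F : K(t)] - #C ≤ 2 ℓ(W_t) - 2` (Hurwitz inequality);
* `m18sq6_genus_ge` : the lower bound `g(N') ≤ ℓ(W_t)` at a level `N'` divisible by `4` or `9`,
  from the Hurwitz inequality, the cusp count and the classical genus formula.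
-/
import Mathlib
import Fermat.Agent.M18.Sq6Count
import Fermat.Agent.M18.RrMain
import Fermat.Agent.M18.ResField

set_option autoImplicit false
set_option linter.unusedSectionVars false
set_option linter.unusedVariables false
set_option linter.style.haveILetI false

noncomputable section

namespace Fermat.Agent.M18

open AlgebraicCurve IntermediateField Module ModularCurve

section genus

variable {K F : Type*} [Field K] [Field F] [Algebra K F] [IsAlgClosed K]

/-- a divisor of negative degree has no nonzero sections. -/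
theorem m18sq6_eq_zero_of_deg_neg [HasPrincipalDivisors K F] (E : Divisor K F)
    (hE : Divisor.degree E < 0) (f : F) (hf : f ∈ riemannRochSpace E) : f = 0 := by
  by_contra hf0
  obtain ⟨D, hD, hD0⟩ := HasPrincipalDivisors.exists_divisor (K := K) f hf0
  rw [mem_riemannRochSpace_iff] at hf
  have hpt : ∀ v, (0 : Divisor K F) v ≤ (D + E) v := by
    intro v
    rcases hf v with h | h
    · exact absurd h hf0
    · rw [Finsupp.add_apply, hD, Finsupp.zero_apply]
      linarith
  have h1 := m18nrm_degree_mono (0 : Divisor K F) (D + E) hpt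
  rw [map_zero, map_add, hD0, zero_add] at h1
  linarith

theorem m18sq6_finrank_eq_zero_of_deg_neg [HasPrincipalDivisors K F] (E : Divisor K F)
    (hE : Divisor.degree E < 0) : finrank K (riemannRochSpace E) = 0 := by
  have hbot : riemannRochSpace E = ⊥ := by
    rw [eq_bot_iff]
    intro f hf
    rw [Submodule.mem_bot]
    exact m18sq6_eq_zero_of_deg_neg E hE f hf
  rw [hbot]
  exact finrank_bot K F

/-- **the genus does not depend on the separating element.** -/
theorem m18sq6_genus_indep [HasPrincipalDivisors K F]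
    (x : F) (hx : Transcendental K x) [FiniteDimensional K⟮x⟯ F] [Algebra.IsSeparable K⟮x⟯ F]
    (y : F) (hy : Transcendental K y) [FiniteDimensional K⟮y⟯ F] [Algebra.IsSeparable K⟮y⟯ F] :
    finrank K (riemannRochSpace (m18rr_W (K := K) x))
      = finrank K (riemannRochSpace (m18rr_W (K := K) y)) := by
  obtain ⟨P, -⟩ := m18rr_exists_pole x hx
  set n : ℤ := max (Divisor.degree (m18rr_W (K := K) x)) (Divisor.degree (m18rr_W (K := K) y)) + 1
    with hn
  set D : Divisor K F := Finsupp.single P n with hD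
  have hdegD : Divisor.degree D = n := by
    rw [hD, Divisor.degree_single, m18rr_deg_eq_one x P, Nat.cast_one, mul_one]
  have h1 : Divisor.degree (m18rr_W (K := K) x - D) < 0 := by
    rw [map_sub, hdegD, hn]
    have := le_max_left (Divisor.degree (m18rr_W (K := K) x))
      (Divisor.degree (m18rr_W (K := K) y))
    linarith
  have h2 : Divisor.degree (m18rr_W (K := K) y - D) < 0 := by
    rw [map_sub, hdegD, hn]
    have := le_max_right (Divisor.degree (m18rr_W (K := K) x))
      (Divisor.degree (m18rr_W (K := K) y))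
    linarith
  have hx' := m18rr_main x hx D
  have hy' := m18rr_main y hy D
  rw [m18sq6_finrank_eq_zero_of_deg_neg _ h1] at hx'
  rw [m18sq6_finrank_eq_zero_of_deg_neg _ h2] at hy'
  have : (finrank K (riemannRochSpace (m18rr_W (K := K) x)) : ℤ)
      = finrank K (riemannRochSpace (m18rr_W (K := K) y)) := by
    linarith
  exact_mod_cast this

/-- **Hurwitz inequality** in terms of the genus `ℓ(W_t)`. -/
theorem m18sq6_two_genus_ge (t : F) (ht : Transcendental K t) [FiniteDimensional K⟮t⟯ F]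
    [Algebra.IsSeparable K⟮t⟯ F]
    (hWz : ∀ (v : Place K F) (a : K), 0 < v.ord (t - algebraMap K F a) →
      v.ord (t - algebraMap K F a) - 1 ≤ m18rr_W (K := K) t v)
    (hWp : ∀ v : Place K F, v.ord t < 0 → v.ord t - 1 ≤ m18rr_W (K := K) t v)
    {m : ℕ} (a : Fin m → K) (ha : Function.Injective a)
    (C : Finset (Place K F))
    (hC : ∀ v : Place K F,
      (v.ord t < 0 ∨ ∃ i, 0 < v.ord (t - algebraMap K F (a i))) → v ∈ C) :
    ((m : ℤ) - 1) * (finrank K⟮t⟯ F : ℤ) - (C.card : ℤ)
      ≤ 2 * (finrank K (riemannRochSpace (m18rr_W (K := K) t)) : ℤ) - 2 := by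
  rw [← m18rr_deg_W t ht]
  exact m18sq6_count t ht hWz hWp a ha C hC

/-- **(SQ6), abstract form**: the genus lower bound at a level `N'` divisible by `4` or `9`:
if `(m - 1) [F : K(t)] * 6 = ψ(N')`, the set `C` has at most `cuspCount N'` elements, and `g`
is the classical genus `genusFormula N'`, then `g ≤ ℓ(W_t)`. -/
theorem m18sq6_genus_ge (t : F) (ht : Transcendental K t) [FiniteDimensional K⟮t⟯ F]
    [Algebra.IsSeparable K⟮t⟯ F]
    (hWz : ∀ (v : Place K F) (a : K), 0 < v.ord (t - algebraMap K F a) →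
      v.ord (t - algebraMap K F a) - 1 ≤ m18rr_W (K := K) t v)
    (hWp : ∀ v : Place K F, v.ord t < 0 → v.ord t - 1 ≤ m18rr_W (K := K) t v)
    {m : ℕ} (a : Fin m → K) (ha : Function.Injective a)
    (C : Finset (Place K F))
    (hC : ∀ v : Place K F,
      (v.ord t < 0 ∨ ∃ i, 0 < v.ord (t - algebraMap K F (a i))) → v ∈ C)
    (N' : ℕ) (hN' : 4 ∣ N' ∨ 9 ∣ N')
    (hd : ((m : ℤ) - 1) * (finrank K⟮t⟯ F : ℤ) * 6 = (dedekindPsi N' : ℤ))
    (hcard : C.card ≤ cuspCount N')
    (g : ℕ) (hg : (g : ℚ) = genusFormula N') :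
    g ≤ finrank K (riemannRochSpace (m18rr_W (K := K) t)) := by
  have h1 := m18sq6_two_genus_ge t ht hWz hWp a ha C hC
  have h2 := m18rf_two_genusFormula_sub_two hN'
  rw [← hg] at h2
  have h3 : ((dedekindPsi N' : ℤ) : ℚ) = (((m : ℤ) - 1) * (finrank K⟮t⟯ F : ℤ) * 6 : ℤ) := by
    rw [hd]
  have h4 : (2 * (g : ℚ) - 2) = ((((m : ℤ) - 1) * (finrank K⟮t⟯ F : ℤ) : ℤ) : ℚ)
      - (cuspCount N' : ℚ) := by
    rw [h2]
    have : (dedekindPsi N' : ℚ) = ((dedekindPsi N' : ℤ) : ℚ) := by push_cast; rfl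
    rw [this, h3]
    push_cast
    ring
  have h5 : (((((m : ℤ) - 1) * (finrank K⟮t⟯ F : ℤ) : ℤ) : ℚ) - (cuspCount N' : ℚ))
      ≤ ((((m : ℤ) - 1) * (finrank K⟮t⟯ F : ℤ) - (C.card : ℤ) : ℤ) : ℚ) := by
    push_cast
    have : (C.card : ℚ) ≤ (cuspCount N' : ℚ) := by exact_mod_cast hcard
    linarith
  have h6 : ((((m : ℤ) - 1) * (finrank K⟮t⟯ F : ℤ) - (C.card : ℤ) : ℤ) : ℚ)
      ≤ ((2 * (finrank K (riemannRochSpace (m18rr_W (K := K) t)) : ℤ) - 2 : ℤ) : ℚ) := by
    exact_mod_cast h1
  have h7 : (g : ℚ) ≤ (finrank K (riemannRochSpace (m18rr_W (K := K) t)) : ℚ) := by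
    have h8 : (2 * (g : ℚ) - 2)
        ≤ 2 * (finrank K (riemannRochSpace (m18rr_W (K := K) t)) : ℚ) - 2 := by
      rw [h4]
      refine le_trans h5 (le_trans h6 ?_)
      push_cast
      exact le_refl _
    linarith
  exact_mod_cast h7

end genus

end Fermat.Agent.M18

end
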