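/-
M18 (S18 project), block (SQ6), part 3 (lead), prefix `m18sq6_`.

Abstract form of the genus lower bound at the auxiliary level: `F` a function field over an
algebraically closed field `K` (any characteristic), `j` separating, `t ∈ F` a "Hauptmodul" with
`j ∈ K(t)`, whose poles and whose fibres over finitely many values `a_i` are exactly the poles
of `j`, with multiplicities `1` (at the poles of `t`) and `μ_i` (over `a_i`).  Then

* `m18sq6_finrank_fib` : `[F : K(j)] = (1 + ∑ μ_i) [F : K(t)]`;
* `m18sq6_main_abs`    : if `[F : K(j)] = ψ(N')`, `(m - 1) * 6 = 1 + ∑ μ_i`, the number of poles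
  of `j` is at most `cuspCount N'`, `4 ∣ N'` or `9 ∣ N'`, and `g = genusFormula N'`, then
  `g ≤ ℓ(W_j)`.
-/
import Mathlib
import Fermat.Agent.M18.Sq6Genus
import Fermat.Agent.M18.RrExtra
import Fermat.Agent.M18.DifPlaceW

set_option autoImplicit false
set_option linter.unusedSectionVars false
set_option linter.unusedVariables false
set_option linter.style.haveILetI false

noncomputable section

namespace Fermat.Agent.M18

open AlgebraicCurve IntermediateField Module ModularCurve

section transport

variable {K F : Type*} [Field K] [Field F] [Algebra K F]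

/-- finiteness over a larger intermediate field. -/
theorem m18sq6_fd_of_le {E₁ E₂ : IntermediateField K F} (h : E₁ ≤ E₂) [FiniteDimensional E₁ F] :
    FiniteDimensional E₂ F := by
  letI : Algebra E₁ E₂ := (IntermediateField.inclusion h).toRingHom.toAlgebra
  haveI : IsScalarTower E₁ E₂ F := IsScalarTower.of_algebraMap_eq (fun x => rfl)
  exact Module.Finite.of_restrictScalars_finite E₁ E₂ F

/-- separability over a larger intermediate field. -/
theorem m18sq6_sep_of_le {E₁ E₂ : IntermediateField K F} (h : E₁ ≤ E₂)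
    [Algebra.IsSeparable E₁ F] : Algebra.IsSeparable E₂ F := by
  letI : Algebra E₁ E₂ := (IntermediateField.inclusion h).toRingHom.toAlgebra
  haveI : IsScalarTower E₁ E₂ F := IsScalarTower.of_algebraMap_eq (fun x => rfl)
  exact Algebra.isSeparable_tower_top_of_isSeparable E₁ E₂ F

theorem m18sq6_adjoin_le {j t : F} (h : j ∈ K⟮t⟯) : K⟮j⟯ ≤ K⟮t⟯ := by
  rw [IntermediateField.adjoin_simple_le_iff]
  exact h

end transport

section fib

variable {K F : Type*} [Field K] [Field F] [Algebra K F] [IsAlgClosed K]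

open Classical in
/-- **the degree of `j` in terms of the degree of the Hauptmodul.** -/
theorem m18sq6_finrank_fib (j : F) (hj : Transcendental K j) [FiniteDimensional K⟮j⟯ F]
    [Algebra.IsSeparable K⟮j⟯ F]
    (t : F) (ht : Transcendental K t) [FiniteDimensional K⟮t⟯ F] [Algebra.IsSeparable K⟮t⟯ F]
    {m : ℕ} (a : Fin m → K) (ha : Function.Injective a) (μ : Fin m → ℕ) (hμ : ∀ i, 0 < μ i)
    (F1 : ∀ v : Place K F, v.ord t < 0 → v.ord j = v.ord t)
    (F2 : ∀ (v : Place K F) (i : Fin m), 0 < v.ord (t - algebraMap K F (a i)) →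
      v.ord j = -(μ i : ℤ) * v.ord (t - algebraMap K F (a i)))
    (F3 : ∀ v : Place K F, v.ord j < 0 →
      (v.ord t < 0 ∨ ∃ i, 0 < v.ord (t - algebraMap K F (a i)))) :
    (finrank K⟮j⟯ F : ℤ) = (1 + ∑ i, (μ i : ℤ)) * (finrank K⟮t⟯ F : ℤ) := by
  set s : Finset (Place K F) :=
    (m18rr_finite_poles_gen j hj).toFinset ∪ (m18rr_finite_poles_gen t ht).toFinset ∪
      Finset.univ.biUnion (fun i => (m18rr_finite_zeros t ht (a i)).toFinset) with hs
  have hsj : {v : Place K F | v.ord j < 0} ⊆ (s : Set (Place K F)) := by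
    intro v hv
    rw [hs]
    simp only [Finset.coe_union, Set.mem_union, Finset.mem_coe, Set.Finite.mem_toFinset]
    exact Or.inl (Or.inl hv)
  have hst : {v : Place K F | v.ord t < 0} ⊆ (s : Set (Place K F)) := by
    intro v hv
    rw [hs]
    simp only [Finset.coe_union, Set.mem_union, Finset.mem_coe, Set.Finite.mem_toFinset]
    exact Or.inl (Or.inr hv)
  have hsz : ∀ i, {v : Place K F | 0 < v.ord (t - algebraMap K F (a i))}
      ⊆ (s : Set (Place K F)) := by
    intro i v hv
    rw [hs]
    simp only [Finset.coe_union, Set.mem_union, Finset.mem_coe, Finset.mem_biUnion,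
      Finset.mem_univ, true_and, Set.Finite.mem_toFinset]
    exact Or.inr ⟨i, hv⟩
  have hJ := m18sq6_finsum_eq {v : Place K F | v.ord j < 0} (m18rr_finite_poles_gen j hj)
    (fun v => -v.ord j) s hsj
  rw [m18rr_sum_poles j hj] at hJ
  have hT := m18sq6_finsum_eq {v : Place K F | v.ord t < 0} (m18rr_finite_poles_gen t ht)
    (fun v => -v.ord t) s hst
  rw [m18rr_sum_poles t ht] at hT
  have hZ : ∀ i, (finrank K⟮t⟯ F : ℤ) = ∑ v ∈ s,
      if v ∈ {v : Place K F | 0 < v.ord (t - algebraMap K F (a i))}
        then v.ord (t - algebraMap K F (a i)) else 0 := by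
    intro i
    have h := m18sq6_finsum_eq {v : Place K F | 0 < v.ord (t - algebraMap K F (a i))}
      (m18rr_finite_zeros t ht (a i)) (fun v => v.ord (t - algebraMap K F (a i))) s (hsz i)
    rw [m18rr_sum_zeros t ht (a i)] at h
    exact h
  -- pointwise identity
  have hpoint : ∀ v : Place K F,
      (if v ∈ {v : Place K F | v.ord j < 0} then -v.ord j else 0)
        = (if v ∈ {v : Place K F | v.ord t < 0} then -v.ord t else 0)
          + ∑ i, (μ i : ℤ) * (if v ∈ {v : Place K F | 0 < v.ord (t - algebraMap K F (a i))}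
              then v.ord (t - algebraMap K F (a i)) else 0) := by
    intro v
    by_cases hp : v.ord t < 0
    · have hjv : v.ord j < 0 := by rw [F1 v hp]; exact hp
      have h2 : ∀ i, ¬ 0 < v.ord (t - algebraMap K F (a i)) := by
        intro i hpos
        have hmem : t - algebraMap K F (a i) ∈ v.toValuationSubring :=
          Fermat.Agent.S24.alga_mem_of_ord_nonneg v hpos.le
        have hmem2 : t ∈ v.toValuationSubring := by
          have := v.toValuationSubring.add_mem _ _ hmem (v.algebraMap_mem' (a i))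
          simpa using this
        have := Fermat.Agent.S24.alga_ord_nonneg_of_mem v hmem2
        omega
      simp only [Set.mem_ofPred_eq, if_pos hjv, if_pos hp, if_neg (h2 _), mul_zero,
        Finset.sum_const_zero, add_zero]
      rw [F1 v hp]
    · by_cases hz : ∃ i, 0 < v.ord (t - algebraMap K F (a i))
      · obtain ⟨i0, hi0⟩ := hz
        have hμ0 : (0 : ℤ) < (μ i0 : ℤ) := by exact_mod_cast hμ i0
        have hjv : v.ord j < 0 := by
          rw [F2 v i0 hi0]
          have := mul_pos hμ0 hi0
          linarith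
        have h2 : ∀ i, i ≠ i0 → ¬ 0 < v.ord (t - algebraMap K F (a i)) := by
          intro i hi hpos
          exact hi (ha (m18rr_value_unique t v (a i) (a i0) hpos hi0))
        simp only [Set.mem_ofPred_eq, if_pos hjv, if_neg hp, zero_add]
        rw [Finset.sum_eq_single i0 (fun i _ hi => by rw [if_neg (h2 i hi), mul_zero])
          (fun h => absurd (Finset.mem_univ _) h), if_pos hi0, F2 v i0 hi0]
        ring
      · have hjv : ¬ v.ord j < 0 := by
          intro h
          rcases F3 v h with h1 | h1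
          · exact hp h1
          · exact hz h1
        have h2 : ∀ i, ¬ 0 < v.ord (t - algebraMap K F (a i)) := fun i h => hz ⟨i, h⟩
        simp only [Set.mem_ofPred_eq, if_neg hjv, if_neg hp, if_neg (h2 _), mul_zero,
          Finset.sum_const_zero, add_zero]
  rw [hJ, Finset.sum_congr rfl (fun v _ => hpoint v), Finset.sum_add_distrib, ← hT,
    Finset.sum_comm]
  have : ∀ i, ∑ v ∈ s, (μ i : ℤ) *
      (if v ∈ {v : Place K F | 0 < v.ord (t - algebraMap K F (a i))}
        then v.ord (t - algebraMap K F (a i)) else 0) = (μ i : ℤ) * (finrank K⟮t⟯ F : ℤ) := by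
    intro i
    rw [← Finset.mul_sum, ← hZ i]
  rw [Finset.sum_congr rfl (fun i _ => this i), ← Finset.sum_mul]
  ring

open Classical in
/-- **(SQ6), abstract form with a Hauptmodul.** -/
theorem m18sq6_main_abs (j : F) (hj : Transcendental K j) [FiniteDimensional K⟮j⟯ F]
    [Algebra.IsSeparable K⟮j⟯ F]
    (t : F) (ht : Transcendental K t) (hjt : j ∈ K⟮t⟯)
    {m : ℕ} (a : Fin m → K) (ha : Function.Injective a) (μ : Fin m → ℕ) (hμ : ∀ i, 0 < μ i)
    (F1 : ∀ v : Place K F, v.ord t < 0 → v.ord j = v.ord t)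
    (F2 : ∀ (v : Place K F) (i : Fin m), 0 < v.ord (t - algebraMap K F (a i)) →
      v.ord j = -(μ i : ℤ) * v.ord (t - algebraMap K F (a i)))
    (F3 : ∀ v : Place K F, v.ord j < 0 →
      (v.ord t < 0 ∨ ∃ i, 0 < v.ord (t - algebraMap K F (a i))))
    (N' : ℕ) (hN' : 4 ∣ N' ∨ 9 ∣ N')
    (hdeg : finrank K⟮j⟯ F = dedekindPsi N')
    (hnum : ((m : ℤ) - 1) * 6 = 1 + ∑ i, (μ i : ℤ))
    (hcusp : Nat.card {v : Place K F // v.ord j < 0} ≤ cuspCount N')
    (g : ℕ) (hg : (g : ℚ) = genusFormula N') :
    g ≤ finrank K (riemannRochSpace (m18rr_W (K := K) j)) := by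
  haveI : FiniteDimensional K⟮t⟯ F := m18sq6_fd_of_le (m18sq6_adjoin_le hjt)
  haveI : Algebra.IsSeparable K⟮t⟯ F := m18sq6_sep_of_le (m18sq6_adjoin_le hjt)
  haveI : HasPrincipalDivisors K F := m18rr_principal j hj
  have hfib := m18sq6_finrank_fib j hj t ht a ha μ hμ F1 F2 F3
  set C : Finset (Place K F) := (m18rr_finite_poles_gen j hj).toFinset with hCdef
  have hC : ∀ v : Place K F,
      (v.ord t < 0 ∨ ∃ i, 0 < v.ord (t - algebraMap K F (a i))) → v ∈ C := by
    intro v hv
    rw [hCdef, Set.Finite.mem_toFinset]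
    show v.ord j < 0
    rcases hv with h | ⟨i, hi⟩
    · rw [F1 v h]; exact h
    · rw [F2 v i hi]
      have hμ0 : (0 : ℤ) < (μ i : ℤ) := by exact_mod_cast hμ i
      have := mul_pos hμ0 hi
      linarith
  have hcard : C.card ≤ cuspCount N' := by
    have h1 : Nat.card {v : Place K F // v.ord j < 0} = C.card := by
      rw [hCdef]
      exact Nat.card_eq_card_finite_toFinset (m18rr_finite_poles_gen j hj)
    rw [← h1]
    exact hcusp
  have hd : ((m : ℤ) - 1) * (finrank K⟮t⟯ F : ℤ) * 6 = (dedekindPsi N' : ℤ) := by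
    rw [← hdeg, hfib, ← hnum]
    ring
  have h1 := m18sq6_genus_ge t ht (m18dif_W_ge_fin t ht) (m18dif_W_ge_inf t ht) a ha C hC N' hN'
    hd hcard g hg
  rw [m18sq6_genus_indep j hj t ht]
  exact h1

end fib

end Fermat.Agent.M18

end
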