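/-
M18 (S18 project), block (SQ6), part 4 (lead), prefix `m18sq6_`.

The genus lower bound at the auxiliary level from a Hauptmodul relation
`j * Den(t) = Num(t)` (`Num` monic, `deg Den < deg Num = 6 (m - 1)`), where the poles of `t` and
the zeros of `t - a_i` (`m` distinct values) are poles of `j`:

* `m18sq6_finrank_le`   : `[F : K(j)] ≤ deg P * [F : K(t)]` if `t` is a root of `P ≠ 0` over `K(j)`;
* `m18sq6_finrank_le_rel` : `[F : K(j)] ≤ deg Num * [F : K(t)]`;
* `m18sq6_main_tow`     : `g(N') ≤ ℓ(W_j)`.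
-/
import Mathlib
import Fermat.Agent.M18.Sq6Fib

set_option autoImplicit false
set_option linter.unusedSectionVars false
set_option linter.unusedVariables false
set_option linter.style.haveILetI false

noncomputable section

namespace Fermat.Agent.M18

open AlgebraicCurve IntermediateField Module ModularCurve Polynomial

section tower

variable {K F : Type*} [Field K] [Field F] [Algebra K F]

theorem m18sq6_finrank_congr {E₁ E₂ : IntermediateField K F} (h : E₁ = E₂) :
    finrank E₁ F = finrank E₂ F := by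
  subst h
  rfl

/-- if `t` is a root of a nonzero polynomial `P` over `K(j)` and `j ∈ K(t)`, then
`[F : K(j)] ≤ deg P * [F : K(t)]`. -/
theorem m18sq6_finrank_le (j t : F) (hjt : j ∈ K⟮t⟯) [FiniteDimensional K⟮j⟯ F]
    (P : Polynomial K⟮j⟯) (hP0 : P ≠ 0) (hPt : aeval t P = 0) :
    finrank K⟮j⟯ F ≤ P.natDegree * finrank K⟮t⟯ F := by
  have hint : IsIntegral K⟮j⟯ t := (isAlgebraic_iff_isIntegral).mp ⟨P, hP0, hPt⟩
  have h1 : finrank K⟮j⟯ (K⟮j⟯⟮t⟯) = (minpoly K⟮j⟯ t).natDegree :=
    IntermediateField.adjoin.finrank hint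
  have h2 : (minpoly K⟮j⟯ t).natDegree ≤ P.natDegree :=
    Polynomial.natDegree_le_of_dvd (minpoly.dvd K⟮j⟯ t hPt) hP0
  have h3 : finrank K⟮j⟯ (K⟮j⟯⟮t⟯) * finrank (K⟮j⟯⟮t⟯) F = finrank K⟮j⟯ F :=
    Module.finrank_mul_finrank K⟮j⟯ (K⟮j⟯⟮t⟯) F
  have h4 : (K⟮j⟯⟮t⟯).restrictScalars K = K⟮t⟯ := by
    rw [IntermediateField.adjoin_adjoin_left]
    apply le_antisymm
    · rw [IntermediateField.adjoin_le_iff]
      rintro x (hx | hx)
      · rw [Set.mem_singleton_iff] at hx
        rw [hx]
        exact hjt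
      · rw [Set.mem_singleton_iff] at hx
        rw [hx]
        exact IntermediateField.mem_adjoin_simple_self K t
    · apply IntermediateField.adjoin.mono
      intro x hx
      exact Or.inr hx
  have h5 : finrank (K⟮j⟯⟮t⟯) F = finrank K⟮t⟯ F := by
    rw [← m18sq6_finrank_congr h4]
    rfl
  rw [← h3, h1, h5]
  exact Nat.mul_le_mul_right _ h2

/-- `j ∈ K(t)` from a relation `j * Den(t) = Num(t)`. -/
theorem m18sq6_mem_of_rel (j t : F) (ht : Transcendental K t) (Num Den : K[X]) (hD : Den ≠ 0)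
    (hrel : j * aeval t Den = aeval t Num) : j ∈ K⟮t⟯ := by
  have hDt : aeval t Den ≠ 0 := fun h => hD ((transcendental_iff.mp ht) Den h)
  have h1 : j = aeval t Num / aeval t Den := by
    rw [eq_div_iff hDt]
    exact hrel
  have hmem : ∀ P : K[X], aeval t P ∈ K⟮t⟯ := by
    intro P
    induction P using Polynomial.induction_on' with
    | add p q hp hq =>
      rw [map_add]
      exact add_mem hp hq
    | monomial n c =>
      rw [Polynomial.aeval_monomial]
      exact mul_mem (K⟮t⟯.algebraMap_mem c)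
        (pow_mem (IntermediateField.mem_adjoin_simple_self K t) n)
  rw [h1]
  exact div_mem (hmem Num) (hmem Den)

/-- `[F : K(j)] ≤ deg Num * [F : K(t)]` from a relation `j * Den(t) = Num(t)`. -/
theorem m18sq6_finrank_le_rel (j t : F) (ht : Transcendental K t) [FiniteDimensional K⟮j⟯ F]
    (Num Den : K[X]) (hN : Num.Monic) (hD : Den ≠ 0) (hdeg : Den.natDegree < Num.natDegree)
    (hrel : j * aeval t Den = aeval t Num) :
    finrank K⟮j⟯ F ≤ Num.natDegree * finrank K⟮t⟯ F := by
  have hjt := m18sq6_mem_of_rel j t ht Num Den hD hrel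
  set jj : K⟮j⟯ := ⟨j, IntermediateField.mem_adjoin_simple_self K j⟩ with hjj
  set P : Polynomial K⟮j⟯ := Num.map (algebraMap K K⟮j⟯) - C jj * Den.map (algebraMap K K⟮j⟯)
    with hP
  have hNm : (Num.map (algebraMap K K⟮j⟯)).Monic := hN.map _
  have hdegN' : (Num.map (algebraMap K K⟮j⟯)).natDegree = Num.natDegree := by
    rw [Polynomial.natDegree_map]
  have hdegD : (C jj * Den.map (algebraMap K K⟮j⟯)).degree
      < (Num.map (algebraMap K K⟮j⟯)).degree := by
    calc (C jj * Den.map (algebraMap K K⟮j⟯)).degree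
        ≤ (Den.map (algebraMap K K⟮j⟯)).degree := by
          rw [Polynomial.degree_mul]
          calc (C jj).degree + (Den.map (algebraMap K K⟮j⟯)).degree
              ≤ 0 + (Den.map (algebraMap K K⟮j⟯)).degree :=
                add_le_add_left Polynomial.degree_C_le _
            _ = _ := zero_add _
      _ = Den.degree := Polynomial.degree_map _ _
      _ < Num.degree := Polynomial.degree_lt_degree hdeg
      _ = (Num.map (algebraMap K K⟮j⟯)).degree := (Polynomial.degree_map _ _).symm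
  have hlt : (C jj * Den.map (algebraMap K K⟮j⟯)).natDegree
      < (Num.map (algebraMap K K⟮j⟯)).natDegree := by
    by_cases h0 : C jj * Den.map (algebraMap K K⟮j⟯) = 0
    · rw [h0, Polynomial.natDegree_zero, hdegN']
      exact lt_of_le_of_lt (Nat.zero_le _) hdeg
    · exact Polynomial.natDegree_lt_natDegree h0 hdegD
  have hPdeg : P.natDegree = Num.natDegree := by
    rw [hP, Polynomial.natDegree_sub_eq_left_of_natDegree_lt hlt, hdegN']
  have hP0 : P ≠ 0 := by
    intro h0
    have hm : (Num.map (algebraMap K K⟮j⟯)) = C jj * Den.map (algebraMap K K⟮j⟯) :=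
      sub_eq_zero.mp (hP ▸ h0)
    rw [hm] at hdegD
    exact lt_irrefl _ hdegD
  have hPt : aeval t P = 0 := by
    rw [hP, map_sub, map_mul, Polynomial.aeval_map_algebraMap, Polynomial.aeval_map_algebraMap,
      Polynomial.aeval_C, ← hrel]
    show j * aeval t Den - j * aeval t Den = 0
    exact sub_self _
  have := m18sq6_finrank_le j t hjt P hP0 hPt
  rwa [hPdeg] at this

end tower

section main

variable {K F : Type*} [Field K] [Field F] [Algebra K F] [IsAlgClosed K]

open Classical in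
/-- **(SQ6), abstract form with a Hauptmodul relation.** -/
theorem m18sq6_main_tow (j : F) (hj : Transcendental K j) [FiniteDimensional K⟮j⟯ F]
    [Algebra.IsSeparable K⟮j⟯ F]
    (t : F) (ht : Transcendental K t)
    (Num Den : K[X]) (hN : Num.Monic) (hD : Den ≠ 0) (hdegND : Den.natDegree < Num.natDegree)
    (hrel : j * aeval t Den = aeval t Num)
    {m : ℕ} (hm : 1 ≤ m) (a : Fin m → K) (ha : Function.Injective a)
    (hfib : ∀ v : Place K F,
      (v.ord t < 0 ∨ ∃ i, 0 < v.ord (t - algebraMap K F (a i))) → v.ord j < 0)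
    (N' : ℕ) (hN' : 4 ∣ N' ∨ 9 ∣ N')
    (hdeg : finrank K⟮j⟯ F = dedekindPsi N')
    (hnum : Num.natDegree = (m - 1) * 6)
    (hcusp : Nat.card {v : Place K F // v.ord j < 0} ≤ cuspCount N')
    (g : ℕ) (hg : (g : ℚ) = genusFormula N') :
    g ≤ finrank K (riemannRochSpace (m18rr_W (K := K) j)) := by
  have hjt := m18sq6_mem_of_rel j t ht Num Den hD hrel
  haveI : FiniteDimensional K⟮t⟯ F := m18sq6_fd_of_le (m18sq6_adjoin_le hjt)
  haveI : Algebra.IsSeparable K⟮t⟯ F := m18sq6_sep_of_le (m18sq6_adjoin_le hjt)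
  haveI : HasPrincipalDivisors K F := m18rr_principal j hj
  set C : Finset (Place K F) := (m18rr_finite_poles_gen j hj).toFinset with hCdef
  have hC : ∀ v : Place K F,
      (v.ord t < 0 ∨ ∃ i, 0 < v.ord (t - algebraMap K F (a i))) → v ∈ C := by
    intro v hv
    rw [hCdef, Set.Finite.mem_toFinset]
    exact hfib v hv
  have hcard : C.card ≤ cuspCount N' := by
    have h1 : Nat.card {v : Place K F // v.ord j < 0} = C.card := by
      rw [hCdef]
      exact Nat.card_eq_card_finite_toFinset (m18rr_finite_poles_gen j hj)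
    rw [← h1]
    exact hcusp
  have hle := m18sq6_finrank_le_rel j t ht Num Den hN hD hdegND hrel
  rw [hdeg, hnum] at hle
  have h1 := m18sq6_two_genus_ge t ht (m18dif_W_ge_fin t ht) (m18dif_W_ge_inf t ht) a ha C hC
  have h2 := m18rf_two_genusFormula_sub_two hN'
  rw [← hg] at h2
  rw [m18sq6_genus_indep j hj t ht]
  -- arithmetic
  have hm' : ((m - 1 : ℕ) : ℤ) = (m : ℤ) - 1 := by
    rw [Nat.cast_sub hm]
    simp
  have h3 : (dedekindPsi N' : ℤ) ≤ ((m : ℤ) - 1) * 6 * (finrank K⟮t⟯ F : ℤ) := by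
    have : ((dedekindPsi N' : ℕ) : ℤ) ≤ (((m - 1) * 6 * finrank K⟮t⟯ F : ℕ) : ℤ) := by
      exact_mod_cast hle
    rw [Nat.cast_mul, Nat.cast_mul, hm'] at this
    simpa using this
  have h4 : (2 * (g : ℚ) - 2) ≤ 2 * (finrank K (riemannRochSpace (m18rr_W (K := K) t)) : ℚ) - 2 := by
    rw [h2]
    have h5 : ((dedekindPsi N' : ℤ) : ℚ) ≤ ((((m : ℤ) - 1) * 6 * (finrank K⟮t⟯ F : ℤ) : ℤ) : ℚ) := by
      exact_mod_cast h3
    have h6 : ((((m : ℤ) - 1) * (finrank K⟮t⟯ F : ℤ) - (C.card : ℤ) : ℤ) : ℚ)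
        ≤ ((2 * (finrank K (riemannRochSpace (m18rr_W (K := K) t)) : ℤ) - 2 : ℤ) : ℚ) := by
      exact_mod_cast h1
    have h7 : (C.card : ℚ) ≤ (cuspCount N' : ℚ) := by exact_mod_cast hcard
    push_cast at h5 h6
    have h8 : (dedekindPsi N' : ℚ) = ((dedekindPsi N' : ℤ) : ℚ) := by push_cast; rfl
    rw [h8]
    linarith
  have h9 : (g : ℚ) ≤ (finrank K (riemannRochSpace (m18rr_W (K := K) t)) : ℚ) := by linarith
  exact_mod_cast h9

end main

end Fermat.Agent.M18

end
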