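import Fermat.Agent.M18.SqRed

/-!
# M18 / (SQ), part 5: the degrees `[F_M : ℚ̄(j)] = ψ(M) = [F~_M : k(j̃)]` for every level `M`
prime to `ℓ`.

* `m18sq_finrank_bar`  : `finrank ℚ̄(j) F_M = ψ(M)`;
* `m18sq_nf_int`       : the normal form of a Gauss-integral element has an integral constant;
* `m18sq_redL_nf`      : the reduction of an element in normal form;
* `m18sq_finrank_res`  : `F~_M` is finite over `k(j̃)` of degree `ψ(M)`.
-/

set_option autoImplicit false
set_option synthInstance.maxHeartbeats 400000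

noncomputable section

open HahnSeries IntermediateField ModularCurve Polynomial

namespace Fermat.Agent.M18

open Fermat.Agent.M28 Fermat.Agent.S24

variable {A : ValuationSubring m18v_K} {M : ℕ} [NeZero M]

/-- **(DEG, characteristic 0)** `[F_M : ℚ̄(j)] = ψ(M)` for every level `M` prime to `ℓ`. -/
theorem m18sq_finrank_bar {ℓ : ℕ} [Fact ℓ.Prime] (hA : A.LiesOverPrime ℓ) (hℓM : ¬ ℓ ∣ M) :
    Module.finrank ↥(s24K⟮s24j M⟯) (s24F M) = dedekindPsi M := by
  obtain ⟨E, hEF, hEk, hE⟩ := m18sq_family hA M hℓM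
  have := deg_finiteDimensional M
  have hli := m18sq_indep E hE hEF
  apply le_antisymm
  · have h1 := deg_finrank_le M
    have h2 := mg_card M
    rw [Nat.card_eq_fintype_card] at h2
    rw [h2] at h1
    exact h1
  · have := hli.fintype_card_le_finrank
    simpa using this

/-- the normal form of a Gauss-integral element has an integral constant. -/
theorem m18sq_nf_int (E : Fin (dedekindPsi M) → LaurentSeries A)
    (hE : LinearIndependent ↥(IntermediateField.adjoin (m18v_k A) {jqModC (m18v_k A)})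
      (fun i => m18v_redq A (E i)))
    (hEF : ∀ i, m18v_incl A (E i) ∈ modularFunctionFieldBar M)
    {x : s24F M} (hx : x ≠ 0) (hI : m18v_Int A M x) :
    ∃ (c : A) (s' : Polynomial A) (r' : Fin (dedekindPsi M) → Polynomial A), c ≠ 0 ∧
      s'.map (IsLocalRing.residue A) ≠ 0 ∧ (∃ i, (r' i).map (IsLocalRing.residue A) ≠ 0) ∧
      (x : LaurentSeries m18v_K) * m18v_incl A (m18sq_evA A s') =
        m18v_incl A (HahnSeries.single 0 c * ∑ i, m18sq_evA A (r' i) * E i) := by
  obtain ⟨c, s', r', hc, hs, hr, h⟩ := m18sq_nf E hE hEF hx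
  obtain ⟨X, w', hw', hX⟩ := hI
  have hU := m18sq_key E hE r' hr
  have hcA : c ∈ A := by
    refine m18v_mem_of_smul (X := (∑ i, m18sq_evA A (r' i) * E i) * w')
      (Y := X * m18sq_evA A s') ?_ ?_
    · rw [map_mul]
      exact mul_ne_zero hU hw'.2.2
    · rw [map_mul, map_mul, ← hX, ← mul_assoc, ← h]
      ring
  refine ⟨⟨c, hcA⟩, s', r', ?_, hs, hr, ?_⟩
  · intro h0
    exact hc (congrArg Subtype.val h0)
  · rw [map_mul, m18v_incl_single]
    exact h

theorem m18sq_G_evA {s' : Polynomial A} (hs : s'.map (IsLocalRing.residue A) ≠ 0) :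
    m18v_G A M (m18sq_evA A s') := by
  refine ⟨?_, ?_, ?_⟩
  · rw [m18sq_incl_evA]
    exact m18sq_evL_mem M _
  · rw [m18sq_redq_evA]
    exact m18sq_evk_mem M _
  · rw [m18sq_redq_evA]
    exact m18sq_evk_ne_zero hs

/-- the reduction of an element in normal form. -/
theorem m18sq_redL_nf (E : Fin (dedekindPsi M) → LaurentSeries A)
    {x : s24F M} {c : A} {s' : Polynomial A} {r' : Fin (dedekindPsi M) → Polynomial A}
    (hs : s'.map (IsLocalRing.residue A) ≠ 0)
    (h : (x : LaurentSeries m18v_K) * m18v_incl A (m18sq_evA A s') =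
        m18v_incl A (HahnSeries.single 0 c * ∑ i, m18sq_evA A (r' i) * E i)) :
    m18v_redL A M x * m18sq_evk A (s'.map (IsLocalRing.residue A)) =
      HahnSeries.single 0 (IsLocalRing.residue A c) *
        ∑ i, m18sq_evk A ((r' i).map (IsLocalRing.residue A)) * m18v_redq A (E i) := by
  have h1 := m18v_redL_mul (m18sq_G_evA (M := M) hs) h
  rw [m18sq_redq_evA, map_mul, m18v_redq_single, map_sum] at h1
  rw [h1]
  congr 1
  refine Finset.sum_congr rfl fun i _ => ?_
  rw [map_mul, m18sq_redq_evA]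

/-- `j̃` as an element of `F~_M`. -/
def m18sq_jt (A : ValuationSubring m18v_K) (M : ℕ) [NeZero M] : m18v_Ft A M :=
  ⟨jqModC (m18v_k A), jqModC_mem_full (m18v_k A) M⟩

theorem m18sq_coe_aeval_jt (P : Polynomial (m18v_k A)) :
    ((Polynomial.aeval (m18sq_jt A M) P : m18v_Ft A M) : LaurentSeries (m18v_k A)) =
      m18sq_evk A P := by
  rw [m18sq_evk_apply]
  exact (Polynomial.aeval_algHom_apply (modularFunctionFieldFullC (m18v_k A) M).val
    (m18sq_jt A M) P).symm

theorem m18sq_aeval_jt_mem (P : Polynomial (m18v_k A)) :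
    (Polynomial.aeval (m18sq_jt A M) P : m18v_Ft A M) ∈ (m18v_k A)⟮m18sq_jt A M⟯ := by
  induction P using Polynomial.induction_on' with
  | add p q hp hq => rw [map_add]; exact add_mem hp hq
  | monomial n a =>
    rw [Polynomial.aeval_monomial]
    exact mul_mem (IntermediateField.algebraMap_mem _ a)
      (pow_mem (IntermediateField.mem_adjoin_simple_self _ _) n)

theorem m18sq_coe_mem_simple {g : m18v_Ft A M} (hg : g ∈ (m18v_k A)⟮m18sq_jt A M⟯) :
    (g : LaurentSeries (m18v_k A)) ∈
      IntermediateField.adjoin (m18v_k A) {jqModC (m18v_k A)} := by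
  obtain ⟨r, s, hq⟩ := (IntermediateField.mem_adjoin_simple_iff (m18v_k A) g).mp hg
  rw [hq]
  show ((Polynomial.aeval (m18sq_jt A M) r : m18v_Ft A M) : LaurentSeries (m18v_k A)) /
    ((Polynomial.aeval (m18sq_jt A M) s : m18v_Ft A M) : LaurentSeries (m18v_k A)) ∈ _
  rw [m18sq_coe_aeval_jt, m18sq_coe_aeval_jt]
  exact div_mem (m18sq_evk_mem_simple _) (m18sq_evk_mem_simple _)

/-- the element of `F~` attached to a member of the family. -/
def m18sq_et {n : ℕ} (E : Fin n → LaurentSeries A)
    (hEk : ∀ i, m18v_redq A (E i) ∈ modularFunctionFieldFullC (m18v_k A) M) (i : Fin n) :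
    m18v_Ft A M :=
  ⟨m18v_redq A (E i), hEk i⟩

/-- the reductions of the family are linearly independent over `k(j̃)` inside `F~_M`. -/
theorem m18sq_indep_res {n : ℕ} (E : Fin n → LaurentSeries A)
    (hE : LinearIndependent ↥(IntermediateField.adjoin (m18v_k A) {jqModC (m18v_k A)})
      (fun i => m18v_redq A (E i)))
    (hEk : ∀ i, m18v_redq A (E i) ∈ modularFunctionFieldFullC (m18v_k A) M) :
    LinearIndependent ↥((m18v_k A)⟮m18sq_jt A M⟯) (m18sq_et E hEk) := by
  rw [Fintype.linearIndependent_iff]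
  intro g hg
  have h1 : ∑ i, (⟨((g i : m18v_Ft A M) : LaurentSeries (m18v_k A)),
      m18sq_coe_mem_simple (g i).2⟩ :
        ↥(IntermediateField.adjoin (m18v_k A) {jqModC (m18v_k A)})) • m18v_redq A (E i) = 0 := by
    have h2 : ((∑ i, g i • m18sq_et E hEk i : m18v_Ft A M) : LaurentSeries (m18v_k A)) = 0 := by
      rw [hg]; rfl
    rw [AddSubmonoidClass.coe_finsetSum] at h2
    rw [← h2]
    rfl
  have h3 := (Fintype.linearIndependent_iff.mp hE) _ h1
  intro i
  have h4 := congrArg Subtype.val (h3 i)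
  exact Subtype.ext (Subtype.ext h4)

/-- a generic span criterion. -/
theorem m18sq_span_aux {k F : Type*} [Field k] [Field F] [Algebra k F]
    (K0 : IntermediateField k F) {n : ℕ} (e : Fin n → F) (y s a : F) (p : Fin n → F)
    (hs : s ≠ 0) (hsK : s ∈ K0) (haK : a ∈ K0) (hpK : ∀ i, p i ∈ K0)
    (h : y * s = a * ∑ i, p i * e i) : y ∈ Submodule.span ↥K0 (Set.range e) := by
  have h4 : y = ∑ i, (a * p i / s) * e i := by
    have h5 : y = (a * ∑ i, p i * e i) / s := by
      rw [eq_div_iff hs]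
      exact h
    rw [h5, Finset.mul_sum, Finset.sum_div]
    refine Finset.sum_congr rfl fun i _ => ?_
    ring
  rw [h4]
  refine Submodule.sum_mem _ fun i _ => ?_
  have hmem : a * p i / s ∈ K0 := div_mem (mul_mem haK (hpK i)) hsK
  exact Submodule.smul_mem _ (⟨_, hmem⟩ : ↥K0) (Submodule.subset_span ⟨i, rfl⟩)

set_option maxHeartbeats 2000000 in
/-- every element of `F~_M` is a `k(j̃)`-combination of the reductions of the family. -/
theorem m18sq_mem_span_res (hdec : m18sq_Dec A M) (E : Fin (dedekindPsi M) → LaurentSeries A)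
    (hE : LinearIndependent ↥(IntermediateField.adjoin (m18v_k A) {jqModC (m18v_k A)})
      (fun i => m18v_redq A (E i)))
    (hEF : ∀ i, m18v_incl A (E i) ∈ modularFunctionFieldBar M)
    (hEk : ∀ i, m18v_redq A (E i) ∈ modularFunctionFieldFullC (m18v_k A) M)
    (y : m18v_Ft A M) :
    y ∈ Submodule.span ↥((m18v_k A)⟮m18sq_jt A M⟯) (Set.range (m18sq_et E hEk)) := by
  obtain ⟨x, hxI, hxy⟩ := m18sq_redL_surjective hdec y.2
  by_cases hx : x = 0
  · have hy : y = 0 := by
      apply Subtype.ext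
      rw [← hxy, hx, m18v_redL_zero]
      rfl
    rw [hy]
    exact Submodule.zero_mem _
  obtain ⟨c, s', r', hc, hs, hr, h⟩ := m18sq_nf_int E hE hEF hx hxI
  have h1 := m18sq_redL_nf E hs h
  rw [hxy] at h1
  have hs0 : (Polynomial.aeval (m18sq_jt A M) (s'.map (IsLocalRing.residue A)) : m18v_Ft A M)
      ≠ 0 := by
    intro h0
    have := congrArg Subtype.val h0
    rw [m18sq_coe_aeval_jt] at this
    exact m18sq_evk_ne_zero hs this
  have h2 : y * Polynomial.aeval (m18sq_jt A M) (s'.map (IsLocalRing.residue A)) =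
      algebraMap (m18v_k A) (m18v_Ft A M) (IsLocalRing.residue A c) *
        ∑ i, Polynomial.aeval (m18sq_jt A M) ((r' i).map (IsLocalRing.residue A)) *
          m18sq_et E hEk i := by
    apply Subtype.ext
    show (y : LaurentSeries (m18v_k A)) *
      ((Polynomial.aeval (m18sq_jt A M) (s'.map (IsLocalRing.residue A)) : m18v_Ft A M) :
        LaurentSeries (m18v_k A)) =
      ((algebraMap (m18v_k A) (m18v_Ft A M) (IsLocalRing.residue A c) : m18v_Ft A M) :
        LaurentSeries (m18v_k A)) *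
      ((∑ i, Polynomial.aeval (m18sq_jt A M) ((r' i).map (IsLocalRing.residue A)) *
          m18sq_et E hEk i : m18v_Ft A M) : LaurentSeries (m18v_k A))
    rw [m18sq_coe_aeval_jt, h1, AddSubmonoidClass.coe_finsetSum]
    congr 1
    · rw [← ModularCurve.algebraMap_laurentSeries_eq_single]
      rfl
    · refine Finset.sum_congr rfl fun i _ => ?_
      show _ = ((Polynomial.aeval (m18sq_jt A M) ((r' i).map (IsLocalRing.residue A)) :
        m18v_Ft A M) : LaurentSeries (m18v_k A)) * m18v_redq A (E i)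
      rw [m18sq_coe_aeval_jt]
  exact m18sq_span_aux ((m18v_k A)⟮m18sq_jt A M⟯) (m18sq_et E hEk) y _ _ _ hs0
    (m18sq_aeval_jt_mem _) (IntermediateField.algebraMap_mem _ _)
    (fun i => m18sq_aeval_jt_mem _) h2

/-- the reductions of the family form a basis of `F~_M` over `k(j̃)`. -/
def m18sq_basis_res (hdec : m18sq_Dec A M) (E : Fin (dedekindPsi M) → LaurentSeries A)
    (hE : LinearIndependent ↥(IntermediateField.adjoin (m18v_k A) {jqModC (m18v_k A)})
      (fun i => m18v_redq A (E i)))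
    (hEF : ∀ i, m18v_incl A (E i) ∈ modularFunctionFieldBar M)
    (hEk : ∀ i, m18v_redq A (E i) ∈ modularFunctionFieldFullC (m18v_k A) M) :
    Module.Basis (Fin (dedekindPsi M)) ↥((m18v_k A)⟮m18sq_jt A M⟯) (m18v_Ft A M) :=
  Module.Basis.mk (m18sq_indep_res E hE hEk)
    (fun y _ => m18sq_mem_span_res hdec E hE hEF hEk y)

/-- **(DEG, characteristic `ℓ`)** `F~_M` is finite over `k(j̃)` of degree `ψ(M)`, for every
level `M` prime to `ℓ`. -/
theorem m18sq_finrank_res {ℓ : ℕ} [Fact ℓ.Prime] (hA : A.LiesOverPrime ℓ) (hℓM : ¬ ℓ ∣ M) :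
    FiniteDimensional ↥((m18v_k A)⟮m18sq_jt A M⟯) (m18v_Ft A M) ∧
      Module.finrank ↥((m18v_k A)⟮m18sq_jt A M⟯) (m18v_Ft A M) = dedekindPsi M := by
  obtain ⟨E, hEF, hEk, hE⟩ := m18sq_family hA M hℓM
  have b := m18sq_basis_res (m18sq_dec hA hℓM) E hE hEF hEk
  refine ⟨Module.Finite.of_basis b, ?_⟩
  rw [Module.finrank_eq_card_basis b, Fintype.card_fin]

/-- `j̃` is transcendental over `k` (as an element of `F~_M`). -/
theorem m18sq_jt_transcendental : Transcendental (m18v_k A) (m18sq_jt A M) := by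
  rw [transcendental_iff]
  intro P hP
  by_contra hne
  have := congrArg Subtype.val hP
  rw [m18sq_coe_aeval_jt] at this
  exact m18sq_evk_ne_zero hne this

end Fermat.Agent.M18

end
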