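/-
S18, package (CUSP-M) (helper7), prefix `m18cm_`.

**(SQ6) at a level divisible by `9`**, residue characteristic `ℓ ≠ 3`: the genus of the function
field of `X₀(N')` over `ℚ̄` is at most the genus of the function field over the residue field,
`ℓ(W_j) ≤ ℓ(W~_{j~})`.  Copy of the level `4` file of the block (SQ6), through the generic
statement `m18sq6_main_tow`, with the Hauptmodul `h9` of level `9` (`m = 3` finite cusp values).
The separability of `F~ / k(j~)` is an instance hypothesis.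
-/
import Mathlib
import Fermat.Agent.M18.Sq6Tow
import Fermat.Agent.M18.CuspM9F
import Fermat.Agent.M18.HmMem9M
import Fermat.Agent.M18.CuspMain
import Fermat.Agent.M18.SqDeg
import Fermat.Agent.M18.RrGb
import Fermat.Agent.M18.ResField

set_option autoImplicit false
set_option linter.unusedSectionVars false
set_option linter.unusedVariables false
set_option linter.style.haveILetI false
set_option synthInstance.maxHeartbeats 400000

noncomputable section

namespace Fermat.Agent.M18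

open AlgebraicCurve IntermediateField Module ModularCurve Polynomial Fermat.Agent.S24

/-- `h9 ∈ F~_9` over the residue field of a valuation subring of `ℚ̄` over `ℓ ≠ 3`. -/
theorem m18cm_h9_mem_res (A : ValuationSubring m18v_K) {ℓ : ℕ} [Fact ℓ.Prime]
    (hA : A.LiesOverPrime ℓ) (hℓ9 : ¬ ℓ ∣ 9) :
    m18hm_h9 (m18v_k A) ∈ modularFunctionFieldFullC (m18v_k A) 9 := by
  haveI : IsAlgClosed (m18v_k A) := m18rf_isAlgClosed A
  haveI : CharP (m18v_k A) ℓ := m18rf_charP A ℓ hA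
  exact m18hm_h9_mem (m18v_k A) ℓ hℓ9 (fun p _ hp _ => m18rf_primeData A p hp)

/-- **(SQ6), `9 ∣ N'`**. -/
theorem m18cm_sq6_lvl9 (A : ValuationSubring m18v_K) {ℓ : ℕ} [Fact ℓ.Prime]
    (hA : A.LiesOverPrime ℓ) (N' : ℕ) [NeZero N'] (h9 : 9 ∣ N') (hℓ : ¬ ℓ ∣ N')
    [hsep : Algebra.IsSeparable ↥((m18v_k A)⟮m18sq_jt A N'⟯) (m18v_Ft A N')] :
    finrank s24K (riemannRochSpace (m18rr_W (K := s24K) (s24j N')))
      ≤ finrank (m18v_k A) (riemannRochSpace (m18rr_W (K := m18v_k A) (m18sq_jt A N'))) := by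
  haveI : IsAlgClosed (m18v_k A) := m18rf_isAlgClosed A
  have hℓ9 : ¬ ℓ ∣ 9 := fun h => hℓ (h.trans h9)
  have hℓ3 : ¬ ℓ ∣ 3 := by
    intro h
    exact hℓ (h.trans ((by norm_num : (3 : ℕ) ∣ 9).trans h9))
  have h3 : (3 : m18v_k A) ≠ 0 := by
    have := m18rf_natCast_ne_zero A ℓ hA hℓ3
    simpa using this
  have hmem := m18cm_h9_mem_res A hA hℓ9
  have hNk : ((N' : ℕ) : m18v_k A) ≠ 0 := m18rf_natCast_ne_zero A ℓ hA hℓ
  have hP : ∀ (p : ℕ) [NeZero p], p.Prime → p ∣ N' →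
      Nonempty (Fermat.Agent.M28.M28PrimeData (m18v_k A) p) :=
    fun p _ hp _ => m18rf_primeData A p hp
  obtain ⟨hfd, hdeg⟩ := m18sq_finrank_res (A := A) (M := N') hA hℓ
  haveI := hfd
  have hcusp := (m18cusp_main (m18v_k A) N' hNk hP).2
  have hj : Transcendental (m18v_k A) (m18sq_jt A N') := m18sq_jt_transcendental
  have hrel : m18sq_jt A N' * aeval (m18cm_t9F (m18v_k A) N' hmem h9) (m18cm_Den9 (m18v_k A))
      = aeval (m18cm_t9F (m18v_k A) N' hmem h9) (m18cm_Num9 (m18v_k A)) := by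
    rw [m18cm_aeval_Num9, m18cm_aeval_Den9]
    exact m18cm_t9F_rel (m18v_k A) N' hmem h9
  have hDen0 : m18cm_Den9 (m18v_k A) ≠ 0 := (m18cm_Den9_monic (m18v_k A)).ne_zero
  have hdegND : (m18cm_Den9 (m18v_k A)).natDegree < (m18cm_Num9 (m18v_k A)).natDegree := by
    rw [m18cm_Num9_natDegree]
    exact lt_of_le_of_lt (m18cm_Den9_natDegree_le (m18v_k A)) (by norm_num)
  exact m18sq6_main_tow (m18sq_jt A N') hj (m18cm_t9F (m18v_k A) N' hmem h9)
    (m18cm_t9F_transcendental (m18v_k A) N' hmem h9)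
    (m18cm_Num9 (m18v_k A)) (m18cm_Den9 (m18v_k A)) (m18cm_Num9_monic (m18v_k A)) hDen0 hdegND
    hrel (m := 3) (by norm_num) (m18cm_a9 (m18v_k A)) (m18cm_a9_injective (m18v_k A) h3)
    (m18cm_main9 (m18v_k A) N' h3 hmem h9) N' (Or.inr h9) hdeg
    (by rw [m18cm_Num9_natDegree]) hcusp _ (m18rr_genus_X0 N')

end Fermat.Agent.M18

end
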