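import Mathlib
import Fermat.Agent.M18.CuspCD

/-!
# M18 (CUSP): separability and finiteness of `F~_N` over `k (j~)`

For an algebraically closed field `k` and a level `N` with `(N : k) ≠ 0` (and M28's prime data
at the primes dividing `N`), the field `modularFunctionFieldFullC k N` is finite and separable
over `k⟮j~⟯`, `j~ = m18cusp_j k N = ⟨jqModC k, jqModC_mem_full k N⟩`.

The proof transports `m18cusp_finiteDimensional` / `m18cusp_isSeparable` (for `E_N / K₀`) along
the isomorphism `f (q) ↦ f (t ^ N)`.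

* `m18cusp_e1` : `k⟮j~⟯ ≃+* K₀`, `m18cusp_e2` : `F~_N ≃+* E_N`, `m18cusp_e_compat`.
* `m18cusp_finiteDimensional_F`, `m18cusp_isSeparable_F`.
-/

set_option autoImplicit false
set_option synthInstance.maxHeartbeats 400000

noncomputable section

namespace Fermat.Agent.M18

open Fermat.Agent.M28 Fermat.Agent.S24 ModularCurve IntermediateField HahnSeries AlgebraicCurve
open Function

section data

variable (k : Type) [Field k] [IsAlgClosed k] (N : ℕ) [NeZero N] (hNk : (N : k) ≠ 0)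
  (hP : ∀ (p : ℕ) [NeZero p], p.Prime → p ∣ N → Nonempty (M28PrimeData k p))

/-- `f (q) ↦ f (t ^ N)` maps `k (j~)` into `K₀`. -/
theorem m18cusp_psi_mem_K0 (g : ↥(modularFunctionFieldFullC k N))
    (hg : g ∈ k⟮m18cusp_j k N⟯) :
    m28di_psi k N (g : LaurentSeries k) ∈ m28dt_K0 (m18cusp_D k N hNk hP) := by
  induction hg using IntermediateField.adjoin_induction with
  | mem x hx =>
    rw [Set.mem_singleton_iff] at hx
    rw [hx]
    have h := congrArg Subtype.val (m18cusp_phi_j k N hNk hP)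
    rw [m18cusp_phi_coe] at h
    rw [h]
    exact m28dt_C1N_mem_K0 _
  | algebraMap c =>
    have h := congrArg Subtype.val (m18cusp_phi_algebraMap k N hNk hP c)
    rw [m18cusp_phi_coe] at h
    rw [h]
    exact (algebraMap k ↥(m28dt_K0 (m18cusp_D k N hNk hP)) c).2
  | add x y _ _ hx hy =>
    have : m28di_psi k N ((x + y : ↥(modularFunctionFieldFullC k N)) : LaurentSeries k) =
        m28di_psi k N (x : LaurentSeries k) + m28di_psi k N (y : LaurentSeries k) := by
      rw [← map_add]; rfl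
    rw [this]
    exact add_mem hx hy
  | inv x _ hx =>
    have : m28di_psi k N ((x⁻¹ : ↥(modularFunctionFieldFullC k N)) : LaurentSeries k) =
        (m28di_psi k N (x : LaurentSeries k))⁻¹ := by
      rw [← map_inv₀]; rfl
    rw [this]
    exact inv_mem hx
  | mul x y _ _ hx hy =>
    have : m28di_psi k N ((x * y : ↥(modularFunctionFieldFullC k N)) : LaurentSeries k) =
        m28di_psi k N (x : LaurentSeries k) * m28di_psi k N (y : LaurentSeries k) := by
      rw [← map_mul]; rfl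
    rw [this]
    exact mul_mem hx hy

/-- the ring homomorphism `k (j~) → K₀`. -/
def m18cusp_phi1 : ↥(k⟮m18cusp_j k N⟯) →+* ↥(m28dt_K0 (m18cusp_D k N hNk hP)) :=
  RingHom.codRestrict
    ((((m28di_psi k N : LaurentSeries k →+* m28d_Om k)).comp
      (algebraMap ↥(modularFunctionFieldFullC k N) (LaurentSeries k))).comp
      (algebraMap ↥(k⟮m18cusp_j k N⟯) ↥(modularFunctionFieldFullC k N)))
    (m28dt_K0 (m18cusp_D k N hNk hP))
    (fun g => m18cusp_psi_mem_K0 k N hNk hP g.1 g.2)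

theorem m18cusp_phi1_coe (g : ↥(k⟮m18cusp_j k N⟯)) :
    ((m18cusp_phi1 k N hNk hP g : ↥(m28dt_K0 (m18cusp_D k N hNk hP))) : m28d_Om k) =
      m28di_psi k N ((g : ↥(modularFunctionFieldFullC k N)) : LaurentSeries k) := rfl

theorem m18cusp_phi1_bijective : Function.Bijective (m18cusp_phi1 k N hNk hP) := by
  refine ⟨(m18cusp_phi1 k N hNk hP).injective, fun z => ?_⟩
  obtain ⟨g, hg, hg'⟩ := m18cusp_K0_preimage k N hNk hP (z : m28d_Om k) z.2
  refine ⟨⟨g, hg⟩, ?_⟩
  apply Subtype.ext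
  rw [m18cusp_phi1_coe]
  exact hg'

theorem m18cusp_phi_surjective : Function.Surjective (m18cusp_phi k N hNk hP) := by
  rintro ⟨e, he⟩
  have key : ∃ f : ↥(modularFunctionFieldFullC k N),
      m28di_psi k N (f : LaurentSeries k) = (e : m28d_Om k) := by
    unfold m28dt_E at he
    induction he using IntermediateField.adjoin_induction with
    | mem x hx =>
      obtain ⟨d, hd, rfl⟩ := hx
      refine ⟨m18cusp_jd k N d hd, ?_⟩
      have h := congrArg Subtype.val (m18cusp_phi_jd k N hNk hP d hd)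
      rw [m18cusp_phi_coe] at h
      exact h
    | algebraMap c =>
      obtain ⟨g, _, hg'⟩ := m18cusp_K0_preimage k N hNk hP (c : m28d_Om k) c.2
      exact ⟨g, hg'⟩
    | add x y _ _ hx hy =>
      obtain ⟨f1, h1⟩ := hx
      obtain ⟨f2, h2⟩ := hy
      refine ⟨f1 + f2, ?_⟩
      rw [← h1, ← h2, ← map_add]
      rfl
    | inv x _ hx =>
      obtain ⟨f1, h1⟩ := hx
      refine ⟨f1⁻¹, ?_⟩
      rw [← h1, ← map_inv₀]
      rfl
    | mul x y _ _ hx hy =>
      obtain ⟨f1, h1⟩ := hx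
      obtain ⟨f2, h2⟩ := hy
      refine ⟨f1 * f2, ?_⟩
      rw [← h1, ← h2, ← map_mul]
      rfl
  obtain ⟨f, hf⟩ := key
  refine ⟨f, ?_⟩
  apply Subtype.ext
  rw [m18cusp_phi_coe]
  exact hf

theorem m18cusp_phi_bijective : Function.Bijective (m18cusp_phi k N hNk hP) :=
  ⟨(m18cusp_phi k N hNk hP).injective, m18cusp_phi_surjective k N hNk hP⟩

/-- `k (j~) ≃ K₀`. -/
def m18cusp_e1 : ↥(k⟮m18cusp_j k N⟯) ≃+* ↥(m28dt_K0 (m18cusp_D k N hNk hP)) :=
  RingEquiv.ofBijective (m18cusp_phi1 k N hNk hP) (m18cusp_phi1_bijective k N hNk hP)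

/-- `F~_N ≃ E_N`. -/
def m18cusp_e2 : ↥(modularFunctionFieldFullC k N) ≃+* ↥(m28dt_E (m18cusp_D k N hNk hP) N) :=
  RingEquiv.ofBijective (m18cusp_phi k N hNk hP) (m18cusp_phi_bijective k N hNk hP)

theorem m18cusp_e_compat :
    RingHom.comp (algebraMap ↥(m28dt_K0 (m18cusp_D k N hNk hP))
        ↥(m28dt_E (m18cusp_D k N hNk hP) N))
      (↑(m18cusp_e1 k N hNk hP) : ↥(k⟮m18cusp_j k N⟯) →+* ↥(m28dt_K0 (m18cusp_D k N hNk hP))) =
    RingHom.comp
      (↑(m18cusp_e2 k N hNk hP) :
        ↥(modularFunctionFieldFullC k N) →+* ↥(m28dt_E (m18cusp_D k N hNk hP) N))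
      (algebraMap ↥(k⟮m18cusp_j k N⟯) ↥(modularFunctionFieldFullC k N)) := by
  ext g
  rfl

include hNk hP in
/-- **`F~_N` is finite over `k (j~)`.** -/
theorem m18cusp_finiteDimensional_F :
    FiniteDimensional ↥(k⟮m18cusp_j k N⟯) ↥(modularFunctionFieldFullC k N) := by
  have hfin : Module.Finite ↥(m28dt_K0 (m18cusp_D k N hNk hP))
      ↥(m28dt_E (m18cusp_D k N hNk hP) N) := m18cusp_finiteDimensional _ hNk
  refine Module.Finite.of_equiv_equiv (m18cusp_e1 k N hNk hP).symm (m18cusp_e2 k N hNk hP).symm ?_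
  ext x
  have h := RingHom.ext_iff.mp (m18cusp_e_compat k N hNk hP) ((m18cusp_e1 k N hNk hP).symm x)
  simp only [RingHom.comp_apply, RingEquiv.coe_toRingHom, RingEquiv.apply_symm_apply] at h
  simp only [RingHom.comp_apply, RingEquiv.coe_toRingHom]
  rw [h, RingEquiv.symm_apply_apply]

include hNk hP in
/-- **`F~_N` is separable over `k (j~)`.** -/
theorem m18cusp_isSeparable_F :
    Algebra.IsSeparable ↥(k⟮m18cusp_j k N⟯) ↥(modularFunctionFieldFullC k N) :=
  (Algebra.IsSeparable.iff_of_equiv_equiv (m18cusp_e1 k N hNk hP) (m18cusp_e2 k N hNk hP)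
    (m18cusp_e_compat k N hNk hP)).mpr (m18cusp_isSeparable _ hNk)

end data

end Fermat.Agent.M18

end
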