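import Mathlib
import Fermat.Agent.M18.CuspSepF
import Fermat.Agent.M18.CuspMain
import Fermat.Agent.M18.SqDeg
import Fermat.Agent.M18.ResField

/-!
# M18 (CUSP): the separability instance for the reduction `F~_M` over `k (j~)`

`k = m18v_k A` the residue field of a valuation subring `A` of `AlgebraicClosure ℚ` over a
prime `ℓ`, `M` a level prime to `ℓ`: `F~_M = m18v_Ft A M` is finite and separable over
`k⟮j~⟯`, `j~ = m18sq_jt A M`.

* `m18cusp_isSeparable_res`, `m18cusp_finiteDimensional_res`.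
-/

set_option autoImplicit false
set_option synthInstance.maxHeartbeats 400000

noncomputable section

namespace Fermat.Agent.M18

open Fermat.Agent.M28 Fermat.Agent.S24 ModularCurve IntermediateField HahnSeries AlgebraicCurve

variable {A : ValuationSubring m18v_K} {M : ℕ} [NeZero M]

/-- **separability of `F~_M / k (j~)`** for every level `M` prime to `ℓ`. -/
theorem m18cusp_isSeparable_res {ℓ : ℕ} [Fact ℓ.Prime] (hA : A.LiesOverPrime ℓ)
    (hℓM : ¬ ℓ ∣ M) :
    Algebra.IsSeparable ↥((m18v_k A)⟮m18sq_jt A M⟯) (m18v_Ft A M) := by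
  haveI : IsAlgClosed (m18v_k A) := m18sq_isAlgClosed A
  exact m18cusp_isSeparable_F (m18v_k A) M (m18rf_natCast_ne_zero A ℓ hA hℓM)
    (fun p _ hp _ => m18rf_primeData A p hp)

/-- finiteness of `F~_M / k (j~)` for every level `M` prime to `ℓ` (also part of helper9's
`m18sq_finrank_res`). -/
theorem m18cusp_finiteDimensional_res {ℓ : ℕ} [Fact ℓ.Prime] (hA : A.LiesOverPrime ℓ)
    (hℓM : ¬ ℓ ∣ M) :
    FiniteDimensional ↥((m18v_k A)⟮m18sq_jt A M⟯) (m18v_Ft A M) := by
  haveI : IsAlgClosed (m18v_k A) := m18sq_isAlgClosed A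
  exact m18cusp_finiteDimensional_F (m18v_k A) M (m18rf_natCast_ne_zero A ℓ hA hℓM)
    (fun p _ hp _ => m18rf_primeData A p hp)

/-- the cusp bound for the reduction: the poles of `j~` on `F~_M` are at most `cuspCount M`. -/
theorem m18cusp_main_res {ℓ : ℕ} [Fact ℓ.Prime] (hA : A.LiesOverPrime ℓ) (hℓM : ¬ ℓ ∣ M) :
    Finite {v : Place (m18v_k A) (m18v_Ft A M) // v.ord (m18sq_jt A M) < 0} ∧
      Nat.card {v : Place (m18v_k A) (m18v_Ft A M) // v.ord (m18sq_jt A M) < 0} ≤
        cuspCount M := by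
  haveI : IsAlgClosed (m18v_k A) := m18sq_isAlgClosed A
  exact m18cusp_main (m18v_k A) M (m18rf_natCast_ne_zero A ℓ hA hℓM)
    (fun p _ hp _ => m18rf_primeData A p hp)

end Fermat.Agent.M18

end
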