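/-
M18 (S18 project), block (GEN), part 1 (lead), prefix `m18gen_`.

Abstract construction of the non-special configuration `m18_NSC G g` of `Defs.lean` from

* the inductive non-special step on the residue function field `Fk` (Riemann-Roch in
  characteristic `l`),
* a finite set of places of `Fk` outside of which every place has a coordinate,
* `g ≤ gt` (the genus inequality).
-/
import Mathlib
import Fermat.Agent.M18.Defs

set_option autoImplicit false
set_option linter.unusedSectionVars false
set_option linter.unusedVariables false
set_option linter.style.haveILetI false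

noncomputable section

namespace Fermat.Agent.M18

open AlgebraicCurve

section general

variable {k Fk : Type*} [Field k] [Field Fk] [Algebra k Fk]

/-- constants lie in `L(D)` for an effective divisor `D`. -/
theorem m18gen_const_mem (D : Divisor k Fk) (hD : ∀ v, 0 ≤ D v) (c : k) :
    algebraMap k Fk c ∈ riemannRochSpace D := by
  have hone : (1 : Fk) ∈ riemannRochSpace D := by
    rw [mem_riemannRochSpace_iff]
    intro v
    right
    rw [Place.ord_one]
    have := hD v
    linarith
  have h := (riemannRochSpace D).smul_mem c hone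
  rwa [Algebra.smul_def, mul_one] at h

/-- if `L(D)` is one-dimensional and `D` is effective, `L(D)` consists of constants. -/
theorem m18gen_const_of_finrank_one (D : Divisor k Fk) (hD : ∀ v, 0 ≤ D v)
    (h1 : Module.finrank k (riemannRochSpace D) = 1) (φ : Fk) (hφ : φ ∈ riemannRochSpace D) :
    ∃ c : k, φ = algebraMap k Fk c := by
  have hone : (1 : Fk) ∈ riemannRochSpace D := by
    have := m18gen_const_mem D hD 1
    rwa [map_one] at this
  have hne : (⟨1, hone⟩ : riemannRochSpace D) ≠ 0 := by
    intro h
    have := congrArg Subtype.val h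
    exact one_ne_zero this
  obtain ⟨c, hc⟩ := (finrank_eq_one_iff_of_nonzero' _ hne).mp h1 ⟨φ, hφ⟩
  refine ⟨c, ?_⟩
  have := congrArg Subtype.val hc
  simp only [Submodule.coe_smul] at this
  rw [← this, Algebra.smul_def, mul_one]

/-- the inductive construction of `n` distinct places outside a finite set with a
one-dimensional Riemann-Roch space. -/
theorem m18gen_exists_places (gt : ℕ)
    (h0 : Module.finrank k (riemannRochSpace (0 : Divisor k Fk)) = 1)
    (hstep : ∀ D : Divisor k Fk, (∀ v, 0 ≤ D v) →
      Module.finrank k (riemannRochSpace D) = 1 → Divisor.degree D < gt →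
      ∃ T : Finset (Place k Fk), ∀ Q, Q ∉ T →
        Module.finrank k (riemannRochSpace (D + Finsupp.single Q 1)) = 1)
    (hdeg1 : ∀ Q : Place k Fk, Q.deg = 1)
    (hinf : Infinite (Place k Fk))
    (S : Finset (Place k Fk)) (n : ℕ) (hn : n ≤ gt) :
    ∃ Q : Fin n → Place k Fk, Function.Injective Q ∧ (∀ i, Q i ∉ S) ∧
      Module.finrank k (riemannRochSpace (∑ i, Finsupp.single (Q i) (1 : ℤ))) = 1 := by
  classical
  induction n with
  | zero =>
    refine ⟨Fin.elim0, fun i => i.elim0, fun i => i.elim0, ?_⟩
    rw [Finset.univ_eq_empty, Finset.sum_empty]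
    exact h0
  | succ n ih =>
    obtain ⟨Q, hinj, hS, hfin⟩ := ih (Nat.le_of_succ_le hn)
    set D : Divisor k Fk := ∑ i, Finsupp.single (Q i) (1 : ℤ) with hD
    have hDnn : ∀ v, 0 ≤ D v := by
      intro v
      rw [hD, Finsupp.finsetSum_apply]
      apply Finset.sum_nonneg
      intro i _
      rw [Finsupp.single_apply]
      split_ifs <;> norm_num
    have hDdeg : Divisor.degree D = n := by
      rw [hD, map_sum]
      simp [Divisor.degree_single, hdeg1]
    have hlt : Divisor.degree D < gt := by
      rw [hDdeg]
      exact_mod_cast hn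
    obtain ⟨T, hT⟩ := hstep D hDnn hfin hlt
    obtain ⟨Qn, hQn⟩ := Infinite.exists_notMem_finset (T ∪ S ∪ Finset.image Q Finset.univ)
    have hQT : Qn ∉ T := fun h => hQn (Finset.mem_union_left _ (Finset.mem_union_left _ h))
    have hQS : Qn ∉ S := fun h => hQn (Finset.mem_union_left _ (Finset.mem_union_right _ h))
    have hQQ : ∀ i, Q i ≠ Qn := by
      intro i h
      exact hQn (Finset.mem_union_right _ (Finset.mem_image.mpr ⟨i, Finset.mem_univ _, h⟩))
    refine ⟨Fin.snoc Q Qn, ?_, ?_, ?_⟩
    · intro a b hab
      induction a using Fin.lastCases with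
      | last =>
        induction b using Fin.lastCases with
        | last => rfl
        | cast b =>
          rw [Fin.snoc_last, Fin.snoc_castSucc] at hab
          exact absurd hab.symm (hQQ b)
      | cast a =>
        induction b using Fin.lastCases with
        | last =>
          rw [Fin.snoc_last, Fin.snoc_castSucc] at hab
          exact absurd hab (hQQ a)
        | cast b =>
          rw [Fin.snoc_castSucc, Fin.snoc_castSucc] at hab
          rw [hinj hab]
    · intro i
      induction i using Fin.lastCases with
      | last => rw [Fin.snoc_last]; exact hQS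
      | cast i => rw [Fin.snoc_castSucc]; exact hS i
    · rw [Fin.sum_univ_castSucc]
      have e1 : ∀ i : Fin n, (Fin.snoc Q Qn : Fin (n + 1) → Place k Fk) i.castSucc = Q i :=
        fun i => Fin.snoc_castSucc (α := fun _ => Place k Fk) Qn Q i
      have e2 : (Fin.snoc Q Qn : Fin (n + 1) → Place k Fk) (Fin.last n) = Qn :=
        Fin.snoc_last (α := fun _ => Place k Fk) Qn Q
      rw [e2]
      have e3 : (∑ i : Fin n, Finsupp.single
          ((Fin.snoc Q Qn : Fin (n + 1) → Place k Fk) i.castSucc) (1 : ℤ)) = D := by
        rw [hD]
        exact Finset.sum_congr rfl (fun i _ => by rw [e1])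
      rw [e3]
      exact hT Qn hQT

end general

section nsc

variable {K F Fk : Type*} [Field K] [Field F] [Algebra K F] {A : ValuationSubring K}
  [Field Fk] [Algebra (IsLocalRing.ResidueField A) Fk]
  {r : Place K F → Place (IsLocalRing.ResidueField A) Fk}

/-- **(GEN), abstract form**: the non-special configuration from the non-special step, the
coordinates outside a finite set, and `g ≤ gt`. -/
theorem m18gen_nsc (G : m18_Gauss A r) (g gt : ℕ) (hle : g ≤ gt)
    (h0 : Module.finrank (IsLocalRing.ResidueField A)
      (riemannRochSpace (0 : Divisor (IsLocalRing.ResidueField A) Fk)) = 1)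
    (hstep : ∀ D : Divisor (IsLocalRing.ResidueField A) Fk, (∀ v, 0 ≤ D v) →
      Module.finrank (IsLocalRing.ResidueField A) (riemannRochSpace D) = 1 →
      Divisor.degree D < gt →
      ∃ T : Finset (Place (IsLocalRing.ResidueField A) Fk), ∀ Q, Q ∉ T →
        Module.finrank (IsLocalRing.ResidueField A)
          (riemannRochSpace (D + Finsupp.single Q 1)) = 1)
    (hdeg1 : ∀ Q : Place (IsLocalRing.ResidueField A) Fk, Q.deg = 1)
    (hinf : Infinite (Place (IsLocalRing.ResidueField A) Fk))
    (S : Finset (Place (IsLocalRing.ResidueField A) Fk))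
    (hcoord : ∀ Q, Q ∉ S → ∃ t : G.O, m18_Coord G Q t)
    (Pstar : Place K F) :
    m18_NSC G g := by
  classical
  obtain ⟨Q, hinj, hS, hfin⟩ :=
    m18gen_exists_places gt h0 hstep hdeg1 hinf (S ∪ {r Pstar}) g hle
  have hc : ∀ i, ∃ t : G.O, m18_Coord G (Q i) t :=
    fun i => hcoord (Q i) (fun h => hS i (Finset.mem_union_left _ h))
  choose t ht using hc
  refine ⟨Q, t, Pstar, hinj, ?_, ht, ?_⟩
  · intro i h
    exact hS i (Finset.mem_union_right _ (by rw [h]; exact Finset.mem_singleton_self _))
  · intro φ hφ
    refine m18gen_const_of_finrank_one _ ?_ hfin φ hφ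
    intro v
    rw [Finsupp.finsetSum_apply]
    apply Finset.sum_nonneg
    intro i _
    rw [Finsupp.single_apply]
    split_ifs <;> norm_num

end nsc

end Fermat.Agent.M18

end
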