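/-
M18 (S18 project), block (GEN), part 2 (lead), prefix `m18gen_`.

Coordinates `x - c` at the places of `Fk` where `red x` is finite and unramified, and the
abstract form of (GEN).
-/
import Mathlib
import Fermat.Agent.S24.AlgABasic
import Fermat.Agent.M18.Defs
import Fermat.Agent.M18.GenNsc

set_option autoImplicit false
set_option linter.unusedSectionVars false
set_option linter.unusedVariables false
set_option linter.style.haveILetI false

noncomputable section

namespace Fermat.Agent.M18

open AlgebraicCurve Fermat.Agent.S24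

section general

variable {K F Fk : Type*} [Field K] [Field F] [Algebra K F] {A : ValuationSubring K}
  [Field Fk] [Algebra (IsLocalRing.ResidueField A) Fk]
  {r : Place K F → Place (IsLocalRing.ResidueField A) Fk}

/-- the constant `c ∈ A` as an element of the Gauss ring. -/
def m18gen_const (G : m18_Gauss A r) (c : A) : G.O := ⟨algebraMap K F (c : K), G.const_mem c⟩

theorem m18gen_red_sub_const (G : m18_Gauss A r) (x : G.O) (c : A) :
    G.red (x - m18gen_const G c) =
      G.red x - algebraMap (IsLocalRing.ResidueField A) Fk (IsLocalRing.residue A c) := by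
  rw [map_sub, m18gen_const, G.red_const]

theorem m18gen_coe_sub_const (G : m18_Gauss A r) (x : G.O) (c : A) :
    ((x - m18gen_const G c : G.O) : F) = (x : F) - algebraMap K F (c : K) := rfl

/-- **coordinates**: if the tube of `Q` contains no pole of `x` and `red x - c~` has order one
at `Q`, then `x - c` is a coordinate at `Q`. -/
theorem m18gen_coord (G : m18_Gauss A r) (x : G.O)
    (htube : ∀ P : Place K F, 0 ≤ (r P).ord (G.red x) → 0 ≤ P.ord (x : F))
    (Q : Place (IsLocalRing.ResidueField A) Fk) (hQ : 0 ≤ Q.ord (G.red x))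
    (c : IsLocalRing.ResidueField A)
    (hc : Q.ord (G.red x - algebraMap (IsLocalRing.ResidueField A) Fk c) = 1) :
    ∃ t : G.O, m18_Coord G Q t := by
  obtain ⟨c', rfl⟩ := IsLocalRing.residue_surjective (R := A) c
  refine ⟨x - m18gen_const G c', ?_, ?_⟩
  · intro P hP
    rw [m18gen_coe_sub_const]
    have h1 : (x : F) ∈ P.toValuationSubring :=
      alga_mem_of_ord_nonneg P (htube P (by rw [hP]; exact hQ))
    have h2 : algebraMap K F (c' : K) ∈ P.toValuationSubring := P.algebraMap_mem' _
    exact alga_ord_nonneg_of_mem P (P.toValuationSubring.sub_mem h1 h2)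
  · rw [m18gen_red_sub_const]
    exact hc

/-- **(GEN), abstract form.** -/
theorem m18gen_main (G : m18_Gauss A r) (g gt : ℕ) (hle : g ≤ gt)
    (hR : m18_Riem K F g)
    (h0 : Module.finrank (IsLocalRing.ResidueField A)
      (riemannRochSpace (0 : Divisor (IsLocalRing.ResidueField A) Fk)) = 1)
    (hstep : ∀ D : Divisor (IsLocalRing.ResidueField A) Fk, (∀ v, 0 ≤ D v) →
      Module.finrank (IsLocalRing.ResidueField A) (riemannRochSpace D) = 1 →
      Divisor.degree D < gt →
      ∃ T : Finset (Place (IsLocalRing.ResidueField A) Fk), ∀ Q, Q ∉ T →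
        Module.finrank (IsLocalRing.ResidueField A)
          (riemannRochSpace (D + Finsupp.single Q 1)) = 1)
    (hdeg1 : ∀ Q : Place (IsLocalRing.ResidueField A) Fk, Q.deg = 1)
    (hinf : Infinite (Place (IsLocalRing.ResidueField A) Fk))
    (x : G.O)
    (htube : ∀ P : Place K F, 0 ≤ (r P).ord (G.red x) → 0 ≤ P.ord (x : F))
    (S : Finset (Place (IsLocalRing.ResidueField A) Fk))
    (hunr : ∀ Q, Q ∉ S → 0 ≤ Q.ord (G.red x) ∧ ∃ c : IsLocalRing.ResidueField A,
      Q.ord (G.red x - algebraMap (IsLocalRing.ResidueField A) Fk c) = 1)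
    (Pstar : Place K F) :
    ∃ g : ℕ, m18_Riem K F g ∧ m18_NSC G g := by
  refine ⟨g, hR, m18gen_nsc G g gt hle h0 hstep hdeg1 hinf S ?_ Pstar⟩
  intro Q hQ
  obtain ⟨h1, c, hc⟩ := hunr Q hQ
  exact m18gen_coord G x htube Q h1 c hc

end general

end Fermat.Agent.M18

end
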