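/-
M18 (S18 project), top reduction, owner helper5.  Prefix `m18_`.

`m18_of_core` : the statement of S18 follows from the core property `m18_Core` for the
specialisation map `placeReductionModL h`.
-/
import Mathlib
import Fermat.Prelude.Def_ModularCurve_ReductionModL
import Fermat.Agent.M18.Defs

set_option autoImplicit false
set_option linter.deprecated false
set_option linter.unusedSectionVars false
set_option linter.unusedVariables false
set_option linter.style.haveILetI false
set_option synthInstance.maxHeartbeats 400000

noncomputable section

namespace Fermat.Agent.M18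

open AlgebraicCurve ModularCurve

/-- S18 from the core property (II) of the specialisation map. -/
theorem m18_of_core (N : ℕ) [NeZero N] (A : ValuationSubring (AlgebraicClosure ℚ))
    (h : ModularCurve.ReductionInputsModL A N) (m : ℕ)
    (hcore : m18_Core (ModularCurve.placeReductionModL h) m)
    (z : ModularCurve.JZero N) (hmz : m • z = 0)
    (hz : ModularCurve.reductionModL A N z = 0) : z = 0 := by
  obtain ⟨D, rfl⟩ := Pic0.mk_surjective z
  rw [reductionModL_mk h D] at hz
  have h1 : Divisor.IsPrincipal (Finsupp.mapDomain (placeReductionModL h)
      (D : Divisor (AlgebraicClosure ℚ) (modularFunctionFieldBar N))) := by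
    have := (QuotientAddGroup.eq_zero_iff _).1 hz
    rw [AddSubgroup.mem_addSubgroupOf] at this
    exact this
  have h2 : Divisor.IsPrincipal (m • (D : Divisor (AlgebraicClosure ℚ)
      (modularFunctionFieldBar N))) := by
    have h3 : Pic0.mk (m • D) = 0 := by
      rw [← hmz]
      rfl
    have := (QuotientAddGroup.eq_zero_iff _).1 h3
    rw [AddSubgroup.mem_addSubgroupOf] at this
    exact this
  have h3 := hcore D.1 D.2 h2 h1
  exact (QuotientAddGroup.eq_zero_iff _).2 (by
    rw [AddSubgroup.mem_addSubgroupOf]
    exact h3)

end Fermat.Agent.M18

end
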