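import Fermat.Agent.M18.VHloc
import Fermat.Agent.M18.Defs

/-!
# M18 / (V), part 8: the package `m18_Gauss` for the function field of `X₀(N)`.
-/

set_option autoImplicit false
set_option synthInstance.maxHeartbeats 400000

noncomputable section

open HahnSeries IntermediateField AlgebraicCurve ModularCurve

namespace Fermat.Agent.M18

variable {A : ValuationSubring m18v_K} {N : ℕ} [NeZero N]

/-- the Gauss valuation ring of `F`. -/
def m18v_O (hgen : PrincipalGeneratedByIntegral A (IsLocalRing.residue A) N) :
    ValuationSubring (m18v_F N) where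
  carrier := {x | m18v_Int A N x}
  mul_mem' := fun hx hy => m18v_Int_mul hx hy
  one_mem' := m18v_Int_one
  add_mem' := fun hx hy => m18v_Int_add hx hy
  zero_mem' := m18v_Int_zero
  neg_mem' := fun hx => m18v_Int_neg hx
  mem_or_inv_mem' := fun x => by
    rcases eq_or_ne x 0 with rfl | hx
    · exact Or.inl m18v_Int_zero
    · exact m18v_Int_or_inv hgen hx

theorem m18v_mem_O (hgen : PrincipalGeneratedByIntegral A (IsLocalRing.residue A) N)
    {x : m18v_F N} : x ∈ m18v_O hgen ↔ m18v_Int A N x := Iff.rfl

/-- the reduction map as a ring homomorphism on the Gauss valuation ring. -/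
def m18v_redHom (hgen : PrincipalGeneratedByIntegral A (IsLocalRing.residue A) N) :
    m18v_O hgen →+* m18v_Ft A N where
  toFun x := m18v_red hgen (x : m18v_F N)
  map_one' := Subtype.ext m18v_redL_one
  map_mul' x y := Subtype.ext (m18v_redL_mul' x.2 y.2)
  map_zero' := Subtype.ext m18v_redL_zero
  map_add' x y := Subtype.ext (m18v_redL_add x.2 y.2)

@[simp]
theorem m18v_redHom_apply (hgen : PrincipalGeneratedByIntegral A (IsLocalRing.residue A) N)
    (x : m18v_O hgen) : m18v_redHom hgen x = m18v_red hgen (x : m18v_F N) := rfl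

theorem m18v_coe_redHom (hgen : PrincipalGeneratedByIntegral A (IsLocalRing.residue A) N)
    (x : m18v_O hgen) :
    ((m18v_redHom hgen x : m18v_Ft A N) : LaurentSeries (m18v_k A)) =
      m18v_redL A N (x : m18v_F N) := rfl

theorem m18v_redHom_surjective
    (hgen : PrincipalGeneratedByIntegral A (IsLocalRing.residue A) N) :
    Function.Surjective (m18v_redHom hgen) := by
  intro y
  obtain ⟨x, hx, h⟩ := m18v_red_surjective hgen y
  exact ⟨⟨x, hx⟩, h⟩

/-- **(V)** the Gauss package of the function field of `X₀(N)`, from the two components of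
`ReductionInputsModL`. -/
def m18v_gaussOf {r : Place m18v_K (m18v_F N) → Place (m18v_k A) (m18v_Ft A N)}
    (hr : IsPlaceReductionAlong A (IsLocalRing.residue A) N r)
    (hgen : PrincipalGeneratedByIntegral A (IsLocalRing.residue A) N) :
    m18_Gauss A r where
  O := m18v_O hgen
  red := m18v_redHom hgen
  isUnit_of_red_ne_zero := fun x hx => by
    have hred : m18v_redL A N (x : m18v_F N) ≠ 0 := fun h0 => hx (Subtype.ext h0)
    have hinv := m18v_Int_inv_of_red_ne_zero hgen x.2 hred
    have hx0 : (x : m18v_F N) ≠ 0 := by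
      intro h0
      rw [h0] at hred
      exact hred m18v_redL_zero
    refine isUnit_iff_exists_inv.2 ⟨⟨(x : m18v_F N)⁻¹, hinv⟩, ?_⟩
    apply Subtype.ext
    show (x : m18v_F N) * (x : m18v_F N)⁻¹ = 1
    exact mul_inv_cancel₀ hx0
  const_mem := fun a => m18v_Int_const a
  red_const := fun a => by
    apply Subtype.ext
    show m18v_redL A N (algebraMap m18v_K (m18v_F N) (a : m18v_K)) = _
    rw [m18v_redL_const, ← ModularCurve.algebraMap_laurentSeries_eq_single]
    rfl
  scale := fun x hx => by
    obtain ⟨c, u, w, hu, hw, hc, h⟩ := m18v_decomp hgen hx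
    have hcoe : ((algebraMap m18v_K (m18v_F N) c⁻¹ * x : m18v_F N) : LaurentSeries m18v_K) *
        m18v_incl A w = m18v_incl A u := by
      have h' := congrArg Subtype.val h
      have h'' : (x : LaurentSeries m18v_K) * m18v_incl A w =
          HahnSeries.single 0 c * m18v_incl A u := by
        rw [← m18v_coe_algebraMap (N := N)]
        exact h'
      show ((algebraMap m18v_K (m18v_F N) c⁻¹ : m18v_F N) : LaurentSeries m18v_K) *
        (x : LaurentSeries m18v_K) * m18v_incl A w = _
      rw [m18v_coe_algebraMap, mul_assoc, h'', ← mul_assoc, HahnSeries.single_mul_single,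
        zero_add, inv_mul_cancel₀ hc]
      exact one_mul _
    have hI : m18v_Int A N (algebraMap m18v_K (m18v_F N) c⁻¹ * x) := ⟨u, w, hw, hcoe⟩
    refine ⟨c⁻¹, inv_ne_zero hc, hI, fun h0 => ?_⟩
    have h1 : m18v_redL A N (algebraMap m18v_K (m18v_F N) c⁻¹ * x) = 0 :=
      congrArg Subtype.val h0
    have h2 := m18v_redL_mul hw hcoe
    rw [h1, zero_mul] at h2
    exact hu.2.2 h2.symm
  hloc := fun x hx D hD Q => by
    have hred : m18v_redL A N (x : m18v_F N) ≠ 0 := fun h0 => hx (Subtype.ext h0)
    exact m18v_hloc hr hgen x.2 hred hD Q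

/-- **(V)** the Gauss package attached to the hypothesis of S18. -/
def m18v_gauss (h : ModularCurve.ReductionInputsModL A N) :
    m18_Gauss A (ModularCurve.placeReductionModL h) :=
  m18v_gaussOf h.choose_spec.1 h.choose_spec.2

theorem m18v_gauss_O (h : ModularCurve.ReductionInputsModL A N) :
    (m18v_gauss h).O = m18v_O h.choose_spec.2 := rfl

theorem m18v_gauss_red (h : ModularCurve.ReductionInputsModL A N) :
    (m18v_gauss h).red = m18v_redHom h.choose_spec.2 := rfl

theorem m18v_gauss_mem_iff (h : ModularCurve.ReductionInputsModL A N) {x : m18v_F N} :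
    x ∈ (m18v_gauss h).O ↔ m18v_Int A N x := Iff.rfl

theorem m18v_gauss_red_surjective (h : ModularCurve.ReductionInputsModL A N) :
    Function.Surjective (m18v_gauss h).red :=
  m18v_redHom_surjective h.choose_spec.2

/-- an integral `q`-series lying in `F` is in the Gauss ring, and its reduction is the
coefficientwise reduction. -/
theorem m18v_gauss_of_incl (h : ModularCurve.ReductionInputsModL A N) {x : m18v_F N}
    {X : LaurentSeries A} (hX : (x : LaurentSeries m18v_K) = m18v_incl A X) :
    ∃ hx : x ∈ (m18v_gauss h).O,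
      (((m18v_gauss h).red ⟨x, hx⟩ : m18v_Ft A N) : LaurentSeries (m18v_k A)) =
        m18v_redq A X :=
  ⟨m18v_Int_of_incl hX, m18v_redL_of_incl hX⟩

/-- the generators `j(q^d)`, `d ∣ N`, are in the Gauss ring and reduce to `j~(q^d)`. -/
theorem m18v_gauss_jd (h : ModularCurve.ReductionInputsModL A N) (d : ℕ) [NeZero d]
    (hd : d ∣ N) :
    ∃ (x : m18v_F N) (hx : x ∈ (m18v_gauss h).O),
      (x : LaurentSeries m18v_K) = jqNModC m18v_K d ∧
      (((m18v_gauss h).red ⟨x, hx⟩ : m18v_Ft A N) : LaurentSeries (m18v_k A)) =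
        jqNModC (m18v_k A) d := by
  have hG := m18v_G_jd A N d hd
  refine ⟨m18v_GF hG, m18v_Int_GF hG, ?_, ?_⟩
  · show coeffMap A.subtype (jqNModC A d) = _
    rw [coeffMap_jqNModC]
  · show m18v_redL A N (m18v_GF hG) = _
    rw [m18v_redL_GF]
    show coeffMap (IsLocalRing.residue A) (jqNModC A d) = _
    rw [coeffMap_jqNModC]

end Fermat.Agent.M18

end
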