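/-
M18 (S18 project), top assembly, owner helper5.  Prefix `m18_`.

`m18_top` : the statement of S18 (verbatim), from the only remaining input
`∃ g, m18_Riem K F g ∧ m18_NSC (m18v_gauss h) g` (Riemann's inequality on `F` with bound `g` and
`g` non-special places with coordinates on the reduction).
-/
import Fermat.Agent.M18.Defs
import Fermat.Agent.M18.TopRed
import Fermat.Agent.M18.CoreMain
import Fermat.Agent.M18.VGauss
import Fermat.Agent.M18.ResField

set_option autoImplicit false
set_option linter.deprecated false
set_option linter.unusedSectionVars false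
set_option linter.unusedVariables false
set_option linter.style.haveILetI false
set_option synthInstance.maxHeartbeats 400000

noncomputable section

namespace Fermat.Agent.M18

open AlgebraicCurve ModularCurve Fermat.Agent.S24

/-- the places of the function field of `X₀(N)` over `ℚ̄` have values in `ℚ̄`. -/
theorem m18_hasValues (N : ℕ) [NeZero N] :
    m18_HasValues (AlgebraicClosure ℚ) (modularFunctionFieldBar N) := by
  haveI := ana_finiteDimensional N
  intro P x hx
  obtain ⟨a, ha, -⟩ := alg_exists_value (s24j N) (ana_transcendental N) P x hx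
  exact ⟨a, ha⟩

/-- the places of the function field of `X₀(N)` over `ℚ̄` have degree one. -/
theorem m18_deg_eq_one (N : ℕ) [NeZero N]
    (P : Place (AlgebraicClosure ℚ) (modularFunctionFieldBar N)) : P.deg = 1 := by
  haveI := ana_finiteDimensional N
  exact alg_deg_eq_one (s24j N) (ana_transcendental N) P

/-- **S18** from Riemann's inequality on `F` and non-special places with coordinates on the
reduction. -/
theorem m18_top (N : ℕ) [NeZero N] {ℓ : ℕ} [Fact ℓ.Prime] (hℓN : ¬ ℓ ∣ N)
    (A : ValuationSubring (AlgebraicClosure ℚ)) (hA : A.LiesOverPrime ℓ)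
    (h : ModularCurve.ReductionInputsModL A N)
    (hGEN : ∃ g : ℕ, m18_Riem (AlgebraicClosure ℚ) (modularFunctionFieldBar N) g ∧
      m18_NSC (m18v_gauss h) g)
    (m : ℕ) (hm : ¬ ℓ ∣ m) (z : ModularCurve.JZero N)
    (hmz : m • z = 0) (hz : ModularCurve.reductionModL A N z = 0) : z = 0 := by
  obtain ⟨g, hR, hNSC⟩ := hGEN
  exact m18_of_core N A h m
    (m18c_core (m18v_gauss h) g m (m18rf_natCast_ne_zero A ℓ hA hm) hR hNSC (m18_hasValues N)
      (m18v_hasPrincipalDivisors N) (m18_deg_eq_one N)) z hmz hz

end Fermat.Agent.M18

end
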