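/-
M18 (S18 project), block (GEN), concrete instantiation, owner helper5.  Prefix `m18inst_`.

`m18inst_gen_of` : the input `∃ g, m18_Riem K F g ∧ m18_NSC (m18v_gauss h) g` of `m18_top`, from

* `hsep`  : separability of `F~_N / k(j~)`                                  [(CUSP), helper8];
* `htube` : no pole of `j` specialises to a non-pole of `j~`                  [(P5), helper3];
* `hW`    : the Dedekind bound `e - 1 ≤ W~` at the finite places of `F~_N`    [(B4), helper1];
* `hle`   : `g ≤ g~` for the genera `ℓ(W_j)`, `ℓ(W~_{j~})`                      [(NRM) + (SQ)].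

`m18inst_S18_of` : the statement of S18 from the same four inputs.
-/
import Fermat.Agent.M18.Top
import Fermat.Agent.M18.GenCoord
import Fermat.Agent.M18.RrGb
import Fermat.Agent.M18.SqDeg

set_option autoImplicit false
set_option linter.deprecated false
set_option linter.unusedSectionVars false
set_option linter.unusedVariables false
set_option linter.style.haveILetI false
set_option synthInstance.maxHeartbeats 400000
set_option maxHeartbeats 1600000

noncomputable section

namespace Fermat.Agent.M18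

open AlgebraicCurve ModularCurve IntermediateField Module
open Fermat.Agent.S20 Fermat.Agent.S24

variable {A : ValuationSubring m18v_K} {N : ℕ} [NeZero N]

/-- `j`, as an element of the Gauss ring, with reduction `j~`. -/
theorem m18inst_exists_j (h : ModularCurve.ReductionInputsModL A N) :
    ∃ x : (m18v_gauss h).O, (x : m18v_F N) = s24j N ∧ (m18v_gauss h).red x = m18sq_jt A N := by
  obtain ⟨x, hx, hx1, hx2⟩ := m18v_gauss_jd h 1 (one_dvd N)
  refine ⟨⟨x, hx⟩, ?_, ?_⟩
  · apply Subtype.ext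
    rw [hx1, jqNModC_one, m18sq_coe_s24j]
  · apply Subtype.ext
    rw [hx2, jqNModC_one]
    rfl

/-- **(GEN), concrete form.** -/
theorem m18inst_gen_of {ℓ : ℕ} [Fact ℓ.Prime] (hℓN : ¬ ℓ ∣ N) (hA : A.LiesOverPrime ℓ)
    (h : ModularCurve.ReductionInputsModL A N)
    (hsep : Algebra.IsSeparable ↥((m18v_k A)⟮m18sq_jt A N⟯) (m18v_Ft A N))
    (htube : ∀ P : Place m18v_K (m18v_F N),
      0 ≤ (ModularCurve.placeReductionModL h P).ord (m18sq_jt A N) → 0 ≤ P.ord (s24j N))
    (hW : ∀ (v : Place (m18v_k A) (m18v_Ft A N)) (a : m18v_k A),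
      0 < v.ord (m18sq_jt A N - algebraMap (m18v_k A) (m18v_Ft A N) a) →
      v.ord (m18sq_jt A N - algebraMap (m18v_k A) (m18v_Ft A N) a) - 1
        ≤ m18rr_W (K := m18v_k A) (m18sq_jt A N) v)
    (hle : finrank m18v_K (riemannRochSpace (m18rr_W (K := m18v_K) (s24j N)))
      ≤ finrank (m18v_k A) (riemannRochSpace (m18rr_W (K := m18v_k A) (m18sq_jt A N)))) :
    ∃ g : ℕ, m18_Riem m18v_K (m18v_F N) g ∧ m18_NSC (m18v_gauss h) g := by
  classical
  haveI : IsAlgClosed (m18v_k A) := m18sq_isAlgClosed A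
  haveI := (m18sq_finrank_res hA hℓN).1
  haveI := hsep
  haveI hfin0 : FiniteDimensional (IntermediateField.adjoin s24K {s24j N}) (s24F N) :=
    deg_finiteDimensional N
  haveI := m18rr_isSeparable_of_charZero (K := s24K) (s24j N)
  have hjt : Transcendental (m18v_k A) (m18sq_jt A N) := m18sq_jt_transcendental
  obtain ⟨x, hxcoe, hxred⟩ := m18inst_exists_j h
  obtain ⟨Pstar, -⟩ := m18rr_exists_pole (K := s24K) (s24j N) (ana_transcendental N)
  have hR : m18_Riem m18v_K (m18v_F N)
      (finrank m18v_K (riemannRochSpace (m18rr_W (K := m18v_K) (s24j N)))) :=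
    m18rr_Riem (s24j N) (ana_transcendental N)
  have h0 : finrank (m18v_k A) (riemannRochSpace (0 : Divisor (m18v_k A) (m18v_Ft A N))) = 1 :=
    m18rr_finrank_zero (m18sq_jt A N) hjt
  have hstep : ∀ D : Divisor (m18v_k A) (m18v_Ft A N), (∀ v, 0 ≤ D v) →
      finrank (m18v_k A) (riemannRochSpace D) = 1 →
      Divisor.degree D
        < (finrank (m18v_k A) (riemannRochSpace (m18rr_W (K := m18v_k A) (m18sq_jt A N))) : ℕ) →
      ∃ T : Finset (Place (m18v_k A) (m18v_Ft A N)), ∀ Q, Q ∉ T →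
        finrank (m18v_k A) (riemannRochSpace (D + Finsupp.single Q 1)) = 1 :=
    fun D _ h1 hdeg => m18rr_nonspecial_step' (m18sq_jt A N) hjt D h1 hdeg
  have hdeg1 : ∀ Q : Place (m18v_k A) (m18v_Ft A N), Q.deg = 1 :=
    fun Q => m18rr_deg_eq_one (m18sq_jt A N) Q
  have hinf : Infinite (Place (m18v_k A) (m18v_Ft A N)) := m18rr_infinite (m18sq_jt A N) hjt
  have htube' : ∀ P : Place m18v_K (m18v_F N),
      0 ≤ (ModularCurve.placeReductionModL h P).ord ((m18v_gauss h).red x) →
        0 ≤ P.ord (x : m18v_F N) := by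
    intro P hP
    rw [hxcoe]
    rw [hxred] at hP
    exact htube P hP
  have hunr : ∀ Q : Place (m18v_k A) (m18v_Ft A N),
      Q ∉ ((m18rr_W (K := m18v_k A) (m18sq_jt A N)).support ∪
        (m18rr_finite_poles_gen (K := m18v_k A) (m18sq_jt A N) hjt).toFinset) →
      0 ≤ Q.ord ((m18v_gauss h).red x) ∧ ∃ c : m18v_k A,
        Q.ord ((m18v_gauss h).red x - algebraMap (m18v_k A) (m18v_Ft A N) c) = 1 := by
    intro Q hQ
    rw [hxred]
    have hQW : m18rr_W (K := m18v_k A) (m18sq_jt A N) Q = 0 :=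
      Finsupp.notMem_support_iff.1 fun hmem => hQ (Finset.mem_union_left _ hmem)
    have hQp : 0 ≤ Q.ord (m18sq_jt A N) :=
      not_lt.1 fun hlt => hQ (Finset.mem_union_right _ ((Set.Finite.mem_toFinset _).2 hlt))
    refine ⟨hQp, ?_⟩
    obtain ⟨c, hc⟩ := m18rr_exists_val (m18sq_jt A N) hjt Q hQp
    refine ⟨c, ?_⟩
    have := hW Q c hc
    rw [hQW] at this
    omega
  exact m18gen_main (m18v_gauss h) _ _ hle hR h0 hstep hdeg1 hinf x htube' _ hunr Pstar

/-- **S18** from separability, the tube property, the Dedekind bound and `g ≤ g~`. -/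
theorem m18inst_S18_of {ℓ : ℕ} [Fact ℓ.Prime] (hℓN : ¬ ℓ ∣ N) (hA : A.LiesOverPrime ℓ)
    (h : ModularCurve.ReductionInputsModL A N)
    (hsep : Algebra.IsSeparable ↥((m18v_k A)⟮m18sq_jt A N⟯) (m18v_Ft A N))
    (htube : ∀ P : Place m18v_K (m18v_F N),
      0 ≤ (ModularCurve.placeReductionModL h P).ord (m18sq_jt A N) → 0 ≤ P.ord (s24j N))
    (hW : ∀ (v : Place (m18v_k A) (m18v_Ft A N)) (a : m18v_k A),
      0 < v.ord (m18sq_jt A N - algebraMap (m18v_k A) (m18v_Ft A N) a) →
      v.ord (m18sq_jt A N - algebraMap (m18v_k A) (m18v_Ft A N) a) - 1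
        ≤ m18rr_W (K := m18v_k A) (m18sq_jt A N) v)
    (hle : finrank m18v_K (riemannRochSpace (m18rr_W (K := m18v_K) (s24j N)))
      ≤ finrank (m18v_k A) (riemannRochSpace (m18rr_W (K := m18v_k A) (m18sq_jt A N))))
    (m : ℕ) (hm : ¬ ℓ ∣ m) (z : ModularCurve.JZero N)
    (hmz : m • z = 0) (hz : ModularCurve.reductionModL A N z = 0) : z = 0 :=
  m18_top N hℓN A hA h (m18inst_gen_of hℓN hA h hsep htube hW hle) m hm z hmz hz

end Fermat.Agent.M18

end
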