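import Fermat.Agent.M18.NrmLoc
import Fermat.Agent.M18.GenInst

/-!
# M18 / (R-d), last mile: from the local comparison to `hle`

* `m18dif_chart` : the chart formula `W_{1/x}(P) = W_x(P) - 2 ord_P x` at every place, from the
  unit case `ord_P x = 0` (the hypothesis `hchart` of `m18nrm_local_inf`);
* `m18dif_genus_le_of_degree_le` : `deg W_x ≤ deg W_y` implies `ℓ(W_x) ≤ ℓ(W_y)` (two function
  fields, any characteristics);
* `m18dif_hle_of_local` : abstract form of `hle` for a Gauss structure `G`, from the local
  comparison at every place;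
* `m18dif_hle_inst` : the concrete hypothesis `hle` of `m18dif_S18_of` / `m18inst_S18_of`.
-/

set_option autoImplicit false
set_option linter.deprecated false
set_option linter.unusedSectionVars false
set_option linter.unusedVariables false
set_option linter.style.haveILetI false
set_option synthInstance.maxHeartbeats 400000
set_option maxHeartbeats 1600000

noncomputable section

namespace Fermat.Agent.M18

open AlgebraicCurve ModularCurve IntermediateField Module
open Fermat.Agent.S20 Fermat.Agent.S24

section chart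

variable {K F : Type*} [Field K] [Field F] [Algebra K F] [IsAlgClosed K]

/-- the chart formula for the divisor of `dx` under `x ↦ x⁻¹`, from the unit case. -/
theorem m18dif_chart (x : F) (hx : Transcendental K x) [FiniteDimensional K⟮x⟯ F]
    [Algebra.IsSeparable K⟮x⟯ F]
    (hunit : ∀ P : Place K F, P.ord x = 0 →
      m18rr_W (K := K) x P = m18rr_W (K := K) x⁻¹ P) (P : Place K F) :
    m18rr_W (K := K) x⁻¹ P = m18rr_W (K := K) x P - 2 * P.ord x := by
  haveI := m18rr_fd_inv (K := K) x
  haveI := m18rr_sep_inv (K := K) x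
  have hxi : Transcendental K x⁻¹ := algaz_transcendental_inv hx
  rcases lt_trichotomy (P.ord x) 0 with h | h | h
  · rw [m18rr_W_inf x hx P h, m18rr_W_fin x⁻¹ hxi P (by rw [Place.ord_inv]; omega)]
    ring
  · rw [hunit P h, h]
    ring
  · have h1 := m18rr_W_inf x⁻¹ hxi P (by rw [Place.ord_inv]; omega)
    rw [inv_inv, Place.ord_inv] at h1
    rw [h1, m18rr_W_fin x hx P h.le]
    ring

end chart

section genus

variable {K F k Fk : Type*} [Field K] [Field F] [Algebra K F] [IsAlgClosed K]
  [Field k] [Field Fk] [Algebra k Fk] [IsAlgClosed k]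

/-- `deg W_x ≤ deg W_y` implies `ℓ(W_x) ≤ ℓ(W_y)`. -/
theorem m18dif_genus_le_of_degree_le (x : F) (hx : Transcendental K x)
    [FiniteDimensional K⟮x⟯ F] [Algebra.IsSeparable K⟮x⟯ F]
    (y : Fk) (hy : Transcendental k y) [FiniteDimensional k⟮y⟯ Fk]
    [Algebra.IsSeparable k⟮y⟯ Fk]
    (h : Divisor.degree (m18rr_W (K := K) x) ≤ Divisor.degree (m18rr_W (K := k) y)) :
    finrank K (riemannRochSpace (m18rr_W (K := K) x))
      ≤ finrank k (riemannRochSpace (m18rr_W (K := k) y)) := by
  have h1 := m18rr_deg_W (K := K) x hx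
  have h2 := m18rr_deg_W (K := k) y hy
  omega

end genus

section abs

variable {K F Fk : Type*} [Field K] [Field F] [Algebra K F] {A : ValuationSubring K}
  [Field Fk] [Algebra (IsLocalRing.ResidueField A) Fk]
  {r : Place K F → Place (IsLocalRing.ResidueField A) Fk} (G : m18_Gauss A r)
  [IsAlgClosed K] [IsAlgClosed (IsLocalRing.ResidueField A)]

/-- **`g ≤ g~` from the local comparison at every place** (abstract Gauss structure). -/
theorem m18dif_hle_of_local (x : F) (hx : Transcendental K x)
    [FiniteDimensional K⟮x⟯ F] [Algebra.IsSeparable K⟮x⟯ F]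
    (xt : Fk) (hxt : Transcendental (IsLocalRing.ResidueField A) xt)
    [FiniteDimensional (IsLocalRing.ResidueField A)⟮xt⟯ Fk]
    [Algebra.IsSeparable (IsLocalRing.ResidueField A)⟮xt⟯ Fk]
    (h : ∀ Q, m18nrm_Local G (m18rr_W (K := K) x)
      (m18rr_W (K := IsLocalRing.ResidueField A) xt) Q) :
    finrank K (riemannRochSpace (m18rr_W (K := K) x))
      ≤ finrank (IsLocalRing.ResidueField A)
        (riemannRochSpace (m18rr_W (K := IsLocalRing.ResidueField A) xt)) := by
  haveI : HasPrincipalDivisors K F := m18rr_principal x hx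
  have hdeg : ∀ P : Place K F, (r P).deg = P.deg := fun P => by
    rw [m18rr_deg_eq_one (K := K) x P,
      m18rr_deg_eq_one (K := IsLocalRing.ResidueField A) xt (r P)]
  exact m18dif_genus_le_of_degree_le x hx xt hxt (m18nrm_degree_le G hdeg _ _ h)

end abs

section inst

variable {A : ValuationSubring m18v_K} {N : ℕ} [NeZero N]

/-- **the hypothesis `hle` of `m18dif_S18_of`**, from the local comparison at every place of
`F~_N`. -/
theorem m18dif_hle_inst {ℓ : ℕ} [Fact ℓ.Prime] (hℓN : ¬ ℓ ∣ N) (hA : A.LiesOverPrime ℓ)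
    (h : ModularCurve.ReductionInputsModL A N)
    (hsep : Algebra.IsSeparable ↥((m18v_k A)⟮m18sq_jt A N⟯) (m18v_Ft A N))
    (hloc : ∀ Q : Place (m18v_k A) (m18v_Ft A N),
      m18nrm_Local (m18v_gauss h) (m18rr_W (K := m18v_K) (s24j N))
        (m18rr_W (K := m18v_k A) (m18sq_jt A N)) Q) :
    finrank m18v_K (riemannRochSpace (m18rr_W (K := m18v_K) (s24j N)))
      ≤ finrank (m18v_k A) (riemannRochSpace (m18rr_W (K := m18v_k A) (m18sq_jt A N))) := by
  haveI : IsAlgClosed (m18v_k A) := m18sq_isAlgClosed A
  haveI := (m18sq_finrank_res hA hℓN).1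
  haveI := hsep
  haveI hfin0 : FiniteDimensional (IntermediateField.adjoin s24K {s24j N}) (s24F N) :=
    deg_finiteDimensional N
  haveI := m18rr_isSeparable_of_charZero (K := s24K) (s24j N)
  have hjt : Transcendental (m18v_k A) (m18sq_jt A N) := m18sq_jt_transcendental
  exact m18dif_hle_of_local (m18v_gauss h) (s24j N) (ana_transcendental N)
    (m18sq_jt A N) hjt hloc

end inst

end Fermat.Agent.M18

end
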