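import Fermat.Agent.M18.GenInst
import Fermat.Agent.M18.DifPlaceW

/-!
# M18 / (R3) bridge, instantiation: the hypothesis `hW` of `m18inst_gen_of` / `m18inst_S18_of`

The Dedekind bound `e - 1 ≤ W~` at the finite places of `F~_N = modularFunctionFieldFullC k N`
(`k` the residue field of `A`), from separability of `F~_N / k(j~)`.

* `m18dif_hW_inst` : the hypothesis `hW` of helper5's `m18inst_gen_of`, `m18inst_S18_of`;
* `m18dif_S18_of` : the statement of S18 from the three remaining inputs `hsep`, `htube`, `hle`.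
-/

set_option autoImplicit false
set_option linter.deprecated false
set_option linter.unusedSectionVars false
set_option linter.unusedVariables false
set_option linter.style.haveILetI false
set_option synthInstance.maxHeartbeats 400000
set_option maxHeartbeats 1600000

noncomputable section

namespace Fermat.Agent.M18

open AlgebraicCurve ModularCurve IntermediateField Module
open Fermat.Agent.S20 Fermat.Agent.S24

variable {A : ValuationSubring m18v_K} {N : ℕ} [NeZero N]

/-- The Dedekind bound at the finite places of `F~_N`: the hypothesis `hW` of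
`m18inst_gen_of`. -/
theorem m18dif_hW_inst {ℓ : ℕ} [Fact ℓ.Prime] (hℓN : ¬ ℓ ∣ N) (hA : A.LiesOverPrime ℓ)
    (hsep : Algebra.IsSeparable ↥((m18v_k A)⟮m18sq_jt A N⟯) (m18v_Ft A N)) :
    ∀ (v : Place (m18v_k A) (m18v_Ft A N)) (a : m18v_k A),
      0 < v.ord (m18sq_jt A N - algebraMap (m18v_k A) (m18v_Ft A N) a) →
      v.ord (m18sq_jt A N - algebraMap (m18v_k A) (m18v_Ft A N) a) - 1
        ≤ m18rr_W (K := m18v_k A) (m18sq_jt A N) v := by
  haveI : IsAlgClosed (m18v_k A) := m18sq_isAlgClosed A
  haveI := (m18sq_finrank_res hA hℓN).1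
  haveI := hsep
  have hjt : Transcendental (m18v_k A) (m18sq_jt A N) := m18sq_jt_transcendental
  exact fun v a h => m18dif_W_ge_fin (K := m18v_k A) (m18sq_jt A N) hjt v a h

/-- **S18** from separability, the tube property and `g ≤ g~`. -/
theorem m18dif_S18_of {ℓ : ℕ} [Fact ℓ.Prime] (hℓN : ¬ ℓ ∣ N) (hA : A.LiesOverPrime ℓ)
    (h : ModularCurve.ReductionInputsModL A N)
    (hsep : Algebra.IsSeparable ↥((m18v_k A)⟮m18sq_jt A N⟯) (m18v_Ft A N))
    (htube : ∀ P : Place m18v_K (m18v_F N),
      0 ≤ (ModularCurve.placeReductionModL h P).ord (m18sq_jt A N) → 0 ≤ P.ord (s24j N))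
    (hle : finrank m18v_K (riemannRochSpace (m18rr_W (K := m18v_K) (s24j N)))
      ≤ finrank (m18v_k A) (riemannRochSpace (m18rr_W (K := m18v_k A) (m18sq_jt A N))))
    (m : ℕ) (hm : ¬ ℓ ∣ m) (z : ModularCurve.JZero N)
    (hmz : m • z = 0) (hz : ModularCurve.reductionModL A N z = 0) : z = 0 :=
  m18inst_S18_of hℓN hA h hsep htube (m18dif_hW_inst hℓN hA hsep) hle m hm z hmz hz

end Fermat.Agent.M18
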