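import Fermat.Agent.M18.NrpPlace

/-!
# M18 / (NRP), part 3: norms of uniformisers which are units at the other places of the fibre

Same setting as `NrpPlace.lean`.  `m18nrp_exists_unit`: for a place `Q` of `F` which is a zero of
`x - c` there is `t : F'`, integral over `K[x]`, such that `N_{F'/F} t` has order one at `Q` and
order zero at every other zero of `x - c`.
-/

set_option autoImplicit false
set_option linter.style.haveILetI false
set_option linter.unusedSectionVars false
set_option linter.unusedVariables false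
set_option linter.deprecated false

noncomputable section

namespace Fermat.Agent.M18

open AlgebraicCurve IsDedekindDomain Fermat.Agent.S24 Ideal

section core

variable (R : Type*) {S : Type*} [CommRing R] [CommRing S] [Algebra R S]
variable [IsDedekindDomain R] [IsDedekindDomain S]
  [Module.IsTorsionFree R S] [Module.Finite R S]

omit [Algebra R S] [Module.IsTorsionFree R S] [Module.Finite R S] [IsDedekindDomain R] in
/-- Chinese remainder theorem: a uniformiser at `P₁` which is a unit at the other primes of a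
finite set. -/
theorem m18nrp_exists_simple_finset (T : Finset (Ideal S)) (hT : ∀ P ∈ T, P.IsPrime ∧ P ≠ ⊥)
    (P₁ : Ideal S) (hP₁ : P₁ ∈ T) :
    ∃ t : S, t ∈ P₁ ∧ t ∉ P₁ ^ 2 ∧ ∀ P ∈ T, P ≠ P₁ → t ∉ P := by
  classical
  have hP₁0 : P₁ ≠ ⊥ := (hT P₁ hP₁).2
  have hP₁top : P₁ ≠ ⊤ := Ideal.IsPrime.ne_top (hT P₁ hP₁).1
  have hlt : P₁ ^ 2 < P₁ := by
    have := Ideal.pow_right_strictAnti P₁ hP₁0 hP₁top (show 1 < 2 by norm_num)
    simpa using this
  obtain ⟨π, hπ1, hπ2⟩ := SetLike.exists_of_lt hlt
  obtain ⟨y, hy⟩ := IsDedekindDomain.exists_forall_sub_mem_ideal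
    (s := T) (fun Q : Ideal S => Q)
    (fun Q => if Q = P₁ then 2 else 1)
    (fun Q hQ => Ideal.prime_of_isPrime (hT Q hQ).2 (hT Q hQ).1)
    (fun Q _ Q' _ h => h)
    (fun Q => if (Q : Ideal S) = P₁ then π else 1)
  have h1 := hy P₁ hP₁
  simp only [if_true] at h1
  refine ⟨y, ?_, ?_, ?_⟩
  · have h2 : y - π ∈ P₁ := Ideal.pow_le_self two_ne_zero h1
    have := P₁.add_mem h2 hπ1
    simpa using this
  · intro h3
    apply hπ2
    have := (P₁ ^ 2).sub_mem h3 h1
    simpa using this
  · intro P hP hPP hyP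
    have h2 := hy P hP
    simp only [hPP, if_false, pow_one] at h2
    have := P.sub_mem hyP h2
    rw [sub_sub_cancel] at this
    exact (Ideal.IsPrime.ne_top (hT P hP).1) ((Ideal.eq_top_iff_one P).mpr this)

/-- If `t` lies in no prime over `q`, its norm does not lie in `q`. -/
theorem m18nrp_intNorm_not_mem (q : Ideal R) [q.IsMaximal] (hq : q ≠ ⊥) (t : S) (ht0 : t ≠ 0)
    (ht : ∀ P : Ideal S, P.IsPrime → P.LiesOver q → t ∉ P) : Algebra.intNorm R S t ∉ q := by
  have h1 : ¬ q ∣ relNorm R (Ideal.span {t}) :=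
    m18nrp_not_dvd_relNorm R q hq (Ideal.span {t})
      (by rwa [ne_eq, Ideal.span_singleton_eq_bot])
      (fun P hP hPq hdvd => ht P hP hPq (Ideal.dvd_span_singleton.mp hdvd))
  rw [Ideal.relNorm_singleton, Ideal.dvd_span_singleton] at h1
  exact h1

end core

section abs

variable {K F F' : Type*} [Field K] [Field F] [Field F'] [Algebra K F] [Algebra K F']
  [Algebra F F'] [IsScalarTower K F F']
variable {R S : Type*} [CommRing R] [CommRing S] [IsDedekindDomain R] [IsDedekindDomain S]
  [Algebra R S] [Module.Finite R S] [Module.IsTorsionFree R S]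
  [Algebra R F] [IsFractionRing R F] [Algebra S F'] [IsFractionRing S F']
  [Algebra R F'] [IsScalarTower R F F'] [IsScalarTower R S F']
  [Algebra K R] [IsScalarTower K R F]

/-- The order of an element outside `p` at the place of `p` is zero. -/
theorem m18nrp_ord_eq_zero_of_not_mem (w : HeightOneSpectrum R) (n : R) (h1 : n ∉ w.asIdeal) :
    (Place.ofHeightOneSpectrum (K := K) (F := F) w).ord (algebraMap R F n) = 0 := by
  rw [algad_ord_eq (K := K) w, HeightOneSpectrum.valuation_of_algebraMap,
    (w.intValuation_eq_one_iff).mpr h1]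
  simp

/-- **Abstract existence, with units at the other places of the fibre of `d`.** -/
theorem m18nrp_exists_unit_abs [IsAlgClosed K] [Algebra K S] [IsScalarTower K R S]
    [Algebra.FiniteType K R] [FiniteDimensional F F'] [IsIntegralClosure S R F']
    (d : R) (hd : d ≠ 0)
    (Q : Place K F) (hQ : ∀ r : R, algebraMap R F r ∈ Q.toValuationSubring)
    (hQd : 0 < Q.ord (algebraMap R F d)) :
    ∃ t : S, Q.ord (Algebra.norm F (algebraMap S F' t)) = 1 ∧
      ∀ Q2 : Place K F, (∀ r : R, algebraMap R F r ∈ Q2.toValuationSubring) →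
        0 < Q2.ord (algebraMap R F d) → Q2 ≠ Q →
          Q2.ord (Algebra.norm F (algebraMap S F' t)) = 0 := by
  classical
  obtain ⟨w, hw, hwmem⟩ := algad_exists_heightOneSpectrum (K := K) (F := F) (R := R) Q hQ
  haveI : w.asIdeal.IsMaximal := w.isMaximal
  have hres : ∀ (p : Ideal R) [p.IsMaximal] (P : Ideal S), P.IsPrime → P.LiesOver p →
      ∀ b : S, ∃ a : R, b - algebraMap R S a ∈ P := by
    intro p _ P hP hPp
    haveI : P.IsMaximal := Ideal.IsMaximal.of_liesOver_isMaximal P p
    exact m18nrp_resdeg_one R K P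
  have hdS : algebraMap R S d ≠ 0 := by
    intro h
    exact hd ((FaithfulSMul.algebraMap_injective R S) (by rw [h, map_zero]))
  have hI : Ideal.span {algebraMap R S d} ≠ 0 := by
    rw [Ideal.zero_eq_bot, ne_eq, Ideal.span_singleton_eq_bot]
    exact hdS
  -- the finite set of primes of `S` containing `d`
  set T : Finset (Ideal S) :=
    (Ideal.finite_factors hI).toFinset.image (fun v : HeightOneSpectrum S => v.asIdeal) with hTdef
  have hTmem : ∀ P : Ideal S, P.IsPrime → P ≠ ⊥ → algebraMap R S d ∈ P → P ∈ T := by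
    intro P hP hP0 hdP
    rw [hTdef, Finset.mem_image]
    refine ⟨⟨P, hP, hP0⟩, ?_, rfl⟩
    rw [Set.Finite.mem_toFinset, Set.mem_setOf_eq, Ideal.dvd_span_singleton]
    exact hdP
  have hT : ∀ P ∈ T, P.IsPrime ∧ P ≠ ⊥ := by
    intro P hP
    rw [hTdef, Finset.mem_image] at hP
    obtain ⟨v, -, rfl⟩ := hP
    exact ⟨v.isPrime, v.ne_bot⟩
  have hover : ∀ (p : Ideal R), p ≠ ⊥ → d ∈ p → ∀ P : Ideal S, P.IsPrime → P.LiesOver p →
      P ∈ T := by
    intro p hp hdp P hP hPp
    refine hTmem P hP (Ideal.ne_bot_of_liesOver_of_ne_bot hp P) ?_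
    have h1 : d ∈ P.under R := by
      rw [← (Ideal.liesOver_iff P p).mp hPp]
      exact hdp
    exact h1
  have hdw : d ∈ w.asIdeal := (hwmem d).mpr (Or.inr hQd)
  obtain ⟨P₁, hP₁, hP₁p⟩ : ∃ P₁ : Ideal S, P₁.IsPrime ∧ P₁.LiesOver w.asIdeal := by
    obtain ⟨⟨Q, hQ1, hQ2⟩⟩ := w.asIdeal.nonempty_primesOver (S := S)
    exact ⟨Q, hQ1, hQ2⟩
  obtain ⟨t, ht1, ht2, ht3⟩ := m18nrp_exists_simple_finset T hT P₁
    (hover w.asIdeal w.ne_bot hdw P₁ hP₁ hP₁p)
  have ht0 : t ≠ 0 := by
    rintro rfl
    exact ht2 (Ideal.zero_mem _)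
  refine ⟨t, ?_, ?_⟩
  · have h := m18nrp_intNorm_of_simple R w.asIdeal w.ne_bot
      (fun P hP hPp => hres w.asIdeal P hP hPp) P₁ t ht1 ht2
      (fun P hP hPp hne => ht3 P (hover w.asIdeal w.ne_bot hdw P hP hPp) hne)
    rw [← Algebra.algebraMap_intNorm (A := R) (K := F) (L := F') (B := S), ← hw]
    exact m18nrp_ord_eq_one_of_mem w _ h.1 h.2
  · intro Q2 hQ2 hQ2d hne
    obtain ⟨w2, hw2, hw2mem⟩ := algad_exists_heightOneSpectrum (K := K) (F := F) (R := R) Q2 hQ2
    haveI : w2.asIdeal.IsMaximal := w2.isMaximal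
    have hdw2 : d ∈ w2.asIdeal := (hw2mem d).mpr (Or.inr hQ2d)
    have hww : w2.asIdeal ≠ w.asIdeal := by
      intro h
      apply hne
      rw [← hw2, ← hw, HeightOneSpectrum.ext h]
    have h := m18nrp_intNorm_not_mem R w2.asIdeal w2.ne_bot t ht0 (fun P hP hPp htP => by
      have hPT := hover w2.asIdeal w2.ne_bot hdw2 P hP hPp
      by_cases hPP : P = P₁
      · subst hPP
        apply hww
        rw [(Ideal.liesOver_iff P w2.asIdeal).mp hPp, (Ideal.liesOver_iff P w.asIdeal).mp hP₁p]
      · exact ht3 P hPT hPP htP)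
    rw [← Algebra.algebraMap_intNorm (A := R) (K := F) (L := F') (B := S), ← hw2]
    exact m18nrp_ord_eq_zero_of_not_mem w2 _ h

end abs

section concrete

open IntermediateField Polynomial
open scoped IntermediateField.algebraAdjoinAdjoin

variable {K F F' : Type*} [Field K] [Field F] [Field F'] [Algebra K F] [Algebra K F']
  [Algebra F F'] [IsScalarTower K F F'] [IsAlgClosed K]

omit [IsAlgClosed K] in
/-- A zero of `x - c` is a place at which `x` is regular. -/
theorem m18nrp_ord_nonneg_of_sub (x : F) (c : K) (v : Place K F)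
    (hv : 0 < v.ord (x - algebraMap K F c)) : 0 ≤ v.ord x := by
  apply alga_ord_nonneg_of_mem
  have h1 : x - algebraMap K F c ∈ v.toValuationSubring := alga_mem_of_ord_nonneg v hv.le
  have h2 : algebraMap K F c ∈ v.toValuationSubring := v.algebraMap_mem' c
  have h3 := v.toValuationSubring.add_mem _ _ h1 h2
  rwa [sub_add_cancel] at h3

/-- **(P1)**: for a zero `Q` of `x - c` there is `t : F'`, integral over `K[x]`, whose norm has
order one at `Q` and order zero at the other zeros of `x - c`. -/
theorem m18nrp_exists_unit (x : F) (hx : Transcendental K x) [FiniteDimensional K⟮x⟯ F]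
    [Algebra.IsSeparable K⟮x⟯ F] [FiniteDimensional F F'] [Algebra.IsSeparable F F']
    (c : K) (Q : Place K F) (hQ : 0 < Q.ord (x - algebraMap K F c)) :
    ∃ t : F', IsIntegral (Algebra.adjoin K ({x} : Set F)) t ∧
      (∀ v : Place K F', 0 ≤ v.ord (algebraMap F F' x) → 0 ≤ v.ord t) ∧
      Q.ord (Algebra.norm F t) = 1 ∧
      ∀ Q2 : Place K F, 0 < Q2.ord (x - algebraMap K F c) → Q2 ≠ Q →
        Q2.ord (Algebra.norm F t) = 0 := by
  classical
  have hDed : IsDedekindDomain (Algebra.adjoin K ({x} : Set F)) := algaz_isDedekindDomain x hx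
  have hDedR : IsDedekindDomain (integralClosure (Algebra.adjoin K ({x} : Set F)) F) :=
    integralClosure.isDedekindDomain (Algebra.adjoin K ({x} : Set F)) K⟮x⟯ F
  have hFracR : IsFractionRing (integralClosure (Algebra.adjoin K ({x} : Set F)) F) F :=
    integralClosure.isFractionRing_of_finite_extension K⟮x⟯ F
  have hFinR : Module.Finite (Algebra.adjoin K ({x} : Set F))
      (integralClosure (Algebra.adjoin K ({x} : Set F)) F) :=
    IsIntegralClosure.finite (Algebra.adjoin K ({x} : Set F)) K⟮x⟯ F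
      (integralClosure (Algebra.adjoin K ({x} : Set F)) F)
  have hDedS : IsDedekindDomain
      (integralClosure (integralClosure (Algebra.adjoin K ({x} : Set F)) F) F') :=
    integralClosure.isDedekindDomain (integralClosure (Algebra.adjoin K ({x} : Set F)) F) F F'
  have hFracS : IsFractionRing
      (integralClosure (integralClosure (Algebra.adjoin K ({x} : Set F)) F) F') F' :=
    integralClosure.isFractionRing_of_finite_extension F F'
  have hFinS : Module.Finite (integralClosure (Algebra.adjoin K ({x} : Set F)) F)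
      (integralClosure (integralClosure (Algebra.adjoin K ({x} : Set F)) F) F') :=
    IsIntegralClosure.finite (integralClosure (Algebra.adjoin K ({x} : Set F)) F) F F'
      (integralClosure (integralClosure (Algebra.adjoin K ({x} : Set F)) F) F')
  have hFT0 : Algebra.FiniteType K (Algebra.adjoin K ({x} : Set F)) :=
    Algebra.FiniteType.adjoin_of_finite (Set.finite_singleton x)
  have hFTR : Algebra.FiniteType K (integralClosure (Algebra.adjoin K ({x} : Set F)) F) :=
    Algebra.FiniteType.trans hFT0 inferInstance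
  have hR : ∀ v : Place K F, 0 ≤ v.ord x →
      ∀ r : integralClosure (Algebra.adjoin K ({x} : Set F)) F,
      algebraMap (integralClosure (Algebra.adjoin K ({x} : Set F)) F) F r
        ∈ v.toValuationSubring := fun v hv r =>
    algad_integral_mem (K := K) (F := F) (A := Algebra.adjoin K ({x} : Set F))
      (B := integralClosure (Algebra.adjoin K ({x} : Set F)) F) v
      (fun a => m18nrp_adjoin_mem x v hv a.2) r
  -- the element `x - c` of `R`
  have hdint : IsIntegral (Algebra.adjoin K ({x} : Set F)) (x - algebraMap K F c) :=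
    isIntegral_algebraMap
      (x := algaz_gen (K := K) x - algebraMap K (Algebra.adjoin K ({x} : Set F)) c)
  have hd0 : (⟨x - algebraMap K F c, hdint⟩ :
      integralClosure (Algebra.adjoin K ({x} : Set F)) F) ≠ 0 := by
    intro h
    have h1 : x - algebraMap K F c = 0 := congrArg Subtype.val h
    apply hx
    rw [sub_eq_zero.mp h1]
    exact isAlgebraic_algebraMap c
  obtain ⟨t, ht, ht'⟩ := m18nrp_exists_unit_abs (K := K) (F := F) (F' := F')
    (R := integralClosure (Algebra.adjoin K ({x} : Set F)) F)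
    (S := integralClosure (integralClosure (Algebra.adjoin K ({x} : Set F)) F) F')
    ⟨x - algebraMap K F c, hdint⟩ hd0 Q (hR Q (m18nrp_ord_nonneg_of_sub x c Q hQ)) hQ
  have hint : IsIntegral (Algebra.adjoin K ({x} : Set F)) (t : F') := by
    have h1 : IsIntegral (integralClosure (Algebra.adjoin K ({x} : Set F)) F) (t : F') := t.2
    exact isIntegral_trans (A := integralClosure (Algebra.adjoin K ({x} : Set F)) F) _ h1
  refine ⟨(t : F'), hint, fun v hv => m18nrp_ord_nonneg_of_isIntegral x hint v hv, ht, ?_⟩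
  intro Q2 hQ2 hne
  exact ht' Q2 (hR Q2 (m18nrp_ord_nonneg_of_sub x c Q2 hQ2)) hQ2 hne

omit [IsAlgClosed K] [Field F'] [Algebra K F'] [Algebra F F'] [IsScalarTower K F F'] in
theorem m18nrp_finiteDimensional_congr {E₁ E₂ : IntermediateField K F} (h : E₁ = E₂)
    [FiniteDimensional E₂ F] : FiniteDimensional E₁ F := by
  subst h
  infer_instance

omit [IsAlgClosed K] [Field F'] [Algebra K F'] [Algebra F F'] [IsScalarTower K F F'] in
theorem m18nrp_isSeparable_congr {E₁ E₂ : IntermediateField K F} (h : E₁ = E₂)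
    [Algebra.IsSeparable E₂ F] : Algebra.IsSeparable E₁ F := by
  subst h
  infer_instance

/-- **(P1) at the poles of `x`**: for a pole `Q` of `x` there is `t : F'`, integral over
`K[x⁻¹]`, whose norm has order one at `Q` and order zero at the other poles of `x`. -/
theorem m18nrp_exists_unit_pole (x : F) (hx : Transcendental K x) [FiniteDimensional K⟮x⟯ F]
    [Algebra.IsSeparable K⟮x⟯ F] [FiniteDimensional F F'] [Algebra.IsSeparable F F']
    (Q : Place K F) (hQ : Q.ord x < 0) :
    ∃ t : F', IsIntegral (Algebra.adjoin K ({x⁻¹} : Set F)) t ∧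
      (∀ v : Place K F', v.ord (algebraMap F F' x) ≤ 0 → 0 ≤ v.ord t) ∧
      Q.ord (Algebra.norm F t) = 1 ∧
      ∀ Q2 : Place K F, Q2.ord x < 0 → Q2 ≠ Q → Q2.ord (Algebra.norm F t) = 0 := by
  haveI : FiniteDimensional K⟮x⁻¹⟯ F := m18nrp_finiteDimensional_congr (algaz_adjoin_inv x)
  haveI : Algebra.IsSeparable K⟮x⁻¹⟯ F := m18nrp_isSeparable_congr (algaz_adjoin_inv x)
  have hx' : Transcendental K x⁻¹ := algaz_transcendental_inv hx
  have key : ∀ v : Place K F, v.ord x < 0 → 0 < v.ord (x⁻¹ - algebraMap K F 0) := by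
    intro v hv
    rw [map_zero, sub_zero, Place.ord_inv]
    omega
  obtain ⟨t, ht1, ht2, ht3, ht4⟩ := m18nrp_exists_unit (K := K) (F := F) (F' := F') x⁻¹ hx' 0 Q
    (key Q hQ)
  refine ⟨t, ht1, ?_, ht3, fun Q2 hQ2 hne => ht4 Q2 (key Q2 hQ2) hne⟩
  intro v hv
  apply ht2 v
  rw [map_inv₀, Place.ord_inv]
  omega

end concrete

end Fermat.Agent.M18
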