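import Fermat.Agent.M18.NrmMain
import Fermat.Agent.M18.NrpUnit

/-!
# M18 (S18 project), block (NRM), part (R-b): the elements `s` as norms from an auxiliary level

Owner helper2, prefix `m18nrm_`.  Abstract setting of `Defs.lean` (`G : m18_Gauss A r` for
`F`, `Fk`), together with finite extensions `F ⊂ F'`, `Fk ⊂ Fk'` of the same degree, a subring
`O' ⊂ F'` with a surjective reduction `red' : O' →+* Fk'` compatible with `G`
(`m18nrm_Setup G.O G.red O' red'`), and the lifting property (SQ7) at the level of `F'`: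
every element of `Fk'` integral over `k[red x]` is the reduction of an element of `O'` integral
over `K[x]`.

* `m18nrm_elts_fin`, `m18nrm_elts_inf`: the hypotheses `hfin`, `hinf` of `m18nrm_main_of_elts`
  (the element `s` is the norm of a lift of the element of helper6's `m18nrp_exists_unit`).
* `m18nrm_main_of_lift`: the genus inequality `ℓ(W_x) ≤ ℓ(W~_{red x})` from the lifting property.
-/

set_option autoImplicit false
set_option linter.style.haveILetI false
set_option linter.unusedSectionVars false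
set_option linter.unusedVariables false
set_option linter.deprecated false

noncomputable section

namespace Fermat.Agent.M18

open AlgebraicCurve IntermediateField Polynomial Module

variable {K F Fk : Type*} [Field K] [Field F] [Algebra K F] {A : ValuationSubring K}
  [Field Fk] [Algebra (IsLocalRing.ResidueField A) Fk]
  {r : Place K F → Place (IsLocalRing.ResidueField A) Fk} (G : m18_Gauss A r)
  [IsAlgClosed K] [IsAlgClosed (IsLocalRing.ResidueField A)]
  {F' Fk' : Type*} [Field F'] [Field Fk'] [Algebra K F'] [Algebra F F'] [IsScalarTower K F F']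
  [Algebra (IsLocalRing.ResidueField A) Fk'] [Algebra Fk Fk']
  [IsScalarTower (IsLocalRing.ResidueField A) Fk Fk']
  {O' : Subring F'} {red' : O' →+* Fk'}

/-- the norm of an element of `O'` is Gauss-integral and reduces to the norm of the
reduction. -/
theorem m18nrm_norm_ext (hS : m18nrm_Setup G.O G.red O' red')
    [FiniteDimensional Fk Fk'] (hsurj' : Function.Surjective red')
    (hdd : finrank F F' = finrank Fk Fk') (b : O') :
    ∃ n : G.O, Algebra.norm F (b : F') = (n : F) ∧ Algebra.norm Fk (red' b) = G.red n := by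
  classical
  set bt := Module.finBasis Fk Fk' with hbt
  have hex : ∀ i, ∃ w : O', red' w = bt i := fun i => hsurj' (bt i)
  choose ω hω using hex
  have hd' : finrank F F' = Fintype.card (Fin (finrank Fk Fk')) := by
    rw [Fintype.card_fin]
    exact hdd
  exact m18nrm_norm hS bt ω hω hd' b

/-- the elements `s` at the finite places. -/
theorem m18nrm_elts_fin (hS : m18nrm_Setup G.O G.red O' red')
    [FiniteDimensional Fk Fk'] [Algebra.IsSeparable Fk Fk']
    (hsurj' : Function.Surjective red') (hdd : finrank F F' = finrank Fk Fk')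
    (x : G.O) (hxt : Transcendental (IsLocalRing.ResidueField A) (G.red x))
    [FiniteDimensional (IsLocalRing.ResidueField A)⟮G.red x⟯ Fk]
    [Algebra.IsSeparable (IsLocalRing.ResidueField A)⟮G.red x⟯ Fk]
    (hlift : ∀ t : Fk',
      IsIntegral (Algebra.adjoin (IsLocalRing.ResidueField A) ({G.red x} : Set Fk)) t →
      ∃ b : O', IsIntegral (Algebra.adjoin K ({(x : F)} : Set F)) (b : F') ∧ red' b = t)
    (Q : Place (IsLocalRing.ResidueField A) Fk) (c : IsLocalRing.ResidueField A)
    (hc : 0 < Q.ord (G.red x - algebraMap (IsLocalRing.ResidueField A) Fk c)) :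
    ∃ s : G.O, IsIntegral (Algebra.adjoin K ({(x : F)} : Set F)) (s : F) ∧
      IsIntegral (Algebra.adjoin (IsLocalRing.ResidueField A) ({G.red x} : Set Fk))
        (G.red s) ∧
      Q.ord (G.red s) = 1 ∧
      ∀ Q₂ : Place (IsLocalRing.ResidueField A) Fk, Q₂ ≠ Q →
        0 < Q₂.ord (G.red x - algebraMap (IsLocalRing.ResidueField A) Fk c) →
        Q₂.ord (G.red s) ≤ 0 := by
  obtain ⟨t, ht1, -, ht3, ht4⟩ := m18nrp_exists_unit (K := IsLocalRing.ResidueField A)
    (F := Fk) (F' := Fk') (G.red x) hxt c Q hc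
  obtain ⟨b, hb1, hb2⟩ := hlift t ht1
  obtain ⟨n, hn1, hn2⟩ := m18nrm_norm_ext G hS hsurj' hdd b
  refine ⟨n, ?_, ?_, ?_, ?_⟩
  · rw [← hn1]
    exact m18nrp_isIntegral_norm (K := K) (x : F) hb1
  · rw [← hn2, hb2]
    exact m18nrp_isIntegral_norm (K := IsLocalRing.ResidueField A) (G.red x) ht1
  · rw [← hn2, hb2]
    exact ht3
  · intro Q₂ hne hpos
    rw [← hn2, hb2, ht4 Q₂ hpos hne]

/-- the elements `s` at the poles. -/
theorem m18nrm_elts_inf (hS : m18nrm_Setup G.O G.red O' red')
    [FiniteDimensional Fk Fk'] [Algebra.IsSeparable Fk Fk']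
    (hsurj' : Function.Surjective red') (hdd : finrank F F' = finrank Fk Fk')
    (x : G.O) (hxt : Transcendental (IsLocalRing.ResidueField A) (G.red x))
    [FiniteDimensional (IsLocalRing.ResidueField A)⟮G.red x⟯ Fk]
    [Algebra.IsSeparable (IsLocalRing.ResidueField A)⟮G.red x⟯ Fk]
    (hlifti : ∀ t : Fk',
      IsIntegral (Algebra.adjoin (IsLocalRing.ResidueField A) ({(G.red x)⁻¹} : Set Fk)) t →
      ∃ b : O', IsIntegral (Algebra.adjoin K ({(x : F)⁻¹} : Set F)) (b : F') ∧ red' b = t)
    (Q : Place (IsLocalRing.ResidueField A) Fk) (hQ : Q.ord (G.red x) < 0) :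
    ∃ s : G.O, IsIntegral (Algebra.adjoin K ({(x : F)⁻¹} : Set F)) (s : F) ∧
      IsIntegral (Algebra.adjoin (IsLocalRing.ResidueField A) ({(G.red x)⁻¹} : Set Fk))
        (G.red s) ∧
      Q.ord (G.red s) = 1 ∧
      ∀ Q₂ : Place (IsLocalRing.ResidueField A) Fk, Q₂ ≠ Q →
        Q₂.ord (G.red x) < 0 → Q₂.ord (G.red s) ≤ 0 := by
  obtain ⟨t, ht1, -, ht3, ht4⟩ := m18nrp_exists_unit_pole (K := IsLocalRing.ResidueField A)
    (F := Fk) (F' := Fk') (G.red x) hxt Q hQ
  obtain ⟨b, hb1, hb2⟩ := hlifti t ht1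
  obtain ⟨n, hn1, hn2⟩ := m18nrm_norm_ext G hS hsurj' hdd b
  refine ⟨n, ?_, ?_, ?_, ?_⟩
  · rw [← hn1]
    exact m18nrp_isIntegral_norm (K := K) (x : F)⁻¹ hb1
  · rw [← hn2, hb2]
    exact m18nrp_isIntegral_norm (K := IsLocalRing.ResidueField A) (G.red x)⁻¹ ht1
  · rw [← hn2, hb2]
    exact ht3
  · intro Q₂ hne hpos
    rw [← hn2, hb2, ht4 Q₂ hpos hne]

/-- **the genus inequality `g ≤ g~` from the lifting property at an auxiliary level.** -/
theorem m18nrm_main_of_lift [HasPrincipalDivisors K F] (hdeg : ∀ P, (r P).deg = P.deg)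
    (hS : m18nrm_Setup G.O G.red O' red')
    [FiniteDimensional Fk Fk'] [Algebra.IsSeparable Fk Fk']
    (hsurj' : Function.Surjective red') (hdd : finrank F F' = finrank Fk Fk')
    (x xi : G.O) (hxxi : x * xi = 1) (hx : Transcendental K (x : F))
    [FiniteDimensional K⟮(x : F)⟯ F] [Algebra.IsSeparable K⟮(x : F)⟯ F]
    (hxt : Transcendental (IsLocalRing.ResidueField A) (G.red x))
    [FiniteDimensional (IsLocalRing.ResidueField A)⟮G.red x⟯ Fk]
    [Algebra.IsSeparable (IsLocalRing.ResidueField A)⟮G.red x⟯ Fk]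
    (hsurj : Function.Surjective G.red)
    (hd : finrank K⟮(x : F)⟯ F = finrank (IsLocalRing.ResidueField A)⟮G.red x⟯ Fk)
    (hchart : ∀ P : Place K F,
      m18rr_W (K := K) ((x : F)⁻¹) P = m18rr_W (K := K) (x : F) P - 2 * P.ord (x : F))
    (hlift : ∀ t : Fk',
      IsIntegral (Algebra.adjoin (IsLocalRing.ResidueField A) ({G.red x} : Set Fk)) t →
      ∃ b : O', IsIntegral (Algebra.adjoin K ({(x : F)} : Set F)) (b : F') ∧ red' b = t)
    (hlifti : ∀ t : Fk',
      IsIntegral (Algebra.adjoin (IsLocalRing.ResidueField A) ({(G.red x)⁻¹} : Set Fk)) t →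
      ∃ b : O', IsIntegral (Algebra.adjoin K ({(x : F)⁻¹} : Set F)) (b : F') ∧ red' b = t) :
    finrank K (riemannRochSpace (m18rr_W (K := K) (x : F)))
      ≤ finrank (IsLocalRing.ResidueField A)
          (riemannRochSpace (m18rr_W (K := IsLocalRing.ResidueField A) (G.red x))) :=
  m18nrm_main_of_elts G hdeg x xi hxxi hx hxt hsurj hd hchart
    (fun Q c hc => m18nrm_elts_fin G hS hsurj' hdd x hxt hlift Q c hc)
    (fun Q hQ => m18nrm_elts_inf G hS hsurj' hdd x hxt hlifti Q hQ)

end Fermat.Agent.M18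

end
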