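import Fermat.Agent.M18.DifPlaceX

/-!
# M18 / (R3) bridge, part 5: the derivative bound for an arbitrary monic polynomial of full degree

Standing hypotheses: `K` algebraically closed (any characteristic), `x : F` transcendental,
`F / K(x)` finite separable; `A = K[x]`.  Let `s ∈ F` be integral over `A` and let
`H ∈ K(x)[X]` be monic of degree `[F : K(x)]` with `H(s) = 0`.  If `s` generates `F / K(x)` then
`H` is the minimal polynomial of `s` over `K(x)`, i.e. the image of the minimal polynomial of `s`
over `A`, so the results of `DifPlaceX` hold with `H` in place of `minpoly A s`.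
-/

set_option autoImplicit false
set_option linter.deprecated false
set_option linter.style.haveILetI false
set_option linter.unusedSectionVars false
set_option linter.unusedVariables false
set_option linter.overlappingInstances false

noncomputable section

namespace Fermat.Agent.M18

open Fermat.Agent.S20 Fermat.Agent.S24
open AlgebraicCurve IntermediateField Polynomial IsDedekindDomain WithZero
open scoped IntermediateField.algebraAdjoinAdjoin

section monic

variable {K F : Type*} [Field K] [Field F] [Algebra K F] [IsAlgClosed K]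

/-- `Algebra.adjoin K(x) {s} = ⊤` iff the minimal polynomial of `s` over `K(x)` has degree
`[F : K(x)]`. -/
theorem m18dif_adjoin_eq_top_iff (x : F) [FiniteDimensional K⟮x⟯ F] (s : F) :
    Algebra.adjoin K⟮x⟯ ({s} : Set F) = ⊤ ↔
      (minpoly K⟮x⟯ s).natDegree = Module.finrank K⟮x⟯ F := by
  rw [← Field.primitive_element_iff_minpoly_natDegree_eq,
    ← IntermediateField.adjoin_simple_toSubalgebra_of_isAlgebraic
      (Algebra.IsAlgebraic.isAlgebraic s)]
  constructor
  · intro h
    apply IntermediateField.toSubalgebra_injective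
    rw [h]
    rfl
  · intro h
    rw [h]
    rfl

/-- A monic polynomial of degree `[F : K(x)]` killing a generator `s` is the minimal polynomial
of `s` over `K(x)`. -/
theorem m18dif_eq_minpoly_of_monic (x : F) [FiniteDimensional K⟮x⟯ F] (s : F)
    (hgen : Algebra.adjoin K⟮x⟯ ({s} : Set F) = ⊤)
    (H : Polynomial K⟮x⟯) (hH : H.Monic) (hdeg : H.natDegree = Module.finrank K⟮x⟯ F)
    (hHs : Polynomial.aeval s H = 0) : H = minpoly K⟮x⟯ s := by
  have hint : IsIntegral K⟮x⟯ s := Algebra.IsIntegral.isIntegral s
  have hd := (m18dif_adjoin_eq_top_iff (K := K) x s).mp hgen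
  have hdvd : minpoly K⟮x⟯ s ∣ H := minpoly.dvd K⟮x⟯ s hHs
  exact Polynomial.eq_of_monic_of_dvd_of_natDegree_le (minpoly.monic hint) hH hdvd
    (by rw [hd, hdeg])

/-- The derivative of a monic polynomial of full degree killing `s`, evaluated at `s`, is the
derivative of the minimal polynomial of `s` over `A = K[x]`, evaluated at `s`. -/
theorem m18dif_aeval_derivative_eq_of_monic (x : F) (hx : Transcendental K x)
    [FiniteDimensional K⟮x⟯ F] [Algebra.IsSeparable K⟮x⟯ F] (s : F)
    (hint : IsIntegral (Algebra.adjoin K ({x} : Set F)) s)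
    (hgen : Algebra.adjoin K⟮x⟯ ({s} : Set F) = ⊤)
    (H : Polynomial K⟮x⟯) (hH : H.Monic) (hdeg : H.natDegree = Module.finrank K⟮x⟯ F)
    (hHs : Polynomial.aeval s H = 0) :
    Polynomial.aeval s (Polynomial.derivative H) =
      Polynomial.aeval s
        (Polynomial.derivative (minpoly (Algebra.adjoin K ({x} : Set F)) s)) := by
  obtain ⟨h1, h2, h3, h4⟩ := m18dif_inst (K := K) x hx
  haveI := h1
  rw [m18dif_eq_minpoly_of_monic (K := K) x s hgen H hH hdeg hHs,
    minpoly.isIntegrallyClosed_eq_field_fractions' K⟮x⟯ hint, Polynomial.derivative_map,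
    Polynomial.aeval_map_algebraMap]

/-- **(P3), `H`-form**: `W_x(v) ≤ ord_v (H'(s))` at every finite place. -/
theorem m18dif_W_le_ord_derivative' (x : F) (hx : Transcendental K x)
    [FiniteDimensional K⟮x⟯ F] [Algebra.IsSeparable K⟮x⟯ F] (s : F)
    (hint : IsIntegral (Algebra.adjoin K ({x} : Set F)) s)
    (hgen : Algebra.adjoin K⟮x⟯ ({s} : Set F) = ⊤)
    (H : Polynomial K⟮x⟯) (hH : H.Monic) (hdeg : H.natDegree = Module.finrank K⟮x⟯ F)
    (hHs : Polynomial.aeval s H = 0) (v : Place K F) (hv : 0 ≤ v.ord x) :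
    m18rr_W (K := K) x v ≤ v.ord (Polynomial.aeval s (Polynomial.derivative H)) := by
  rw [m18dif_aeval_derivative_eq_of_monic x hx s hint hgen H hH hdeg hHs]
  exact m18dif_W_le_ord_derivative x hx s hint hgen v hv

/-- **(P2), `H`-form**: `W_x(v) = ord_v (H'(s))` away from the conductor. -/
theorem m18dif_W_eq_ord_derivative' (x : F) (hx : Transcendental K x)
    [FiniteDimensional K⟮x⟯ F] [Algebra.IsSeparable K⟮x⟯ F] (s : F)
    (hint : IsIntegral (Algebra.adjoin K ({x} : Set F)) s)
    (hgen : Algebra.adjoin K⟮x⟯ ({s} : Set F) = ⊤)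
    (H : Polynomial K⟮x⟯) (hH : H.Monic) (hdeg : H.natDegree = Module.finrank K⟮x⟯ F)
    (hHs : Polynomial.aeval s H = 0) (v : Place K F) (hv : 0 ≤ v.ord x)
    (b : Algebra.adjoin K ({x} : Set F)) (hb0 : v.ord (b : F) = 0) (hbne : (b : F) ≠ 0)
    (hb : ∀ y : F, IsIntegral (Algebra.adjoin K ({x} : Set F)) y →
      (b : F) * y ∈ Algebra.adjoin (Algebra.adjoin K ({x} : Set F)) ({s} : Set F)) :
    m18rr_W (K := K) x v = v.ord (Polynomial.aeval s (Polynomial.derivative H)) := by
  rw [m18dif_aeval_derivative_eq_of_monic x hx s hint hgen H hH hdeg hHs]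
  exact m18dif_W_eq_ord_derivative x hx s hint hgen v hv b hb0 hbne hb

end monic

end Fermat.Agent.M18
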