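import Mathlib

/-!
# M18 / (SQ): the spaces `V_n(x) = L(n·(x)_∞)` in integrality form

For a field extension `F / K` and `x : F`, `m18sq_V x n` is the `K`-subspace of the `f : F`
which are integral over `K[x]` and such that `f · x⁻ⁿ` is integral over `K[x⁻¹]`
(for a function field: `f` is regular outside the poles of `x` and has a pole of order at most
`n · (-ord x)` at every pole of `x`, i.e. `f ∈ L(n · (x)_∞)`).
-/

set_option autoImplicit false

noncomputable section

namespace Fermat.Agent.M18

variable {K F : Type*} [Field K] [Field F] [Algebra K F]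

/-- `V_n(x) = L(n · (x)_∞)`, in integrality form. -/
def m18sq_V (K : Type*) {F : Type*} [Field K] [Field F] [Algebra K F] (x : F) (n : ℕ) :
    Submodule K F where
  carrier := {f | IsIntegral (Algebra.adjoin K ({x} : Set F)) f ∧
    IsIntegral (Algebra.adjoin K ({x⁻¹} : Set F)) (f * x⁻¹ ^ n)}
  add_mem' := by
    rintro a b ⟨ha, ha'⟩ ⟨hb, hb'⟩
    refine ⟨ha.add hb, ?_⟩
    rw [add_mul]
    exact ha'.add hb'
  zero_mem' := by
    refine ⟨isIntegral_zero, ?_⟩
    rw [zero_mul]
    exact isIntegral_zero
  smul_mem' := by
    rintro c a ⟨ha, ha'⟩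
    refine ⟨?_, ?_⟩
    · rw [Algebra.smul_def]
      have h1 : IsIntegral (Algebra.adjoin K ({x} : Set F)) (algebraMap K F c) := by
        have : algebraMap K F c =
            algebraMap (Algebra.adjoin K ({x} : Set F)) F (algebraMap K _ c) := rfl
        rw [this]
        exact isIntegral_algebraMap
      exact h1.mul ha
    · rw [Algebra.smul_def, mul_assoc]
      have h1 : IsIntegral (Algebra.adjoin K ({x⁻¹} : Set F)) (algebraMap K F c) := by
        have : algebraMap K F c =
            algebraMap (Algebra.adjoin K ({x⁻¹} : Set F)) F (algebraMap K _ c) := rfl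
        rw [this]
        exact isIntegral_algebraMap
      exact h1.mul ha'

theorem m18sq_mem_V {x : F} {n : ℕ} {f : F} :
    f ∈ m18sq_V K x n ↔ IsIntegral (Algebra.adjoin K ({x} : Set F)) f ∧
      IsIntegral (Algebra.adjoin K ({x⁻¹} : Set F)) (f * x⁻¹ ^ n) := Iff.rfl

end Fermat.Agent.M18

end
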