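import Fermat.Agent.M18.RrExtra
import Fermat.Agent.M18.SqV

/-!
# M18 / RRl-1, part 9: the spaces `V_n(x) = L(n (x)_∞)` (helper9's (RV1), (RV2))

* `m18rr_polar x hx` : the polar divisor `(x)_∞`; `m18rr_degree_polar : deg (x)_∞ = [F : K(x)]`;
* `m18rr_V_eq` : `m18sq_V K x n = riemannRochSpace (n • (x)_∞)`;
* `m18rr_finrank_eq_zero_of_neg` : `deg D < 0 ⇒ ℓ(D) = 0`;
* `m18rr_finrank_of_large` : `deg D > 2 g - 2 ⇒ ℓ(D) = deg D + 1 - g`;
* `m18rr_V_finite`, `m18rr_V_finrank` (RV1), `m18rr_exists_mem_V` (RV2).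
-/

set_option autoImplicit false
set_option linter.style.haveILetI false
set_option linter.unusedSectionVars false
set_option linter.unusedVariables false
set_option linter.deprecated false

noncomputable section

namespace Fermat.Agent.M18

open Fermat.Agent.S20 Fermat.Agent.S24
open AlgebraicCurve IntermediateField Module Polynomial WithZero

section vanishing

variable {K F : Type*} [Field K] [Field F] [Algebra K F] [IsAlgClosed K]

/-- a divisor of negative degree has no sections. -/
theorem m18rr_eq_zero_of_neg (x : F) (hx : Transcendental K x) [FiniteDimensional K⟮x⟯ F]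
    [Algebra.IsSeparable K⟮x⟯ F] (D : Divisor K F) (hD : Divisor.degree D < 0)
    (f : F) (hf : f ∈ riemannRochSpace D) : f = 0 := by
  classical
  by_contra hf0
  obtain ⟨Df, hDf, hdeg⟩ := (m18rr_principal x hx).exists_divisor f hf0
  have hnn : ∀ v, 0 ≤ (D + Df) v := by
    intro v
    have := (mem_riemannRochSpace_iff.1 hf v).resolve_left hf0
    rw [Finsupp.add_apply, hDf v]
    omega
  have h := m18rr_degree_ge x (D + Df) ∅ (fun _ => 0) (fun v hv => absurd hv (Finset.notMem_empty v))
    (fun v _ => hnn v)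
  rw [Finset.sum_empty, map_add, hdeg, add_zero] at h
  omega

theorem m18rr_finrank_eq_zero_of_neg (x : F) (hx : Transcendental K x) [FiniteDimensional K⟮x⟯ F]
    [Algebra.IsSeparable K⟮x⟯ F] (D : Divisor K F) (hD : Divisor.degree D < 0) :
    finrank K (riemannRochSpace D) = 0 := by
  have hbot : riemannRochSpace D = ⊥ := by
    rw [eq_bot_iff]
    intro f hf
    rw [Submodule.mem_bot]
    exact m18rr_eq_zero_of_neg x hx D hD f hf
  rw [hbot]
  exact finrank_bot K F

/-- **Riemann–Roch for divisors of large degree**: `deg D > 2 g - 2 ⇒ ℓ(D) = deg D + 1 - g`. -/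
theorem m18rr_finrank_of_large (x : F) (hx : Transcendental K x) [FiniteDimensional K⟮x⟯ F]
    [Algebra.IsSeparable K⟮x⟯ F] (D : Divisor K F)
    (hD : 2 * (finrank K (riemannRochSpace (m18rr_W (K := K) x)) : ℤ) - 2 < Divisor.degree D) :
    (finrank K (riemannRochSpace D) : ℤ)
      = Divisor.degree D + 1 - finrank K (riemannRochSpace (m18rr_W (K := K) x)) := by
  have h := m18rr_main x hx D
  have hneg : Divisor.degree (m18rr_W (K := K) x - D) < 0 := by
    rw [map_sub, m18rr_deg_W x hx]
    omega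
  rw [m18rr_finrank_eq_zero_of_neg x hx _ hneg] at h
  push_cast at h
  linarith

end vanishing

section polar

variable {K F : Type*} [Field K] [Field F] [Algebra K F]

/-- the values of the polar divisor of `x`. -/
def m18rr_polarFun (x : F) (v : Place K F) : ℤ := -min (v.ord x) 0

open Classical in
/-- the polar divisor `(x)_∞`. -/
def m18rr_polar (x : F) : Divisor K F :=
  if h : (Function.support (m18rr_polarFun (K := K) x)).Finite then
    Finsupp.ofSupportFinite (m18rr_polarFun (K := K) x) h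
  else 0

variable [IsAlgClosed K]

theorem m18rr_polarFun_support (x : F) (hx : Transcendental K x) [FiniteDimensional K⟮x⟯ F]
    [Algebra.IsSeparable K⟮x⟯ F] : (Function.support (m18rr_polarFun (K := K) x)).Finite := by
  refine (m18rr_finite_poles_gen x hx).subset ?_
  intro v hv
  rw [Function.mem_support, m18rr_polarFun] at hv
  show v.ord x < 0
  by_contra h
  exact hv (by rw [min_eq_right (by omega)]; rfl)

theorem m18rr_polar_apply (x : F) (hx : Transcendental K x) [FiniteDimensional K⟮x⟯ F]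
    [Algebra.IsSeparable K⟮x⟯ F] (v : Place K F) :
    m18rr_polar (K := K) x v = -min (v.ord x) 0 := by
  rw [m18rr_polar, dif_pos (m18rr_polarFun_support x hx)]
  rfl

theorem m18rr_polar_nonneg (x : F) (hx : Transcendental K x) [FiniteDimensional K⟮x⟯ F]
    [Algebra.IsSeparable K⟮x⟯ F] (v : Place K F) : 0 ≤ m18rr_polar (K := K) x v := by
  rw [m18rr_polar_apply x hx]
  have := min_le_right (v.ord x) 0
  omega

/-- `deg (x)_∞ = [F : K(x)]`. -/
theorem m18rr_degree_polar (x : F) (hx : Transcendental K x) [FiniteDimensional K⟮x⟯ F]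
    [Algebra.IsSeparable K⟮x⟯ F] :
    Divisor.degree (m18rr_polar (K := K) x) = (finrank K⟮x⟯ F : ℤ) := by
  classical
  set T : Finset (Place K F) := (m18rr_polar (K := K) x).support
    ∪ (m18rr_finite_poles_gen (K := K) x hx).toFinset with hT
  rw [m18rr_degree_eq_sum_of x _ T Finset.subset_union_left, ← m18rr_sum_poles x hx,
    finsum_mem_eq_finite_toFinset_sum _ (m18rr_finite_poles_gen x hx)]
  have hsub : (m18rr_finite_poles_gen (K := K) x hx).toFinset ⊆ T := Finset.subset_union_right
  rw [← Finset.sum_subset hsub (f := fun v => m18rr_polar (K := K) x v)]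
  · refine Finset.sum_congr rfl fun v hv => ?_
    have : v.ord x < 0 := (m18rr_finite_poles_gen (K := K) x hx).mem_toFinset.1 hv
    rw [m18rr_polar_apply x hx, min_eq_left this.le]
  · intro v _ hv
    have : ¬ v.ord x < 0 := fun h =>
      hv ((m18rr_finite_poles_gen (K := K) x hx).mem_toFinset.2 h)
    rw [m18rr_polar_apply x hx, min_eq_right (by omega)]
    rfl

/-- **`V_n(x) = L(n (x)_∞)`**. -/
theorem m18rr_mem_V_iff (x : F) (hx : Transcendental K x) [FiniteDimensional K⟮x⟯ F]
    [Algebra.IsSeparable K⟮x⟯ F] (n : ℕ) (f : F) :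
    f ∈ m18sq_V K x n ↔ f ∈ riemannRochSpace (n • m18rr_polar (K := K) x) := by
  have hy : Transcendental K x⁻¹ := algaz_transcendental_inv hx
  haveI := m18rr_fd_inv (K := K) x
  haveI := m18rr_sep_inv (K := K) x
  have hx0 : x ≠ 0 := by
    rintro rfl
    exact hx isAlgebraic_zero
  have hxn : x⁻¹ ^ n ≠ 0 := pow_ne_zero _ (inv_ne_zero hx0)
  have hordn : ∀ v : Place K F, v.ord (x⁻¹ ^ n) = -(n * v.ord x) := by
    intro v
    rw [← zpow_natCast, v.ord_zpow, Place.ord_inv]
    ring
  rw [m18sq_mem_V, m18rr_integral_iff x hx, m18rr_integral_iff x⁻¹ hy, mem_rrLam_iff,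
    mem_rrLam_iff, mem_riemannRochSpace_iff]
  rcases eq_or_ne f 0 with rfl | hf0
  · simp
  constructor
  · rintro ⟨h1, h2⟩ v
    right
    rw [Finsupp.smul_apply, m18rr_polar_apply x hx, nsmul_eq_mul]
    rcases le_or_gt 0 (v.ord x) with hv | hv
    · have := (h1 v hv).resolve_left hf0
      rw [min_eq_right hv]
      simpa using this
    · have := (h2 v (by rw [Place.ord_inv]; omega)).resolve_left (mul_ne_zero hf0 hxn)
      rw [v.ord_mul hf0 hxn, hordn v] at this
      rw [min_eq_left hv.le]
      simp only [Finsupp.coe_zero, Pi.zero_apply, neg_zero] at this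
      linarith
  · intro h
    have h' : ∀ v : Place K F, -(n * -min (v.ord x) 0) ≤ v.ord f := by
      intro v
      have := (h v).resolve_left hf0
      rwa [Finsupp.smul_apply, m18rr_polar_apply x hx, nsmul_eq_mul] at this
    refine ⟨fun v hv => Or.inr ?_, fun v hv => Or.inr ?_⟩
    · have := h' v
      rw [min_eq_right hv] at this
      simpa using this
    · rw [Place.ord_inv] at hv
      have := h' v
      rw [min_eq_left (by omega)] at this
      rw [v.ord_mul hf0 hxn, hordn v]
      simp only [Finsupp.coe_zero, Pi.zero_apply, neg_zero]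
      linarith

theorem m18rr_V_eq (x : F) (hx : Transcendental K x) [FiniteDimensional K⟮x⟯ F]
    [Algebra.IsSeparable K⟮x⟯ F] (n : ℕ) :
    m18sq_V K x n = riemannRochSpace (n • m18rr_polar (K := K) x) :=
  Submodule.ext fun f => m18rr_mem_V_iff x hx n f

/-- (RV1, finiteness) -/
theorem m18rr_V_finite (x : F) (hx : Transcendental K x) [FiniteDimensional K⟮x⟯ F]
    [Algebra.IsSeparable K⟮x⟯ F] (n : ℕ) : Module.Finite K ↥(m18sq_V K x n) := by
  rw [m18rr_V_eq x hx n]
  exact m18rr_finite x hx _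

/-- (RV1) **the dimension of `V_n(x)` for large `n`**:
`dim V_n = n [F : K(x)] + 1 - g` for `n ≥ 2 g`. -/
theorem m18rr_V_finrank (x : F) (hx : Transcendental K x) [FiniteDimensional K⟮x⟯ F]
    [Algebra.IsSeparable K⟮x⟯ F] (n : ℕ)
    (hn : 2 * finrank K (riemannRochSpace (m18rr_W (K := K) x)) ≤ n) :
    (finrank K ↥(m18sq_V K x n) : ℤ)
      = n * (finrank K⟮x⟯ F : ℤ) + 1 - finrank K (riemannRochSpace (m18rr_W (K := K) x)) := by
  have hdeg : Divisor.degree (n • m18rr_polar (K := K) x) = n * (finrank K⟮x⟯ F : ℤ) := by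
    rw [map_nsmul, m18rr_degree_polar x hx, nsmul_eq_mul]
  have hpos : 0 < finrank K⟮x⟯ F := Module.finrank_pos
  have hlarge : 2 * (finrank K (riemannRochSpace (m18rr_W (K := K) x)) : ℤ) - 2
      < Divisor.degree (n • m18rr_polar (K := K) x) := by
    rw [hdeg]
    have h1 : (2 * finrank K (riemannRochSpace (m18rr_W (K := K) x)) : ℤ) ≤ n := by
      exact_mod_cast hn
    have h2 : (1 : ℤ) ≤ finrank K⟮x⟯ F := by exact_mod_cast hpos
    nlinarith
  rw [rra_finrank_congr (m18rr_V_eq x hx n), m18rr_finrank_of_large x hx _ hlarge, hdeg]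

/-- (RV1) in the existential form. -/
theorem m18rr_V_finrank_exists (x : F) (hx : Transcendental K x) [FiniteDimensional K⟮x⟯ F]
    [Algebra.IsSeparable K⟮x⟯ F] :
    ∃ n₀ : ℕ, ∀ n ≥ n₀, (finrank K ↥(m18sq_V K x n) : ℤ)
      = n * (finrank K⟮x⟯ F : ℤ) + 1 - finrank K (riemannRochSpace (m18rr_W (K := K) x)) :=
  ⟨_, fun n hn => m18rr_V_finrank x hx n hn⟩

/-- (RV2) **every function integral over `K[x]` lies in some `V_n(x)`**. -/
theorem m18rr_exists_mem_V (x : F) (hx : Transcendental K x) [FiniteDimensional K⟮x⟯ F]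
    [Algebra.IsSeparable K⟮x⟯ F] (f : F) (hf : IsIntegral (Algebra.adjoin K ({x} : Set F)) f) :
    ∃ n : ℕ, f ∈ m18sq_V K x n := by
  classical
  rcases eq_or_ne f 0 with rfl | hf0
  · exact ⟨0, Submodule.zero_mem _⟩
  set P : Finset (Place K F) := (m18rr_finite_poles_gen (K := K) x hx).toFinset with hP
  set n : ℕ := ∑ v ∈ P, (v.ord f).natAbs with hn
  refine ⟨n, ?_⟩
  rw [m18rr_mem_V_iff x hx, mem_riemannRochSpace_iff]
  intro v
  right
  rw [Finsupp.smul_apply, m18rr_polar_apply x hx, nsmul_eq_mul]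
  have hfin := (mem_rrLam_iff.1 ((m18rr_integral_iff x hx f).1 hf) v)
  rcases le_or_gt 0 (v.ord x) with hv | hv
  · have := (hfin hv).resolve_left hf0
    rw [min_eq_right hv]
    simpa using this
  · rw [min_eq_left hv.le]
    have hvP : v ∈ P := (m18rr_finite_poles_gen (K := K) x hx).mem_toFinset.2 hv
    have h1 : (v.ord f).natAbs ≤ n :=
      Finset.single_le_sum (f := fun v => (v.ord f).natAbs) (fun _ _ => Nat.zero_le _) hvP
    have h2 : ((v.ord f).natAbs : ℤ) ≤ (n : ℤ) := by exact_mod_cast h1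
    have h3 : -((v.ord f).natAbs : ℤ) ≤ v.ord f := by omega
    have h4 : (0 : ℤ) ≤ n := Int.natCast_nonneg _
    nlinarith

end polar

end Fermat.Agent.M18

end

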