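import Fermat.Agent.M18.NrmDiff
import Fermat.Agent.M18.RrV
import Fermat.Agent.M18.DifPlaceH
import Fermat.Agent.M18.NrpUnit

/-!
# M18 / (NRP), part 4: the pole chart

`K` algebraically closed (any characteristic), `x : F` transcendental with `F / K(x)` finite
separable, `W_x = m18rr_W x` the divisor of `dx` (helper4), `z = x⁻¹`.

* `m18nrp_W_inv_eq` : `W_x v = W_z v` at every place `v` with `ord_v x = 0`;
* `m18nrp_W_le_pole` : for `s` integral over `K[z]` generating `F / K(x)`, with minimal polynomial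
  `G` over `K(z)`: `W_x P ≤ ord_P (G'(s) * x ^ 2)` at every place `P` with `ord_P x ≤ 0`;
* `m18nrp_pole_le_W` : if moreover `ord_Q s = 1` at a pole `Q` of `x` and `s` does not vanish at
  the other poles of `x`, then `s` generates and `ord_Q (G'(s) * x ^ 2) ≤ W_x Q`.
-/

set_option autoImplicit false
set_option linter.style.haveILetI false
set_option linter.unusedSectionVars false
set_option linter.unusedVariables false
set_option linter.deprecated false

noncomputable section

namespace Fermat.Agent.M18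

open Fermat.Agent.S20 Fermat.Agent.S24
open AlgebraicCurve IntermediateField Polynomial

section scale

variable {R : Type*} [CommRing R]

/-- the derivative of `scaleRoots p u`. -/
theorem m18nrp_derivative_scaleRoots (p : R[X]) (u : R) :
    derivative (scaleRoots p u)
      = C (u ^ (p.natDegree - 1 - (derivative p).natDegree)) * scaleRoots (derivative p) u := by
  ext i
  rw [coeff_derivative, coeff_scaleRoots, coeff_C_mul, coeff_scaleRoots, coeff_derivative]
  by_cases hi : i ≤ (derivative p).natDegree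
  · have hd : (derivative p).natDegree ≤ p.natDegree - 1 := natDegree_derivative_le p
    have h1 : p.natDegree - (i + 1) = (p.natDegree - 1 - (derivative p).natDegree)
        + ((derivative p).natDegree - i) := by omega
    rw [h1, pow_add]
    ring
  · have h0 : (derivative p).coeff i = 0 := coeff_eq_zero_of_natDegree_lt (not_le.mp hi)
    rw [coeff_derivative] at h0
    rw [h0]
    have h2 : p.coeff (i + 1) * u ^ (p.natDegree - (i + 1)) * ((i : R) + 1)
        = (p.coeff (i + 1) * ((i : R) + 1)) * u ^ (p.natDegree - (i + 1)) := by ring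
    rw [h2, h0]
    ring

variable {S : Type*} [CommRing S] [Algebra R S]

/-- evaluating the derivative of `scaleRoots p u` at `u • s`. -/
theorem m18nrp_aeval_derivative_scaleRoots (p : R[X]) (u : R) (s : S) :
    aeval (algebraMap R S u * s) (derivative (scaleRoots p u))
      = algebraMap R S u ^ (p.natDegree - 1) * aeval s (derivative p) := by
  rw [m18nrp_derivative_scaleRoots, map_mul, aeval_C, aeval_def, scaleRoots_eval₂_mul, ← aeval_def,
    ← mul_assoc, map_pow, ← pow_add]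
  have hd : (derivative p).natDegree ≤ p.natDegree - 1 := natDegree_derivative_le p
  congr 2
  omega

end scale

section field

variable {E F : Type*} [Field E] [Field F] [Algebra E F]

/-- the derivative of the minimal polynomial of `u • s` at `u • s`. -/
theorem m18nrp_aeval_derivative_minpoly_smul (u : E) (hu : u ≠ 0) (s : F) (hs : IsIntegral E s) :
    aeval (u • s) (derivative (minpoly E (u • s)))
      = algebraMap E F u ^ ((minpoly E s).natDegree - 1) * aeval s (derivative (minpoly E s)) := by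
  rw [IsIntegrallyClosed.minpoly_smul hu hs, Algebra.smul_def,
    m18nrp_aeval_derivative_scaleRoots]

theorem m18nrp_natDegree_minpoly_smul (u : E) (hu : u ≠ 0) (s : F) (hs : IsIntegral E s) :
    (minpoly E (u • s)).natDegree = (minpoly E s).natDegree := by
  rw [IsIntegrallyClosed.minpoly_smul hu hs, natDegree_scaleRoots]

end field

section congr

variable {K F : Type*} [Field K] [Field F] [Algebra K F]

theorem m18nrp_aeval_minpoly_congr {E₁ E₂ : IntermediateField K F} (h : E₁ = E₂) (s : F) :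
    aeval s (derivative (minpoly E₁ s)) = aeval s (derivative (minpoly E₂ s)) := by
  subst h
  rfl

theorem m18nrp_adjoin_top_congr {E₁ E₂ : IntermediateField K F} (h : E₁ = E₂) (s : F)
    (h1 : Algebra.adjoin E₁ ({s} : Set F) = ⊤) : Algebra.adjoin E₂ ({s} : Set F) = ⊤ := by
  subst h
  exact h1

theorem m18nrp_ord_pow (v : Place K F) (f : F) (n : ℕ) : v.ord (f ^ n) = n * v.ord f := by
  rw [← zpow_natCast, v.ord_zpow]

end congr

section main

variable {K F : Type*} [Field K] [Field F] [Algebra K F] [IsAlgClosed K]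

/-- the key inequality: at a place where `x` is a unit, the different exponent in the chart `x`
is at most the one in the chart `x⁻¹`. -/
theorem m18nrp_W_le_inv (x : F) (hx : Transcendental K x) [FiniteDimensional K⟮x⟯ F]
    [Algebra.IsSeparable K⟮x⟯ F] (v : Place K F) (hv : v.ord x = 0) :
    m18rr_W (K := K) x v ≤ m18rr_W (K := K) x⁻¹ v := by
  classical
  have hz : Transcendental K x⁻¹ := algaz_transcendental_inv hx
  haveI := m18rr_fd_inv (K := K) x
  haveI := m18rr_sep_inv (K := K) x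
  have hx0 : x ≠ 0 := by
    rintro rfl
    exact hx isAlgebraic_zero
  have hvz : 0 ≤ v.ord x⁻¹ := by
    rw [Place.ord_inv, hv]
    simp
  obtain ⟨c, hc⟩ := m18rr_exists_val x⁻¹ hz v hvz
  set T : Finset (Place K F) := (m18rr_finite_zeros x⁻¹ hz c).toFinset with hT
  have hmemT : ∀ w : Place K F, w ∈ T ↔ 0 < w.ord (x⁻¹ - algebraMap K F c) := by
    intro w
    rw [hT, Set.Finite.mem_toFinset]
    rfl
  have hvT : v ∈ T := (hmemT v).mpr hc
  have hTz : ∀ w ∈ T, 0 ≤ w.ord x⁻¹ := fun w hw =>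
    m18nrp_ord_nonneg_of_sub x⁻¹ c w ((hmemT w).mp hw)
  obtain ⟨s₀, hs₀0, hs₀T, hs₀reg⟩ :=
    m18rr_exists_exact x⁻¹ hz T hTz (fun w => if w = v then 1 else 0)
  have hs₀int : IsIntegral (Algebra.adjoin K ({x⁻¹} : Set F)) s₀ := by
    rw [m18rr_integral_iff x⁻¹ hz, mem_rrLam_iff]
    intro w hw
    right
    rw [Finsupp.zero_apply, neg_zero]
    by_cases hwT : w ∈ T
    · rw [hs₀T w hwT]
      split_ifs <;> norm_num
    · exact hs₀reg w hw hwT
  have hs₀1 : v.ord s₀ = 1 := by rw [hs₀T v hvT, if_pos rfl]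
  have hs₀2 : ∀ Q₂ : Place K F, Q₂ ≠ v → 0 < Q₂.ord (x⁻¹ - algebraMap K F c) →
      Q₂.ord s₀ ≤ 0 := by
    intro Q₂ hne hQ₂
    rw [hs₀T Q₂ ((hmemT Q₂).mpr hQ₂), if_neg hne]
  obtain ⟨hgen₀, hle₀⟩ := m18nrm_le_W x⁻¹ hz v c hc s₀ hs₀int hs₀1 hs₀2
  -- `s₁ = s₀ * x ^ n` is integral over `K[x]`
  obtain ⟨n, hn⟩ := m18rr_exists_mem_V x⁻¹ hz s₀ hs₀int
  have hs₁int : IsIntegral (Algebra.adjoin K ({x} : Set F)) (s₀ * x ^ n) := by
    have h := (m18sq_mem_V.mp hn).2
    have key : ∀ y : F, y = x → IsIntegral (Algebra.adjoin K ({y} : Set F)) (s₀ * y ^ n) →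
        IsIntegral (Algebra.adjoin K ({x} : Set F)) (s₀ * x ^ n) := by
      rintro y rfl h
      exact h
    exact key _ (inv_inv x) h
  -- the scalar `u = x ^ n ∈ K(x)`
  have hgen0 : AdjoinSimple.gen K x ≠ 0 := by
    intro h
    apply hx0
    have := congrArg (algebraMap K⟮x⟯ F) h
    rwa [AdjoinSimple.algebraMap_gen, map_zero] at this
  have hu0 : (AdjoinSimple.gen K x) ^ n ≠ 0 := pow_ne_zero _ hgen0
  have hu : algebraMap K⟮x⟯ F ((AdjoinSimple.gen K x) ^ n) = x ^ n := by
    rw [map_pow, AdjoinSimple.algebraMap_gen]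
  have hs₁ : s₀ * x ^ n = ((AdjoinSimple.gen K x) ^ n) • s₀ := by
    rw [Algebra.smul_def, hu, mul_comm]
  have hgen₀' : Algebra.adjoin K⟮x⟯ ({s₀} : Set F) = ⊤ :=
    m18nrp_adjoin_top_congr (algaz_adjoin_inv x) s₀ hgen₀
  have hint₀ : IsIntegral K⟮x⟯ s₀ := Algebra.IsIntegral.isIntegral s₀
  have hgen₁ : Algebra.adjoin K⟮x⟯ ({((AdjoinSimple.gen K x) ^ n) • s₀} : Set F) = ⊤ := by
    rw [m18dif_adjoin_eq_top_iff (K := K) x, m18nrp_natDegree_minpoly_smul _ hu0 s₀ hint₀,
      ← m18dif_adjoin_eq_top_iff (K := K) x]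
    exact hgen₀'
  have h3 := m18nrm_W_le x hx (((AdjoinSimple.gen K x) ^ n) • s₀) (hs₁ ▸ hs₁int) hgen₁ v
    (by rw [hv])
  rw [m18nrp_aeval_derivative_minpoly_smul _ hu0 s₀ hint₀, hu] at h3
  have hG0 : aeval s₀ (derivative (minpoly K⟮x⟯ s₀)) ≠ 0 :=
    (Algebra.IsSeparable.isSeparable K⟮x⟯ s₀).aeval_derivative_ne_zero (minpoly.aeval _ _)
  rw [v.ord_mul (pow_ne_zero _ (pow_ne_zero _ hx0)) hG0, m18nrp_ord_pow, m18nrp_ord_pow, hv,
    mul_zero, mul_zero, zero_add,
    m18nrp_aeval_minpoly_congr (algaz_adjoin_inv (K := K) x).symm s₀] at h3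
  exact h3.trans hle₀

/-- **(A)** at a place where `x` is a unit the charts `x` and `x⁻¹` give the same different
exponent. -/
theorem m18nrp_W_inv_eq (x : F) (hx : Transcendental K x) [FiniteDimensional K⟮x⟯ F]
    [Algebra.IsSeparable K⟮x⟯ F] (v : Place K F) (hv : v.ord x = 0) :
    m18rr_W (K := K) x v = m18rr_W (K := K) x⁻¹ v := by
  have hz : Transcendental K x⁻¹ := algaz_transcendental_inv hx
  haveI := m18rr_fd_inv (K := K) x
  haveI := m18rr_sep_inv (K := K) x
  refine le_antisymm (m18nrp_W_le_inv x hx v hv) ?_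
  have h := m18nrp_W_le_inv x⁻¹ hz v (by rw [Place.ord_inv, hv, neg_zero])
  rwa [inv_inv] at h

/-- **(B)** Euler's inequality in the pole chart: for `s` integral over `K[x⁻¹]` generating
`F / K(x)`, with minimal polynomial `G` over `K(x⁻¹)`: `W_x P ≤ ord_P (G'(s) * x ^ 2)` at every
place `P` which is not a zero of `x`. -/
theorem m18nrp_W_le_pole (x : F) (hx : Transcendental K x) [FiniteDimensional K⟮x⟯ F]
    [Algebra.IsSeparable K⟮x⟯ F] (s : F)
    (hs : IsIntegral (Algebra.adjoin K ({x⁻¹} : Set F)) s)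
    (hgen : Algebra.adjoin K⟮x⁻¹⟯ ({s} : Set F) = ⊤) (P : Place K F) (hP : P.ord x ≤ 0) :
    m18rr_W (K := K) x P
      ≤ P.ord (aeval s (derivative (minpoly K⟮x⁻¹⟯ s)) * x ^ 2) := by
  have hz : Transcendental K x⁻¹ := algaz_transcendental_inv hx
  haveI := m18rr_fd_inv (K := K) x
  haveI := m18rr_sep_inv (K := K) x
  have hx0 : x ≠ 0 := by
    rintro rfl
    exact hx isAlgebraic_zero
  have hG0 : aeval s (derivative (minpoly K⟮x⁻¹⟯ s)) ≠ 0 :=
    (Algebra.IsSeparable.isSeparable K⟮x⁻¹⟯ s).aeval_derivative_ne_zero (minpoly.aeval _ _)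
  have h1 := m18nrm_W_le x⁻¹ hz s hs hgen P (by rw [Place.ord_inv]; omega)
  rw [P.ord_mul hG0 (pow_ne_zero _ hx0), m18nrp_ord_pow]
  rcases lt_or_eq_of_le hP with hlt | heq
  · have h2 := m18rr_W_inv_apply x hx P hlt
    push_cast
    omega
  · rw [m18nrp_W_inv_eq x hx P heq, heq]
    push_cast
    omega

/-- **(C)** local monogenicity in the pole chart: if `s` is integral over `K[x⁻¹]`, has a simple
zero at the pole `Q` of `x` and does not vanish at the other poles of `x`, then `s` generates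
`F / K(x)` and `ord_Q (G'(s) * x ^ 2) ≤ W_x Q`. -/
theorem m18nrp_pole_le_W (x : F) (hx : Transcendental K x) [FiniteDimensional K⟮x⟯ F]
    [Algebra.IsSeparable K⟮x⟯ F] (Q : Place K F) (hQ : Q.ord x < 0) (s : F)
    (hs : IsIntegral (Algebra.adjoin K ({x⁻¹} : Set F)) s) (hs1 : Q.ord s = 1)
    (hs2 : ∀ Q₂ : Place K F, Q₂ ≠ Q → Q₂.ord x < 0 → Q₂.ord s ≤ 0) :
    Algebra.adjoin K⟮x⁻¹⟯ ({s} : Set F) = ⊤ ∧
      Q.ord (aeval s (derivative (minpoly K⟮x⁻¹⟯ s)) * x ^ 2) ≤ m18rr_W (K := K) x Q := by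
  have hz : Transcendental K x⁻¹ := algaz_transcendental_inv hx
  haveI := m18rr_fd_inv (K := K) x
  haveI := m18rr_sep_inv (K := K) x
  have hx0 : x ≠ 0 := by
    rintro rfl
    exact hx isAlgebraic_zero
  have key : ∀ w : Place K F, 0 < w.ord (x⁻¹ - algebraMap K F 0) ↔ w.ord x < 0 := by
    intro w
    rw [map_zero, sub_zero, Place.ord_inv]
    omega
  obtain ⟨hgen, hle⟩ := m18nrm_le_W x⁻¹ hz Q 0 ((key Q).mpr hQ) s hs hs1
    (fun Q₂ hne hQ₂ => hs2 Q₂ hne ((key Q₂).mp hQ₂))
  refine ⟨hgen, ?_⟩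
  have hG0 : aeval s (derivative (minpoly K⟮x⁻¹⟯ s)) ≠ 0 :=
    (Algebra.IsSeparable.isSeparable K⟮x⁻¹⟯ s).aeval_derivative_ne_zero (minpoly.aeval _ _)
  have h2 := m18rr_W_inv_apply x hx Q hQ
  rw [Q.ord_mul hG0 (pow_ne_zero _ hx0), m18nrp_ord_pow]
  push_cast
  omega

end main

end Fermat.Agent.M18
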