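import Fermat.Agent.M18.SqLat
import Fermat.Agent.M18.SqV

/-!
# M18 / (SQ4) and wrappers

* `m18sq_red_mul`, `m18sq_red_add`, ... : `m18sq_red hdec` is a ring homomorphism on
  Gauss-integral elements (values in `F~_M`);
* `m18sq_orth_le'`, `m18sq_orth_surj'` : (SQ2) with a subspace of `F~_M` as target;
* `m18sq_Int_level`, `m18sq_redL_level` : the Gauss rings and reductions at levels `N ∣ N'`
  are compatible;
* `m18sq_redL_mem_simple` : the reduction of a Gauss-integral element of `ℚ̄(j)` lies in `k(j̃)`;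
* `m18sq_red_mem_V` : **(SQ4)** reduction maps `V_n(j) ∩ O` into `V_n(j̃)`, given the integrality
  transfer (SQ3) for `j` and `j⁻¹`.
-/

set_option autoImplicit false
set_option synthInstance.maxHeartbeats 400000
set_option linter.unusedSectionVars false

noncomputable section

open HahnSeries IntermediateField ModularCurve Polynomial

namespace Fermat.Agent.M18

open Fermat.Agent.M28 Fermat.Agent.S24

variable {A : ValuationSubring m18v_K} {M : ℕ} [NeZero M]

/-! ### `m18sq_red` as a ring homomorphism on integral elements -/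

theorem m18sq_red_mul (hdec : m18sq_Dec A M) {x y : s24F M} (hx : m18v_Int A M x)
    (hy : m18v_Int A M y) :
    m18sq_red hdec (x * y) = m18sq_red hdec x * m18sq_red hdec y :=
  Subtype.ext (m18v_redL_mul' hx hy)

theorem m18sq_red_add (hdec : m18sq_Dec A M) {x y : s24F M} (hx : m18v_Int A M x)
    (hy : m18v_Int A M y) :
    m18sq_red hdec (x + y) = m18sq_red hdec x + m18sq_red hdec y :=
  Subtype.ext (m18v_redL_add hx hy)

theorem m18sq_red_one (hdec : m18sq_Dec A M) : m18sq_red hdec (1 : s24F M) = 1 :=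
  Subtype.ext m18v_redL_one

theorem m18sq_red_pow (hdec : m18sq_Dec A M) {x : s24F M} (hx : m18v_Int A M x) (n : ℕ) :
    m18v_Int A M (x ^ n) ∧ m18sq_red hdec (x ^ n) = m18sq_red hdec x ^ n := by
  induction n with
  | zero =>
    rw [pow_zero, pow_zero]
    exact ⟨m18v_Int_one, m18sq_red_one hdec⟩
  | succ n ih =>
    rw [pow_succ, pow_succ]
    exact ⟨m18v_Int_mul ih.1 hx, by rw [m18sq_red_mul hdec ih.1 hx, ih.2]⟩

/-- `j` is Gauss-integral. -/
theorem m18sq_Int_j : m18v_Int A M (s24j M) :=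
  m18v_Int_of_incl (X := jqModC A) (by
    rw [m18sq_coe_s24j]
    exact (coeffMap_jqModC _).symm)

/-- the reduction of `j` is `j̃`. -/
theorem m18sq_red_j (hdec : m18sq_Dec A M) : m18sq_red hdec (s24j M) = m18sq_jt A M := by
  apply Subtype.ext
  show m18v_redL A M (s24j M) = jqModC (m18v_k A)
  rw [m18v_redL_of_incl (X := jqModC A) (by
    rw [m18sq_coe_s24j]
    exact (coeffMap_jqModC _).symm)]
  exact coeffMap_jqModC _

theorem m18sq_jt_ne_zero : m18sq_jt A M ≠ 0 := by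
  intro h
  exact jqModC_ne_zero_of_nontrivial (m18v_k A) (congrArg Subtype.val h)

/-- `j⁻¹` is Gauss-integral. -/
theorem m18sq_Int_j_inv (hdec : m18sq_Dec A M) : m18v_Int A M (s24j M)⁻¹ := by
  refine m18sq_Int_inv_of_red_ne_zero hdec m18sq_Int_j ?_
  have h := m18sq_red_j (M := M) hdec
  intro h0
  apply m18sq_jt_ne_zero (A := A) (M := M)
  rw [← h]
  exact Subtype.ext h0

/-- the reduction of `j⁻¹` is `j̃⁻¹`. -/
theorem m18sq_red_j_inv (hdec : m18sq_Dec A M) :
    m18sq_red hdec (s24j M)⁻¹ = (m18sq_jt A M)⁻¹ := by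
  have h1 := m18sq_red_mul hdec (m18sq_Int_j (A := A) (M := M)) (m18sq_Int_j_inv hdec)
  have hj0 : s24j M ≠ 0 := by
    intro h
    have h2 := m18sq_red_j (M := M) hdec
    rw [h] at h2
    have h3 : m18sq_red hdec (0 : s24F M) = 0 := Subtype.ext m18v_redL_zero
    rw [h3] at h2
    exact m18sq_jt_ne_zero h2.symm
  rw [mul_inv_cancel₀ hj0, m18sq_red_one, m18sq_red_j] at h1
  exact eq_inv_of_mul_eq_one_right h1.symm

/-! ### (SQ4) -/

/-- **(SQ4)** reduction maps `V_n(j) ∩ O` into `V_n(j̃)`, given the integrality transfer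
(SQ3) for `j` and for `j⁻¹`. -/
theorem m18sq_red_mem_V (hdec : m18sq_Dec A M)
    (h3 : ∀ x : s24F M, m18v_Int A M x →
      IsIntegral (Algebra.adjoin m18v_K ({s24j M} : Set (s24F M))) x →
      IsIntegral (Algebra.adjoin (m18v_k A) ({m18sq_jt A M} : Set (m18v_Ft A M)))
        (m18sq_red hdec x))
    (h3' : ∀ x : s24F M, m18v_Int A M x →
      IsIntegral (Algebra.adjoin m18v_K ({(s24j M)⁻¹} : Set (s24F M))) x →
      IsIntegral (Algebra.adjoin (m18v_k A) ({(m18sq_jt A M)⁻¹} : Set (m18v_Ft A M)))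
        (m18sq_red hdec x))
    (n : ℕ) (x : s24F M) (hx : x ∈ m18sq_V m18v_K (s24j M) n) (hI : m18v_Int A M x) :
    m18sq_red hdec x ∈ m18sq_V (m18v_k A) (m18sq_jt A M) n := by
  obtain ⟨hx1, hx2⟩ := hx
  refine ⟨h3 x hI hx1, ?_⟩
  have hp := m18sq_red_pow hdec (m18sq_Int_j_inv (M := M) hdec) n
  have h4 := h3' _ (m18v_Int_mul hI hp.1) hx2
  rw [m18sq_red_mul hdec hI hp.1, hp.2, m18sq_red_j_inv] at h4
  exact h4

/-- the same for the pair `j⁻¹`, `j̃⁻¹`. -/
theorem m18sq_red_mem_V_inv (hdec : m18sq_Dec A M)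
    (h3 : ∀ x : s24F M, m18v_Int A M x →
      IsIntegral (Algebra.adjoin m18v_K ({s24j M} : Set (s24F M))) x →
      IsIntegral (Algebra.adjoin (m18v_k A) ({m18sq_jt A M} : Set (m18v_Ft A M)))
        (m18sq_red hdec x))
    (h3' : ∀ x : s24F M, m18v_Int A M x →
      IsIntegral (Algebra.adjoin m18v_K ({(s24j M)⁻¹} : Set (s24F M))) x →
      IsIntegral (Algebra.adjoin (m18v_k A) ({(m18sq_jt A M)⁻¹} : Set (m18v_Ft A M)))
        (m18sq_red hdec x))
    (n : ℕ) (x : s24F M) (hx : x ∈ m18sq_V m18v_K (s24j M)⁻¹ n) (hI : m18v_Int A M x) :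
    m18sq_red hdec x ∈ m18sq_V (m18v_k A) (m18sq_jt A M)⁻¹ n := by
  obtain ⟨hx1, hx2⟩ := hx
  refine ⟨h3' x hI hx1, ?_⟩
  rw [inv_inv] at hx2 ⊢
  have hp := m18sq_red_pow hdec (m18sq_Int_j (A := A) (M := M)) n
  have h4 := h3 _ (m18v_Int_mul hI hp.1) hx2
  rw [m18sq_red_mul hdec hI hp.1, hp.2, m18sq_red_j] at h4
  exact h4

/-! ### (SQ2) with target in `F~_M` -/

/-- the inclusion of `F~_M` into `k((q))`, as a linear map. -/
def m18sq_valk (A : ValuationSubring m18v_K) (M : ℕ) :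
    m18v_Ft A M →ₗ[m18v_k A] LaurentSeries (m18v_k A) where
  toFun y := (y : LaurentSeries (m18v_k A))
  map_add' _ _ := rfl
  map_smul' c y := by
    rw [RingHom.id_apply, m18sq_smul_eq, Algebra.smul_def,
      ← ModularCurve.algebraMap_laurentSeries_eq_single]
    rfl

theorem m18sq_valk_injective : Function.Injective (m18sq_valk A M) :=
  Subtype.val_injective

theorem m18sq_orth_le' {ℓ : ℕ} [Fact ℓ.Prime] (hA : A.LiesOverPrime ℓ) (hℓM : ¬ ℓ ∣ M)
    (V : Submodule m18v_K (s24F M)) [FiniteDimensional m18v_K V]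
    (Wt : Submodule (m18v_k A) (m18v_Ft A M)) [FiniteDimensional (m18v_k A) Wt]
    (hred : ∀ x ∈ V, m18v_Int A M x → m18sq_red (m18sq_dec hA hℓM) x ∈ Wt) :
    Module.finrank m18v_K V ≤ Module.finrank (m18v_k A) Wt := by
  have h1 := m18sq_orth_le hA hℓM V (Wt.map (m18sq_valk A M))
    (fun x hx hI => ⟨m18sq_red (m18sq_dec hA hℓM) x, hred x hx hI, rfl⟩)
  rwa [(Submodule.equivMapOfInjective (m18sq_valk A M) m18sq_valk_injective Wt).finrank_eq.symm]
    at h1

theorem m18sq_orth_surj' {ℓ : ℕ} [Fact ℓ.Prime] (hA : A.LiesOverPrime ℓ) (hℓM : ¬ ℓ ∣ M)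
    (V : Submodule m18v_K (s24F M)) [FiniteDimensional m18v_K V]
    (Wt : Submodule (m18v_k A) (m18v_Ft A M)) [FiniteDimensional (m18v_k A) Wt]
    (hred : ∀ x ∈ V, m18v_Int A M x → m18sq_red (m18sq_dec hA hℓM) x ∈ Wt)
    (hle : Module.finrank (m18v_k A) Wt ≤ Module.finrank m18v_K V)
    (y : m18v_Ft A M) (hy : y ∈ Wt) :
    ∃ x ∈ V, m18v_Int A M x ∧ m18sq_red (m18sq_dec hA hℓM) x = y := by
  have hle' : Module.finrank (m18v_k A) (Wt.map (m18sq_valk A M)) ≤ Module.finrank m18v_K V := by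
    rwa [(Submodule.equivMapOfInjective (m18sq_valk A M) m18sq_valk_injective
      Wt).finrank_eq.symm]
  obtain ⟨x, hxV, hxI, hxy⟩ := m18sq_orth_surj hA hℓM V (Wt.map (m18sq_valk A M))
    (fun x hx hI => ⟨m18sq_red (m18sq_dec hA hℓM) x, hred x hx hI, rfl⟩) hle'
    (y : LaurentSeries (m18v_k A)) ⟨y, hy, rfl⟩
  exact ⟨x, hxV, hxI, Subtype.ext hxy⟩

/-! ### compatibility of the levels -/

theorem m18sq_bar_le {N N' : ℕ} [NeZero N] [NeZero N'] (h : N ∣ N') :
    modularFunctionFieldBar N ≤ modularFunctionFieldBar N' := by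
  show laurentBaseChange m18v_K (modularFunctionFieldFull N) ≤
    laurentBaseChange m18v_K (modularFunctionFieldFull N')
  rw [laurentBaseChange, IntermediateField.adjoin_le_iff]
  rintro _ ⟨y, hy, rfl⟩
  exact coeffEmb_mem_laurentBaseChange m18v_K (full_degeneracy_le h hy)

theorem m18sq_G_level {N N' : ℕ} [NeZero N] [NeZero N'] (h : N ∣ N') {w : LaurentSeries A}
    (hw : m18v_G A N w) : m18v_G A N' w :=
  ⟨m18sq_bar_le h hw.1, full_degeneracyC_le (m18v_k A) h hw.2.1, hw.2.2⟩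

/-- a Gauss-integral element of level `N` is Gauss-integral at every level `N'` divisible by
`N`, with the same reduction. -/
theorem m18sq_Int_level_of {N N' : ℕ} [NeZero N] [NeZero N'] (h : N ∣ N')
    {x : LaurentSeries m18v_K} (hx : x ∈ modularFunctionFieldBar N)
    (hx' : x ∈ modularFunctionFieldBar N') (hI : m18v_Int A N ⟨x, hx⟩) :
    m18v_Int A N' ⟨x, hx'⟩ ∧ m18v_redL A N' ⟨x, hx'⟩ = m18v_redL A N ⟨x, hx⟩ := by
  obtain ⟨X, w, hw, hXw⟩ := hI
  have hw' := m18sq_G_level h hw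
  have hXw' : ((⟨x, hx'⟩ : m18v_F N') : LaurentSeries m18v_K) * m18v_incl A w =
      m18v_incl A X := hXw
  refine ⟨⟨X, w, hw', hXw'⟩, ?_⟩
  rw [m18v_redL_eq_div hw' hXw', m18v_redL_eq_div hw hXw]

/-- conversely, an element of `F_N` which is Gauss-integral at level `N'` is Gauss-integral at
level `N`. -/
theorem m18sq_Int_level {N N' : ℕ} [NeZero N] [NeZero N'] (h : N ∣ N')
    (hdec : m18sq_Dec A N) {x : LaurentSeries m18v_K} (hx : x ∈ modularFunctionFieldBar N)
    (hx' : x ∈ modularFunctionFieldBar N') :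
    m18v_Int A N ⟨x, hx⟩ ↔ m18v_Int A N' ⟨x, hx'⟩ := by
  refine ⟨fun hI => (m18sq_Int_level_of h hx hx' hI).1, fun hI' => ?_⟩
  by_cases h0 : (⟨x, hx⟩ : m18v_F N) = 0
  · rw [h0]
    exact m18v_Int_zero
  rcases m18sq_Int_or_inv hdec h0 with hI | hI
  · exact hI
  · have hinv : ((⟨x, hx⟩ : m18v_F N)⁻¹ : m18v_F N) =
        ⟨x⁻¹, (modularFunctionFieldBar N).inv_mem hx⟩ := rfl
    rw [hinv] at hI
    obtain ⟨hI2, hred⟩ := m18sq_Int_level_of (A := A) h
      ((modularFunctionFieldBar N).inv_mem hx) ((modularFunctionFieldBar N').inv_mem hx') hI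
    have hx0 : (⟨x, hx'⟩ : m18v_F N') ≠ 0 := by
      intro h1
      apply h0
      have h2 : x = 0 := congrArg Subtype.val h1
      exact Subtype.ext h2
    have hinv' : ((⟨x, hx'⟩ : m18v_F N')⁻¹ : m18v_F N') =
        ⟨x⁻¹, (modularFunctionFieldBar N').inv_mem hx'⟩ := rfl
    rw [← hinv'] at hI2 hred
    have hmul := m18v_redL_mul' hI' hI2
    rw [mul_inv_cancel₀ hx0, m18v_redL_one] at hmul
    have hne : m18v_redL A N' ((⟨x, hx'⟩ : m18v_F N')⁻¹) ≠ 0 := by
      intro h1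
      rw [h1, mul_zero] at hmul
      exact one_ne_zero hmul
    rw [hred] at hne
    have := m18sq_Int_inv_of_red_ne_zero hdec hI hne
    rwa [← hinv, inv_inv] at this

/-! ### the Gauss ring of `ℚ̄(j)` -/

/-- the reduction of a Gauss-integral element of `ℚ̄(j)` lies in `k(j̃)`. -/
theorem m18sq_redL_mem_simple {a : s24F M} (ha : a ∈ s24K⟮s24j M⟯) (hI : m18v_Int A M a) :
    m18v_redL A M a ∈ IntermediateField.adjoin (m18v_k A) {jqModC (m18v_k A)} := by
  by_cases ha0 : a = 0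
  · rw [ha0, m18v_redL_zero]
    exact zero_mem _
  obtain ⟨r, s, hq⟩ := (IntermediateField.mem_adjoin_simple_iff s24K a).mp ha
  have hs0 : (Polynomial.aeval (s24j M) s : s24F M) ≠ 0 := by
    intro h0
    rw [h0, div_zero] at hq
    exact ha0 hq
  have hr0 : (Polynomial.aeval (s24j M) r : s24F M) ≠ 0 := by
    intro h0
    rw [h0, zero_div] at hq
    exact ha0 hq
  have hsne : s ≠ 0 := by
    rintro rfl
    exact hs0 (map_zero _)
  have hrne : r ≠ 0 := by
    rintro rfl
    exact hr0 (map_zero _)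
  obtain ⟨cr, r', hcr, hr', ir, hrprim⟩ := m18sq_content A (fun _ : Fin 1 => r) ⟨0, hrne⟩
  obtain ⟨cs, s', hcs, hs', is, hsprim⟩ := m18sq_content A (fun _ : Fin 1 => s) ⟨0, hsne⟩
  have hrel : (a : LaurentSeries m18v_K) * m18sq_evL s = m18sq_evL r := by
    rw [← m18sq_coe_aeval (M := M), ← m18sq_coe_aeval (M := M)]
    show ((a * Polynomial.aeval (s24j M) s : s24F M) : LaurentSeries m18v_K) = _
    rw [hq, div_mul_cancel₀ _ hs0]
  have hrel2 : (a : LaurentSeries m18v_K) * m18v_incl A (m18sq_evA A (s' is)) =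
      HahnSeries.single 0 (cr / cs) * m18v_incl A (m18sq_evA A (r' ir)) := by
    have h1 : m18sq_evL s = HahnSeries.single 0 cs * m18v_incl A (m18sq_evA A (s' is)) := by
      rw [← m18sq_evL_C_mul, ← hs' is]
    have h2 : m18sq_evL r = HahnSeries.single 0 cr * m18v_incl A (m18sq_evA A (r' ir)) := by
      rw [← m18sq_evL_C_mul, ← hr' ir]
    rw [h1, h2] at hrel
    have hcs1 : (HahnSeries.single 0 cs : LaurentSeries m18v_K) ≠ 0 := by
      rw [Ne, HahnSeries.single_eq_zero_iff]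
      exact hcs
    have h3 : (HahnSeries.single 0 cs : LaurentSeries m18v_K) * HahnSeries.single 0 (cr / cs) =
        HahnSeries.single 0 cr := by
      rw [HahnSeries.single_mul_single, zero_add, mul_div_cancel₀ _ hcs]
    apply mul_left_cancel₀ hcs1
    rw [← mul_assoc (HahnSeries.single 0 cs) (HahnSeries.single 0 (cr / cs)), h3, ← hrel]
    ring
  have hGr := m18sq_G_evA (M := M) hrprim
  have hGs := m18sq_G_evA (M := M) hsprim
  obtain ⟨X, w, hw, hXw⟩ := hI
  have hcA : cr / cs ∈ A := by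
    refine m18v_mem_of_smul (X := m18sq_evA A (r' ir) * w) (Y := X * m18sq_evA A (s' is)) ?_ ?_
    · rw [map_mul]
      exact mul_ne_zero hGr.2.2 hw.2.2
    · rw [map_mul, map_mul, ← hXw, ← mul_assoc, ← hrel2]
      ring
  have hrel3 : (a : LaurentSeries m18v_K) * m18v_incl A (m18sq_evA A (s' is)) =
      m18v_incl A (HahnSeries.single 0 (⟨cr / cs, hcA⟩ : A) * m18sq_evA A (r' ir)) := by
    rw [map_mul, m18v_incl_single]
    exact hrel2
  have hred := m18v_redL_mul hGs hrel3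
  rw [map_mul, m18v_redq_single, m18sq_redq_evA, m18sq_redq_evA] at hred
  have hne := m18sq_evk_ne_zero hsprim
  have hfin : m18v_redL A M a = HahnSeries.single 0 (IsLocalRing.residue A ⟨cr / cs, hcA⟩) *
      m18sq_evk A ((r' ir).map (IsLocalRing.residue A)) /
      m18sq_evk A ((s' is).map (IsLocalRing.residue A)) := by
    rw [eq_div_iff hne]
    exact hred
  rw [hfin]
  refine div_mem (mul_mem ?_ (m18sq_evk_mem_simple _)) (m18sq_evk_mem_simple _)
  rw [← ModularCurve.algebraMap_laurentSeries_eq_single]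
  exact IntermediateField.algebraMap_mem _ _

/-- the same with values in `F~_M`. -/
theorem m18sq_red_mem_simple (hdec : m18sq_Dec A M) {a : s24F M} (ha : a ∈ s24K⟮s24j M⟯)
    (hI : m18v_Int A M a) :
    m18sq_red hdec a ∈ (m18v_k A)⟮m18sq_jt A M⟯ := by
  have h1 := m18sq_redL_mem_simple ha hI
  have h2 : IntermediateField.adjoin (m18v_k A) {jqModC (m18v_k A)} ≤
      ((m18v_k A)⟮m18sq_jt A M⟯).map (modularFunctionFieldFullC (m18v_k A) M).val := by
    rw [IntermediateField.adjoin_le_iff]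
    rintro _ rfl
    exact ⟨m18sq_jt A M, IntermediateField.mem_adjoin_simple_self _ _, rfl⟩
  obtain ⟨y, hy, hyx⟩ := h2 h1
  have : y = m18sq_red hdec a := Subtype.ext hyx
  rwa [← this]

end Fermat.Agent.M18

end
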