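import Mathlib
import Fermat.Agent.M18.Defs

/-!
# M18 (S18 project), block (NRM): formal assembly of the genus inequality

Owner helper2, prefix `m18nrm_`.

Abstract setting of `Defs.lean`: `K ⊆ F`, `A` a valuation subring of `K` with residue field `k`,
`Fk ⊇ k`, `r : Place K F → Place k Fk`, `G : m18_Gauss A r`.

* `m18nrm_Local G W Wt Q`: the local comparison at the place `Q` of `Fk`: there is a Gauss unit
  `y` with `W P ≤ ord_P y` on the tube of `Q` and `ord_Q (red y) ≤ Wt Q`.
* `m18nrm_mapDomain_le`: then `(r_* W) Q ≤ Wt Q`.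
* `m18nrm_degree_le`: if this holds at every `Q`, then `deg W ≤ deg Wt`.
* `m18nrm_tube`: the poles of `x` specialise to poles of `red x`, and the zeros of `x` to
  non-poles, as soon as the pole divisors of `x` and of `red x` have the same degree.
-/

set_option autoImplicit false
set_option linter.unusedSectionVars false
set_option linter.unusedVariables false
set_option linter.style.haveILetI false

noncomputable section

namespace Fermat.Agent.M18

open AlgebraicCurve

/-! ### generalities on `Finsupp.mapDomain` -/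

open Classical in
theorem m18nrm_mapDomain_apply {α β : Type*} (r : α → β) (f : α →₀ ℤ) (s : Finset α)
    (hs : f.support ⊆ s) (b : β) :
    Finsupp.mapDomain r f b = ∑ a ∈ s, if r a = b then f a else 0 := by
  rw [Finsupp.mapDomain, Finsupp.sum, Finsupp.finsetSum_apply]
  rw [Finset.sum_subset hs]
  · apply Finset.sum_congr rfl
    intro a _
    rw [Finsupp.single_apply]
  · intro a _ ha
    rw [Finsupp.notMem_support_iff.mp ha, Finsupp.single_zero, Finsupp.zero_apply]

theorem m18nrm_mapDomain_mono {α β : Type*} (r : α → β) (f g : α →₀ ℤ) (b : β)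
    (h : ∀ a, r a = b → f a ≤ g a) :
    Finsupp.mapDomain r f b ≤ Finsupp.mapDomain r g b := by
  classical
  rw [m18nrm_mapDomain_apply r f (f.support ∪ g.support) Finset.subset_union_left,
    m18nrm_mapDomain_apply r g (f.support ∪ g.support) Finset.subset_union_right]
  apply Finset.sum_le_sum
  intro a _
  by_cases ha : r a = b
  · rw [if_pos ha, if_pos ha]
    exact h a ha
  · rw [if_neg ha, if_neg ha]

theorem m18nrm_mapDomain_nonneg {α β : Type*} (r : α → β) (f : α →₀ ℤ) (b : β)
    (h : ∀ a, r a = b → 0 ≤ f a) : 0 ≤ Finsupp.mapDomain r f b := by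
  have h1 := m18nrm_mapDomain_mono r 0 f b (fun a ha => by simpa using h a ha)
  simpa using h1

theorem m18nrm_eq_zero_of_mapDomain_eq_zero {α β : Type*} (r : α → β) (f : α →₀ ℤ) (b : β)
    (h : ∀ a, r a = b → 0 ≤ f a) (h0 : Finsupp.mapDomain r f b = 0) (a : α) (ha : r a = b) :
    f a = 0 := by
  classical
  by_contra hne
  have hmem : a ∈ f.support := Finsupp.mem_support_iff.mpr hne
  rw [m18nrm_mapDomain_apply r f f.support (Finset.Subset.refl _)] at h0
  have h1 : ∀ a' ∈ f.support, 0 ≤ (if r a' = b then f a' else 0) := by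
    intro a' _
    by_cases ha' : r a' = b
    · rw [if_pos ha']
      exact h a' ha'
    · rw [if_neg ha']
  have h2 := (Finset.sum_eq_zero_iff_of_nonneg h1).mp h0 a hmem
  rw [if_pos ha] at h2
  exact hne h2

section general

variable {K F Fk : Type*} [Field K] [Field F] [Algebra K F] {A : ValuationSubring K}
  [Field Fk] [Algebra (IsLocalRing.ResidueField A) Fk]
  {r : Place K F → Place (IsLocalRing.ResidueField A) Fk}

theorem m18nrm_degree_mapDomain (hdeg : ∀ P, (r P).deg = P.deg) (D : Divisor K F) :
    Divisor.degree (Finsupp.mapDomain r D) = Divisor.degree D := by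
  induction D using Finsupp.induction with
  | zero => simp
  | single_add P n D _ _ ih =>
    rw [Finsupp.mapDomain_add, map_add, map_add, ih, Finsupp.mapDomain_single,
      Divisor.degree_single, Divisor.degree_single, hdeg]

theorem m18nrm_degree_apply {K F : Type*} [Field K] [Field F] [Algebra K F] (D : Divisor K F) :
    Divisor.degree D = ∑ v ∈ D.support, D v * (v.deg : ℤ) := by
  simp [Divisor.degree, Finsupp.sum]

theorem m18nrm_degree_apply' {K F : Type*} [Field K] [Field F] [Algebra K F] (D : Divisor K F)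
    (s : Finset (Place K F)) (hs : D.support ⊆ s) :
    Divisor.degree D = ∑ v ∈ s, D v * (v.deg : ℤ) := by
  rw [m18nrm_degree_apply]
  apply Finset.sum_subset hs
  intro v _ hv
  rw [Finsupp.notMem_support_iff.mp hv, zero_mul]

theorem m18nrm_degree_mono {K F : Type*} [Field K] [Field F] [Algebra K F] (D E : Divisor K F)
    (h : ∀ v, D v ≤ E v) : Divisor.degree D ≤ Divisor.degree E := by
  classical
  rw [m18nrm_degree_apply' D (D.support ∪ E.support) Finset.subset_union_left,
    m18nrm_degree_apply' E (D.support ∪ E.support) Finset.subset_union_right]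
  apply Finset.sum_le_sum
  intro v _
  exact mul_le_mul_of_nonneg_right (h v) (Int.natCast_nonneg _)

/-- if `D ≤ E` pointwise, the degrees agree and all places have positive degree, then
`D = E`. -/
theorem m18nrm_eq_of_le_of_degree {K F : Type*} [Field K] [Field F] [Algebra K F]
    (D E : Divisor K F) (h : ∀ v, D v ≤ E v) (hdeg : Divisor.degree E ≤ Divisor.degree D)
    (hpos : ∀ v : Place K F, 0 < v.deg) (v : Place K F) : D v = E v := by
  classical
  by_contra hne
  have hlt : D v < E v := lt_of_le_of_ne (h v) hne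
  have h1 : Divisor.degree D < Divisor.degree E := by
    rw [m18nrm_degree_apply' D (D.support ∪ E.support ∪ {v})
        (Finset.subset_union_left.trans Finset.subset_union_left),
      m18nrm_degree_apply' E (D.support ∪ E.support ∪ {v})
        (Finset.subset_union_right.trans Finset.subset_union_left)]
    apply Finset.sum_lt_sum
    · intro w _
      exact mul_le_mul_of_nonneg_right (h w) (Int.natCast_nonneg _)
    · refine ⟨v, Finset.mem_union_right _ (Finset.mem_singleton_self v), ?_⟩
      exact mul_lt_mul_of_pos_right hlt (by exact_mod_cast hpos v)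
  exact absurd hdeg (not_le.mpr h1)

/-- the local comparison at `Q`. -/
def m18nrm_Local (G : m18_Gauss A r) (W : Divisor K F)
    (Wt : Divisor (IsLocalRing.ResidueField A) Fk)
    (Q : Place (IsLocalRing.ResidueField A) Fk) : Prop :=
  ∃ y : G.O, G.red y ≠ 0 ∧ (∀ P, r P = Q → W P ≤ P.ord (y : F)) ∧ Q.ord (G.red y) ≤ Wt Q

theorem m18nrm_mapDomain_le [HasPrincipalDivisors K F] (G : m18_Gauss A r) (W : Divisor K F)
    (Wt : Divisor (IsLocalRing.ResidueField A) Fk)
    (Q : Place (IsLocalRing.ResidueField A) Fk) (h : m18nrm_Local G W Wt Q) :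
    Finsupp.mapDomain r W Q ≤ Wt Q := by
  obtain ⟨y, hy, h1, h2⟩ := h
  have hy0 : (y : F) ≠ 0 := by
    intro h0
    apply hy
    have : y = 0 := Subtype.ext h0
    rw [this, map_zero]
  obtain ⟨D, hD, -⟩ := HasPrincipalDivisors.exists_divisor (K := K) (y : F) hy0
  have h3 := G.hloc y hy D hD Q
  calc Finsupp.mapDomain r W Q ≤ Finsupp.mapDomain r D Q :=
        m18nrm_mapDomain_mono r W D Q (fun P hP => by rw [hD]; exact h1 P hP)
    _ = Q.ord (G.red y) := h3
    _ ≤ Wt Q := h2

/-- **assembly**: if the local comparison holds at every place, then `deg W ≤ deg Wt`. -/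
theorem m18nrm_degree_le [HasPrincipalDivisors K F] (G : m18_Gauss A r)
    (hdeg : ∀ P, (r P).deg = P.deg) (W : Divisor K F)
    (Wt : Divisor (IsLocalRing.ResidueField A) Fk)
    (h : ∀ Q, m18nrm_Local G W Wt Q) :
    Divisor.degree W ≤ Divisor.degree Wt := by
  rw [← m18nrm_degree_mapDomain hdeg W]
  exact m18nrm_degree_mono _ _ (fun Q => m18nrm_mapDomain_le G W Wt Q (h Q))

/-- **tubes**: if the pole divisor of `x` has degree at most the degree of the pole divisor of
`red x`, then the push-forward of the pole divisor of `x` is the pole divisor of `red x`; hence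
poles of `x` specialise to poles of `red x` and zeros of `x` specialise to non-poles. -/
theorem m18nrm_tube_eq [HasPrincipalDivisors K F] (G : m18_Gauss A r)
    (hdeg : ∀ P, (r P).deg = P.deg)
    (hpos : ∀ Q : Place (IsLocalRing.ResidueField A) Fk, 0 < Q.deg)
    (x : G.O) (hx : G.red x ≠ 0)
    (Dm : Divisor K F) (hDm : ∀ P, Dm P = max (-P.ord (x : F)) 0)
    (Dtm : Divisor (IsLocalRing.ResidueField A) Fk)
    (hDtm : ∀ Q, Dtm Q = max (-Q.ord (G.red x)) 0)
    (hDEG : Divisor.degree Dm ≤ Divisor.degree Dtm)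
    (Q : Place (IsLocalRing.ResidueField A) Fk) :
    Finsupp.mapDomain r Dm Q = Dtm Q := by
  have hx0 : (x : F) ≠ 0 := by
    intro h0
    apply hx
    have : x = 0 := Subtype.ext h0
    rw [this, map_zero]
  obtain ⟨D, hD, -⟩ := HasPrincipalDivisors.exists_divisor (K := K) (x : F) hx0
  have hloc := G.hloc x hx D hD
  have hDp : ∀ P, 0 ≤ (D + Dm) P := by
    intro P
    rw [Finsupp.add_apply, hD, hDm]
    rcases le_total (-P.ord (x : F)) 0 with h | h
    · rw [max_eq_right h]
      linarith
    · rw [max_eq_left h]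
      linarith
  have hstep1 : ∀ Q', Dtm Q' ≤ Finsupp.mapDomain r Dm Q' := by
    intro Q'
    have h1 : 0 ≤ Finsupp.mapDomain r (D + Dm) Q' :=
      m18nrm_mapDomain_nonneg r _ Q' (fun P _ => hDp P)
    rw [Finsupp.mapDomain_add, Finsupp.add_apply, hloc Q'] at h1
    have h2 : 0 ≤ Finsupp.mapDomain r Dm Q' :=
      m18nrm_mapDomain_nonneg r _ Q' (fun P _ => by rw [hDm]; exact le_max_right _ _)
    rw [hDtm]
    exact max_le (by linarith) h2
  have hstep2 : Divisor.degree (Finsupp.mapDomain r Dm) ≤ Divisor.degree Dtm := by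
    rw [m18nrm_degree_mapDomain hdeg]
    exact hDEG
  exact (m18nrm_eq_of_le_of_degree Dtm (Finsupp.mapDomain r Dm) hstep1 hstep2 hpos Q).symm

/-- poles of `x` specialise to poles of `red x`: the tube of a non-pole contains no pole. -/
theorem m18nrm_tube_finite [HasPrincipalDivisors K F] (G : m18_Gauss A r)
    (hdeg : ∀ P, (r P).deg = P.deg)
    (hpos : ∀ Q : Place (IsLocalRing.ResidueField A) Fk, 0 < Q.deg)
    (x : G.O) (hx : G.red x ≠ 0)
    (Dm : Divisor K F) (hDm : ∀ P, Dm P = max (-P.ord (x : F)) 0)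
    (Dtm : Divisor (IsLocalRing.ResidueField A) Fk)
    (hDtm : ∀ Q, Dtm Q = max (-Q.ord (G.red x)) 0)
    (hDEG : Divisor.degree Dm ≤ Divisor.degree Dtm)
    (P : Place K F) (hP : 0 ≤ (r P).ord (G.red x)) : 0 ≤ P.ord (x : F) := by
  have h1 := m18nrm_tube_eq G hdeg hpos x hx Dm hDm Dtm hDtm hDEG (r P)
  have h2 : Dtm (r P) = 0 := by
    rw [hDtm]
    exact max_eq_right (by linarith)
  rw [h2] at h1
  have h3 := m18nrm_eq_zero_of_mapDomain_eq_zero r Dm (r P)
    (fun P' _ => by rw [hDm]; exact le_max_right _ _) h1 P rfl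
  rw [hDm] at h3
  have h4 : -P.ord (x : F) ≤ 0 := by
    rw [← h3]
    exact le_max_left _ _
  linarith

/-- zeros of `x` specialise to non-poles of `red x`: the tube of a pole contains no zero. -/
theorem m18nrm_tube_infinite [HasPrincipalDivisors K F] (G : m18_Gauss A r)
    (hdeg : ∀ P, (r P).deg = P.deg)
    (hpos : ∀ Q : Place (IsLocalRing.ResidueField A) Fk, 0 < Q.deg)
    (x : G.O) (hx : G.red x ≠ 0)
    (Dm : Divisor K F) (hDm : ∀ P, Dm P = max (-P.ord (x : F)) 0)
    (Dtm : Divisor (IsLocalRing.ResidueField A) Fk)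
    (hDtm : ∀ Q, Dtm Q = max (-Q.ord (G.red x)) 0)
    (hDEG : Divisor.degree Dm ≤ Divisor.degree Dtm)
    (P : Place K F) (hP : (r P).ord (G.red x) < 0) : P.ord (x : F) ≤ 0 := by
  have hx0 : (x : F) ≠ 0 := by
    intro h0
    apply hx
    have : x = 0 := Subtype.ext h0
    rw [this, map_zero]
  obtain ⟨D, hD, -⟩ := HasPrincipalDivisors.exists_divisor (K := K) (x : F) hx0
  have hloc := G.hloc x hx D hD (r P)
  have h1 := m18nrm_tube_eq G hdeg hpos x hx Dm hDm Dtm hDtm hDEG (r P)
  have h2 : Dtm (r P) = -(r P).ord (G.red x) := by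
    rw [hDtm]
    exact max_eq_left (by linarith)
  have hDp : ∀ P', 0 ≤ (D + Dm) P' := by
    intro P'
    rw [Finsupp.add_apply, hD, hDm]
    rcases le_total (-P'.ord (x : F)) 0 with h | h
    · rw [max_eq_right h]
      linarith
    · rw [max_eq_left h]
      linarith
  have h3 : Finsupp.mapDomain r (D + Dm) (r P) = 0 := by
    rw [Finsupp.mapDomain_add, Finsupp.add_apply, hloc, h1, h2]
    ring
  have h4 := m18nrm_eq_zero_of_mapDomain_eq_zero r (D + Dm) (r P) (fun P' _ => hDp P') h3 P rfl
  rw [Finsupp.add_apply, hD, hDm] at h4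
  have h5 : -P.ord (x : F) ≤ max (-P.ord (x : F)) 0 := le_max_left _ _
  have h6 : (0 : ℤ) ≤ max (-P.ord (x : F)) 0 := le_max_right _ _
  linarith

end general

end Fermat.Agent.M18

end
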