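import Fermat.Agent.S20.RRChi
import Fermat.Agent.S20.RRZero
import Fermat.Agent.S20.RRAsm

/-!
# M18 / RRl-1, part 1: the function-field toolbox in arbitrary characteristic

`K` algebraically closed (any characteristic), `F ⊇ K` a field, `z : F` transcendental over `K`
with `F` finite and SEPARABLE over `K(z)`.  Re-proofs of the statements of the S20 / S24 packages
which were tagged `CharZero` (where characteristic zero was only used to get separability).
-/

set_option autoImplicit false
set_option linter.deprecated false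
set_option linter.unusedSectionVars false
set_option linter.unusedVariables false
set_option linter.style.haveILetI false

namespace Fermat.Agent.M18

open Fermat.Agent.S20 Fermat.Agent.S24
open AlgebraicCurve IntermediateField Module Polynomial IsDedekindDomain WithZero
open scoped IntermediateField.algebraAdjoinAdjoin

section transport

variable {K F : Type*} [Field K] [Field F] [Algebra K F]

theorem m18rr_fd_congr {E E' : IntermediateField K F} (h : E = E') [FiniteDimensional E F] :
    FiniteDimensional E' F := by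
  subst h
  infer_instance

theorem m18rr_sep_congr {E E' : IntermediateField K F} (h : E = E') [Algebra.IsSeparable E F] :
    Algebra.IsSeparable E' F := by
  subst h
  infer_instance

theorem m18rr_fd_inv (x : F) [FiniteDimensional K⟮x⟯ F] : FiniteDimensional K⟮x⁻¹⟯ F :=
  m18rr_fd_congr (algaz_adjoin_inv (K := K) x).symm

theorem m18rr_sep_inv (x : F) [Algebra.IsSeparable K⟮x⟯ F] : Algebra.IsSeparable K⟮x⁻¹⟯ F :=
  m18rr_sep_congr (algaz_adjoin_inv (K := K) x).symm

theorem m18rr_fd_sub (x : F) (a : K) [FiniteDimensional K⟮x⟯ F] :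
    FiniteDimensional K⟮x - algebraMap K F a⟯ F :=
  m18rr_fd_congr (algaz_adjoin_sub (K := K) x a).symm

theorem m18rr_sep_sub (x : F) (a : K) [Algebra.IsSeparable K⟮x⟯ F] :
    Algebra.IsSeparable K⟮x - algebraMap K F a⟯ F :=
  m18rr_sep_congr (algaz_adjoin_sub (K := K) x a).symm

end transport

section basic

variable {K F : Type*} [Field K] [Field F] [Algebra K F] [IsAlgClosed K]

/-- residue fields are `K`. -/
theorem m18rr_deg_eq_one (x : F) [FiniteDimensional K⟮x⟯ F] (v : Place K F) : v.deg = 1 := by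
  have hsurj := alga_algebraMap_residueField_surjective x v
  have hbij : Function.Bijective (algebraMap K v.ResidueField) :=
    ⟨(algebraMap K v.ResidueField).injective, hsurj⟩
  show Module.finrank K v.ResidueField = 1
  rw [← Module.finrank_self K]
  exact ((AlgEquiv.ofBijective (Algebra.ofId K v.ResidueField) hbij).toLinearEquiv.finrank_eq).symm

/-- the value of a transcendental `z` at a place where it is regular. -/
theorem m18rr_exists_val (z : F) (hz : Transcendental K z) [FiniteDimensional K⟮z⟯ F]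
    (v : Place K F) (hv : 0 ≤ v.ord z) : ∃ a : K, 0 < v.ord (z - algebraMap K F a) := by
  obtain ⟨a, ha⟩ := alga_exists_sub_mem z v (alga_mem_of_ord_nonneg v hv)
  rcases ha with ha | ha
  · exact absurd (ha ▸ isAlgebraic_algebraMap a) hz
  · exact ⟨a, ha⟩

/-- zeros of a separating element: finitely many, and their orders add up to the degree. -/
theorem m18rr_zeros_core (z : F) (hz : Transcendental K z) [FiniteDimensional K⟮z⟯ F]
    [Algebra.IsSeparable K⟮z⟯ F] :
    {v : Place K F | 0 < v.ord z}.Finite ∧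
    ∑ᶠ v ∈ {v : Place K F | 0 < v.ord z}, v.ord z = (Module.finrank K⟮z⟯ F : ℤ) := by
  classical
  have hDed : IsDedekindDomain (Algebra.adjoin K ({z} : Set F)) := algaz_isDedekindDomain z hz
  have hDedB : IsDedekindDomain (integralClosure (Algebra.adjoin K ({z} : Set F)) F) :=
    integralClosure.isDedekindDomain (Algebra.adjoin K ({z} : Set F)) K⟮z⟯ F
  have hFracB : IsFractionRing (integralClosure (Algebra.adjoin K ({z} : Set F)) F) F :=
    integralClosure.isFractionRing_of_finite_extension K⟮z⟯ F
  have hFinB : Module.Finite (Algebra.adjoin K ({z} : Set F))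
      (integralClosure (Algebra.adjoin K ({z} : Set F)) F) :=
    IsIntegralClosure.finite (Algebra.adjoin K ({z} : Set F)) K⟮z⟯ F
      (integralClosure (Algebra.adjoin K ({z} : Set F)) F)
  have hgen0 : algaz_gen (K := K) z ≠ 0 := algaz_gen_ne_zero z hz
  have hpprime : (Ideal.span {algaz_gen (K := K) z}).IsPrime :=
    (Ideal.span_singleton_prime hgen0).mpr (algaz_prime_gen z hz)
  have hp0 : Ideal.span {algaz_gen (K := K) z} ≠ ⊥ := by
    rw [ne_eq, Ideal.span_singleton_eq_bot]
    exact hgen0
  have hpmax : (Ideal.span {algaz_gen (K := K) z}).IsMaximal := hpprime.isMaximal hp0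
  have hA : ∀ v : Place K F,
      0 < v.ord (algebraMap (Algebra.adjoin K ({z} : Set F)) F (algaz_gen (K := K) z)) →
      ∀ a : Algebra.adjoin K ({z} : Set F),
        algebraMap (Algebra.adjoin K ({z} : Set F)) F a ∈ v.toValuationSubring := by
    intro v hv a
    have hzmem : z ∈ v.toValuationSubring := alga_mem_of_ord_nonneg v hv.le
    have hc : (a : F) ∈ (aeval z : K[X] →ₐ[K] F).range := by
      rw [← Algebra.adjoin_singleton_eq_range_aeval]
      exact a.2
    obtain ⟨q, hq⟩ := hc
    show (a : F) ∈ v.toValuationSubring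
    rw [← hq]
    exact alga_aeval_mem v hzmem q
  exact algad_core (K := K) (F := F) K⟮z⟯ (integralClosure (Algebra.adjoin K ({z} : Set F)) F) z
    (algaz_gen (K := K) z) hgen0 hpmax hA

/-- zeros of `x - a`: finitely many. -/
theorem m18rr_finite_zeros (x : F) (hx : Transcendental K x) [FiniteDimensional K⟮x⟯ F]
    [Algebra.IsSeparable K⟮x⟯ F] (a : K) :
    {v : Place K F | 0 < v.ord (x - algebraMap K F a)}.Finite := by
  haveI := m18rr_fd_sub (K := K) x a
  haveI := m18rr_sep_sub (K := K) x a
  exact (m18rr_zeros_core (x - algebraMap K F a) (algaz_transcendental_sub hx a)).1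

/-- fundamental identity at a finite point. -/
theorem m18rr_sum_zeros (x : F) (hx : Transcendental K x) [FiniteDimensional K⟮x⟯ F]
    [Algebra.IsSeparable K⟮x⟯ F] (a : K) :
    ∑ᶠ v ∈ {v : Place K F | 0 < v.ord (x - algebraMap K F a)}, v.ord (x - algebraMap K F a)
      = (Module.finrank K⟮x⟯ F : ℤ) := by
  haveI := m18rr_fd_sub (K := K) x a
  haveI := m18rr_sep_sub (K := K) x a
  rw [(m18rr_zeros_core (x - algebraMap K F a) (algaz_transcendental_sub hx a)).2,
    algaz_finrank_congr (algaz_adjoin_sub x a)]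

/-- poles of `x`: finitely many. -/
theorem m18rr_finite_poles_gen (x : F) (hx : Transcendental K x) [FiniteDimensional K⟮x⟯ F]
    [Algebra.IsSeparable K⟮x⟯ F] : {v : Place K F | v.ord x < 0}.Finite := by
  haveI := m18rr_fd_inv (K := K) x
  haveI := m18rr_sep_inv (K := K) x
  have h := (m18rr_zeros_core x⁻¹ (algaz_transcendental_inv hx)).1
  have hset : {v : Place K F | v.ord x < 0} = {v : Place K F | 0 < v.ord x⁻¹} := by
    ext v
    simp only [Set.mem_setOf_eq, Place.ord_inv]
    omega
  rw [hset]
  exact h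

/-- fundamental identity at infinity. -/
theorem m18rr_sum_poles (x : F) (hx : Transcendental K x) [FiniteDimensional K⟮x⟯ F]
    [Algebra.IsSeparable K⟮x⟯ F] :
    ∑ᶠ v ∈ {v : Place K F | v.ord x < 0}, (- v.ord x) = (Module.finrank K⟮x⟯ F : ℤ) := by
  haveI := m18rr_fd_inv (K := K) x
  haveI := m18rr_sep_inv (K := K) x
  have h := (m18rr_zeros_core x⁻¹ (algaz_transcendental_inv hx)).2
  have hset : {v : Place K F | v.ord x < 0} = {v : Place K F | 0 < v.ord x⁻¹} := by
    ext v
    simp only [Set.mem_setOf_eq, Place.ord_inv]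
    omega
  rw [hset, ← algaz_finrank_congr (algaz_adjoin_inv (K := K) x), ← h]
  simp only [Place.ord_inv]

/-- `x` has a pole. -/
theorem m18rr_exists_pole (x : F) (hx : Transcendental K x) [FiniteDimensional K⟮x⟯ F]
    [Algebra.IsSeparable K⟮x⟯ F] : ∃ v : Place K F, v.ord x < 0 := by
  by_contra hcon
  push Not at hcon
  have h := m18rr_sum_poles x hx
  have hempty : {v : Place K F | v.ord x < 0} = ∅ := by
    ext v
    simp only [Set.mem_ofPred_eq, Set.mem_empty_iff_false, iff_false, not_lt]
    exact hcon v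
  rw [hempty, finsum_mem_empty] at h
  have hpos : 0 < Module.finrank K⟮x⟯ F := Module.finrank_pos
  omega

/-- [C1] the integral closure of `K[z]` in `F` is `rrLam z 0`. -/
theorem m18rr_integral_iff (z : F) (hz : Transcendental K z) [FiniteDimensional K⟮z⟯ F]
    [Algebra.IsSeparable K⟮z⟯ F] (f : F) :
    IsIntegral (Algebra.adjoin K ({z} : Set F)) f ↔ f ∈ rrLam z (0 : Divisor K F) := by
  classical
  have hDed : IsDedekindDomain (Algebra.adjoin K ({z} : Set F)) := algaz_isDedekindDomain z hz
  have hDedB : IsDedekindDomain (integralClosure (Algebra.adjoin K ({z} : Set F)) F) :=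
    integralClosure.isDedekindDomain (Algebra.adjoin K ({z} : Set F)) K⟮z⟯ F
  have hFracB : IsFractionRing (integralClosure (Algebra.adjoin K ({z} : Set F)) F) F :=
    integralClosure.isFractionRing_of_finite_extension K⟮z⟯ F
  have hFinB : Module.Finite (Algebra.adjoin K ({z} : Set F))
      (integralClosure (Algebra.adjoin K ({z} : Set F)) F) :=
    IsIntegralClosure.finite (Algebra.adjoin K ({z} : Set F)) K⟮z⟯ F
      (integralClosure (Algebra.adjoin K ({z} : Set F)) F)
  constructor
  · intro hf v hv
    have h1 := algad_integral_mem (K := K) (F := F) (A := Algebra.adjoin K ({z} : Set F))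
      (B := integralClosure (Algebra.adjoin K ({z} : Set F)) F) v
      (fun a => rrd_adjoin_mem z v hv a.2) ⟨f, hf⟩
    have h2 : f ∈ v.toValuationSubring := h1
    have h3 := (ct_adic_le_one_iff_mem v f).2 h2
    simpa using h3
  · intro hf
    have h1 := rrd_mem_range_of_forall (K := K) (F := F)
      (B := integralClosure (Algebra.adjoin K ({z} : Set F)) F) f (fun w => ?_)
    · obtain ⟨b, hb⟩ := h1
      rw [← hb]
      exact b.2
    · have hzint : IsIntegral (Algebra.adjoin K ({z} : Set F)) z :=
        isIntegral_algebraMap (x := algaz_gen (K := K) z)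
      have hzmem := rrd_range_mem (K := K) (F := F) w
        (⟨z, hzint⟩ : integralClosure (Algebra.adjoin K ({z} : Set F)) F)
      have hz0 : 0 ≤ (Place.ofHeightOneSpectrum (K := K) (F := F) w).ord z :=
        alga_ord_nonneg_of_mem _ hzmem
      have h2 := hf _ hz0
      rw [← ct_adic_le_one_iff_mem]
      simpa using h2

/-- a polynomial in `z` vanishing to order `≥ m` at the places of `S` where `z` is regular, with
zeros only at (the values of `z` at) places of `S`. -/
theorem m18rr_exists_clear (z : F) (hz : Transcendental K z) [FiniteDimensional K⟮z⟯ F]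
    (S : Finset (Place K F)) (m : ℕ) :
    ∃ p : K[X], p ≠ 0 ∧ (∀ v ∈ S, 0 ≤ v.ord z → (m : ℤ) ≤ v.ord (aeval z p)) ∧
      ∀ a : K, p.IsRoot a → ∃ v ∈ S, 0 < v.ord (z - algebraMap K F a) := by
  classical
  induction S using Finset.induction_on with
  | empty =>
    refine ⟨1, one_ne_zero, fun v hv => absurd hv (Finset.notMem_empty v), fun a ha => ?_⟩
    simp at ha
  | insert v S hvS ih =>
    obtain ⟨p, hp0, hp1, hp2⟩ := ih
    by_cases hv : 0 ≤ v.ord z
    · obtain ⟨a, ha⟩ := m18rr_exists_val z hz v hv
      have hq0 : (X - C a : K[X]) ^ m ≠ 0 := pow_ne_zero _ (X_sub_C_ne_zero a)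
      refine ⟨(X - C a) ^ m * p, mul_ne_zero hq0 hp0, fun w hw hwz => ?_, fun b hb => ?_⟩
      · rw [map_mul, w.ord_mul (rrd_aeval_ne_zero hz hq0) (rrd_aeval_ne_zero hz hp0)]
        have h1 := rrd_ord_aeval_nonneg z w hwz ((X - C a) ^ m)
        have h2 := rrd_ord_aeval_nonneg z w hwz p
        rcases Finset.mem_insert.1 hw with rfl | hw'
        · have h3 : w.ord (aeval z ((X - C a : K[X]) ^ m)) = m * w.ord (z - algebraMap K F a) := by
            rw [map_pow, map_sub, aeval_X, aeval_C, ← zpow_natCast, w.ord_zpow]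
          rw [h3]
          nlinarith
        · have := hp1 w hw' hwz
          omega
      · rw [IsRoot.def, eval_mul, mul_eq_zero] at hb
        rcases hb with hb | hb
        · have hba : b = a := by
            rw [eval_pow] at hb
            have h4 := eq_zero_of_pow_eq_zero hb
            rw [eval_sub, eval_X, eval_C, sub_eq_zero] at h4
            exact h4
          exact ⟨v, Finset.mem_insert_self v S, hba ▸ ha⟩
        · obtain ⟨w, hw, hwb⟩ := hp2 b hb
          exact ⟨w, Finset.mem_insert_of_mem hw, hwb⟩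
    · refine ⟨p, hp0, fun w hw hwz => ?_, fun b hb => ?_⟩
      · rcases Finset.mem_insert.1 hw with rfl | hw'
        · exact absurd hwz hv
        · exact hp1 w hw' hwz
      · obtain ⟨w, hw, hwb⟩ := hp2 b hb
        exact ⟨w, Finset.mem_insert_of_mem hw, hwb⟩

/-- the common denominator of `rrLam z D`. -/
theorem m18rr_exists_denominator (z : F) (hz : Transcendental K z) [FiniteDimensional K⟮z⟯ F]
    (D : Divisor K F) :
    ∃ p : K[X], p ≠ 0 ∧ ∀ v : Place K F, 0 ≤ v.ord z → ((D v).natAbs : ℤ) ≤ v.ord (aeval z p) := by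
  classical
  obtain ⟨p, hp0, hp1, -⟩ := m18rr_exists_clear z hz D.support (∑ w ∈ D.support, (D w).natAbs)
  refine ⟨p, hp0, fun v hv => ?_⟩
  by_cases hvD : v ∈ D.support
  · exact (rrd_natAbs_le_sum D v).trans (hp1 v hvD hv)
  · rw [Finsupp.notMem_support_iff] at hvD
    rw [hvD]
    simpa using rrd_ord_aeval_nonneg z v hv p

/-- [RR-DICT, generic chart] `rrLam z D = ⊕ K[z] c_i` for a `K(z)`-basis `c` of `F`. -/
theorem m18rr_lam_basis (z : F) (hz : Transcendental K z) [FiniteDimensional K⟮z⟯ F]
    [Algebra.IsSeparable K⟮z⟯ F] (D : Divisor K F) :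
    ∃ c : Basis (Fin (finrank K⟮z⟯ F)) K⟮z⟯ F, ∀ f : F,
      f ∈ rrLam z D ↔ ∀ i, ((c.repr f i : K⟮z⟯) : F) ∈ Algebra.adjoin K ({z} : Set F) := by
  classical
  have hPID : IsPrincipalIdealRing (Algebra.adjoin K ({z} : Set F)) :=
    algaz_isPrincipalIdealRing z hz
  have hDed : IsDedekindDomain (Algebra.adjoin K ({z} : Set F)) := algaz_isDedekindDomain z hz
  have hFinB : Module.Finite (Algebra.adjoin K ({z} : Set F))
      (integralClosure (Algebra.adjoin K ({z} : Set F)) F) :=
    IsIntegralClosure.finite (Algebra.adjoin K ({z} : Set F)) K⟮z⟯ F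
      (integralClosure (Algebra.adjoin K ({z} : Set F)) F)
  obtain ⟨p, hp0, hp⟩ := m18rr_exists_denominator z hz D
  have hd0 : aeval z p ≠ 0 := rrd_aeval_ne_zero hz hp0
  have hdmem : aeval z p ∈ Algebra.adjoin K ({z} : Set F) := aeval_mem_adjoin_singleton K z
  have hd : (⟨aeval z p, hdmem⟩ : Algebra.adjoin K ({z} : Set F)) ≠ 0 := by
    intro h
    exact hd0 (congrArg Subtype.val h)
  have h1 : ∀ f ∈ rrd_lamA z D, ∃ b : integralClosure (Algebra.adjoin K ({z} : Set F)) F,
      algebraMap (integralClosure (Algebra.adjoin K ({z} : Set F)) F) F b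
        = (⟨aeval z p, hdmem⟩ : Algebra.adjoin K ({z} : Set F)) • f := by
    intro f hf
    have hf' : f ∈ rrLam z D := hf
    have h3 : aeval z p * f ∈ rrLam z (0 : Divisor K F) := by
      rw [mem_rrLam_iff] at hf' ⊢
      intro v hv
      refine rrd_ord_mul_le v (n' := D v) (Or.inr ?_) (hf' v hv)
      have := hp v hv
      simp only [Finsupp.coe_zero, Pi.zero_apply]
      omega
    exact ⟨⟨aeval z p * f, (m18rr_integral_iff z hz _).2 h3⟩, rfl⟩
  have h2 : ∀ b : integralClosure (Algebra.adjoin K ({z} : Set F)) F,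
      (⟨aeval z p, hdmem⟩ : Algebra.adjoin K ({z} : Set F)) •
        algebraMap (integralClosure (Algebra.adjoin K ({z} : Set F)) F) F b ∈ rrd_lamA z D := by
    intro b
    have hb : (b : F) ∈ rrLam z (0 : Divisor K F) := (m18rr_integral_iff z hz _).1 b.2
    show aeval z p * (b : F) ∈ rrLam z D
    rw [mem_rrLam_iff] at hb ⊢
    intro v hv
    refine rrd_ord_mul_le v (n' := (0 : Divisor K F) v) (Or.inr ?_) (hb v hv)
    have := hp v hv
    simp only [Finsupp.coe_zero, Pi.zero_apply]
    omega
  obtain ⟨c, hc⟩ := rrd_aklb_basis (F := F) K⟮z⟯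
    (integralClosure (Algebra.adjoin K ({z} : Set F)) F) (rrd_lamA z D) _ hd h1 h2
  refine ⟨c, fun f => ?_⟩
  rw [← rrd_mem_lamA, hc f]
  refine forall_congr' fun i => ⟨?_, fun h => ⟨⟨_, h⟩, Subtype.ext rfl⟩⟩
  rintro ⟨a, ha⟩
  rw [← ha]
  exact a.2

/-- [RR-DICT] the finite part is an `A`-lattice. -/
theorem m18rr_lam_isLattice (x : F) (hx : Transcendental K x) [FiniteDimensional K⟮x⟯ F]
    [Algebra.IsSeparable K⟮x⟯ F]
    (B : NfBase K K⟮x⟯) (hB : RrBaseFor x B) (D : Divisor K F) :
    ∃ b : Basis (Fin (finrank K⟮x⟯ F)) K⟮x⟯ F, rrLam x D = B.latA b := by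
  obtain ⟨c, hc⟩ := m18rr_lam_basis x hx D
  refine ⟨c, ?_⟩
  ext f
  rw [hc f, NfBase.mem_latA, hB.2]
  exact forall_congr' fun i => (rrd_mem_adjoin_gen_iff x _).symm

end basic

end Fermat.Agent.M18
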