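import Fermat.Agent.M18.VGauss
import Fermat.Agent.M18.NrmAsm
import Fermat.Agent.M18.RrBase
import Fermat.Agent.M18.ResField
import Fermat.Agent.M18.CuspSepR

/-!
# M18 / (V), part 9: tubes of the cusps (P5), coordinates `j - c`, and the place `Pstar`.

Concrete instantiation, for the Gauss package `m18v_gauss h` of the function field of `X₀(N)`
and the function `j`, of the abstract tube lemmas `m18nrm_tube_*` of `NrmAsm.lean`.

`j~ = m18sq_jt A N`.  The conditional forms (`m18v_tube_finite`, ...) take the instances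
`[FiniteDimensional k⟮j~⟯ F~] [Algebra.IsSeparable k⟮j~⟯ F~]` and
`hDEG : finrank L⟮j⟯ F ≤ finrank k⟮j~⟯ F~`; the final forms (`m18v_tube_j`, ...) only
`hA : A.LiesOverPrime ℓ` and `hℓN : ¬ ℓ ∣ N`.
-/

set_option autoImplicit false
set_option synthInstance.maxHeartbeats 400000
set_option maxHeartbeats 1600000
set_option linter.unusedSectionVars false
set_option linter.unusedVariables false
set_option linter.style.haveILetI false

noncomputable section

open HahnSeries IntermediateField AlgebraicCurve ModularCurve Fermat.Agent.S24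

namespace Fermat.Agent.M18

/-! ### generalities on places -/

section general

variable {K F : Type*} [Field K] [Field F] [Algebra K F]

/-- subtracting a constant does not change the order at a pole. -/
theorem m18v_ord_sub_const_of_neg (v : Place K F) {y : F} (a : K) (hy : v.ord y < 0) :
    v.ord (y - algebraMap K F a) = v.ord y := by
  have hy0 : y ≠ 0 := by
    rintro rfl
    simp at hy
  have h1 : v.adicValuation (algebraMap K F a) ≤ 1 := v.adicValuation_algebraMap_le_one a
  have h2 : 1 < v.adicValuation y := by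
    by_contra hle
    push_neg at hle
    rcases v.adicValuation_le_one_iff.1 hle with h0 | h0
    · exact hy0 h0
    · omega
  have h3 : v.adicValuation (y - algebraMap K F a) = v.adicValuation y :=
    Valuation.map_sub_eq_of_lt_left _ (lt_of_le_of_lt h1 h2)
  unfold Place.ord
  rw [h3]

/-- subtracting a constant preserves regularity. -/
theorem m18v_ord_sub_const_nonneg (v : Place K F) {y : F} (a : K) (hy : 0 ≤ v.ord y) :
    0 ≤ v.ord (y - algebraMap K F a) := by
  rw [← alga_mem_iff] at hy ⊢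
  exact v.toValuationSubring.sub_mem hy (v.algebraMap_mem' a)

theorem m18v_ord_sub_const_neg_iff (v : Place K F) (y : F) (a : K) :
    v.ord (y - algebraMap K F a) < 0 ↔ v.ord y < 0 := by
  constructor
  · intro h
    by_contra hy
    push_neg at hy
    have := m18v_ord_sub_const_nonneg v a hy
    omega
  · intro h
    rw [m18v_ord_sub_const_of_neg v a h]
    exact h

theorem m18v_max_sub_const (v : Place K F) (y : F) (a : K) :
    max (-v.ord (y - algebraMap K F a)) 0 = max (-v.ord y) 0 := by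
  rcases lt_or_ge (v.ord y) 0 with h | h
  · rw [m18v_ord_sub_const_of_neg v a h]
  · have := m18v_ord_sub_const_nonneg v a h
    rw [max_eq_right (by omega), max_eq_right (by omega)]

/-- the pole divisor of a function, and its degree when all places have degree one. -/
theorem m18v_poleDiv [HasPrincipalDivisors K F] (x : F) (hx : x ≠ 0)
    (hdeg : ∀ P : Place K F, P.deg = 1) :
    ∃ Dm : Divisor K F, (∀ P, Dm P = max (-P.ord x) 0) ∧
      Divisor.degree Dm = ∑ᶠ P ∈ {P : Place K F | P.ord x < 0}, (-P.ord x) := by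
  classical
  obtain ⟨D, hD, -⟩ := HasPrincipalDivisors.exists_divisor (K := K) x hx
  let Dm : Divisor K F := Finsupp.mapRange (fun n : ℤ => max (-n) 0) (by simp) D
  have hDm : ∀ P, Dm P = max (-P.ord x) 0 := by
    intro P
    show Finsupp.mapRange (fun n : ℤ => max (-n) 0) _ D P = _
    rw [Finsupp.mapRange_apply, hD]
  refine ⟨Dm, hDm, ?_⟩
  have hset : {P : Place K F | P.ord x < 0} = ↑Dm.support := by
    ext P
    simp only [Set.mem_setOf_eq, Finset.mem_coe, Finsupp.mem_support_iff, hDm]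
    constructor
    · intro h
      rw [max_eq_left (by omega)]
      omega
    · intro h
      by_contra hn
      push_neg at hn
      exact h (max_eq_right (by omega))
  rw [hset, finsum_mem_coe_finset, m18nrm_degree_apply]
  refine Finset.sum_congr rfl fun P hP => ?_
  rw [hdeg P, Nat.cast_one, mul_one, hDm]
  have hP' : P ∈ {P : Place K F | P.ord x < 0} := by
    rw [hset]
    exact hP
  have hlt : P.ord x < 0 := hP'
  exact max_eq_left (by omega)

end general

/-! ### the abstract tube statement for `x` and `x - c` -/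

section abstract

variable {K F Fk : Type*} [Field K] [Field F] [Algebra K F] {A : ValuationSubring K}
  [Field Fk] [Algebra (IsLocalRing.ResidueField A) Fk]
  {r : Place K F → Place (IsLocalRing.ResidueField A) Fk}

theorem m18v_tube_abs [HasPrincipalDivisors K F] (G : m18_Gauss A r)
    (hdeg1 : ∀ P : Place K F, P.deg = 1)
    (hdeg2 : ∀ Q : Place (IsLocalRing.ResidueField A) Fk, Q.deg = 1)
    (x : F) (hx : x ∈ G.O) (y : Fk) (hxy : G.red ⟨x, hx⟩ = y)
    (htr : ∀ a : IsLocalRing.ResidueField A, y ≠ algebraMap (IsLocalRing.ResidueField A) Fk a)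
    (Dm : Divisor K F) (hDm : ∀ P, Dm P = max (-P.ord x) 0)
    (Dtm : Divisor (IsLocalRing.ResidueField A) Fk) (hDtm : ∀ Q, Dtm Q = max (-Q.ord y) 0)
    (hD : Divisor.degree Dm ≤ Divisor.degree Dtm) (c : A) (P : Place K F) :
    (0 ≤ (r P).ord y → 0 ≤ P.ord x) ∧
    ((r P).ord y < 0 → P.ord (x - algebraMap K F (c : K)) ≤ 0) := by
  have hdeg : ∀ P : Place K F, (r P).deg = P.deg := by
    intro P
    rw [hdeg1, hdeg2]
  have hpos : ∀ Q : Place (IsLocalRing.ResidueField A) Fk, 0 < Q.deg := by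
    intro Q
    rw [hdeg2]
    exact Nat.one_pos
  have hy0 : y ≠ 0 := by
    have := htr 0
    rwa [map_zero] at this
  constructor
  · intro hP
    refine m18nrm_tube_finite G hdeg hpos ⟨x, hx⟩ ?_ Dm hDm Dtm ?_ hD P ?_
    · rw [hxy]
      exact hy0
    · intro Q
      rw [hxy]
      exact hDtm Q
    · rw [hxy]
      exact hP
  · intro hP
    have hmem : x - algebraMap K F (c : K) ∈ G.O := G.O.sub_mem hx (G.const_mem c)
    have hred : G.red ⟨x - algebraMap K F (c : K), hmem⟩
        = y - algebraMap (IsLocalRing.ResidueField A) Fk (IsLocalRing.residue A c) := by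
      have h1 : (⟨x - algebraMap K F (c : K), hmem⟩ : G.O) =
          ⟨x, hx⟩ - ⟨algebraMap K F (c : K), G.const_mem c⟩ := rfl
      rw [h1, map_sub, hxy, G.red_const]
    refine m18nrm_tube_infinite G hdeg hpos ⟨x - algebraMap K F (c : K), hmem⟩ ?_ Dm ?_ Dtm ?_
      hD P ?_
    · rw [hred]
      intro h0
      exact htr _ (sub_eq_zero.mp h0)
    · intro P'
      show Dm P' = max (-P'.ord (x - algebraMap K F (c : K))) 0
      rw [m18v_max_sub_const]
      exact hDm P'
    · intro Q
      rw [hred, m18v_max_sub_const]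
      exact hDtm Q
    · rw [hred, m18v_ord_sub_const_neg_iff]
      exact hP

end abstract

/-! ### the functions `j` and `j~` -/

section concrete

variable {A : ValuationSubring m18v_K} {N : ℕ} [NeZero N]

theorem m18v_coe_j :
    ((s24j N : m18v_F N) : LaurentSeries m18v_K) = m18v_incl A (jqModC A) := by
  show coeffEmb s24K jq = coeffMap A.subtype (jqModC A)
  rw [coeffMap_jqModC, ← jqModC_rat]
  exact coeffMap_jqModC (algebraMap ℚ s24K)

theorem m18v_Int_j : m18v_Int A N (s24j N) := m18v_Int_of_incl m18v_coe_j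

theorem m18v_redL_j : m18v_redL A N (s24j N) = jqModC (m18v_k A) := by
  rw [m18v_redL_of_incl m18v_coe_j]
  exact coeffMap_jqModC _

theorem m18v_j_mem (h : ReductionInputsModL A N) : s24j N ∈ (m18v_gauss h).O := m18v_Int_j

theorem m18v_red_j (h : ReductionInputsModL A N) :
    (m18v_gauss h).red ⟨s24j N, m18v_j_mem h⟩ = m18sq_jt A N :=
  Subtype.ext m18v_redL_j

theorem m18v_jt_transcendental : Transcendental (m18v_k A) (m18sq_jt A N) := by
  have h :=
    P2MW.S_ModularCurve_coeff_jqModC_neg_one.ModularCurve.CharLRows.transcendental_jqModC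
      (m18v_k A)
  intro halg
  apply h
  have h2 : IsAlgebraic (m18v_k A)
      (algebraMap (m18v_Ft A N) (LaurentSeries (m18v_k A)) (m18sq_jt A N)) :=
    halg.algebraMap
  exact h2

theorem m18v_jt_ne_zero : m18sq_jt A N ≠ 0 := by
  intro h0
  apply m18v_jt_transcendental (A := A) (N := N)
  rw [h0]
  exact isAlgebraic_zero

theorem m18v_j_sub_mem (h : ReductionInputsModL A N) (c : A) :
    s24j N - algebraMap m18v_K (m18v_F N) (c : m18v_K) ∈ (m18v_gauss h).O :=
  m18v_Int_sub m18v_Int_j (m18v_Int_const c)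

theorem m18v_red_j_sub (h : ReductionInputsModL A N) (c : A) :
    (m18v_gauss h).red ⟨s24j N - algebraMap m18v_K (m18v_F N) (c : m18v_K), m18v_j_sub_mem h c⟩
      = m18sq_jt A N - algebraMap (m18v_k A) (m18v_Ft A N) (IsLocalRing.residue A c) := by
  have h1 : (⟨s24j N - algebraMap m18v_K (m18v_F N) (c : m18v_K), m18v_j_sub_mem h c⟩ :
      (m18v_gauss h).O) = ⟨s24j N, m18v_j_mem h⟩ -
        ⟨algebraMap m18v_K (m18v_F N) (c : m18v_K), (m18v_gauss h).const_mem c⟩ := rfl
  rw [h1, map_sub, m18v_red_j, (m18v_gauss h).red_const]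

theorem m18v_red_j_sub_ne_zero (h : ReductionInputsModL A N) (c : A) :
    (m18v_gauss h).red ⟨s24j N - algebraMap m18v_K (m18v_F N) (c : m18v_K), m18v_j_sub_mem h c⟩
      ≠ 0 := by
  rw [m18v_red_j_sub]
  intro h0
  apply m18v_jt_transcendental (A := A) (N := N)
  rw [sub_eq_zero.mp h0]
  exact isAlgebraic_algebraMap _

/-- all places of `F` have degree one. -/
theorem m18v_deg_eq_one (P : Place m18v_K (m18v_F N)) : P.deg = 1 := by
  haveI := ana_finiteDimensional N
  exact alg_deg_eq_one (s24j N) (ana_transcendental N) P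

/-- all places of `F~` have degree one. -/
theorem m18v_deg_eq_one_res [FiniteDimensional (m18v_k A)⟮m18sq_jt A N⟯ (m18v_Ft A N)]
    (Q : Place (m18v_k A) (m18v_Ft A N)) : Q.deg = 1 := by
  haveI := m18rf_isAlgClosed A
  exact m18rr_deg_eq_one (m18sq_jt A N) Q

/-- the pole divisor of `j` has degree `[F : L(j)]`. -/
theorem m18v_poleDiv_j :
    ∃ Dm : Divisor m18v_K (m18v_F N), (∀ P, Dm P = max (-P.ord (s24j N)) 0) ∧
      Divisor.degree Dm = (Module.finrank m18v_K⟮s24j N⟯ (m18v_F N) : ℤ) := by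
  haveI := ana_finiteDimensional N
  haveI := m18v_hasPrincipalDivisors N
  have hj0 : s24j N ≠ 0 := by
    intro h0
    apply ana_transcendental N
    rw [h0]
    exact isAlgebraic_zero
  obtain ⟨Dm, hDm, hdeg⟩ := m18v_poleDiv (K := m18v_K) (s24j N) hj0 m18v_deg_eq_one
  refine ⟨Dm, hDm, ?_⟩
  rw [hdeg]
  exact alg_sum_poles (s24j N) (ana_transcendental N) (s24j N) (ana_transcendental N)

/-- the pole divisor of `j~` has degree `[F~ : k(j~)]`. -/
theorem m18v_poleDiv_jt (h : ReductionInputsModL A N)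
    [FiniteDimensional (m18v_k A)⟮m18sq_jt A N⟯ (m18v_Ft A N)]
    [Algebra.IsSeparable (m18v_k A)⟮m18sq_jt A N⟯ (m18v_Ft A N)] :
    ∃ Dtm : Divisor (m18v_k A) (m18v_Ft A N), (∀ Q, Dtm Q = max (-Q.ord (m18sq_jt A N)) 0) ∧
      Divisor.degree Dtm =
        (Module.finrank (m18v_k A)⟮m18sq_jt A N⟯ (m18v_Ft A N) : ℤ) := by
  haveI := m18rf_isAlgClosed A
  haveI := m18v_hasPrincipalDivisors_res h.choose_spec.1 h.choose_spec.2
  obtain ⟨Dtm, hDtm, hdeg⟩ := m18v_poleDiv (K := m18v_k A) (m18sq_jt A N) m18v_jt_ne_zero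
    m18v_deg_eq_one_res
  refine ⟨Dtm, hDtm, ?_⟩
  rw [hdeg]
  exact m18rr_sum_poles (m18sq_jt A N) m18v_jt_transcendental

end concrete

/-! ### (P5): tubes, coordinates, `Pstar` -/

section tube

variable {A : ValuationSubring m18v_K} {N : ℕ} [NeZero N]

/-- the abstract tube lemmas apply to `j - c`, `c ∈ A`. -/
theorem m18v_tube_aux (h : ReductionInputsModL A N)
    [FiniteDimensional (m18v_k A)⟮m18sq_jt A N⟯ (m18v_Ft A N)]
    [Algebra.IsSeparable (m18v_k A)⟮m18sq_jt A N⟯ (m18v_Ft A N)]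
    (hDEG : Module.finrank m18v_K⟮s24j N⟯ (m18v_F N) ≤
      Module.finrank (m18v_k A)⟮m18sq_jt A N⟯ (m18v_Ft A N))
    (c : A) (P : Place m18v_K (m18v_F N)) :
    (0 ≤ (placeReductionModL h P).ord (m18sq_jt A N) → 0 ≤ P.ord (s24j N)) ∧
    ((placeReductionModL h P).ord (m18sq_jt A N) < 0 →
      P.ord (s24j N - algebraMap m18v_K (m18v_F N) (c : m18v_K)) ≤ 0) := by
  haveI := m18v_hasPrincipalDivisors N
  obtain ⟨Dm, hDm, hdegm⟩ := m18v_poleDiv_j (N := N)
  obtain ⟨Dtm, hDtm, hdegtm⟩ := m18v_poleDiv_jt h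
  have hD : Divisor.degree Dm ≤ Divisor.degree Dtm := by
    rw [hdegm, hdegtm]
    exact_mod_cast hDEG
  have htr : ∀ a : m18v_k A, m18sq_jt A N ≠ algebraMap (m18v_k A) (m18v_Ft A N) a := by
    intro a h0
    apply m18v_jt_transcendental (A := A) (N := N)
    rw [h0]
    exact isAlgebraic_algebraMap _
  exact m18v_tube_abs (K := m18v_K) (F := m18v_F N) (Fk := m18v_Ft A N) (A := A)
    (r := placeReductionModL h) (m18v_gauss h) (fun P => m18v_deg_eq_one P)
    (fun Q => m18v_deg_eq_one_res Q) (s24j N) (m18v_j_mem h)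
    (m18sq_jt A N) (m18v_red_j h) htr Dm hDm Dtm hDtm hD c P

variable (h : ReductionInputsModL A N)
  [FiniteDimensional (m18v_k A)⟮m18sq_jt A N⟯ (m18v_Ft A N)]
  [Algebra.IsSeparable (m18v_k A)⟮m18sq_jt A N⟯ (m18v_Ft A N)]
  (hDEG : Module.finrank m18v_K⟮s24j N⟯ (m18v_F N) ≤
    Module.finrank (m18v_k A)⟮m18sq_jt A N⟯ (m18v_Ft A N))

include hDEG

/-- **(P5)** the tube of a non-cuspidal place contains no pole of `j`. -/
theorem m18v_tube_finite (P : Place m18v_K (m18v_F N))
    (hP : 0 ≤ (placeReductionModL h P).ord (m18sq_jt A N)) : 0 ≤ P.ord (s24j N) :=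
  (m18v_tube_aux h hDEG 0 P).1 hP

/-- **(P5)** poles of `j` specialise to poles of `j~`. -/
theorem m18v_tube_pole (P : Place m18v_K (m18v_F N)) (hP : P.ord (s24j N) < 0) :
    (placeReductionModL h P).ord (m18sq_jt A N) < 0 := by
  by_contra hcon
  push_neg at hcon
  have := m18v_tube_finite h hDEG P hcon
  omega

/-- **(P5)** the tube of a cusp contains no zero of `j - c`, `c ∈ A`: the value of `j` at a
point of the tube of a cusp is not integral. -/
theorem m18v_tube_infinite (P : Place m18v_K (m18v_F N))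
    (hP : (placeReductionModL h P).ord (m18sq_jt A N) < 0) (c : A) :
    P.ord (s24j N - algebraMap m18v_K (m18v_F N) (c : m18v_K)) ≤ 0 :=
  (m18v_tube_aux h hDEG c P).2 hP

/-- **coordinates**: at a non-cuspidal place `Q` where `j~ - c~` has order one, the function
`j - c` is a coordinate. -/
theorem m18v_coord_j (Q : Place (m18v_k A) (m18v_Ft A N)) (c : A)
    (hc : Q.ord (m18sq_jt A N - algebraMap (m18v_k A) (m18v_Ft A N) (IsLocalRing.residue A c))
      = 1) :
    m18_Coord (m18v_gauss h) Q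
      ⟨s24j N - algebraMap m18v_K (m18v_F N) (c : m18v_K), m18v_j_sub_mem h c⟩ := by
  have hQ : 0 ≤ Q.ord (m18sq_jt A N) := by
    by_contra hcon
    push_neg at hcon
    have := (m18v_ord_sub_const_neg_iff Q (m18sq_jt A N) (IsLocalRing.residue A c)).2 hcon
    omega
  refine ⟨fun P hP => ?_, ?_⟩
  · show 0 ≤ P.ord (s24j N - algebraMap m18v_K (m18v_F N) (c : m18v_K))
    apply m18v_ord_sub_const_nonneg
    apply m18v_tube_finite h hDEG P
    rw [hP]
    exact hQ
  · rw [m18v_red_j_sub]
    exact hc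

/-- **`Pstar`**: there is a place of `F` specialising to a cusp. -/
theorem m18v_exists_pstar :
    ∃ Pstar : Place m18v_K (m18v_F N), (placeReductionModL h Pstar).ord (m18sq_jt A N) < 0 := by
  haveI := ana_finiteDimensional N
  obtain ⟨P, hP⟩ : ∃ P : Place m18v_K (m18v_F N), P.ord (s24j N) < 0 := by
    by_contra hcon
    push_neg at hcon
    have hsum := alg_sum_poles (s24j N) (ana_transcendental N) (s24j N) (ana_transcendental N)
    have hempty : {v : Place m18v_K (m18v_F N) | v.ord (s24j N) < 0} = ∅ := by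
      ext v
      simp only [Set.mem_setOf_eq, Set.mem_empty_iff_false, iff_false, not_lt]
      exact hcon v
    rw [hempty, finsum_mem_empty] at hsum
    have hpos : 0 < Module.finrank m18v_K⟮s24j N⟯ (m18v_F N) := Module.finrank_pos
    have hpos' : (0 : ℤ) < (Module.finrank m18v_K⟮s24j N⟯ (m18v_F N) : ℤ) := by
      exact_mod_cast hpos
    rw [← hsum] at hpos'
    exact lt_irrefl _ hpos'
  exact ⟨P, m18v_tube_pole h hDEG P hP⟩

/-- **`Pstar`**, in the form used by `m18_NSC`. -/
theorem m18v_exists_pstar_ne :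
    ∃ Pstar : Place m18v_K (m18v_F N), ∀ Q : Place (m18v_k A) (m18v_Ft A N),
      0 ≤ Q.ord (m18sq_jt A N) → placeReductionModL h Pstar ≠ Q := by
  obtain ⟨P, hP⟩ := m18v_exists_pstar h hDEG
  refine ⟨P, fun Q hQ hPQ => ?_⟩
  rw [hPQ] at hP
  omega

end tube

/-! ### final forms: everything from `hA`, `hℓN` -/

section final

variable {A : ValuationSubring m18v_K} {N : ℕ} [NeZero N] {ℓ : ℕ} [Fact ℓ.Prime]

/-- (DEG) at level `N`. -/
theorem m18v_hDEG (hA : A.LiesOverPrime ℓ) (hℓN : ¬ ℓ ∣ N) :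
    Module.finrank m18v_K⟮s24j N⟯ (m18v_F N) ≤
      Module.finrank (m18v_k A)⟮m18sq_jt A N⟯ (m18v_Ft A N) := by
  rw [m18sq_finrank_bar hA hℓN, (m18sq_finrank_res hA hℓN).2]

/-- **(P5)** the tube of a non-cuspidal place contains no pole of `j`. -/
theorem m18v_tube_j (h : ReductionInputsModL A N) (hA : A.LiesOverPrime ℓ) (hℓN : ¬ ℓ ∣ N)
    (P : Place m18v_K (m18v_F N))
    (hP : 0 ≤ (placeReductionModL h P).ord (m18sq_jt A N)) : 0 ≤ P.ord (s24j N) := by
  haveI := (m18sq_finrank_res hA hℓN).1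
  haveI := m18cusp_isSeparable_res hA hℓN
  exact m18v_tube_finite h (m18v_hDEG hA hℓN) P hP

/-- **(P5)** poles of `j` specialise to poles of `j~`. -/
theorem m18v_tube_j_pole (h : ReductionInputsModL A N) (hA : A.LiesOverPrime ℓ)
    (hℓN : ¬ ℓ ∣ N) (P : Place m18v_K (m18v_F N)) (hP : P.ord (s24j N) < 0) :
    (placeReductionModL h P).ord (m18sq_jt A N) < 0 := by
  haveI := (m18sq_finrank_res hA hℓN).1
  haveI := m18cusp_isSeparable_res hA hℓN
  exact m18v_tube_pole h (m18v_hDEG hA hℓN) P hP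

/-- **(P5)** the value of `j` at a point of the tube of a cusp is not in `A`. -/
theorem m18v_tube_j_inf (h : ReductionInputsModL A N) (hA : A.LiesOverPrime ℓ)
    (hℓN : ¬ ℓ ∣ N) (P : Place m18v_K (m18v_F N))
    (hP : (placeReductionModL h P).ord (m18sq_jt A N) < 0) (c : A) :
    P.ord (s24j N - algebraMap m18v_K (m18v_F N) (c : m18v_K)) ≤ 0 := by
  haveI := (m18sq_finrank_res hA hℓN).1
  haveI := m18cusp_isSeparable_res hA hℓN
  exact m18v_tube_infinite h (m18v_hDEG hA hℓN) P hP c

/-- **coordinates** `j - c`. -/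
theorem m18v_coord_j_final (h : ReductionInputsModL A N) (hA : A.LiesOverPrime ℓ)
    (hℓN : ¬ ℓ ∣ N) (Q : Place (m18v_k A) (m18v_Ft A N)) (c : A)
    (hc : Q.ord (m18sq_jt A N - algebraMap (m18v_k A) (m18v_Ft A N) (IsLocalRing.residue A c))
      = 1) :
    m18_Coord (m18v_gauss h) Q
      ⟨s24j N - algebraMap m18v_K (m18v_F N) (c : m18v_K), m18v_j_sub_mem h c⟩ := by
  haveI := (m18sq_finrank_res hA hℓN).1
  haveI := m18cusp_isSeparable_res hA hℓN
  exact m18v_coord_j h (m18v_hDEG hA hℓN) Q c hc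

/-- **`Pstar`**. -/
theorem m18v_pstar (h : ReductionInputsModL A N) (hA : A.LiesOverPrime ℓ) (hℓN : ¬ ℓ ∣ N) :
    ∃ Pstar : Place m18v_K (m18v_F N), ∀ Q : Place (m18v_k A) (m18v_Ft A N),
      0 ≤ Q.ord (m18sq_jt A N) → placeReductionModL h Pstar ≠ Q := by
  haveI := (m18sq_finrank_res hA hℓN).1
  haveI := m18cusp_isSeparable_res hA hℓN
  exact m18v_exists_pstar_ne h (m18v_hDEG hA hℓN)

end final

end Fermat.Agent.M18

end
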