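import Fermat.Agent.M18.NrmMain
import Fermat.Agent.M18.NrmExt
import Fermat.Agent.M18.DifHle
import Fermat.Agent.M18.DifInst
import Fermat.Agent.M18.VTube
import Fermat.Agent.M18.CuspSepR
import Fermat.Agent.M18.SqLat2
import Fermat.Agent.M18.NrpPole

/-!
# M18 / (R-d), concrete instance: `hle` and S18 from the existence of the elements `s`

* `m18dif_main_of_elts` : `m18nrm_main_of_elts` with the Gauss unit `x` and its reduction
  replaced by propositionally equal elements `z`, `y`, and with the chart formula reduced to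
  the unit case;
* `m18dif_hle_of_elts` : the hypothesis `hle` of `m18dif_S18_of` for `G = m18v_gauss h`,
  `x = j`, from `hfin`, `hinf` only;
* `m18dif_S18_of_elts` : the statement of S18 from `hfin`, `hinf` only;
* `m18dif_main_of_lift`, `m18dif_hle_of_lift`, `m18dif_S18_of_lift` : the same from a two-level
  setup `F_N ⊂ F'`, `F~_N ⊂ Fk'` with the lifting property in the charts `j`, `j⁻¹`.
-/

set_option autoImplicit false
set_option linter.deprecated false
set_option linter.unusedSectionVars false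
set_option linter.unusedVariables false
set_option linter.style.haveILetI false
set_option synthInstance.maxHeartbeats 400000
set_option maxHeartbeats 1600000

noncomputable section

namespace Fermat.Agent.M18

open AlgebraicCurve ModularCurve IntermediateField Module
open Fermat.Agent.S20 Fermat.Agent.S24

section abs

variable {K F Fk : Type*} [Field K] [Field F] [Algebra K F] {A : ValuationSubring K}
  [Field Fk] [Algebra (IsLocalRing.ResidueField A) Fk]
  {r : Place K F → Place (IsLocalRing.ResidueField A) Fk} (G : m18_Gauss A r)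
  [IsAlgClosed K] [IsAlgClosed (IsLocalRing.ResidueField A)]

/-- `m18nrm_main_of_elts`, in a form convenient for instantiation. -/
theorem m18dif_main_of_elts (x xi : G.O) (hxxi : x * xi = 1)
    (z : F) (hz : (x : F) = z) (y : Fk) (hy : G.red x = y)
    (hzt : Transcendental K z) [FiniteDimensional K⟮z⟯ F] [Algebra.IsSeparable K⟮z⟯ F]
    (hyt : Transcendental (IsLocalRing.ResidueField A) y)
    [FiniteDimensional (IsLocalRing.ResidueField A)⟮y⟯ Fk]
    [Algebra.IsSeparable (IsLocalRing.ResidueField A)⟮y⟯ Fk]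
    (hsurj : Function.Surjective G.red)
    (hd : finrank K⟮z⟯ F = finrank (IsLocalRing.ResidueField A)⟮y⟯ Fk)
    (hunit : ∀ P : Place K F, P.ord z = 0 →
      m18rr_W (K := K) z P = m18rr_W (K := K) z⁻¹ P)
    (hfin : ∀ (Q : Place (IsLocalRing.ResidueField A) Fk) (c : IsLocalRing.ResidueField A),
      0 < Q.ord (y - algebraMap (IsLocalRing.ResidueField A) Fk c) →
      ∃ s : G.O, IsIntegral (Algebra.adjoin K ({z} : Set F)) (s : F) ∧
        IsIntegral (Algebra.adjoin (IsLocalRing.ResidueField A) ({y} : Set Fk)) (G.red s) ∧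
        Q.ord (G.red s) = 1 ∧
        ∀ Q₂ : Place (IsLocalRing.ResidueField A) Fk, Q₂ ≠ Q →
          0 < Q₂.ord (y - algebraMap (IsLocalRing.ResidueField A) Fk c) →
          Q₂.ord (G.red s) ≤ 0)
    (hinf : ∀ Q : Place (IsLocalRing.ResidueField A) Fk, Q.ord y < 0 →
      ∃ s : G.O, IsIntegral (Algebra.adjoin K ({z⁻¹} : Set F)) (s : F) ∧
        IsIntegral (Algebra.adjoin (IsLocalRing.ResidueField A) ({y⁻¹} : Set Fk)) (G.red s) ∧
        Q.ord (G.red s) = 1 ∧
        ∀ Q₂ : Place (IsLocalRing.ResidueField A) Fk, Q₂ ≠ Q →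
          Q₂.ord y < 0 → Q₂.ord (G.red s) ≤ 0) :
    finrank K (riemannRochSpace (m18rr_W (K := K) z))
      ≤ finrank (IsLocalRing.ResidueField A)
          (riemannRochSpace (m18rr_W (K := IsLocalRing.ResidueField A) y)) := by
  subst hz
  subst hy
  haveI : HasPrincipalDivisors K F := m18rr_principal (x : F) hzt
  have hdeg : ∀ P : Place K F, (r P).deg = P.deg := fun P => by
    rw [m18rr_deg_eq_one (K := K) (x : F) P,
      m18rr_deg_eq_one (K := IsLocalRing.ResidueField A) (G.red x) (r P)]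
  exact m18nrm_main_of_elts G hdeg x xi hxxi hzt hyt hsurj hd
    (m18dif_chart (x : F) hzt hunit) hfin hinf

end abs

section abslift

variable {K F Fk : Type*} [Field K] [Field F] [Algebra K F] {A : ValuationSubring K}
  [Field Fk] [Algebra (IsLocalRing.ResidueField A) Fk]
  {r : Place K F → Place (IsLocalRing.ResidueField A) Fk} (G : m18_Gauss A r)
  [IsAlgClosed K] [IsAlgClosed (IsLocalRing.ResidueField A)]
  {F' Fk' : Type*} [Field F'] [Field Fk'] [Algebra K F'] [Algebra F F'] [IsScalarTower K F F']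
  [Algebra (IsLocalRing.ResidueField A) Fk'] [Algebra Fk Fk']
  [IsScalarTower (IsLocalRing.ResidueField A) Fk Fk']
  {O' : Subring F'} {red' : O' →+* Fk'}

/-- `m18nrm_main_of_lift`, in a form convenient for instantiation. -/
theorem m18dif_main_of_lift (hS : m18nrm_Setup G.O G.red O' red')
    [FiniteDimensional Fk Fk'] [Algebra.IsSeparable Fk Fk']
    (hsurj' : Function.Surjective red') (hdd : finrank F F' = finrank Fk Fk')
    (x xi : G.O) (hxxi : x * xi = 1)
    (z : F) (hz : (x : F) = z) (y : Fk) (hy : G.red x = y)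
    (hzt : Transcendental K z) [FiniteDimensional K⟮z⟯ F] [Algebra.IsSeparable K⟮z⟯ F]
    (hyt : Transcendental (IsLocalRing.ResidueField A) y)
    [FiniteDimensional (IsLocalRing.ResidueField A)⟮y⟯ Fk]
    [Algebra.IsSeparable (IsLocalRing.ResidueField A)⟮y⟯ Fk]
    (hsurj : Function.Surjective G.red)
    (hd : finrank K⟮z⟯ F = finrank (IsLocalRing.ResidueField A)⟮y⟯ Fk)
    (hlift : ∀ t : Fk',
      IsIntegral (Algebra.adjoin (IsLocalRing.ResidueField A) ({y} : Set Fk)) t →
      ∃ b : O', IsIntegral (Algebra.adjoin K ({z} : Set F)) (b : F') ∧ red' b = t)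
    (hlifti : ∀ t : Fk',
      IsIntegral (Algebra.adjoin (IsLocalRing.ResidueField A) ({y⁻¹} : Set Fk)) t →
      ∃ b : O', IsIntegral (Algebra.adjoin K ({z⁻¹} : Set F)) (b : F') ∧ red' b = t) :
    finrank K (riemannRochSpace (m18rr_W (K := K) z))
      ≤ finrank (IsLocalRing.ResidueField A)
          (riemannRochSpace (m18rr_W (K := IsLocalRing.ResidueField A) y)) := by
  subst hz
  subst hy
  exact m18dif_main_of_elts G x xi hxxi (x : F) rfl (G.red x) rfl hzt hyt hsurj hd
    (fun P hP => m18nrp_W_inv_eq (K := K) (x : F) hzt P hP)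
    (fun Q c hc => m18nrm_elts_fin G hS hsurj' hdd x hyt hlift Q c hc)
    (fun Q hQ => m18nrm_elts_inf G hS hsurj' hdd x hyt hlifti Q hQ)

end abslift

section inst

variable {A : ValuationSubring m18v_K} {N : ℕ} [NeZero N]

/-- the two descriptions of the reduction map at level `N` agree. -/
theorem m18dif_gauss_red_eq (h : ModularCurve.ReductionInputsModL A N) (hdec : m18sq_Dec A N)
    (s : (m18v_gauss h).O) :
    (m18v_gauss h).red s = m18sq_red hdec (s : m18v_F N) := rfl

/-- **the hypothesis `hle` of `m18dif_S18_of`** from the existence of the elements `s`. -/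
theorem m18dif_hle_of_elts {ℓ : ℕ} [Fact ℓ.Prime] (hℓN : ¬ ℓ ∣ N) (hA : A.LiesOverPrime ℓ)
    (h : ModularCurve.ReductionInputsModL A N)
    (hfin : ∀ (Q : Place (m18v_k A) (m18v_Ft A N)) (c : m18v_k A),
      0 < Q.ord (m18sq_jt A N - algebraMap (m18v_k A) (m18v_Ft A N) c) →
      ∃ s : (m18v_gauss h).O,
        IsIntegral (Algebra.adjoin m18v_K ({s24j N} : Set (m18v_F N))) (s : m18v_F N) ∧
        IsIntegral (Algebra.adjoin (m18v_k A) ({m18sq_jt A N} : Set (m18v_Ft A N)))
          ((m18v_gauss h).red s) ∧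
        Q.ord ((m18v_gauss h).red s) = 1 ∧
        ∀ Q₂ : Place (m18v_k A) (m18v_Ft A N), Q₂ ≠ Q →
          0 < Q₂.ord (m18sq_jt A N - algebraMap (m18v_k A) (m18v_Ft A N) c) →
          Q₂.ord ((m18v_gauss h).red s) ≤ 0)
    (hinf : ∀ Q : Place (m18v_k A) (m18v_Ft A N), Q.ord (m18sq_jt A N) < 0 →
      ∃ s : (m18v_gauss h).O,
        IsIntegral (Algebra.adjoin m18v_K ({(s24j N)⁻¹} : Set (m18v_F N))) (s : m18v_F N) ∧
        IsIntegral (Algebra.adjoin (m18v_k A) ({(m18sq_jt A N)⁻¹} : Set (m18v_Ft A N)))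
          ((m18v_gauss h).red s) ∧
        Q.ord ((m18v_gauss h).red s) = 1 ∧
        ∀ Q₂ : Place (m18v_k A) (m18v_Ft A N), Q₂ ≠ Q →
          Q₂.ord (m18sq_jt A N) < 0 → Q₂.ord ((m18v_gauss h).red s) ≤ 0) :
    finrank m18v_K (riemannRochSpace (m18rr_W (K := m18v_K) (s24j N)))
      ≤ finrank (m18v_k A) (riemannRochSpace (m18rr_W (K := m18v_k A) (m18sq_jt A N))) := by
  haveI : IsAlgClosed (m18v_k A) := m18sq_isAlgClosed A
  haveI := (m18sq_finrank_res hA hℓN).1
  haveI := m18cusp_isSeparable_res hA hℓN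
  haveI hfin0 : FiniteDimensional (IntermediateField.adjoin s24K {s24j N}) (s24F N) :=
    deg_finiteDimensional N
  haveI := m18rr_isSeparable_of_charZero (K := s24K) (s24j N)
  have hjt : Transcendental (m18v_k A) (m18sq_jt A N) := m18sq_jt_transcendental
  have hdec : m18sq_Dec A N := m18sq_dec hA hℓN
  have hxi : (s24j N)⁻¹ ∈ (m18v_gauss h).O := m18sq_Int_j_inv hdec
  have hj0 : s24j N ≠ 0 := fun h0 =>
    (ana_transcendental N) (by rw [h0]; exact isAlgebraic_zero)
  have hxxi : (⟨s24j N, m18v_j_mem h⟩ : (m18v_gauss h).O) * ⟨(s24j N)⁻¹, hxi⟩ = 1 := by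
    apply Subtype.ext
    show s24j N * (s24j N)⁻¹ = 1
    exact mul_inv_cancel₀ hj0
  have hd : finrank m18v_K⟮s24j N⟯ (m18v_F N)
      = finrank (m18v_k A)⟮m18sq_jt A N⟯ (m18v_Ft A N) := by
    rw [m18sq_finrank_bar hA hℓN, (m18sq_finrank_res hA hℓN).2]
  exact m18dif_main_of_elts (m18v_gauss h) ⟨s24j N, m18v_j_mem h⟩ ⟨(s24j N)⁻¹, hxi⟩ hxxi
    (s24j N) rfl (m18sq_jt A N) (m18v_red_j h) (ana_transcendental N) hjt
    (m18v_gauss_red_surjective h) hd
    (fun P hP => m18nrp_W_inv_eq (K := m18v_K) (s24j N) (ana_transcendental N) P hP) hfin hinf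

/-- **S18** from the existence of the elements `s`. -/
theorem m18dif_S18_of_elts {ℓ : ℕ} [Fact ℓ.Prime] (hℓN : ¬ ℓ ∣ N) (hA : A.LiesOverPrime ℓ)
    (h : ModularCurve.ReductionInputsModL A N)
    (hfin : ∀ (Q : Place (m18v_k A) (m18v_Ft A N)) (c : m18v_k A),
      0 < Q.ord (m18sq_jt A N - algebraMap (m18v_k A) (m18v_Ft A N) c) →
      ∃ s : (m18v_gauss h).O,
        IsIntegral (Algebra.adjoin m18v_K ({s24j N} : Set (m18v_F N))) (s : m18v_F N) ∧
        IsIntegral (Algebra.adjoin (m18v_k A) ({m18sq_jt A N} : Set (m18v_Ft A N)))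
          ((m18v_gauss h).red s) ∧
        Q.ord ((m18v_gauss h).red s) = 1 ∧
        ∀ Q₂ : Place (m18v_k A) (m18v_Ft A N), Q₂ ≠ Q →
          0 < Q₂.ord (m18sq_jt A N - algebraMap (m18v_k A) (m18v_Ft A N) c) →
          Q₂.ord ((m18v_gauss h).red s) ≤ 0)
    (hinf : ∀ Q : Place (m18v_k A) (m18v_Ft A N), Q.ord (m18sq_jt A N) < 0 →
      ∃ s : (m18v_gauss h).O,
        IsIntegral (Algebra.adjoin m18v_K ({(s24j N)⁻¹} : Set (m18v_F N))) (s : m18v_F N) ∧
        IsIntegral (Algebra.adjoin (m18v_k A) ({(m18sq_jt A N)⁻¹} : Set (m18v_Ft A N)))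
          ((m18v_gauss h).red s) ∧
        Q.ord ((m18v_gauss h).red s) = 1 ∧
        ∀ Q₂ : Place (m18v_k A) (m18v_Ft A N), Q₂ ≠ Q →
          Q₂.ord (m18sq_jt A N) < 0 → Q₂.ord ((m18v_gauss h).red s) ≤ 0)
    (m : ℕ) (hm : ¬ ℓ ∣ m) (z : ModularCurve.JZero N)
    (hmz : m • z = 0) (hz : ModularCurve.reductionModL A N z = 0) : z = 0 :=
  m18dif_S18_of hℓN hA h (m18cusp_isSeparable_res hA hℓN) (m18v_tube_j h hA hℓN)
    (m18dif_hle_of_elts hℓN hA h hfin hinf) m hm z hmz hz

end inst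

section instlift

variable {A : ValuationSubring m18v_K} {N : ℕ} [NeZero N]
  {F' Fk' : Type*} [Field F'] [Field Fk'] [Algebra m18v_K F'] [Algebra (m18v_F N) F']
  [IsScalarTower m18v_K (m18v_F N) F']
  [Algebra (m18v_k A) Fk'] [Algebra (m18v_Ft A N) Fk']
  [IsScalarTower (m18v_k A) (m18v_Ft A N) Fk']
  {O' : Subring F'} {red' : O' →+* Fk'}

/-- **the hypothesis `hle` of `m18dif_S18_of`** from a two-level setup with the lifting
property in the charts `j` and `j⁻¹`. -/
theorem m18dif_hle_of_lift {ℓ : ℕ} [Fact ℓ.Prime] (hℓN : ¬ ℓ ∣ N) (hA : A.LiesOverPrime ℓ)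
    (h : ModularCurve.ReductionInputsModL A N)
    (hS : m18nrm_Setup (m18v_gauss h).O (m18v_gauss h).red O' red')
    [FiniteDimensional (m18v_Ft A N) Fk'] [Algebra.IsSeparable (m18v_Ft A N) Fk']
    (hsurj' : Function.Surjective red')
    (hdd : finrank (m18v_F N) F' = finrank (m18v_Ft A N) Fk')
    (hlift : ∀ t : Fk',
      IsIntegral (Algebra.adjoin (m18v_k A) ({m18sq_jt A N} : Set (m18v_Ft A N))) t →
      ∃ b : O', IsIntegral (Algebra.adjoin m18v_K ({s24j N} : Set (m18v_F N))) (b : F') ∧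
        red' b = t)
    (hlifti : ∀ t : Fk',
      IsIntegral (Algebra.adjoin (m18v_k A) ({(m18sq_jt A N)⁻¹} : Set (m18v_Ft A N))) t →
      ∃ b : O', IsIntegral (Algebra.adjoin m18v_K ({(s24j N)⁻¹} : Set (m18v_F N))) (b : F') ∧
        red' b = t) :
    finrank m18v_K (riemannRochSpace (m18rr_W (K := m18v_K) (s24j N)))
      ≤ finrank (m18v_k A) (riemannRochSpace (m18rr_W (K := m18v_k A) (m18sq_jt A N))) := by
  haveI : IsAlgClosed (m18v_k A) := m18sq_isAlgClosed A
  haveI := (m18sq_finrank_res hA hℓN).1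
  haveI := m18cusp_isSeparable_res hA hℓN
  haveI hfin0 : FiniteDimensional (IntermediateField.adjoin s24K {s24j N}) (s24F N) :=
    deg_finiteDimensional N
  haveI := m18rr_isSeparable_of_charZero (K := s24K) (s24j N)
  have hjt : Transcendental (m18v_k A) (m18sq_jt A N) := m18sq_jt_transcendental
  have hdec : m18sq_Dec A N := m18sq_dec hA hℓN
  have hxi : (s24j N)⁻¹ ∈ (m18v_gauss h).O := m18sq_Int_j_inv hdec
  have hj0 : s24j N ≠ 0 := fun h0 =>
    (ana_transcendental N) (by rw [h0]; exact isAlgebraic_zero)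
  have hxxi : (⟨s24j N, m18v_j_mem h⟩ : (m18v_gauss h).O) * ⟨(s24j N)⁻¹, hxi⟩ = 1 := by
    apply Subtype.ext
    show s24j N * (s24j N)⁻¹ = 1
    exact mul_inv_cancel₀ hj0
  have hd : finrank m18v_K⟮s24j N⟯ (m18v_F N)
      = finrank (m18v_k A)⟮m18sq_jt A N⟯ (m18v_Ft A N) := by
    rw [m18sq_finrank_bar hA hℓN, (m18sq_finrank_res hA hℓN).2]
  exact m18dif_main_of_lift (m18v_gauss h) hS hsurj' hdd ⟨s24j N, m18v_j_mem h⟩
    ⟨(s24j N)⁻¹, hxi⟩ hxxi (s24j N) rfl (m18sq_jt A N) (m18v_red_j h)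
    (ana_transcendental N) hjt (m18v_gauss_red_surjective h) hd hlift hlifti

/-- **S18** from a two-level setup with the lifting property in the charts `j` and `j⁻¹`. -/
theorem m18dif_S18_of_lift {ℓ : ℕ} [Fact ℓ.Prime] (hℓN : ¬ ℓ ∣ N) (hA : A.LiesOverPrime ℓ)
    (h : ModularCurve.ReductionInputsModL A N)
    (hS : m18nrm_Setup (m18v_gauss h).O (m18v_gauss h).red O' red')
    [FiniteDimensional (m18v_Ft A N) Fk'] [Algebra.IsSeparable (m18v_Ft A N) Fk']
    (hsurj' : Function.Surjective red')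
    (hdd : finrank (m18v_F N) F' = finrank (m18v_Ft A N) Fk')
    (hlift : ∀ t : Fk',
      IsIntegral (Algebra.adjoin (m18v_k A) ({m18sq_jt A N} : Set (m18v_Ft A N))) t →
      ∃ b : O', IsIntegral (Algebra.adjoin m18v_K ({s24j N} : Set (m18v_F N))) (b : F') ∧
        red' b = t)
    (hlifti : ∀ t : Fk',
      IsIntegral (Algebra.adjoin (m18v_k A) ({(m18sq_jt A N)⁻¹} : Set (m18v_Ft A N))) t →
      ∃ b : O', IsIntegral (Algebra.adjoin m18v_K ({(s24j N)⁻¹} : Set (m18v_F N))) (b : F') ∧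
        red' b = t)
    (m : ℕ) (hm : ¬ ℓ ∣ m) (z : ModularCurve.JZero N)
    (hmz : m • z = 0) (hz : ModularCurve.reductionModL A N z = 0) : z = 0 :=
  m18dif_S18_of hℓN hA h (m18cusp_isSeparable_res hA hℓN) (m18v_tube_j h hA hℓN)
    (m18dif_hle_of_lift hℓN hA h hS hsurj' hdd hlift hlifti) m hm z hmz hz

end instlift

end Fermat.Agent.M18

end
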