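import Mathlib

/-!
# M18 (N1-inst), generic part: a tower `K ⊆ F ⊆ F'` and a simple subextension `K(x) ⊆ F`

Mathlib only, prefix `m18n1_`.  `x : F`, `x' := algebraMap F F' x`.

* `m18n1_eqv x : ↥K⟮x⟯ ≃ₐ[K] ↥K⟮x'⟯`, `m18n1_eqv_coe`.
* `m18n1_fd_comp`, `m18n1_fd` : finiteness of `F' / K(x)` and of `F' / F` from `F' / K(x')`.
* `m18n1_sep_comp`, `m18n1_sep` : the same for separability.
* `m18n1_finrank_comp`, `m18n1_finrank_mul` : `[F : K(x)] * [F' : F] = [F' : K(x')]`.
-/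

set_option autoImplicit false

noncomputable section

namespace Fermat.Agent.M18

open IntermediateField Module

section gen

variable {K F F' : Type*} [Field K] [Field F] [Field F'] [Algebra K F] [Algebra K F']
  [Algebra F F'] [IsScalarTower K F F']

theorem m18n1_map_adjoin (x : F) :
    (K⟮x⟯).map (IsScalarTower.toAlgHom K F F') = K⟮algebraMap F F' x⟯ := by
  rw [IntermediateField.adjoin_map, Set.image_singleton]
  rfl

/-- `K(x) ≃ K(x')`. -/
def m18n1_eqv (x : F) : ↥K⟮x⟯ ≃ₐ[K] ↥K⟮algebraMap F F' x⟯ :=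
  (IntermediateField.equivMap K⟮x⟯ (IsScalarTower.toAlgHom K F F')).trans
    (IntermediateField.equivOfEq (m18n1_map_adjoin x))

theorem m18n1_eqv_coe (x : F) (a : ↥K⟮x⟯) :
    ((m18n1_eqv (K := K) (F' := F') x a : ↥K⟮algebraMap F F' x⟯) : F') =
      algebraMap F F' (a : F) := rfl

/-- `K(x) ≃ K(x')`, as a ring isomorphism. -/
def m18n1_eqvR (x : F) : ↥K⟮x⟯ ≃+* ↥K⟮algebraMap F F' x⟯ :=
  (m18n1_eqv (K := K) (F' := F') x).toRingEquiv

theorem m18n1_eqvR_coe (x : F) (a : ↥K⟮x⟯) :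
    ((m18n1_eqvR (K := K) (F' := F') x a : ↥K⟮algebraMap F F' x⟯) : F') =
      algebraMap F F' (a : F) := rfl

theorem m18n1_eqv_compat (x : F) :
    RingHom.comp (algebraMap ↥K⟮algebraMap F F' x⟯ F')
        ((m18n1_eqvR (K := K) (F' := F') x) :
          ↥K⟮x⟯ →+* ↥K⟮algebraMap F F' x⟯) =
      RingHom.comp ((RingEquiv.refl F' : F' ≃+* F') : F' →+* F') (algebraMap ↥K⟮x⟯ F') := by
  ext a
  rfl

theorem m18n1_eqv_compat_symm (x : F) :
    RingHom.comp (algebraMap ↥K⟮x⟯ F')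
        (((m18n1_eqvR (K := K) (F' := F') x).symm :
          ↥K⟮algebraMap F F' x⟯ ≃+* ↥K⟮x⟯) : ↥K⟮algebraMap F F' x⟯ →+* ↥K⟮x⟯) =
      RingHom.comp ((RingEquiv.refl F' : F' ≃+* F') : F' →+* F')
        (algebraMap ↥K⟮algebraMap F F' x⟯ F') := by
  ext a
  obtain ⟨b, rfl⟩ := (m18n1_eqvR (K := K) (F' := F') x).surjective a
  simp only [RingHom.comp_apply, RingEquiv.coe_toRingHom, RingEquiv.symm_apply_apply]
  rfl

/-- `F'` is finite over `K(x)`. -/
theorem m18n1_fd_comp (x : F) [FiniteDimensional ↥K⟮algebraMap F F' x⟯ F'] :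
    FiniteDimensional ↥K⟮x⟯ F' :=
  Module.Finite.of_equiv_equiv
    ((m18n1_eqvR (K := K) (F' := F') x).symm) (RingEquiv.refl F')
    (m18n1_eqv_compat_symm x)

/-- `F'` is finite over `F`. -/
theorem m18n1_fd (x : F) [FiniteDimensional ↥K⟮algebraMap F F' x⟯ F'] :
    FiniteDimensional F F' := by
  haveI := m18n1_fd_comp (K := K) (F' := F') x
  exact Module.Finite.of_restrictScalars_finite ↥K⟮x⟯ F F'

/-- `F'` is separable over `K(x)`. -/
theorem m18n1_sep_comp (x : F) [Algebra.IsSeparable ↥K⟮algebraMap F F' x⟯ F'] :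
    Algebra.IsSeparable ↥K⟮x⟯ F' :=
  (Algebra.IsSeparable.iff_of_equiv_equiv
    (m18n1_eqvR (K := K) (F' := F') x) (RingEquiv.refl F')
    (m18n1_eqv_compat x)).mpr inferInstance

/-- `F'` is separable over `F`. -/
theorem m18n1_sep (x : F) [Algebra.IsSeparable ↥K⟮algebraMap F F' x⟯ F'] :
    Algebra.IsSeparable F F' := by
  haveI := m18n1_sep_comp (K := K) (F' := F') x
  exact Algebra.isSeparable_tower_top_of_isSeparable ↥K⟮x⟯ F F'

/-- `F` is separable over `K(x)` if `F'` is separable over `K(x')`. -/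
theorem m18n1_sep_bot (x : F) [Algebra.IsSeparable ↥K⟮algebraMap F F' x⟯ F'] :
    Algebra.IsSeparable ↥K⟮x⟯ F := by
  haveI := m18n1_sep_comp (K := K) (F' := F') x
  exact Algebra.isSeparable_tower_bot_of_isSeparable ↥K⟮x⟯ F F'

theorem m18n1_finrank_comp (x : F) :
    finrank ↥K⟮x⟯ F' = finrank ↥K⟮algebraMap F F' x⟯ F' :=
  Algebra.finrank_eq_of_equiv_equiv
    (m18n1_eqvR (K := K) (F' := F') x) (RingEquiv.refl F')
    (m18n1_eqv_compat x)

/-- the tower law `[F : K(x)] * [F' : F] = [F' : K(x')]`. -/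
theorem m18n1_finrank_mul (x : F) :
    finrank ↥K⟮x⟯ F * finrank F F' = finrank ↥K⟮algebraMap F F' x⟯ F' := by
  rw [← m18n1_finrank_comp (K := K) (F' := F') x]
  exact Module.finrank_mul_finrank ↥K⟮x⟯ F F'

/-- `F` is finite over `K(x)` if `F'` is finite over `K(x')`. -/
theorem m18n1_fd_bot (x : F) [FiniteDimensional ↥K⟮algebraMap F F' x⟯ F'] :
    FiniteDimensional ↥K⟮x⟯ F := by
  haveI := m18n1_fd_comp (K := K) (F' := F') x
  exact FiniteDimensional.left ↥K⟮x⟯ F F'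

/-- variant of `m18n1_fd` with a name for the image of `x`. -/
theorem m18n1_fd' (x : F) (x' : F') (h : algebraMap F F' x = x')
    [FiniteDimensional ↥K⟮x'⟯ F'] : FiniteDimensional F F' := by
  subst h
  exact m18n1_fd (K := K) x

/-- variant of `m18n1_sep` with a name for the image of `x`. -/
theorem m18n1_sep' (x : F) (x' : F') (h : algebraMap F F' x = x')
    [Algebra.IsSeparable ↥K⟮x'⟯ F'] : Algebra.IsSeparable F F' := by
  subst h
  exact m18n1_sep (K := K) x

/-- variant of `m18n1_finrank_mul` with a name for the image of `x`. -/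
theorem m18n1_finrank_mul' (x : F) (x' : F') (h : algebraMap F F' x = x') :
    finrank ↥K⟮x⟯ F * finrank F F' = finrank ↥K⟮x'⟯ F' := by
  subst h
  exact m18n1_finrank_mul (K := K) x

end gen

end Fermat.Agent.M18

end
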