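import Mathlib
import Fermat.Prelude.Def_ModularCurve_X0ModL
import Fermat.Prelude.Def_ModularCurve_ArithmeticGalois
import Fermat.Agent.M18.N1Gen

/-!
# M18 (N1-inst): the inclusion of function fields `F_N ⊆ F_N'` for `N ∣ N'`

* generic: `E ≤ E'` intermediate fields of `L / K`: `m18n1_algLe h : Algebra ↥E ↥E'`
  (use `letI := m18n1_algLe h`), `m18n1_le_algebraMap`, `m18n1_le_coe`, `m18n1_le_map_mk`,
  `m18n1_le_tower`.  **Do not prove these by `rfl`** (the kernel times out): use the lemmas.
* `m18n1_alg K hNN'` : `modularFunctionFieldFullC K N ⊆ modularFunctionFieldFullC K N'`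
  (any field `K`), `m18n1_coe`, `m18n1_map_mk`, `m18n1_map_j`, `m18n1_tower`.
* `m18n1_bar_le`, `m18n1_algBar hNN'` : `modularFunctionFieldBar N ⊆ modularFunctionFieldBar N'`,
  `m18n1_bar_coe`, `m18n1_bar_map_mk`, `m18n1_bar_tower`.
-/

set_option autoImplicit false
set_option linter.style.haveILetI false
set_option maxHeartbeats 400000

noncomputable section

namespace Fermat.Agent.M18

open IntermediateField ModularCurve HahnSeries

section le

variable {K L : Type*} [Field K] [Field L] [Algebra K L] {E E' : IntermediateField K L}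
  (h : E ≤ E')

/-- the inclusion `E ⊆ E'` as an algebra structure. -/
@[reducible] def m18n1_algLe : Algebra ↥E ↥E' :=
  (IntermediateField.inclusion h).toRingHom.toAlgebra

theorem m18n1_le_algebraMap (x : ↥E) :
    letI := m18n1_algLe h
    algebraMap ↥E ↥E' x = IntermediateField.inclusion h x := by
  letI := m18n1_algLe h
  rw [RingHom.algebraMap_toAlgebra]
  rfl

theorem m18n1_le_coe (x : ↥E) :
    letI := m18n1_algLe h
    ((algebraMap ↥E ↥E' x : ↥E') : L) = (x : L) := by
  letI := m18n1_algLe h
  rw [m18n1_le_algebraMap]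
  exact IntermediateField.coe_inclusion _ x

theorem m18n1_le_map_mk (x : L) (hx : x ∈ E) :
    letI := m18n1_algLe h
    algebraMap ↥E ↥E' ⟨x, hx⟩ = ⟨x, h hx⟩ := by
  letI := m18n1_algLe h
  apply Subtype.ext
  exact m18n1_le_coe h ⟨x, hx⟩

theorem m18n1_le_tower :
    letI := m18n1_algLe h
    IsScalarTower K ↥E ↥E' := by
  letI := m18n1_algLe h
  refine IsScalarTower.of_algebraMap_eq (fun c => ?_)
  apply Subtype.ext
  rw [m18n1_le_coe]
  rfl

end le

section incl

variable (K : Type*) [Field K] {N N' : ℕ} [NeZero N] [NeZero N'] (hNN' : N ∣ N')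

/-- the inclusion `F_N ⊆ F_N'` as an algebra structure. -/
@[reducible] def m18n1_alg :
    Algebra ↥(modularFunctionFieldFullC K N) ↥(modularFunctionFieldFullC K N') :=
  m18n1_algLe (full_degeneracyC_le K hNN')

theorem m18n1_coe (x : ↥(modularFunctionFieldFullC K N)) :
    letI := m18n1_alg K hNN'
    ((algebraMap ↥(modularFunctionFieldFullC K N) ↥(modularFunctionFieldFullC K N') x :
      ↥(modularFunctionFieldFullC K N')) : LaurentSeries K) = (x : LaurentSeries K) :=
  m18n1_le_coe _ x

theorem m18n1_map_mk (x : LaurentSeries K) (hx : x ∈ modularFunctionFieldFullC K N) :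
    letI := m18n1_alg K hNN'
    algebraMap ↥(modularFunctionFieldFullC K N) ↥(modularFunctionFieldFullC K N') ⟨x, hx⟩ =
      ⟨x, full_degeneracyC_le K hNN' hx⟩ :=
  m18n1_le_map_mk _ x hx

theorem m18n1_map_j :
    letI := m18n1_alg K hNN'
    algebraMap ↥(modularFunctionFieldFullC K N) ↥(modularFunctionFieldFullC K N')
        ⟨jqModC K, jqModC_mem_full K N⟩ = ⟨jqModC K, jqModC_mem_full K N'⟩ :=
  m18n1_map_mk K hNN' _ _

theorem m18n1_tower :
    letI := m18n1_alg K hNN'
    IsScalarTower K ↥(modularFunctionFieldFullC K N) ↥(modularFunctionFieldFullC K N') :=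
  m18n1_le_tower _

end incl

section bar

variable {N N' : ℕ} [NeZero N] [NeZero N'] (hNN' : N ∣ N')

include hNN' in
theorem m18n1_bar_le : modularFunctionFieldBar N ≤ modularFunctionFieldBar N' := by
  unfold modularFunctionFieldBar laurentBaseChange
  apply IntermediateField.adjoin.mono
  apply Set.image_mono
  exact full_degeneracy_le hNN'

/-- the inclusion `F_N ⊆ F_N'` (characteristic `0`) as an algebra structure. -/
@[reducible] def m18n1_algBar :
    Algebra ↥(modularFunctionFieldBar N) ↥(modularFunctionFieldBar N') :=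
  m18n1_algLe (m18n1_bar_le hNN')

theorem m18n1_bar_coe (x : ↥(modularFunctionFieldBar N)) :
    letI := m18n1_algBar hNN'
    ((algebraMap ↥(modularFunctionFieldBar N) ↥(modularFunctionFieldBar N') x :
      ↥(modularFunctionFieldBar N')) : LaurentSeries (AlgebraicClosure ℚ)) =
        (x : LaurentSeries (AlgebraicClosure ℚ)) :=
  m18n1_le_coe _ x

theorem m18n1_bar_map_mk (x : LaurentSeries (AlgebraicClosure ℚ))
    (hx : x ∈ modularFunctionFieldBar N) :
    letI := m18n1_algBar hNN'
    algebraMap ↥(modularFunctionFieldBar N) ↥(modularFunctionFieldBar N') ⟨x, hx⟩ =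
      ⟨x, m18n1_bar_le hNN' hx⟩ :=
  m18n1_le_map_mk _ x hx

theorem m18n1_bar_tower :
    letI := m18n1_algBar hNN'
    IsScalarTower (AlgebraicClosure ℚ) ↥(modularFunctionFieldBar N)
      ↥(modularFunctionFieldBar N') :=
  m18n1_le_tower _

end bar

end Fermat.Agent.M18

end
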