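import Mathlib

/-!
# M18 (S18 project), block (NRM), part (N1): norm and trace commute with reduction

Generic valued-field linear algebra (Mathlib only), prefix `m18nrm_`.

Setting: `F ⊂ F'` a finite extension of fields, `O` a valuation subring of `F` with a
"reduction" `red : O →+* κ` killing the non-units, `O'` a subring of `F'` containing `O`
with a compatible reduction `red' : O' →+* κ'`, where `κ ⊂ κ'` is a field extension
with `[κ' : κ] = [F' : F]`, and a `κ`-basis of `κ'` that lifts to `O'`.

Then lifts of a `κ`-basis of `κ'` form an `F`-basis of `F'` (`m18nrm_basis`) which is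
orthonormal: the matrix of multiplication by `x ∈ O'` has entries in `O` and reduces to the
matrix of multiplication by `red' x` (`m18nrm_matrix`).  Hence
`N_{F'/F}(x) ∈ O`, `red (N_{F'/F} x) = N_{κ'/κ}(red' x)` (`m18nrm_norm`), and the same for
the trace (`m18nrm_trace`).
-/

set_option autoImplicit false
set_option linter.unusedSectionVars false
set_option linter.unusedVariables false
set_option linter.style.haveILetI false

noncomputable section

namespace Fermat.Agent.M18

open Module

variable {F F' κ κ' : Type*} [Field F] [Field F'] [Algebra F F'] [Field κ] [Field κ']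
  [Algebra κ κ']

/-- the data of a compatible pair of reductions. -/
structure m18nrm_Setup (O : ValuationSubring F) (red : O →+* κ) (O' : Subring F')
    (red' : O' →+* κ') : Prop where
  /-- `red` kills the non-units of `O`. -/
  ker : ∀ y : O, ¬ IsUnit y → red y = 0
  /-- `O ⊂ O'`. -/
  map_mem : ∀ y : O, algebraMap F F' (y : F) ∈ O'
  /-- the reductions are compatible. -/
  compat : ∀ y : O, red' ⟨algebraMap F F' (y : F), map_mem y⟩ = algebraMap κ κ' (red y)

variable {O : ValuationSubring F} {red : O →+* κ} {O' : Subring F'} {red' : O' →+* κ'}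

/-- the inclusion `O → O'`. -/
def m18nrm_incl (h : m18nrm_Setup O red O' red') : O →+* O' where
  toFun y := ⟨algebraMap F F' (y : F), h.map_mem y⟩
  map_one' := by
    apply Subtype.ext
    simp
  map_mul' a b := by
    apply Subtype.ext
    simp
  map_zero' := by
    apply Subtype.ext
    simp
  map_add' a b := by
    apply Subtype.ext
    simp

theorem m18nrm_incl_coe (h : m18nrm_Setup O red O' red') (y : O) :
    ((m18nrm_incl h y : O') : F') = algebraMap F F' (y : F) := rfl

theorem m18nrm_red_incl (h : m18nrm_Setup O red O' red') (y : O) :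
    red' (m18nrm_incl h y) = algebraMap κ κ' (red y) := h.compat y

theorem m18nrm_coe_sum {ι : Type*} (O' : Subring F') (s : Finset ι) (f : ι → O') :
    ((∑ i ∈ s, f i : O') : F') = ∑ i ∈ s, (f i : F') :=
  map_sum O'.subtype f s

/-- a family of elements of `F`, not all zero, can be scaled to a family of elements of `O`
one of which is `1`. -/
theorem m18nrm_scale {ι : Type*} [Fintype ι] (O : ValuationSubring F) (g : ι → F)
    (i₁ : ι) (hg : g i₁ ≠ 0) :
    ∃ i₀ : ι, g i₀ ≠ 0 ∧ (∀ i, O.valuation (g i) ≤ O.valuation (g i₀)) ∧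
      ∀ i, g i / g i₀ ∈ O := by
  classical
  obtain ⟨i₀, -, hmax⟩ := Finset.exists_max_image (Finset.univ : Finset ι)
    (fun i => O.valuation (g i)) ⟨i₁, Finset.mem_univ _⟩
  have h0 : g i₀ ≠ 0 := by
    intro h
    have h1 := hmax i₁ (Finset.mem_univ _)
    rw [h, map_zero] at h1
    have h2 : O.valuation (g i₁) = 0 := le_antisymm h1 zero_le
    exact hg ((map_eq_zero _).mp h2)
  refine ⟨i₀, h0, fun i => hmax i (Finset.mem_univ _), fun i => ?_⟩
  rw [← ValuationSubring.valuation_le_one_iff, map_div₀]
  have hv : O.valuation (g i₀) ≠ 0 := by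
    rw [Ne, map_eq_zero]
    exact h0
  rw [div_le_iff₀ (zero_lt_iff.mpr hv), one_mul]
  exact hmax i (Finset.mem_univ _)

/-- **key lemma**: a relation `u * x = ∑ c_i ω_i` with `c_i ∈ O`, one of them `1`, forces
`red' (u * x) ≠ 0`. -/
theorem m18nrm_key (h : m18nrm_Setup O red O' red') {ι : Type*} [Fintype ι]
    (bt : Basis ι κ κ') (ω : ι → O') (hω : ∀ i, red' (ω i) = bt i)
    (c : ι → O) (i₀ : ι) (hc : c i₀ = 1) (y : O')
    (hy : (y : F') = ∑ i, algebraMap F F' (c i : F) * (ω i : F')) :
    red' y ≠ 0 := by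
  classical
  have h1 : y = ∑ i, m18nrm_incl h (c i) * ω i := by
    apply Subtype.ext
    rw [hy]
    simp only [m18nrm_coe_sum, Subring.coe_mul, m18nrm_incl_coe]
  intro h0
  rw [h1, map_sum] at h0
  simp only [map_mul, m18nrm_red_incl, hω] at h0
  have h2 : ∑ i, red (c i) • bt i = 0 := by
    rw [← h0]
    apply Finset.sum_congr rfl
    intro i _
    rw [Algebra.smul_def]
  have h3 := (Fintype.linearIndependent_iff.mp bt.linearIndependent) (fun i => red (c i)) h2 i₀
  rw [hc, map_one] at h3
  exact one_ne_zero h3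

/-- lifts of a basis of the residue extension are linearly independent. -/
theorem m18nrm_linearIndependent (h : m18nrm_Setup O red O' red') {ι : Type*} [Fintype ι]
    (bt : Basis ι κ κ') (ω : ι → O') (hω : ∀ i, red' (ω i) = bt i) :
    LinearIndependent F (fun i => (ω i : F')) := by
  classical
  rw [Fintype.linearIndependent_iff]
  intro g hg
  by_contra hne
  push Not at hne
  obtain ⟨i₁, hi₁⟩ := hne
  obtain ⟨i₀, h0, -, hmem⟩ := m18nrm_scale O g i₁ hi₁
  have hrel : ((0 : O') : F') = ∑ i, algebraMap F F' ((⟨g i / g i₀, hmem i⟩ : O) : F)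
      * (ω i : F') := by
    have h1 : ∑ i, algebraMap F F' (g i / g i₀) * (ω i : F')
        = algebraMap F F' (g i₀)⁻¹ * ∑ i, g i • (ω i : F') := by
      rw [Finset.mul_sum]
      apply Finset.sum_congr rfl
      intro i _
      rw [Algebra.smul_def, ← mul_assoc, ← map_mul, inv_mul_eq_div]
    simp only [Subring.coe_zero]
    rw [h1, hg, mul_zero]
  refine m18nrm_key h bt ω hω (fun i => ⟨g i / g i₀, hmem i⟩) i₀ ?_ 0 hrel (map_zero _)
  apply Subtype.ext
  simp [div_self h0]

theorem m18nrm_span (h : m18nrm_Setup O red O' red') {ι : Type*} [Fintype ι]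
    (bt : Basis ι κ κ') (ω : ι → O') (hω : ∀ i, red' (ω i) = bt i)
    (hd : finrank F F' = Fintype.card ι) :
    ⊤ ≤ Submodule.span F (Set.range (fun i => (ω i : F'))) := by
  classical
  haveI : Nonempty ι := by
    by_contra hne
    rw [not_nonempty_iff] at hne
    have h1 : (1 : κ') = 0 := by
      rw [← bt.sum_repr 1]
      exact Finset.sum_eq_zero (fun i _ => (hne.false i).elim)
    exact one_ne_zero h1
  exact ((m18nrm_linearIndependent h bt ω hω).span_eq_top_of_card_eq_finrank hd.symm).ge

/-- lifts of a basis of the residue extension form a basis, if the degrees agree. -/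
def m18nrm_basis (h : m18nrm_Setup O red O' red') {ι : Type*} [Fintype ι]
    (bt : Basis ι κ κ') (ω : ι → O') (hω : ∀ i, red' (ω i) = bt i)
    (hd : finrank F F' = Fintype.card ι) : Basis ι F F' :=
  Basis.mk (m18nrm_linearIndependent h bt ω hω) (m18nrm_span h bt ω hω hd)

theorem m18nrm_basis_apply (h : m18nrm_Setup O red O' red') {ι : Type*} [Fintype ι]
    (bt : Basis ι κ κ') (ω : ι → O') (hω : ∀ i, red' (ω i) = bt i)
    (hd : finrank F F' = Fintype.card ι) (i : ι) :
    m18nrm_basis h bt ω hω hd i = (ω i : F') := by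
  unfold m18nrm_basis
  rw [Basis.mk_apply]

/-- **orthonormality**: the coordinates of an element of `O'` in the lifted basis lie in `O`
and reduce to the coordinates of the reduction. -/
theorem m18nrm_repr (h : m18nrm_Setup O red O' red') {ι : Type*} [Fintype ι]
    (bt : Basis ι κ κ') (ω : ι → O') (hω : ∀ i, red' (ω i) = bt i)
    (hd : finrank F F' = Fintype.card ι) (y : O') (i : ι) :
    ∃ c : O, (m18nrm_basis h bt ω hω hd).repr (y : F') i = (c : F) ∧
      bt.repr (red' y) i = red c := by
  classical
  set B := m18nrm_basis h bt ω hω hd with hB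
  set g : ι → F := fun i => B.repr (y : F') i with hgdef
  have hsum : (y : F') = ∑ i, g i • (ω i : F') := by
    have h1 := B.sum_repr (y : F')
    rw [← h1]
    apply Finset.sum_congr rfl
    intro i _
    rw [hB, m18nrm_basis_apply]
  -- all coordinates are integral
  have hint : ∀ i, g i ∈ O := by
    by_contra hne
    push Not at hne
    obtain ⟨i₁, hi₁⟩ := hne
    have hi₁0 : g i₁ ≠ 0 := by
      intro h0
      rw [h0] at hi₁
      exact hi₁ (zero_mem _)
    obtain ⟨i₀, h0, hmax, hmem⟩ := m18nrm_scale O g i₁ hi₁0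
    have hbig : ¬ O.valuation (g i₀) ≤ 1 := by
      intro hle
      apply hi₁
      rw [← ValuationSubring.valuation_le_one_iff]
      exact le_trans (hmax i₁) hle
    have hu : (g i₀)⁻¹ ∈ O := by
      rw [← ValuationSubring.valuation_le_one_iff, map_inv₀]
      push Not at hbig
      exact inv_le_one_of_one_le₀ hbig.le
    have hnu : ¬ IsUnit (⟨(g i₀)⁻¹, hu⟩ : O) := by
      intro hunit
      have h1 := (O.valuation_eq_one_iff ⟨(g i₀)⁻¹, hu⟩).mp hunit
      simp only [map_inv₀, inv_eq_one] at h1
      exact hbig h1.le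
    have hrel : ((m18nrm_incl h ⟨(g i₀)⁻¹, hu⟩ * y : O') : F')
        = ∑ i, algebraMap F F' ((⟨g i / g i₀, hmem i⟩ : O) : F) * (ω i : F') := by
      simp only [Subring.coe_mul, m18nrm_incl_coe]
      rw [hsum, Finset.mul_sum]
      apply Finset.sum_congr rfl
      intro i _
      rw [Algebra.smul_def, ← mul_assoc, ← map_mul, inv_mul_eq_div]
    refine m18nrm_key h bt ω hω (fun i => ⟨g i / g i₀, hmem i⟩) i₀ ?_ _ hrel ?_
    · apply Subtype.ext
      simp [div_self h0]
    · rw [map_mul, m18nrm_red_incl, h.ker _ hnu, map_zero, zero_mul]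
  refine ⟨⟨g i, hint i⟩, rfl, ?_⟩
  have h1 : y = ∑ i, m18nrm_incl h ⟨g i, hint i⟩ * ω i := by
    apply Subtype.ext
    rw [hsum]
    simp only [m18nrm_coe_sum, Subring.coe_mul, m18nrm_incl_coe]
    apply Finset.sum_congr rfl
    intro i _
    rw [Algebra.smul_def]
  have h2 : red' y = ∑ i, red ⟨g i, hint i⟩ • bt i := by
    conv_lhs => rw [h1]
    rw [map_sum]
    apply Finset.sum_congr rfl
    intro i _
    rw [map_mul, m18nrm_red_incl, hω, Algebra.smul_def]
  rw [h2, map_sum]
  simp only [map_smul, Basis.repr_self, Finsupp.coe_finsetSum, Finsupp.coe_smul,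
    Finset.sum_apply, Pi.smul_apply, smul_eq_mul]
  rw [Finset.sum_eq_single i]
  · simp
  · intro j _ hj
    simp [hj]
  · intro hi
    exact absurd (Finset.mem_univ _) hi

/-- the matrix of multiplication by `x ∈ O'` in the lifted basis, with entries in `O`. -/
theorem m18nrm_matrix (h : m18nrm_Setup O red O' red') {ι : Type*} [Fintype ι]
    [DecidableEq ι]
    (bt : Basis ι κ κ') (ω : ι → O') (hω : ∀ i, red' (ω i) = bt i)
    (hd : finrank F F' = Fintype.card ι) (x : O') :
    ∃ M : Matrix ι ι O,
      Algebra.leftMulMatrix (m18nrm_basis h bt ω hω hd) (x : F') = M.map O.subtype ∧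
      Algebra.leftMulMatrix bt (red' x) = M.map red := by
  classical
  have hex : ∀ i j, ∃ c : O,
      (m18nrm_basis h bt ω hω hd).repr ((x * ω j : O') : F') i = (c : F) ∧
        bt.repr (red' (x * ω j)) i = red c := fun i j =>
    m18nrm_repr h bt ω hω hd (x * ω j) i
  choose M hM1 hM2 using hex
  refine ⟨Matrix.of M, ?_, ?_⟩
  · ext i j
    rw [Algebra.leftMulMatrix_eq_repr_mul, m18nrm_basis_apply, Matrix.map_apply]
    exact hM1 i j
  · ext i j
    rw [Algebra.leftMulMatrix_eq_repr_mul, Matrix.map_apply, ← hω j, ← map_mul]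
    exact hM2 i j

/-- **norm commutes with reduction.** -/
theorem m18nrm_norm (h : m18nrm_Setup O red O' red') {ι : Type*} [Fintype ι]
    (bt : Basis ι κ κ') (ω : ι → O') (hω : ∀ i, red' (ω i) = bt i)
    (hd : finrank F F' = Fintype.card ι) (x : O') :
    ∃ n : O, Algebra.norm F (x : F') = (n : F) ∧ Algebra.norm κ (red' x) = red n := by
  classical
  obtain ⟨M, hM1, hM2⟩ := m18nrm_matrix h bt ω hω hd x
  refine ⟨M.det, ?_, ?_⟩
  · rw [Algebra.norm_eq_matrix_det (m18nrm_basis h bt ω hω hd), hM1]
    exact (RingHom.map_det O.subtype M).symm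
  · rw [Algebra.norm_eq_matrix_det bt, hM2]
    exact (RingHom.map_det red M).symm

/-- **trace commutes with reduction.** -/
theorem m18nrm_trace (h : m18nrm_Setup O red O' red') {ι : Type*} [Fintype ι]
    (bt : Basis ι κ κ') (ω : ι → O') (hω : ∀ i, red' (ω i) = bt i)
    (hd : finrank F F' = Fintype.card ι) (x : O') :
    ∃ n : O, Algebra.trace F F' (x : F') = (n : F) ∧ Algebra.trace κ κ' (red' x) = red n := by
  classical
  obtain ⟨M, hM1, hM2⟩ := m18nrm_matrix h bt ω hω hd x
  refine ⟨M.trace, ?_, ?_⟩
  · rw [Algebra.trace_eq_matrix_trace (m18nrm_basis h bt ω hω hd), hM1]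
    simp only [Matrix.trace, Matrix.diag_apply, Matrix.map_apply]
    exact (map_sum O.subtype _ _).symm
  · rw [Algebra.trace_eq_matrix_trace bt, hM2]
    simp only [Matrix.trace, Matrix.diag_apply, Matrix.map_apply]
    exact (map_sum red _ _).symm

end Fermat.Agent.M18

end
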