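import Mathlib
import Fermat.Agent.S24.DegMain
import Fermat.Agent.M18.N1Incl
import Fermat.Agent.M18.CuspSepR
import Fermat.Agent.M18.NrmRed

/-!
# M18 (N1-inst): the two-level plumbing for the norm trick

`N ∣ N'`, both prime to `ℓ`; `F = m18v_F N ⊆ F' = m18v_F N'` (characteristic `0`),
`κ = m18v_Ft A N ⊆ κ' = m18v_Ft A N'` (characteristic `ℓ`), with the algebra structures
`m18n1_alg m18v_K hNN'` and `m18n1_alg (m18v_k A) hNN'`.

* `m18n1_map_jt`, `m18n1_map_sj` : the inclusions map `j` to `j`.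
* `m18n1_fd_res`, `m18n1_sep_res`, `m18n1_fd_bar`, `m18n1_sep_bar` : finiteness / separability.
* `m18n1_finrank_res`, `m18n1_finrank_bar`, `m18n1_finrank` : the degrees agree.
* `m18n1_G_mono`, `m18n1_Int_of`, `m18n1_redL_of`, `m18n1_Int_iff`, `m18n1_redL` : the Gauss
  rings and reductions of the two levels are compatible.
* `m18n1_O`, `m18n1_red` : the Gauss valuation ring and its reduction at any level with the
  decomposition property; `m18n1_setup` : helper2's `m18nrm_Setup`.
* `m18n1_norm`, `m18n1_trace` : norm and trace commute with reduction.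
-/

set_option autoImplicit false
set_option linter.style.haveILetI false
set_option linter.unusedSectionVars false
set_option synthInstance.maxHeartbeats 400000
set_option maxHeartbeats 400000

noncomputable section

namespace Fermat.Agent.M18

open IntermediateField ModularCurve HahnSeries Module
open Fermat.Agent.M28 Fermat.Agent.S24

variable {A : ValuationSubring m18v_K} {N N' : ℕ} [NeZero N] [NeZero N']

section maps

variable (A) (hNN' : N ∣ N')

theorem m18n1_map_jt :
    letI := m18n1_alg (m18v_k A) hNN'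
    algebraMap (m18v_Ft A N) (m18v_Ft A N') (m18sq_jt A N) = m18sq_jt A N' :=
  m18n1_map_mk (m18v_k A) hNN' _ _

theorem m18n1_map_sj :
    letI := m18n1_algBar hNN'
    algebraMap (m18v_F N) (m18v_F N') (s24j N) = s24j N' :=
  m18n1_bar_map_mk hNN' _ _

end maps

section deg

variable {ℓ : ℕ} [Fact ℓ.Prime] (hA : A.LiesOverPrime ℓ) (hNN' : N ∣ N') (hℓ : ¬ ℓ ∣ N')

include hA hℓ in
theorem m18n1_fd_res :
    letI := m18n1_alg (m18v_k A) hNN'
    FiniteDimensional (m18v_Ft A N) (m18v_Ft A N') := by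
  letI := m18n1_alg (m18v_k A) hNN'
  haveI := m18n1_tower (m18v_k A) hNN'
  haveI := (m18sq_finrank_res hA hℓ).1
  exact m18n1_fd' (K := m18v_k A) (m18sq_jt A N) (m18sq_jt A N') (m18n1_map_jt A hNN')

include hA hℓ in
theorem m18n1_sep_res :
    letI := m18n1_alg (m18v_k A) hNN'
    Algebra.IsSeparable (m18v_Ft A N) (m18v_Ft A N') := by
  letI := m18n1_alg (m18v_k A) hNN'
  haveI := m18n1_tower (m18v_k A) hNN'
  haveI := m18cusp_isSeparable_res hA hℓ
  exact m18n1_sep' (K := m18v_k A) (m18sq_jt A N) (m18sq_jt A N') (m18n1_map_jt A hNN')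

theorem m18n1_fd_bar :
    letI := m18n1_algBar hNN'
    FiniteDimensional (m18v_F N) (m18v_F N') := by
  letI := m18n1_algBar hNN'
  haveI := m18n1_bar_tower hNN'
  haveI := deg_finiteDimensional N'
  exact m18n1_fd' (K := m18v_K) (s24j N) (s24j N') (m18n1_map_sj hNN')

theorem m18n1_sep_bar :
    letI := m18n1_algBar hNN'
    Algebra.IsSeparable (m18v_F N) (m18v_F N') := by
  letI := m18n1_algBar hNN'
  haveI := m18n1_fd_bar hNN'
  exact Algebra.IsSeparable.of_integral _ _

include hA hℓ in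
/-- `ψ(N) * [F~_N' : F~_N] = ψ(N')`. -/
theorem m18n1_finrank_res :
    letI := m18n1_alg (m18v_k A) hNN'
    dedekindPsi N * finrank (m18v_Ft A N) (m18v_Ft A N') = dedekindPsi N' := by
  letI := m18n1_alg (m18v_k A) hNN'
  haveI := m18n1_tower (m18v_k A) hNN'
  have hℓN : ¬ ℓ ∣ N := fun h => hℓ (h.trans hNN')
  have h := m18n1_finrank_mul' (K := m18v_k A) (m18sq_jt A N) (m18sq_jt A N')
    (m18n1_map_jt A hNN')
  rw [(m18sq_finrank_res hA hℓN).2, (m18sq_finrank_res hA hℓ).2] at h
  exact h

include hA hℓ in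
/-- `ψ(N) * [F_N' : F_N] = ψ(N')`. -/
theorem m18n1_finrank_bar :
    letI := m18n1_algBar hNN'
    dedekindPsi N * finrank (m18v_F N) (m18v_F N') = dedekindPsi N' := by
  letI := m18n1_algBar hNN'
  haveI := m18n1_bar_tower hNN'
  have hℓN : ¬ ℓ ∣ N := fun h => hℓ (h.trans hNN')
  have h := m18n1_finrank_mul' (K := m18v_K) (s24j N) (s24j N') (m18n1_map_sj hNN')
  rw [m18sq_finrank_bar hA hℓN, m18sq_finrank_bar hA hℓ] at h
  exact h

include hA hℓ in
/-- **the degrees agree**: `[F_N' : F_N] = [F~_N' : F~_N]`. -/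
theorem m18n1_finrank :
    letI := m18n1_algBar hNN'
    letI := m18n1_alg (m18v_k A) hNN'
    finrank (m18v_F N) (m18v_F N') = finrank (m18v_Ft A N) (m18v_Ft A N') := by
  letI := m18n1_algBar hNN'
  letI := m18n1_alg (m18v_k A) hNN'
  have h1 := m18n1_finrank_bar hA hNN' hℓ
  have h2 := m18n1_finrank_res hA hNN' hℓ
  have hℓN : ¬ ℓ ∣ N := fun h => hℓ (h.trans hNN')
  have hpos : 0 < dedekindPsi N := by
    have h3 := (m18sq_finrank_res hA hℓN).2
    haveI := (m18sq_finrank_res hA hℓN).1
    rw [← h3]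
    exact Module.finrank_pos
  exact Nat.eq_of_mul_eq_mul_left hpos (h1.trans h2.symm)

end deg

end Fermat.Agent.M18

end
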