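import Fermat.Agent.M18.NrmRed

/-!
# M18 (S18 project), block (NRM), part (R-a): minimal polynomials reduce

Generic valued-field algebra in the setting of `NrmRed.lean` (Mathlib only), owner helper2,
prefix `m18nrm_`.

`F ⊂ F'` finite, `O` a valuation subring of `F` with reduction `red : O →+* κ`, `O' ⊂ F'` a
subring with reduction `red' : O' →+* κ'`, `[κ' : κ] = [F' : F]`, lifted basis.  If `s ∈ O'` and
`red' s` generates `κ' / κ`, then the minimal polynomial of `s` over `F` has coefficients in
`O`, reduces to the minimal polynomial of `red' s`, and `s` generates `F' / F`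
(`m18nrm_minpoly`).  Consequently `f'(s) ∈ O'` and `red' (f'(s)) = f~'(red' s)`
(`m18nrm_derivative`).
-/

set_option autoImplicit false
set_option linter.unusedSectionVars false
set_option linter.unusedVariables false
set_option linter.style.haveILetI false

noncomputable section

namespace Fermat.Agent.M18

open Module Polynomial IntermediateField

variable {F F' κ κ' : Type*} [Field F] [Field F'] [Algebra F F'] [Field κ] [Field κ']
  [Algebra κ κ']

variable {O : ValuationSubring F} {red : O →+* κ} {O' : Subring F'} {red' : O' →+* κ'}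

/-- evaluation of a polynomial with coefficients in `O` at an element of `O'`. -/
def m18nrm_ev (h : m18nrm_Setup O red O' red') (s : O') : Polynomial O →+* O' :=
  Polynomial.eval₂RingHom (m18nrm_incl h) s

theorem m18nrm_ev_coe (h : m18nrm_Setup O red O' red') (s : O') (p : Polynomial O) :
    ((m18nrm_ev h s p : O') : F') = aeval (s : F') (p.map O.subtype) := by
  have h1 := Polynomial.hom_eval₂ p (m18nrm_incl h) O'.subtype s
  have h2 : (O'.subtype.comp (m18nrm_incl h)) = (algebraMap F F').comp O.subtype := by
    ext y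
    rfl
  rw [h2] at h1
  rw [Polynomial.aeval_def, Polynomial.eval₂_map]
  exact h1

theorem m18nrm_red_ev (h : m18nrm_Setup O red O' red') (s : O') (p : Polynomial O) :
    red' (m18nrm_ev h s p) = aeval (red' s) (p.map red) := by
  have h1 := Polynomial.hom_eval₂ p (m18nrm_incl h) red' s
  have h2 : (red'.comp (m18nrm_incl h)) = (algebraMap κ κ').comp red := by
    ext y
    exact m18nrm_red_incl h y
  rw [h2] at h1
  rw [Polynomial.aeval_def, Polynomial.eval₂_map]
  exact h1

/-- the characteristic polynomial of the multiplication by `s ∈ O'`: coefficients in `O`,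
annihilates `s` and its reduction annihilates `red' s`. -/
theorem m18nrm_charpoly (h : m18nrm_Setup O red O' red') {ι : Type*} [Fintype ι]
    (bt : Basis ι κ κ') (ω : ι → O') (hω : ∀ i, red' (ω i) = bt i)
    (hd : finrank F F' = Fintype.card ι) (s : O') :
    ∃ χ : Polynomial O, χ.Monic ∧ χ.natDegree = Fintype.card ι ∧
      aeval (s : F') (χ.map O.subtype) = 0 ∧ aeval (red' s) (χ.map red) = 0 := by
  classical
  obtain ⟨M, hM1, hM2⟩ := m18nrm_matrix h bt ω hω hd s
  refine ⟨M.charpoly, M.charpoly_monic, M.charpoly_natDegree_eq_dim, ?_, ?_⟩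
  · rw [← Matrix.charpoly_map, ← hM1]
    apply Algebra.leftMulMatrix_injective (m18nrm_basis h bt ω hω hd)
    rw [← Polynomial.aeval_algHom_apply, map_zero]
    exact Matrix.aeval_self_charpoly _
  · rw [← Matrix.charpoly_map, ← hM2]
    apply Algebra.leftMulMatrix_injective bt
    rw [← Polynomial.aeval_algHom_apply, map_zero]
    exact Matrix.aeval_self_charpoly _

/-- **minimal polynomials reduce.** -/
theorem m18nrm_minpoly (h : m18nrm_Setup O red O' red') {ι : Type*} [Fintype ι]
    (bt : Basis ι κ κ') (ω : ι → O') (hω : ∀ i, red' (ω i) = bt i)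
    (hd : finrank F F' = Fintype.card ι) (s : O') (hgen : κ⟮red' s⟯ = ⊤) :
    ∃ χ : Polynomial O, χ.Monic ∧ χ.map O.subtype = minpoly F (s : F') ∧
      χ.map red = minpoly κ (red' s) ∧ F⟮(s : F')⟯ = ⊤ := by
  classical
  haveI : FiniteDimensional κ κ' := Module.Finite.of_basis bt
  haveI : FiniteDimensional F F' := Module.Finite.of_basis (m18nrm_basis h bt ω hω hd)
  obtain ⟨χ, hmonic, hdeg, hχ1, hχ2⟩ := m18nrm_charpoly h bt ω hω hd s
  have hn : finrank κ κ' = Fintype.card ι := Module.finrank_eq_card_basis bt
  -- the residue side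
  have hmin_k : (minpoly κ (red' s)).natDegree = Fintype.card ι := by
    rw [← hn]
    exact (Field.primitive_element_iff_minpoly_natDegree_eq κ (red' s)).mp hgen
  have hint_k : IsIntegral κ (red' s) := Algebra.IsIntegral.isIntegral _
  have hk : χ.map red = minpoly κ (red' s) := by
    apply Polynomial.eq_of_monic_of_dvd_of_natDegree_le (minpoly.monic hint_k)
      (hmonic.map red) (minpoly.dvd κ (red' s) hχ2)
    rw [hmonic.natDegree_map, hdeg, hmin_k]
  -- the minimal polynomial of `s` has coefficients in `O`
  have hint : IsIntegral F (s : F') := Algebra.IsIntegral.isIntegral _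
  have hdvd : minpoly F (s : F') ∣ χ.map (algebraMap O F) := minpoly.dvd F (s : F') hχ1
  obtain ⟨m₀, hm₀⟩ := IsIntegrallyClosed.eq_map_mul_C_of_dvd F hmonic hdvd
  rw [(minpoly.monic hint).leadingCoeff, map_one, mul_one] at hm₀
  have hm₀' : m₀.map O.subtype = minpoly F (s : F') := hm₀
  have hm₀monic : m₀.Monic := by
    have h1 : (m₀.map (algebraMap O F)).Monic := by
      rw [hm₀]
      exact minpoly.monic hint
    exact Polynomial.monic_of_injective (IsFractionRing.injective O F) h1
  -- `m₀ (s) = 0` reduces to `m₀~ (red' s) = 0`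
  have h0 : m18nrm_ev h s m₀ = 0 := by
    apply Subtype.ext
    rw [m18nrm_ev_coe, hm₀', minpoly.aeval]
    rfl
  have h1 : aeval (red' s) (m₀.map red) = 0 := by
    rw [← m18nrm_red_ev h, h0, map_zero]
  have h2 : (minpoly κ (red' s)).natDegree ≤ (m₀.map red).natDegree :=
    Polynomial.natDegree_le_of_dvd (minpoly.dvd κ (red' s) h1) (hm₀monic.map red).ne_zero
  rw [hm₀monic.natDegree_map, hmin_k] at h2
  have h3 : m₀.natDegree = (minpoly F (s : F')).natDegree := by
    rw [← hm₀', hm₀monic.natDegree_map]
  have h4 : (χ.map O.subtype).natDegree ≤ (minpoly F (s : F')).natDegree := by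
    rw [hmonic.natDegree_map, hdeg, ← h3]
    exact h2
  have hF : χ.map O.subtype = minpoly F (s : F') :=
    Polynomial.eq_of_monic_of_dvd_of_natDegree_le (minpoly.monic hint)
      (hmonic.map O.subtype) hdvd h4
  refine ⟨χ, hmonic, hF, hk, ?_⟩
  rw [Field.primitive_element_iff_minpoly_natDegree_eq, ← hF, hmonic.natDegree_map, hdeg, hd]

/-- **derivatives of minimal polynomials reduce.** -/
theorem m18nrm_derivative (h : m18nrm_Setup O red O' red') {ι : Type*} [Fintype ι]
    (bt : Basis ι κ κ') (ω : ι → O') (hω : ∀ i, red' (ω i) = bt i)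
    (hd : finrank F F' = Fintype.card ι) (s : O') (hgen : κ⟮red' s⟯ = ⊤) :
    F⟮(s : F')⟯ = ⊤ ∧ ∃ y : O', (y : F') = aeval (s : F') (derivative (minpoly F (s : F'))) ∧
      red' y = aeval (red' s) (derivative (minpoly κ (red' s))) := by
  obtain ⟨χ, hmonic, hF, hk, htop⟩ := m18nrm_minpoly h bt ω hω hd s hgen
  refine ⟨htop, m18nrm_ev h s (derivative χ), ?_, ?_⟩
  · rw [m18nrm_ev_coe, ← hF, Polynomial.derivative_map]
  · rw [m18nrm_red_ev, ← hk, Polynomial.derivative_map]

end Fermat.Agent.M18

end
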