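/-
M18 (S18 project), block (SQ3) integrality transfer, abstract core, owner helper5.
Prefix `m18sq3_`.  Generic valued-field algebra in the setting of helper2's `NrmRed.lean`.

* `m18sq3_coeff_isIntegral` : the coefficients of the minimal polynomial over `F` of an element
  integral over a ring `R` (with image in `F`) are integral over `R`;
* `m18sq3_closed` : `K[x]` is integrally closed in `K(x)` (`x` transcendental);
* `m18sq3_core` : in a compatible pair of reductions with `[κ' : κ] = [F' : F]`, the reduction of
  an element of `O'` integral over `R` is integral over `Rk`, if `R` is integrally closed in `F`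
  and `red (O ∩ R) ⊆ Rk`.
-/
import Fermat.Agent.M18.NrmMin
import Fermat.Agent.S24.AlgA

set_option autoImplicit false
set_option linter.unusedSectionVars false
set_option linter.unusedVariables false
set_option linter.style.haveILetI false

noncomputable section

namespace Fermat.Agent.M18

open Module Polynomial IntermediateField

section coeff

variable {F F' : Type*} [Field F] [Field F'] [Algebra F F']

/-- the coefficients of the minimal polynomial over `F` of an element integral over `R` are
integral over `R`, if the image of `R` lies in `F`. -/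
theorem m18sq3_coeff_isIntegral {R : Type*} [CommRing R] [Algebra R F']
    (hRF : ∀ r : R, algebraMap R F' r ∈ Set.range (algebraMap F F'))
    {s : F'} (hs : IsIntegral R s) (i : ℕ) :
    IsIntegral R (algebraMap F F' ((minpoly F s).coeff i)) := by
  obtain ⟨p, hp, hps⟩ := hs
  have hlift : p.map (algebraMap R F') ∈ Polynomial.lifts (algebraMap F F') := by
    rw [Polynomial.lifts_iff_coeff_lifts]
    intro n
    rw [Polynomial.coeff_map]
    exact hRF _
  obtain ⟨p₁, hp₁, -, hmonic⟩ :=
    Polynomial.lifts_and_natDegree_eq_and_monic hlift (hp.map _)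
  have h0 : aeval s p₁ = 0 := by
    rw [aeval_def, ← Polynomial.eval_map, hp₁, Polynomial.eval_map]
    exact hps
  have hint : IsIntegral F s := ⟨p₁, hmonic, h0⟩
  have hdvd : minpoly F s ∣ p₁ := minpoly.dvd F s h0
  have hdvd' : (minpoly F s).map (algebraMap F F') ∣ p.map (algebraMap R F') := by
    rw [← hp₁]
    exact Polynomial.map_dvd _ hdvd
  have := Polynomial.isIntegral_coeff_of_dvd p ((minpoly F s).map (algebraMap F F')) hp
    ((minpoly.monic hint).map _) hdvd' i
  rwa [Polynomial.coeff_map] at this

end coeff

section closed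

open scoped IntermediateField.algebraAdjoinAdjoin

variable {K F : Type*} [Field K] [Field F] [Algebra K F]

/-- `K[x]` is integrally closed in `K(x)`. -/
theorem m18sq3_closed (x : F) (hx : Transcendental K x) {c : F} (hc : c ∈ K⟮x⟯)
    (hint : IsIntegral (Algebra.adjoin K ({x} : Set F)) c) :
    c ∈ Algebra.adjoin K ({x} : Set F) := by
  haveI : IsDedekindDomain (Algebra.adjoin K ({x} : Set F)) :=
    Fermat.Agent.S24.algaz_isDedekindDomain x hx
  have h1 : IsIntegral (Algebra.adjoin K ({x} : Set F)) (⟨c, hc⟩ : ↥K⟮x⟯) := by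
    have hinj : Function.Injective (algebraMap ↥K⟮x⟯ F) := (algebraMap ↥K⟮x⟯ F).injective
    exact (isIntegral_algebraMap_iff hinj).mp hint
  obtain ⟨y, hy⟩ := IsIntegrallyClosed.isIntegral_iff.mp h1
  have h2 : (y : F) = c := congrArg Subtype.val hy
  rw [← h2]
  exact y.2

end closed

section core

variable {F F' κ κ' : Type*} [Field F] [Field F'] [Algebra F F'] [Field κ] [Field κ']
  [Algebra κ κ']

variable {O : ValuationSubring F} {red : O →+* κ} {O' : Subring F'} {red' : O' →+* κ'}

/-- **(SQ3), abstract form.** -/
theorem m18sq3_core (h : m18nrm_Setup O red O' red') {ι : Type*} [Fintype ι]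
    (bt : Basis ι κ κ') (ω : ι → O') (hω : ∀ i, red' (ω i) = bt i)
    (hd : finrank F F' = Fintype.card ι)
    {R : Type*} [CommRing R] [Algebra R F']
    (hRF : ∀ r : R, algebraMap R F' r ∈ Set.range (algebraMap F F'))
    {Rk : Type*} [CommRing Rk] [Algebra Rk κ']
    (hclosed : ∀ c : F, IsIntegral R (algebraMap F F' c) →
      ∃ r : R, algebraMap R F' r = algebraMap F F' c)
    (hred : ∀ (c : O) (r : R), algebraMap R F' r = algebraMap F F' (c : F) →
      algebraMap κ κ' (red c) ∈ Set.range (algebraMap Rk κ'))
    (s : O') (hs : IsIntegral R (s : F')) : IsIntegral Rk (red' s) := by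
  classical
  haveI : FiniteDimensional κ κ' := Module.Finite.of_basis bt
  haveI : FiniteDimensional F F' := Module.Finite.of_basis (m18nrm_basis h bt ω hω hd)
  obtain ⟨χ, hmonic, hdeg, hχ1, hχ2⟩ := m18nrm_charpoly h bt ω hω hd s
  have hint : IsIntegral F (s : F') := Algebra.IsIntegral.isIntegral _
  have hdvd : minpoly F (s : F') ∣ χ.map (algebraMap O F) := minpoly.dvd F (s : F') hχ1
  obtain ⟨m₀, hm₀⟩ := IsIntegrallyClosed.eq_map_mul_C_of_dvd F hmonic hdvd
  rw [(minpoly.monic hint).leadingCoeff, map_one, mul_one] at hm₀
  have hm₀' : m₀.map O.subtype = minpoly F (s : F') := hm₀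
  have hm₀monic : m₀.Monic := by
    have h1 : (m₀.map (algebraMap O F)).Monic := by
      rw [hm₀]
      exact minpoly.monic hint
    exact Polynomial.monic_of_injective (IsFractionRing.injective O F) h1
  have h0 : m18nrm_ev h s m₀ = 0 := by
    apply Subtype.ext
    rw [m18nrm_ev_coe, hm₀', minpoly.aeval]
    rfl
  have h1 : aeval (red' s) (m₀.map red) = 0 := by
    rw [← m18nrm_red_ev h, h0, map_zero]
  have hcoef : ∀ i, algebraMap κ κ' (red (m₀.coeff i)) ∈ Set.range (algebraMap Rk κ') := by
    intro i
    have hi := m18sq3_coeff_isIntegral (F := F) hRF hs i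
    rw [← hm₀', Polynomial.coeff_map] at hi
    obtain ⟨r, hr⟩ := hclosed _ hi
    exact hred (m₀.coeff i) r hr
  have hl : (m₀.map red).map (algebraMap κ κ') ∈ Polynomial.lifts (algebraMap Rk κ') := by
    rw [Polynomial.lifts_iff_coeff_lifts]
    intro n
    rw [Polynomial.coeff_map, Polynomial.coeff_map]
    exact hcoef n
  obtain ⟨q, hq, -, hqmonic⟩ :=
    Polynomial.lifts_and_natDegree_eq_and_monic hl ((hm₀monic.map red).map _)
  refine ⟨q, hqmonic, ?_⟩
  rw [← Polynomial.eval_map, hq, Polynomial.eval_map, ← Polynomial.aeval_def]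
  exact h1

end core

end Fermat.Agent.M18

end
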