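/-
M18 (S18 project), block (SQ3) integrality transfer, the Gauss rings, owner helper5.
Prefix `m18sq3_`.  Level-generic (every level `M` with the decomposition property).

* `m18sq3_O`, `m18sq3_red` : the ring of Gauss-integral elements of `F_M` and the reduction map,
  as a ring homomorphism;
* `m18sq3_ev` : evaluation of integral polynomials at a Gauss-integral element;
* `m18sq3_poly_int` : if `P(x)` is Gauss-integral, `x` Gauss-integral with transcendental
  reduction, then `P` has integral coefficients;
* `m18sq3_red_mem_adjoin` : `red (O ∩ K[x]) ⊆ k[red x]`.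
-/
import Fermat.Agent.M18.Sq3Core
import Fermat.Agent.M18.SqDeg

set_option autoImplicit false
set_option linter.deprecated false
set_option linter.unusedSectionVars false
set_option linter.unusedVariables false
set_option linter.style.haveILetI false
set_option synthInstance.maxHeartbeats 400000
set_option maxHeartbeats 1600000

noncomputable section

namespace Fermat.Agent.M18

open HahnSeries IntermediateField ModularCurve Polynomial Module
open Fermat.Agent.M28 Fermat.Agent.S24

variable {A : ValuationSubring m18v_K} {M : ℕ} [NeZero M]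

/-- the ring of Gauss-integral elements of `F_M`. -/
def m18sq3_O (A : ValuationSubring m18v_K) (M : ℕ) [NeZero M] : Subring (s24F M) where
  carrier := {x | m18v_Int A M x}
  mul_mem' := fun ha hb => m18v_Int_mul ha hb
  one_mem' := m18v_Int_one
  add_mem' := fun ha hb => m18v_Int_add ha hb
  zero_mem' := m18v_Int_zero
  neg_mem' := fun ha => m18v_Int_neg ha

theorem m18sq3_mem_O {x : s24F M} : x ∈ m18sq3_O A M ↔ m18v_Int A M x := Iff.rfl

/-- the reduction map, as a ring homomorphism. -/
def m18sq3_red (hdec : m18sq_Dec A M) : m18sq3_O A M →+* m18v_Ft A M where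
  toFun x := m18sq_red hdec (x : s24F M)
  map_one' := Subtype.ext m18v_redL_one
  map_mul' x y := Subtype.ext (m18v_redL_mul' x.2 y.2)
  map_zero' := Subtype.ext m18v_redL_zero
  map_add' x y := Subtype.ext (m18v_redL_add x.2 y.2)

theorem m18sq3_red_apply (hdec : m18sq_Dec A M) (x : m18sq3_O A M) :
    m18sq3_red hdec x = m18sq_red hdec (x : s24F M) := rfl

/-- the constants. -/
def m18sq3_const (A : ValuationSubring m18v_K) (M : ℕ) [NeZero M] : A →+* m18sq3_O A M where
  toFun a := ⟨algebraMap m18v_K (s24F M) (a : m18v_K), m18v_Int_const a⟩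
  map_one' := by
    apply Subtype.ext
    simp
  map_mul' a b := by
    apply Subtype.ext
    simp
  map_zero' := by
    apply Subtype.ext
    simp
  map_add' a b := by
    apply Subtype.ext
    simp

theorem m18sq3_const_coe (a : A) :
    ((m18sq3_const A M a : m18sq3_O A M) : s24F M) = algebraMap m18v_K (s24F M) (a : m18v_K) :=
  rfl

theorem m18sq3_red_const (hdec : m18sq_Dec A M) (a : A) :
    m18sq3_red hdec (m18sq3_const A M a) =
      algebraMap (m18v_k A) (m18v_Ft A M) (IsLocalRing.residue A a) := by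
  apply Subtype.ext
  show m18v_redL A M (algebraMap m18v_K (s24F M) (a : m18v_K)) = _
  rw [m18v_redL_const, ← ModularCurve.algebraMap_laurentSeries_eq_single]
  rfl

/-- evaluation of integral polynomials at a Gauss-integral element. -/
def m18sq3_ev (x : m18sq3_O A M) : Polynomial A →+* m18sq3_O A M :=
  Polynomial.eval₂RingHom (m18sq3_const A M) x

theorem m18sq3_ev_coe (x : m18sq3_O A M) (P : Polynomial A) :
    ((m18sq3_ev x P : m18sq3_O A M) : s24F M) = aeval (x : s24F M) (P.map A.subtype) := by
  have h1 := Polynomial.hom_eval₂ P (m18sq3_const A M) (m18sq3_O A M).subtype x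
  have h2 : ((m18sq3_O A M).subtype.comp (m18sq3_const A M)) =
      (algebraMap m18v_K (s24F M)).comp A.subtype :=
    RingHom.ext fun y => rfl
  rw [h2] at h1
  rw [Polynomial.aeval_def, Polynomial.eval₂_map]
  exact h1

theorem m18sq3_red_ev (hdec : m18sq_Dec A M) (x : m18sq3_O A M) (P : Polynomial A) :
    m18sq3_red hdec (m18sq3_ev x P) =
      aeval (m18sq3_red hdec x) (P.map (IsLocalRing.residue A)) := by
  have h1 := Polynomial.hom_eval₂ P (m18sq3_const A M) (m18sq3_red hdec) x
  have h2 : ((m18sq3_red hdec).comp (m18sq3_const A M)) =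
      (algebraMap (m18v_k A) (m18v_Ft A M)).comp (IsLocalRing.residue A) :=
    RingHom.ext fun y => m18sq3_red_const hdec y
  rw [h2] at h1
  rw [Polynomial.aeval_def, Polynomial.eval₂_map]
  exact h1

/-- a constant multiple `c • u` of a Gauss unit `u` is Gauss-integral only if `c ∈ A`. -/
theorem m18sq3_const_mem (hdec : m18sq_Dec A M) (c : m18v_K) (u : m18sq3_O A M)
    (hu : m18sq3_red hdec u ≠ 0)
    (hI : m18v_Int A M (algebraMap m18v_K (s24F M) c * (u : s24F M))) : c ∈ A := by
  by_contra hc
  have hinv : c⁻¹ ∈ A := (A.mem_or_inv_mem c).resolve_left hc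
  have hc0 : c ≠ 0 := fun h0 => hc (h0 ▸ A.zero_mem)
  have hnu : ¬ IsUnit (⟨c⁻¹, hinv⟩ : A) := by
    intro hunit
    obtain ⟨b, hb⟩ := hunit.exists_right_inv
    have hb' : c⁻¹ * (b : m18v_K) = 1 := by
      have := congrArg Subtype.val hb
      simpa using this
    have : (b : m18v_K) = c := by
      field_simp at hb'
      exact hb'.symm ▸ rfl
    exact hc (this ▸ b.2)
  have hu' : u = m18sq3_const A M ⟨c⁻¹, hinv⟩ *
      (⟨algebraMap m18v_K (s24F M) c * (u : s24F M), hI⟩ : m18sq3_O A M) := by
    apply Subtype.ext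
    show (u : s24F M) = algebraMap m18v_K (s24F M) c⁻¹ *
      (algebraMap m18v_K (s24F M) c * (u : s24F M))
    rw [← mul_assoc, ← map_mul, inv_mul_cancel₀ hc0, map_one, one_mul]
  apply hu
  rw [hu', map_mul, m18sq3_red_const, m18v_residue_eq_zero hnu, map_zero, zero_mul]

/-- **Gauss lemma for polynomials**: if `P(x)` is Gauss-integral, where `x` is Gauss-integral with
transcendental reduction, then `P` has coefficients in `A`. -/
theorem m18sq3_poly_int (hdec : m18sq_Dec A M) (x : m18sq3_O A M)
    (hxt : Transcendental (m18v_k A) (m18sq3_red hdec x)) (P : Polynomial m18v_K)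
    (hI : m18v_Int A M (aeval (x : s24F M) P)) :
    ∃ P' : Polynomial A, P'.map A.subtype = P := by
  by_cases hP : P = 0
  · exact ⟨0, by rw [hP, Polynomial.map_zero]⟩
  obtain ⟨c, P', hc, hP', i, hprim⟩ := m18sq_content A (fun _ : Fin 1 => P) ⟨0, hP⟩
  have hu : m18sq3_red hdec (m18sq3_ev x (P' i)) ≠ 0 := by
    rw [m18sq3_red_ev]
    intro h0
    exact hprim ((transcendental_iff.mp hxt) _ h0)
  have heq : aeval (x : s24F M) P =
      algebraMap m18v_K (s24F M) c * ((m18sq3_ev x (P' i) : m18sq3_O A M) : s24F M) := by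
    rw [m18sq3_ev_coe]
    conv_lhs => rw [hP' i]
    rw [map_mul, Polynomial.aeval_C]
  rw [heq] at hI
  have hcA := m18sq3_const_mem hdec c _ hu hI
  refine ⟨Polynomial.C ⟨c, hcA⟩ * P' i, ?_⟩
  rw [Polynomial.map_mul, Polynomial.map_C]
  exact (hP' i).symm

/-- `red (O ∩ K[x]) ⊆ k[red x]`. -/
theorem m18sq3_red_mem_adjoin (hdec : m18sq_Dec A M) (x : m18sq3_O A M)
    (hxt : Transcendental (m18v_k A) (m18sq3_red hdec x)) (c : m18sq3_O A M)
    (hc : (c : s24F M) ∈ Algebra.adjoin m18v_K ({(x : s24F M)} : Set (s24F M))) :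
    m18sq3_red hdec c ∈
      Algebra.adjoin (m18v_k A) ({m18sq3_red hdec x} : Set (m18v_Ft A M)) := by
  rw [Algebra.adjoin_singleton_eq_range_aeval] at hc
  obtain ⟨P, hP⟩ := hc
  have hP' : aeval (x : s24F M) P = (c : s24F M) := hP
  obtain ⟨P', rfl⟩ := m18sq3_poly_int hdec x hxt P (by rw [hP']; exact c.2)
  have hc' : c = m18sq3_ev x P' := by
    apply Subtype.ext
    rw [m18sq3_ev_coe, hP']
  rw [hc', m18sq3_red_ev, Algebra.adjoin_singleton_eq_range_aeval]
  exact ⟨_, rfl⟩

end Fermat.Agent.M18

end
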