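/-
M18 (S18 project), block (SQ3) integrality transfer, main statements, owner helper5.
Prefix `m18sq3_`.  Level-generic (every level `M` prime to `ℓ`).

* `m18sq3_j`, `m18sq3_red_j` : `j` is Gauss-integral with reduction `j~`;
* `m18sq3_OG`, `m18sq3_redG`, `m18sq3_setup` : the Gauss valuation ring of `K(j)` with its
  reduction to `k(j~)`, and the compatibility with the Gauss ring of `F_M` (an instance of helper2's
  `m18nrm_Setup`);
* `m18sq3_isIntegral_of` : **(SQ3)** for a general Gauss-integral `x` with `K(x) = K(j)`;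
* `m18sq3_isIntegral`, `m18sq3_isIntegral_inv` : (SQ3) for `x = j` and `x = j⁻¹`;
* `m18sq3_h3`, `m18sq3_h3_inv` : the shapes consumed by helper4's `RrSq.lean`.
-/
import Fermat.Agent.M18.Sq3Gauss
import Fermat.Agent.M18.SqV

set_option autoImplicit false
set_option linter.deprecated false
set_option linter.unusedSectionVars false
set_option linter.unusedVariables false
set_option linter.style.haveILetI false
set_option synthInstance.maxHeartbeats 400000
set_option maxHeartbeats 1600000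

noncomputable section

namespace Fermat.Agent.M18

open HahnSeries IntermediateField ModularCurve Polynomial Module
open Fermat.Agent.M28 Fermat.Agent.S24

variable {A : ValuationSubring m18v_K} {M : ℕ} [NeZero M]

/-! ### `j` is Gauss-integral with reduction `j~` -/

theorem m18sq3_coe_j :
    ((s24j M : s24F M) : LaurentSeries m18v_K) = m18v_incl A (m18sq_evA A Polynomial.X) := by
  rw [m18sq_incl_evA, Polynomial.map_X, m18sq_evL_apply, Polynomial.aeval_X, m18sq_coe_s24j]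

theorem m18sq3_j_int : m18v_Int A M (s24j M) := m18v_Int_of_incl m18sq3_coe_j

/-- `j` as an element of the Gauss ring. -/
def m18sq3_j (A : ValuationSubring m18v_K) (M : ℕ) [NeZero M] : m18sq3_O A M :=
  ⟨s24j M, m18sq3_j_int⟩

theorem m18sq3_j_coe : ((m18sq3_j A M : m18sq3_O A M) : s24F M) = s24j M := rfl

theorem m18sq3_red_j (hdec : m18sq_Dec A M) : m18sq3_red hdec (m18sq3_j A M) = m18sq_jt A M := by
  apply Subtype.ext
  show m18v_redL A M (s24j M) = jqModC (m18v_k A)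
  rw [m18v_redL_of_incl m18sq3_coe_j, m18sq_redq_evA, Polynomial.map_X, m18sq_evk_apply,
    Polynomial.aeval_X]

theorem m18sq3_red_j' (hdec : m18sq_Dec A M) : m18sq_red hdec (s24j M) = m18sq_jt A M :=
  m18sq3_red_j hdec

/-! ### the Gauss valuation ring of `K(j)` -/

/-- the reduction of a Gauss-integral element of `K(j)` lies in `k(j~)`. -/
theorem m18sq3_red_mem_simple (hdec : m18sq_Dec A M) (g : ↥(s24K⟮s24j M⟯))
    (hI : m18v_Int A M (g : s24F M)) :
    m18sq_red hdec (g : s24F M) ∈ (m18v_k A)⟮m18sq_jt A M⟯ := by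
  have hjt : Transcendental (m18v_k A) (m18sq3_red hdec (m18sq3_j A M)) := by
    rw [m18sq3_red_j]
    exact m18sq_jt_transcendental
  obtain ⟨r, s, hq⟩ := (IntermediateField.mem_adjoin_simple_iff s24K (g : s24F M)).mp g.2
  by_cases hs0 : aeval (s24j M) s = 0
  · have hg0 : (g : s24F M) = 0 := by rw [hq, hs0, div_zero]
    rw [hg0]
    have : m18sq_red hdec (0 : s24F M) = 0 := Subtype.ext m18v_redL_zero
    rw [this]
    exact zero_mem _
  by_cases hr0 : r = 0
  · have hg0 : (g : s24F M) = 0 := by rw [hq, hr0, map_zero, zero_div]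
    rw [hg0]
    have : m18sq_red hdec (0 : s24F M) = 0 := Subtype.ext m18v_redL_zero
    rw [this]
    exact zero_mem _
  have hs : s ≠ 0 := by
    rintro rfl
    exact hs0 (map_zero _)
  obtain ⟨c₁, r', hc₁, hr', i, hrprim⟩ := m18sq_content A (fun _ : Fin 1 => r) ⟨0, hr0⟩
  obtain ⟨c₂, s', hc₂, hs', i', hsprim⟩ := m18sq_content A (fun _ : Fin 1 => s) ⟨0, hs⟩
  set u : m18sq3_O A M := m18sq3_ev (m18sq3_j A M) (r' i) with hu
  set w : m18sq3_O A M := m18sq3_ev (m18sq3_j A M) (s' i') with hw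
  have hured : m18sq3_red hdec u ≠ 0 := by
    rw [hu, m18sq3_red_ev]
    intro h0
    exact hrprim ((transcendental_iff.mp hjt) _ h0)
  have hwred : m18sq3_red hdec w ≠ 0 := by
    rw [hw, m18sq3_red_ev]
    intro h0
    exact hsprim ((transcendental_iff.mp hjt) _ h0)
  have hr1 : aeval (s24j M) r = algebraMap m18v_K (s24F M) c₁ * (u : s24F M) := by
    rw [hu, m18sq3_ev_coe, m18sq3_j_coe]
    conv_lhs => rw [hr' i]
    rw [map_mul, Polynomial.aeval_C]
  have hs1 : aeval (s24j M) s = algebraMap m18v_K (s24F M) c₂ * (w : s24F M) := by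
    rw [hw, m18sq3_ev_coe, m18sq3_j_coe]
    conv_lhs => rw [hs' i']
    rw [map_mul, Polynomial.aeval_C]
  have hc₂' : algebraMap m18v_K (s24F M) c₂ ≠ 0 := by
    rw [Ne, map_eq_zero]
    exact hc₂
  have hgw : (g : s24F M) * (w : s24F M) =
      algebraMap m18v_K (s24F M) (c₁ / c₂) * (u : s24F M) := by
    have h1 : (g : s24F M) * aeval (s24j M) s = aeval (s24j M) r := by
      rw [hq, div_mul_cancel₀ _ hs0]
    rw [hr1, hs1] at h1
    rw [map_div₀]
    field_simp
    rw [← h1]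
    ring
  have hIgw : m18v_Int A M (algebraMap m18v_K (s24F M) (c₁ / c₂) * (u : s24F M)) := by
    rw [← hgw]
    exact m18v_Int_mul hI w.2
  have hcA := m18sq3_const_mem hdec (c₁ / c₂) u hured hIgw
  have hprod : (⟨(g : s24F M), hI⟩ : m18sq3_O A M) * w =
      m18sq3_const A M ⟨c₁ / c₂, hcA⟩ * u := Subtype.ext hgw
  have hredprod := congrArg (m18sq3_red hdec) hprod
  rw [map_mul, map_mul, m18sq3_red_const] at hredprod
  have hredg : m18sq_red hdec (g : s24F M) =
      algebraMap (m18v_k A) (m18v_Ft A M) (IsLocalRing.residue A ⟨c₁ / c₂, hcA⟩) *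
        m18sq3_red hdec u / m18sq3_red hdec w := by
    rw [eq_div_iff hwred]
    exact hredprod
  rw [hredg]
  refine div_mem (mul_mem (IntermediateField.algebraMap_mem _ _) ?_) ?_
  · rw [hu, m18sq3_red_ev, m18sq3_red_j]
    exact m18sq_aeval_jt_mem _
  · rw [hw, m18sq3_red_ev, m18sq3_red_j]
    exact m18sq_aeval_jt_mem _

/-- the Gauss valuation ring of `K(j)`. -/
def m18sq3_OG (hdec : m18sq_Dec A M) : ValuationSubring ↥(s24K⟮s24j M⟯) where
  carrier := {g | m18v_Int A M (g : s24F M)}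
  mul_mem' := fun ha hb => m18v_Int_mul ha hb
  one_mem' := m18v_Int_one
  add_mem' := fun ha hb => m18v_Int_add ha hb
  zero_mem' := m18v_Int_zero
  neg_mem' := fun ha => m18v_Int_neg ha
  mem_or_inv_mem' := fun g => by
    by_cases hg : g = 0
    · left
      rw [hg]
      exact m18v_Int_zero
    · have hg' : (g : s24F M) ≠ 0 := fun h0 => hg (Subtype.ext h0)
      rcases m18sq_Int_or_inv hdec hg' with h | h
      · left
        exact h
      · right
        exact h

theorem m18sq3_mem_OG (hdec : m18sq_Dec A M) {g : ↥(s24K⟮s24j M⟯)} :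
    g ∈ m18sq3_OG hdec ↔ m18v_Int A M (g : s24F M) := Iff.rfl

/-- the reduction map of the Gauss valuation ring of `K(j)`, with values in `k(j~)`. -/
def m18sq3_redG (hdec : m18sq_Dec A M) :
    m18sq3_OG hdec →+* ↥((m18v_k A)⟮m18sq_jt A M⟯) where
  toFun g := ⟨m18sq_red hdec ((g : ↥(s24K⟮s24j M⟯)) : s24F M),
    m18sq3_red_mem_simple hdec g.1 g.2⟩
  map_one' := Subtype.ext (Subtype.ext m18v_redL_one)
  map_mul' x y := Subtype.ext (Subtype.ext (m18v_redL_mul' x.2 y.2))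
  map_zero' := Subtype.ext (Subtype.ext m18v_redL_zero)
  map_add' x y := Subtype.ext (Subtype.ext (m18v_redL_add x.2 y.2))

theorem m18sq3_redG_coe (hdec : m18sq_Dec A M) (g : m18sq3_OG hdec) :
    ((m18sq3_redG hdec g : ↥((m18v_k A)⟮m18sq_jt A M⟯)) : m18v_Ft A M) =
      m18sq_red hdec ((g : ↥(s24K⟮s24j M⟯)) : s24F M) := rfl

/-- the compatible pair of reductions `K(j) ⊂ F_M`. -/
theorem m18sq3_setup (hdec : m18sq_Dec A M) :
    m18nrm_Setup (m18sq3_OG hdec) (m18sq3_redG hdec) (m18sq3_O A M) (m18sq3_red hdec) where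
  ker := by
    intro y hy
    by_contra hne
    apply hy
    have hne' : m18v_redL A M ((y : ↥(s24K⟮s24j M⟯)) : s24F M) ≠ 0 := by
      intro h0
      apply hne
      exact Subtype.ext (Subtype.ext h0)
    have hinv := m18sq_Int_inv_of_red_ne_zero hdec y.2 hne'
    have hy0 : (y : ↥(s24K⟮s24j M⟯)) ≠ 0 := by
      intro h0
      apply hne'
      rw [h0]
      exact m18v_redL_zero
    refine IsUnit.of_mul_eq_one (⟨(y : ↥(s24K⟮s24j M⟯))⁻¹, hinv⟩ : m18sq3_OG hdec) ?_
    apply Subtype.ext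
    show (y : ↥(s24K⟮s24j M⟯)) * (y : ↥(s24K⟮s24j M⟯))⁻¹ = 1
    exact mul_inv_cancel₀ hy0
  map_mem := fun y => y.2
  compat := fun y => rfl

/-! ### (SQ3) -/

/-- **(SQ3), general form**: for a Gauss-integral `x` with `K(x) = K(j)` and transcendental
reduction, the reduction of a Gauss-integral element integral over `K[x]` is integral over
`k[red x]`. -/
theorem m18sq3_isIntegral_of {ℓ : ℕ} [Fact ℓ.Prime] (hA : A.LiesOverPrime ℓ) (hℓM : ¬ ℓ ∣ M)
    (hdec : m18sq_Dec A M) (x : m18sq3_O A M)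
    (hx : Transcendental m18v_K (x : s24F M))
    (hxt : Transcendental (m18v_k A) (m18sq3_red hdec x))
    (hxj : s24K⟮(x : s24F M)⟯ = s24K⟮s24j M⟯)
    (y : m18sq3_O A M)
    (hy : IsIntegral (Algebra.adjoin m18v_K ({(x : s24F M)} : Set (s24F M))) (y : s24F M)) :
    IsIntegral (Algebra.adjoin (m18v_k A) ({m18sq3_red hdec x} : Set (m18v_Ft A M)))
      (m18sq3_red hdec y) := by
  obtain ⟨E, hEF, hEk, hE⟩ := m18sq_family hA M hℓM
  set bt := m18sq_basis_res hdec E hE hEF hEk with hbt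
  set ω : Fin (dedekindPsi M) → m18sq3_O A M :=
    fun i => ⟨m18sq_e E hEF i, m18v_Int_of_incl rfl⟩ with hω
  have hωbt : ∀ i, m18sq3_red hdec (ω i) = bt i := by
    intro i
    rw [hbt, m18sq_basis_res, Module.Basis.mk_apply]
    apply Subtype.ext
    show m18v_redL A M (m18sq_e E hEF i) = m18v_redq A (E i)
    exact m18v_redL_of_incl rfl
  have hd : finrank ↥(s24K⟮s24j M⟯) (s24F M) = Fintype.card (Fin (dedekindPsi M)) := by
    rw [Fintype.card_fin]
    exact m18sq_finrank_bar hA hℓM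
  refine m18sq3_core (m18sq3_setup hdec) bt ω hωbt hd
    (R := ↥(Algebra.adjoin m18v_K ({(x : s24F M)} : Set (s24F M))))
    ?_ (Rk := ↥(Algebra.adjoin (m18v_k A) ({m18sq3_red hdec x} : Set (m18v_Ft A M))))
    ?_ ?_ y hy
  · intro r
    have hr : (r : s24F M) ∈ s24K⟮s24j M⟯ := by
      rw [← hxj]
      exact IntermediateField.algebra_adjoin_le_adjoin _ _ r.2
    exact ⟨⟨(r : s24F M), hr⟩, rfl⟩
  · intro c hc
    have hcx : ((c : ↥(s24K⟮s24j M⟯)) : s24F M) ∈ s24K⟮(x : s24F M)⟯ := by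
      rw [hxj]
      exact c.2
    have := m18sq3_closed (K := m18v_K) (x : s24F M) hx hcx hc
    exact ⟨⟨_, this⟩, rfl⟩
  · intro c r hr
    have hc : (((c : ↥(s24K⟮s24j M⟯)) : s24F M)) ∈
        Algebra.adjoin m18v_K ({(x : s24F M)} : Set (s24F M)) := by
      have : ((c : ↥(s24K⟮s24j M⟯)) : s24F M) = (r : s24F M) := hr.symm
      rw [this]
      exact r.2
    have := m18sq3_red_mem_adjoin hdec x hxt
      (⟨((c : ↥(s24K⟮s24j M⟯)) : s24F M), c.2⟩ : m18sq3_O A M) hc
    exact ⟨⟨_, this⟩, rfl⟩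

/-- **(SQ3) for `j`**: the reduction of a Gauss-integral element integral over `K[j]` is integral
over `k[j~]`. -/
theorem m18sq3_isIntegral {ℓ : ℕ} [Fact ℓ.Prime] (hA : A.LiesOverPrime ℓ) (hℓM : ¬ ℓ ∣ M)
    (hdec : m18sq_Dec A M) {y : s24F M} (hI : m18v_Int A M y)
    (hy : IsIntegral (Algebra.adjoin m18v_K ({s24j M} : Set (s24F M))) y) :
    IsIntegral (Algebra.adjoin (m18v_k A) ({m18sq_jt A M} : Set (m18v_Ft A M)))
      (m18sq_red hdec y) := by
  have hxt : Transcendental (m18v_k A) (m18sq3_red hdec (m18sq3_j A M)) := by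
    rw [m18sq3_red_j]
    exact m18sq_jt_transcendental
  have h := m18sq3_isIntegral_of hA hℓM hdec (m18sq3_j A M) (ana_transcendental M) hxt rfl
    ⟨y, hI⟩ hy
  rw [m18sq3_red_j] at h
  exact h

theorem m18sq3_ne_zero_of_transcendental {K F : Type*} [Field K] [Field F] [Algebra K F]
    {x : F} (hx : Transcendental K x) : x ≠ 0 := by
  rintro rfl
  exact hx isAlgebraic_zero

/-- `j⁻¹` is Gauss-integral. -/
theorem m18sq3_jinv_int (hdec : m18sq_Dec A M) : m18v_Int A M (s24j M)⁻¹ := by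
  refine m18sq_Int_inv_of_red_ne_zero hdec m18sq3_j_int ?_
  intro h0
  have h1 : m18sq_red hdec (s24j M) = 0 := Subtype.ext h0
  rw [m18sq3_red_j'] at h1
  exact m18sq3_ne_zero_of_transcendental (m18sq_jt_transcendental (A := A) (M := M)) h1

/-- `j⁻¹` as an element of the Gauss ring. -/
def m18sq3_jinv (hdec : m18sq_Dec A M) : m18sq3_O A M :=
  ⟨(s24j M)⁻¹, m18sq3_jinv_int hdec⟩

theorem m18sq3_jinv_coe (hdec : m18sq_Dec A M) :
    ((m18sq3_jinv hdec : m18sq3_O A M) : s24F M) = (s24j M)⁻¹ := rfl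

theorem m18sq3_red_jinv (hdec : m18sq_Dec A M) :
    m18sq3_red hdec (m18sq3_jinv hdec) = (m18sq_jt A M)⁻¹ := by
  have h1 : m18sq3_j A M * m18sq3_jinv hdec = 1 := by
    apply Subtype.ext
    show s24j M * (s24j M)⁻¹ = 1
    exact mul_inv_cancel₀ (m18sq3_ne_zero_of_transcendental (ana_transcendental M))
  have h2 := congrArg (m18sq3_red hdec) h1
  rw [map_mul, map_one, m18sq3_red_j] at h2
  exact eq_inv_of_mul_eq_one_right h2

theorem m18sq3_red_jinv' (hdec : m18sq_Dec A M) :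
    m18sq_red hdec (s24j M)⁻¹ = (m18sq_jt A M)⁻¹ :=
  m18sq3_red_jinv hdec

/-- **(SQ3) for `j⁻¹`**: the reduction of a Gauss-integral element integral over `K[j⁻¹]` is
integral over `k[j~⁻¹]`. -/
theorem m18sq3_isIntegral_inv {ℓ : ℕ} [Fact ℓ.Prime] (hA : A.LiesOverPrime ℓ) (hℓM : ¬ ℓ ∣ M)
    (hdec : m18sq_Dec A M) {y : s24F M} (hI : m18v_Int A M y)
    (hy : IsIntegral (Algebra.adjoin m18v_K ({(s24j M)⁻¹} : Set (s24F M))) y) :
    IsIntegral (Algebra.adjoin (m18v_k A) ({(m18sq_jt A M)⁻¹} : Set (m18v_Ft A M)))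
      (m18sq_red hdec y) := by
  have hxt : Transcendental (m18v_k A) (m18sq3_red hdec (m18sq3_jinv hdec)) := by
    rw [m18sq3_red_jinv]
    exact algaz_transcendental_inv m18sq_jt_transcendental
  have h := m18sq3_isIntegral_of hA hℓM hdec (m18sq3_jinv hdec)
    (algaz_transcendental_inv (ana_transcendental M)) hxt (algaz_adjoin_inv (s24j M))
    ⟨y, hI⟩ hy
  rw [m18sq3_red_jinv] at h
  exact h

/-- the reduction map is multiplicative on Gauss-integral elements. -/
theorem m18sq3_red_mul (hdec : m18sq_Dec A M) {y z : s24F M} (hy : m18v_Int A M y)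
    (hz : m18v_Int A M z) : m18sq_red hdec (y * z) = m18sq_red hdec y * m18sq_red hdec z :=
  (m18sq3_red hdec).map_mul ⟨y, hy⟩ ⟨z, hz⟩

theorem m18sq3_int_pow {y : s24F M} (hy : m18v_Int A M y) (n : ℕ) : m18v_Int A M (y ^ n) :=
  (m18sq3_O A M).pow_mem hy n

theorem m18sq3_red_pow (hdec : m18sq_Dec A M) {y : s24F M} (hy : m18v_Int A M y) (n : ℕ) :
    m18sq_red hdec (y ^ n) = m18sq_red hdec y ^ n :=
  (m18sq3_red hdec).map_pow ⟨y, hy⟩ n

/-- **(SQ3), the shape consumed by `RrSq.lean`**, for `x = j`: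
`red (V_n(j) ∩ O) ⊆ V_n(j~)`. -/
theorem m18sq3_h3 {ℓ : ℕ} [Fact ℓ.Prime] (hA : A.LiesOverPrime ℓ) (hℓM : ¬ ℓ ∣ M)
    (hdec : m18sq_Dec A M) (n : ℕ) (y : s24F M) (hI : m18v_Int A M y)
    (hy : y ∈ m18sq_V m18v_K (s24j M) n) :
    m18sq_red hdec y ∈ m18sq_V (m18v_k A) (m18sq_jt A M) n := by
  rw [m18sq_mem_V] at hy ⊢
  refine ⟨m18sq3_isIntegral hA hℓM hdec hI hy.1, ?_⟩
  have hI2 : m18v_Int A M (y * (s24j M)⁻¹ ^ n) :=
    m18v_Int_mul hI (m18sq3_int_pow (m18sq3_jinv_int hdec) n)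
  have h := m18sq3_isIntegral_inv hA hℓM hdec hI2 hy.2
  rw [m18sq3_red_mul hdec hI (m18sq3_int_pow (m18sq3_jinv_int hdec) n),
    m18sq3_red_pow hdec (m18sq3_jinv_int hdec), m18sq3_red_jinv'] at h
  exact h

/-- **(SQ3), the shape consumed by `RrSq.lean`**, for `x = j⁻¹`:
`red (V_n(j⁻¹) ∩ O) ⊆ V_n(j~⁻¹)`. -/
theorem m18sq3_h3_inv {ℓ : ℕ} [Fact ℓ.Prime] (hA : A.LiesOverPrime ℓ) (hℓM : ¬ ℓ ∣ M)
    (hdec : m18sq_Dec A M) (n : ℕ) (y : s24F M) (hI : m18v_Int A M y)
    (hy : y ∈ m18sq_V m18v_K (s24j M)⁻¹ n) :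
    m18sq_red hdec y ∈ m18sq_V (m18v_k A) (m18sq_jt A M)⁻¹ n := by
  rw [m18sq_mem_V] at hy ⊢
  rw [inv_inv] at hy ⊢
  refine ⟨m18sq3_isIntegral_inv hA hℓM hdec hI hy.1, ?_⟩
  have hI2 : m18v_Int A M (y * (s24j M) ^ n) :=
    m18v_Int_mul hI (m18sq3_int_pow m18sq3_j_int n)
  have h := m18sq3_isIntegral hA hℓM hdec hI2 hy.2
  rw [m18sq3_red_mul hdec hI (m18sq3_int_pow m18sq3_j_int n),
    m18sq3_red_pow hdec m18sq3_j_int, m18sq3_red_j'] at h
  exact h

end Fermat.Agent.M18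

end
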