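/-
M18 (S18 project), block (SQ6), part 5 (lead), prefix `m18sq6_`.

**(SQ6) at a level divisible by `4`**, odd residue characteristic: the genus of the function
field of `X₀(N')` over `ℚ̄` is at most the genus of the function field over the residue field,
`ℓ(W_j) ≤ ℓ(W~_{j~})`.  The separability of `F~ / k(j~)` is an instance hypothesis.
-/
import Mathlib
import Fermat.Agent.M18.Sq6Tow
import Fermat.Agent.M18.CuspM4F
import Fermat.Agent.M18.CuspMain
import Fermat.Agent.M18.SqDeg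
import Fermat.Agent.M18.RrGb
import Fermat.Agent.M18.ResField

set_option autoImplicit false
set_option linter.unusedSectionVars false
set_option linter.unusedVariables false
set_option linter.style.haveILetI false
set_option synthInstance.maxHeartbeats 400000

noncomputable section

namespace Fermat.Agent.M18

open AlgebraicCurve IntermediateField Module ModularCurve Polynomial Fermat.Agent.S24

/-- **(SQ6), `4 ∣ N'`**. -/
theorem m18sq6_lvl4 (A : ValuationSubring m18v_K) {ℓ : ℕ} [Fact ℓ.Prime]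
    (hA : A.LiesOverPrime ℓ) (N' : ℕ) [NeZero N'] (h4 : 4 ∣ N') (hℓ : ¬ ℓ ∣ N')
    [hsep : Algebra.IsSeparable ↥((m18v_k A)⟮m18sq_jt A N'⟯) (m18v_Ft A N')] :
    finrank s24K (riemannRochSpace (m18rr_W (K := s24K) (s24j N')))
      ≤ finrank (m18v_k A) (riemannRochSpace (m18rr_W (K := m18v_k A) (m18sq_jt A N'))) := by
  haveI : IsAlgClosed (m18v_k A) := m18rf_isAlgClosed A
  have hℓ2 : ¬ ℓ ∣ 2 := by
    intro h
    exact hℓ (h.trans ((by norm_num : (2 : ℕ) ∣ 4).trans h4))
  have h2 : (2 : m18v_k A) ≠ 0 := by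
    have := m18rf_natCast_ne_zero A ℓ hA hℓ2
    simpa using this
  have hNk : ((N' : ℕ) : m18v_k A) ≠ 0 := m18rf_natCast_ne_zero A ℓ hA hℓ
  have hP : ∀ (p : ℕ) [NeZero p], p.Prime → p ∣ N' →
      Nonempty (Fermat.Agent.M28.M28PrimeData (m18v_k A) p) :=
    fun p _ hp _ => m18rf_primeData A p hp
  obtain ⟨hfd, hdeg⟩ := m18sq_finrank_res (A := A) (M := N') hA hℓ
  haveI := hfd
  have hcusp := (m18cusp_main (m18v_k A) N' hNk hP).2
  have hj : Transcendental (m18v_k A) (m18sq_jt A N') := m18sq_jt_transcendental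
  have hrel : m18sq_jt A N' * aeval (m18cm_t4F (m18v_k A) N' h2 h4) (m18cm_Den4 (m18v_k A))
      = aeval (m18cm_t4F (m18v_k A) N' h2 h4) (m18cm_Num4 (m18v_k A)) := by
    rw [m18cm_aeval_Num4, m18cm_aeval_Den4]
    exact m18cm_t4F_rel (m18v_k A) N' h2 h4
  have hDen0 : m18cm_Den4 (m18v_k A) ≠ 0 := (m18cm_Den4_monic (m18v_k A)).ne_zero
  have hdegND : (m18cm_Den4 (m18v_k A)).natDegree < (m18cm_Num4 (m18v_k A)).natDegree := by
    rw [m18cm_Num4_natDegree]
    exact lt_of_le_of_lt (m18cm_Den4_natDegree_le (m18v_k A)) (by norm_num)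
  exact m18sq6_main_tow (m18sq_jt A N') hj (m18cm_t4F (m18v_k A) N' h2 h4)
    (m18cm_t4F_transcendental (m18v_k A) N' h2 h4)
    (m18cm_Num4 (m18v_k A)) (m18cm_Den4 (m18v_k A)) (m18cm_Num4_monic (m18v_k A)) hDen0 hdegND
    hrel (m := 2) (by norm_num) (m18cm_a4 (m18v_k A)) (m18cm_a4_injective (m18v_k A) h2)
    (m18cm_main4 (m18v_k A) N' h2 h4) N' (Or.inl h4) hdeg
    (by rw [m18cm_Num4_natDegree]) hcusp _ (m18rr_genus_X0 N')

end Fermat.Agent.M18

end
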