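/-
M18 (S18 project), block (SQ6), final form (lead), prefix `m18sq6_`.

* `m18sq6_main`         : at every level `N'` prime to `ℓ` and divisible by `4` or by `9`:
  `ℓ(W_j)` over `ℚ̄` is at most `ℓ(W~_{j~})` over the residue field (`g(N') ≤ g~(N')`);
* `m18sq6_exists_level` : every level `N` prime to `ℓ` divides such a level `N'`.
-/
import Mathlib
import Fermat.Agent.M18.Sq6Lvl4
import Fermat.Agent.M18.Sq6Lvl9
import Fermat.Agent.M18.CuspSepR

set_option autoImplicit false
set_option linter.unusedSectionVars false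
set_option linter.unusedVariables false
set_option linter.style.haveILetI false
set_option synthInstance.maxHeartbeats 400000

noncomputable section

namespace Fermat.Agent.M18

open AlgebraicCurve IntermediateField Module ModularCurve Polynomial Fermat.Agent.S24

/-- **(SQ6)**: `g(N') ≤ g~(N')` at every level `N'` prime to `ℓ` and divisible by `4` or `9`. -/
theorem m18sq6_main (A : ValuationSubring m18v_K) {ℓ : ℕ} [Fact ℓ.Prime]
    (hA : A.LiesOverPrime ℓ) (N' : ℕ) [NeZero N'] (hN' : 4 ∣ N' ∨ 9 ∣ N') (hℓ : ¬ ℓ ∣ N') :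
    finrank s24K (riemannRochSpace (m18rr_W (K := s24K) (s24j N')))
      ≤ finrank (m18v_k A) (riemannRochSpace (m18rr_W (K := m18v_k A) (m18sq_jt A N'))) := by
  haveI := m18cusp_isSeparable_res (A := A) (M := N') hA hℓ
  rcases hN' with h4 | h9
  · exact m18sq6_lvl4 A hA N' h4 hℓ
  · exact m18sq6_lvl9 A hA N' h9 hℓ

/-- every level prime to `ℓ` divides a level prime to `ℓ` which is divisible by `4` or `9`. -/
theorem m18sq6_exists_level (ℓ : ℕ) [hℓ : Fact ℓ.Prime] (N : ℕ) [NeZero N] (hℓN : ¬ ℓ ∣ N) :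
    ∃ N' : ℕ, N' ≠ 0 ∧ N ∣ N' ∧ ¬ ℓ ∣ N' ∧ (4 ∣ N' ∨ 9 ∣ N') := by
  by_cases h2 : ℓ = 2
  · refine ⟨9 * N, Nat.mul_ne_zero (by norm_num) (NeZero.ne N), Dvd.intro_left 9 rfl, ?_,
      Or.inr (Dvd.intro N rfl)⟩
    intro h
    rcases (Nat.Prime.dvd_mul hℓ.out).mp h with h1 | h1
    · rw [h2] at h1
      norm_num at h1
    · exact hℓN h1
  · refine ⟨4 * N, Nat.mul_ne_zero (by norm_num) (NeZero.ne N), Dvd.intro_left 4 rfl, ?_,
      Or.inl (Dvd.intro N rfl)⟩
    intro h
    rcases (Nat.Prime.dvd_mul hℓ.out).mp h with h1 | h1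
    · have h4 : ℓ ∣ 2 ^ 2 := by norm_num; exact h1
      have := (Nat.Prime.dvd_of_dvd_pow hℓ.out h4)
      exact h2 ((Nat.prime_dvd_prime_iff_eq hℓ.out Nat.prime_two).mp this)
    · exact hℓN h1

end Fermat.Agent.M18

end
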