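import Fermat.Agent.M18.RrSqInst
import Fermat.Agent.M18.SqLat2
import Fermat.Agent.M18.Sq6Main

/-!
# M18 / (SQ7), final form at a level `N'` divisible by `4` or `9` and prime to `ℓ`

The only hypotheses left are the two integrality transfers (SQ3) `h3` (chart `j`) and `h3'`
(chart `j⁻¹`), in the shape of `SqLat2.lean`.

* `m18rr_genus_eq`   : `g~(N') = g(N')`;
* `m18rr_sq7_main`   : every `b ∈ F~_{N'}` integral over `k[j~]` is the reduction of a
  Gauss-integral `y ∈ F_{N'}` integral over `ℚ̄[j]`;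
* `m18rr_sq7_main_inv` : the same in the chart `j⁻¹`;
* `m18rr_sq7_main_V`, `m18rr_sq7_main_inv_V` : the forms with pole control.
-/

set_option autoImplicit false
set_option linter.style.haveILetI false
set_option linter.unusedSectionVars false
set_option linter.unusedVariables false
set_option linter.deprecated false
set_option synthInstance.maxHeartbeats 400000
set_option maxHeartbeats 1600000

noncomputable section

namespace Fermat.Agent.M18

open AlgebraicCurve ModularCurve IntermediateField Module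
open Fermat.Agent.S20 Fermat.Agent.S24

variable {A : ValuationSubring m18v_K} {ℓ : ℕ} [Fact ℓ.Prime]

/-- **(SQ5) + (SQ6)**: `g~(N') = g(N')`. -/
theorem m18rr_genus_eq (hA : A.LiesOverPrime ℓ) (N' : ℕ) [NeZero N'] (hN' : 4 ∣ N' ∨ 9 ∣ N')
    (hℓ : ¬ ℓ ∣ N')
    (h3 : ∀ x : s24F N', m18v_Int A N' x →
      IsIntegral (Algebra.adjoin m18v_K ({s24j N'} : Set (s24F N'))) x →
      IsIntegral (Algebra.adjoin (m18v_k A) ({m18sq_jt A N'} : Set (m18v_Ft A N')))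
        (m18sq_red (m18sq_dec hA hℓ) x))
    (h3' : ∀ x : s24F N', m18v_Int A N' x →
      IsIntegral (Algebra.adjoin m18v_K ({(s24j N')⁻¹} : Set (s24F N'))) x →
      IsIntegral (Algebra.adjoin (m18v_k A) ({(m18sq_jt A N')⁻¹} : Set (m18v_Ft A N')))
        (m18sq_red (m18sq_dec hA hℓ) x)) :
    finrank (m18v_k A) (riemannRochSpace (m18rr_W (K := m18v_k A) (m18sq_jt A N')))
      = finrank m18v_K (riemannRochSpace (m18rr_W (K := m18v_K) (s24j N'))) :=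
  le_antisymm
    (m18rr_sq5_X0 hA hℓ (m18cusp_isSeparable_res hA hℓ)
      (fun n y hI hV => m18sq_red_mem_V (m18sq_dec hA hℓ) h3 h3' n y hV hI))
    (m18sq6_main A hA N' hN' hℓ)

/-- **(SQ7)**, chart `j`. -/
theorem m18rr_sq7_main (hA : A.LiesOverPrime ℓ) (N' : ℕ) [NeZero N'] (hN' : 4 ∣ N' ∨ 9 ∣ N')
    (hℓ : ¬ ℓ ∣ N')
    (h3 : ∀ x : s24F N', m18v_Int A N' x →
      IsIntegral (Algebra.adjoin m18v_K ({s24j N'} : Set (s24F N'))) x →
      IsIntegral (Algebra.adjoin (m18v_k A) ({m18sq_jt A N'} : Set (m18v_Ft A N')))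
        (m18sq_red (m18sq_dec hA hℓ) x))
    (h3' : ∀ x : s24F N', m18v_Int A N' x →
      IsIntegral (Algebra.adjoin m18v_K ({(s24j N')⁻¹} : Set (s24F N'))) x →
      IsIntegral (Algebra.adjoin (m18v_k A) ({(m18sq_jt A N')⁻¹} : Set (m18v_Ft A N')))
        (m18sq_red (m18sq_dec hA hℓ) x))
    (b : m18v_Ft A N')
    (hb : IsIntegral (Algebra.adjoin (m18v_k A) ({m18sq_jt A N'} : Set (m18v_Ft A N'))) b) :
    ∃ y : s24F N', m18v_Int A N' y ∧
      IsIntegral (Algebra.adjoin m18v_K ({s24j N'} : Set (s24F N'))) y ∧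
      m18sq_red (m18sq_dec hA hℓ) y = b :=
  m18rr_sq7_X0 hA hℓ (m18cusp_isSeparable_res hA hℓ) (m18sq6_main A hA N' hN' hℓ)
    (fun n y hI hV => m18sq_red_mem_V (m18sq_dec hA hℓ) h3 h3' n y hV hI) b hb

/-- **(SQ7)**, chart `j⁻¹`. -/
theorem m18rr_sq7_main_inv (hA : A.LiesOverPrime ℓ) (N' : ℕ) [NeZero N']
    (hN' : 4 ∣ N' ∨ 9 ∣ N') (hℓ : ¬ ℓ ∣ N')
    (h3 : ∀ x : s24F N', m18v_Int A N' x →
      IsIntegral (Algebra.adjoin m18v_K ({s24j N'} : Set (s24F N'))) x →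
      IsIntegral (Algebra.adjoin (m18v_k A) ({m18sq_jt A N'} : Set (m18v_Ft A N')))
        (m18sq_red (m18sq_dec hA hℓ) x))
    (h3' : ∀ x : s24F N', m18v_Int A N' x →
      IsIntegral (Algebra.adjoin m18v_K ({(s24j N')⁻¹} : Set (s24F N'))) x →
      IsIntegral (Algebra.adjoin (m18v_k A) ({(m18sq_jt A N')⁻¹} : Set (m18v_Ft A N')))
        (m18sq_red (m18sq_dec hA hℓ) x))
    (b : m18v_Ft A N')
    (hb : IsIntegral (Algebra.adjoin (m18v_k A) ({(m18sq_jt A N')⁻¹} : Set (m18v_Ft A N'))) b) :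
    ∃ y : s24F N', m18v_Int A N' y ∧
      IsIntegral (Algebra.adjoin m18v_K ({(s24j N')⁻¹} : Set (s24F N'))) y ∧
      m18sq_red (m18sq_dec hA hℓ) y = b :=
  m18rr_sq7_X0_inv hA hℓ (m18cusp_isSeparable_res hA hℓ) (m18sq6_main A hA N' hN' hℓ)
    (fun n y hI hV => m18sq_red_mem_V_inv (m18sq_dec hA hℓ) h3 h3' n y hV hI) b hb

/-- **(SQ7)** with pole control, chart `j`. -/
theorem m18rr_sq7_main_V (hA : A.LiesOverPrime ℓ) (N' : ℕ) [NeZero N'] (hN' : 4 ∣ N' ∨ 9 ∣ N')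
    (hℓ : ¬ ℓ ∣ N')
    (h3 : ∀ x : s24F N', m18v_Int A N' x →
      IsIntegral (Algebra.adjoin m18v_K ({s24j N'} : Set (s24F N'))) x →
      IsIntegral (Algebra.adjoin (m18v_k A) ({m18sq_jt A N'} : Set (m18v_Ft A N')))
        (m18sq_red (m18sq_dec hA hℓ) x))
    (h3' : ∀ x : s24F N', m18v_Int A N' x →
      IsIntegral (Algebra.adjoin m18v_K ({(s24j N')⁻¹} : Set (s24F N'))) x →
      IsIntegral (Algebra.adjoin (m18v_k A) ({(m18sq_jt A N')⁻¹} : Set (m18v_Ft A N')))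
        (m18sq_red (m18sq_dec hA hℓ) x))
    (n : ℕ) (hn : 2 * finrank (m18v_k A)
      (riemannRochSpace (m18rr_W (K := m18v_k A) (m18sq_jt A N'))) ≤ n)
    (b : m18v_Ft A N') (hb : b ∈ m18sq_V (m18v_k A) (m18sq_jt A N') n) :
    ∃ y : s24F N', m18v_Int A N' y ∧ y ∈ m18sq_V m18v_K (s24j N') n ∧
      m18sq_red (m18sq_dec hA hℓ) y = b :=
  m18rr_sq7_X0_V hA hℓ (m18cusp_isSeparable_res hA hℓ) (m18sq6_main A hA N' hN' hℓ)
    (fun n y hI hV => m18sq_red_mem_V (m18sq_dec hA hℓ) h3 h3' n y hV hI) n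
    (le_trans (Nat.mul_le_mul_left 2 (m18sq6_main A hA N' hN' hℓ)) hn) hn b hb

/-- **(SQ7)** with pole control, chart `j⁻¹`. -/
theorem m18rr_sq7_main_inv_V (hA : A.LiesOverPrime ℓ) (N' : ℕ) [NeZero N']
    (hN' : 4 ∣ N' ∨ 9 ∣ N') (hℓ : ¬ ℓ ∣ N')
    (h3 : ∀ x : s24F N', m18v_Int A N' x →
      IsIntegral (Algebra.adjoin m18v_K ({s24j N'} : Set (s24F N'))) x →
      IsIntegral (Algebra.adjoin (m18v_k A) ({m18sq_jt A N'} : Set (m18v_Ft A N')))
        (m18sq_red (m18sq_dec hA hℓ) x))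
    (h3' : ∀ x : s24F N', m18v_Int A N' x →
      IsIntegral (Algebra.adjoin m18v_K ({(s24j N')⁻¹} : Set (s24F N'))) x →
      IsIntegral (Algebra.adjoin (m18v_k A) ({(m18sq_jt A N')⁻¹} : Set (m18v_Ft A N')))
        (m18sq_red (m18sq_dec hA hℓ) x))
    (n : ℕ) (hn : 2 * finrank (m18v_k A)
      (riemannRochSpace (m18rr_W (K := m18v_k A) (m18sq_jt A N'))) ≤ n)
    (b : m18v_Ft A N') (hb : b ∈ m18sq_V (m18v_k A) (m18sq_jt A N')⁻¹ n) :
    ∃ y : s24F N', m18v_Int A N' y ∧ y ∈ m18sq_V m18v_K (s24j N')⁻¹ n ∧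
      m18sq_red (m18sq_dec hA hℓ) y = b :=
  m18rr_sq7_X0_inv_V hA hℓ (m18cusp_isSeparable_res hA hℓ) (m18sq6_main A hA N' hN' hℓ)
    (fun n y hI hV => m18sq_red_mem_V_inv (m18sq_dec hA hℓ) h3 h3' n y hV hI) n
    (le_trans (Nat.mul_le_mul_left 2 (m18sq6_main A hA N' hN' hℓ)) hn) hn b hb

end Fermat.Agent.M18

end
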