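import Fermat.Agent.M18.VLift
import Fermat.Agent.M18.RrSq7
import Fermat.Agent.M18.Sq3Main

/-!
# M18 / plumbing: the lifting hypotheses `hlift`, `hlifti` of `m18nrm_main_of_lift`

Owner helper3, prefix `m18v_`.

* `m18v_sq7`, `m18v_sq7_inv`: (SQ7) at a level `N'` divisible by `4` or `9` and prime to `ℓ`,
  without hypotheses ((SQ3) plugged in).
* `m18v_LiftProp x xt I red`: the abstract two-level lifting property (the integrality is over
  `K[x]`, `x : F`, for elements of the larger field `F'`).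
* `m18v_liftProp_of`: from the lifting property inside `F'`.
* `m18v_hlift`, `m18v_hlifti`: the concrete statements for `F_N ⊂ F_{N'}`, for ANY algebra
  structures `F_N → F_{N'}`, `F~_N → F~_{N'}` mapping `j` to `j` (instances as hypotheses).
-/

set_option autoImplicit false
set_option synthInstance.maxHeartbeats 400000
set_option maxHeartbeats 1600000
set_option linter.unusedSectionVars false
set_option linter.unusedVariables false
set_option linter.style.haveILetI false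

noncomputable section

open HahnSeries IntermediateField AlgebraicCurve ModularCurve Fermat.Agent.S24

namespace Fermat.Agent.M18

section abstract

variable {K F F' k Fk Fk' : Type*} [Field K] [Field F] [Field F'] [Field k] [Field Fk]
  [Field Fk'] [Algebra K F] [Algebra K F'] [Algebra F F'] [IsScalarTower K F F']
  [Algebra k Fk] [Algebra k Fk'] [Algebra Fk Fk'] [IsScalarTower k Fk Fk']

/-- the two-level lifting property: every element of `Fk'` integral over `k[xt]` (`xt : Fk`) is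
the reduction of a Gauss-integral element of `F'` integral over `K[x]` (`x : F`). -/
def m18v_LiftProp (x : F) (xt : Fk) (I : F' → Prop) (red : F' → Fk') : Prop :=
  ∀ t : Fk', IsIntegral (Algebra.adjoin k ({xt} : Set Fk)) t →
    ∃ y : F', I y ∧ IsIntegral (Algebra.adjoin K ({x} : Set F)) y ∧ red y = t

theorem m18v_liftProp_iff (x : F) (xt : Fk) (I : F' → Prop) (red : F' → Fk') :
    m18v_LiftProp (K := K) (k := k) x xt I red ↔
      ∀ t : Fk', IsIntegral (Algebra.adjoin k ({xt} : Set Fk)) t →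
        ∃ y : F', I y ∧ IsIntegral (Algebra.adjoin K ({x} : Set F)) y ∧ red y = t := Iff.rfl

/-- the two-level lifting property from the lifting property inside `F'`. -/
theorem m18v_liftProp_of (x : F) (x' : F') (hx : algebraMap F F' x = x') (xt : Fk) (xt' : Fk')
    (hxt : algebraMap Fk Fk' xt = xt') (I : F' → Prop) (red : F' → Fk')
    (h : ∀ t : Fk', IsIntegral (Algebra.adjoin k ({xt'} : Set Fk')) t →
      ∃ y : F', I y ∧ IsIntegral (Algebra.adjoin K ({x'} : Set F')) y ∧ red y = t) :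
    m18v_LiftProp (K := K) (k := k) x xt I red := by
  intro t ht
  rw [m18v_isIntegral_adjoin_of_map xt xt' hxt] at ht
  obtain ⟨y, hI, hy, hr⟩ := h t ht
  exact ⟨y, hI, (m18v_isIntegral_adjoin_of_map x x' hx y).2 hy, hr⟩

/-- the twin for the charts `x⁻¹`. -/
theorem m18v_liftProp_inv_of (x : F) (x' : F') (hx : algebraMap F F' x = x') (xt : Fk)
    (xt' : Fk') (hxt : algebraMap Fk Fk' xt = xt') (I : F' → Prop) (red : F' → Fk')
    (h : ∀ t : Fk', IsIntegral (Algebra.adjoin k ({xt'⁻¹} : Set Fk')) t →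
      ∃ y : F', I y ∧ IsIntegral (Algebra.adjoin K ({x'⁻¹} : Set F')) y ∧ red y = t) :
    m18v_LiftProp (K := K) (k := k) x⁻¹ xt⁻¹ I red := by
  intro t ht
  rw [m18v_isIntegral_adjoin_inv_of_map xt xt' hxt] at ht
  obtain ⟨y, hI, hy, hr⟩ := h t ht
  exact ⟨y, hI, (m18v_isIntegral_adjoin_inv_of_map x x' hx y).2 hy, hr⟩

/-- the subtype form consumed by `m18nrm_main_of_lift`. -/
theorem m18v_liftProp_subring (x : F) (xt : Fk) (I : F' → Prop) (red : F' → Fk')
    (h : m18v_LiftProp (K := K) (k := k) x xt I red)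
    (O' : Subring F') (red' : O' →+* Fk') (hO' : ∀ y : F', I y → y ∈ O')
    (hred' : ∀ b : O', red' b = red (b : F')) :
    ∀ t : Fk', IsIntegral (Algebra.adjoin k ({xt} : Set Fk)) t →
      ∃ b : O', IsIntegral (Algebra.adjoin K ({x} : Set F)) (b : F') ∧ red' b = t := by
  intro t ht
  obtain ⟨y, hI, hy, hr⟩ := h t ht
  exact ⟨⟨y, hO' y hI⟩, hy, by rw [hred']; exact hr⟩

end abstract

section concrete

variable {A : ValuationSubring m18v_K} {ℓ : ℕ} [Fact ℓ.Prime]

/-- **(SQ7)**, chart `j`, without hypotheses. -/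
theorem m18v_sq7 (hA : A.LiesOverPrime ℓ) (N' : ℕ) [NeZero N'] (hN' : 4 ∣ N' ∨ 9 ∣ N')
    (hℓ : ¬ ℓ ∣ N') (b : m18v_Ft A N')
    (hb : IsIntegral (Algebra.adjoin (m18v_k A) ({m18sq_jt A N'} : Set (m18v_Ft A N'))) b) :
    ∃ y : s24F N', m18v_Int A N' y ∧
      IsIntegral (Algebra.adjoin m18v_K ({s24j N'} : Set (s24F N'))) y ∧
      m18sq_red (m18sq_dec hA hℓ) y = b :=
  m18rr_sq7_main hA N' hN' hℓ
    (fun x hI hx => m18sq3_isIntegral hA hℓ (m18sq_dec hA hℓ) hI hx)
    (fun x hI hx => m18sq3_isIntegral_inv hA hℓ (m18sq_dec hA hℓ) hI hx) b hb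

/-- **(SQ7)**, chart `j⁻¹`, without hypotheses. -/
theorem m18v_sq7_inv (hA : A.LiesOverPrime ℓ) (N' : ℕ) [NeZero N'] (hN' : 4 ∣ N' ∨ 9 ∣ N')
    (hℓ : ¬ ℓ ∣ N') (b : m18v_Ft A N')
    (hb : IsIntegral (Algebra.adjoin (m18v_k A) ({(m18sq_jt A N')⁻¹} : Set (m18v_Ft A N'))) b) :
    ∃ y : s24F N', m18v_Int A N' y ∧
      IsIntegral (Algebra.adjoin m18v_K ({(s24j N')⁻¹} : Set (s24F N'))) y ∧
      m18sq_red (m18sq_dec hA hℓ) y = b :=
  m18rr_sq7_main_inv hA N' hN' hℓ
    (fun x hI hx => m18sq3_isIntegral hA hℓ (m18sq_dec hA hℓ) hI hx)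
    (fun x hI hx => m18sq3_isIntegral_inv hA hℓ (m18sq_dec hA hℓ) hI hx) b hb

variable {N : ℕ} [NeZero N]

/-- **`hlift`** for `F_N ⊂ F_{N'}`. -/
theorem m18v_hlift (hA : A.LiesOverPrime ℓ) (N' : ℕ) [NeZero N'] (hN' : 4 ∣ N' ∨ 9 ∣ N')
    (hℓ : ¬ ℓ ∣ N')
    [Algebra (m18v_F N) (m18v_F N')] [IsScalarTower m18v_K (m18v_F N) (m18v_F N')]
    [Algebra (m18v_Ft A N) (m18v_Ft A N')]
    [IsScalarTower (m18v_k A) (m18v_Ft A N) (m18v_Ft A N')]
    (hj : algebraMap (m18v_F N) (m18v_F N') (s24j N) = s24j N')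
    (hjt : algebraMap (m18v_Ft A N) (m18v_Ft A N') (m18sq_jt A N) = m18sq_jt A N') :
    m18v_LiftProp (K := m18v_K) (k := m18v_k A) (s24j N) (m18sq_jt A N) (m18v_Int A N')
      (m18sq_red (m18sq_dec hA hℓ)) :=
  m18v_liftProp_of (s24j N) (s24j N') hj (m18sq_jt A N) (m18sq_jt A N') hjt _ _
    (fun t ht => m18v_sq7 hA N' hN' hℓ t ht)

/-- **`hlifti`** for `F_N ⊂ F_{N'}`. -/
theorem m18v_hlifti (hA : A.LiesOverPrime ℓ) (N' : ℕ) [NeZero N'] (hN' : 4 ∣ N' ∨ 9 ∣ N')
    (hℓ : ¬ ℓ ∣ N')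
    [Algebra (m18v_F N) (m18v_F N')] [IsScalarTower m18v_K (m18v_F N) (m18v_F N')]
    [Algebra (m18v_Ft A N) (m18v_Ft A N')]
    [IsScalarTower (m18v_k A) (m18v_Ft A N) (m18v_Ft A N')]
    (hj : algebraMap (m18v_F N) (m18v_F N') (s24j N) = s24j N')
    (hjt : algebraMap (m18v_Ft A N) (m18v_Ft A N') (m18sq_jt A N) = m18sq_jt A N') :
    m18v_LiftProp (K := m18v_K) (k := m18v_k A) (s24j N)⁻¹ (m18sq_jt A N)⁻¹ (m18v_Int A N')
      (m18sq_red (m18sq_dec hA hℓ)) :=
  m18v_liftProp_inv_of (s24j N) (s24j N') hj (m18sq_jt A N) (m18sq_jt A N') hjt _ _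
    (fun t ht => m18v_sq7_inv hA N' hN' hℓ t ht)

end concrete

end Fermat.Agent.M18

end
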