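import Fermat.Agent.M18.DifElts
import Fermat.Agent.M18.N1Inst
import Fermat.Agent.M18.Sq3Main
import Fermat.Agent.M18.Sq6Main
import Fermat.Agent.M18.VLift2

/-!
# M18: the final assembly of S18

* `m18dif_setup_lvl` : the two-level setup `F_N ⊂ F_{N'}`, `F~_N ⊂ F~_{N'}` (Gauss rings and
  reductions are compatible);
* `m18dif_S18_level` : the statement of S18 from an auxiliary level `N'` (divisible by `N`,
  prime to `ℓ`, divisible by `4` or `9`);
* `m18dif_S18_final` : **the statement of S18**, without hypotheses.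
-/

set_option autoImplicit false
set_option linter.deprecated false
set_option linter.unusedSectionVars false
set_option linter.unusedVariables false
set_option linter.style.haveILetI false
set_option synthInstance.maxHeartbeats 400000
set_option maxHeartbeats 1600000

noncomputable section

namespace Fermat.Agent.M18

open AlgebraicCurve ModularCurve IntermediateField Module
open Fermat.Agent.S20 Fermat.Agent.S24

variable {A : ValuationSubring m18v_K} {N : ℕ} [NeZero N]

/-- the two-level setup: the Gauss ring of level `N` maps into the Gauss ring of level `N'`,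
compatibly with the reductions. -/
theorem m18dif_setup_lvl (h : ModularCurve.ReductionInputsModL A N)
    (N' : ℕ) [NeZero N'] (hNN' : N ∣ N') (hdec' : m18sq_Dec A N') :
    letI := m18n1_algBar hNN'
    letI := m18n1_alg (m18v_k A) hNN'
    m18nrm_Setup (m18v_gauss h).O (m18v_gauss h).red (m18sq3_O A N') (m18sq3_red hdec') := by
  letI := m18n1_algBar hNN'
  letI := m18n1_alg (m18v_k A) hNN'
  have hmem : ∀ y : (m18v_gauss h).O,
      m18v_Int A N' (algebraMap (m18v_F N) (m18v_F N') (y : m18v_F N)) ∧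
      m18v_redL A N' (algebraMap (m18v_F N) (m18v_F N') (y : m18v_F N))
        = m18v_redL A N (y : m18v_F N) := by
    rintro ⟨⟨x, hx⟩, hI⟩
    have hx' : x ∈ modularFunctionFieldBar N' := m18n1_bar_le hNN' hx
    have e : algebraMap (m18v_F N) (m18v_F N') (⟨x, hx⟩ : m18v_F N) = ⟨x, hx'⟩ :=
      m18n1_bar_map_mk hNN' x hx
    show m18v_Int A N' (algebraMap (m18v_F N) (m18v_F N') (⟨x, hx⟩ : m18v_F N)) ∧
      m18v_redL A N' (algebraMap (m18v_F N) (m18v_F N') (⟨x, hx⟩ : m18v_F N))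
        = m18v_redL A N (⟨x, hx⟩ : m18v_F N)
    rw [e]
    exact m18sq_Int_level_of hNN' hx hx' hI
  refine ⟨fun y hy => ?_, fun y => (hmem y).1, fun y => ?_⟩
  · by_contra hne
    exact hy ((m18v_gauss h).isUnit_of_red_ne_zero y hne)
  · apply Subtype.ext
    rw [m18n1_coe (m18v_k A) hNN']
    exact (hmem y).2

/-- **S18** from an auxiliary level. -/
theorem m18dif_S18_level {ℓ : ℕ} [Fact ℓ.Prime] (hℓN : ¬ ℓ ∣ N) (hA : A.LiesOverPrime ℓ)
    (h : ModularCurve.ReductionInputsModL A N)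
    (N' : ℕ) [NeZero N'] (hNN' : N ∣ N') (hℓ : ¬ ℓ ∣ N') (hN' : 4 ∣ N' ∨ 9 ∣ N')
    (m : ℕ) (hm : ¬ ℓ ∣ m) (z : ModularCurve.JZero N)
    (hmz : m • z = 0) (hz : ModularCurve.reductionModL A N z = 0) : z = 0 := by
  letI := m18n1_algBar hNN'
  letI := m18n1_alg (m18v_k A) hNN'
  haveI := m18n1_bar_tower hNN'
  haveI := m18n1_tower (m18v_k A) hNN'
  haveI := m18n1_fd_res hA hNN' hℓ
  haveI := m18n1_sep_res hA hNN' hℓ
  have hsurj' : Function.Surjective (m18sq3_red (A := A) (M := N') (m18sq_dec hA hℓ)) := by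
    intro y
    obtain ⟨x, hx, hxy⟩ := m18sq_red_surjective (m18sq_dec hA hℓ) y
    exact ⟨⟨x, hx⟩, hxy⟩
  have hS := m18dif_setup_lvl h N' hNN' (m18sq_dec hA hℓ)
  have hlift := m18v_hlift (N := N) hA N' hN' hℓ (m18n1_map_sj hNN') (m18n1_map_jt A hNN')
  have hlifti := m18v_hlifti (N := N) hA N' hN' hℓ (m18n1_map_sj hNN') (m18n1_map_jt A hNN')
  refine m18dif_S18_of_lift (F' := m18v_F N') (Fk' := m18v_Ft A N') hℓN hA h hS hsurj'
    (m18n1_finrank hA hNN' hℓ) ?_ ?_ m hm z hmz hz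
  · intro t ht
    obtain ⟨y, hy1, hy2, hy3⟩ := hlift t ht
    exact ⟨⟨y, hy1⟩, hy2, hy3⟩
  · intro t ht
    obtain ⟨y, hy1, hy2, hy3⟩ := hlifti t ht
    exact ⟨⟨y, hy1⟩, hy2, hy3⟩

/-- **S18**: a torsion point of `J₀(N)` of order prime to `ℓ` with trivial reduction mod `ℓ`
is trivial. -/
theorem m18dif_S18_final {ℓ : ℕ} [Fact ℓ.Prime] (hℓN : ¬ ℓ ∣ N) (hA : A.LiesOverPrime ℓ)
    (h : ModularCurve.ReductionInputsModL A N)
    (m : ℕ) (hm : ¬ ℓ ∣ m) (z : ModularCurve.JZero N)
    (hmz : m • z = 0) (hz : ModularCurve.reductionModL A N z = 0) : z = 0 := by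
  obtain ⟨N', hN'0, hNN', hℓ, hN'⟩ := m18sq6_exists_level ℓ N hℓN
  haveI : NeZero N' := ⟨hN'0⟩
  exact m18dif_S18_level hℓN hA h N' hNN' hℓ hN' m hm z hmz hz

end Fermat.Agent.M18

end
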