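import Fermat.Agent.S24.AlgADedekind

/-!
# M18 / (R3) bridge, part 1: places of a Dedekind domain and exponents of ideals

`R` a Dedekind domain with fraction field `F`, containing the constants `K`;
`v_w := Place.ofHeightOneSpectrum w` the prelude place of a height one prime `w` of `R`
(S24: `algad_ord_eq`, `algad_exists_heightOneSpectrum`, `algad_ofHeightOneSpectrum_injective`).

* `m18dif_ord_eq_multiplicity` : `v_w.ord b = multiplicity w (b)` for `b ∈ R`, `b ≠ 0`;
* `m18dif_mem_pow_iff` : `b ∈ w ^ n ↔ b = 0 ∨ n ≤ v_w.ord b`;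
* `m18dif_multiplicity_le_ord`, `m18dif_exists_ord_eq_multiplicity` : the exponent of `w` in a
  nonzero ideal `I` is the minimum of `v_w.ord` on `I`;
* `m18dif_exists_place_eq` : a place `v` whose valuation ring contains `R` is `v_w` for a unique
  `w`, and `w = {b | b = 0 ∨ 0 < v.ord b}`.
-/

set_option autoImplicit false
set_option linter.deprecated false
set_option linter.style.haveILetI false
set_option linter.unusedSectionVars false
set_option linter.unusedVariables false

noncomputable section

namespace Fermat.Agent.M18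

open AlgebraicCurve IsDedekindDomain WithZero Fermat.Agent.S24

section dedekind

variable {K F : Type*} [Field K] [Field F] [Algebra K F]
variable {R : Type*} [CommRing R] [IsDedekindDomain R] [Algebra R F] [IsFractionRing R F]
  [Algebra K R] [IsScalarTower K R F]

/-- The order of `b ∈ R` at the place of `w` is the exponent of `w` in `(b)`. -/
theorem m18dif_ord_eq_multiplicity (w : HeightOneSpectrum R) {b : R} (hb : b ≠ 0) :
    (Place.ofHeightOneSpectrum (K := K) (F := F) w).ord (algebraMap R F b) =
      (multiplicity w.asIdeal (Ideal.span {b}) : ℤ) := by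
  rw [algad_ord_eq (K := K) w, w.valuation_of_algebraMap,
    w.intValuation_eq_exp_neg_multiplicity hb, log_exp, neg_neg]

/-- The order of `b ∈ R` at the place of `w` is nonnegative. -/
theorem m18dif_ord_nonneg (w : HeightOneSpectrum R) (b : R) :
    0 ≤ (Place.ofHeightOneSpectrum (K := K) (F := F) w).ord (algebraMap R F b) := by
  rcases eq_or_ne b 0 with rfl | hb
  · simp
  · rw [m18dif_ord_eq_multiplicity (K := K) w hb]
    exact Int.natCast_nonneg _

/-- `emultiplicity` form of `m18dif_ord_eq_multiplicity`. -/
theorem m18dif_emultiplicity_span (w : HeightOneSpectrum R) {b : R} (hb : b ≠ 0) :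
    emultiplicity w.asIdeal (Ideal.span {b}) =
      (((Place.ofHeightOneSpectrum (K := K) (F := F) w).ord (algebraMap R F b)).toNat : ℕ∞) := by
  have hsr : Ideal.span {b} ≠ 0 := Submodule.span_singleton_eq_bot.mp.mt hb
  have hfm : FiniteMultiplicity w.asIdeal (Ideal.span {b}) :=
    FiniteMultiplicity.of_prime_left w.prime hsr
  rw [m18dif_ord_eq_multiplicity (K := K) w hb, Int.toNat_natCast,
    hfm.emultiplicity_eq_multiplicity]

/-- Membership in a power of `w` in terms of the order at the place of `w`. -/
theorem m18dif_mem_pow_iff (w : HeightOneSpectrum R) (b : R) (n : ℕ) :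
    b ∈ w.asIdeal ^ n ↔
      b = 0 ∨ (n : ℤ) ≤ (Place.ofHeightOneSpectrum (K := K) (F := F) w).ord (algebraMap R F b) := by
  rcases eq_or_ne b 0 with rfl | hb
  · simp
  · rw [or_iff_right hb, ← w.intValuation_le_pow_iff_mem, algad_ord_eq (K := K) w,
      w.valuation_of_algebraMap]
    have hne : w.intValuation b ≠ 0 := w.intValuation_ne_zero b hb
    conv_lhs => rw [← exp_log hne]
    rw [exp_le_exp]
    omega

/-- Membership in `w` in terms of the order at the place of `w`. -/
theorem m18dif_mem_iff (w : HeightOneSpectrum R) (b : R) :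
    b ∈ w.asIdeal ↔
      b = 0 ∨ 0 < (Place.ofHeightOneSpectrum (K := K) (F := F) w).ord (algebraMap R F b) := by
  have h := m18dif_mem_pow_iff (K := K) (F := F) w b 1
  rw [pow_one] at h
  rw [h]
  constructor
  · rintro (h0 | h1)
    · exact Or.inl h0
    · right
      have : ((1 : ℕ) : ℤ) = 1 := rfl
      omega
  · rintro (h0 | h1)
    · exact Or.inl h0
    · right
      have : ((1 : ℕ) : ℤ) = 1 := rfl
      omega

/-- The exponent of `w` in a nonzero ideal is a lower bound for the orders of its elements. -/
theorem m18dif_multiplicity_le_ord (w : HeightOneSpectrum R) {I : Ideal R} (hI : I ≠ ⊥)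
    {b : R} (hbI : b ∈ I) (hb : b ≠ 0) :
    (multiplicity w.asIdeal I : ℤ) ≤
      (Place.ofHeightOneSpectrum (K := K) (F := F) w).ord (algebraMap R F b) := by
  have hfm : FiniteMultiplicity w.asIdeal I := FiniteMultiplicity.of_prime_left w.prime hI
  have hdvd : w.asIdeal ^ multiplicity w.asIdeal I ∣ I := pow_multiplicity_dvd _ _
  have hmem : b ∈ w.asIdeal ^ multiplicity w.asIdeal I := Ideal.dvd_iff_le.mp hdvd hbI
  exact ((m18dif_mem_pow_iff (K := K) (F := F) w b _).mp hmem).resolve_left hb

/-- The exponent of `w` in a nonzero ideal is attained by the order of one of its elements. -/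
theorem m18dif_exists_ord_eq_multiplicity (w : HeightOneSpectrum R) {I : Ideal R}
    (hI : I ≠ ⊥) :
    ∃ b ∈ I, b ≠ 0 ∧
      (Place.ofHeightOneSpectrum (K := K) (F := F) w).ord (algebraMap R F b) =
        (multiplicity w.asIdeal I : ℤ) := by
  have hfm : FiniteMultiplicity w.asIdeal I := FiniteMultiplicity.of_prime_left w.prime hI
  have hnd : ¬ w.asIdeal ^ (multiplicity w.asIdeal I + 1) ∣ I :=
    hfm.not_pow_dvd_of_multiplicity_lt (Nat.lt_succ_self _)
  rw [Ideal.dvd_iff_le, SetLike.not_le_iff_exists] at hnd
  obtain ⟨b, hbI, hbn⟩ := hnd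
  have hb0 : b ≠ 0 := by
    rintro rfl
    exact hbn (Ideal.zero_mem _)
  refine ⟨b, hbI, hb0, le_antisymm ?_ (m18dif_multiplicity_le_ord (K := K) w hI hbI hb0)⟩
  by_contra hlt
  rw [not_le] at hlt
  apply hbn
  rw [m18dif_mem_pow_iff (K := K) (F := F) w b]
  right
  push_cast
  omega

/-- A place whose valuation ring contains `R` is the place of a unique height one prime. -/
theorem m18dif_exists_place_eq (v : Place K F)
    (hR : ∀ r : R, algebraMap R F r ∈ v.toValuationSubring) :
    ∃! w : HeightOneSpectrum R, Place.ofHeightOneSpectrum (K := K) (F := F) w = v := by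
  obtain ⟨w, hw, -⟩ := algad_exists_heightOneSpectrum (R := R) v hR
  refine ⟨w, hw, fun w' hw' => ?_⟩
  exact algad_ofHeightOneSpectrum_injective (K := K) (F := F) (hw'.trans hw.symm)

end dedekind

end Fermat.Agent.M18
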