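import Fermat.Agent.M18.DifPlaceW
import Fermat.Agent.M18.RrExtra

/-!
# M18 / (R3) bridge, part 4: consequences for the divisor of `dx`

Standing hypotheses: `K` algebraically closed (any characteristic), `x : F` transcendental,
`F / K(x)` finite separable; `A = K[x]`, `W = m18rr_W x`.

* `m18dif_unramified_of_W_eq_zero` : a finite place `v` with `W v = 0` is unramified over `K(x)`:
  `ord_v (x - c) = 1` for the value `c` of `x` at `v`;
* `m18dif_dexp_ge_fin`, `m18dif_dexp_ge_inf` : Dedekind's bound for `m18rr_dexp`;
* `m18dif_hurwitz_ge` : the Hurwitz inequality `∑_{v ∈ T} (e_v - 1) ≤ deg W + 2 [F : K(x)]`;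
* `m18dif_W_le_ord_derivative` : for `θ` integral over `A` generating `F / K(x)`, with minimal
  polynomial `f` over `A`: `W v ≤ ord_v (f'(θ))` at every finite place `v`;
* `m18dif_W_eq_ord_derivative` : equality if some `b ∈ A` with `ord_v b = 0` multiplies the
  integral closure into `A[θ]`.
-/

set_option autoImplicit false
set_option linter.deprecated false
set_option linter.style.haveILetI false
set_option linter.unusedSectionVars false
set_option linter.unusedVariables false
set_option linter.overlappingInstances false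

noncomputable section

namespace Fermat.Agent.M18

open Fermat.Agent.S20 Fermat.Agent.S24
open AlgebraicCurve IntermediateField Polynomial IsDedekindDomain WithZero
open scoped IntermediateField.algebraAdjoinAdjoin

section place

variable {K F : Type*} [Field K] [Field F] [Algebra K F] [IsAlgClosed K]

/-- A finite place at which the divisor of `dx` vanishes is unramified over `K(x)`. -/
theorem m18dif_unramified_of_W_eq_zero (x : F) (hx : Transcendental K x)
    [FiniteDimensional K⟮x⟯ F] [Algebra.IsSeparable K⟮x⟯ F] (v : Place K F)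
    (hv : 0 ≤ v.ord x) (hW : m18rr_W (K := K) x v = 0) :
    ∃ c : K, v.ord (x - algebraMap K F c) = 1 := by
  obtain ⟨a, ha⟩ := m18rr_exists_val x hx v hv
  have h1 := m18dif_W_ge_fin (K := K) x hx v a ha
  refine ⟨a, ?_⟩
  omega

/-- Dedekind's bound for the different exponent `m18rr_dexp`, finite places. -/
theorem m18dif_dexp_ge_fin (x : F) (hx : Transcendental K x) [FiniteDimensional K⟮x⟯ F]
    [Algebra.IsSeparable K⟮x⟯ F] (v : Place K F) (a : K)
    (h : 0 < v.ord (x - algebraMap K F a)) :
    v.ord (x - algebraMap K F a) - 1 ≤ m18rr_dexp (K := K) x v := by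
  have hv : 0 ≤ v.ord x := m18dif_ord_nonneg_of_zero x v a h
  have h1 := m18dif_W_ge_fin (K := K) x hx v a h
  have h2 := m18rr_W_eq_dexp (K := K) x hx v
  rw [min_eq_right hv] at h2
  omega

/-- Dedekind's bound for the different exponent `m18rr_dexp`, poles: `e - 1 ≤ dexp` with
`e = - ord_v x`. -/
theorem m18dif_dexp_ge_inf (x : F) (hx : Transcendental K x) [FiniteDimensional K⟮x⟯ F]
    [Algebra.IsSeparable K⟮x⟯ F] (v : Place K F) (h : v.ord x < 0) :
    - v.ord x - 1 ≤ m18rr_dexp (K := K) x v := by
  have h1 := m18dif_W_ge_inf (K := K) x hx v h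
  have h2 := m18rr_W_eq_dexp (K := K) x hx v
  rw [min_eq_left h.le] at h2
  omega

/-- **Hurwitz inequality.**  Let `T` be a finite set of places and `e v` the ramification index
of `v ∈ T` over `K(x)` (`e v = ord_v (x - a)` at a zero of `x - a`, `e v = - ord_v x` at a pole).
Then `∑_{v ∈ T} (e v - 1) ≤ deg (div dx) + 2 [F : K(x)]`. -/
theorem m18dif_hurwitz_ge (x : F) (hx : Transcendental K x) [FiniteDimensional K⟮x⟯ F]
    [Algebra.IsSeparable K⟮x⟯ F] (T : Finset (Place K F)) (e : Place K F → ℤ)
    (he : ∀ v ∈ T, (∃ a : K, 0 < v.ord (x - algebraMap K F a) ∧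
        e v = v.ord (x - algebraMap K F a)) ∨ (v.ord x < 0 ∧ e v = - v.ord x)) :
    ∑ v ∈ T, (e v - 1) ≤
      Divisor.degree (m18rr_W (K := K) x) + 2 * (Module.finrank K⟮x⟯ F : ℤ) := by
  refine m18rr_hurwitz_ge x hx T (fun v => e v - 1) (fun v hvT => ?_)
  rcases he v hvT with ⟨a, ha, hea⟩ | ⟨hp, hep⟩
  · show e v - 1 ≤ _
    rw [hea]
    exact m18dif_dexp_ge_fin x hx v a ha
  · show e v - 1 ≤ _
    rw [hep]
    exact m18dif_dexp_ge_inf x hx v hp

end place

section derivative

variable {K F : Type*} [Field K] [Field F] [Algebra K F] [IsAlgClosed K]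

/-- **(P3) Different ≤ derivative, place form.**  If `θ` is integral over `A = K[x]` and
generates `F / K(x)`, with minimal polynomial `f` over `A`, then `W_x(v) ≤ ord_v (f'(θ))` at
every finite place `v`. -/
theorem m18dif_W_le_ord_derivative (x : F) (hx : Transcendental K x) [FiniteDimensional K⟮x⟯ F]
    [Algebra.IsSeparable K⟮x⟯ F] (θ : F)
    (hint : IsIntegral (Algebra.adjoin K ({x} : Set F)) θ)
    (hgen : Algebra.adjoin K⟮x⟯ ({θ} : Set F) = ⊤)
    (v : Place K F) (hv : 0 ≤ v.ord x) :
    m18rr_W (K := K) x v ≤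
      v.ord (Polynomial.aeval θ
        (Polynomial.derivative (minpoly (Algebra.adjoin K ({x} : Set F)) θ))) := by
  obtain ⟨h1, h2, h3, h4⟩ := m18dif_inst (K := K) x hx
  haveI := h1
  haveI := h2
  haveI := h3
  haveI := h4
  obtain ⟨P, rfl⟩ := m18dif_exists_prime (K := K) x hx v hv
  set θB : integralClosure (Algebra.adjoin K ({x} : Set F)) F := ⟨θ, hint⟩ with hθB
  have hval : algebraMap (integralClosure (Algebra.adjoin K ({x} : Set F)) F) F θB = θ := rfl
  have hinj : Function.Injective
      (algebraMap (integralClosure (Algebra.adjoin K ({x} : Set F)) F) F) :=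
    Subtype.val_injective
  have hmin : minpoly (Algebra.adjoin K ({x} : Set F)) θ =
      minpoly (Algebra.adjoin K ({x} : Set F)) θB := by
    rw [← hval]
    exact minpoly.algebraMap_eq hinj θB
  have h5 := m18dif_different_le_ord_derivative (K := K) (F := F)
    (A := Algebra.adjoin K ({x} : Set F)) K⟮x⟯ P θB (by rw [hval]; exact hgen)
  rw [← Polynomial.aeval_algebraMap_apply, hval, ← hmin] at h5
  rw [m18dif_W_eq_multiplicity (K := K) x hx P]
  exact h5

/-- **(P2) Different = derivative away from the conductor, place form.**  If moreover some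
`b ∈ A` with `ord_v b = 0` multiplies every element integral over `A` into `A[θ]`, then
`W_x(v) = ord_v (f'(θ))`. -/
theorem m18dif_W_eq_ord_derivative (x : F) (hx : Transcendental K x) [FiniteDimensional K⟮x⟯ F]
    [Algebra.IsSeparable K⟮x⟯ F] (θ : F)
    (hint : IsIntegral (Algebra.adjoin K ({x} : Set F)) θ)
    (hgen : Algebra.adjoin K⟮x⟯ ({θ} : Set F) = ⊤)
    (v : Place K F) (hv : 0 ≤ v.ord x)
    (b : Algebra.adjoin K ({x} : Set F)) (hb0 : v.ord (b : F) = 0) (hbne : (b : F) ≠ 0)
    (hb : ∀ y : F, IsIntegral (Algebra.adjoin K ({x} : Set F)) y →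
      (b : F) * y ∈ Algebra.adjoin (Algebra.adjoin K ({x} : Set F)) ({θ} : Set F)) :
    m18rr_W (K := K) x v =
      v.ord (Polynomial.aeval θ
        (Polynomial.derivative (minpoly (Algebra.adjoin K ({x} : Set F)) θ))) := by
  obtain ⟨h1, h2, h3, h4⟩ := m18dif_inst (K := K) x hx
  haveI := h1
  haveI := h2
  haveI := h3
  haveI := h4
  obtain ⟨P, rfl⟩ := m18dif_exists_prime (K := K) x hx v hv
  set θB : integralClosure (Algebra.adjoin K ({x} : Set F)) F := ⟨θ, hint⟩ with hθB
  have hval : algebraMap (integralClosure (Algebra.adjoin K ({x} : Set F)) F) F θB = θ := rfl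
  have hinj : Function.Injective
      (algebraMap (integralClosure (Algebra.adjoin K ({x} : Set F)) F) F) :=
    Subtype.val_injective
  have hmin : minpoly (Algebra.adjoin K ({x} : Set F)) θ =
      minpoly (Algebra.adjoin K ({x} : Set F)) θB := by
    rw [← hval]
    exact minpoly.algebraMap_eq hinj θB
  -- the conductor is not contained in `P`
  have hbP : algebraMap (Algebra.adjoin K ({x} : Set F))
      (integralClosure (Algebra.adjoin K ({x} : Set F)) F) b ∉ P.asIdeal := by
    intro hmem
    rw [m18dif_mem_iff (K := K) (F := F) P] at hmem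
    rcases hmem with h0 | h0
    · apply hbne
      have := congrArg (algebraMap (integralClosure (Algebra.adjoin K ({x} : Set F)) F) F) h0
      rw [map_zero] at this
      exact this
    · have h6 : algebraMap (integralClosure (Algebra.adjoin K ({x} : Set F)) F) F
          (algebraMap (Algebra.adjoin K ({x} : Set F))
            (integralClosure (Algebra.adjoin K ({x} : Set F)) F) b) = (b : F) := rfl
      rw [h6, hb0] at h0
      exact lt_irrefl _ h0
  have hbB : ∀ y : integralClosure (Algebra.adjoin K ({x} : Set F)) F,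
      algebraMap (Algebra.adjoin K ({x} : Set F))
        (integralClosure (Algebra.adjoin K ({x} : Set F)) F) b * y ∈
        Algebra.adjoin (Algebra.adjoin K ({x} : Set F)) ({θB} : Set _) := by
    intro y
    have h7 := hb (y : F) y.2
    have h8 : Algebra.adjoin (Algebra.adjoin K ({x} : Set F)) ({θ} : Set F) =
        (Algebra.adjoin (Algebra.adjoin K ({x} : Set F)) ({θB} : Set _)).map
          (integralClosure (Algebra.adjoin K ({x} : Set F)) F).val := by
      rw [AlgHom.map_adjoin, Set.image_singleton]
      rfl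
    rw [h8] at h7
    obtain ⟨z, hz, hzy⟩ := h7
    have h9 : z = algebraMap (Algebra.adjoin K ({x} : Set F))
        (integralClosure (Algebra.adjoin K ({x} : Set F)) F) b * y := by
      apply Subtype.ext
      exact hzy
    rw [← h9]
    exact hz
  have hc := m18dif_conductor_not_le (A := Algebra.adjoin K ({x} : Set F)) P θB b hbP hbB
  have h5 := m18dif_different_eq_ord_derivative (K := K) (F := F)
    (A := Algebra.adjoin K ({x} : Set F)) K⟮x⟯ P θB (by rw [hval]; exact hgen) hc
  rw [← Polynomial.aeval_algebraMap_apply, hval, ← hmin] at h5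
  rw [m18dif_W_eq_multiplicity (K := K) x hx P]
  exact h5.symm

end derivative

end Fermat.Agent.M18
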