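import Mathlib

/-!
# M18 / (RRl-2), part 2: the different in towers (exponent form)

Pure Mathlib.  For Dedekind domains `A ⊆ B ⊆ C` (finite, torsion free, separable fraction fields)
and nonzero primes `P''` of `C` over `P` of `B`:

`v_{P''}(𝔇_{C/A}) = v_{P''}(𝔇_{C/B}) + e(P''/P) * v_P(𝔇_{B/A})`.
-/

set_option autoImplicit false
set_option linter.style.haveILetI false
set_option linter.overlappingInstances false
set_option linter.unusedSectionVars false
set_option linter.deprecated false

noncomputable section

namespace Fermat.Agent.M18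

open nonZeroDivisors

attribute [local instance] FractionRing.liftAlgebra FractionRing.isScalarTower_liftAlgebra

section tower

variable (A B : Type*) {C : Type*} [CommRing A] [CommRing B] [CommRing C]
  [Algebra A B] [Algebra B C] [Algebra A C] [IsScalarTower A B C]
variable [IsDedekindDomain A] [IsDedekindDomain B] [IsDedekindDomain C]
  [Module.IsTorsionFree A B] [Module.Finite A B]
  [Module.IsTorsionFree A C] [Module.Finite A C]
  [Module.IsTorsionFree B C] [Module.Finite B C]

/-- **(D2) Transitivity of the different, exponent form.** -/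
theorem m18dif_tower [Algebra.IsSeparable (FractionRing A) (FractionRing C)]
    (P : Ideal B) (P'' : Ideal C) [P.IsPrime] [P''.IsPrime] (hP : P ≠ ⊥) (hP'' : P'' ≠ ⊥)
    [P''.LiesOver P] :
    emultiplicity P'' (differentIdeal A C) =
      emultiplicity P'' (differentIdeal B C) +
        (Ideal.ramificationIdx' P P'' : ℕ∞) * emultiplicity P (differentIdeal A B) := by
  haveI : Algebra.IsSeparable (FractionRing A) (FractionRing B) :=
    Algebra.isSeparable_tower_bot_of_isSeparable _ _ (FractionRing C)
  have hprime'' : Prime P'' := Ideal.prime_of_isPrime hP'' inferInstance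
  have hprime : Prime P := Ideal.prime_of_isPrime hP inferInstance
  have hD : differentIdeal A B ≠ ⊥ := differentIdeal_ne_bot
  rw [differentIdeal_eq_differentIdeal_mul_differentIdeal A B C, emultiplicity_mul hprime'',
    Ideal.IsDedekindDomain.emultiplicity_map_eq_ramificationIdx'_mul hD hprime.irreducible
      hprime''.irreducible hP'']

/-- Lower bound from the tower formula: `e(P''/P) * v_P(𝔇_{B/A}) ≤ v_{P''}(𝔇_{C/A})`. -/
theorem m18dif_tower_ge [Algebra.IsSeparable (FractionRing A) (FractionRing C)]
    (P : Ideal B) (P'' : Ideal C) [P.IsPrime] [P''.IsPrime] (hP : P ≠ ⊥) (hP'' : P'' ≠ ⊥)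
    [P''.LiesOver P] :
    (Ideal.ramificationIdx' P P'' : ℕ∞) * emultiplicity P (differentIdeal A B) ≤
      emultiplicity P'' (differentIdeal A C) := by
  rw [m18dif_tower A B P P'' hP hP'']
  exact le_add_self

/-- Lower bound from the tower formula: `v_{P''}(𝔇_{C/B}) ≤ v_{P''}(𝔇_{C/A})`. -/
theorem m18dif_tower_ge_top [Algebra.IsSeparable (FractionRing A) (FractionRing C)]
    (P : Ideal B) (P'' : Ideal C) [P.IsPrime] [P''.IsPrime] (hP : P ≠ ⊥) (hP'' : P'' ≠ ⊥)
    [P''.LiesOver P] :
    emultiplicity P'' (differentIdeal B C) ≤ emultiplicity P'' (differentIdeal A C) := by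
  rw [m18dif_tower A B P P'' hP hP'']
  exact le_self_add

end tower

end Fermat.Agent.M18
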