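import Mathlib

/-!
# M18 / (RRl-2), part 1: local exponents of the different, tame and wild

Pure Mathlib, `A ⊆ B` Dedekind domains, `B` finite and torsion free over `A`, separable fraction
field extension.  For a maximal ideal `p ≠ ⊥` of `A` and a factorisation `p B = P ^ e * Q` with
`P ^ e` and `Q` coprime and `P` of residue degree one (`B = A + P`):

* `m18dif_pow_dvd_of_wild` : if `e = 0` in `A ⧸ p` (wild), then `P ^ e ∣ differentIdeal A B`;
* `m18dif_not_pow_dvd_of_tame` : if `e ≠ 0` in `A ⧸ p` (tame), then `¬ P ^ e ∣ differentIdeal A B`;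
* `m18dif_emultiplicity_of_tame` : in the tame case the exponent is exactly `e - 1`;
* `m18dif_le_emultiplicity_of_wild` : in the wild case the exponent is at least `e`.

The generic criterion `m18dif_dvd_iff_intTrace_mem` (`I ∣ differentIdeal A B` iff the trace maps
the cofactor of `I` in `p B` into `p`) is the common core.
-/

set_option autoImplicit false
set_option linter.style.haveILetI false
set_option linter.overlappingInstances false
set_option linter.unusedSectionVars false
set_option linter.deprecated false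

noncomputable section

namespace Fermat.Agent.M18

open nonZeroDivisors

attribute [local instance] FractionRing.liftAlgebra FractionRing.isScalarTower_liftAlgebra
  Ideal.Quotient.field

section core

variable (A : Type*) {B : Type*} [CommRing A] [CommRing B] [Algebra A B]
variable [IsDedekindDomain A] [IsDedekindDomain B]
  [Module.IsTorsionFree A B] [Module.Finite A B]

/-- If `p B = I * a` and the trace maps `a` into `p`, then `I` divides the different. -/
theorem m18dif_dvd_of_intTrace_mem [Algebra.IsSeparable (FractionRing A) (FractionRing B)]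
    {p : Ideal A} [p.IsMaximal] (hp : p ≠ ⊥) (I a : Ideal B)
    (ha : I * a = p.map (algebraMap A B))
    (h : ∀ x ∈ a, Algebra.intTrace A B x ∈ p) : I ∣ differentIdeal A B := by
  let K := FractionRing A
  let L := FractionRing B
  have : IsLocalization (Algebra.algebraMapSubmonoid B A⁰) L :=
    IsIntegralClosure.isLocalization _ K _ _
  have : FiniteDimensional K L := .of_isLocalization A B A⁰
  have hp' := (Ideal.map_eq_bot_iff_of_injective
    (FaithfulSMul.algebraMap_injective A B)).not.mpr hp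
  have habot : a ≠ ⊥ := fun ha' ↦ hp' (by simpa [ha'] using ha.symm)
  have hIbot : I ≠ ⊥ := by
    rintro rfl; apply hp'
    rw [← ha, Ideal.bot_mul]
  have hP : ((I :)⁻¹ : FractionalIdeal B⁰ L) = a / p.map (algebraMap A B) := by
    apply inv_involutive.injective
    simp only [← ha, FractionalIdeal.coeIdeal_mul, inv_div, mul_div_assoc]
    rw [div_self (by simpa), mul_one, inv_inv]
  rw [Ideal.dvd_iff_le, differentialIdeal_le_iff (K := K) (L := L) hIbot, hP,
    Submodule.map_le_iff_le_comap]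
  intro x hx
  rw [Submodule.restrictScalars_mem, FractionalIdeal.mem_coe,
    FractionalIdeal.mem_div_iff_of_ne_zero (by simpa using hp')] at hx
  rw [Submodule.mem_comap, LinearMap.coe_restrictScalars, ← FractionalIdeal.coe_one,
    ← div_self (G₀ := FractionalIdeal A⁰ K) (a := p) (by simpa using hp),
    FractionalIdeal.mem_coe, FractionalIdeal.mem_div_iff_of_ne_zero (by simpa using hp)]
  simp only [FractionalIdeal.mem_coeIdeal, forall_exists_index, and_imp,
    forall_apply_eq_imp_iff₂] at hx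
  intro y hy'
  obtain ⟨y, hy, rfl : algebraMap A K _ = _⟩ := (FractionalIdeal.mem_coeIdeal _).mp hy'
  obtain ⟨z, hz, hz'⟩ := hx _ (Ideal.mem_map_of_mem _ hy)
  have : Algebra.trace K L (algebraMap B L z) ∈ (p : FractionalIdeal A⁰ K) := by
    rw [← Algebra.algebraMap_intTrace (A := A)]
    exact ⟨Algebra.intTrace A B z, h z hz, rfl⟩
  rwa [mul_comm, ← smul_eq_mul, ← map_smul, Algebra.smul_def, mul_comm,
    ← IsScalarTower.algebraMap_apply, IsScalarTower.algebraMap_apply A B L, ← hz']

/-- Criterion: for `p B = I * a`, `I` divides the different iff the trace maps `a` into `p`. -/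
theorem m18dif_dvd_iff_intTrace_mem [Algebra.IsSeparable (FractionRing A) (FractionRing B)]
    {p : Ideal A} [p.IsMaximal] (hp : p ≠ ⊥) (I a : Ideal B)
    (ha : I * a = p.map (algebraMap A B)) :
    I ∣ differentIdeal A B ↔ ∀ x ∈ a, Algebra.intTrace A B x ∈ p := by
  constructor
  · intro hI x hx
    by_contra hn
    exact not_dvd_differentIdeal_of_intTrace_not_mem A I a ha x hx hn hI
  · exact m18dif_dvd_of_intTrace_mem A hp I a ha

end core

section resdeg

variable (A : Type*) {B : Type*} [CommRing A] [CommRing B] [Algebra A B]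
variable [IsDedekindDomain A] [IsDedekindDomain B]
  [Module.IsTorsionFree A B] [Module.Finite A B]

/-- In a coprime factorisation `p B = P ^ e * Q` with `e ≠ 0`, the exponent `e` is the
ramification index. -/
theorem m18dif_ramificationIdx_eq {p : Ideal A} (P Q : Ideal B) [P.IsPrime] (hPbot : P ≠ ⊥)
    {e : ℕ} (he : e ≠ 0) (hPQ : IsCoprime (P ^ e) Q)
    (hP : P ^ e * Q = Ideal.map (algebraMap A B) p) :
    Ideal.ramificationIdx' p P = e := by
  refine Ideal.ramificationIdx'_spec (hP.ge.trans Ideal.mul_le_left) ?_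
  intro hle
  rw [← hP, ← Ideal.dvd_iff_le, pow_succ] at hle
  have h1 : P ∣ Q := (mul_dvd_mul_iff_left (pow_ne_zero e hPbot)).mp hle
  have h2 : Q ≤ P := Ideal.dvd_iff_le.mp h1
  have h3 : P ^ e ≤ P := Ideal.pow_le_self he
  have h4 : (⊤ : Ideal B) ≤ P := by
    rw [← Ideal.isCoprime_iff_sup_eq.mp hPQ]
    exact sup_le h3 h2
  exact (Ideal.IsPrime.ne_top inferInstance) (top_le_iff.mp h4)

end resdeg

section trace

variable (A : Type*) {B : Type*} [CommRing A] [CommRing B] [Algebra A B]
variable [IsDedekindDomain A] [IsDedekindDomain B]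
  [Module.IsTorsionFree A B] [Module.Finite A B]

/-- Residue degree one: if `B = A + P`, then `B ⧸ P` is one-dimensional over `A ⧸ p`. -/
theorem m18dif_finrank_quot_eq_one {p : Ideal A} [p.IsMaximal] (P : Ideal B) [P.IsPrime]
    [Algebra (A ⧸ p) (B ⧸ P)] [IsScalarTower A (A ⧸ p) (B ⧸ P)]
    (hf : ∀ b : B, ∃ a : A, b - algebraMap A B a ∈ P) :
    Module.finrank (A ⧸ p) (B ⧸ P) = 1 := by
  rw [finrank_eq_one_iff']
  refine ⟨1, one_ne_zero, fun w => ?_⟩
  obtain ⟨b, rfl⟩ := Ideal.Quotient.mk_surjective w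
  obtain ⟨a, ha⟩ := hf b
  refine ⟨Ideal.Quotient.mk p a, ?_⟩
  rw [Algebra.smul_def, mul_one]
  have h1 : algebraMap (A ⧸ p) (B ⧸ P) (Ideal.Quotient.mk p a) = algebraMap A (B ⧸ P) a := by
    rw [IsScalarTower.algebraMap_apply A (A ⧸ p) (B ⧸ P)]
    rfl
  rw [h1, IsScalarTower.algebraMap_apply A B (B ⧸ P)]
  symm
  rw [Ideal.Quotient.algebraMap_eq, Ideal.Quotient.eq]
  exact ha

/-- Residue degree one: `B ⧸ P ^ e` has dimension `e` over `A ⧸ p`, where `e` is the ramification
index. -/
theorem m18dif_finrank_quot_pow {p : Ideal A} [p.IsMaximal] (P : Ideal B) [P.IsPrime]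
    (hPbot : P ≠ ⊥) (he : Ideal.ramificationIdx' p P ≠ 0)
    (hf : ∀ b : B, ∃ a : A, b - algebraMap A B a ∈ P) :
    Module.finrank (A ⧸ p) (B ⧸ P ^ Ideal.ramificationIdx' p P) = Ideal.ramificationIdx' p P := by
  haveI : NeZero (Ideal.ramificationIdx' p P) := ⟨he⟩
  letI : Algebra (A ⧸ p) (B ⧸ P) := Ideal.Quotient.algebraQuotientOfRamificationIdxNeZero p P
  haveI : IsScalarTower A (A ⧸ p) (B ⧸ P) := .of_algebraMap_eq' rfl
  have h1 := Ideal.finrank_prime_pow_ramificationIdx p P hPbot he
  rw [h1]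
  have h2 : Module.finrank (A ⧸ p) (B ⧸ P) = 1 := m18dif_finrank_quot_eq_one A P hf
  rw [h2, mul_one]

end trace

section key

variable (A : Type*) {B : Type*} [CommRing A] [CommRing B] [Algebra A B]
variable [IsDedekindDomain A] [IsDedekindDomain B]
  [Module.IsTorsionFree A B] [Module.Finite A B]

/-- **Key trace formula.**  Let `p B = P ^ e * Q` be a coprime factorisation with `e ≠ 0` and `P`
of residue degree one.  For `x ∈ Q` with `x ≡ a mod P` (`a ∈ A`), the trace of `x` is
`e * a` modulo `p`. -/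
theorem m18dif_mk_intTrace_eq {p : Ideal A} [p.IsMaximal] (P Q : Ideal B) [P.IsPrime]
    (hPbot : P ≠ ⊥) {e : ℕ} (he : e ≠ 0) (hPQ : IsCoprime (P ^ e) Q)
    (hP : P ^ e * Q = Ideal.map (algebraMap A B) p)
    (hf : ∀ b : B, ∃ a : A, b - algebraMap A B a ∈ P)
    (x : B) (hx : x ∈ Q) (a : A) (hxa : x - algebraMap A B a ∈ P) :
    Ideal.Quotient.mk p (Algebra.intTrace A B x) = (e : A ⧸ p) * Ideal.Quotient.mk p a := by
  obtain rfl : Ideal.ramificationIdx' p P = e := m18dif_ramificationIdx_eq A P Q hPbot he hPQ hP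
  letI : Algebra (A ⧸ p) (B ⧸ Q) := Ideal.Quotient.algebraQuotientOfLEComap (by
      rw [← Ideal.map_le_iff_le_comap, ← hP]
      exact Ideal.mul_le_right)
  haveI : IsScalarTower A (A ⧸ p) (B ⧸ Q) := .of_algebraMap_eq' rfl
  haveI : IsScalarTower A (A ⧸ p) (B ⧸ P ^ Ideal.ramificationIdx' p P) :=
    .of_algebraMap_eq' rfl
  haveI : Module.Finite (A ⧸ p) (B ⧸ Q) :=
    Module.Finite.of_restrictScalars_finite A (A ⧸ p) (B ⧸ Q)
  haveI : Module.Finite (A ⧸ p) (B ⧸ P ^ Ideal.ramificationIdx' p P) :=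
    Module.Finite.of_restrictScalars_finite A (A ⧸ p) (B ⧸ P ^ Ideal.ramificationIdx' p P)
  let E : (B ⧸ p.map (algebraMap A B)) ≃ₐ[A ⧸ p]
      ((B ⧸ P ^ Ideal.ramificationIdx' p P) × B ⧸ Q) :=
    { __ := (Ideal.quotEquivOfEq hP.symm).trans
        (Ideal.quotientMulEquivQuotientProd (P ^ Ideal.ramificationIdx' p P) Q hPQ),
      commutes' := Quotient.ind fun _ ↦ rfl }
  have hE : E (Ideal.Quotient.mk _ x) =
      (Ideal.Quotient.mk (P ^ Ideal.ramificationIdx' p P) x, 0) := by
    have h2 : (E (Ideal.Quotient.mk _ x)).2 = 0 := by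
      simpa [E, Ideal.Quotient.eq_zero_iff_mem] using hx
    have h1 : (E (Ideal.Quotient.mk _ x)).1 =
        Ideal.Quotient.mk (P ^ Ideal.ramificationIdx' p P) x := by
      simp [E]
    exact Prod.ext h1 h2
  rw [← Algebra.trace_quotient_eq_of_isDedekindDomain, ← Algebra.trace_eq_of_algEquiv E, hE,
    Algebra.trace_prod_apply]
  simp only [map_zero, add_zero]
  have hdecomp : Ideal.Quotient.mk (P ^ Ideal.ramificationIdx' p P) x =
      algebraMap (A ⧸ p) (B ⧸ P ^ Ideal.ramificationIdx' p P) (Ideal.Quotient.mk p a) +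
        Ideal.Quotient.mk (P ^ Ideal.ramificationIdx' p P) (x - algebraMap A B a) := by
    have h1 : algebraMap (A ⧸ p) (B ⧸ P ^ Ideal.ramificationIdx' p P) (Ideal.Quotient.mk p a) =
        Ideal.Quotient.mk (P ^ Ideal.ramificationIdx' p P) (algebraMap A B a) := rfl
    rw [h1, ← map_add]
    congr 1
    ring
  have hnil : Algebra.trace (A ⧸ p) (B ⧸ P ^ Ideal.ramificationIdx' p P)
      (Ideal.Quotient.mk (P ^ Ideal.ramificationIdx' p P) (x - algebraMap A B a)) = 0 := by
    rw [← isNilpotent_iff_eq_zero]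
    refine Algebra.isNilpotent_trace_of_isNilpotent ⟨Ideal.ramificationIdx' p P, ?_⟩
    rw [← map_pow, Ideal.Quotient.eq_zero_iff_mem]
    exact Ideal.pow_mem_pow hxa _
  rw [hdecomp, map_add, Algebra.trace_algebraMap, hnil, add_zero, nsmul_eq_mul,
    m18dif_finrank_quot_pow A P hPbot he hf]

end key

section main

variable (A : Type*) {B : Type*} [CommRing A] [CommRing B] [Algebra A B]
variable [IsDedekindDomain A] [IsDedekindDomain B]
  [Module.IsTorsionFree A B] [Module.Finite A B]

/-- **(D1) Wild bound.**  If `p B = P ^ e * Q` (coprime), `P` has residue degree one and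
`e = 0` in the residue field `A ⧸ p`, then `P ^ e` divides the different. -/
theorem m18dif_pow_dvd_of_wild [Algebra.IsSeparable (FractionRing A) (FractionRing B)]
    {p : Ideal A} [p.IsMaximal] (hp : p ≠ ⊥) (P Q : Ideal B) [P.IsPrime]
    (hPbot : P ≠ ⊥) {e : ℕ} (hPQ : IsCoprime (P ^ e) Q)
    (hP : P ^ e * Q = Ideal.map (algebraMap A B) p)
    (hf : ∀ b : B, ∃ a : A, b - algebraMap A B a ∈ P)
    (hwild : (e : A ⧸ p) = 0) : P ^ e ∣ differentIdeal A B := by
  rcases Nat.eq_zero_or_pos e with he | he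
  · subst he
    rw [pow_zero]
    exact one_dvd _
  refine m18dif_dvd_of_intTrace_mem A hp (P ^ e) Q hP ?_
  intro x hx
  obtain ⟨a, ha⟩ := hf x
  rw [← Ideal.Quotient.eq_zero_iff_mem,
    m18dif_mk_intTrace_eq A P Q hPbot he.ne' hPQ hP hf x hx a ha, hwild, zero_mul]

/-- **(D1') Tame exactness.**  If `p B = P ^ e * Q` (coprime), `e ≠ 0`, `P` has residue degree
one and `e ≠ 0` in the residue field `A ⧸ p`, then `P ^ e` does not divide the different. -/
theorem m18dif_not_pow_dvd_of_tame [Algebra.IsSeparable (FractionRing A) (FractionRing B)]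
    {p : Ideal A} [p.IsMaximal] (P Q : Ideal B) [P.IsPrime]
    (hPbot : P ≠ ⊥) {e : ℕ} (he : e ≠ 0) (hPQ : IsCoprime (P ^ e) Q)
    (hP : P ^ e * Q = Ideal.map (algebraMap A B) p)
    (hf : ∀ b : B, ∃ a : A, b - algebraMap A B a ∈ P)
    (htame : (e : A ⧸ p) ≠ 0) : ¬ P ^ e ∣ differentIdeal A B := by
  obtain ⟨i, hi, j, hj, hij⟩ := Ideal.isCoprime_iff_exists.mp hPQ
  have hj1 : j - algebraMap A B 1 ∈ P := by
    have : j - algebraMap A B 1 = -i := by
      rw [map_one, ← hij]
      ring
    rw [this]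
    exact P.neg_mem (Ideal.pow_le_self he hi)
  refine not_dvd_differentIdeal_of_intTrace_not_mem A (P ^ e) Q hP j hj ?_
  rw [← Ideal.Quotient.eq_zero_iff_mem,
    m18dif_mk_intTrace_eq A P Q hPbot he hPQ hP hf j hj 1 hj1, map_one, mul_one]
  exact htame

/-- Dedekind's lower bound in exponent form (Mathlib's `pow_sub_one_dvd_differentIdeal`). -/
theorem m18dif_pred_le_emultiplicity [Algebra.IsSeparable (FractionRing A) (FractionRing B)]
    {p : Ideal A} [p.IsMaximal] (hp : p ≠ ⊥) (P Q : Ideal B) {e : ℕ}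
    (hP : P ^ e * Q = Ideal.map (algebraMap A B) p) :
    ((e - 1 : ℕ) : ℕ∞) ≤ emultiplicity P (differentIdeal A B) :=
  le_emultiplicity_of_pow_dvd (pow_sub_one_dvd_differentIdeal A P e hp ⟨Q, hP.symm⟩)

/-- **Tame case, exact exponent**: the exponent of `P` in the different is `e - 1`. -/
theorem m18dif_emultiplicity_of_tame [Algebra.IsSeparable (FractionRing A) (FractionRing B)]
    {p : Ideal A} [p.IsMaximal] (hp : p ≠ ⊥) (P Q : Ideal B) [P.IsPrime]
    (hPbot : P ≠ ⊥) {e : ℕ} (he : e ≠ 0) (hPQ : IsCoprime (P ^ e) Q)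
    (hP : P ^ e * Q = Ideal.map (algebraMap A B) p)
    (hf : ∀ b : B, ∃ a : A, b - algebraMap A B a ∈ P)
    (htame : (e : A ⧸ p) ≠ 0) :
    emultiplicity P (differentIdeal A B) = ((e - 1 : ℕ) : ℕ∞) := by
  rw [emultiplicity_eq_coe]
  refine ⟨pow_sub_one_dvd_differentIdeal A P e hp ⟨Q, hP.symm⟩, ?_⟩
  rw [Nat.sub_add_cancel (Nat.one_le_iff_ne_zero.mpr he)]
  exact m18dif_not_pow_dvd_of_tame A P Q hPbot he hPQ hP hf htame

/-- **Wild case, lower bound**: the exponent of `P` in the different is at least `e`. -/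
theorem m18dif_le_emultiplicity_of_wild [Algebra.IsSeparable (FractionRing A) (FractionRing B)]
    {p : Ideal A} [p.IsMaximal] (hp : p ≠ ⊥) (P Q : Ideal B) [P.IsPrime]
    (hPbot : P ≠ ⊥) {e : ℕ} (hPQ : IsCoprime (P ^ e) Q)
    (hP : P ^ e * Q = Ideal.map (algebraMap A B) p)
    (hf : ∀ b : B, ∃ a : A, b - algebraMap A B a ∈ P)
    (hwild : (e : A ⧸ p) = 0) :
    (e : ℕ∞) ≤ emultiplicity P (differentIdeal A B) :=
  le_emultiplicity_of_pow_dvd (m18dif_pow_dvd_of_wild A hp P Q hPbot hPQ hP hf hwild)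

/-- Unramified case: exponent zero. -/
theorem m18dif_emultiplicity_of_unramified
    [Algebra.IsSeparable (FractionRing A) (FractionRing B)]
    {p : Ideal A} [p.IsMaximal] (hp : p ≠ ⊥) (P Q : Ideal B) [P.IsPrime]
    (hPbot : P ≠ ⊥) (hPQ : IsCoprime P Q)
    (hP : P * Q = Ideal.map (algebraMap A B) p)
    (hf : ∀ b : B, ∃ a : A, b - algebraMap A B a ∈ P) :
    emultiplicity P (differentIdeal A B) = 0 := by
  have h := m18dif_emultiplicity_of_tame A hp P Q hPbot (e := 1) one_ne_zero
    (by rwa [pow_one]) (by rwa [pow_one]) hf (by rw [Nat.cast_one]; exact one_ne_zero)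
  simpa using h

/-- Over an algebraically closed constant field every maximal ideal of `B` has residue degree
one: `B = A + P`. -/
theorem m18dif_resdeg_one (k : Type*) [Field k] [IsAlgClosed k] [Algebra k A] [Algebra k B]
    [IsScalarTower k A B] [Algebra.FiniteType k A] (P : Ideal B) [P.IsMaximal] :
    ∀ b : B, ∃ a : A, b - algebraMap A B a ∈ P := by
  intro b
  letI := Ideal.Quotient.field P
  haveI : Algebra.FiniteType A B := inferInstance
  haveI : Algebra.FiniteType k B := Algebra.FiniteType.trans ‹Algebra.FiniteType k A› ‹_›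
  haveI : Algebra.FiniteType k (B ⧸ P) :=
    Algebra.FiniteType.of_surjective (Ideal.Quotient.mkₐ k P) Ideal.Quotient.mk_surjective
  haveI : Module.Finite k (B ⧸ P) := finite_of_finite_type_of_isJacobsonRing k (B ⧸ P)
  obtain ⟨c, hc⟩ := (IsAlgClosed.algebraMap_bijective_of_isIntegral (k := k) (K := B ⧸ P)).2
    (Ideal.Quotient.mk P b)
  refine ⟨algebraMap k A c, ?_⟩
  rw [← IsScalarTower.algebraMap_apply, ← Ideal.Quotient.eq, ← hc]
  rfl

end main

section ramidx

variable (A : Type*) {B : Type*} [CommRing A] [CommRing B] [Algebra A B]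
variable [IsDedekindDomain A] [IsDedekindDomain B]
  [Module.IsTorsionFree A B] [Module.Finite A B]

/-- The coprime factorisation `p B = P ^ e * Q`, `e` the ramification index. -/
theorem m18dif_exists_coprime_factor {p : Ideal A} (hp : p ≠ ⊥) (P : Ideal B) [P.IsPrime]
    (hPbot : P ≠ ⊥) :
    ∃ Q : Ideal B, IsCoprime (P ^ Ideal.ramificationIdx' p P) Q ∧
      P ^ Ideal.ramificationIdx' p P * Q = Ideal.map (algebraMap A B) p := by
  have hp' := (Ideal.map_eq_bot_iff_of_injective
    (FaithfulSMul.algebraMap_injective A B)).not.mpr hp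
  haveI : P.IsMaximal := Ideal.IsPrime.isMaximal inferInstance hPbot
  obtain ⟨Q, h₁, h₂⟩ := Ideal.eq_prime_pow_mul_coprime hp' P
  rw [← Ideal.IsDedekindDomain.ramificationIdx'_eq_normalizedFactors_count hp' inferInstance
    hPbot] at h₂
  exact ⟨Q, (Ideal.isCoprime_iff_sup_eq.mpr h₁).pow_left, h₂.symm⟩

/-- Tame case in terms of the ramification index. -/
theorem m18dif_emultiplicity_of_tame' [Algebra.IsSeparable (FractionRing A) (FractionRing B)]
    {p : Ideal A} [p.IsMaximal] (hp : p ≠ ⊥) (P : Ideal B) [P.IsPrime] (hPbot : P ≠ ⊥)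
    (hf : ∀ b : B, ∃ a : A, b - algebraMap A B a ∈ P)
    (htame : ((Ideal.ramificationIdx' p P : ℕ) : A ⧸ p) ≠ 0) :
    emultiplicity P (differentIdeal A B) = ((Ideal.ramificationIdx' p P - 1 : ℕ) : ℕ∞) := by
  obtain ⟨Q, hPQ, hP⟩ := m18dif_exists_coprime_factor A hp P hPbot
  have he : Ideal.ramificationIdx' p P ≠ 0 := by
    intro h0
    rw [h0, Nat.cast_zero] at htame
    exact htame rfl
  exact m18dif_emultiplicity_of_tame A hp P Q hPbot he hPQ hP hf htame

/-- Wild case in terms of the ramification index. -/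
theorem m18dif_le_emultiplicity_of_wild' [Algebra.IsSeparable (FractionRing A) (FractionRing B)]
    {p : Ideal A} [p.IsMaximal] (hp : p ≠ ⊥) (P : Ideal B) [P.IsPrime] (hPbot : P ≠ ⊥)
    (hf : ∀ b : B, ∃ a : A, b - algebraMap A B a ∈ P)
    (hwild : ((Ideal.ramificationIdx' p P : ℕ) : A ⧸ p) = 0) :
    ((Ideal.ramificationIdx' p P : ℕ) : ℕ∞) ≤ emultiplicity P (differentIdeal A B) := by
  obtain ⟨Q, hPQ, hP⟩ := m18dif_exists_coprime_factor A hp P hPbot
  exact m18dif_le_emultiplicity_of_wild A hp P Q hPbot hPQ hP hf hwild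

/-- Dedekind's lower bound in terms of the ramification index. -/
theorem m18dif_pred_le_emultiplicity' [Algebra.IsSeparable (FractionRing A) (FractionRing B)]
    {p : Ideal A} [p.IsMaximal] (hp : p ≠ ⊥) (P : Ideal B) [P.IsPrime] (hPbot : P ≠ ⊥) :
    ((Ideal.ramificationIdx' p P - 1 : ℕ) : ℕ∞) ≤ emultiplicity P (differentIdeal A B) := by
  obtain ⟨Q, -, hP⟩ := m18dif_exists_coprime_factor A hp P hPbot
  exact m18dif_pred_le_emultiplicity A hp P Q hP

/-- The exponent of a nonzero prime in the different is finite. -/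
theorem m18dif_finiteMultiplicity [Algebra.IsSeparable (FractionRing A) (FractionRing B)]
    (P : Ideal B) [P.IsPrime] (hPbot : P ≠ ⊥) :
    FiniteMultiplicity P (differentIdeal A B) := by
  have hD : differentIdeal A B ≠ ⊥ := differentIdeal_ne_bot
  exact FiniteMultiplicity.of_prime_left (Ideal.prime_of_isPrime hPbot inferInstance) hD

end ramidx

end Fermat.Agent.M18
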