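/-
M18 (S18 project), block (GEN), concrete instantiation, part 2, owner helper5.  Prefix `m18inst_`.

`m18inst_S18_of3` : the statement of S18 from three inputs only,

* `hsep`  : separability of `F~_N / k(j~)`                                  [(CUSP), helper8];
* `htube` : no pole of `j` specialises to a non-pole of `j~`                  [(P5), helper3];
* `hle`   : `g ≤ g~` for the genera `ℓ(W_j)`, `ℓ(W~_{j~})`                      [(NRM) + (SQ)];

the Dedekind bound `e - 1 ≤ W~` of `m18inst_S18_of` is helper1's `m18dif_W_ge_fin`.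
-/
import Fermat.Agent.M18.GenInst
import Fermat.Agent.M18.DifPlaceW

set_option autoImplicit false
set_option linter.deprecated false
set_option linter.unusedSectionVars false
set_option linter.unusedVariables false
set_option linter.style.haveILetI false
set_option synthInstance.maxHeartbeats 400000
set_option maxHeartbeats 1600000

noncomputable section

namespace Fermat.Agent.M18

open AlgebraicCurve ModularCurve IntermediateField Module
open Fermat.Agent.S20 Fermat.Agent.S24

variable {A : ValuationSubring m18v_K} {N : ℕ} [NeZero N]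

/-- The Dedekind bound at the finite places of `F~_N`, from separability. -/
theorem m18inst_hW {ℓ : ℕ} [Fact ℓ.Prime] (hℓN : ¬ ℓ ∣ N) (hA : A.LiesOverPrime ℓ)
    (hsep : Algebra.IsSeparable ↥((m18v_k A)⟮m18sq_jt A N⟯) (m18v_Ft A N))
    (v : Place (m18v_k A) (m18v_Ft A N)) (a : m18v_k A)
    (hv : 0 < v.ord (m18sq_jt A N - algebraMap (m18v_k A) (m18v_Ft A N) a)) :
    v.ord (m18sq_jt A N - algebraMap (m18v_k A) (m18v_Ft A N) a) - 1
      ≤ m18rr_W (K := m18v_k A) (m18sq_jt A N) v := by
  haveI : IsAlgClosed (m18v_k A) := m18sq_isAlgClosed A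
  haveI := (m18sq_finrank_res hA hℓN).1
  haveI := hsep
  exact m18dif_W_ge_fin (K := m18v_k A) (m18sq_jt A N) m18sq_jt_transcendental v a hv

/-- **(GEN), concrete form, three inputs.** -/
theorem m18inst_gen_of3 {ℓ : ℕ} [Fact ℓ.Prime] (hℓN : ¬ ℓ ∣ N) (hA : A.LiesOverPrime ℓ)
    (h : ModularCurve.ReductionInputsModL A N)
    (hsep : Algebra.IsSeparable ↥((m18v_k A)⟮m18sq_jt A N⟯) (m18v_Ft A N))
    (htube : ∀ P : Place m18v_K (m18v_F N),
      0 ≤ (ModularCurve.placeReductionModL h P).ord (m18sq_jt A N) → 0 ≤ P.ord (s24j N))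
    (hle : finrank m18v_K (riemannRochSpace (m18rr_W (K := m18v_K) (s24j N)))
      ≤ finrank (m18v_k A) (riemannRochSpace (m18rr_W (K := m18v_k A) (m18sq_jt A N)))) :
    ∃ g : ℕ, m18_Riem m18v_K (m18v_F N) g ∧ m18_NSC (m18v_gauss h) g :=
  m18inst_gen_of hℓN hA h hsep htube (fun v a hv => m18inst_hW hℓN hA hsep v a hv) hle

/-- **S18** from separability, the tube property and `g ≤ g~`. -/
theorem m18inst_S18_of3 {ℓ : ℕ} [Fact ℓ.Prime] (hℓN : ¬ ℓ ∣ N) (hA : A.LiesOverPrime ℓ)
    (h : ModularCurve.ReductionInputsModL A N)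
    (hsep : Algebra.IsSeparable ↥((m18v_k A)⟮m18sq_jt A N⟯) (m18v_Ft A N))
    (htube : ∀ P : Place m18v_K (m18v_F N),
      0 ≤ (ModularCurve.placeReductionModL h P).ord (m18sq_jt A N) → 0 ≤ P.ord (s24j N))
    (hle : finrank m18v_K (riemannRochSpace (m18rr_W (K := m18v_K) (s24j N)))
      ≤ finrank (m18v_k A) (riemannRochSpace (m18rr_W (K := m18v_k A) (m18sq_jt A N))))
    (m : ℕ) (hm : ¬ ℓ ∣ m) (z : ModularCurve.JZero N)
    (hmz : m • z = 0) (hz : ModularCurve.reductionModL A N z = 0) : z = 0 :=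
  m18_top N hℓN A hA h (m18inst_gen_of3 hℓN hA h hsep htube hle) m hm z hmz hz

end Fermat.Agent.M18

end
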