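/-
M18 (S18 project), owner helper5.  Prefix `m18gi_`.

The genus `ℓ(W_x)` of helper4's Riemann–Roch package does not depend on the separating element
`x` (any characteristic):

* `m18gi_finrank_eq_zero_of_degree_neg` : `ℓ(E) = 0` if `deg E < 0`;
* `m18gi_finrank_of_degree_large`       : `ℓ(D) = deg D + 1 - ℓ(W_x)` if `deg D > deg W_x`;
* `m18gi_finrank_W_eq`                  : `ℓ(W_x) = ℓ(W_y)`;
* `m18gi_degree_W_eq`                   : `deg W_x = deg W_y`.
-/
import Fermat.Agent.M18.RrMain
import Fermat.Agent.M18.RrExtra

set_option autoImplicit false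
set_option linter.deprecated false
set_option linter.unusedSectionVars false
set_option linter.unusedVariables false
set_option linter.style.haveILetI false

noncomputable section

namespace Fermat.Agent.M18

open Fermat.Agent.S20 Fermat.Agent.S24
open AlgebraicCurve IntermediateField Module

section indep

variable {K F : Type*} [Field K] [Field F] [Algebra K F] [IsAlgClosed K]

/-- a divisor of negative degree has no nonzero sections. -/
theorem m18gi_finrank_eq_zero_of_degree_neg (x : F) (hx : Transcendental K x)
    [FiniteDimensional K⟮x⟯ F] [Algebra.IsSeparable K⟮x⟯ F] (E : Divisor K F)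
    (hE : Divisor.degree E < 0) : finrank K (riemannRochSpace E) = 0 := by
  by_contra h
  have hpos : 0 < finrank K (riemannRochSpace E) := Nat.pos_of_ne_zero h
  obtain ⟨f, hf0, hf⟩ := m18rr_exists_ne_zero x hx E hpos
  obtain ⟨Df, hDf, hdeg⟩ := (m18rr_principal x hx).exists_divisor f hf0
  have hnn : ∀ v, 0 ≤ (E + Df) v := by
    intro v
    have := (mem_riemannRochSpace_iff.1 hf v).resolve_left hf0
    rw [Finsupp.add_apply, hDf]
    linarith
  have h0 : 0 ≤ Divisor.degree (E + Df) := by
    rw [m18rr_degree_eq_sum x]
    exact Finset.sum_nonneg fun v _ => hnn v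
  rw [map_add, hdeg, add_zero] at h0
  omega

/-- Riemann–Roch for divisors of large degree. -/
theorem m18gi_finrank_of_degree_large (x : F) (hx : Transcendental K x)
    [FiniteDimensional K⟮x⟯ F] [Algebra.IsSeparable K⟮x⟯ F] (D : Divisor K F)
    (hD : Divisor.degree (m18rr_W (K := K) x) < Divisor.degree D) :
    (finrank K (riemannRochSpace D) : ℤ)
      = Divisor.degree D + 1 - finrank K (riemannRochSpace (m18rr_W (K := K) x)) := by
  have h := m18rr_main x hx D
  rw [m18gi_finrank_eq_zero_of_degree_neg x hx (m18rr_W (K := K) x - D)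
    (by rw [map_sub]; omega)] at h
  simpa using h

/-- **the genus does not depend on the separating element.** -/
theorem m18gi_finrank_W_eq (x y : F) (hx : Transcendental K x) (hy : Transcendental K y)
    [FiniteDimensional K⟮x⟯ F] [Algebra.IsSeparable K⟮x⟯ F]
    [FiniteDimensional K⟮y⟯ F] [Algebra.IsSeparable K⟮y⟯ F] :
    finrank K (riemannRochSpace (m18rr_W (K := K) x))
      = finrank K (riemannRochSpace (m18rr_W (K := K) y)) := by
  obtain ⟨v, -⟩ := m18rr_exists_pole x hx
  set n : ℤ := max (Divisor.degree (m18rr_W (K := K) x)) (Divisor.degree (m18rr_W (K := K) y)) + 1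
    with hn
  set D : Divisor K F := Finsupp.single v n with hD
  have hdegD : Divisor.degree D = n := by
    rw [hD, Divisor.degree_single, m18rr_deg_eq_one x v, Nat.cast_one, mul_one]
  have h1 := m18gi_finrank_of_degree_large x hx D (by
    rw [hdegD, hn]
    have := le_max_left (Divisor.degree (m18rr_W (K := K) x))
      (Divisor.degree (m18rr_W (K := K) y))
    omega)
  have h2 := m18gi_finrank_of_degree_large y hy D (by
    rw [hdegD, hn]
    have := le_max_right (Divisor.degree (m18rr_W (K := K) x))
      (Divisor.degree (m18rr_W (K := K) y))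
    omega)
  have h3 : (finrank K (riemannRochSpace (m18rr_W (K := K) x)) : ℤ)
      = finrank K (riemannRochSpace (m18rr_W (K := K) y)) := by linarith
  exact_mod_cast h3

/-- the degree of the canonical divisor does not depend on the separating element. -/
theorem m18gi_degree_W_eq (x y : F) (hx : Transcendental K x) (hy : Transcendental K y)
    [FiniteDimensional K⟮x⟯ F] [Algebra.IsSeparable K⟮x⟯ F]
    [FiniteDimensional K⟮y⟯ F] [Algebra.IsSeparable K⟮y⟯ F] :
    Divisor.degree (m18rr_W (K := K) x) = Divisor.degree (m18rr_W (K := K) y) := by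
  rw [m18rr_deg_W x hx, m18rr_deg_W y hy, m18gi_finrank_W_eq x y hx hy]

end indep

end Fermat.Agent.M18

end
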