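/-
M18 (S18 project), owner helper5.  Prefix `m18gi_`.

Bridge, in characteristic `0`, between helper4's trace-dual canonical divisor `m18rr_W x` and the
tame divisor of `dx` of the S20 library (`IsDivisorOfD x W`), and the genus formula for the
function field of `X₀(M)` over `ℚ̄`:

* `m18gi_isSeparable`     : separability in characteristic `0` (instance shape of helper4);
* `m18gi_finrank_W_tame`  : `ℓ(m18rr_W x) = ℓ(W)` for `IsDivisorOfD x W`;
* `m18gi_degree_W_tame`   : `deg (m18rr_W x) = deg W`;
* `m18gi_genus_X0`        : `ℓ(m18rr_W j) = genusFormula M` on `X₀(M)` over `ℚ̄`;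
* `m18gi_degree_W_X0`     : `deg (m18rr_W j) = 2 genusFormula M - 2`;
* `m18gi_Riem_X0`         : `m18_Riem` on `X₀(M)` with `g = ℓ(m18rr_W j)`.
-/
import Fermat.Agent.M18.GiIndep
import Fermat.Agent.M16.PsiRR

set_option autoImplicit false
set_option linter.deprecated false
set_option linter.unusedSectionVars false
set_option linter.unusedVariables false
set_option linter.style.haveILetI false

noncomputable section

namespace Fermat.Agent.M18

open Fermat.Agent.S20 Fermat.Agent.S24 Fermat.Agent.M16
open AlgebraicCurve IntermediateField Module ModularCurve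

section char0

variable {K F : Type*} [Field K] [Field F] [Algebra K F] [IsAlgClosed K] [CharZero K]

/-- separability is automatic in characteristic `0`. -/
theorem m18gi_isSeparable (x : F) [FiniteDimensional K⟮x⟯ F] : Algebra.IsSeparable K⟮x⟯ F := by
  haveI : CharZero K⟮x⟯ := charZero_of_injective_algebraMap (algebraMap K K⟮x⟯).injective
  infer_instance

/-- `ℓ(m18rr_W x) = ℓ(W)` for the tame divisor `W` of `dx`. -/
theorem m18gi_finrank_W_tame (x : F) (hx : Transcendental K x) [FiniteDimensional K⟮x⟯ F]
    (W : Divisor K F) (hW : IsDivisorOfD x W) :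
    finrank K (riemannRochSpace (m18rr_W (K := K) x)) = finrank K (riemannRochSpace W) := by
  haveI := m18gi_isSeparable (K := K) x
  have h1 := m18rr_h1 x hx (0 : Divisor K F)
  have h2 := m16psi_h1_zero x hx W hW
  rw [sub_zero] at h1
  rw [← h1, h2]

/-- `deg (m18rr_W x) = deg W` for the tame divisor `W` of `dx`. -/
theorem m18gi_degree_W_tame (x : F) (hx : Transcendental K x) [FiniteDimensional K⟮x⟯ F]
    (W : Divisor K F) (hW : IsDivisorOfD x W) :
    Divisor.degree (m18rr_W (K := K) x) = Divisor.degree W := by
  haveI := m18gi_isSeparable (K := K) x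
  rw [m18rr_deg_W x hx, m18gi_finrank_W_tame x hx W hW, rr_canonical x hx W hW]

end char0

section X0

variable (M : ℕ) [NeZero M]

/-- **the genus of `X₀(M)` over `ℚ̄`**, in terms of helper4's canonical divisor. -/
theorem m18gi_genus_X0 :
    (finrank s24K (riemannRochSpace (m18rr_W (K := s24K) (s24j M))) : ℚ) = genusFormula M := by
  haveI hfin : FiniteDimensional (IntermediateField.adjoin s24K {s24j M}) (s24F M) :=
    deg_finiteDimensional M
  have hx := ana_transcendental M
  obtain ⟨W, hW⟩ := m16psi_exists_W M
  rw [m18gi_finrank_W_tame (s24j M) hx W hW]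
  exact asm20_finrank_rr (m16psi_pkgG M) hx W hW (rr_canonical (s24j M) hx W hW)

/-- the degree of the canonical divisor of `X₀(M)` over `ℚ̄`. -/
theorem m18gi_degree_W_X0 :
    (Divisor.degree (m18rr_W (K := s24K) (s24j M)) : ℚ) = 2 * genusFormula M - 2 := by
  haveI hfin : FiniteDimensional (IntermediateField.adjoin s24K {s24j M}) (s24F M) :=
    deg_finiteDimensional M
  haveI := m18gi_isSeparable (K := s24K) (s24j M)
  rw [m18rr_deg_W (s24j M) (ana_transcendental M), ← m18gi_genus_X0 M]
  push_cast
  ring

/-- Riemann's inequality on `X₀(M)` over `ℚ̄`, in the architect's form. -/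
theorem m18gi_Riem_X0 :
    m18_Riem s24K (s24F M) (finrank s24K (riemannRochSpace (m18rr_W (K := s24K) (s24j M)))) := by
  haveI hfin : FiniteDimensional (IntermediateField.adjoin s24K {s24j M}) (s24F M) :=
    deg_finiteDimensional M
  haveI := m18gi_isSeparable (K := s24K) (s24j M)
  exact m18rr_Riem (s24j M) (ana_transcendental M)

end X0

end Fermat.Agent.M18

end
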