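import Mathlib

/-!
# M18 (S18 project), block (NRM), part (P2)/(P3): conductor, Nakayama and Euler's formula

Pure Mathlib, owner helper2, prefix `m18nrm_`.

* `m18nrm_le_span_pair`: in a Dedekind domain, a maximal ideal `q` is generated by two of its
  elements `p, s` as soon as `s ∉ q ^ 2` and no other maximal ideal contains both.
* `m18nrm_nakayama`: if `B` is a finite `A`-algebra, `B = A + q` and `q ⊆ (p, s)` with `p` in the
  image of `A`, then some `r ∈ A[s]`, `r ≡ 1 mod q`, satisfies `r B ⊆ A[s]`
  (i.e. the conductor of `A[s]` is prime to `q`).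
* `m18nrm_adjoin_eq_top`: then `s` generates the fraction field.
* `m18nrm_euler_mem`: and `r / f'(s)` lies in the codifferent (`f` the minimal polynomial of `s`).
* `m18nrm_euler_le`: conversely `f'(s) * g` is integral for every `g` in the codifferent.
-/

set_option autoImplicit false
set_option linter.unusedSectionVars false
set_option linter.unusedVariables false
set_option linter.style.haveILetI false

noncomputable section

namespace Fermat.Agent.M18

open Polynomial IntermediateField
open scoped Pointwise

theorem m18nrm_le_span_pair {B : Type*} [CommRing B] [IsDedekindDomain B] (q : Ideal B)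
    [hq : q.IsMaximal] (p s : B) (hp : p ∈ q) (hs : s ∈ q) (hs2 : s ∉ q ^ 2)
    (hoth : ∀ m : Ideal B, m.IsMaximal → m ≠ q → p ∈ m → s ∉ m) :
    q ≤ Ideal.span {p, s} := by
  have hpI : p ∈ Ideal.span ({p, s} : Set B) := Ideal.subset_span (by simp)
  have hsI : s ∈ Ideal.span ({p, s} : Set B) := Ideal.subset_span (by simp)
  have hI : Ideal.span ({p, s} : Set B) ≤ q := by
    rw [Ideal.span_le]
    intro y hy
    rcases hy with rfl | hy
    · exact hp
    · rw [Set.mem_singleton_iff] at hy
      rw [hy]
      exact hs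
  obtain ⟨J, hJ⟩ : q ∣ Ideal.span ({p, s} : Set B) := Ideal.dvd_iff_le.mpr hI
  by_cases hJtop : J = ⊤
  · rw [hJ, hJtop, Ideal.mul_top]
  · exfalso
    obtain ⟨m, hm, hJm⟩ := Ideal.exists_le_maximal J hJtop
    have hle : Ideal.span ({p, s} : Set B) ≤ q * m := by
      rw [hJ]
      exact Ideal.mul_mono_right hJm
    by_cases hmq : m = q
    · apply hs2
      have := hle hsI
      rwa [hmq, ← pow_two] at this
    · have h1 : q * m ≤ m := Ideal.mul_le_inf.trans inf_le_right
      exact hoth m hm hmq (h1 (hle hpI)) (h1 (hle hsI))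

theorem m18nrm_nakayama {A B : Type*} [CommRing A] [CommRing B] [Algebra A B]
    [Module.Finite A B] (q : Ideal B) (p₀ : A) (s : B)
    (hpq : algebraMap A B p₀ ∈ q) (hsq : s ∈ q)
    (h1 : ∀ b : B, ∃ a : A, b - algebraMap A B a ∈ q)
    (h2 : q ≤ Ideal.span {algebraMap A B p₀, s}) :
    ∃ r : B, r ∈ Algebra.adjoin A {s} ∧ r - 1 ∈ q ∧ ∀ b : B, r * b ∈ Algebra.adjoin A {s} := by
  classical
  set C : Subalgebra A B := Algebra.adjoin A {s} with hC
  haveI : Module.Finite C B := Module.Finite.of_restrictScalars_finite A C B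
  let sC : C := ⟨s, Algebra.self_mem_adjoin_singleton A s⟩
  let pC : C := algebraMap A C p₀
  have hpC : ((pC : C) : B) = algebraMap A B p₀ := rfl
  set I : Ideal C := Ideal.span {pC, sC} with hI
  have hfg : (⊤ : Submodule C B).FG := Module.Finite.fg_top
  have hsup : (⊤ : Submodule C B) ≤ (1 : Submodule C B) ⊔ I • (⊤ : Submodule C B) := by
    intro b _
    obtain ⟨a, ha⟩ := h1 b
    have hq := h2 ha
    rw [Ideal.mem_span_pair] at hq
    obtain ⟨b₁, b₂, hb⟩ := hq
    have hb' : b = algebraMap A B a + (b₁ * algebraMap A B p₀ + b₂ * s) := by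
      rw [hb]
      ring
    rw [hb']
    apply Submodule.add_mem_sup
    · rw [Submodule.mem_one]
      exact ⟨algebraMap A C a, rfl⟩
    · apply Submodule.add_mem
      · have : b₁ * algebraMap A B p₀ = pC • b₁ := by
          rw [Algebra.smul_def, mul_comm]
          rfl
        rw [this]
        exact Submodule.smul_mem_smul (Ideal.subset_span (by simp)) Submodule.mem_top
      · have : b₂ * s = sC • b₂ := by
          rw [Algebra.smul_def, mul_comm]
          rfl
        rw [this]
        exact Submodule.smul_mem_smul (Ideal.subset_span (by simp)) Submodule.mem_top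
  obtain ⟨r, hr1, hr2⟩ :=
    Submodule.exists_sub_one_mem_and_smul_le_of_fg_of_le_sup (I := I) hfg le_rfl hsup
  refine ⟨(r : B), r.2, ?_, ?_⟩
  · -- `r - 1 ∈ q`
    have hIq : I ≤ Ideal.comap (algebraMap C B) q := by
      rw [hI, Ideal.span_le]
      intro y hy
      rcases hy with rfl | hy
      · exact hpq
      · rw [Set.mem_singleton_iff] at hy
        rw [hy]
        exact hsq
    have := hIq hr1
    rw [Ideal.mem_comap] at this
    simpa using this
  · intro b
    have hb : r • b ∈ r • (⊤ : Submodule C B) :=
      Submodule.smul_mem_pointwise_smul b r ⊤ Submodule.mem_top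
    have := hr2 hb
    rw [Submodule.mem_one] at this
    obtain ⟨c, hc⟩ := this
    have h3 : r • b = (r : B) * b := by
      rw [Algebra.smul_def]
      rfl
    rw [← h3, ← hc]
    exact c.2

section aklb

variable (A K : Type*) {L : Type*} {B : Type*} [CommRing A] [Field K] [CommRing B] [Field L]
  [Algebra A K] [Algebra B L] [Algebra A B] [Algebra K L] [Algebra A L]
  [IsScalarTower A K L] [IsScalarTower A B L]
  [IsDomain A] [IsFractionRing A K] [FiniteDimensional K L] [Algebra.IsSeparable K L]
  [IsIntegralClosure B A L] [IsIntegrallyClosed A]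

theorem m18nrm_map_adjoin (s : B) (b : B) (hb : b ∈ Algebra.adjoin A {s}) :
    algebraMap B L b ∈ Algebra.adjoin A {algebraMap B L s} := by
  have h1 : (Algebra.adjoin A {s}).map (IsScalarTower.toAlgHom A B L)
      = Algebra.adjoin A {algebraMap B L s} := by
    rw [AlgHom.map_adjoin_singleton]
    rfl
  rw [← h1]
  exact ⟨b, hb, rfl⟩

theorem m18nrm_adjoin_le (s : L) :
    (Algebra.adjoin A {s} : Set L) ⊆ (Algebra.adjoin K {s} : Set L) := by
  intro y hy
  have h : Algebra.adjoin A {s} ≤ (Algebra.adjoin K {s}).restrictScalars A := by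
    apply Algebra.adjoin_le
    intro z hz
    rw [Set.mem_singleton_iff] at hz
    rw [hz]
    exact Algebra.self_mem_adjoin_singleton K s
  exact h hy

/-- if the conductor of `A[s]` is nonzero then `s` generates `L` over `K`. -/
theorem m18nrm_adjoin_eq_top [IsDomain B] [IsFractionRing B L] (s : B) (r : B) (hr0 : r ≠ 0)
    (hr : ∀ b : B, r * b ∈ Algebra.adjoin A {s}) :
    Algebra.adjoin K {algebraMap B L s} = ⊤ := by
  have hint : IsIntegral K (algebraMap B L s) := Algebra.IsIntegral.isIntegral _
  have hfield := IntermediateField.adjoin_simple_toSubalgebra_of_isAlgebraic hint.isAlgebraic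
  rw [eq_top_iff]
  intro l _
  rw [← hfield]
  obtain ⟨b, b', hb', rfl⟩ := IsFractionRing.div_surjective (A := B) l
  have hb'0 : b' ≠ 0 := nonZeroDivisors.ne_zero hb'
  have hr0L : algebraMap B L r ≠ 0 := by
    rw [Ne, map_eq_zero_iff _ (IsFractionRing.injective B L)]
    exact hr0
  have hb'L : algebraMap B L b' ≠ 0 := by
    rw [Ne, map_eq_zero_iff _ (IsFractionRing.injective B L)]
    exact hb'0
  have h1 : algebraMap B L b / algebraMap B L b'
      = algebraMap B L (r * b) / algebraMap B L (r * b') := by
    rw [map_mul, map_mul]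
    field_simp
  rw [h1]
  have hmem : ∀ c : B, algebraMap B L (r * c) ∈ K⟮algebraMap B L s⟯ := by
    intro c
    rw [← IntermediateField.mem_toSubalgebra, hfield]
    exact m18nrm_adjoin_le A K _ (m18nrm_map_adjoin A s _ (hr c))
  rw [IntermediateField.mem_toSubalgebra]
  exact div_mem (hmem b) (hmem b')

/-- Euler: `r / f'(s)` lies in the codifferent if `r B ⊆ A[s]`. -/
theorem m18nrm_euler_mem (s : B) (r : B)
    (hgen : Algebra.adjoin K {algebraMap B L s} = ⊤)
    (hr : ∀ b : B, r * b ∈ Algebra.adjoin A {s}) :
    algebraMap B L r * (aeval (algebraMap B L s) (derivative (minpoly K (algebraMap B L s))))⁻¹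
      ∈ Submodule.traceDual A K (1 : Submodule B L) := by
  have hAs : IsIntegral A (algebraMap B L s) :=
    IsIntegral.map (IsScalarTower.toAlgHom A B L) (IsIntegralClosure.isIntegral A L s)
  have hE := traceForm_dualSubmodule_adjoin A K hgen hAs
  rw [Submodule.mem_traceDual]
  intro y hy
  rw [Submodule.mem_one] at hy
  obtain ⟨b, rfl⟩ := hy
  -- `(f')⁻¹ * (r b)` lies in the dual of `A[s]`
  have h1 : (aeval (algebraMap B L s) (derivative (minpoly K (algebraMap B L s))))⁻¹
      * algebraMap B L (r * b) ∈
      (Algebra.traceForm K L).dualSubmodule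
        (Subalgebra.toSubmodule (Algebra.adjoin A {algebraMap B L s})) := by
    rw [hE]
    rw [Submodule.mem_smul_pointwise_iff_exists]
    refine ⟨algebraMap B L (r * b), ?_, ?_⟩
    · exact m18nrm_map_adjoin A s _ (hr b)
    · rw [smul_eq_mul]
  rw [LinearMap.BilinForm.mem_dualSubmodule] at h1
  have h2 := h1 1 (one_mem (Algebra.adjoin A {algebraMap B L s}))
  rw [Algebra.traceForm_apply, mul_one] at h2
  rw [Algebra.traceForm_apply]
  have e : algebraMap B L r
      * (aeval (algebraMap B L s) (derivative (minpoly K (algebraMap B L s))))⁻¹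
      * algebraMap B L b
      = (aeval (algebraMap B L s) (derivative (minpoly K (algebraMap B L s))))⁻¹
      * algebraMap B L (r * b) := by
    rw [map_mul]
    ring
  rw [e]
  rw [Submodule.mem_one] at h2
  obtain ⟨a, ha⟩ := h2
  exact ⟨a, ha⟩

/-- Euler: `f'(s) * g` is integral for every `g` in the codifferent. -/
theorem m18nrm_euler_le (s : B)
    (hgen : Algebra.adjoin K {algebraMap B L s} = ⊤) (g : L)
    (hg : g ∈ Submodule.traceDual A K (1 : Submodule B L)) :
    ∃ b : B, algebraMap B L b
      = aeval (algebraMap B L s) (derivative (minpoly K (algebraMap B L s))) * g := by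
  have hAs : IsIntegral A (algebraMap B L s) :=
    IsIntegral.map (IsScalarTower.toAlgHom A B L) (IsIntegralClosure.isIntegral A L s)
  have hE := traceForm_dualSubmodule_adjoin A K hgen hAs
  have hne : aeval (algebraMap B L s) (derivative (minpoly K (algebraMap B L s))) ≠ 0 :=
    (Algebra.IsSeparable.isSeparable K (algebraMap B L s)).aeval_derivative_ne_zero
      (minpoly.aeval _ _)
  have h1 : g ∈ (Algebra.traceForm K L).dualSubmodule
      (Subalgebra.toSubmodule (Algebra.adjoin A {algebraMap B L s})) := by
    rw [LinearMap.BilinForm.mem_dualSubmodule]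
    intro c hc
    rw [Submodule.mem_traceDual] at hg
    have hcB : IsIntegral A c := by
      have : Algebra.adjoin A {algebraMap B L s} ≤ integralClosure A L := by
        apply Algebra.adjoin_le
        intro z hz
        rw [Set.mem_singleton_iff] at hz
        rw [hz]
        exact hAs
      exact this hc
    obtain ⟨b, hb⟩ := IsIntegralClosure.isIntegral_iff (A := B) |>.mp hcB
    have := hg c (by rw [Submodule.mem_one]; exact ⟨b, hb⟩)
    rw [Submodule.mem_one]
    obtain ⟨a, ha⟩ := this
    exact ⟨a, ha⟩
  rw [hE, Submodule.mem_smul_pointwise_iff_exists] at h1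
  obtain ⟨c, hc, hcg⟩ := h1
  have hcB : IsIntegral A c := by
    have : Algebra.adjoin A {algebraMap B L s} ≤ integralClosure A L := by
      apply Algebra.adjoin_le
      intro z hz
      rw [Set.mem_singleton_iff] at hz
      rw [hz]
      exact hAs
    exact this hc
  obtain ⟨b, hb⟩ := IsIntegralClosure.isIntegral_iff (A := B) |>.mp hcB
  refine ⟨b, ?_⟩
  rw [hb, ← hcg, smul_eq_mul, ← mul_assoc, mul_inv_cancel₀ hne, one_mul]

end aklb

end Fermat.Agent.M18

end
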