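import Fermat.Agent.M18.RrDiff
import Fermat.Agent.M18.NrmCond

/-!
# M18 (S18 project), block (NRM), parts (P2), (P3) in the language of places

Owner helper2, prefix `m18nrm_`.  `K` algebraically closed (any characteristic), `x : F`
transcendental with `F / K(x)` finite separable, `W = m18rr_W x` the divisor of `dx` (helper4).

* `m18nrm_W_le` (P3): for `s` integral over `K[x]` generating `F / K(x)`, with minimal polynomial
  `f` over `K(x)`: `W v ≤ ord_v (f'(s))` at every finite place `v`.
* `m18nrm_le_W` (P2): if moreover `ord_Q s = 1` and `s` does not vanish at the other places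
  over `x(Q)`, then `s` generates `F / K(x)` and `ord_Q (f'(s)) ≤ W Q`.
-/

set_option autoImplicit false
set_option linter.style.haveILetI false
set_option linter.unusedSectionVars false
set_option linter.unusedVariables false
set_option linter.deprecated false

noncomputable section

namespace Fermat.Agent.M18

open Fermat.Agent.S20 Fermat.Agent.S24
open AlgebraicCurve IntermediateField Polynomial IsDedekindDomain WithZero
open scoped IntermediateField.algebraAdjoinAdjoin

variable {K F : Type*} [Field K] [Field F] [Algebra K F] [IsAlgClosed K]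

/-- (P3) **Euler's inequality**: the different exponent is at most the order of `f'(s)`. -/
theorem m18nrm_W_le (x : F) (hx : Transcendental K x) [FiniteDimensional K⟮x⟯ F]
    [Algebra.IsSeparable K⟮x⟯ F] (s : F) (hs : IsIntegral (Algebra.adjoin K ({x} : Set F)) s)
    (hgen : Algebra.adjoin K⟮x⟯ {s} = ⊤) (v : Place K F) (hv : 0 ≤ v.ord x) :
    m18rr_W (K := K) x v ≤ v.ord (aeval s (derivative (minpoly K⟮x⟯ s))) := by
  classical
  have hDed : IsDedekindDomain (Algebra.adjoin K ({x} : Set F)) := algaz_isDedekindDomain x hx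
  obtain ⟨g, hg, hg0, hgv⟩ := m18rr_W_spec_attained x hx v hv
  let sB : integralClosure (Algebra.adjoin K ({x} : Set F)) F := ⟨s, hs⟩
  have hgen' : Algebra.adjoin K⟮x⟯
      {algebraMap (integralClosure (Algebra.adjoin K ({x} : Set F)) F) F sB} = ⊤ := hgen
  obtain ⟨b, hb⟩ := m18nrm_euler_le (L := F) (Algebra.adjoin K ({x} : Set F)) K⟮x⟯ sB hgen' g hg
  have hb' : (b : F) = aeval s (derivative (minpoly K⟮x⟯ s)) * g := hb
  have hne : aeval s (derivative (minpoly K⟮x⟯ s)) ≠ 0 :=
    (Algebra.IsSeparable.isSeparable K⟮x⟯ s).aeval_derivative_ne_zero (minpoly.aeval _ _)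
  have h1 := m18rr_B_ord_nonneg x hx b v hv
  rw [hb', v.ord_mul hne hg0, hgv] at h1
  omega

/-- elements of the integral closure lie in the valuation rings of the finite places. -/
theorem m18nrm_B_mem (x : F) (hx : Transcendental K x) [FiniteDimensional K⟮x⟯ F]
    [Algebra.IsSeparable K⟮x⟯ F] (Q : Place K F) (hQx : 0 ≤ Q.ord x) :
    ∀ r : integralClosure (Algebra.adjoin K ({x} : Set F)) F,
      algebraMap (integralClosure (Algebra.adjoin K ({x} : Set F)) F) F r
        ∈ Q.toValuationSubring := by
  classical
  have hDed : IsDedekindDomain (Algebra.adjoin K ({x} : Set F)) := algaz_isDedekindDomain x hx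
  have hDedB : IsDedekindDomain (integralClosure (Algebra.adjoin K ({x} : Set F)) F) :=
    integralClosure.isDedekindDomain (Algebra.adjoin K ({x} : Set F)) K⟮x⟯ F
  have hFracB : IsFractionRing (integralClosure (Algebra.adjoin K ({x} : Set F)) F) F :=
    integralClosure.isFractionRing_of_finite_extension K⟮x⟯ F
  have hFinB : Module.Finite (Algebra.adjoin K ({x} : Set F))
      (integralClosure (Algebra.adjoin K ({x} : Set F)) F) :=
    IsIntegralClosure.finite (Algebra.adjoin K ({x} : Set F)) K⟮x⟯ F
      (integralClosure (Algebra.adjoin K ({x} : Set F)) F)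
  intro r
  exact algad_integral_mem (K := K) (F := F) (A := Algebra.adjoin K ({x} : Set F))
      (B := integralClosure (Algebra.adjoin K ({x} : Set F)) F) Q
      (fun a => rrd_adjoin_mem x Q hQx a.2) r

/-- (P2) **local monogenicity**: if `s` is integral over `K[x]`, has a simple zero at `Q` and does
not vanish at the other places over `x(Q) = c`, then `s` generates `F` over `K(x)` and the order
at `Q` of `f'(s)` is at most the different exponent. -/
theorem m18nrm_le_W (x : F) (hx : Transcendental K x) [FiniteDimensional K⟮x⟯ F]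
    [Algebra.IsSeparable K⟮x⟯ F] (Q : Place K F) (c : K)
    (hc : 0 < Q.ord (x - algebraMap K F c))
    (s : F) (hs : IsIntegral (Algebra.adjoin K ({x} : Set F)) s) (hs1 : Q.ord s = 1)
    (hs2 : ∀ Q₂ : Place K F, Q₂ ≠ Q → 0 < Q₂.ord (x - algebraMap K F c) → Q₂.ord s ≤ 0) :
    Algebra.adjoin K⟮x⟯ {s} = ⊤ ∧
      Q.ord (aeval s (derivative (minpoly K⟮x⟯ s))) ≤ m18rr_W (K := K) x Q := by
  classical
  have hDed : IsDedekindDomain (Algebra.adjoin K ({x} : Set F)) := algaz_isDedekindDomain x hx
  have hDedB : IsDedekindDomain (integralClosure (Algebra.adjoin K ({x} : Set F)) F) :=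
    integralClosure.isDedekindDomain (Algebra.adjoin K ({x} : Set F)) K⟮x⟯ F
  have hFracB : IsFractionRing (integralClosure (Algebra.adjoin K ({x} : Set F)) F) F :=
    integralClosure.isFractionRing_of_finite_extension K⟮x⟯ F
  have hFinB : Module.Finite (Algebra.adjoin K ({x} : Set F))
      (integralClosure (Algebra.adjoin K ({x} : Set F)) F) :=
    IsIntegralClosure.finite (Algebra.adjoin K ({x} : Set F)) K⟮x⟯ F
      (integralClosure (Algebra.adjoin K ({x} : Set F)) F)
  -- `Q` is a finite place
  have hxc0 : x - algebraMap K F c ≠ 0 := by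
    intro h0
    rw [h0, Place.ord_zero] at hc
    exact lt_irrefl _ hc
  have hQx : 0 ≤ Q.ord x := by
    have h1 : x = (x - algebraMap K F c) + algebraMap K F c := by ring
    have h2 : x ∈ Q.toValuationSubring := by
      rw [h1]
      exact Q.toValuationSubring.add_mem _ _ (alga_mem_of_ord_nonneg Q hc.le)
        (Q.algebraMap_mem' c)
    exact alga_ord_nonneg_of_mem Q h2
  -- the prime of `Q`
  obtain ⟨w, hwQ, hw⟩ := algad_exists_heightOneSpectrum (K := K) (F := F)
    (R := integralClosure (Algebra.adjoin K ({x} : Set F)) F) Q (m18nrm_B_mem x hx Q hQx)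
  haveI hwmax : w.asIdeal.IsMaximal := w.isMaximal
  let sB : integralClosure (Algebra.adjoin K ({x} : Set F)) F := ⟨s, hs⟩
  let p₀ : Algebra.adjoin K ({x} : Set F) :=
    ⟨x, Algebra.self_mem_adjoin_singleton K x⟩ - algebraMap K _ c
  have hp₀ : (algebraMap (Algebra.adjoin K ({x} : Set F))
      (integralClosure (Algebra.adjoin K ({x} : Set F)) F) p₀ : F) = x - algebraMap K F c := rfl
  have hpq : algebraMap (Algebra.adjoin K ({x} : Set F))
      (integralClosure (Algebra.adjoin K ({x} : Set F)) F) p₀ ∈ w.asIdeal := by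
    rw [hw]
    right
    exact hc
  have hsq : sB ∈ w.asIdeal := by
    rw [hw]
    right
    show 0 < Q.ord s
    omega
  have hs0 : s ≠ 0 := by
    intro h0
    rw [h0, Place.ord_zero] at hs1
    omega
  -- `s ∉ q ^ 2`
  have hsq2 : sB ∉ w.asIdeal ^ 2 := by
    intro hmem
    rw [← HeightOneSpectrum.intValuation_le_pow_iff_mem] at hmem
    have h1 : w.valuation F s ≤ WithZero.exp (-((2 : ℕ) : ℤ)) := by
      have h2 : w.valuation F (algebraMap _ F sB) = w.intValuation sB :=
        w.valuation_of_algebraMap (K := F) sB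
      have h3 : (algebraMap (integralClosure (Algebra.adjoin K ({x} : Set F)) F) F sB) = s := rfl
      rw [h3] at h2
      rw [h2]
      exact hmem
    have h4 := algad_ord_eq (K := K) (F := F) w s
    rw [hwQ, hs1] at h4
    have h5 : w.valuation F s ≠ 0 := (Valuation.ne_zero_iff _).mpr hs0
    have h6 : WithZero.log (w.valuation F s) ≤ -2 := by
      have := (WithZero.log_le_log h5 (WithZero.exp_ne_zero)).mpr h1
      simpa using this
    omega
  -- no other maximal ideal contains both
  have hoth : ∀ m : Ideal (integralClosure (Algebra.adjoin K ({x} : Set F)) F), m.IsMaximal →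
      m ≠ w.asIdeal → algebraMap (Algebra.adjoin K ({x} : Set F))
      (integralClosure (Algebra.adjoin K ({x} : Set F)) F) p₀ ∈ m → sB ∉ m := by
    intro m hm hne hpm hsm
    have hm0 : m ≠ ⊥ := by
      intro h0
      rw [h0, Ideal.mem_bot] at hsm
      exact hs0 (congrArg Subtype.val hsm)
    let w' : HeightOneSpectrum (integralClosure (Algebra.adjoin K ({x} : Set F)) F) :=
      ⟨m, hm.isPrime, hm0⟩
    have hw'ne : Place.ofHeightOneSpectrum (K := K) (F := F) w' ≠ Q := by
      intro h
      rw [← hwQ] at h
      have := algad_ofHeightOneSpectrum_injective (K := K) (F := F) h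
      apply hne
      rw [← this]
    have hord : ∀ b : integralClosure (Algebra.adjoin K ({x} : Set F)) F, b ∈ m → b ≠ 0 →
        0 < (Place.ofHeightOneSpectrum (K := K) (F := F) w').ord (b : F) := by
      intro b hb hb0
      have h1 : w'.intValuation b < 1 := (w'.intValuation_lt_one_iff_mem b).mpr hb
      have h2 : w'.valuation F (algebraMap _ F b) = w'.intValuation b :=
        w'.valuation_of_algebraMap (K := F) b
      have h3 : (algebraMap (integralClosure (Algebra.adjoin K ({x} : Set F)) F) F b)
          = (b : F) := rfl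
      rw [h3] at h2
      rw [algad_ord_eq (K := K) (F := F) w' (b : F), h2]
      have h5 : w'.intValuation b ≠ 0 := w'.intValuation_ne_zero b hb0
      have h6 : WithZero.log (w'.intValuation b) < 0 := by
        have := (WithZero.log_lt_log h5 (one_ne_zero)).mpr h1
        simpa using this
      omega
    have hp0 : algebraMap (Algebra.adjoin K ({x} : Set F))
        (integralClosure (Algebra.adjoin K ({x} : Set F)) F) p₀ ≠ 0 := by
      intro h0
      apply hxc0
      have := congrArg Subtype.val h0
      exact this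
    have hsB0 : sB ≠ 0 := fun h0 => hs0 (congrArg Subtype.val h0)
    have h7 := hord _ hpm hp0
    have h8 := hord _ hsm hsB0
    have h9 := hs2 _ hw'ne h7
    have h10 : 0 < (Place.ofHeightOneSpectrum (K := K) (F := F) w').ord s := h8
    omega
  have h2 := m18nrm_le_span_pair w.asIdeal _ sB hpq hsq hsq2 hoth
  -- residue degree one
  have h1 : ∀ b : integralClosure (Algebra.adjoin K ({x} : Set F)) F,
      ∃ a : Algebra.adjoin K ({x} : Set F),
        b - algebraMap (Algebra.adjoin K ({x} : Set F))
          (integralClosure (Algebra.adjoin K ({x} : Set F)) F) a ∈ w.asIdeal := by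
    intro b
    obtain ⟨a, ha⟩ := alga_exists_sub_mem x Q
      (alga_mem_of_ord_nonneg Q (m18rr_B_ord_nonneg x hx b Q hQx))
    refine ⟨algebraMap K _ a, ?_⟩
    rw [hw]
    rcases ha with ha | ha
    · left
      apply Subtype.ext
      show (b : F) - algebraMap K F a = 0
      rw [ha, sub_self]
    · right
      exact ha
  obtain ⟨r, hr1, hr2, hr3⟩ := m18nrm_nakayama w.asIdeal p₀ sB hpq hsq h1 h2
  have hr0 : r ≠ 0 := by
    intro h0
    rw [h0, zero_sub] at hr2
    have : (1 : integralClosure (Algebra.adjoin K ({x} : Set F)) F) ∈ w.asIdeal := by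
      have := w.asIdeal.neg_mem hr2
      simpa using this
    exact hwmax.ne_top ((Ideal.eq_top_iff_one _).mpr this)
  have hgen := m18nrm_adjoin_eq_top (L := F) (Algebra.adjoin K ({x} : Set F)) K⟮x⟯ sB r hr0 hr3
  have hgen' : Algebra.adjoin K⟮x⟯ {s} = ⊤ := hgen
  refine ⟨hgen', ?_⟩
  have hmem := m18nrm_euler_mem (L := F) (Algebra.adjoin K ({x} : Set F)) K⟮x⟯ sB r hgen hr3
  have hmem' : (r : F) * (aeval s (derivative (minpoly K⟮x⟯ s)))⁻¹ ∈ m18rr_codiff (K := K) x :=
    hmem
  have hne : aeval s (derivative (minpoly K⟮x⟯ s)) ≠ 0 :=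
    (Algebra.IsSeparable.isSeparable K⟮x⟯ s).aeval_derivative_ne_zero (minpoly.aeval _ _)
  have hrF : (r : F) ≠ 0 := fun h0 => hr0 (Subtype.ext h0)
  have h3 := m18rr_W_spec_le x hx Q hQx _ hmem' (mul_ne_zero hrF (inv_ne_zero hne))
  rw [Q.ord_mul hrF (inv_ne_zero hne), Q.ord_inv] at h3
  -- `ord_Q r = 0`
  have hr4 : Q.ord (r : F) = 0 := by
    have h4 : 0 ≤ Q.ord (r : F) := m18rr_B_ord_nonneg x hx r Q hQx
    by_contra hne0
    have h5 : 0 < Q.ord (r : F) := lt_of_le_of_ne h4 (Ne.symm hne0)
    have h6 : r ∈ w.asIdeal := by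
      rw [hw]
      right
      exact h5
    have : (1 : integralClosure (Algebra.adjoin K ({x} : Set F)) F) ∈ w.asIdeal := by
      have := w.asIdeal.sub_mem h6 hr2
      simpa using this
    exact hwmax.ne_top ((Ideal.eq_top_iff_one _).mpr this)
  omega

end Fermat.Agent.M18

end
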