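import Fermat.Agent.M18.NrmMin
import Fermat.Agent.M18.CoreBasic

/-!
# M18 (S18 project), block (NRM), part (R-a'): the Gauss pair `K(x) ⊂ F`

Owner helper2, prefix `m18nrm_`.  Abstract setting of `Defs.lean`: `G : m18_Gauss A r`,
`x : G.O` with `red x` transcendental over the residue field `k`.

* `m18nrm_prim`: every nonzero polynomial over `K` is a constant times a polynomial over `A` with
  nonzero reduction (Gauss' lemma for a valuation ring).
* `m18nrm_red_mem`: `red` maps `G.O ∩ K(x)` into `k(red x)`.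
* `m18nrm_OG`, `m18nrm_redG`, `m18nrm_setupG`: the Gauss valuation ring of `K(x)`, its reduction
  to `k(red x)` and the compatibility with `G` (an `m18nrm_Setup`).
* `m18nrm_gauss_derivative`: for `s : G.O` whose reduction generates `Fk / k(red x)`, when
  `[F : K(x)] = [Fk : k(red x)]` and `red` is onto: `s` generates `F / K(x)`, `f'(s)` is Gauss
  integral and reduces to `f~'(red s)` (`f`, `f~` the minimal polynomials).
-/

set_option autoImplicit false
set_option linter.unusedSectionVars false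
set_option linter.unusedVariables false
set_option linter.style.haveILetI false

noncomputable section

namespace Fermat.Agent.M18

open AlgebraicCurve IntermediateField Polynomial Module

section prim

variable {K : Type*} [Field K] (A : ValuationSubring K)

/-- Gauss' lemma for a valuation ring. -/
theorem m18nrm_prim (P : K[X]) (hP : P ≠ 0) :
    ∃ (c : K) (P₁ : A[X]), c ≠ 0 ∧ P₁.map A.subtype = C c * P ∧
      P₁.map (IsLocalRing.residue A) ≠ 0 := by
  classical
  have hne : P.support.Nonempty := by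
    rw [Finset.nonempty_iff_ne_empty, Ne, Polynomial.support_eq_empty]
    exact hP
  obtain ⟨i₀, hi₀, hmax⟩ := Finset.exists_max_image P.support
    (fun i => A.valuation (P.coeff i)) hne
  have h0 : P.coeff i₀ ≠ 0 := Polynomial.mem_support_iff.mp hi₀
  have hv0 : A.valuation (P.coeff i₀) ≠ 0 := by
    rw [Ne, map_eq_zero]
    exact h0
  have hmem : C (P.coeff i₀)⁻¹ * P ∈ Polynomial.lifts A.subtype := by
    rw [Polynomial.lifts_iff_coeff_lifts]
    intro n
    rw [Polynomial.coeff_C_mul]
    by_cases hn : n ∈ P.support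
    · have h1 : (P.coeff i₀)⁻¹ * P.coeff n ∈ A := by
        rw [← ValuationSubring.valuation_le_one_iff, map_mul, map_inv₀,
          inv_mul_le_iff₀ (zero_lt_iff.mpr hv0), mul_one]
        exact hmax n hn
      exact ⟨⟨_, h1⟩, rfl⟩
    · rw [Polynomial.notMem_support_iff.mp hn, mul_zero]
      exact ⟨0, map_zero _⟩
  rw [Polynomial.mem_lifts] at hmem
  obtain ⟨P₁, hP₁⟩ := hmem
  refine ⟨(P.coeff i₀)⁻¹, P₁, inv_ne_zero h0, hP₁, ?_⟩
  intro hzero
  have h1 : (P₁.coeff i₀ : K) = 1 := by
    have := congrArg (fun p => p.coeff i₀) hP₁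
    simp only [Polynomial.coeff_map, Polynomial.coeff_C_mul] at this
    rw [inv_mul_cancel₀ h0] at this
    exact this
  have h2 : P₁.coeff i₀ = 1 := Subtype.ext h1
  have h3 := congrArg (fun p => p.coeff i₀) hzero
  simp only [Polynomial.coeff_map, Polynomial.coeff_zero] at h3
  rw [h2, map_one] at h3
  exact one_ne_zero h3

end prim

section gauss

variable {K F Fk : Type*} [Field K] [Field F] [Algebra K F] {A : ValuationSubring K}
  [Field Fk] [Algebra (IsLocalRing.ResidueField A) Fk]
  {r : Place K F → Place (IsLocalRing.ResidueField A) Fk} (G : m18_Gauss A r)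

/-- evaluation at `x : G.O` of polynomials over `A`. -/
def m18nrm_evA (x : G.O) : A[X] →+* G.O := Polynomial.eval₂RingHom (m18c_const G) x

theorem m18nrm_evA_coe (x : G.O) (p : A[X]) :
    ((m18nrm_evA G x p : G.O) : F) = aeval (x : F) (p.map A.subtype) := by
  have h1 := Polynomial.hom_eval₂ p (m18c_const G) G.O.subtype x
  have h2 : (G.O.subtype.comp (m18c_const G)) = (algebraMap K F).comp A.subtype := by
    ext y
    rfl
  rw [h2] at h1
  rw [Polynomial.aeval_def, Polynomial.eval₂_map]
  exact h1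

theorem m18nrm_red_evA (x : G.O) (p : A[X]) :
    G.red (m18nrm_evA G x p) = aeval (G.red x) (p.map (IsLocalRing.residue A)) := by
  have h1 := Polynomial.hom_eval₂ p (m18c_const G) G.red x
  have h2 : (G.red.comp (m18c_const G))
      = (algebraMap (IsLocalRing.ResidueField A) Fk).comp (IsLocalRing.residue A) := by
    ext y
    exact m18c_red_const G y
  rw [h2] at h1
  rw [Polynomial.aeval_def, Polynomial.eval₂_map]
  exact h1

theorem m18nrm_aeval_mem (xt : Fk) (p : (IsLocalRing.ResidueField A)[X]) :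
    aeval xt p ∈ (IsLocalRing.ResidueField A)⟮xt⟯ := by
  have h1 := Polynomial.aeval_mem_adjoin_singleton (IsLocalRing.ResidueField A) (p := p) xt
  exact IntermediateField.algebra_adjoin_le_adjoin _ _ h1

/-- `red` maps `G.O ∩ K(x)` into `k(red x)`. -/
theorem m18nrm_red_mem (x : G.O)
    (hxt : Transcendental (IsLocalRing.ResidueField A) (G.red x))
    (y : G.O) (hy : (y : F) ∈ K⟮(x : F)⟯) :
    G.red y ∈ (IsLocalRing.ResidueField A)⟮G.red x⟯ := by
  classical
  obtain ⟨P, Q, hPQ⟩ := (IntermediateField.mem_adjoin_simple_iff K (y : F)).mp hy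
  by_cases hP : P = 0
  · have : y = 0 := by
      apply Subtype.ext
      rw [hPQ, hP, map_zero, zero_div]
      rfl
    rw [this, map_zero]
    exact zero_mem _
  by_cases hQ : Q = 0
  · have : y = 0 := by
      apply Subtype.ext
      rw [hPQ, hQ, map_zero, div_zero]
      rfl
    rw [this, map_zero]
    exact zero_mem _
  obtain ⟨c, P₁, hc, hP₁, hP₁'⟩ := m18nrm_prim A P hP
  obtain ⟨d, Q₁, hd, hQ₁, hQ₁'⟩ := m18nrm_prim A Q hQ
  set p : G.O := m18nrm_evA G x P₁ with hp
  set q : G.O := m18nrm_evA G x Q₁ with hq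
  have hpF : (p : F) = algebraMap K F c * aeval (x : F) P := by
    rw [hp, m18nrm_evA_coe, hP₁, map_mul, Polynomial.aeval_C]
  have hqF : (q : F) = algebraMap K F d * aeval (x : F) Q := by
    rw [hq, m18nrm_evA_coe, hQ₁, map_mul, Polynomial.aeval_C]
  have hpred : G.red p ≠ 0 := by
    rw [hp, m18nrm_red_evA]
    intro h0
    exact hP₁' (transcendental_iff.mp hxt _ h0)
  have hqred : G.red q ≠ 0 := by
    rw [hq, m18nrm_red_evA]
    intro h0
    exact hQ₁' (transcendental_iff.mp hxt _ h0)
  obtain ⟨pi, hpi⟩ := (G.isUnit_of_red_ne_zero p hpred).exists_right_inv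
  obtain ⟨qi, hqi⟩ := (G.isUnit_of_red_ne_zero q hqred).exists_right_inv
  have hpiF : (p : F) * (pi : F) = 1 := congrArg Subtype.val hpi
  have hqiF : (q : F) * (qi : F) = 1 := congrArg Subtype.val hqi
  have hp0 : (p : F) ≠ 0 := left_ne_zero_of_mul_eq_one hpiF
  have hq0 : (q : F) ≠ 0 := left_ne_zero_of_mul_eq_one hqiF
  have hcF : algebraMap K F c ≠ 0 := by
    rw [Ne, map_eq_zero_iff _ (algebraMap K F).injective]
    exact hc
  have hdF : algebraMap K F d ≠ 0 := by
    rw [Ne, map_eq_zero_iff _ (algebraMap K F).injective]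
    exact hd
  have haP : aeval (x : F) P ≠ 0 := by
    intro h0
    rw [h0, mul_zero] at hpF
    exact hp0 hpF
  have haQ : aeval (x : F) Q ≠ 0 := by
    intro h0
    rw [h0, mul_zero] at hqF
    exact hq0 hqF
  -- `y = (d / c) * p * qi`
  have hyF : (y : F) = algebraMap K F (d / c) * ((p : F) * (qi : F)) := by
    have hqi' : (qi : F) = (q : F)⁻¹ := eq_inv_of_mul_eq_one_right hqiF
    rw [hPQ, hqi', hpF, hqF, map_div₀]
    field_simp
  -- hence `d / c ∈ A`
  have hdc : algebraMap K F (d / c) ∈ G.O := by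
    have h1 : algebraMap K F (d / c) = (y : F) * ((q : F) * (pi : F)) := by
      rw [hyF]
      have : (p : F) * (qi : F) * ((q : F) * (pi : F)) = 1 := by
        calc (p : F) * (qi : F) * ((q : F) * (pi : F))
            = ((p : F) * (pi : F)) * ((q : F) * (qi : F)) := by ring
          _ = 1 := by rw [hpiF, hqiF, one_mul]
      rw [mul_assoc, this, mul_one]
    rw [h1]
    exact (y * (q * pi)).2
  have hdcA : d / c ∈ A := m18c_mem_of_const_mem G hdc
  have hy' : y = m18c_const G ⟨d / c, hdcA⟩ * (p * qi) := by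
    apply Subtype.ext
    rw [hyF]
    rfl
  have hqired : G.red qi = (G.red q)⁻¹ := by
    apply eq_inv_of_mul_eq_one_right
    rw [← map_mul, hqi, map_one]
  rw [hy', map_mul, map_mul, m18c_red_const, hqired]
  apply mul_mem
  · exact IntermediateField.algebraMap_mem _ _
  · apply mul_mem
    · rw [hp, m18nrm_red_evA]
      exact m18nrm_aeval_mem _ _
    · apply inv_mem
      rw [hq, m18nrm_red_evA]
      exact m18nrm_aeval_mem _ _

/-- the Gauss valuation ring of `K(x)`. -/
def m18nrm_OG (x : G.O) : ValuationSubring K⟮(x : F)⟯ :=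
  G.O.comap (algebraMap K⟮(x : F)⟯ F)

/-- the inclusion of the Gauss ring of `K(x)` into the Gauss ring of `F`. -/
def m18nrm_inclG (x : G.O) : m18nrm_OG G x →+* G.O where
  toFun y := ⟨algebraMap K⟮(x : F)⟯ F (y : K⟮(x : F)⟯), y.2⟩
  map_one' := by
    apply Subtype.ext
    simp
  map_mul' a b := by
    apply Subtype.ext
    simp
  map_zero' := by
    apply Subtype.ext
    simp
  map_add' a b := by
    apply Subtype.ext
    simp

/-- the reduction of the Gauss ring of `K(x)`, with values in `k(red x)`. -/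
def m18nrm_redG (x : G.O) (hxt : Transcendental (IsLocalRing.ResidueField A) (G.red x)) :
    m18nrm_OG G x →+* (IsLocalRing.ResidueField A)⟮G.red x⟯ :=
  (G.red.comp (m18nrm_inclG G x)).codRestrict _ (fun y =>
    m18nrm_red_mem G x hxt (m18nrm_inclG G x y) (y : K⟮(x : F)⟯).2)

/-- `G.red` on the subring underlying `G.O`. -/
def m18nrm_redS : G.O.toSubring →+* Fk := G.red

theorem m18nrm_setupG (x : G.O)
    (hxt : Transcendental (IsLocalRing.ResidueField A) (G.red x)) :
    m18nrm_Setup (m18nrm_OG G x) (m18nrm_redG G x hxt) G.O.toSubring (m18nrm_redS G) where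
  ker := by
    intro y hy
    apply Subtype.ext
    show G.red (m18nrm_inclG G x y) = 0
    by_contra hne
    apply hy
    obtain ⟨z, hz⟩ := (G.isUnit_of_red_ne_zero _ hne).exists_right_inv
    have hzF : algebraMap K⟮(x : F)⟯ F (y : K⟮(x : F)⟯) * (z : F) = 1 := congrArg Subtype.val hz
    have hy0 : (y : K⟮(x : F)⟯) ≠ 0 := by
      intro h0
      rw [h0, map_zero, zero_mul] at hzF
      exact zero_ne_one hzF
    have hzinv : (z : F) = algebraMap K⟮(x : F)⟯ F (y : K⟮(x : F)⟯)⁻¹ := by
      rw [map_inv₀]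
      exact eq_inv_of_mul_eq_one_right hzF
    have hmem : (y : K⟮(x : F)⟯)⁻¹ ∈ m18nrm_OG G x := by
      show algebraMap K⟮(x : F)⟯ F (y : K⟮(x : F)⟯)⁻¹ ∈ G.O
      rw [← hzinv]
      exact z.2
    refine IsUnit.of_mul_eq_one ⟨(y : K⟮(x : F)⟯)⁻¹, hmem⟩ ?_
    apply Subtype.ext
    show (y : K⟮(x : F)⟯) * (y : K⟮(x : F)⟯)⁻¹ = 1
    exact mul_inv_cancel₀ hy0
  map_mem := fun y => y.2
  compat := fun y => rfl

/-- **the derivative of the minimal polynomial reduces** (Gauss pair `K(x) ⊂ F`). -/
theorem m18nrm_gauss_derivative (x : G.O)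
    (hxt : Transcendental (IsLocalRing.ResidueField A) (G.red x))
    [FiniteDimensional (IsLocalRing.ResidueField A)⟮G.red x⟯ Fk]
    (hsurj : Function.Surjective G.red)
    (hd : finrank K⟮(x : F)⟯ F = finrank (IsLocalRing.ResidueField A)⟮G.red x⟯ Fk)
    (s : G.O) (hgen : ((IsLocalRing.ResidueField A)⟮G.red x⟯)⟮G.red s⟯ = ⊤) :
    (K⟮(x : F)⟯)⟮(s : F)⟯ = ⊤ ∧
      ∃ y : G.O, (y : F) = aeval (s : F) (derivative (minpoly K⟮(x : F)⟯ (s : F))) ∧
        G.red y = aeval (G.red s)
          (derivative (minpoly (IsLocalRing.ResidueField A)⟮G.red x⟯ (G.red s))) := by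
  classical
  set bt := Module.finBasis (IsLocalRing.ResidueField A)⟮G.red x⟯ Fk with hbt
  have hex : ∀ i, ∃ w : G.O.toSubring, m18nrm_redS G w = bt i := fun i => by
    obtain ⟨w, hw⟩ := hsurj (bt i)
    exact ⟨w, hw⟩
  choose ω hω using hex
  have hd' : finrank K⟮(x : F)⟯ F
      = Fintype.card (Fin (finrank (IsLocalRing.ResidueField A)⟮G.red x⟯ Fk)) := by
    rw [Fintype.card_fin]
    exact hd
  obtain ⟨h1, y, hy1, hy2⟩ := m18nrm_derivative (m18nrm_setupG G x hxt) bt ω hω hd'
    (s : G.O.toSubring) hgen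
  exact ⟨h1, y, hy1, hy2⟩

end gauss

end Fermat.Agent.M18

end
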