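import Fermat.Agent.M18.NrmAsm
import Fermat.Agent.M18.NrmDiff
import Fermat.Agent.M18.NrmGauss

/-!
# M18 (S18 project), block (NRM): the local comparison of the divisors of `dx`

Owner helper2, prefix `m18nrm_`.  Abstract setting of `Defs.lean` (`G : m18_Gauss A r`),
`x : G.O` a Gauss unit, `W = m18rr_W x` on `F`, `W~ = m18rr_W (red x)` on `Fk`.

* `m18nrm_local_fin`: at a place `Q` of `Fk` with `red x (Q) = c`: if `s : G.O` is integral over
  `K[x]`, `red s` is integral over `k[red x]`, has a simple zero at `Q` and does not vanish at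
  the other places over `c`, then `Σ_{P ∈ U_Q} W(P) ≤ W~(Q)` in the form `m18nrm_Local`.
-/

set_option autoImplicit false
set_option linter.style.haveILetI false
set_option linter.unusedSectionVars false
set_option linter.unusedVariables false
set_option linter.deprecated false

noncomputable section

namespace Fermat.Agent.M18

open AlgebraicCurve IntermediateField Polynomial Module

section conv

variable {F E : Type*} [Field F] [Field E] [Algebra F E]

theorem m18nrm_adjoin_top_of_field (s : E) (hs : IsAlgebraic F s)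
    (h : Algebra.adjoin F {s} = ⊤) : F⟮s⟯ = ⊤ := by
  apply IntermediateField.toSubalgebra_injective
  rw [IntermediateField.adjoin_simple_toSubalgebra_of_isAlgebraic hs, h,
    IntermediateField.top_toSubalgebra]

theorem m18nrm_field_top_of_adjoin (s : E) (hs : IsAlgebraic F s)
    (h : F⟮s⟯ = ⊤) : Algebra.adjoin F {s} = ⊤ := by
  rw [← IntermediateField.adjoin_simple_toSubalgebra_of_isAlgebraic hs, h,
    IntermediateField.top_toSubalgebra]

end conv

section local_

variable {K F Fk : Type*} [Field K] [Field F] [Algebra K F] {A : ValuationSubring K}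
  [Field Fk] [Algebra (IsLocalRing.ResidueField A) Fk]
  {r : Place K F → Place (IsLocalRing.ResidueField A) Fk} (G : m18_Gauss A r)
  [IsAlgClosed K] [IsAlgClosed (IsLocalRing.ResidueField A)]

/-- **the local comparison at a finite place** (chart `x`). -/
theorem m18nrm_local_fin (x : G.O) (hx : Transcendental K (x : F))
    [FiniteDimensional K⟮(x : F)⟯ F] [Algebra.IsSeparable K⟮(x : F)⟯ F]
    (hxt : Transcendental (IsLocalRing.ResidueField A) (G.red x))
    [FiniteDimensional (IsLocalRing.ResidueField A)⟮G.red x⟯ Fk]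
    [Algebra.IsSeparable (IsLocalRing.ResidueField A)⟮G.red x⟯ Fk]
    (hsurj : Function.Surjective G.red)
    (hd : finrank K⟮(x : F)⟯ F = finrank (IsLocalRing.ResidueField A)⟮G.red x⟯ Fk)
    (htube : ∀ P : Place K F, 0 ≤ (r P).ord (G.red x) → 0 ≤ P.ord (x : F))
    (Q : Place (IsLocalRing.ResidueField A) Fk) (c : IsLocalRing.ResidueField A)
    (hc : 0 < Q.ord (G.red x - algebraMap (IsLocalRing.ResidueField A) Fk c))
    (s : G.O) (hs : IsIntegral (Algebra.adjoin K ({(x : F)} : Set F)) (s : F))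
    (hst : IsIntegral (Algebra.adjoin (IsLocalRing.ResidueField A) ({G.red x} : Set Fk))
      (G.red s))
    (hs1 : Q.ord (G.red s) = 1)
    (hs2 : ∀ Q₂ : Place (IsLocalRing.ResidueField A) Fk, Q₂ ≠ Q →
      0 < Q₂.ord (G.red x - algebraMap (IsLocalRing.ResidueField A) Fk c) →
      Q₂.ord (G.red s) ≤ 0) :
    m18nrm_Local G (m18rr_W (K := K) (x : F))
      (m18rr_W (K := IsLocalRing.ResidueField A) (G.red x)) Q := by
  classical
  obtain ⟨hgen_k, hle⟩ := m18nrm_le_W (G.red x) hxt Q c hc (G.red s) hst hs1 hs2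
  have halg_k : IsAlgebraic (IsLocalRing.ResidueField A)⟮G.red x⟯ (G.red s) :=
    Algebra.IsAlgebraic.isAlgebraic _
  have hgen_k' := m18nrm_adjoin_top_of_field (G.red s) halg_k hgen_k
  obtain ⟨hgenK, y, hy1, hy2⟩ := m18nrm_gauss_derivative G x hxt hsurj hd s hgen_k'
  have halg : IsAlgebraic K⟮(x : F)⟯ (s : F) := Algebra.IsAlgebraic.isAlgebraic _
  have hgenK' := m18nrm_field_top_of_adjoin (s : F) halg hgenK
  have hne : aeval (G.red s)
      (derivative (minpoly (IsLocalRing.ResidueField A)⟮G.red x⟯ (G.red s))) ≠ 0 :=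
    (Algebra.IsSeparable.isSeparable (IsLocalRing.ResidueField A)⟮G.red x⟯
      (G.red s)).aeval_derivative_ne_zero (minpoly.aeval _ _)
  have hQx : 0 ≤ Q.ord (G.red x) := by
    have h1 : G.red x - algebraMap (IsLocalRing.ResidueField A) Fk c ∈ Q.toValuationSubring :=
      Fermat.Agent.S24.alga_mem_of_ord_nonneg Q hc.le
    have h2 : algebraMap (IsLocalRing.ResidueField A) Fk c ∈ Q.toValuationSubring :=
      Q.algebraMap_mem' c
    have h3 := Q.toValuationSubring.add_mem _ _ h1 h2
    rw [sub_add_cancel] at h3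
    exact Fermat.Agent.S24.alga_ord_nonneg_of_mem Q h3
  refine ⟨y, ?_, ?_, ?_⟩
  · rw [hy2]
    exact hne
  · intro P hP
    rw [hy1]
    have hPx : 0 ≤ P.ord (x : F) := htube P (by rw [hP]; exact hQx)
    exact m18nrm_W_le (x : F) hx (s : F) hs hgenK' P hPx
  · rw [hy2]
    exact hle

theorem m18nrm_finrank_congr {E E' : IntermediateField K F} (h : E = E') :
    finrank E F = finrank E' F := by
  subst h
  rfl

theorem m18nrm_finrank_congr_k {E E' : IntermediateField (IsLocalRing.ResidueField A) Fk}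
    (h : E = E') : finrank E Fk = finrank E' Fk := by
  subst h
  rfl

/-- **the local comparison at a pole** (chart `x⁻¹`). -/
theorem m18nrm_local_inf (x xi : G.O) (hxxi : x * xi = 1) (hx : Transcendental K (x : F))
    [FiniteDimensional K⟮(x : F)⟯ F] [Algebra.IsSeparable K⟮(x : F)⟯ F]
    (hxt : Transcendental (IsLocalRing.ResidueField A) (G.red x))
    [FiniteDimensional (IsLocalRing.ResidueField A)⟮G.red x⟯ Fk]
    [Algebra.IsSeparable (IsLocalRing.ResidueField A)⟮G.red x⟯ Fk]
    (hsurj : Function.Surjective G.red)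
    (hd : finrank K⟮(x : F)⟯ F = finrank (IsLocalRing.ResidueField A)⟮G.red x⟯ Fk)
    (htubei : ∀ P : Place K F, (r P).ord (G.red x) ≤ 0 → P.ord (x : F) ≤ 0)
    (hchart : ∀ P : Place K F,
      m18rr_W (K := K) ((x : F)⁻¹) P = m18rr_W (K := K) (x : F) P - 2 * P.ord (x : F))
    (Q : Place (IsLocalRing.ResidueField A) Fk) (hQ : Q.ord (G.red x) < 0)
    (s : G.O) (hs : IsIntegral (Algebra.adjoin K ({(x : F)⁻¹} : Set F)) (s : F))
    (hst : IsIntegral (Algebra.adjoin (IsLocalRing.ResidueField A) ({(G.red x)⁻¹} : Set Fk))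
      (G.red s))
    (hs1 : Q.ord (G.red s) = 1)
    (hs2 : ∀ Q₂ : Place (IsLocalRing.ResidueField A) Fk, Q₂ ≠ Q →
      Q₂.ord (G.red x) < 0 → Q₂.ord (G.red s) ≤ 0) :
    m18nrm_Local G (m18rr_W (K := K) (x : F))
      (m18rr_W (K := IsLocalRing.ResidueField A) (G.red x)) Q := by
  classical
  have hxxiF : (x : F) * (xi : F) = 1 := congrArg Subtype.val hxxi
  have hxiF : (xi : F) = (x : F)⁻¹ := eq_inv_of_mul_eq_one_right hxxiF
  have hxit : G.red xi = (G.red x)⁻¹ := by
    apply eq_inv_of_mul_eq_one_right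
    rw [← map_mul, hxxi, map_one]
  have hxtne : G.red x ≠ 0 := by
    intro h0
    rw [h0] at hxt
    exact hxt isAlgebraic_zero
  have hxne : (x : F) ≠ 0 := left_ne_zero_of_mul_eq_one hxxiF
  -- the instances for the chart `x⁻¹`
  haveI hfdi : FiniteDimensional K⟮(xi : F)⟯ F := by
    rw [hxiF]
    exact m18rr_fd_inv (K := K) (x : F)
  haveI hsepi : Algebra.IsSeparable K⟮(xi : F)⟯ F := by
    rw [hxiF]
    exact m18rr_sep_inv (K := K) (x : F)
  haveI hfdti : FiniteDimensional (IsLocalRing.ResidueField A)⟮G.red xi⟯ Fk := by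
    rw [hxit]
    exact m18rr_fd_inv (K := IsLocalRing.ResidueField A) (G.red x)
  haveI hsepti : Algebra.IsSeparable (IsLocalRing.ResidueField A)⟮G.red xi⟯ Fk := by
    rw [hxit]
    exact m18rr_sep_inv (K := IsLocalRing.ResidueField A) (G.red x)
  haveI hfdti' : FiniteDimensional (IsLocalRing.ResidueField A)⟮(G.red x)⁻¹⟯ Fk :=
    m18rr_fd_inv (K := IsLocalRing.ResidueField A) (G.red x)
  haveI hsepti' : Algebra.IsSeparable (IsLocalRing.ResidueField A)⟮(G.red x)⁻¹⟯ Fk :=
    m18rr_sep_inv (K := IsLocalRing.ResidueField A) (G.red x)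
  have hxi : Transcendental K (xi : F) := by
    rw [hxiF]
    exact Fermat.Agent.S24.algaz_transcendental_inv hx
  have hxti : Transcendental (IsLocalRing.ResidueField A) (G.red xi) := by
    rw [hxit]
    exact Fermat.Agent.S24.algaz_transcendental_inv hxt
  have hxti' : Transcendental (IsLocalRing.ResidueField A) (G.red x)⁻¹ :=
    Fermat.Agent.S24.algaz_transcendental_inv hxt
  have hdi : finrank K⟮(xi : F)⟯ F = finrank (IsLocalRing.ResidueField A)⟮G.red xi⟯ Fk := by
    have e1 : K⟮(xi : F)⟯ = K⟮(x : F)⟯ := by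
      rw [hxiF]
      exact Fermat.Agent.S24.algaz_adjoin_inv (K := K) (x : F)
    have e2 : (IsLocalRing.ResidueField A)⟮G.red xi⟯ = (IsLocalRing.ResidueField A)⟮G.red x⟯ := by
      rw [hxit]
      exact Fermat.Agent.S24.algaz_adjoin_inv (K := IsLocalRing.ResidueField A) (G.red x)
    rw [m18nrm_finrank_congr e1, m18nrm_finrank_congr_k e2]
    exact hd
  have htube' : ∀ P : Place K F, 0 ≤ (r P).ord (G.red xi) → 0 ≤ P.ord (xi : F) := by
    intro P hP
    rw [hxit, Place.ord_inv] at hP
    rw [hxiF, Place.ord_inv]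
    have := htubei P (by omega)
    omega
  have hc : 0 < Q.ord (G.red xi - algebraMap (IsLocalRing.ResidueField A) Fk 0) := by
    rw [map_zero, sub_zero, hxit, Place.ord_inv]
    omega
  have hs' : IsIntegral (Algebra.adjoin K ({(xi : F)} : Set F)) (s : F) := by
    rw [hxiF]
    exact hs
  have hst' : IsIntegral (Algebra.adjoin (IsLocalRing.ResidueField A) ({G.red xi} : Set Fk))
      (G.red s) := by
    rw [hxit]
    exact hst
  have hs2' : ∀ Q₂ : Place (IsLocalRing.ResidueField A) Fk, Q₂ ≠ Q →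
      0 < Q₂.ord (G.red xi - algebraMap (IsLocalRing.ResidueField A) Fk 0) →
      Q₂.ord (G.red s) ≤ 0 := by
    intro Q₂ hne hpos
    rw [map_zero, sub_zero, hxit, Place.ord_inv] at hpos
    exact hs2 Q₂ hne (by omega)
  obtain ⟨y, hy0, hy1, hy2⟩ :=
    m18nrm_local_fin G xi hxi hxti hsurj hdi htube' Q 0 hc s hs' hst' hs1 hs2'
  have hyF : (y : F) ≠ 0 := m18c_ne_zero_of_red_ne_zero G hy0
  refine ⟨y * x * x, ?_, ?_, ?_⟩
  · rw [map_mul, map_mul]
    exact mul_ne_zero (mul_ne_zero hy0 hxtne) hxtne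
  · intro P hP
    have h1 := hy1 P hP
    have h2 := hchart P
    have h3 : P.ord (((y * x * x : G.O) : F)) = P.ord (y : F) + 2 * P.ord (x : F) := by
      show P.ord ((y : F) * (x : F) * (x : F)) = _
      rw [P.ord_mul (mul_ne_zero hyF hxne) hxne, P.ord_mul hyF hxne]
      ring
    rw [h3]
    have h4 : m18rr_W (K := K) (xi : F) P = m18rr_W (K := K) ((x : F)⁻¹) P := by
      rw [hxiF]
    rw [h4, h2] at h1
    omega
  · have h3 : Q.ord (G.red (y * x * x)) = Q.ord (G.red y) + 2 * Q.ord (G.red x) := by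
      rw [map_mul, map_mul, Q.ord_mul (mul_ne_zero hy0 hxtne) hxtne, Q.ord_mul hy0 hxtne]
      ring
    rw [h3]
    have h4 : m18rr_W (K := IsLocalRing.ResidueField A) (G.red xi) Q
        = m18rr_dfin (K := IsLocalRing.ResidueField A) (G.red x)⁻¹ Q := by
      rw [hxit]
      apply m18rr_W_fin (G.red x)⁻¹ hxti' Q
      rw [Place.ord_inv]
      omega
    have h5 := m18rr_W_inf (G.red x) hxt Q hQ
    rw [h4] at hy2
    rw [h5]
    omega

end local_

end Fermat.Agent.M18

end
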