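import Fermat.Agent.M18.NrmLoc
import Fermat.Agent.M18.RrV
import Fermat.Agent.M18.RrMain

/-!
# M18 (S18 project), block (NRM): the genus inequality `g ≤ g~` (abstract form)

Owner helper2, prefix `m18nrm_`.  Abstract setting of `Defs.lean` (`G : m18_Gauss A r`),
`x : G.O` a Gauss unit with inverse `xi`.

* `m18nrm_htube`, `m18nrm_htubei`: poles of `x` specialise to poles of `red x` and zeros of `x`
  to zeros of `red x`, from `[F : K(x)] = [Fk : k(red x)]` and (H-loc).
* `m18nrm_main_of_elts`: if every place `Q` of `Fk` admits a Gauss-integral `s`, integral over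
  `K[x]` (resp. `K[x⁻¹]` if `Q` is a pole of `red x`), whose reduction is integral over
  `k[red x]` (resp. `k[(red x)⁻¹]`), has a simple zero at `Q` and does not vanish at the other
  places over `red x (Q)`, then `ℓ(W_x) ≤ ℓ(W~_{red x})`.
-/

set_option autoImplicit false
set_option linter.style.haveILetI false
set_option linter.unusedSectionVars false
set_option linter.unusedVariables false
set_option linter.deprecated false

noncomputable section

namespace Fermat.Agent.M18

open AlgebraicCurve IntermediateField Polynomial Module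

variable {K F Fk : Type*} [Field K] [Field F] [Algebra K F] {A : ValuationSubring K}
  [Field Fk] [Algebra (IsLocalRing.ResidueField A) Fk]
  {r : Place K F → Place (IsLocalRing.ResidueField A) Fk} (G : m18_Gauss A r)
  [IsAlgClosed K] [IsAlgClosed (IsLocalRing.ResidueField A)]

/-- poles of `x` specialise to poles of `red x`. -/
theorem m18nrm_htube [HasPrincipalDivisors K F] (hdeg : ∀ P, (r P).deg = P.deg)
    (x : G.O) (hx : Transcendental K (x : F))
    [FiniteDimensional K⟮(x : F)⟯ F] [Algebra.IsSeparable K⟮(x : F)⟯ F]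
    (hxt : Transcendental (IsLocalRing.ResidueField A) (G.red x))
    [FiniteDimensional (IsLocalRing.ResidueField A)⟮G.red x⟯ Fk]
    [Algebra.IsSeparable (IsLocalRing.ResidueField A)⟮G.red x⟯ Fk]
    (hd : finrank K⟮(x : F)⟯ F = finrank (IsLocalRing.ResidueField A)⟮G.red x⟯ Fk)
    (P : Place K F) (hP : 0 ≤ (r P).ord (G.red x)) : 0 ≤ P.ord (x : F) := by
  have hxtne : G.red x ≠ 0 := by
    intro h0
    rw [h0] at hxt
    exact hxt isAlgebraic_zero
  refine m18nrm_tube_finite G hdeg
    (fun Q => by rw [m18rr_deg_eq_one (G.red x) Q]; exact Nat.one_pos) x hxtne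
    (m18rr_polar (K := K) (x : F)) (fun P => ?_)
    (m18rr_polar (K := IsLocalRing.ResidueField A) (G.red x)) (fun Q => ?_) ?_ P hP
  · rw [m18rr_polar_apply (x : F) hx]
    rcases le_total (P.ord (x : F)) 0 with h | h
    · rw [min_eq_left h, max_eq_left (by omega)]
    · rw [min_eq_right h, max_eq_right (by omega)]
      simp
  · rw [m18rr_polar_apply (G.red x) hxt]
    rcases le_total (Q.ord (G.red x)) 0 with h | h
    · rw [min_eq_left h, max_eq_left (by omega)]
    · rw [min_eq_right h, max_eq_right (by omega)]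
      simp
  · rw [m18rr_degree_polar (x : F) hx, m18rr_degree_polar (G.red x) hxt, hd]

/-- zeros of `x` specialise to zeros of `red x`. -/
theorem m18nrm_htubei [HasPrincipalDivisors K F] (hdeg : ∀ P, (r P).deg = P.deg)
    (x xi : G.O) (hxxi : x * xi = 1) (hx : Transcendental K (x : F))
    [FiniteDimensional K⟮(x : F)⟯ F] [Algebra.IsSeparable K⟮(x : F)⟯ F]
    (hxt : Transcendental (IsLocalRing.ResidueField A) (G.red x))
    [FiniteDimensional (IsLocalRing.ResidueField A)⟮G.red x⟯ Fk]
    [Algebra.IsSeparable (IsLocalRing.ResidueField A)⟮G.red x⟯ Fk]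
    (hd : finrank K⟮(x : F)⟯ F = finrank (IsLocalRing.ResidueField A)⟮G.red x⟯ Fk)
    (P : Place K F) (hP : (r P).ord (G.red x) ≤ 0) : P.ord (x : F) ≤ 0 := by
  have hxxiF : (x : F) * (xi : F) = 1 := congrArg Subtype.val hxxi
  have hxiF : (xi : F) = (x : F)⁻¹ := eq_inv_of_mul_eq_one_right hxxiF
  have hxit : G.red xi = (G.red x)⁻¹ := by
    apply eq_inv_of_mul_eq_one_right
    rw [← map_mul, hxxi, map_one]
  haveI hfdi : FiniteDimensional K⟮(xi : F)⟯ F := by
    rw [hxiF]
    exact m18rr_fd_inv (K := K) (x : F)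
  haveI hsepi : Algebra.IsSeparable K⟮(xi : F)⟯ F := by
    rw [hxiF]
    exact m18rr_sep_inv (K := K) (x : F)
  haveI hfdti : FiniteDimensional (IsLocalRing.ResidueField A)⟮G.red xi⟯ Fk := by
    rw [hxit]
    exact m18rr_fd_inv (K := IsLocalRing.ResidueField A) (G.red x)
  haveI hsepti : Algebra.IsSeparable (IsLocalRing.ResidueField A)⟮G.red xi⟯ Fk := by
    rw [hxit]
    exact m18rr_sep_inv (K := IsLocalRing.ResidueField A) (G.red x)
  have hxi : Transcendental K (xi : F) := by
    rw [hxiF]
    exact Fermat.Agent.S24.algaz_transcendental_inv hx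
  have hxti : Transcendental (IsLocalRing.ResidueField A) (G.red xi) := by
    rw [hxit]
    exact Fermat.Agent.S24.algaz_transcendental_inv hxt
  have hdi : finrank K⟮(xi : F)⟯ F = finrank (IsLocalRing.ResidueField A)⟮G.red xi⟯ Fk := by
    have e1 : K⟮(xi : F)⟯ = K⟮(x : F)⟯ := by
      rw [hxiF]
      exact Fermat.Agent.S24.algaz_adjoin_inv (K := K) (x : F)
    have e2 : (IsLocalRing.ResidueField A)⟮G.red xi⟯ = (IsLocalRing.ResidueField A)⟮G.red x⟯ := by
      rw [hxit]
      exact Fermat.Agent.S24.algaz_adjoin_inv (K := IsLocalRing.ResidueField A) (G.red x)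
    rw [m18nrm_finrank_congr e1, m18nrm_finrank_congr_k e2]
    exact hd
  have h1 := m18nrm_htube G hdeg xi hxi hxti hdi P (by
    rw [hxit, Place.ord_inv]
    omega)
  rw [hxiF, Place.ord_inv] at h1
  omega

/-- **the genus inequality** from the existence of the elements `s`. -/
theorem m18nrm_main_of_elts [HasPrincipalDivisors K F] (hdeg : ∀ P, (r P).deg = P.deg)
    (x xi : G.O) (hxxi : x * xi = 1) (hx : Transcendental K (x : F))
    [FiniteDimensional K⟮(x : F)⟯ F] [Algebra.IsSeparable K⟮(x : F)⟯ F]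
    (hxt : Transcendental (IsLocalRing.ResidueField A) (G.red x))
    [FiniteDimensional (IsLocalRing.ResidueField A)⟮G.red x⟯ Fk]
    [Algebra.IsSeparable (IsLocalRing.ResidueField A)⟮G.red x⟯ Fk]
    (hsurj : Function.Surjective G.red)
    (hd : finrank K⟮(x : F)⟯ F = finrank (IsLocalRing.ResidueField A)⟮G.red x⟯ Fk)
    (hchart : ∀ P : Place K F,
      m18rr_W (K := K) ((x : F)⁻¹) P = m18rr_W (K := K) (x : F) P - 2 * P.ord (x : F))
    (hfin : ∀ (Q : Place (IsLocalRing.ResidueField A) Fk) (c : IsLocalRing.ResidueField A),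
      0 < Q.ord (G.red x - algebraMap (IsLocalRing.ResidueField A) Fk c) →
      ∃ s : G.O, IsIntegral (Algebra.adjoin K ({(x : F)} : Set F)) (s : F) ∧
        IsIntegral (Algebra.adjoin (IsLocalRing.ResidueField A) ({G.red x} : Set Fk))
          (G.red s) ∧
        Q.ord (G.red s) = 1 ∧
        ∀ Q₂ : Place (IsLocalRing.ResidueField A) Fk, Q₂ ≠ Q →
          0 < Q₂.ord (G.red x - algebraMap (IsLocalRing.ResidueField A) Fk c) →
          Q₂.ord (G.red s) ≤ 0)
    (hinf : ∀ Q : Place (IsLocalRing.ResidueField A) Fk, Q.ord (G.red x) < 0 →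
      ∃ s : G.O, IsIntegral (Algebra.adjoin K ({(x : F)⁻¹} : Set F)) (s : F) ∧
        IsIntegral (Algebra.adjoin (IsLocalRing.ResidueField A) ({(G.red x)⁻¹} : Set Fk))
          (G.red s) ∧
        Q.ord (G.red s) = 1 ∧
        ∀ Q₂ : Place (IsLocalRing.ResidueField A) Fk, Q₂ ≠ Q →
          Q₂.ord (G.red x) < 0 → Q₂.ord (G.red s) ≤ 0) :
    finrank K (riemannRochSpace (m18rr_W (K := K) (x : F)))
      ≤ finrank (IsLocalRing.ResidueField A)
          (riemannRochSpace (m18rr_W (K := IsLocalRing.ResidueField A) (G.red x))) := by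
  classical
  have hloc : ∀ Q : Place (IsLocalRing.ResidueField A) Fk,
      m18nrm_Local G (m18rr_W (K := K) (x : F))
        (m18rr_W (K := IsLocalRing.ResidueField A) (G.red x)) Q := by
    intro Q
    by_cases hQ : 0 ≤ Q.ord (G.red x)
    · obtain ⟨c, hc⟩ := m18rr_exists_val (G.red x) hxt Q hQ
      obtain ⟨s, hs, hst, hs1, hs2⟩ := hfin Q c hc
      exact m18nrm_local_fin G x hx hxt hsurj hd
        (fun P hP => m18nrm_htube G hdeg x hx hxt hd P hP) Q c hc s hs hst hs1 hs2
    · rw [not_le] at hQ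
      obtain ⟨s, hs, hst, hs1, hs2⟩ := hinf Q hQ
      exact m18nrm_local_inf G x xi hxxi hx hxt hsurj hd
        (fun P hP => m18nrm_htubei G hdeg x xi hxxi hx hxt hd P hP) hchart Q hQ s hs hst hs1 hs2
  have h1 := m18nrm_degree_le G hdeg _ _ hloc
  rw [m18rr_deg_W (x : F) hx, m18rr_deg_W (G.red x) hxt] at h1
  omega

end Fermat.Agent.M18

end
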