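import Mathlib

/-!
# M18 / (NRP), part 1: norms of uniformisers, pure Mathlib

`R ⊆ S` Dedekind domains, `S` finite and torsion free over `R` (no separability, no perfectness,
no Galois hypothesis), `p ≠ ⊥` a maximal ideal of `R` such that every prime `P` of `S` over `p`
has residue degree one (`S = R + P`; automatic over an algebraically closed constant field,
`m18nrp_resdeg_one`).

* `m18nrp_relNorm_eq` : `relNorm R P = p` for every prime `P` over `p`
  (Mathlib's `Ideal.relNorm_eq_pow_of_isMaximal` needs a perfect fraction field; here we count: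
  `relNorm P = p ^ s_P` with `s_P ≥ 1`, `∑ e_P s_P = [S : R] = ∑ e_P`);
* `m18nrp_not_dvd_relNorm` : an ideal prime to `p S` has relative norm prime to `p`;
* `m18nrp_exists_simple` : (Chinese remainder theorem) `t ∈ P₁ \ P₁ ^ 2`, `t ∉ P` for the other
  primes `P` over `p`;
* `m18nrp_intNorm_of_simple` : for such `t`, `intNorm t ∈ p \ p ^ 2`;
* `m18nrp_exists_core` : existence of `t : S` with `intNorm t ∈ p \ p ^ 2`.
-/

set_option autoImplicit false
set_option linter.style.haveILetI false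
set_option linter.unusedSectionVars false
set_option linter.unusedVariables false
set_option linter.deprecated false

open Ideal

noncomputable section

namespace Fermat.Agent.M18

section core

variable (R : Type*) {S : Type*} [CommRing R] [CommRing S] [Algebra R S]
variable [IsDedekindDomain R] [IsDedekindDomain S]
  [Module.IsTorsionFree R S] [Module.Finite R S]

/-- Residue degree one: if `S = R + P`, then `S ⧸ P` is one-dimensional over `R ⧸ p`. -/
theorem m18nrp_finrank_quot_eq_one {p : Ideal R} [p.IsMaximal] (P : Ideal S) [P.IsPrime]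
    [Algebra (R ⧸ p) (S ⧸ P)] [IsScalarTower R (R ⧸ p) (S ⧸ P)]
    (hf : ∀ b : S, ∃ a : R, b - algebraMap R S a ∈ P) :
    Module.finrank (R ⧸ p) (S ⧸ P) = 1 := by
  letI := Ideal.Quotient.field p
  rw [finrank_eq_one_iff']
  refine ⟨1, one_ne_zero, fun w => ?_⟩
  obtain ⟨b, rfl⟩ := Ideal.Quotient.mk_surjective w
  obtain ⟨a, ha⟩ := hf b
  refine ⟨Ideal.Quotient.mk p a, ?_⟩
  rw [Algebra.smul_def, mul_one]
  have h1 : algebraMap (R ⧸ p) (S ⧸ P) (Ideal.Quotient.mk p a) = algebraMap R (S ⧸ P) a := by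
    rw [IsScalarTower.algebraMap_apply R (R ⧸ p) (S ⧸ P)]
    rfl
  rw [h1, IsScalarTower.algebraMap_apply R S (S ⧸ P)]
  symm
  rw [Ideal.Quotient.algebraMap_eq, Ideal.Quotient.eq]
  exact ha

theorem m18nrp_inertiaDeg_eq_one (p : Ideal R) [p.IsMaximal] (P : Ideal S) [P.IsPrime]
    [P.LiesOver p] (hf : ∀ b : S, ∃ a : R, b - algebraMap R S a ∈ P) :
    P.inertiaDeg R = 1 := by
  haveI : P.IsMaximal := Ideal.IsMaximal.of_liesOver_isMaximal P p
  rw [Ideal.inertiaDeg_eq_of_isMaximal p P]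
  exact m18nrp_finrank_quot_eq_one R P hf

theorem m18nrp_sum_ramificationIdx (p : Ideal R) [p.IsMaximal]
    (hres : ∀ P : Ideal S, P.IsPrime → P.LiesOver p → ∀ b : S, ∃ a : R, b - algebraMap R S a ∈ P) :
    ∑ Q ∈ (p.primesOver S).toFinset, Q.ramificationIdx R = Module.finrank R S := by
  classical
  have h := Ideal.sum_ramification_inertia_eq_finrank p S
  rw [← h]
  rw [← Finset.sum_set_coe]
  refine Finset.sum_congr rfl fun Q _ => ?_
  haveI : Q.1.IsPrime := Q.2.1
  haveI : Q.1.LiesOver p := Q.2.2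
  rw [m18nrp_inertiaDeg_eq_one R p Q.1 (hres Q.1 Q.2.1 Q.2.2), mul_one]

/-- `relNorm P = p ^ s` with `s ≠ 0`. -/
theorem m18nrp_exists_relNorm_eq_pow (p : Ideal R) [p.IsMaximal] (P : Ideal S) [P.IsPrime]
    [P.LiesOver p] : ∃ s : ℕ, s ≠ 0 ∧ relNorm R P = p ^ s := by
  obtain ⟨s, hs⟩ := Ideal.exists_relNorm_eq_pow_of_isPrime (R := R) P p
  refine ⟨s, ?_, hs⟩
  rintro rfl
  rw [pow_zero, Ideal.one_eq_top] at hs
  have h1 : relNorm R P ≤ comap (algebraMap R S) P := Ideal.relNorm_le_comap R P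
  rw [hs, top_le_iff, Ideal.comap_eq_top_iff] at h1
  exact (Ideal.IsPrime.ne_top inferInstance) h1

/-- Residue degree one at all primes over `p`: the relative norm of a prime over `p` is `p`. -/
theorem m18nrp_relNorm_eq (p : Ideal R) [p.IsMaximal] (hp : p ≠ ⊥)
    (hres : ∀ P : Ideal S, P.IsPrime → P.LiesOver p → ∀ b : S, ∃ a : R, b - algebraMap R S a ∈ P)
    (P : Ideal S) [P.IsPrime] [P.LiesOver p] : relNorm R P = p := by
  classical
  have hex : ∀ Q : Ideal S, ∃ s : ℕ, Q ∈ (p.primesOver S).toFinset →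
      (s ≠ 0 ∧ relNorm R Q = p ^ s) := by
    intro Q
    by_cases hQ : Q ∈ (p.primesOver S).toFinset
    · rw [Set.mem_toFinset] at hQ
      haveI : Q.IsPrime := hQ.1
      haveI : Q.LiesOver p := hQ.2
      obtain ⟨s, hs0, hs⟩ := m18nrp_exists_relNorm_eq_pow R p Q
      exact ⟨s, fun _ => ⟨hs0, hs⟩⟩
    · exact ⟨0, fun h => absurd h hQ⟩
  choose s hs using hex
  have h1 : p ^ Module.finrank R S
      = p ^ (∑ Q ∈ (p.primesOver S).toFinset, s Q * Q.ramificationIdx R) := by
    rw [← Ideal.relNorm_algebraMap S p, Ideal.map_algebraMap_eq_finsetProd_pow hp, map_prod,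
      ← Finset.prod_pow_eq_pow_sum]
    refine Finset.prod_congr rfl fun Q hQ => ?_
    rw [map_pow, (hs Q hQ).2, ← pow_mul]
  have hpne : p ≠ ⊤ := Ideal.IsPrime.ne_top inferInstance
  have h2 : Module.finrank R S = ∑ Q ∈ (p.primesOver S).toFinset, s Q * Q.ramificationIdx R := by
    by_contra hne
    rcases Nat.lt_or_gt_of_ne hne with hlt | hlt
    · exact (Ideal.pow_right_strictAnti p hp hpne hlt).ne h1.symm
    · exact (Ideal.pow_right_strictAnti p hp hpne hlt).ne h1
  have h3 := m18nrp_sum_ramificationIdx R p hres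
  have hPmem : P ∈ (p.primesOver S).toFinset := by
    rw [Set.mem_toFinset]
    exact ⟨inferInstance, inferInstance⟩
  have hsP : s P = 1 := by
    by_contra hne
    have hlt : 1 < s P := by
      have := (hs P hPmem).1
      omega
    have hePne : P.ramificationIdx R ≠ 0 := (Ideal.ramificationIdx_pos (R := R) (q := P)).ne'
    have : ∑ Q ∈ (p.primesOver S).toFinset, Q.ramificationIdx R
        < ∑ Q ∈ (p.primesOver S).toFinset, s Q * Q.ramificationIdx R := by
      apply Finset.sum_lt_sum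
      · intro Q hQ
        have := (hs Q hQ).1
        exact Nat.le_mul_of_pos_left _ (Nat.pos_of_ne_zero this)
      · refine ⟨P, hPmem, ?_⟩
        calc P.ramificationIdx R = 1 * P.ramificationIdx R := (one_mul _).symm
          _ < s P * P.ramificationIdx R :=
            Nat.mul_lt_mul_of_pos_right hlt (Nat.pos_of_ne_zero hePne)
    omega
  rw [(hs P hPmem).2, hsP, pow_one]

/-- An ideal of `S` not divisible by any prime over `p` has relative norm prime to `p`. -/
theorem m18nrp_not_dvd_relNorm (p : Ideal R) [p.IsMaximal] (hp : p ≠ ⊥) (J : Ideal S)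
    (hJ0 : J ≠ ⊥)
    (hJ : ∀ P : Ideal S, P.IsPrime → P.LiesOver p → ¬ P ∣ J) : ¬ p ∣ relNorm R J := by
  classical
  have hpprime : Prime p := Ideal.prime_of_isPrime hp inferInstance
  revert hJ0 hJ
  induction J using UniqueFactorizationMonoid.induction_on_prime with
  | h₁ => intro h; exact absurd rfl h
  | h₂ J hJu =>
    intro _ _ hdvd
    rw [Ideal.isUnit_iff] at hJu
    rw [hJu, Ideal.relNorm_top, Ideal.dvd_iff_le, top_le_iff] at hdvd
    exact (Ideal.IsPrime.ne_top inferInstance) hdvd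
  | h₃ J q hJ0 hq ih =>
    intro _ hJ hdvd
    have hq0 : q ≠ ⊥ := hq.ne_zero
    haveI hqprime : q.IsPrime := Ideal.isPrime_of_prime hq
    have ih' : ¬ p ∣ relNorm R J := ih hJ0 (fun P hP hPp hPJ => hJ P hP hPp (Dvd.dvd.mul_left hPJ q))
    rw [map_mul] at hdvd
    rcases hpprime.dvd_or_dvd hdvd with h | h
    · -- `p ∣ relNorm q`, so `q` lies over `p`
      set p' : Ideal R := q.under R with hp'
      haveI : q.LiesOver p' := ⟨rfl⟩
      haveI : p'.IsPrime := Ideal.IsPrime.under R q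
      obtain ⟨s, hs⟩ := Ideal.exists_relNorm_eq_pow_of_isPrime (R := R) q p'
      rw [hs, Ideal.dvd_iff_le] at h
      have h1 : p' ≤ p := Ideal.IsPrime.le_of_pow_le h
      have hp'0 : p' ≠ ⊥ := by
        intro h0
        exact hq0 (Ideal.eq_bot_of_comap_eq_bot (R := R) h0)
      haveI : p'.IsMaximal := Ideal.IsPrime.isMaximal inferInstance hp'0
      have h2 : p' = p := Ideal.IsMaximal.eq_of_le inferInstance (Ideal.IsPrime.ne_top inferInstance) h1
      have hqp : q.LiesOver p := ⟨h2 ▸ rfl⟩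
      exact hJ q hqprime hqp (Dvd.intro _ rfl)
    · exact ih' h

/-- If `t` is a uniformiser at `P₁` and a unit at the other primes over `p`, then its norm is a
uniformiser at `p` (residue degree one). -/
theorem m18nrp_intNorm_of_simple (p : Ideal R) [p.IsMaximal] (hp : p ≠ ⊥)
    (hres : ∀ P : Ideal S, P.IsPrime → P.LiesOver p → ∀ b : S, ∃ a : R, b - algebraMap R S a ∈ P)
    (P₁ : Ideal S) [P₁.IsPrime] [P₁.LiesOver p] (t : S) (ht1 : t ∈ P₁) (ht2 : t ∉ P₁ ^ 2)
    (ht3 : ∀ P : Ideal S, P.IsPrime → P.LiesOver p → P ≠ P₁ → t ∉ P) :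
    Algebra.intNorm R S t ∈ p ∧ Algebra.intNorm R S t ∉ p ^ 2 := by
  classical
  have ht0 : t ≠ 0 := by
    rintro rfl
    exact ht2 (Ideal.zero_mem _)
  obtain ⟨J, hJ⟩ : P₁ ∣ Ideal.span {t} := Ideal.dvd_span_singleton.mpr ht1
  have hJ0 : J ≠ ⊥ := by
    rintro rfl
    rw [Ideal.mul_bot, Ideal.span_singleton_eq_bot] at hJ
    exact ht0 hJ
  have hP₁0 : P₁ ≠ ⊥ := Ideal.ne_bot_of_liesOver_of_ne_bot hp P₁
  have hJp : ∀ P : Ideal S, P.IsPrime → P.LiesOver p → ¬ P ∣ J := by
    intro P hP hPp hPJ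
    by_cases hPP : P = P₁
    · subst hPP
      apply ht2
      rw [← Ideal.dvd_span_singleton, hJ, pow_two]
      exact mul_dvd_mul_left _ hPJ
    · apply ht3 P hP hPp hPP
      rw [← Ideal.dvd_span_singleton, hJ]
      exact Dvd.dvd.mul_left hPJ _
  have h1 : ¬ p ∣ relNorm R J := m18nrp_not_dvd_relNorm R p hp J hJ0 hJp
  have h2 : Ideal.span {Algebra.intNorm R S t} = p * relNorm R J := by
    rw [← Ideal.relNorm_singleton, hJ, map_mul, m18nrp_relNorm_eq R p hp hres P₁]
  constructor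
  · rw [← Ideal.dvd_span_singleton, h2]
    exact Dvd.intro _ rfl
  · intro h3
    rw [← Ideal.dvd_span_singleton, h2, pow_two] at h3
    exact h1 ((mul_dvd_mul_iff_left hp).mp h3)

/-- Chinese remainder theorem: a uniformiser at `P₁` which is a unit at the other primes over
`p`. -/
theorem m18nrp_exists_simple (p : Ideal R) [p.IsMaximal] (hp : p ≠ ⊥)
    (P₁ : Ideal S) [P₁.IsPrime] [P₁.LiesOver p] :
    ∃ t : S, t ∈ P₁ ∧ t ∉ P₁ ^ 2 ∧
      ∀ P : Ideal S, P.IsPrime → P.LiesOver p → P ≠ P₁ → t ∉ P := by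
  classical
  have hP₁0 : P₁ ≠ ⊥ := Ideal.ne_bot_of_liesOver_of_ne_bot hp P₁
  have hP₁top : P₁ ≠ ⊤ := Ideal.IsPrime.ne_top inferInstance
  have hlt : P₁ ^ 2 < P₁ := by
    have := Ideal.pow_right_strictAnti P₁ hP₁0 hP₁top (show 1 < 2 by norm_num)
    simpa using this
  obtain ⟨π, hπ1, hπ2⟩ := SetLike.exists_of_lt hlt
  obtain ⟨y, hy⟩ := IsDedekindDomain.exists_forall_sub_mem_ideal
    (s := (p.primesOver S).toFinset) (fun Q : Ideal S => Q)
    (fun Q => if Q = P₁ then 2 else 1)
    (fun Q hQ => by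
      rw [Set.mem_toFinset] at hQ
      haveI : Q.IsPrime := hQ.1
      haveI : Q.LiesOver p := hQ.2
      exact Ideal.prime_of_isPrime (Ideal.ne_bot_of_liesOver_of_ne_bot hp Q) inferInstance)
    (fun Q _ Q' _ h => h)
    (fun Q => if (Q : Ideal S) = P₁ then π else 1)
  have hP₁mem : P₁ ∈ (p.primesOver S).toFinset := by
    rw [Set.mem_toFinset]
    exact ⟨inferInstance, inferInstance⟩
  have h1 := hy P₁ hP₁mem
  simp only [if_true] at h1
  refine ⟨y, ?_, ?_, ?_⟩
  · have h2 : y - π ∈ P₁ := Ideal.pow_le_self two_ne_zero h1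
    have := P₁.add_mem h2 hπ1
    simpa using this
  · intro h3
    apply hπ2
    have := (P₁ ^ 2).sub_mem h3 h1
    simpa using this
  · intro P hP hPp hPP hyP
    have hPmem : P ∈ (p.primesOver S).toFinset := by
      rw [Set.mem_toFinset]
      exact ⟨hP, hPp⟩
    have h2 := hy P hPmem
    simp only [hPP, if_false, pow_one] at h2
    have := P.sub_mem hyP h2
    rw [sub_sub_cancel] at this
    exact (Ideal.IsPrime.ne_top hP) ((Ideal.eq_top_iff_one P).mpr this)

/-- Over an algebraically closed constant field every maximal ideal of `S` has residue degree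
one: `S = R + P`. -/
theorem m18nrp_resdeg_one (k : Type*) [Field k] [IsAlgClosed k] [Algebra k R] [Algebra k S]
    [IsScalarTower k R S] [Algebra.FiniteType k R] (P : Ideal S) [P.IsMaximal] :
    ∀ b : S, ∃ a : R, b - algebraMap R S a ∈ P := by
  intro b
  letI := Ideal.Quotient.field P
  haveI : Algebra.FiniteType R S := inferInstance
  haveI : Algebra.FiniteType k S := Algebra.FiniteType.trans ‹Algebra.FiniteType k R› ‹_›
  haveI : Algebra.FiniteType k (S ⧸ P) :=
    Algebra.FiniteType.of_surjective (Ideal.Quotient.mkₐ k P) Ideal.Quotient.mk_surjective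
  haveI : Module.Finite k (S ⧸ P) := finite_of_finite_type_of_isJacobsonRing k (S ⧸ P)
  obtain ⟨c, hc⟩ := (IsAlgClosed.algebraMap_bijective_of_isIntegral (k := k) (K := S ⧸ P)).2
    (Ideal.Quotient.mk P b)
  refine ⟨algebraMap k R c, ?_⟩
  rw [← IsScalarTower.algebraMap_apply, ← Ideal.Quotient.eq, ← hc]
  rfl

/-- **Core existence**: an element of `S` whose norm is a uniformiser at `p`. -/
theorem m18nrp_exists_core (p : Ideal R) [p.IsMaximal] (hp : p ≠ ⊥)
    (hres : ∀ P : Ideal S, P.IsPrime → P.LiesOver p → ∀ b : S, ∃ a : R, b - algebraMap R S a ∈ P) :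
    ∃ t : S, Algebra.intNorm R S t ∈ p ∧ Algebra.intNorm R S t ∉ p ^ 2 := by
  obtain ⟨P₁, hP₁, hP₁p⟩ : ∃ P₁ : Ideal S, P₁.IsPrime ∧ P₁.LiesOver p := by
    obtain ⟨⟨Q, hQ1, hQ2⟩⟩ := p.nonempty_primesOver (S := S)
    exact ⟨Q, hQ1, hQ2⟩
  obtain ⟨t, ht1, ht2, ht3⟩ := m18nrp_exists_simple R p hp P₁
  exact ⟨t, m18nrp_intNorm_of_simple R p hp hres P₁ t ht1 ht2 ht3⟩

end core

end Fermat.Agent.M18
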