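import Mathlib

/-!
# M18 / (NRP), part 5: integrality over `K[x]` at two levels (Mathlib only)

For fields `K ⊆ F ⊆ F'`, `x : F`, `t : F'`: `t` is integral over `K[x] ⊆ F` (acting on `F'`
through `F`) iff it is integral over `K[x'] ⊆ F'`, `x' = algebraMap F F' x`.
-/

set_option autoImplicit false
set_option linter.style.haveILetI false
set_option linter.unusedSectionVars false
set_option linter.unusedVariables false
set_option linter.deprecated false

noncomputable section

namespace Fermat.Agent.M18

open Polynomial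

section bridge

variable {K F F' : Type*} [Field K] [Field F] [Field F'] [Algebra K F] [Algebra K F']
  [Algebra F F'] [IsScalarTower K F F']

/-- the image of `K[x]` in `F'` is `K[x']`. -/
theorem m18nrp_algebraMap_mem_adjoin (x : F) (a : Algebra.adjoin K ({x} : Set F)) :
    algebraMap F F' (a : F) ∈ Algebra.adjoin K ({algebraMap F F' x} : Set F') := by
  have hc : (a : F) ∈ (aeval x : K[X] →ₐ[K] F).range := by
    rw [← Algebra.adjoin_singleton_eq_range_aeval]
    exact a.2
  obtain ⟨q, hq⟩ := hc
  have hq' : (aeval x : K[X] →ₐ[K] F) q = (a : F) := hq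
  rw [← hq', ← aeval_algebraMap_apply]
  rw [Algebra.adjoin_singleton_eq_range_aeval]
  exact ⟨q, rfl⟩

/-- the comparison map `K[x] → K[x']`. -/
def m18nrp_adjoinMap (x : F) :
    Algebra.adjoin K ({x} : Set F) →+* Algebra.adjoin K ({algebraMap F F' x} : Set F') :=
  ((algebraMap F F').comp (Algebra.adjoin K ({x} : Set F)).val.toRingHom).codRestrict
    (Algebra.adjoin K ({algebraMap F F' x} : Set F')).toSubring
    (fun a => m18nrp_algebraMap_mem_adjoin x a)

theorem m18nrp_adjoinMap_surjective (x : F) :
    Function.Surjective (m18nrp_adjoinMap (K := K) (F' := F') x) := by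
  rintro ⟨b, hb⟩
  have hc : b ∈ (aeval (algebraMap F F' x) : K[X] →ₐ[K] F').range := by
    rw [← Algebra.adjoin_singleton_eq_range_aeval]
    exact hb
  obtain ⟨q, hq⟩ := hc
  have hq' : (aeval (algebraMap F F' x) : K[X] →ₐ[K] F') q = b := hq
  have hmem : (aeval x : K[X] →ₐ[K] F) q ∈ Algebra.adjoin K ({x} : Set F) := by
    rw [Algebra.adjoin_singleton_eq_range_aeval]
    exact ⟨q, rfl⟩
  refine ⟨⟨_, hmem⟩, ?_⟩
  apply Subtype.ext
  show algebraMap F F' ((aeval x : K[X] →ₐ[K] F) q) = b
  rw [← aeval_algebraMap_apply, hq']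

/-- integrality over `K[x]` implies integrality over `K[x']`. -/
theorem m18nrp_isIntegral_map (x : F) {t : F'}
    (ht : IsIntegral (Algebra.adjoin K ({x} : Set F)) t) :
    IsIntegral (Algebra.adjoin K ({algebraMap F F' x} : Set F')) t := by
  have h := IsIntegral.map_of_comp_eq (m18nrp_adjoinMap (K := K) (F' := F') x)
    (RingHom.id F') (by ext a; rfl) ht
  exact h

/-- integrality over `K[x']` implies integrality over `K[x]`. -/
theorem m18nrp_isIntegral_comap (x : F) {t : F'}
    (ht : IsIntegral (Algebra.adjoin K ({algebraMap F F' x} : Set F')) t) :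
    IsIntegral (Algebra.adjoin K ({x} : Set F)) t := by
  obtain ⟨p, hpm, hp⟩ := ht
  have hl : p ∈ Polynomial.lifts (m18nrp_adjoinMap (K := K) (F' := F') x) := by
    rw [Polynomial.mem_lifts]
    exact Polynomial.map_surjective _ (m18nrp_adjoinMap_surjective x) p
  obtain ⟨q, hq1, -, hq2⟩ := Polynomial.lifts_and_degree_eq_and_monic hl hpm
  refine ⟨q, hq2, ?_⟩
  rw [← hq1, Polynomial.eval₂_map] at hp
  exact hp

end bridge

section bridge2

variable {K F F' : Type*} [Field K] [Field F] [Field F'] [Algebra K F] [Algebra K F']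
  [Algebra F F'] [IsScalarTower K F F']

/-- **integrality over `K[x]` (acting on `F'` through `F`) = integrality over `K[x'] ⊆ F'`**,
`x' = algebraMap F F' x`. -/
theorem m18nrp_isIntegral_adjoin_iff (x : F) (t : F') :
    IsIntegral (Algebra.adjoin K ({x} : Set F)) t
      ↔ IsIntegral (Algebra.adjoin K ({algebraMap F F' x} : Set F')) t :=
  ⟨m18nrp_isIntegral_map x, m18nrp_isIntegral_comap x⟩

/-- the same for the chart `x⁻¹`. -/
theorem m18nrp_isIntegral_adjoin_inv_iff (x : F) (t : F') :
    IsIntegral (Algebra.adjoin K ({x⁻¹} : Set F)) t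
      ↔ IsIntegral (Algebra.adjoin K ({(algebraMap F F' x)⁻¹} : Set F')) t := by
  rw [m18nrp_isIntegral_adjoin_iff, map_inv₀]

/-- transport along an equality `algebraMap F F' x = x'`. -/
theorem m18nrp_isIntegral_adjoin_iff_of_eq (x : F) {x' : F'} (h : algebraMap F F' x = x')
    (t : F') :
    IsIntegral (Algebra.adjoin K ({x} : Set F)) t
      ↔ IsIntegral (Algebra.adjoin K ({x'} : Set F')) t := by
  rw [m18nrp_isIntegral_adjoin_iff, h]

/-- transport along an equality `algebraMap F F' x = x'`, chart `x⁻¹`. -/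
theorem m18nrp_isIntegral_adjoin_inv_iff_of_eq (x : F) {x' : F'} (h : algebraMap F F' x = x')
    (t : F') :
    IsIntegral (Algebra.adjoin K ({x⁻¹} : Set F)) t
      ↔ IsIntegral (Algebra.adjoin K ({x'⁻¹} : Set F')) t := by
  rw [m18nrp_isIntegral_adjoin_inv_iff, h]

end bridge2


end Fermat.Agent.M18
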