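import Fermat.Agent.S24.AlgA
import Fermat.Agent.M18.NrpCore

/-!
# M18 / (NRP), part 2: norms of uniformisers, for places of function fields

`K` algebraically closed (ANY characteristic), `F ⊆ F'` fields over `K`, `x : F` transcendental
over `K`, `F / K(x)` and `F' / F` finite separable.

* `m18nrp_exists` : for a place `Q` of `F` at which `x` is regular there is `t : F'`, integral over
  `K[x]` (hence regular at every place of `F'` at which `x` is regular), with
  `ord_Q (N_{F'/F} t) = 1`;
* `m18nrp_isIntegral_norm`, `m18nrp_ord_norm_nonneg`, `m18nrp_ord_norm_nonneg'` : the norm of an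
  element integral over `K[x]` (resp. regular wherever `x` is) is integral over `K[x]` (resp.
  regular wherever `x` is);
* `m18nrp_isIntegral_of_forall` : regular wherever `x` is  ⇒  integral over `K[x]`;
* `m18nrp_ord_nonneg_of_isIntegral` : integral over `K[x]`  ⇒  regular wherever `x` is;
* `m18nrp_exists_abs` : the abstract form over Dedekind domains `R ⊆ S`.
-/

set_option autoImplicit false
set_option linter.style.haveILetI false
set_option linter.unusedSectionVars false
set_option linter.unusedVariables false
set_option linter.deprecated false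

noncomputable section

namespace Fermat.Agent.M18

open AlgebraicCurve IsDedekindDomain Fermat.Agent.S24

section abs

variable {K F F' : Type*} [Field K] [Field F] [Field F'] [Algebra K F] [Algebra K F']
  [Algebra F F'] [IsScalarTower K F F']
variable {R S : Type*} [CommRing R] [CommRing S] [IsDedekindDomain R] [IsDedekindDomain S]
  [Algebra R S] [Module.Finite R S] [Module.IsTorsionFree R S]
  [Algebra R F] [IsFractionRing R F] [Algebra S F'] [IsFractionRing S F']
  [Algebra R F'] [IsScalarTower R F F'] [IsScalarTower R S F']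
  [Algebra K R] [IsScalarTower K R F]

/-- The order of an element of `p \ p ^ 2` at the place of `p` is one. -/
theorem m18nrp_ord_eq_one_of_mem (w : HeightOneSpectrum R) (n : R) (h1 : n ∈ w.asIdeal)
    (h2 : n ∉ w.asIdeal ^ 2) :
    (Place.ofHeightOneSpectrum (K := K) (F := F) w).ord (algebraMap R F n) = 1 := by
  have hn0 : n ≠ 0 := by
    rintro rfl
    exact h2 (Ideal.zero_mem _)
  rw [algad_ord_eq (K := K) w, HeightOneSpectrum.valuation_of_algebraMap]
  have hv0 : w.intValuation n ≠ 0 := (w.intValuation_ne_zero n hn0)
  have h3 : w.intValuation n ≤ WithZero.exp (-((1 : ℕ) : ℤ)) :=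
    (w.intValuation_le_pow_iff_mem n 1).mpr (by simpa using h1)
  have h4 : ¬ w.intValuation n ≤ WithZero.exp (-((2 : ℕ) : ℤ)) := fun h =>
    h2 ((w.intValuation_le_pow_iff_mem n 2).mp h)
  rw [← WithZero.exp_log hv0, WithZero.exp_le_exp] at h3 h4
  push_cast at h3 h4
  omega

/-- **Abstract existence**: an element of `S` whose norm has order one at `Q`. -/
theorem m18nrp_exists_abs [IsAlgClosed K] [Algebra K S] [IsScalarTower K R S]
    [Algebra.FiniteType K R] [FiniteDimensional F F'] [IsIntegralClosure S R F']
    (Q : Place K F) (hQ : ∀ r : R, algebraMap R F r ∈ Q.toValuationSubring) :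
    ∃ t : S, Q.ord (Algebra.norm F (algebraMap S F' t)) = 1 := by
  obtain ⟨w, hw, -⟩ := algad_exists_heightOneSpectrum (K := K) (F := F) (R := R) Q hQ
  haveI : w.asIdeal.IsMaximal := w.isMaximal
  have hres : ∀ P : Ideal S, P.IsPrime → P.LiesOver w.asIdeal →
      ∀ b : S, ∃ a : R, b - algebraMap R S a ∈ P := by
    intro P hP hPp
    haveI : P.IsMaximal := Ideal.IsMaximal.of_liesOver_isMaximal P w.asIdeal
    exact m18nrp_resdeg_one R K P
  obtain ⟨t, ht1, ht2⟩ := m18nrp_exists_core R w.asIdeal w.ne_bot hres
  refine ⟨t, ?_⟩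
  rw [← Algebra.algebraMap_intNorm (A := R) (K := F) (L := F') (B := S), ← hw]
  exact m18nrp_ord_eq_one_of_mem w _ ht1 ht2

end abs

section concrete

open IntermediateField Polynomial
open scoped IntermediateField.algebraAdjoinAdjoin

variable {K F F' : Type*} [Field K] [Field F] [Field F'] [Algebra K F] [Algebra K F']
  [Algebra F F'] [IsScalarTower K F F'] [IsAlgClosed K]

/-- `K[x] ⊆ 𝒪_v` if `x` is regular at `v`. -/
theorem m18nrp_adjoin_mem (z : F) (v : Place K F) (hv : 0 ≤ v.ord z) {a : F}
    (ha : a ∈ Algebra.adjoin K ({z} : Set F)) : a ∈ v.toValuationSubring := by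
  have h : Algebra.adjoin K ({z} : Set F) ≤ alga_subalgebra v :=
    Algebra.adjoin_le (by
      intro t ht
      rw [Set.mem_singleton_iff] at ht
      rw [ht]
      exact alga_mem_of_ord_nonneg v hv)
  exact h ha

/-- `K[x] ⊆ 𝒪_v` for a place `v` of `F'` at which `x` is regular. -/
theorem m18nrp_algebraMap_adjoin_mem (x : F) (v : Place K F')
    (hv : 0 ≤ v.ord (algebraMap F F' x)) (a : Algebra.adjoin K ({x} : Set F)) :
    algebraMap (Algebra.adjoin K ({x} : Set F)) F' a ∈ v.toValuationSubring := by
  have hc : (a : F) ∈ (aeval x : K[X] →ₐ[K] F).range := by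
    rw [← Algebra.adjoin_singleton_eq_range_aeval]
    exact a.2
  obtain ⟨q, hq⟩ := hc
  have hq' : (aeval x : K[X] →ₐ[K] F) q = (a : F) := hq
  have h1 : algebraMap (Algebra.adjoin K ({x} : Set F)) F' a = algebraMap F F' (a : F) := rfl
  rw [h1, ← hq']
  have h2 : algebraMap F F' ((aeval x : K[X] →ₐ[K] F) q) = aeval (algebraMap F F' x) q := by
    rw [← Polynomial.aeval_algebraMap_apply]
  rw [h2]
  exact alga_aeval_mem v (alga_mem_of_ord_nonneg v hv) q

/-- Elements integral over `K[x]` are regular wherever `x` is. -/
theorem m18nrp_ord_nonneg_of_isIntegral (x : F) {t : F'}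
    (ht : IsIntegral (Algebra.adjoin K ({x} : Set F)) t) (v : Place K F')
    (hv : 0 ≤ v.ord (algebraMap F F' x)) : 0 ≤ v.ord t := by
  letI : Algebra (Algebra.adjoin K ({x} : Set F)) v.toValuationSubring :=
    RingHom.toAlgebra ((algebraMap (Algebra.adjoin K ({x} : Set F)) F').codRestrict
      v.toValuationSubring.toSubring (m18nrp_algebraMap_adjoin_mem x v hv))
  haveI : IsScalarTower (Algebra.adjoin K ({x} : Set F)) v.toValuationSubring F' :=
    IsScalarTower.of_algebraMap_eq (fun _ => rfl)
  have h3 : IsIntegral v.toValuationSubring t := ht.tower_top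
  obtain ⟨y, hy⟩ := IsIntegrallyClosed.isIntegral_iff.mp h3
  apply alga_ord_nonneg_of_mem
  rw [← hy]
  exact y.2

theorem m18nrp_exists (x : F) (hx : Transcendental K x) [FiniteDimensional K⟮x⟯ F]
    [Algebra.IsSeparable K⟮x⟯ F] [FiniteDimensional F F'] [Algebra.IsSeparable F F']
    (Q : Place K F) (hQ : 0 ≤ Q.ord x) :
    ∃ t : F', IsIntegral (Algebra.adjoin K ({x} : Set F)) t ∧
      (∀ v : Place K F', 0 ≤ v.ord (algebraMap F F' x) → 0 ≤ v.ord t) ∧
      Q.ord (Algebra.norm F t) = 1 := by
  classical
  have hDed : IsDedekindDomain (Algebra.adjoin K ({x} : Set F)) := algaz_isDedekindDomain x hx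
  have hDedR : IsDedekindDomain (integralClosure (Algebra.adjoin K ({x} : Set F)) F) :=
    integralClosure.isDedekindDomain (Algebra.adjoin K ({x} : Set F)) K⟮x⟯ F
  have hFracR : IsFractionRing (integralClosure (Algebra.adjoin K ({x} : Set F)) F) F :=
    integralClosure.isFractionRing_of_finite_extension K⟮x⟯ F
  have hFinR : Module.Finite (Algebra.adjoin K ({x} : Set F))
      (integralClosure (Algebra.adjoin K ({x} : Set F)) F) :=
    IsIntegralClosure.finite (Algebra.adjoin K ({x} : Set F)) K⟮x⟯ F
      (integralClosure (Algebra.adjoin K ({x} : Set F)) F)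
  have hDedS : IsDedekindDomain
      (integralClosure (integralClosure (Algebra.adjoin K ({x} : Set F)) F) F') :=
    integralClosure.isDedekindDomain (integralClosure (Algebra.adjoin K ({x} : Set F)) F) F F'
  have hFracS : IsFractionRing
      (integralClosure (integralClosure (Algebra.adjoin K ({x} : Set F)) F) F') F' :=
    integralClosure.isFractionRing_of_finite_extension F F'
  have hFinS : Module.Finite (integralClosure (Algebra.adjoin K ({x} : Set F)) F)
      (integralClosure (integralClosure (Algebra.adjoin K ({x} : Set F)) F) F') :=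
    IsIntegralClosure.finite (integralClosure (Algebra.adjoin K ({x} : Set F)) F) F F'
      (integralClosure (integralClosure (Algebra.adjoin K ({x} : Set F)) F) F')
  have hFT0 : Algebra.FiniteType K (Algebra.adjoin K ({x} : Set F)) :=
    Algebra.FiniteType.adjoin_of_finite (Set.finite_singleton x)
  have hFTR : Algebra.FiniteType K (integralClosure (Algebra.adjoin K ({x} : Set F)) F) :=
    Algebra.FiniteType.trans hFT0 inferInstance
  have hQR : ∀ r : integralClosure (Algebra.adjoin K ({x} : Set F)) F,
      algebraMap (integralClosure (Algebra.adjoin K ({x} : Set F)) F) F r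
        ∈ Q.toValuationSubring := fun r =>
    algad_integral_mem (K := K) (F := F) (A := Algebra.adjoin K ({x} : Set F))
      (B := integralClosure (Algebra.adjoin K ({x} : Set F)) F) Q
      (fun a => m18nrp_adjoin_mem x Q hQ a.2) r
  obtain ⟨t, ht⟩ := m18nrp_exists_abs (K := K) (F := F) (F' := F')
    (R := integralClosure (Algebra.adjoin K ({x} : Set F)) F)
    (S := integralClosure (integralClosure (Algebra.adjoin K ({x} : Set F)) F) F') Q hQR
  have hint : IsIntegral (Algebra.adjoin K ({x} : Set F)) (t : F') := by
    have h1 : IsIntegral (integralClosure (Algebra.adjoin K ({x} : Set F)) F) (t : F') := t.2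
    exact isIntegral_trans (A := integralClosure (Algebra.adjoin K ({x} : Set F)) F) _ h1
  refine ⟨(t : F'), hint, ?_, ht⟩
  intro v hv
  exact m18nrp_ord_nonneg_of_isIntegral x hint v hv

/-- Norms of elements integral over `K[x]` are integral over `K[x]`. -/
theorem m18nrp_isIntegral_norm (x : F) {t : F'}
    (ht : IsIntegral (Algebra.adjoin K ({x} : Set F)) t) :
    IsIntegral (Algebra.adjoin K ({x} : Set F)) (Algebra.norm F t) :=
  Algebra.isIntegral_norm F ht

/-- Norms of elements integral over `K[x]` are regular wherever `x` is. -/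
theorem m18nrp_ord_norm_nonneg (x : F) {t : F'}
    (ht : IsIntegral (Algebra.adjoin K ({x} : Set F)) t) (P : Place K F) (hP : 0 ≤ P.ord x) :
    0 ≤ P.ord (Algebra.norm F t) := by
  have h1 := m18nrp_isIntegral_norm (K := K) x ht
  have h2 := m18nrp_ord_nonneg_of_isIntegral (K := K) (F := F) (F' := F) x h1 P
  exact h2 hP

/-- An element of `F'` which is regular wherever `x` is, is integral over `K[x]`. -/
theorem m18nrp_isIntegral_of_forall (x : F) (hx : Transcendental K x) [FiniteDimensional K⟮x⟯ F]
    [Algebra.IsSeparable K⟮x⟯ F] [FiniteDimensional F F'] [Algebra.IsSeparable F F']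
    (t : F') (ht : ∀ v : Place K F', 0 ≤ v.ord (algebraMap F F' x) → 0 ≤ v.ord t) :
    IsIntegral (Algebra.adjoin K ({x} : Set F)) t := by
  classical
  have hDed : IsDedekindDomain (Algebra.adjoin K ({x} : Set F)) := algaz_isDedekindDomain x hx
  have hDedR : IsDedekindDomain (integralClosure (Algebra.adjoin K ({x} : Set F)) F) :=
    integralClosure.isDedekindDomain (Algebra.adjoin K ({x} : Set F)) K⟮x⟯ F
  have hFracR : IsFractionRing (integralClosure (Algebra.adjoin K ({x} : Set F)) F) F :=
    integralClosure.isFractionRing_of_finite_extension K⟮x⟯ F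
  have hDedS : IsDedekindDomain
      (integralClosure (integralClosure (Algebra.adjoin K ({x} : Set F)) F) F') :=
    integralClosure.isDedekindDomain (integralClosure (Algebra.adjoin K ({x} : Set F)) F) F F'
  have hFracS : IsFractionRing
      (integralClosure (integralClosure (Algebra.adjoin K ({x} : Set F)) F) F') F' :=
    integralClosure.isFractionRing_of_finite_extension F F'
  have hxint : IsIntegral (integralClosure (Algebra.adjoin K ({x} : Set F)) F)
      (algebraMap F F' x) := by
    have h0 : IsIntegral (Algebra.adjoin K ({x} : Set F)) x :=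
      isIntegral_algebraMap (x := algaz_gen (K := K) x)
    exact isIntegral_algebraMap
      (x := (⟨x, h0⟩ : integralClosure (Algebra.adjoin K ({x} : Set F)) F))
  have h1 : ∃ b : integralClosure (integralClosure (Algebra.adjoin K ({x} : Set F)) F) F',
      algebraMap _ F' b = t := by
    refine HeightOneSpectrum.mem_integers_of_valuation_le_one
      (R := integralClosure (integralClosure (Algebra.adjoin K ({x} : Set F)) F) F')
      F' t (fun w => ?_)
    have hx' : 0 ≤ (Place.ofHeightOneSpectrum (K := K) (F := F') w).ord (algebraMap F F' x) := by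
      apply alga_ord_nonneg_of_mem
      rw [algad_mem_iff (K := K)]
      exact w.valuation_le_one
        (⟨algebraMap F F' x, hxint⟩ :
          integralClosure (integralClosure (Algebra.adjoin K ({x} : Set F)) F) F')
    have h2 := alga_mem_of_ord_nonneg _ (ht _ hx')
    exact (algad_mem_iff (K := K) w t).1 h2
  obtain ⟨b, hb⟩ := h1
  have h3 : IsIntegral (integralClosure (Algebra.adjoin K ({x} : Set F)) F) t := by
    rw [← hb]
    exact b.2
  exact isIntegral_trans (A := integralClosure (Algebra.adjoin K ({x} : Set F)) F) _ h3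

/-- Place form: the norm of an element regular wherever `x` is, is regular wherever `x` is. -/
theorem m18nrp_ord_norm_nonneg' (x : F) (hx : Transcendental K x) [FiniteDimensional K⟮x⟯ F]
    [Algebra.IsSeparable K⟮x⟯ F] [FiniteDimensional F F'] [Algebra.IsSeparable F F']
    (t : F') (ht : ∀ v : Place K F', 0 ≤ v.ord (algebraMap F F' x) → 0 ≤ v.ord t)
    (P : Place K F) (hP : 0 ≤ P.ord x) : 0 ≤ P.ord (Algebra.norm F t) :=
  m18nrp_ord_norm_nonneg x (m18nrp_isIntegral_of_forall x hx t ht) P hP

end concrete

end Fermat.Agent.M18
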