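import Fermat.Agent.M18.RrBase

/-!
# M18 / RRl-1, part 2: lattices at infinity, approximation, Euler characteristic

`K` algebraically closed (any characteristic), `x : F` transcendental over `K` with `F` finite
and separable over `K(x)`.

* `m18rr_finite_poles`   : every function has finitely many poles;
* `m18rr_lamInf_isLattice`;
* `m18rr_exists_fin`, `m18rr_exists_inf` : functions with an exact order at one place and the
  conditions of a divisor at the other places on the same side;
* `m18rr_chi` : `χ(D) = χ(0) + deg D`, with finiteness;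
* `m18rr_finrank_zero` : `ℓ(0) = 1`.
-/

set_option autoImplicit false
set_option linter.deprecated false
set_option linter.unusedSectionVars false
set_option linter.unusedVariables false
set_option linter.style.haveILetI false

namespace Fermat.Agent.M18

open Fermat.Agent.S20 Fermat.Agent.S24
open AlgebraicCurve IntermediateField Module Polynomial IsDedekindDomain WithZero
open scoped IntermediateField.algebraAdjoinAdjoin

section poles

variable {K F : Type*} [Field K] [Field F] [Algebra K F] [IsAlgClosed K]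

/-- a nonzero polynomial `p` with `p(x) f` integral over `K[x]`. -/
theorem m18rr_exists_integral_mul (x : F) (hx : Transcendental K x) [FiniteDimensional K⟮x⟯ F]
    [Algebra.IsSeparable K⟮x⟯ F] (f : F) :
    ∃ p : K[X], p ≠ 0 ∧ aeval x p * f ∈ rrLam x (0 : Divisor K F) := by
  have halg : IsAlgebraic (Algebra.adjoin K ({x} : Set F)) f := by
    have h1 : IsAlgebraic K⟮x⟯ f := Algebra.IsAlgebraic.isAlgebraic f
    have h2 : Algebra.IsAlgebraic (Algebra.adjoin K ({x} : Set F)) K⟮x⟯ := inferInstance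
    exact (IsAlgebraic.restrictScalars (R := Algebra.adjoin K ({x} : Set F)) (S := K⟮x⟯) h1)
  obtain ⟨y, hy0, hy⟩ := IsAlgebraic.exists_integral_multiple halg
  have hc : (y : F) ∈ (aeval x : K[X] →ₐ[K] F).range := by
    rw [← Algebra.adjoin_singleton_eq_range_aeval]
    exact y.2
  obtain ⟨p, hp⟩ := hc
  refine ⟨p, ?_, ?_⟩
  · rintro rfl
    apply hy0
    apply Subtype.ext
    rw [← hp]
    simp
  · rw [← m18rr_integral_iff x hx]
    have : aeval x p * f = y • f := by
      show (aeval x) p * f = (y : F) * f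
      rw [← hp]
      rfl
    rw [this]
    exact hy

/-- the poles of any function are finite in number. -/
theorem m18rr_finite_poles (x : F) (hx : Transcendental K x) [FiniteDimensional K⟮x⟯ F]
    [Algebra.IsSeparable K⟮x⟯ F] (f : F) : {v : Place K F | v.ord f < 0}.Finite := by
  classical
  rcases eq_or_ne f 0 with rfl | hf0
  · have : {v : Place K F | v.ord (0 : F) < 0} = ∅ := by
      ext v
      simp
    rw [this]
    exact Set.finite_empty
  obtain ⟨p, hp0, hp⟩ := m18rr_exists_integral_mul x hx f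
  have hpx : aeval x p ≠ 0 := rrd_aeval_ne_zero hx hp0
  have hfin : ({v : Place K F | v.ord x < 0} ∪
      ⋃ a ∈ p.roots.toFinset, {v : Place K F | 0 < v.ord (x - algebraMap K F a)}).Finite := by
    refine (m18rr_finite_poles_gen x hx).union ?_
    exact Set.Finite.biUnion (Finset.finite_toSet _) (fun a _ => m18rr_finite_zeros x hx a)
  refine hfin.subset ?_
  intro v hv
  simp only [Set.mem_setOf_eq] at hv
  rcases lt_or_ge (v.ord x) 0 with hx0 | hx0
  · exact Or.inl hx0
  · right
    obtain ⟨a, ha⟩ := m18rr_exists_val x hx v hx0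
    simp only [Set.mem_iUnion, Set.mem_setOf_eq]
    refine ⟨a, ?_, ha⟩
    rw [Multiset.mem_toFinset, mem_roots hp0]
    by_contra hroot
    have h1 := rrc_ord_aeval_eq_zero x v a ha p hroot
    have h2 := (mem_rrLam_iff.1 hp v hx0).resolve_left (mul_ne_zero hpx hf0)
    rw [v.ord_mul hpx hf0, h1] at h2
    simp only [Finsupp.coe_zero, Pi.zero_apply, neg_zero, zero_add] at h2
    omega

/-- the zeros of any nonzero function are finite in number. -/
theorem m18rr_finite_zeros_any (x : F) (hx : Transcendental K x) [FiniteDimensional K⟮x⟯ F]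
    [Algebra.IsSeparable K⟮x⟯ F] (f : F) : {v : Place K F | 0 < v.ord f}.Finite := by
  have h := m18rr_finite_poles x hx f⁻¹
  have hset : {v : Place K F | 0 < v.ord f} = {v : Place K F | v.ord f⁻¹ < 0} := by
    ext v
    simp only [Set.mem_setOf_eq, Place.ord_inv]
    omega
  rw [hset]
  exact h

end poles

section inf

variable {K F : Type*} [Field K] [Field F] [Algebra K F] [IsAlgClosed K]

/-- transfer of `m18rr_lam_basis` to an equal intermediate field. -/
theorem m18rr_lam_basis_of_eq (z : F) (hz : Transcendental K z)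
    (D : Divisor K F) (E : IntermediateField K F) (hE : K⟮z⟯ = E) [FiniteDimensional E F]
    [Algebra.IsSeparable E F] :
    ∃ c : Basis (Fin (finrank E F)) E F, ∀ f : F,
      f ∈ rrLam z D ↔ ∀ i, ((c.repr f i : E) : F) ∈ Algebra.adjoin K ({z} : Set F) := by
  subst hE
  exact m18rr_lam_basis z hz D

/-- the lattice `rrLam x⁻¹ D` has a basis over `K(x)`. -/
theorem m18rr_lam_basis_inv (x : F) (hx : Transcendental K x) [FiniteDimensional K⟮x⟯ F]
    [Algebra.IsSeparable K⟮x⟯ F] (D : Divisor K F) :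
    ∃ c : Basis (Fin (finrank K⟮x⟯ F)) K⟮x⟯ F, ∀ f : F,
      f ∈ rrLam x⁻¹ D ↔ ∀ i, ((c.repr f i : K⟮x⟯) : F) ∈ Algebra.adjoin K ({x⁻¹} : Set F) :=
  m18rr_lam_basis_of_eq x⁻¹ (algaz_transcendental_inv hx) D K⟮x⟯ (algaz_adjoin_inv x)

/-- clearing denominators away from infinity: for `f ∈ rrLamInf x D` there is `u ∈ K[x⁻¹]` with
`u(0) ≠ 0` and `u f ∈ rrLam x⁻¹ D`. -/
theorem m18rr_exists_clear_inf (x : F) (hx : Transcendental K x) [FiniteDimensional K⟮x⟯ F]
    [Algebra.IsSeparable K⟮x⟯ F]
    (D : Divisor K F) (f : F) (hf : f ∈ rrLamInf x D) :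
    ∃ p : K[X], p.coeff 0 ≠ 0 ∧ aeval x⁻¹ p * f ∈ rrLam x⁻¹ D := by
  classical
  have hy : Transcendental K x⁻¹ := algaz_transcendental_inv hx
  haveI := m18rr_fd_inv (K := K) x
  rcases eq_or_ne f 0 with rfl | hf0
  · exact ⟨1, by simp, by simp⟩
  set S : Finset (Place K F) :=
    ((m18rr_finite_poles x hx f).toFinset ∪ D.support).filter (fun v => v.ord x = 0) with hS
  set m : ℕ := ∑ v ∈ S, ((D v).natAbs + (v.ord f).natAbs) with hm
  obtain ⟨p, hp0, hp1, hp2⟩ := m18rr_exists_clear x⁻¹ hy S m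
  refine ⟨p, ?_, ?_⟩
  · rw [coeff_zero_eq_eval_zero]
    intro h0
    obtain ⟨v, hvS, hv⟩ := hp2 0 h0
    rw [map_zero, sub_zero, Place.ord_inv] at hv
    have := (Finset.mem_filter.1 hvS).2
    omega
  · rw [mem_rrLam_iff]
    intro v hv
    rw [Place.ord_inv] at hv
    right
    rw [v.ord_mul (rrd_aeval_ne_zero hy hp0) hf0]
    have h1 := rrd_ord_aeval_nonneg x⁻¹ v (by rw [Place.ord_inv]; exact hv) p
    rcases lt_or_eq_of_le hv with hlt | heq
    · have := (mem_rrLamInf_iff.1 hf v (by omega)).resolve_left hf0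
      omega
    · by_cases hvS : v ∈ S
      · have h2 := hp1 v hvS (by rw [Place.ord_inv]; exact hv)
        have h3 : (D v).natAbs + (v.ord f).natAbs ≤ m :=
          Finset.single_le_sum (f := fun v => (D v).natAbs + (v.ord f).natAbs)
            (fun _ _ => Nat.zero_le _) hvS
        omega
      · have hx0 : v.ord x = 0 := by omega
        have h4 : ¬ (v.ord f < 0) := fun h => hvS (Finset.mem_filter.2
          ⟨Finset.mem_union_left _ ((Set.Finite.mem_toFinset _).2 h), hx0⟩)
        have h5 : D v = 0 := by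
          by_contra h
          exact hvS (Finset.mem_filter.2
            ⟨Finset.mem_union_right _ (Finsupp.mem_support_iff.2 h), hx0⟩)
        omega

/-- [RR-DICT'] the infinite part is a lattice at infinity. -/
theorem m18rr_lamInf_isLattice (x : F) (hx : Transcendental K x) [FiniteDimensional K⟮x⟯ F]
    [Algebra.IsSeparable K⟮x⟯ F]
    (B : NfBase K K⟮x⟯) (hB : RrBaseFor x B) (D : Divisor K F) :
    ∃ c : Basis (Fin (finrank K⟮x⟯ F)) K⟮x⟯ F, rrLamInf x D = B.latInf c 0 := by
  have hy : Transcendental K x⁻¹ := algaz_transcendental_inv hx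
  obtain ⟨c, hc⟩ := m18rr_lam_basis_inv x hx D
  refine ⟨c, ?_⟩
  ext f
  rw [NfBase.mem_latInf]
  constructor
  · intro hf i
    obtain ⟨p, hp, hpf⟩ := m18rr_exists_clear_inf x hx D f hf
    have h1 := (hc _).1 hpf i
    have h2 : aeval x⁻¹ p * f = (aeval (AdjoinSimple.gen K x)⁻¹ p : K⟮x⟯) • f := by
      have h3 := aeval_algHom_apply K⟮x⟯.val (AdjoinSimple.gen K x)⁻¹ p
      have h4 : K⟮x⟯.val (AdjoinSimple.gen K x)⁻¹ = x⁻¹ := by
        show ((AdjoinSimple.gen K x)⁻¹ : K⟮x⟯).1 = x⁻¹
        rw [IntermediateField.coe_inv, AdjoinSimple.coe_gen]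
      rw [h4] at h3
      rw [h3]
      rfl
    rw [h2, map_smul, Finsupp.smul_apply, smul_eq_mul] at h1
    have h5 := rrd_v_le_one_of_mem x B hB _ h1
    rw [map_mul, rrd_v_eq_one_of_coeff x B hB p hp, one_mul] at h5
    simpa using h5
  · intro h
    rw [mem_rrLamInf]
    intro v hv
    have hci : ∀ i, c i ∈ rrLam x⁻¹ D := fun i => by
      rw [hc]
      intro j
      rw [c.repr_self, Finsupp.single_apply]
      split_ifs
      · exact one_mem _
      · exact zero_mem _
    rw [← c.sum_repr f]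
    apply Valuation.map_sum_le
    intro i _
    rw [Algebra.smul_def, map_mul]
    have h1 := rrd_val_le_one_of_pole x hx B hB v hv (c.repr f i) (by simpa using h i)
    have h2 := hci i v (by rw [Place.ord_inv]; omega)
    exact (mul_le_of_le_one_left' h1).trans h2

end inf

section existence

variable {K F : Type*} [Field K] [Field F] [Algebra K F] [IsAlgClosed K]

/-- a function with a prescribed order at a pole `v₀` of `x` and satisfying the conditions of
`D` at the other poles. -/
theorem m18rr_exists_inf (x : F) (hx : Transcendental K x) [FiniteDimensional K⟮x⟯ F]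
    [Algebra.IsSeparable K⟮x⟯ F]
    (D : Divisor K F) (v₀ : Place K F) (n₀ : ℤ) :
    ∃ f₀ : F, f₀ ≠ 0 ∧ v₀.ord f₀ = n₀ ∧
      ∀ v : Place K F, v.ord x < 0 → v ≠ v₀ → -D v ≤ v.ord f₀ := by
  classical
  obtain ⟨f₀, h0, h1, h2⟩ := rrc_exists_ord v₀ ((m18rr_finite_poles_gen x hx).toFinset.erase v₀)
    (Finset.notMem_erase _ _) n₀ ((∑ w ∈ D.support, (D w).natAbs : ℕ) : ℤ)
  refine ⟨f₀, h0, h1, fun v hv hvv => ?_⟩
  have h3 := h2 v (Finset.mem_erase.2 ⟨hvv, (Set.Finite.mem_toFinset _).2 hv⟩)
  have h4 := rrd_natAbs_le_sum D v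
  omega

/-- a function with a prescribed order at a finite place `v₀` and satisfying the conditions of
`D` at the other finite places. -/
theorem m18rr_exists_fin (x : F) (hx : Transcendental K x) [FiniteDimensional K⟮x⟯ F]
    [Algebra.IsSeparable K⟮x⟯ F]
    (D : Divisor K F) (v₀ : Place K F) (hv₀ : 0 ≤ v₀.ord x) (n₀ : ℤ) :
    ∃ f₀ : F, f₀ ≠ 0 ∧ v₀.ord f₀ = n₀ ∧
      ∀ v : Place K F, 0 ≤ v.ord x → v ≠ v₀ → -D v ≤ v.ord f₀ := by
  classical
  obtain ⟨a, ha⟩ := m18rr_exists_val x hx v₀ hv₀
  obtain ⟨f₁, h0, h1, h2⟩ := rrc_exists_ord v₀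
    ((m18rr_finite_zeros x hx a).toFinset.erase v₀)
    (Finset.notMem_erase _ _) n₀ ((∑ w ∈ D.support, (D w).natAbs : ℕ) : ℤ)
  set Bd : Finset (Place K F) :=
    ((m18rr_finite_poles x hx f₁).toFinset ∪ D.support).filter
      (fun v => ¬ 0 < v.ord (x - algebraMap K F a)) with hBd
  set m : ℕ := ∑ v ∈ Bd, ((D v).natAbs + (v.ord f₁).natAbs) with hm
  obtain ⟨p, hp0, hp1, hp2⟩ := m18rr_exists_clear x hx Bd m
  have hpa : p.eval a ≠ 0 := by
    intro h
    obtain ⟨v, hvB, hv⟩ := hp2 a h
    exact (Finset.mem_filter.1 hvB).2 hv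
  have hpx : aeval x p ≠ 0 := rrd_aeval_ne_zero hx hp0
  refine ⟨aeval x p * f₁, mul_ne_zero hpx h0, ?_, fun v hv hvv => ?_⟩
  · rw [v₀.ord_mul hpx h0, rrc_ord_aeval_eq_zero x v₀ a ha p hpa, h1, zero_add]
  · rw [v.ord_mul hpx h0]
    have h3 := rrd_ord_aeval_nonneg x v hv p
    by_cases hfib : 0 < v.ord (x - algebraMap K F a)
    · have h4 := h2 v (Finset.mem_erase.2 ⟨hvv, (Set.Finite.mem_toFinset _).2 hfib⟩)
      have h5 := rrd_natAbs_le_sum D v
      omega
    · by_cases hvB : v ∈ Bd
      · have h4 := hp1 v hvB hv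
        have h5 : (D v).natAbs + (v.ord f₁).natAbs ≤ m :=
          Finset.single_le_sum (f := fun v => (D v).natAbs + (v.ord f₁).natAbs)
            (fun _ _ => Nat.zero_le _) hvB
        omega
      · have h4 : ¬ (v.ord f₁ < 0) := fun h => hvB (Finset.mem_filter.2
          ⟨Finset.mem_union_left _ ((Set.Finite.mem_toFinset _).2 h), hfib⟩)
        have h5 : D v = 0 := by
          by_contra h
          exact hvB (Finset.mem_filter.2
            ⟨Finset.mem_union_right _ (Finsupp.mem_support_iff.2 h), hfib⟩)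
        omega

end existence

section step

variable {K F : Type*} [Field K] [Field F] [Algebra K F] [IsAlgClosed K]

/-- adding a point raises the Euler characteristic by one. -/
theorem m18rr_step (x : F) (hx : Transcendental K x) [FiniteDimensional K⟮x⟯ F]
    [Algebra.IsSeparable K⟮x⟯ F]
    (D : Divisor K F) (v₀ : Place K F) :
    (rrcFin x D ↔ rrcFin x (D + Finsupp.single v₀ (1 : ℤ))) ∧
    (rrcFin x D → rrcChi x (D + Finsupp.single v₀ (1 : ℤ)) = rrcChi x D + 1) := by
  classical
  rcases le_or_gt 0 (v₀.ord x) with hv₀ | hv₀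
  · -- finite place
    have hInf : rrLamInf x (D + Finsupp.single v₀ (1 : ℤ)) = rrLamInf x D := by
      rw [rrc_lamInf_eq, rrc_lamInf_eq]
      refine rrc_gen_congr fun v hv => rrc_add_single_ne D ?_
      rintro rfl
      have : v.ord x < 0 := hv
      omega
    have hQ : rrLam x D ≤ rrLam x (D + Finsupp.single v₀ (1 : ℤ)) := by
      rw [rrc_lam_eq, rrc_lam_eq]
      refine rrc_gen_mono fun v hv => ?_
      rw [Finsupp.add_apply]
      have : (0 : ℤ) ≤ Finsupp.single v₀ (1 : ℤ) v := by
        rw [Finsupp.single_apply]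
        split_ifs <;> norm_num
      omega
    obtain ⟨f₀, hf₀, hord, hoth⟩ := m18rr_exists_fin x hx D v₀ hv₀ (-(D v₀ + 1))
    have hcol := rrc_colength x {v : Place K F | 0 ≤ v.ord x} v₀ hv₀ D f₀ hf₀ hord
      (fun v hv hvv => hoth v hv hvv)
    unfold rrcFin rrcChi
    rw [hInf]
    exact rrc_step_lin' (rrLamInf x D) (rrLam x D) (rrLam x (D + Finsupp.single v₀ (1 : ℤ)))
      hQ hcol
  · -- pole of `x`
    have hLam : rrLam x (D + Finsupp.single v₀ (1 : ℤ)) = rrLam x D := by
      rw [rrc_lam_eq, rrc_lam_eq]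
      refine rrc_gen_congr fun v hv => rrc_add_single_ne D ?_
      rintro rfl
      have : 0 ≤ v.ord x := hv
      omega
    have hQ : rrLamInf x D ≤ rrLamInf x (D + Finsupp.single v₀ (1 : ℤ)) := by
      rw [rrc_lamInf_eq, rrc_lamInf_eq]
      refine rrc_gen_mono fun v hv => ?_
      rw [Finsupp.add_apply]
      have : (0 : ℤ) ≤ Finsupp.single v₀ (1 : ℤ) v := by
        rw [Finsupp.single_apply]
        split_ifs <;> norm_num
      omega
    obtain ⟨f₀, hf₀, hord, hoth⟩ := m18rr_exists_inf x hx D v₀ (-(D v₀ + 1))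
    have hcol := rrc_colength x {v : Place K F | v.ord x < 0} v₀ hv₀ D f₀ hf₀ hord
      (fun v hv hvv => hoth v hv hvv)
    unfold rrcFin rrcChi
    rw [hLam]
    exact rrc_step_lin (rrLam x D) (rrLamInf x D) (rrLamInf x (D + Finsupp.single v₀ (1 : ℤ)))
      hQ hcol

/-- adding a multiple of a point. -/
theorem m18rr_add_single (x : F) (hx : Transcendental K x) [FiniteDimensional K⟮x⟯ F]
    [Algebra.IsSeparable K⟮x⟯ F]
    (D : Divisor K F) (v₀ : Place K F) (h : rrcFin x D) (n : ℤ) :
    rrcFin x (D + Finsupp.single v₀ n) ∧ rrcChi x (D + Finsupp.single v₀ n) = rrcChi x D + n := by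
  induction n using Int.induction_on with
  | zero =>
    rw [Finsupp.single_zero, add_zero, add_zero]
    exact ⟨h, rfl⟩
  | succ n ih =>
    have e : D + Finsupp.single v₀ ((n : ℤ) + 1)
        = (D + Finsupp.single v₀ (n : ℤ)) + Finsupp.single v₀ (1 : ℤ) := by
      rw [Finsupp.single_add, add_assoc]
    obtain ⟨h1, h2⟩ := m18rr_step x hx (D + Finsupp.single v₀ (n : ℤ)) v₀
    rw [e]
    refine ⟨h1.1 ih.1, ?_⟩
    rw [h2 ih.1, ih.2]
    ring
  | pred n ih =>
    have e : D + Finsupp.single v₀ (-(n : ℤ))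
        = (D + Finsupp.single v₀ (-(n : ℤ) - 1)) + Finsupp.single v₀ (1 : ℤ) := by
      rw [add_assoc, ← Finsupp.single_add, sub_add_cancel]
    obtain ⟨h1, h2⟩ := m18rr_step x hx (D + Finsupp.single v₀ (-(n : ℤ) - 1)) v₀
    rw [← e] at h1 h2
    have h3 := h1.2 ih.1
    refine ⟨h3, ?_⟩
    have h4 := h2 h3
    rw [ih.2] at h4
    linarith

/-- `χ(D) = χ(0) + deg D`, given finiteness at `D = 0`. -/
theorem m18rr_chi_main (x : F) (hx : Transcendental K x) [FiniteDimensional K⟮x⟯ F]
    [Algebra.IsSeparable K⟮x⟯ F]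
    (h0 : rrcFin x (0 : Divisor K F)) (D : Divisor K F) :
    rrcFin x D ∧ rrcChi x D = rrcChi x (0 : Divisor K F) + Divisor.degree D := by
  induction D using Finsupp.induction with
  | zero =>
    refine ⟨h0, ?_⟩
    rw [map_zero, add_zero]
  | single_add v n D hv hn ih =>
    obtain ⟨h1, h2⟩ := m18rr_add_single x hx D v ih.1 n
    rw [add_comm]
    refine ⟨h1, ?_⟩
    rw [h2, ih.2, map_add, Divisor.degree_single, m18rr_deg_eq_one x v]
    push_cast
    ring

/-- finiteness at `D = 0`, from the lattice descriptions and the normal form. -/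
theorem m18rr_fin_zero (x : F) (hx : Transcendental K x) [FiniteDimensional K⟮x⟯ F]
    [Algebra.IsSeparable K⟮x⟯ F] :
    rrcFin x (0 : Divisor K F) := by
  classical
  obtain ⟨B, hB⟩ := rrb_exists (K := K) x hx
  obtain ⟨b, hb⟩ := m18rr_lam_isLattice x hx B hB 0
  obtain ⟨c, hc⟩ := m18rr_lamInf_isLattice x hx B hB 0
  have hβ : (Algebra.traceForm K⟮x⟯ F).Nondegenerate := traceForm_nondegenerate K⟮x⟯ F
  obtain ⟨h1, h2, -⟩ := B.nf_duality (Algebra.traceForm K⟮x⟯ F) hβ b c
  unfold rrcFin
  rw [hb, hc]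
  exact ⟨h1, h2⟩

/-- [RR-CHI] the Euler characteristic is `χ(0) + deg D`. -/
theorem m18rr_chi (x : F) (hx : Transcendental K x) [FiniteDimensional K⟮x⟯ F]
    [Algebra.IsSeparable K⟮x⟯ F] (D : Divisor K F) :
    rrcFin x D ∧ rrcChi x D = rrcChi x (0 : Divisor K F) + Divisor.degree D :=
  m18rr_chi_main x hx (m18rr_fin_zero x hx) D

/-- [RR-FIN] Riemann–Roch spaces are finite dimensional. -/
theorem m18rr_finite (x : F) (hx : Transcendental K x) [FiniteDimensional K⟮x⟯ F]
    [Algebra.IsSeparable K⟮x⟯ F] (D : Divisor K F) : Module.Finite K (riemannRochSpace D) :=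
  rr_finite_of x D (m18rr_chi x hx D).1.1

end step

section zero

variable {K F : Type*} [Field K] [Field F] [Algebra K F] [IsAlgClosed K]

/-- a function without poles is algebraic over `K`. -/
theorem m18rr_isAlgebraic (x : F) (hx : Transcendental K x) [FiniteDimensional K⟮x⟯ F]
    [Algebra.IsSeparable K⟮x⟯ F]
    (f : F) (hf : ∀ v : Place K F, 0 ≤ v.ord f) : IsAlgebraic K f := by
  haveI := m18rr_finite x hx (0 : Divisor K F)
  have hmem : ∀ n : ℕ, f ^ n ∈ riemannRochSpace (0 : Divisor K F) := by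
    intro n
    rw [mem_riemannRochSpace_iff]
    intro v
    rcases eq_or_ne (f ^ n) 0 with h | h
    · exact Or.inl h
    · right
      rw [← zpow_natCast, v.ord_zpow]
      have := hf v
      simp only [Finsupp.coe_zero, Pi.zero_apply, neg_zero]
      positivity
  -- the subalgebra `K[f]` lies in a finite dimensional space
  have hle : (Algebra.adjoin K ({f} : Set F)).toSubmodule ≤ riemannRochSpace (0 : Divisor K F) := by
    intro g hg
    have hg' : g ∈ Algebra.adjoin K ({f} : Set F) := hg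
    rw [Algebra.adjoin_singleton_eq_range_aeval] at hg'
    obtain ⟨p, rfl⟩ := hg'
    show aeval f p ∈ riemannRochSpace (0 : Divisor K F)
    rw [aeval_eq_sum_range]
    exact Submodule.sum_mem _ fun i _ => Submodule.smul_mem _ _ (hmem i)
  have hfin : Module.Finite K (Algebra.adjoin K ({f} : Set F)).toSubmodule :=
    Submodule.finiteDimensional_of_le hle
  have hint : IsIntegral K f := by
    have h1 : (Algebra.adjoin K ({f} : Set F)).toSubmodule.FG :=
      (Submodule.fg_top _).1 (Module.finite_def.1 hfin)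
    exact IsIntegral.of_mem_of_fg _ h1 f (Algebra.self_mem_adjoin_singleton K f)
  exact hint.isAlgebraic

/-- the functions without poles are the constants. -/
theorem m18rr_zero_mem_iff (x : F) (hx : Transcendental K x) [FiniteDimensional K⟮x⟯ F]
    [Algebra.IsSeparable K⟮x⟯ F] (f : F) :
    f ∈ riemannRochSpace (0 : Divisor K F) ↔ ∃ a : K, algebraMap K F a = f := by
  constructor
  · intro hf
    rw [mem_riemannRochSpace_iff] at hf
    refine alga_mem_range_of_isAlgebraic (m18rr_isAlgebraic x hx f fun v => ?_)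
    rcases hf v with h | h
    · rw [h, Place.ord_zero]
    · simpa using h
  · rintro ⟨a, rfl⟩
    rw [mem_riemannRochSpace_iff]
    intro v
    right
    rw [alga_ord_algebraMap]
    simp

/-- [RR-ZERO] functions without poles are constant. -/
theorem m18rr_finrank_zero (x : F) (hx : Transcendental K x) [FiniteDimensional K⟮x⟯ F]
    [Algebra.IsSeparable K⟮x⟯ F] :
    finrank K ↥(riemannRochSpace (0 : Divisor K F)) = 1 := by
  have h1 : (1 : F) ∈ riemannRochSpace (0 : Divisor K F) :=
    (m18rr_zero_mem_iff x hx 1).2 ⟨1, map_one _⟩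
  refine finrank_eq_one (⟨1, h1⟩ : ↥(riemannRochSpace (0 : Divisor K F))) ?_ ?_
  · intro h
    have := congrArg Subtype.val h
    simp at this
  · rintro ⟨f, hf⟩
    obtain ⟨a, rfl⟩ := (m18rr_zero_mem_iff x hx f).1 hf
    refine ⟨a, ?_⟩
    apply Subtype.ext
    show a • (1 : F) = algebraMap K F a
    rw [Algebra.smul_def, mul_one]

end zero

end Fermat.Agent.M18
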