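import Fermat.Agent.M18.RrDiffCore
import Fermat.Agent.S20.DiffFin

/-!
# M18 / RRl-1, part 3b: the different exponents and the trace dual of the integral closure

`K` algebraically closed (any characteristic), `x : F` transcendental with `F / K(x)` finite
separable; `A = K[x]`, `B` the integral closure of `A` in `F`,
`m18rr_codiff x = traceDual A K(x) (1 : Submodule B F)` the codifferent (Mathlib:
`(differentIdeal A B)⁻¹`).

* `m18rr_dfin x v = max {- ord_v g | g ∈ m18rr_codiff x, g ≠ 0}` : the different exponent at a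
  place `v` with `0 ≤ ord_v x`;
* `m18rr_codiff_mem_iff` : `g ∈ codiff ↔ ∀ v finite, ord_v g ≥ - dfin x v`;
* `m18rr_Dfin x` : the divisor with values `dfin x v` at the finite places (and `0` at the
  poles of `x`);
* `m18rr_dualA0` : the trace dual of `rrLam x 0` is `rrLam x (m18rr_Dfin x)`.
-/

set_option autoImplicit false
set_option linter.style.haveILetI false
set_option linter.unusedSectionVars false
set_option linter.unusedVariables false
set_option linter.deprecated false

noncomputable section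

namespace Fermat.Agent.M18

open Fermat.Agent.S20 Fermat.Agent.S24
open AlgebraicCurve IntermediateField Polynomial IsDedekindDomain WithZero
open scoped IntermediateField.algebraAdjoinAdjoin

section defs

variable {K F : Type*} [Field K] [Field F] [Algebra K F]

/-- the codifferent of `F / K(x)` with respect to `K[x]`. -/
def m18rr_codiff (x : F) : Submodule (integralClosure (Algebra.adjoin K ({x} : Set F)) F) F :=
  Submodule.traceDual (Algebra.adjoin K ({x} : Set F)) K⟮x⟯
    (1 : Submodule (integralClosure (Algebra.adjoin K ({x} : Set F)) F) F)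

/-- the different exponent of `F / K(x)` at a place `v` (meaningful if `0 ≤ ord_v x`). -/
def m18rr_dfin (x : F) (v : Place K F) : ℤ :=
  sSup {n : ℤ | ∃ g ∈ m18rr_codiff (K := K) x, g ≠ 0 ∧ -v.ord g = n}

end defs

section main

variable {K F : Type*} [Field K] [Field F] [Algebra K F] [IsAlgClosed K]

/-- the places over `K[x]`, part 1. -/
theorem m18rr_S1 (x : F) (v : Place K F) (hv : 0 ≤ v.ord x)
    (a : Algebra.adjoin K ({x} : Set F)) :
    algebraMap (Algebra.adjoin K ({x} : Set F)) F a ∈ v.toValuationSubring := by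
  have hzmem : x ∈ v.toValuationSubring := alga_mem_of_ord_nonneg v hv
  have hc : (a : F) ∈ (aeval x : K[X] →ₐ[K] F).range := by
    rw [← Algebra.adjoin_singleton_eq_range_aeval]
    exact a.2
  obtain ⟨q, hq⟩ := hc
  show (a : F) ∈ v.toValuationSubring
  rw [← hq]
  exact alga_aeval_mem v hzmem q

/-- elements of the integral closure are regular at the finite places. -/
theorem m18rr_B_ord_nonneg (x : F) (hx : Transcendental K x) [FiniteDimensional K⟮x⟯ F]
    [Algebra.IsSeparable K⟮x⟯ F] (b : integralClosure (Algebra.adjoin K ({x} : Set F)) F)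
    (v : Place K F) (hv : 0 ≤ v.ord x) : 0 ≤ v.ord (b : F) := by
  have h := (m18rr_integral_iff x hx (b : F)).1 b.2
  have h2 := mem_rrLam_iff.1 h v hv
  rcases h2 with h0 | h0
  · rw [h0, Place.ord_zero]
  · simpa using h0

/-- a common denominator of the codifferent. -/
theorem m18rr_codiff_bounded (x : F) (hx : Transcendental K x) [FiniteDimensional K⟮x⟯ F]
    [Algebra.IsSeparable K⟮x⟯ F] :
    ∃ a : F, a ≠ 0 ∧ ∀ g ∈ m18rr_codiff (K := K) x, g ≠ 0 → ∀ v : Place K F, 0 ≤ v.ord x →
      0 ≤ v.ord a ∧ -v.ord g ≤ v.ord a := by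
  classical
  have hDed : IsDedekindDomain (Algebra.adjoin K ({x} : Set F)) := algaz_isDedekindDomain x hx
  have hDedB : IsDedekindDomain (integralClosure (Algebra.adjoin K ({x} : Set F)) F) :=
    integralClosure.isDedekindDomain (Algebra.adjoin K ({x} : Set F)) K⟮x⟯ F
  have hFracB : IsFractionRing (integralClosure (Algebra.adjoin K ({x} : Set F)) F) F :=
    integralClosure.isFractionRing_of_finite_extension K⟮x⟯ F
  have hFinB : Module.Finite (Algebra.adjoin K ({x} : Set F))
      (integralClosure (Algebra.adjoin K ({x} : Set F)) F) :=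
    IsIntegralClosure.finite (Algebra.adjoin K ({x} : Set F)) K⟮x⟯ F
      (integralClosure (Algebra.adjoin K ({x} : Set F)) F)
  obtain ⟨a, ha0, ha⟩ := m18rr_abs_bounded (A := Algebra.adjoin K ({x} : Set F)) (F := F) K⟮x⟯
    (integralClosure (Algebra.adjoin K ({x} : Set F)) F)
  have haF : (a : F) ≠ 0 := fun h => ha0 (Subtype.ext h)
  refine ⟨(a : F), haF, fun g hg hg0 v hv => ⟨m18rr_B_ord_nonneg x hx a v hv, ?_⟩⟩
  obtain ⟨b, hb⟩ := ha g hg
  have h1 := m18rr_B_ord_nonneg x hx b v hv
  have h2 : (b : F) = (a : F) * g := hb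
  rw [h2, v.ord_mul haF hg0] at h1
  omega

/-- `1` lies in the codifferent. -/
theorem m18rr_one_mem_codiff (x : F) (hx : Transcendental K x) [FiniteDimensional K⟮x⟯ F]
    [Algebra.IsSeparable K⟮x⟯ F] : (1 : F) ∈ m18rr_codiff (K := K) x := by
  classical
  have hDed : IsDedekindDomain (Algebra.adjoin K ({x} : Set F)) := algaz_isDedekindDomain x hx
  have hDedB : IsDedekindDomain (integralClosure (Algebra.adjoin K ({x} : Set F)) F) :=
    integralClosure.isDedekindDomain (Algebra.adjoin K ({x} : Set F)) K⟮x⟯ F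
  have hFracB : IsFractionRing (integralClosure (Algebra.adjoin K ({x} : Set F)) F) F :=
    integralClosure.isFractionRing_of_finite_extension K⟮x⟯ F
  have hFinB : Module.Finite (Algebra.adjoin K ({x} : Set F))
      (integralClosure (Algebra.adjoin K ({x} : Set F)) F) :=
    IsIntegralClosure.finite (Algebra.adjoin K ({x} : Set F)) K⟮x⟯ F
      (integralClosure (Algebra.adjoin K ({x} : Set F)) F)
  exact m18rr_abs_one_mem (A := Algebra.adjoin K ({x} : Set F)) (F := F) K⟮x⟯
    (integralClosure (Algebra.adjoin K ({x} : Set F)) F)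

/-- the defining set of `m18rr_dfin` is nonempty and bounded above. -/
theorem m18rr_dfin_aux (x : F) (hx : Transcendental K x) [FiniteDimensional K⟮x⟯ F]
    [Algebra.IsSeparable K⟮x⟯ F] (v : Place K F) (hv : 0 ≤ v.ord x) :
    {n : ℤ | ∃ g ∈ m18rr_codiff (K := K) x, g ≠ 0 ∧ -v.ord g = n}.Nonempty ∧
    BddAbove {n : ℤ | ∃ g ∈ m18rr_codiff (K := K) x, g ≠ 0 ∧ -v.ord g = n} := by
  refine ⟨⟨0, 1, m18rr_one_mem_codiff x hx, one_ne_zero, by simp⟩, ?_⟩
  obtain ⟨a, ha0, ha⟩ := m18rr_codiff_bounded (K := K) x hx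
  refine ⟨v.ord a, ?_⟩
  rintro n ⟨g, hg, hg0, rfl⟩
  exact (ha g hg hg0 v hv).2

/-- [spec, lower bound] elements of the codifferent have order `≥ - dfin` at finite places. -/
theorem m18rr_dfin_spec_le (x : F) (hx : Transcendental K x) [FiniteDimensional K⟮x⟯ F]
    [Algebra.IsSeparable K⟮x⟯ F] (v : Place K F) (hv : 0 ≤ v.ord x) (g : F)
    (hg : g ∈ m18rr_codiff (K := K) x) (hg0 : g ≠ 0) : -m18rr_dfin (K := K) x v ≤ v.ord g := by
  have h := le_csSup (m18rr_dfin_aux x hx v hv).2 ⟨g, hg, hg0, rfl⟩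
  unfold m18rr_dfin
  omega

/-- [spec, attained] the bound is attained. -/
theorem m18rr_dfin_spec_attained (x : F) (hx : Transcendental K x) [FiniteDimensional K⟮x⟯ F]
    [Algebra.IsSeparable K⟮x⟯ F] (v : Place K F) (hv : 0 ≤ v.ord x) :
    ∃ g ∈ m18rr_codiff (K := K) x, g ≠ 0 ∧ v.ord g = -m18rr_dfin (K := K) x v := by
  obtain ⟨hne, hbd⟩ := m18rr_dfin_aux x hx v hv
  obtain ⟨g, hg, hg0, h⟩ := Int.csSup_mem hne hbd
  refine ⟨g, hg, hg0, ?_⟩
  unfold m18rr_dfin
  omega

theorem m18rr_dfin_nonneg (x : F) (hx : Transcendental K x) [FiniteDimensional K⟮x⟯ F]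
    [Algebra.IsSeparable K⟮x⟯ F] (v : Place K F) (hv : 0 ≤ v.ord x) :
    0 ≤ m18rr_dfin (K := K) x v := by
  have h := m18rr_dfin_spec_le x hx v hv 1 (m18rr_one_mem_codiff x hx) one_ne_zero
  simp only [Place.ord_one] at h
  omega

/-- the different exponents vanish outside a finite set of places. -/
theorem m18rr_dfin_finite (x : F) (hx : Transcendental K x) [FiniteDimensional K⟮x⟯ F]
    [Algebra.IsSeparable K⟮x⟯ F] :
    {v : Place K F | 0 ≤ v.ord x ∧ m18rr_dfin (K := K) x v ≠ 0}.Finite := by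
  obtain ⟨a, ha0, ha⟩ := m18rr_codiff_bounded (K := K) x hx
  refine (m18rr_finite_zeros_any x hx a).subset ?_
  rintro v ⟨hv, hne⟩
  obtain ⟨g, hg, hg0, hgv⟩ := m18rr_dfin_spec_attained x hx v hv
  have h1 := (ha g hg hg0 v hv).2
  have h2 := m18rr_dfin_nonneg x hx v hv
  show 0 < v.ord a
  omega

/-- The codifferent in terms of places. -/
theorem m18rr_codiff_mem_iff (x : F) (hx : Transcendental K x) [FiniteDimensional K⟮x⟯ F]
    [Algebra.IsSeparable K⟮x⟯ F] (g : F) :
    g ∈ m18rr_codiff (K := K) x ↔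
      ∀ v : Place K F, 0 ≤ v.ord x → g = 0 ∨ -m18rr_dfin (K := K) x v ≤ v.ord g := by
  classical
  have hDed : IsDedekindDomain (Algebra.adjoin K ({x} : Set F)) := algaz_isDedekindDomain x hx
  have hDedB : IsDedekindDomain (integralClosure (Algebra.adjoin K ({x} : Set F)) F) :=
    integralClosure.isDedekindDomain (Algebra.adjoin K ({x} : Set F)) K⟮x⟯ F
  have hFracB : IsFractionRing (integralClosure (Algebra.adjoin K ({x} : Set F)) F) F :=
    integralClosure.isFractionRing_of_finite_extension K⟮x⟯ F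
  have hFinB : Module.Finite (Algebra.adjoin K ({x} : Set F))
      (integralClosure (Algebra.adjoin K ({x} : Set F)) F) :=
    IsIntegralClosure.finite (Algebra.adjoin K ({x} : Set F)) K⟮x⟯ F
      (integralClosure (Algebra.adjoin K ({x} : Set F)) F)
  set S : Set (Place K F) := {v | 0 ≤ v.ord x} with hS
  have hS1 : ∀ v ∈ S, ∀ a : Algebra.adjoin K ({x} : Set F),
      algebraMap (Algebra.adjoin K ({x} : Set F)) F a ∈ v.toValuationSubring :=
    fun v hv a => m18rr_S1 x v hv a
  have hS2 : ∀ P : HeightOneSpectrum (integralClosure (Algebra.adjoin K ({x} : Set F)) F),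
      Place.ofHeightOneSpectrum (K := K) (F := F) P ∈ S := by
    intro P
    show 0 ≤ (Place.ofHeightOneSpectrum (K := K) (F := F) P).ord x
    apply alga_ord_nonneg_of_mem
    rw [algad_mem_iff (K := K)]
    have hxB : x ∈ integralClosure (Algebra.adjoin K ({x} : Set F)) F :=
      (integralClosure (Algebra.adjoin K ({x} : Set F)) F).algebraMap_mem
        ⟨x, Algebra.self_mem_adjoin_singleton K x⟩
    exact P.valuation_le_one (⟨x, hxB⟩ : integralClosure (Algebra.adjoin K ({x} : Set F)) F)
  exact m18rr_abs_mem_iff (K := K) (F := F) (A := Algebra.adjoin K ({x} : Set F)) K⟮x⟯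
    (integralClosure (Algebra.adjoin K ({x} : Set F)) F) S hS1 hS2 (m18rr_dfin (K := K) x)
    (fun v hv g hg hg0 => m18rr_dfin_spec_le x hx v hv g hg hg0)
    (fun v hv => m18rr_dfin_spec_attained x hx v hv) g

/-- membership in the range of `K[x] → K(x)`. -/
theorem m18rr_mem_range_iff (x : F) (r : K⟮x⟯) :
    r ∈ (algebraMap (Algebra.adjoin K ({x} : Set F)) K⟮x⟯).range ↔
      (r : F) ∈ Algebra.adjoin K ({x} : Set F) := by
  constructor
  · rintro ⟨a, rfl⟩
    rw [IntermediateField.algebraAdjoinAdjoin.coe_algebraMap]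
    exact a.2
  · intro h
    refine ⟨⟨(r : F), h⟩, ?_⟩
    apply Subtype.ext
    rw [IntermediateField.algebraAdjoinAdjoin.coe_algebraMap]

/-- membership in `1 : Submodule B F`. -/
theorem m18rr_mem_one_iff (x : F) (hx : Transcendental K x) [FiniteDimensional K⟮x⟯ F]
    [Algebra.IsSeparable K⟮x⟯ F] (f : F) :
    f ∈ (1 : Submodule (integralClosure (Algebra.adjoin K ({x} : Set F)) F) F) ↔
      f ∈ rrLam x (0 : Divisor K F) := by
  rw [Submodule.mem_one, ← m18rr_integral_iff x hx]
  constructor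
  · rintro ⟨b, rfl⟩
    exact b.2
  · intro h
    exact ⟨⟨f, h⟩, rfl⟩

/-- **the trace dual of the integral closure, in terms of places** (chart `x`). -/
theorem m18rr_dual0_iff (x : F) (hx : Transcendental K x) [FiniteDimensional K⟮x⟯ F]
    [Algebra.IsSeparable K⟮x⟯ F] (g : F) :
    (∀ v : Place K F, 0 ≤ v.ord x → g = 0 ∨ -m18rr_dfin (K := K) x v ≤ v.ord g) ↔
      ∀ f ∈ rrLam x (0 : Divisor K F),
        ((Algebra.trace K⟮x⟯ F (g * f) : K⟮x⟯) : F) ∈ Algebra.adjoin K ({x} : Set F) := by
  rw [← m18rr_codiff_mem_iff x hx g, m18rr_codiff, Submodule.mem_traceDual]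
  refine forall_congr' fun f => ?_
  rw [m18rr_mem_one_iff x hx, Algebra.traceForm_apply, m18rr_mem_range_iff]

end main

section divisor

variable {K F : Type*} [Field K] [Field F] [Algebra K F]

/-- the values of the divisor of `dx`. -/
def m18rr_Wfun (x : F) (v : Place K F) : ℤ :=
  if 0 ≤ v.ord x then m18rr_dfin (K := K) x v else m18rr_dfin (K := K) x⁻¹ v + 2 * v.ord x

open Classical in
/-- **the divisor of `dx`** (defined by the trace: different exponents at the finite places,
different exponents in the chart `1 / x` minus `2 e` at the poles of `x`). -/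
def m18rr_W (x : F) : Divisor K F :=
  if h : (Function.support (m18rr_Wfun (K := K) x)).Finite then
    Finsupp.ofSupportFinite (m18rr_Wfun (K := K) x) h
  else 0

variable [IsAlgClosed K]

theorem m18rr_Wfun_support (x : F) (hx : Transcendental K x) [FiniteDimensional K⟮x⟯ F]
    [Algebra.IsSeparable K⟮x⟯ F] : (Function.support (m18rr_Wfun (K := K) x)).Finite := by
  refine ((m18rr_dfin_finite (K := K) x hx).union (m18rr_finite_poles_gen x hx)).subset ?_
  intro v hv
  rw [Function.mem_support] at hv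
  by_cases h : 0 ≤ v.ord x
  · left
    refine ⟨h, ?_⟩
    rwa [m18rr_Wfun, if_pos h] at hv
  · right
    show v.ord x < 0
    omega

theorem m18rr_W_apply (x : F) (hx : Transcendental K x) [FiniteDimensional K⟮x⟯ F]
    [Algebra.IsSeparable K⟮x⟯ F] (v : Place K F) :
    m18rr_W (K := K) x v = m18rr_Wfun (K := K) x v := by
  rw [m18rr_W, dif_pos (m18rr_Wfun_support x hx)]
  rfl

/-- the divisor of `dx` at a finite place: the different exponent. -/
theorem m18rr_W_fin (x : F) (hx : Transcendental K x) [FiniteDimensional K⟮x⟯ F]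
    [Algebra.IsSeparable K⟮x⟯ F] (v : Place K F) (hv : 0 ≤ v.ord x) :
    m18rr_W (K := K) x v = m18rr_dfin (K := K) x v := by
  rw [m18rr_W_apply x hx, m18rr_Wfun, if_pos hv]

/-- the divisor of `dx` at a pole of `x`. -/
theorem m18rr_W_inf (x : F) (hx : Transcendental K x) [FiniteDimensional K⟮x⟯ F]
    [Algebra.IsSeparable K⟮x⟯ F] (v : Place K F) (hv : v.ord x < 0) :
    m18rr_W (K := K) x v = m18rr_dfin (K := K) x⁻¹ v + 2 * v.ord x := by
  rw [m18rr_W_apply x hx, m18rr_Wfun, if_neg (by omega)]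

/-- [spec] at a finite place: lower bound. -/
theorem m18rr_W_spec_le (x : F) (hx : Transcendental K x) [FiniteDimensional K⟮x⟯ F]
    [Algebra.IsSeparable K⟮x⟯ F] (v : Place K F) (hv : 0 ≤ v.ord x) (g : F)
    (hg : g ∈ m18rr_codiff (K := K) x) (hg0 : g ≠ 0) : -m18rr_W (K := K) x v ≤ v.ord g := by
  rw [m18rr_W_fin x hx v hv]
  exact m18rr_dfin_spec_le x hx v hv g hg hg0

/-- [spec] at a finite place: attained. -/
theorem m18rr_W_spec_attained (x : F) (hx : Transcendental K x) [FiniteDimensional K⟮x⟯ F]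
    [Algebra.IsSeparable K⟮x⟯ F] (v : Place K F) (hv : 0 ≤ v.ord x) :
    ∃ g ∈ m18rr_codiff (K := K) x, g ≠ 0 ∧ v.ord g = -m18rr_W (K := K) x v := by
  rw [m18rr_W_fin x hx v hv]
  exact m18rr_dfin_spec_attained x hx v hv

/-- the codifferent is `rrLam x W`. -/
theorem m18rr_codiff_eq (x : F) (hx : Transcendental K x) [FiniteDimensional K⟮x⟯ F]
    [Algebra.IsSeparable K⟮x⟯ F] (g : F) :
    g ∈ m18rr_codiff (K := K) x ↔ g ∈ rrLam x (m18rr_W (K := K) x) := by
  rw [m18rr_codiff_mem_iff x hx, mem_rrLam_iff]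
  refine forall_congr' fun v => ?_
  constructor
  · intro h hv
    rw [m18rr_W_fin x hx v hv]
    exact h hv
  · intro h hv
    rw [← m18rr_W_fin x hx v hv]
    exact h hv

/-- membership in `rrLam x W` by traces. -/
theorem m18rr_mem_lamW_iff (x : F) (hx : Transcendental K x) [FiniteDimensional K⟮x⟯ F]
    [Algebra.IsSeparable K⟮x⟯ F] (g : F) :
    g ∈ rrLam x (m18rr_W (K := K) x) ↔
      ∀ f ∈ rrLam x (0 : Divisor K F),
        ((Algebra.trace K⟮x⟯ F (g * f) : K⟮x⟯) : F) ∈ Algebra.adjoin K ({x} : Set F) := by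
  rw [← m18rr_dual0_iff x hx, ← m18rr_codiff_eq x hx, m18rr_codiff_mem_iff x hx]

end divisor

end Fermat.Agent.M18

end
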