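import Fermat.Agent.M18.RrChi
import Fermat.Agent.S20.DiffDict

/-!
# M18 / RRl-1, part 3a: the codifferent in terms of places (abstract AKLB form)

AKLB over a field of constants `K`; `S` the set of places of `F` over `A`;
`C = traceDual A L (1 : Submodule B F)` the codifferent.  If `E v = max {- ord_v g | g ∈ C}` on
`S`, then `C = {g | ∀ v ∈ S, ord_v g ≥ - E v}` (invertibility of `C` in the Dedekind domain `B`).
-/

set_option autoImplicit false
set_option linter.style.haveILetI false
set_option linter.unusedSectionVars false
set_option linter.unusedVariables false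

noncomputable section

namespace Fermat.Agent.M18

open Fermat.Agent.S20 Fermat.Agent.S24
open AlgebraicCurve IsDedekindDomain WithZero
open scoped nonZeroDivisors

section abs

variable {K F : Type*} [Field K] [Field F] [Algebra K F]
  {A : Type*} (L B : Type*) [CommRing A] [IsDedekindDomain A] [Field L] [Algebra A L]
  [IsFractionRing A L] [Algebra L F] [Algebra A F] [IsScalarTower A L F]
  [CommRing B] [IsDedekindDomain B] [Algebra A B] [Module.IsTorsionFree A B] [Algebra B F]
  [IsFractionRing B F] [IsScalarTower A B F] [Module.Finite A B] [IsIntegralClosure B A F]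
  [Algebra K A] [Algebra K B] [IsScalarTower K A B] [IsScalarTower K B F]
  [FiniteDimensional L F] [Algebra.IsSeparable L F]

/-- the codifferent has a common denominator. -/
theorem m18rr_abs_bounded :
    ∃ a : B, a ≠ 0 ∧ ∀ g ∈ Submodule.traceDual A L (1 : Submodule B F),
      ∃ b : B, algebraMap B F b = algebraMap B F a * g := by
  obtain ⟨a, ha, h⟩ := (FractionalIdeal.dual A L (1 : FractionalIdeal B⁰ F)).2
  refine ⟨a, nonZeroDivisors.ne_zero ha, fun g hg => ?_⟩
  have hg' : g ∈ (FractionalIdeal.dual A L (1 : FractionalIdeal B⁰ F) : Submodule B F) := by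
    rw [FractionalIdeal.coe_dual_one]
    exact hg
  obtain ⟨b, hb⟩ := h g hg'
  exact ⟨b, by rw [hb, Algebra.smul_def]⟩

/-- `1` lies in the codifferent. -/
theorem m18rr_abs_one_mem : (1 : F) ∈ Submodule.traceDual A L (1 : Submodule B F) :=
  Submodule.one_le_traceDual_one (Submodule.one_le.1 le_rfl)

/-- The codifferent in terms of places. -/
theorem m18rr_abs_mem_iff
    (S : Set (Place K F))
    (hS1 : ∀ v ∈ S, ∀ a : A, algebraMap A F a ∈ v.toValuationSubring)
    (hS2 : ∀ P : HeightOneSpectrum B, Place.ofHeightOneSpectrum (K := K) (F := F) P ∈ S)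
    (E : Place K F → ℤ)
    (hE1 : ∀ v ∈ S, ∀ g ∈ Submodule.traceDual A L (1 : Submodule B F), g ≠ 0 → -E v ≤ v.ord g)
    (hE2 : ∀ v ∈ S, ∃ g ∈ Submodule.traceDual A L (1 : Submodule B F), g ≠ 0 ∧ v.ord g = -E v)
    (g : F) :
    g ∈ Submodule.traceDual A L (1 : Submodule B F) ↔ ∀ v ∈ S, g = 0 ∨ -E v ≤ v.ord g := by
  constructor
  · intro hg v hv
    rcases eq_or_ne g 0 with h0 | h0
    · exact Or.inl h0
    · exact Or.inr (hE1 v hv g hg h0)
  · intro hg
    set J : FractionalIdeal B⁰ F := FractionalIdeal.dual A L (1 : FractionalIdeal B⁰ F) with hJ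
    have hJ0 : J ≠ 0 := FractionalIdeal.dual_ne_zero A L one_ne_zero
    have hJc : (J : Submodule B F) = Submodule.traceDual A L (1 : Submodule B F) :=
      FractionalIdeal.coe_dual_one A L F B
    have h1 : (1 : F) ∈ J * J⁻¹ := by
      rw [mul_inv_cancel₀ hJ0]
      exact FractionalIdeal.one_mem_one _
    have key : ∀ u ∈ J * J⁻¹, u * g ∈ Submodule.traceDual A L (1 : Submodule B F) := by
      intro u hu
      refine FractionalIdeal.mul_induction_on hu (fun i hi j hj => ?_) (fun a b ha hb => ?_)
      · -- `j * g` is integral
        have hi' : i ∈ Submodule.traceDual A L (1 : Submodule B F) := by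
          rw [← hJc]
          exact hi
        have hjg : j * g ∈ (algebraMap B F).range := by
          rw [diffd_mem_range_iff (K := K) (F := F) (A := A) L B S hS1 hS2]
          intro v hv
          rcases eq_or_ne g 0 with h0 | h0
          · rw [h0, mul_zero]
            exact v.toValuationSubring.zero_mem
          rcases eq_or_ne j 0 with hj0 | hj0
          · rw [hj0, zero_mul]
            exact v.toValuationSubring.zero_mem
          obtain ⟨g₀, hg₀, hg₀0, hg₀v⟩ := hE2 v hv
          have hjg₀ : j * g₀ ∈ (1 : FractionalIdeal B⁰ F) := by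
            rw [FractionalIdeal.mem_inv_iff hJ0] at hj
            exact hj g₀ (by
              show g₀ ∈ (J : Submodule B F)
              rw [hJc]
              exact hg₀)
          rw [FractionalIdeal.mem_one_iff] at hjg₀
          have hmem : j * g₀ ∈ v.toValuationSubring :=
            ((diffd_mem_range_iff (K := K) (F := F) (A := A) L B S hS1 hS2 (j * g₀)).1
              hjg₀) v hv
          have h2 : 0 ≤ v.ord (j * g₀) := alga_ord_nonneg_of_mem v hmem
          rw [v.ord_mul hj0 hg₀0, hg₀v] at h2
          have h3 := (hg v hv).resolve_left h0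
          apply alga_mem_of_ord_nonneg
          rw [v.ord_mul hj0 h0]
          omega
        obtain ⟨b, hb⟩ := hjg
        have e : i * j * g = b • i := by
          rw [Algebra.smul_def, hb]
          ring
        rw [e]
        exact Submodule.smul_mem _ _ hi'
      · rw [add_mul]
        exact Submodule.add_mem _ ha hb
    have := key 1 h1
    rwa [one_mul] at this

end abs

end Fermat.Agent.M18

end
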