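import Fermat.Agent.M18.RrDiff
import Fermat.Agent.S20.DiffInf

/-!
# M18 / RRl-1, part 4: trace duals of the Riemann–Roch lattices (any characteristic)

`K` algebraically closed, `x : F` transcendental with `F / K(x)` finite separable,
`W = m18rr_W x` the divisor of `dx` (defined by the trace).

* `m18rr_dualInf0` : `dualInf (-2) (rrLamInf x 0) = rrLamInf x W`;
* `m18rr_dualA0`   : `dualA (rrLam x 0) = rrLam x W`;
* `m18rr_dualA`, `m18rr_dualInf` : the same for every divisor `D` (`W - D` on the right).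
-/

set_option autoImplicit false
set_option linter.style.haveILetI false
set_option linter.unusedSectionVars false
set_option linter.unusedVariables false
set_option linter.deprecated false

noncomputable section

namespace Fermat.Agent.M18

open Fermat.Agent.S20 Fermat.Agent.S24
open AlgebraicCurve IntermediateField Module Polynomial WithZero
open scoped IntermediateField.algebraAdjoinAdjoin

section tools

variable {K F : Type*} [Field K] [Field F] [Algebra K F]


/-- a polynomial in `y` with nonzero constant term is a unit at the zeros of `y`. -/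
theorem m18rr_dinf_ord_aeval_eq_zero (y : F) (v : Place K F) (hv : 0 < v.ord y) (p : K[X])
    (hp : p.coeff 0 ≠ 0) : aeval y p ≠ 0 ∧ v.ord (aeval y p) = 0 := by
  have hy0 : y ≠ 0 := ct_ne_zero_of_ord_pos v hv
  have e : aeval y p = aeval y p.divX * y + algebraMap K F (p.coeff 0) := by
    conv_lhs => rw [← Polynomial.divX_mul_X_add p]
    simp
  have h1 : v.adicValuation (aeval y p.divX * y) < 1 := by
    rw [map_mul]
    have h2 : v.adicValuation (aeval y p.divX) ≤ 1 :=
      rrd_adjoin_val_le y v hv.le (aeval_mem_adjoin_singleton K y)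
    have h3 : v.adicValuation y < 1 := (ct_ord_pos_iff v hy0).mp hv
    calc v.adicValuation (aeval y p.divX) * v.adicValuation y
        ≤ 1 * v.adicValuation y := mul_le_mul_left h2 _
      _ = v.adicValuation y := one_mul _
      _ < 1 := h3
  have h4 : v.adicValuation (algebraMap K F (p.coeff 0)) = 1 := ct_adic_algebraMap v hp
  have h5 : v.adicValuation (aeval y p) = 1 := by
    rw [e, Valuation.map_add_eq_of_lt_right _ (by rw [h4]; exact h1), h4]
  have hne : aeval y p ≠ 0 := by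
    intro h0
    rw [h0, map_zero] at h5
    exact zero_ne_one h5
  exact ⟨hne, (ct_ord_eq_zero_iff v hne).mpr h5⟩

/-- the degree valuation in terms of the order at a pole of `x`. -/
theorem m18rr_dinf_v_le_iff (x : F) (hx : Transcendental K x) (B : NfBase K K⟮x⟯)
    (hB : RrBaseFor x B) (v₀ : Place K F) (hv₀ : v₀.ord x < 0) (r : K⟮x⟯) (m : ℤ) :
    B.v r ≤ exp m ↔ r = 0 ∨ m * v₀.ord x ≤ v₀.ord (r : F) := by
  rcases eq_or_ne r 0 with rfl | hr
  · simp
  · rw [or_iff_right hr, rrb_ord_of_pole x hx B hB v₀ hv₀ r hr]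
    have hne : B.v r ≠ 0 := (Valuation.ne_zero_iff _).mpr hr
    rw [← exp_log hne, exp_le_exp, log_exp]
    constructor
    · intro h
      nlinarith
    · intro h
      nlinarith

theorem m18rr_dinf_one_mem (y : F) : (1 : F) ∈ rrLam y (0 : Divisor K F) := by
  intro v _
  simp

theorem m18rr_dinf_rrLam_le_rrLamInf (x : F) {f : F} (hf : f ∈ rrLam x⁻¹ (0 : Divisor K F)) :
    f ∈ rrLamInf x (0 : Divisor K F) := by
  intro v hv
  exact hf v (by rw [Place.ord_inv]; omega)


theorem m18rr_dinf_aeval_reverse (x : F) (hx0 : x ≠ 0) (Q : K[X]) :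
    aeval x⁻¹ Q.reverse * x ^ Q.natDegree = aeval x Q := by
  letI := invertibleOfNonzero hx0
  have h := Polynomial.eval₂_reverse_mul_pow (algebraMap K F) x Q
  rw [invOf_eq_inv] at h
  exact h

theorem m18rr_dinf_aeval_eq (x : F) (hx0 : x ≠ 0) (Q : K[X]) :
    aeval x Q = aeval x⁻¹ Q.reverse * x ^ Q.natDegree := (m18rr_dinf_aeval_reverse x hx0 Q).symm

theorem m18rr_dinf_coe_aeval_gen (x : F) (P : K[X]) :
    ((aeval (AdjoinSimple.gen K x) P : K⟮x⟯) : F) = aeval x P := by
  have h := Polynomial.aeval_algebraMap_apply F (AdjoinSimple.gen K x) P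
  rw [AdjoinSimple.algebraMap_gen] at h
  exact h.symm

/-- an element of `K(x)` which is regular at infinity is a polynomial in `y = 1 / x` up to a
polynomial in `y` with nonzero constant term. -/
theorem m18rr_dinf_exists_clear_base (x : F) (hx : Transcendental K x) (B : NfBase K K⟮x⟯)
    (hB : RrBaseFor x B) (s : K⟮x⟯) (hs : B.v s ≤ 1) :
    ∃ p : K[X], p.coeff 0 ≠ 0 ∧
      aeval x⁻¹ p * (s : F) ∈ Algebra.adjoin K ({x⁻¹} : Set F) := by
  have hx0 : x ≠ 0 := by
    rintro rfl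
    exact hx isAlgebraic_zero
  obtain ⟨P, Q, hQ, rfl⟩ := rrb_exists_quot x hx s
  rcases eq_or_ne P 0 with rfl | hP
  · refine ⟨1, by simp, ?_⟩
    simp
  have hdeg : P.natDegree ≤ Q.natDegree := by
    rw [rrb_v_quot x B hB P Q hP hQ, ← exp_zero, exp_le_exp] at hs
    omega
  refine ⟨Q.reverse, ?_, ?_⟩
  · rw [Polynomial.coeff_zero_reverse]
    exact Polynomial.leadingCoeff_ne_zero.mpr hQ
  · have hQx : aeval x Q ≠ 0 := rrd_aeval_ne_zero hx hQ
    have e : aeval x⁻¹ Q.reverse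
        * ((aeval (AdjoinSimple.gen K x) P / aeval (AdjoinSimple.gen K x) Q : K⟮x⟯) : F)
        = aeval x⁻¹ P.reverse * x⁻¹ ^ (Q.natDegree - P.natDegree) := by
      have hcoe : ((aeval (AdjoinSimple.gen K x) P / aeval (AdjoinSimple.gen K x) Q : K⟮x⟯) : F)
          = aeval x P / aeval x Q := by
        rw [IntermediateField.coe_div, m18rr_dinf_coe_aeval_gen, m18rr_dinf_coe_aeval_gen]
      rw [hcoe]
      have h1 := m18rr_dinf_aeval_eq x hx0 Q
      have h2 := m18rr_dinf_aeval_eq x hx0 P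
      have hQr : aeval x⁻¹ Q.reverse ≠ 0 := by
        intro h0
        rw [h1, h0, zero_mul] at hQx
        exact hQx rfl
      rw [h1] at hQx ⊢
      rw [h2]
      have hpow : x ^ Q.natDegree = x ^ P.natDegree * x ^ (Q.natDegree - P.natDegree) := by
        rw [← pow_add, Nat.add_sub_cancel' hdeg]
      rw [hpow, inv_pow]
      have hxP : x ^ P.natDegree ≠ 0 := pow_ne_zero _ hx0
      have hxQ : x ^ (Q.natDegree - P.natDegree) ≠ 0 := pow_ne_zero _ hx0
      generalize aeval x⁻¹ Q.reverse = A at hQr ⊢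
      generalize aeval x⁻¹ P.reverse = Bp
      generalize x ^ P.natDegree = a at hxP ⊢
      generalize x ^ (Q.natDegree - P.natDegree) = b at hxQ ⊢
      field_simp
    rw [e]
    exact Subalgebra.mul_mem _ (aeval_mem_adjoin_singleton K x⁻¹)
      (Subalgebra.pow_mem _ (Algebra.self_mem_adjoin_singleton K x⁻¹) _)

end tools

section main

variable {K F : Type*} [Field K] [Field F] [Algebra K F] [IsAlgClosed K]

/-- the finite part in the chart `y = x⁻¹`, with traces over `K(x)`. -/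
theorem m18rr_dinf_dualA_iff (x : F) (hx : Transcendental K x) [FiniteDimensional K⟮x⟯ F]
    [Algebra.IsSeparable K⟮x⟯ F] (g : F) :
    g ∈ rrLam x⁻¹ (m18rr_W (K := K) x⁻¹) ↔ ∀ f ∈ rrLam x⁻¹ (0 : Divisor K F),
      ((Algebra.trace K⟮x⟯ F (g * f) : K⟮x⟯) : F) ∈ Algebra.adjoin K ({x⁻¹} : Set F) := by
  have hy : Transcendental K x⁻¹ := algaz_transcendental_inv hx
  haveI := m18rr_fd_inv (K := K) x
  haveI := m18rr_sep_inv (K := K) x
  rw [m18rr_mem_lamW_iff x⁻¹ hy]
  refine forall_congr' fun f => imp_congr_right fun _ => ?_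
  rw [dinf_trace_congr (algaz_adjoin_inv x)]

/-- the divisor of `d(1/x)` at the poles of `x`. -/
theorem m18rr_W_inv_apply (x : F) (hx : Transcendental K x) [FiniteDimensional K⟮x⟯ F]
    [Algebra.IsSeparable K⟮x⟯ F] (v : Place K F) (hv : v.ord x < 0) :
    m18rr_W (K := K) x⁻¹ v = m18rr_W (K := K) x v - 2 * v.ord x := by
  have hy : Transcendental K x⁻¹ := algaz_transcendental_inv hx
  haveI := m18rr_fd_inv (K := K) x
  haveI := m18rr_sep_inv (K := K) x
  rw [m18rr_W_inf x hx v hv, m18rr_W_fin x⁻¹ hy v (by rw [Place.ord_inv]; omega)]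
  ring

/-- `⊇` : regular differentials at infinity pair into `x⁻² O_∞`. -/
theorem m18rr_dinf_ge
    (x : F) (hx : Transcendental K x) [FiniteDimensional K⟮x⟯ F] [Algebra.IsSeparable K⟮x⟯ F]
    (B : NfBase K K⟮x⟯) (hB : RrBaseFor x B) :
    rrLamInf x (m18rr_W (K := K) x)
      ≤ B.dualInf (Algebra.traceForm K⟮x⟯ F) (-2) (rrLamInf x (0 : Divisor K F)) := by
  intro g hg
  rw [NfBase.mem_dualInf]
  intro f hf
  rw [Algebra.traceForm_apply]
  obtain ⟨v₀, hv₀⟩ := m18rr_exists_pole x hx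
  obtain ⟨W', hW'v, hW'def⟩ : ∃ W' : Divisor K F, (∀ v : Place K F, v.ord x < 0 →
      W' v = m18rr_W (K := K) x v - 2 * v.ord x) ∧ W' = m18rr_W (K := K) x⁻¹ :=
    ⟨_, fun v hv => m18rr_W_inv_apply x hx v hv, rfl⟩
  rw [m18rr_dinf_v_le_iff x hx B hB v₀ hv₀]
  have hx0 : x ≠ 0 := by
    rintro rfl
    exact hx isAlgebraic_zero
  by_cases hr : Algebra.trace K⟮x⟯ F (g * f) = 0
  · exact Or.inl hr
  right
  have hgf : g * f ≠ 0 := by
    intro h0
    rw [h0, map_zero] at hr
    exact hr rfl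
  have hg0 : g ≠ 0 := left_ne_zero_of_mul hgf
  have hf0 : f ≠ 0 := right_ne_zero_of_mul hgf
  -- `h = x² g f` is a regular differential w.r.t. `dy` at the zeros of `y`
  have hh : x ^ 2 * (g * f) ∈ rrLamInf x W' := by
    rw [mem_rrLamInf_iff]
    intro v hv
    right
    have h1 := (mem_rrLamInf_iff.mp hg v hv).resolve_left hg0
    have h2 := (mem_rrLamInf_iff.mp hf v hv).resolve_left hf0
    rw [v.ord_mul (pow_ne_zero 2 hx0) hgf, v.ord_mul hg0 hf0, hW'v v hv,
      show x ^ 2 = x ^ (2 : ℤ) by norm_cast, v.ord_zpow]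
    simp only [Finsupp.coe_zero, Pi.zero_apply, neg_zero] at h2
    linarith
  obtain ⟨p, hp0, hp⟩ := m18rr_exists_clear_inf x hx W' _ hh
  have h1 := (m18rr_dinf_dualA_iff x hx _).mp (hW'def ▸ hp) 1 (m18rr_dinf_one_mem _)
  rw [mul_one] at h1
  -- rewrite the trace
  set P : K⟮x⟯ := ⟨aeval x⁻¹ p, dinf_adjoin_le x (aeval_mem_adjoin_singleton K x⁻¹)⟩ with hP
  set X : K⟮x⟯ := AdjoinSimple.gen K x with hX
  have e : aeval x⁻¹ p * (x ^ 2 * (g * f)) = ((P * X ^ 2 : K⟮x⟯) : F) * (g * f) := by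
    simp only [hP, hX, MulMemClass.coe_mul, SubmonoidClass.coe_pow, AdjoinSimple.coe_gen]
    ring
  rw [e, dinf_trace_mul_coe] at h1
  have hy₀ : 0 < v₀.ord x⁻¹ := by rw [Place.ord_inv]; omega
  have h2 := rrd_adjoin_ord_nonneg x⁻¹ v₀ hy₀.le h1
  obtain ⟨hpne, hpord⟩ := m18rr_dinf_ord_aeval_eq_zero x⁻¹ v₀ hy₀ p hp0
  have hrF : ((Algebra.trace K⟮x⟯ F (g * f) : K⟮x⟯) : F) ≠ 0 := by
    intro h0
    exact hr (Subtype.ext h0)
  have e2 : ((P * X ^ 2 : K⟮x⟯) : F) = aeval x⁻¹ p * x ^ 2 := by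
    simp only [hP, hX, MulMemClass.coe_mul, SubmonoidClass.coe_pow, AdjoinSimple.coe_gen]
  rw [e2, v₀.ord_mul (mul_ne_zero hpne (pow_ne_zero 2 hx0)) hrF,
    v₀.ord_mul hpne (pow_ne_zero 2 hx0), hpord,
    show x ^ 2 = x ^ (2 : ℤ) by norm_cast, v₀.ord_zpow] at h2
  linarith

/-- `⊆` : the twisted dual at infinity consists of regular differentials. -/
theorem m18rr_dinf_le
    (x : F) (hx : Transcendental K x) [FiniteDimensional K⟮x⟯ F] [Algebra.IsSeparable K⟮x⟯ F]
    (B : NfBase K K⟮x⟯) (hB : RrBaseFor x B) :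
    B.dualInf (Algebra.traceForm K⟮x⟯ F) (-2) (rrLamInf x (0 : Divisor K F))
      ≤ rrLamInf x (m18rr_W (K := K) x) := by
  classical
  intro g hg
  rw [NfBase.mem_dualInf] at hg
  obtain ⟨W', hW'v, hW'def⟩ : ∃ W' : Divisor K F, (∀ v : Place K F, v.ord x < 0 →
      W' v = m18rr_W (K := K) x v - 2 * v.ord x) ∧ W' = m18rr_W (K := K) x⁻¹ :=
    ⟨_, fun v hv => m18rr_W_inv_apply x hx v hv, rfl⟩
  have hy : Transcendental K x⁻¹ := algaz_transcendental_inv hx
  have hx0 : x ≠ 0 := by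
    rintro rfl
    exact hx isAlgebraic_zero
  obtain ⟨c, hc⟩ := m18rr_lam_basis_inv x hx (0 : Divisor K F)
  have hci : ∀ i, c i ∈ rrLam x⁻¹ (0 : Divisor K F) := fun i => (hc (c i)).mpr (fun j => by
    rw [Basis.repr_self, Finsupp.single_apply]
    split_ifs
    · exact Subalgebra.one_mem _
    · exact Subalgebra.zero_mem _)
  set X : K⟮x⟯ := AdjoinSimple.gen K x with hX
  have hvX : B.v X = exp (1 : ℤ) := by
    rw [hX, ← hB.1]
    exact B.v_x
  have hs : ∀ i, B.v (X ^ 2 * Algebra.trace K⟮x⟯ F (g * c i)) ≤ 1 := by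
    intro i
    have h1 := hg (c i) (m18rr_dinf_rrLam_le_rrLamInf x (hci i))
    rw [Algebra.traceForm_apply] at h1
    rw [map_mul, map_pow, hvX]
    calc exp (1 : ℤ) ^ 2 * B.v (Algebra.trace K⟮x⟯ F (g * c i))
        ≤ exp (1 : ℤ) ^ 2 * exp (-2 : ℤ) := mul_le_mul_right h1 _
      _ = 1 := by
          rw [← exp_nsmul, ← exp_add]
          simp
  choose p hp0 hp using fun i => m18rr_dinf_exists_clear_base x hx B hB _ (hs i)
  set q : K[X] := ∏ i, p i with hq
  have hq0 : q.coeff 0 ≠ 0 := by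
    rw [Polynomial.coeff_zero_eq_eval_zero, hq, Polynomial.eval_prod]
    refine Finset.prod_ne_zero_iff.mpr (fun i _ => ?_)
    rw [← Polynomial.coeff_zero_eq_eval_zero]
    exact hp0 i
  have hqs : ∀ i, aeval x⁻¹ q * ((X ^ 2 * Algebra.trace K⟮x⟯ F (g * c i) : K⟮x⟯) : F)
      ∈ Algebra.adjoin K ({x⁻¹} : Set F) := by
    intro i
    have e : q = (∏ j ∈ Finset.univ.erase i, p j) * p i :=
      (Finset.prod_erase_mul _ _ (Finset.mem_univ i)).symm
    rw [e, map_mul, mul_assoc]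
    exact Subalgebra.mul_mem _ (aeval_mem_adjoin_singleton K x⁻¹) (hp i)
  set Qe : K⟮x⟯ := ⟨aeval x⁻¹ q, dinf_adjoin_le x (aeval_mem_adjoin_singleton K x⁻¹)⟩ with hQe
  have hmem : aeval x⁻¹ q * (x ^ 2 * g) ∈ rrLam x⁻¹ W' := by
    rw [hW'def, m18rr_dinf_dualA_iff x hx]
    intro f hf
    have hrepr := (hc f).mp hf
    have e1 : aeval x⁻¹ q * (x ^ 2 * g) * f = ((Qe * X ^ 2 : K⟮x⟯) : F) * (g * f) := by
      simp only [hQe, hX, MulMemClass.coe_mul, SubmonoidClass.coe_pow, AdjoinSimple.coe_gen]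
      ring
    have e2 : g * f = ∑ i, (c.repr f i) • (g * c i) := by
      conv_lhs => rw [← c.sum_repr f, Finset.mul_sum]
      refine Finset.sum_congr rfl (fun i _ => ?_)
      rw [mul_smul_comm]
    have e3 : Algebra.trace K⟮x⟯ F (g * f)
        = ∑ i, (c.repr f i) * Algebra.trace K⟮x⟯ F (g * c i) := by
      rw [e2, map_sum]
      refine Finset.sum_congr rfl (fun i _ => ?_)
      rw [map_smul, smul_eq_mul]
    rw [e1, dinf_trace_mul_coe, e3]
    have e4 : ((Qe * X ^ 2 : K⟮x⟯) : F)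
          * ((∑ i, (c.repr f i) * Algebra.trace K⟮x⟯ F (g * c i) : K⟮x⟯) : F)
        = ∑ i, ((c.repr f i : K⟮x⟯) : F)
            * (aeval x⁻¹ q * ((X ^ 2 * Algebra.trace K⟮x⟯ F (g * c i) : K⟮x⟯) : F)) := by
      rw [← MulMemClass.coe_mul, Finset.mul_sum, AddSubmonoidClass.coe_finsetSum]
      refine Finset.sum_congr rfl (fun i _ => ?_)
      simp only [hQe, MulMemClass.coe_mul]
      ring
    rw [e4]
    exact Subalgebra.sum_mem _ (fun i _ => Subalgebra.mul_mem _ (hrepr i) (hqs i))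
  rw [mem_rrLamInf_iff]
  intro v hv
  rcases eq_or_ne g 0 with rfl | hg0
  · exact Or.inl rfl
  right
  have hyv : 0 < v.ord x⁻¹ := by rw [Place.ord_inv]; omega
  obtain ⟨hqne, hqord⟩ := m18rr_dinf_ord_aeval_eq_zero x⁻¹ v hyv q hq0
  have hne : aeval x⁻¹ q * (x ^ 2 * g) ≠ 0 :=
    mul_ne_zero hqne (mul_ne_zero (pow_ne_zero 2 hx0) hg0)
  have h1 := (mem_rrLam_iff.mp hmem v hyv.le).resolve_left hne
  rw [v.ord_mul hqne (mul_ne_zero (pow_ne_zero 2 hx0) hg0), v.ord_mul (pow_ne_zero 2 hx0) hg0,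
    hqord, show x ^ 2 = x ^ (2 : ℤ) by norm_cast, v.ord_zpow, hW'v v hv] at h1
  linarith


/-- **the twisted trace dual at infinity** of `rrLamInf x 0`. -/
theorem m18rr_dualInf0 (x : F) (hx : Transcendental K x) [FiniteDimensional K⟮x⟯ F]
    [Algebra.IsSeparable K⟮x⟯ F] (B : NfBase K K⟮x⟯) (hB : RrBaseFor x B) :
    B.dualInf (Algebra.traceForm K⟮x⟯ F) (-2) (rrLamInf x (0 : Divisor K F))
      = rrLamInf x (m18rr_W (K := K) x) :=
  le_antisymm (m18rr_dinf_le x hx B hB) (m18rr_dinf_ge x hx B hB)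

/-- **the trace dual** of `rrLam x 0`. -/
theorem m18rr_dualA0 (x : F) (hx : Transcendental K x) [FiniteDimensional K⟮x⟯ F]
    [Algebra.IsSeparable K⟮x⟯ F] (B : NfBase K K⟮x⟯) (hB : RrBaseFor x B) :
    B.dualA (Algebra.traceForm K⟮x⟯ F) (rrLam x (0 : Divisor K F))
      = rrLam x (m18rr_W (K := K) x) := by
  ext g
  rw [m18rr_mem_lamW_iff x hx, NfBase.mem_dualA]
  refine forall_congr' fun f => imp_congr_right fun _ => ?_
  rw [hB.2, rrd_mem_adjoin_gen_iff, Algebra.traceForm_apply]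

end main

section general

variable {K F : Type*} [Field K] [Field F] [Algebra K F]

/-- products of functions satisfying Riemann–Roch conditions. -/
theorem m18rr_mul_mem_gen {T : Set (Place K F)} {D₁ D₂ : Divisor K F} {f g : F}
    (hf : f ∈ rrc_gen T D₁) (hg : g ∈ rrc_gen T D₂) : f * g ∈ rrc_gen T (D₁ + D₂) := by
  rw [rrc_mem_gen_iff] at hf hg ⊢
  intro v hv
  rcases eq_or_ne f 0 with rfl | hf0
  · left; exact zero_mul _
  rcases eq_or_ne g 0 with rfl | hg0
  · left; exact mul_zero _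
  right
  have h1 := (hf v hv).resolve_left hf0
  have h2 := (hg v hv).resolve_left hg0
  rw [v.ord_mul hf0 hg0, Finsupp.add_apply]
  omega

theorem m18rr_mul_mem_lam {x : F} {D₁ D₂ : Divisor K F} {f g : F}
    (hf : f ∈ rrLam x D₁) (hg : g ∈ rrLam x D₂) : f * g ∈ rrLam x (D₁ + D₂) := by
  rw [rrc_lam_eq] at hf hg ⊢
  exact m18rr_mul_mem_gen hf hg

theorem m18rr_mul_mem_lamInf {x : F} {D₁ D₂ : Divisor K F} {f g : F}
    (hf : f ∈ rrLamInf x D₁) (hg : g ∈ rrLamInf x D₂) : f * g ∈ rrLamInf x (D₁ + D₂) := by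
  rw [rrc_lamInf_eq] at hf hg ⊢
  exact m18rr_mul_mem_gen hf hg

theorem m18rr_one_mem_lam (x : F) : (1 : F) ∈ rrLam x (0 : Divisor K F) := by
  intro v _
  simp

theorem m18rr_one_mem_lamInf (x : F) : (1 : F) ∈ rrLamInf x (0 : Divisor K F) := by
  intro v _
  simp

variable [IsAlgClosed K]

/-- **the trace dual of `rrLam x D`** is `rrLam x (W - D)`. -/
theorem m18rr_dualA (x : F) (hx : Transcendental K x) [FiniteDimensional K⟮x⟯ F]
    [Algebra.IsSeparable K⟮x⟯ F] (B : NfBase K K⟮x⟯) (hB : RrBaseFor x B) (D : Divisor K F) :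
    B.dualA (Algebra.traceForm K⟮x⟯ F) (rrLam x D) = rrLam x (m18rr_W (K := K) x - D) := by
  ext g
  constructor
  · intro hg
    rw [NfBase.mem_dualA] at hg
    rw [mem_rrLam_iff]
    intro v hv
    rcases eq_or_ne g 0 with hg0 | hg0
    · exact Or.inl hg0
    right
    obtain ⟨f₀, hf₀0, hf₀v, hf₀⟩ := m18rr_exists_fin x hx D v hv (-D v)
    have hf₀mem : f₀ ∈ rrLam x D := by
      rw [mem_rrLam_iff]
      intro w hw
      right
      by_cases hwv : w = v
      · rw [hwv, hf₀v]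
      · exact hf₀ w hw hwv
    have hgf : g * f₀ ∈ rrLam x (m18rr_W (K := K) x) := by
      rw [← m18rr_dualA0 x hx B hB, NfBase.mem_dualA]
      intro b hb
      have hb' : f₀ * b ∈ rrLam x D := by
        have := m18rr_mul_mem_lam hf₀mem hb
        rwa [add_zero] at this
      have := hg (f₀ * b) hb'
      rw [Algebra.traceForm_apply] at this ⊢
      rwa [mul_assoc]
    have h1 := (mem_rrLam_iff.1 hgf v hv).resolve_left (mul_ne_zero hg0 hf₀0)
    rw [v.ord_mul hg0 hf₀0, hf₀v] at h1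
    rw [Finsupp.sub_apply]
    omega
  · intro hg
    rw [NfBase.mem_dualA]
    intro f hf
    have hgf : g * f ∈ rrLam x (m18rr_W (K := K) x) := by
      have := m18rr_mul_mem_lam hg hf
      rwa [sub_add_cancel] at this
    rw [← m18rr_dualA0 x hx B hB, NfBase.mem_dualA] at hgf
    have := hgf 1 (m18rr_one_mem_lam x)
    rw [Algebra.traceForm_apply] at this ⊢
    rwa [mul_one] at this

/-- **the twisted trace dual at infinity of `rrLamInf x D`** is `rrLamInf x (W - D)`. -/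
theorem m18rr_dualInf (x : F) (hx : Transcendental K x) [FiniteDimensional K⟮x⟯ F]
    [Algebra.IsSeparable K⟮x⟯ F] (B : NfBase K K⟮x⟯) (hB : RrBaseFor x B) (D : Divisor K F) :
    B.dualInf (Algebra.traceForm K⟮x⟯ F) (-2) (rrLamInf x D)
      = rrLamInf x (m18rr_W (K := K) x - D) := by
  ext g
  constructor
  · intro hg
    rw [NfBase.mem_dualInf] at hg
    rw [mem_rrLamInf_iff]
    intro v hv
    rcases eq_or_ne g 0 with hg0 | hg0
    · exact Or.inl hg0
    right
    obtain ⟨f₀, hf₀0, hf₀v, hf₀⟩ := m18rr_exists_inf x hx D v (-D v)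
    have hf₀mem : f₀ ∈ rrLamInf x D := by
      rw [mem_rrLamInf_iff]
      intro w hw
      right
      by_cases hwv : w = v
      · rw [hwv, hf₀v]
      · exact hf₀ w hw hwv
    have hgf : g * f₀ ∈ rrLamInf x (m18rr_W (K := K) x) := by
      rw [← m18rr_dualInf0 x hx B hB, NfBase.mem_dualInf]
      intro b hb
      have hb' : f₀ * b ∈ rrLamInf x D := by
        have := m18rr_mul_mem_lamInf hf₀mem hb
        rwa [add_zero] at this
      have := hg (f₀ * b) hb'
      rw [Algebra.traceForm_apply] at this ⊢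
      rwa [mul_assoc]
    have h1 := (mem_rrLamInf_iff.1 hgf v hv).resolve_left (mul_ne_zero hg0 hf₀0)
    rw [v.ord_mul hg0 hf₀0, hf₀v] at h1
    rw [Finsupp.sub_apply]
    omega
  · intro hg
    rw [NfBase.mem_dualInf]
    intro f hf
    have hgf : g * f ∈ rrLamInf x (m18rr_W (K := K) x) := by
      have := m18rr_mul_mem_lamInf hg hf
      rwa [sub_add_cancel] at this
    rw [← m18rr_dualInf0 x hx B hB, NfBase.mem_dualInf] at hgf
    have := hgf 1 (m18rr_one_mem_lamInf x)
    rw [Algebra.traceForm_apply] at this ⊢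
    rwa [mul_one] at this

end general

end Fermat.Agent.M18

end
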