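import Fermat.Agent.M18.RrV

/-!
# M18 / RRl-1, part 10: (SQ5) and (SQ7) in abstract form

Setting: two function fields `F / K` and `Fk / k` over algebraically closed constant fields, with
separating elements `x`, `xt`; `g := dim L(W_x)`, `gt := dim L(W_xt)`; a "reduction"
`red : F → Fk` defined on the elements satisfying a predicate `I` ("Gauss-integral").

* `m18rr_V_mono` : `V_n ⊆ V_m` for `n ≤ m`;
* `m18rr_sq5` (SQ5) : `[Fk : k(xt)] ≤ [F : K(x)]` and `dim V_n(x) ≤ dim V_n(xt)` for arbitrarily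
  large `n` imply `gt ≤ g`;
* `m18rr_sq7_core` (SQ7) : `[Fk : k(xt)] ≤ [F : K(x)]`, `g ≤ gt`, (SQ2) and (SQ3) imply that
  `red : V_n(x) ∩ I → V_n(xt)` is onto for `n ≥ 2 max g gt`;
* `m18rr_sq7` : ... hence every `b` integral over `k[xt]` is the reduction of a Gauss-integral
  element integral over `K[x]`;
* `m18rr_sq4_fam`, `m18rr_sq7_fam`, `m18rr_sq7_fam_integral` : the same from (SQ2) in the form of
  "orthonormal families".
-/

set_option autoImplicit false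
set_option linter.style.haveILetI false
set_option linter.unusedSectionVars false
set_option linter.unusedVariables false
set_option linter.deprecated false

noncomputable section

namespace Fermat.Agent.M18

open Fermat.Agent.S20 Fermat.Agent.S24
open AlgebraicCurve IntermediateField Module Polynomial WithZero

section mono

variable {K F : Type*} [Field K] [Field F] [Algebra K F]

theorem m18rr_V_mono (x : F) {n m : ℕ} (h : n ≤ m) : m18sq_V K x n ≤ m18sq_V K x m := by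
  intro f hf
  rw [m18sq_mem_V] at hf ⊢
  refine ⟨hf.1, ?_⟩
  obtain ⟨d, rfl⟩ := Nat.exists_eq_add_of_le h
  rw [pow_add, ← mul_assoc]
  have hxi : IsIntegral (Algebra.adjoin K ({x⁻¹} : Set F)) (x⁻¹ ^ d) := by
    have h1 : IsIntegral (Algebra.adjoin K ({x⁻¹} : Set F)) (x⁻¹ : F) := by
      have : (x⁻¹ : F) = algebraMap (Algebra.adjoin K ({x⁻¹} : Set F)) F
          ⟨x⁻¹, Algebra.subset_adjoin (Set.mem_singleton _)⟩ := rfl
      rw [this]
      exact isIntegral_algebraMap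
    exact h1.pow d
  exact hf.2.mul hxi

theorem m18rr_V_integral (x : F) {n : ℕ} {f : F} (hf : f ∈ m18sq_V K x n) :
    IsIntegral (Algebra.adjoin K ({x} : Set F)) f := hf.1

end mono

section sq

variable {K F k Fk : Type*} [Field K] [Field F] [Algebra K F] [IsAlgClosed K]
  [Field k] [Field Fk] [Algebra k Fk] [IsAlgClosed k]

/-- **(SQ5)**: `gt ≤ g` from `dim V_n(x) ≤ dim V_n(xt)` for arbitrarily large `n`. -/
theorem m18rr_sq5 (x : F) (hx : Transcendental K x) [FiniteDimensional K⟮x⟯ F]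
    [Algebra.IsSeparable K⟮x⟯ F]
    (xt : Fk) (hxt : Transcendental k xt) [FiniteDimensional k⟮xt⟯ Fk]
    [Algebra.IsSeparable k⟮xt⟯ Fk]
    (hdeg : finrank k⟮xt⟯ Fk ≤ finrank K⟮x⟯ F)
    (h4 : ∀ n₀ : ℕ, ∃ n ≥ n₀, finrank K ↥(m18sq_V K x n) ≤ finrank k ↥(m18sq_V k xt n)) :
    finrank k (riemannRochSpace (m18rr_W (K := k) xt))
      ≤ finrank K (riemannRochSpace (m18rr_W (K := K) x)) := by
  obtain ⟨n, hn, hle⟩ := h4 (max (2 * finrank K (riemannRochSpace (m18rr_W (K := K) x)))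
    (2 * finrank k (riemannRochSpace (m18rr_W (K := k) xt))))
  have h1 := m18rr_V_finrank x hx n (le_trans (le_max_left _ _) hn)
  have h2 := m18rr_V_finrank xt hxt n (le_trans (le_max_right _ _) hn)
  have h3 : (finrank K ↥(m18sq_V K x n) : ℤ) ≤ finrank k ↥(m18sq_V k xt n) := by
    exact_mod_cast hle
  have h4 : (n : ℤ) * (finrank k⟮xt⟯ Fk : ℤ) ≤ n * (finrank K⟮x⟯ F : ℤ) := by
    exact_mod_cast Nat.mul_le_mul_left n hdeg
  have : (finrank k (riemannRochSpace (m18rr_W (K := k) xt)) : ℤ)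
      ≤ finrank K (riemannRochSpace (m18rr_W (K := K) x)) := by linarith
  exact_mod_cast this

/-- for large `n`, `dim V_n(xt) ≤ dim V_n(x)` if `[Fk : k(xt)] ≤ [F : K(x)]` and `g ≤ gt`. -/
theorem m18rr_V_finrank_le (x : F) (hx : Transcendental K x) [FiniteDimensional K⟮x⟯ F]
    [Algebra.IsSeparable K⟮x⟯ F]
    (xt : Fk) (hxt : Transcendental k xt) [FiniteDimensional k⟮xt⟯ Fk]
    [Algebra.IsSeparable k⟮xt⟯ Fk]
    (hdeg : finrank k⟮xt⟯ Fk ≤ finrank K⟮x⟯ F)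
    (hg : finrank K (riemannRochSpace (m18rr_W (K := K) x))
      ≤ finrank k (riemannRochSpace (m18rr_W (K := k) xt)))
    (n : ℕ) (hn1 : 2 * finrank K (riemannRochSpace (m18rr_W (K := K) x)) ≤ n)
    (hn2 : 2 * finrank k (riemannRochSpace (m18rr_W (K := k) xt)) ≤ n) :
    finrank k ↥(m18sq_V k xt n) ≤ finrank K ↥(m18sq_V K x n) := by
  have h1 := m18rr_V_finrank x hx n hn1
  have h2 := m18rr_V_finrank xt hxt n hn2
  have h4 : (n : ℤ) * (finrank k⟮xt⟯ Fk : ℤ) ≤ n * (finrank K⟮x⟯ F : ℤ) := by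
    exact_mod_cast Nat.mul_le_mul_left n hdeg
  have h5 : (finrank K (riemannRochSpace (m18rr_W (K := K) x)) : ℤ)
      ≤ finrank k (riemannRochSpace (m18rr_W (K := k) xt)) := by exact_mod_cast hg
  have : (finrank k ↥(m18sq_V k xt n) : ℤ) ≤ finrank K ↥(m18sq_V K x n) := by linarith
  exact_mod_cast this

/-- **(SQ4)/(SQ7), one level `n`, subspace form**: if `S ⊆ red (V_n(x) ∩ I)` is a `k`-subspace of
dimension at least `dim V_n(x)` and `red (V_n(x) ∩ I) ⊆ V_n(xt)`, then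
`dim V_n(x) ≤ dim V_n(xt)`, and if moreover `dim V_n(xt) ≤ dim V_n(x)` then every element of
`V_n(xt)` is a reduction. -/
theorem m18rr_sq_level (x : F)
    (xt : Fk) (hxt : Transcendental k xt) [FiniteDimensional k⟮xt⟯ Fk]
    [Algebra.IsSeparable k⟮xt⟯ Fk]
    (I : F → Prop) (red : F → Fk) (n : ℕ)
    (S : Submodule k Fk)
    (hS : ∀ s ∈ S, ∃ y, I y ∧ y ∈ m18sq_V K x n ∧ red y = s)
    (hle : finrank K ↥(m18sq_V K x n) ≤ finrank k ↥S)
    (h3 : ∀ y, I y → y ∈ m18sq_V K x n → red y ∈ m18sq_V k xt n) :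
    finrank K ↥(m18sq_V K x n) ≤ finrank k ↥(m18sq_V k xt n) ∧
      (finrank k ↥(m18sq_V k xt n) ≤ finrank K ↥(m18sq_V K x n) →
        ∀ b ∈ m18sq_V k xt n, ∃ y, I y ∧ y ∈ m18sq_V K x n ∧ red y = b) := by
  haveI := m18rr_V_finite xt hxt n
  have hSV : S ≤ m18sq_V k xt n := by
    intro s hs
    obtain ⟨y, hy1, hy2, rfl⟩ := hS s hs
    exact h3 y hy1 hy2
  have hfin : finrank k ↥S ≤ finrank k ↥(m18sq_V k xt n) := Submodule.finrank_mono hSV
  refine ⟨le_trans hle hfin, fun hge b hb => ?_⟩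
  have heq : S = m18sq_V k xt n :=
    Submodule.eq_of_le_of_finrank_le hSV (le_trans hge hle)
  exact hS b (heq ▸ hb)

/-- **(SQ7), subspace form**: for `n ≥ 2 max g gt`, `red : V_n(x) ∩ I → V_n(xt)` is onto. -/
theorem m18rr_sq7_core (x : F) (hx : Transcendental K x) [FiniteDimensional K⟮x⟯ F]
    [Algebra.IsSeparable K⟮x⟯ F]
    (xt : Fk) (hxt : Transcendental k xt) [FiniteDimensional k⟮xt⟯ Fk]
    [Algebra.IsSeparable k⟮xt⟯ Fk]
    (hdeg : finrank k⟮xt⟯ Fk ≤ finrank K⟮x⟯ F)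
    (hg : finrank K (riemannRochSpace (m18rr_W (K := K) x))
      ≤ finrank k (riemannRochSpace (m18rr_W (K := k) xt)))
    (I : F → Prop) (red : F → Fk)
    (h2 : ∀ n, ∃ S : Submodule k Fk, (∀ s ∈ S, ∃ y, I y ∧ y ∈ m18sq_V K x n ∧ red y = s) ∧
      finrank K ↥(m18sq_V K x n) ≤ finrank k ↥S)
    (h3 : ∀ n y, I y → y ∈ m18sq_V K x n → red y ∈ m18sq_V k xt n)
    (n : ℕ) (hn1 : 2 * finrank K (riemannRochSpace (m18rr_W (K := K) x)) ≤ n)
    (hn2 : 2 * finrank k (riemannRochSpace (m18rr_W (K := k) xt)) ≤ n)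
    (b : Fk) (hb : b ∈ m18sq_V k xt n) :
    ∃ y, I y ∧ y ∈ m18sq_V K x n ∧ red y = b := by
  obtain ⟨S, hS, hle⟩ := h2 n
  exact (m18rr_sq_level x xt hxt I red n S hS hle (h3 n)).2
    (m18rr_V_finrank_le x hx xt hxt hdeg hg n hn1 hn2) b hb

/-- **(SQ7)**: every element integral over `k[xt]` is the reduction of a Gauss-integral element
integral over `K[x]`. -/
theorem m18rr_sq7 (x : F) (hx : Transcendental K x) [FiniteDimensional K⟮x⟯ F]
    [Algebra.IsSeparable K⟮x⟯ F]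
    (xt : Fk) (hxt : Transcendental k xt) [FiniteDimensional k⟮xt⟯ Fk]
    [Algebra.IsSeparable k⟮xt⟯ Fk]
    (hdeg : finrank k⟮xt⟯ Fk ≤ finrank K⟮x⟯ F)
    (hg : finrank K (riemannRochSpace (m18rr_W (K := K) x))
      ≤ finrank k (riemannRochSpace (m18rr_W (K := k) xt)))
    (I : F → Prop) (red : F → Fk)
    (h2 : ∀ n, ∃ S : Submodule k Fk, (∀ s ∈ S, ∃ y, I y ∧ y ∈ m18sq_V K x n ∧ red y = s) ∧
      finrank K ↥(m18sq_V K x n) ≤ finrank k ↥S)
    (h3 : ∀ n y, I y → y ∈ m18sq_V K x n → red y ∈ m18sq_V k xt n)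
    (b : Fk) (hb : IsIntegral (Algebra.adjoin k ({xt} : Set Fk)) b) :
    ∃ y, I y ∧ IsIntegral (Algebra.adjoin K ({x} : Set F)) y ∧ red y = b := by
  obtain ⟨n, hn⟩ := m18rr_exists_mem_V xt hxt b hb
  set m : ℕ := max n (max (2 * finrank K (riemannRochSpace (m18rr_W (K := K) x)))
    (2 * finrank k (riemannRochSpace (m18rr_W (K := k) xt)))) with hm
  have hbm : b ∈ m18sq_V k xt m := m18rr_V_mono xt (le_max_left _ _) hn
  obtain ⟨y, hy1, hy2, hy3⟩ := m18rr_sq7_core x hx xt hxt hdeg hg I red h2 h3 m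
    (le_trans (le_max_left _ _) (le_max_right _ _))
    (le_trans (le_max_right _ _) (le_max_right _ _)) b hbm
  exact ⟨y, hy1, hy2.1, hy3⟩

end sq

section fam

variable {K F k Fk : Type*} [Field K] [Field F] [Algebra K F]
  [Field k] [Field Fk] [Algebra k Fk]

/-- the image under `red` of the Gauss-integral elements of a `K`-subspace `V`, as a
`k`-subspace. -/
def m18rr_redSub (I : F → Prop) (red : F → Fk)
    (h0 : I 0 ∧ red 0 = 0)
    (hadd : ∀ y z, I y → I z → I (y + z) ∧ red (y + z) = red y + red z)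
    (hsm : ∀ c : k, ∃ a : K, ∀ y, I y → I (a • y) ∧ red (a • y) = c • red y)
    (V : Submodule K F) : Submodule k Fk where
  carrier := {s | ∃ y, I y ∧ y ∈ V ∧ red y = s}
  add_mem' := by
    rintro _ _ ⟨y, hy1, hy2, rfl⟩ ⟨z, hz1, hz2, rfl⟩
    exact ⟨y + z, (hadd y z hy1 hz1).1, V.add_mem hy2 hz2, (hadd y z hy1 hz1).2⟩
  zero_mem' := ⟨0, h0.1, V.zero_mem, h0.2⟩
  smul_mem' := by
    rintro c _ ⟨y, hy1, hy2, rfl⟩
    obtain ⟨a, ha⟩ := hsm c
    exact ⟨a • y, (ha y hy1).1, V.smul_mem a hy2, (ha y hy1).2⟩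

theorem m18rr_mem_redSub (I : F → Prop) (red : F → Fk)
    (h0 : I 0 ∧ red 0 = 0)
    (hadd : ∀ y z, I y → I z → I (y + z) ∧ red (y + z) = red y + red z)
    (hsm : ∀ c : k, ∃ a : K, ∀ y, I y → I (a • y) ∧ red (a • y) = c • red y)
    (V : Submodule K F) (s : Fk) :
    s ∈ m18rr_redSub I red h0 hadd hsm V ↔ ∃ y, I y ∧ y ∈ V ∧ red y = s := Iff.rfl

variable [IsAlgClosed K] [IsAlgClosed k]

/-- **(SQ4)** from orthonormal families: `dim V_n(x) ≤ dim V_n(xt)`. -/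
theorem m18rr_sq4_fam (x : F)
    (xt : Fk) (hxt : Transcendental k xt) [FiniteDimensional k⟮xt⟯ Fk]
    [Algebra.IsSeparable k⟮xt⟯ Fk]
    (I : F → Prop) (red : F → Fk) (n : ℕ)
    (v : Fin (finrank K ↥(m18sq_V K x n)) → F)
    (hv : ∀ i, I (v i) ∧ v i ∈ m18sq_V K x n)
    (hli : LinearIndependent k (fun i => red (v i)))
    (h3 : ∀ y, I y → y ∈ m18sq_V K x n → red y ∈ m18sq_V k xt n) :
    finrank K ↥(m18sq_V K x n) ≤ finrank k ↥(m18sq_V k xt n) := by
  haveI := m18rr_V_finite xt hxt n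
  have hmem : ∀ i, red (v i) ∈ m18sq_V k xt n := fun i => h3 (v i) (hv i).1 (hv i).2
  have hli' : LinearIndependent k (fun i => (⟨red (v i), hmem i⟩ : ↥(m18sq_V k xt n))) := by
    refine LinearIndependent.of_comp (m18sq_V k xt n).subtype ?_
    exact hli
  have := hli'.fintype_card_le_finrank
  rwa [Fintype.card_fin] at this

/-- **(SQ7), family form**: for `n ≥ 2 max g gt`, `red : V_n(x) ∩ I → V_n(xt)` is onto. -/
theorem m18rr_sq7_fam (x : F) (hx : Transcendental K x) [FiniteDimensional K⟮x⟯ F]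
    [Algebra.IsSeparable K⟮x⟯ F]
    (xt : Fk) (hxt : Transcendental k xt) [FiniteDimensional k⟮xt⟯ Fk]
    [Algebra.IsSeparable k⟮xt⟯ Fk]
    (hdeg : finrank k⟮xt⟯ Fk ≤ finrank K⟮x⟯ F)
    (hg : finrank K (riemannRochSpace (m18rr_W (K := K) x))
      ≤ finrank k (riemannRochSpace (m18rr_W (K := k) xt)))
    (I : F → Prop) (red : F → Fk)
    (h0 : I 0 ∧ red 0 = 0)
    (hadd : ∀ y z, I y → I z → I (y + z) ∧ red (y + z) = red y + red z)
    (hsm : ∀ c : k, ∃ a : K, ∀ y, I y → I (a • y) ∧ red (a • y) = c • red y)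
    (h2 : ∀ n, ∃ v : Fin (finrank K ↥(m18sq_V K x n)) → F,
      (∀ i, I (v i) ∧ v i ∈ m18sq_V K x n) ∧ LinearIndependent k (fun i => red (v i)))
    (h3 : ∀ n y, I y → y ∈ m18sq_V K x n → red y ∈ m18sq_V k xt n)
    (n : ℕ) (hn1 : 2 * finrank K (riemannRochSpace (m18rr_W (K := K) x)) ≤ n)
    (hn2 : 2 * finrank k (riemannRochSpace (m18rr_W (K := k) xt)) ≤ n)
    (b : Fk) (hb : b ∈ m18sq_V k xt n) :
    ∃ y, I y ∧ y ∈ m18sq_V K x n ∧ red y = b := by
  haveI := m18rr_V_finite xt hxt n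
  obtain ⟨v, hv, hli⟩ := h2 n
  set S : Submodule k Fk := m18rr_redSub I red h0 hadd hsm (m18sq_V K x n) with hS
  have hSV : S ≤ m18sq_V k xt n := by
    rintro s ⟨y, hy1, hy2, rfl⟩
    exact h3 n y hy1 hy2
  haveI : Module.Finite k ↥S := Submodule.finiteDimensional_of_le hSV
  have hmem : ∀ i, red (v i) ∈ S := fun i => ⟨v i, (hv i).1, (hv i).2, rfl⟩
  have hli' : LinearIndependent k (fun i => (⟨red (v i), hmem i⟩ : ↥S)) := by
    refine LinearIndependent.of_comp S.subtype ?_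
    exact hli
  have hcard := hli'.fintype_card_le_finrank
  rw [Fintype.card_fin] at hcard
  have hge := m18rr_V_finrank_le x hx xt hxt hdeg hg n hn1 hn2
  have heq : S = m18sq_V k xt n := Submodule.eq_of_le_of_finrank_le hSV (le_trans hge hcard)
  have hbS : b ∈ S := heq ▸ hb
  exact hbS

/-- **(SQ7), family form, for integral elements**. -/
theorem m18rr_sq7_fam_integral (x : F) (hx : Transcendental K x) [FiniteDimensional K⟮x⟯ F]
    [Algebra.IsSeparable K⟮x⟯ F]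
    (xt : Fk) (hxt : Transcendental k xt) [FiniteDimensional k⟮xt⟯ Fk]
    [Algebra.IsSeparable k⟮xt⟯ Fk]
    (hdeg : finrank k⟮xt⟯ Fk ≤ finrank K⟮x⟯ F)
    (hg : finrank K (riemannRochSpace (m18rr_W (K := K) x))
      ≤ finrank k (riemannRochSpace (m18rr_W (K := k) xt)))
    (I : F → Prop) (red : F → Fk)
    (h0 : I 0 ∧ red 0 = 0)
    (hadd : ∀ y z, I y → I z → I (y + z) ∧ red (y + z) = red y + red z)
    (hsm : ∀ c : k, ∃ a : K, ∀ y, I y → I (a • y) ∧ red (a • y) = c • red y)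
    (h2 : ∀ n, ∃ v : Fin (finrank K ↥(m18sq_V K x n)) → F,
      (∀ i, I (v i) ∧ v i ∈ m18sq_V K x n) ∧ LinearIndependent k (fun i => red (v i)))
    (h3 : ∀ n y, I y → y ∈ m18sq_V K x n → red y ∈ m18sq_V k xt n)
    (b : Fk) (hb : IsIntegral (Algebra.adjoin k ({xt} : Set Fk)) b) :
    ∃ y, I y ∧ IsIntegral (Algebra.adjoin K ({x} : Set F)) y ∧ red y = b := by
  obtain ⟨n, hn⟩ := m18rr_exists_mem_V xt hxt b hb
  set m : ℕ := max n (max (2 * finrank K (riemannRochSpace (m18rr_W (K := K) x)))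
    (2 * finrank k (riemannRochSpace (m18rr_W (K := k) xt)))) with hm
  have hbm : b ∈ m18sq_V k xt m := m18rr_V_mono xt (le_max_left _ _) hn
  obtain ⟨y, hy1, hy2, hy3⟩ := m18rr_sq7_fam x hx xt hxt hdeg hg I red h0 hadd hsm h2 h3 m
    (le_trans (le_max_left _ _) (le_max_right _ _))
    (le_trans (le_max_right _ _) (le_max_right _ _)) b hbm
  exact ⟨y, hy1, hy2.1, hy3⟩

/-- **(SQ5), family form**: `gt ≤ g`. -/
theorem m18rr_sq5_fam (x : F) (hx : Transcendental K x) [FiniteDimensional K⟮x⟯ F]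
    [Algebra.IsSeparable K⟮x⟯ F]
    (xt : Fk) (hxt : Transcendental k xt) [FiniteDimensional k⟮xt⟯ Fk]
    [Algebra.IsSeparable k⟮xt⟯ Fk]
    (hdeg : finrank k⟮xt⟯ Fk ≤ finrank K⟮x⟯ F)
    (I : F → Prop) (red : F → Fk)
    (h2 : ∀ n, ∃ v : Fin (finrank K ↥(m18sq_V K x n)) → F,
      (∀ i, I (v i) ∧ v i ∈ m18sq_V K x n) ∧ LinearIndependent k (fun i => red (v i)))
    (h3 : ∀ n y, I y → y ∈ m18sq_V K x n → red y ∈ m18sq_V k xt n) :
    finrank k (riemannRochSpace (m18rr_W (K := k) xt))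
      ≤ finrank K (riemannRochSpace (m18rr_W (K := K) x)) := by
  refine m18rr_sq5 x hx xt hxt hdeg fun n₀ => ⟨n₀, le_rfl, ?_⟩
  obtain ⟨v, hv, hli⟩ := h2 n₀
  exact m18rr_sq4_fam x xt hxt I red n₀ v hv hli (h3 n₀)

end fam

end Fermat.Agent.M18

end
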