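import Fermat.Agent.M18.RrSq7
import Fermat.Agent.M18.Sq3Main

/-!
# M18 / (SQ5), (SQ7): hypothesis-free forms

* `m18rr_sq5_final`     : `g~(M) ≤ g(M)` at every level `M` prime to `ℓ`;
* `m18rr_genus_eq_final`: `g~(N') = g(N')` at every level `N'` prime to `ℓ` divisible by `4` or
  `9`;
* `m18rr_sq7_final`, `m18rr_sq7_final_inv` : at such a level, every `b ∈ F~_{N'}` integral over
  `k[j~]` (resp. `k[j~⁻¹]`) is the reduction of a Gauss-integral `y ∈ F_{N'}` integral over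
  `ℚ̄[j]` (resp. `ℚ̄[j⁻¹]`);
* `m18rr_sq7_final_V`, `m18rr_sq7_final_inv_V` : the forms with pole control;
* `m18rr_sq7_final_O`, `m18rr_sq7_final_inv_O` : the forms with the lift in the Gauss ring
  `m18sq3_O A N'` and the ring homomorphism `m18sq3_red`.
-/

set_option autoImplicit false
set_option linter.style.haveILetI false
set_option linter.unusedSectionVars false
set_option linter.unusedVariables false
set_option linter.deprecated false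
set_option synthInstance.maxHeartbeats 400000
set_option maxHeartbeats 1600000

noncomputable section

namespace Fermat.Agent.M18

open AlgebraicCurve ModularCurve IntermediateField Module
open Fermat.Agent.S20 Fermat.Agent.S24

variable {A : ValuationSubring m18v_K} {ℓ : ℕ} [Fact ℓ.Prime]

/-- **(SQ5)**: `g~(M) ≤ g(M)` at every level `M` prime to `ℓ`. -/
theorem m18rr_sq5_final (hA : A.LiesOverPrime ℓ) (M : ℕ) [NeZero M] (hℓ : ¬ ℓ ∣ M) :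
    finrank (m18v_k A) (riemannRochSpace (m18rr_W (K := m18v_k A) (m18sq_jt A M)))
      ≤ finrank m18v_K (riemannRochSpace (m18rr_W (K := m18v_K) (s24j M))) :=
  m18rr_sq5_X0 hA hℓ (m18cusp_isSeparable_res hA hℓ)
    (fun n y hI hV => m18sq3_h3 hA hℓ (m18sq_dec hA hℓ) n y hI hV)

/-- **(SQ5) + (SQ6)**: `g~(N') = g(N')`. -/
theorem m18rr_genus_eq_final (hA : A.LiesOverPrime ℓ) (N' : ℕ) [NeZero N']
    (hN' : 4 ∣ N' ∨ 9 ∣ N') (hℓ : ¬ ℓ ∣ N') :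
    finrank (m18v_k A) (riemannRochSpace (m18rr_W (K := m18v_k A) (m18sq_jt A N')))
      = finrank m18v_K (riemannRochSpace (m18rr_W (K := m18v_K) (s24j N'))) :=
  le_antisymm (m18rr_sq5_final hA N' hℓ) (m18sq6_main A hA N' hN' hℓ)

/-- **(SQ7)**, chart `j`. -/
theorem m18rr_sq7_final (hA : A.LiesOverPrime ℓ) (N' : ℕ) [NeZero N'] (hN' : 4 ∣ N' ∨ 9 ∣ N')
    (hℓ : ¬ ℓ ∣ N') (b : m18v_Ft A N')
    (hb : IsIntegral (Algebra.adjoin (m18v_k A) ({m18sq_jt A N'} : Set (m18v_Ft A N'))) b) :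
    ∃ y : s24F N', m18v_Int A N' y ∧
      IsIntegral (Algebra.adjoin m18v_K ({s24j N'} : Set (s24F N'))) y ∧
      m18sq_red (m18sq_dec hA hℓ) y = b :=
  m18rr_sq7_X0 hA hℓ (m18cusp_isSeparable_res hA hℓ) (m18sq6_main A hA N' hN' hℓ)
    (fun n y hI hV => m18sq3_h3 hA hℓ (m18sq_dec hA hℓ) n y hI hV) b hb

/-- **(SQ7)**, chart `j⁻¹`. -/
theorem m18rr_sq7_final_inv (hA : A.LiesOverPrime ℓ) (N' : ℕ) [NeZero N']
    (hN' : 4 ∣ N' ∨ 9 ∣ N') (hℓ : ¬ ℓ ∣ N') (b : m18v_Ft A N')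
    (hb : IsIntegral (Algebra.adjoin (m18v_k A) ({(m18sq_jt A N')⁻¹} : Set (m18v_Ft A N'))) b) :
    ∃ y : s24F N', m18v_Int A N' y ∧
      IsIntegral (Algebra.adjoin m18v_K ({(s24j N')⁻¹} : Set (s24F N'))) y ∧
      m18sq_red (m18sq_dec hA hℓ) y = b :=
  m18rr_sq7_X0_inv hA hℓ (m18cusp_isSeparable_res hA hℓ) (m18sq6_main A hA N' hN' hℓ)
    (fun n y hI hV => m18sq3_h3_inv hA hℓ (m18sq_dec hA hℓ) n y hI hV) b hb

/-- **(SQ7)** with pole control, chart `j`. -/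
theorem m18rr_sq7_final_V (hA : A.LiesOverPrime ℓ) (N' : ℕ) [NeZero N']
    (hN' : 4 ∣ N' ∨ 9 ∣ N') (hℓ : ¬ ℓ ∣ N')
    (n : ℕ) (hn : 2 * finrank (m18v_k A)
      (riemannRochSpace (m18rr_W (K := m18v_k A) (m18sq_jt A N'))) ≤ n)
    (b : m18v_Ft A N') (hb : b ∈ m18sq_V (m18v_k A) (m18sq_jt A N') n) :
    ∃ y : s24F N', m18v_Int A N' y ∧ y ∈ m18sq_V m18v_K (s24j N') n ∧
      m18sq_red (m18sq_dec hA hℓ) y = b :=
  m18rr_sq7_X0_V hA hℓ (m18cusp_isSeparable_res hA hℓ) (m18sq6_main A hA N' hN' hℓ)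
    (fun n y hI hV => m18sq3_h3 hA hℓ (m18sq_dec hA hℓ) n y hI hV) n
    (le_trans (Nat.mul_le_mul_left 2 (m18sq6_main A hA N' hN' hℓ)) hn) hn b hb

/-- **(SQ7)** with pole control, chart `j⁻¹`. -/
theorem m18rr_sq7_final_inv_V (hA : A.LiesOverPrime ℓ) (N' : ℕ) [NeZero N']
    (hN' : 4 ∣ N' ∨ 9 ∣ N') (hℓ : ¬ ℓ ∣ N')
    (n : ℕ) (hn : 2 * finrank (m18v_k A)
      (riemannRochSpace (m18rr_W (K := m18v_k A) (m18sq_jt A N'))) ≤ n)
    (b : m18v_Ft A N') (hb : b ∈ m18sq_V (m18v_k A) (m18sq_jt A N')⁻¹ n) :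
    ∃ y : s24F N', m18v_Int A N' y ∧ y ∈ m18sq_V m18v_K (s24j N')⁻¹ n ∧
      m18sq_red (m18sq_dec hA hℓ) y = b :=
  m18rr_sq7_X0_inv_V hA hℓ (m18cusp_isSeparable_res hA hℓ) (m18sq6_main A hA N' hN' hℓ)
    (fun n y hI hV => m18sq3_h3_inv hA hℓ (m18sq_dec hA hℓ) n y hI hV) n
    (le_trans (Nat.mul_le_mul_left 2 (m18sq6_main A hA N' hN' hℓ)) hn) hn b hb

/-- **(SQ7)**, chart `j`, with the lift in the Gauss ring. -/
theorem m18rr_sq7_final_O (hA : A.LiesOverPrime ℓ) (N' : ℕ) [NeZero N']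
    (hN' : 4 ∣ N' ∨ 9 ∣ N') (hℓ : ¬ ℓ ∣ N') (b : m18v_Ft A N')
    (hb : IsIntegral (Algebra.adjoin (m18v_k A) ({m18sq_jt A N'} : Set (m18v_Ft A N'))) b) :
    ∃ y : ↥(m18sq3_O A N'),
      IsIntegral (Algebra.adjoin m18v_K ({s24j N'} : Set (s24F N'))) (y : s24F N') ∧
      m18sq3_red (m18sq_dec hA hℓ) y = b := by
  obtain ⟨y, hI, hy, hr⟩ := m18rr_sq7_final hA N' hN' hℓ b hb
  exact ⟨⟨y, hI⟩, hy, hr⟩

/-- **(SQ7)**, chart `j⁻¹`, with the lift in the Gauss ring. -/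
theorem m18rr_sq7_final_inv_O (hA : A.LiesOverPrime ℓ) (N' : ℕ) [NeZero N']
    (hN' : 4 ∣ N' ∨ 9 ∣ N') (hℓ : ¬ ℓ ∣ N') (b : m18v_Ft A N')
    (hb : IsIntegral (Algebra.adjoin (m18v_k A) ({(m18sq_jt A N')⁻¹} : Set (m18v_Ft A N'))) b) :
    ∃ y : ↥(m18sq3_O A N'),
      IsIntegral (Algebra.adjoin m18v_K ({(s24j N')⁻¹} : Set (s24F N'))) (y : s24F N') ∧
      m18sq3_red (m18sq_dec hA hℓ) y = b := by
  obtain ⟨y, hI, hy, hr⟩ := m18rr_sq7_final_inv hA N' hN' hℓ b hb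
  exact ⟨⟨y, hI⟩, hy, hr⟩

end Fermat.Agent.M18

end
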