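import Mathlib

/-!
# M18 / (SQ2), part 1: orthonormal bases of subspaces of `Lⁿ` (pivot lemma)

`A` a valuation subring of a field `L`, residue field `k`.  Every subspace `U ⊆ Lⁿ` has a
basis consisting of vectors with coordinates in `A` whose reductions are linearly independent
over `k` (`m18sq_pivot`).
-/

set_option autoImplicit false

noncomputable section

namespace Fermat.Agent.M18

variable {L : Type*} [Field L] (A : ValuationSubring L) {ι : Type*}

/-- coordinatewise inclusion. -/
def m18sq_inclv (u : ι → A) : ι → L := fun i => ((u i : A) : L)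

/-- coordinatewise reduction. -/
def m18sq_redv (u : ι → A) : ι → IsLocalRing.ResidueField A :=
  fun i => IsLocalRing.residue A (u i)

theorem m18sq_pivot_aux [Fintype ι] :
    ∀ (d : ℕ) (U : Submodule L (ι → L)), Module.finrank L U = d →
      ∃ u : Fin d → ι → A, (∀ r, m18sq_inclv A (u r) ∈ U) ∧
        LinearIndependent (IsLocalRing.ResidueField A) (fun r => m18sq_redv A (u r)) := by
  classical
  intro d
  induction d with
  | zero =>
    intro U _
    exact ⟨fun r => Fin.elim0 r, fun r => Fin.elim0 r, linearIndependent_empty_type⟩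
  | succ d ih =>
    intro U hU
    have hne : U ≠ ⊥ := by
      rintro rfl
      simp at hU
    obtain ⟨u', hu'U, hu'0⟩ := Submodule.exists_mem_ne_zero_of_ne_bot hne
    obtain ⟨i₁, hi₁⟩ : ∃ i, u' i ≠ 0 := by
      by_contra h
      apply hu'0
      funext i
      by_contra hi
      exact h ⟨i, hi⟩
    obtain ⟨i₀, -, hmax⟩ := Finset.exists_max_image Finset.univ
      (fun i => A.valuation (u' i)) ⟨i₁, Finset.mem_univ _⟩
    have hi₀ : u' i₀ ≠ 0 := by
      intro h0
      have h1 := hmax i₁ (Finset.mem_univ _)
      simp only [h0, map_zero] at h1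
      exact hi₁ ((Valuation.zero_iff _).mp (le_antisymm h1 zero_le))
    set u₀ : ι → L := (u' i₀)⁻¹ • u' with hu₀
    have hu₀U : u₀ ∈ U := U.smul_mem _ hu'U
    have hu₀A : ∀ i, u₀ i ∈ A := by
      intro i
      rw [← A.valuation_le_one_iff]
      show A.valuation ((u' i₀)⁻¹ * u' i) ≤ 1
      rw [map_mul, map_inv₀,
        inv_mul_le_iff₀ (zero_lt_iff.mpr ((Valuation.ne_zero_iff _).mpr hi₀)), mul_one]
      exact hmax i (Finset.mem_univ _)
    have hu₀1 : u₀ i₀ = 1 := inv_mul_cancel₀ hi₀
    set p : (ι → L) →ₗ[L] L := LinearMap.proj i₀ with hp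
    set U' : Submodule L (ι → L) := U ⊓ LinearMap.ker p with hU'def
    have hsup : U' ⊔ Submodule.span L {u₀} = U := by
      apply le_antisymm
      · exact sup_le inf_le_left ((Submodule.span_singleton_le_iff_mem _ _).mpr hu₀U)
      · intro v hv
        have h1 : v - v i₀ • u₀ ∈ U' := by
          refine ⟨U.sub_mem hv (U.smul_mem _ hu₀U), ?_⟩
          show p (v - v i₀ • u₀) = 0
          simp [hp, hu₀1]
        have h2 : v i₀ • u₀ ∈ Submodule.span L {u₀} :=
          Submodule.smul_mem _ _ (Submodule.mem_span_singleton_self _)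
        have h3 : v = (v - v i₀ • u₀) + v i₀ • u₀ := by abel
        rw [h3]
        exact Submodule.add_mem_sup h1 h2
    have hinf : U' ⊓ Submodule.span L {u₀} = ⊥ := by
      rw [eq_bot_iff]
      rintro v ⟨hv1, hv2⟩
      obtain ⟨c, rfl⟩ := Submodule.mem_span_singleton.mp hv2
      have h1 : p (c • u₀) = 0 := hv1.2
      have h2 : c = 0 := by
        simpa [hp, hu₀1] using h1
      rw [h2, zero_smul]
      exact Submodule.zero_mem _
    have hu₀ne : u₀ ≠ 0 := by
      intro h
      have := congrFun h i₀
      rw [hu₀1] at this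
      exact one_ne_zero this
    have hfin : Module.finrank L U' = d := by
      have h1 := Submodule.finrank_sup_add_finrank_inf_eq U' (Submodule.span L {u₀})
      rw [hsup, hinf, finrank_bot, add_zero, finrank_span_singleton hu₀ne, hU] at h1
      omega
    obtain ⟨w, hwU, hwli⟩ := ih U' hfin
    refine ⟨Fin.cons (fun i => ⟨u₀ i, hu₀A i⟩) w, ?_, ?_⟩
    · intro r
      refine Fin.cases ?_ (fun r' => ?_) r
      · rw [Fin.cons_zero]
        exact hu₀U
      · rw [Fin.cons_succ]
        exact (hwU r').1
    · have hfam : (fun r => m18sq_redv A ((Fin.cons (fun i => ⟨u₀ i, hu₀A i⟩) w :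
          Fin (d + 1) → ι → A) r)) =
          Fin.cons (m18sq_redv A (fun i => ⟨u₀ i, hu₀A i⟩)) (fun r => m18sq_redv A (w r)) := by
        funext r
        refine Fin.cases ?_ (fun r' => ?_) r
        · rw [Fin.cons_zero, Fin.cons_zero]
        · rw [Fin.cons_succ, Fin.cons_succ]
      rw [hfam, linearIndependent_finCons]
      refine ⟨hwli, ?_⟩
      intro hmem
      have hle : Submodule.span (IsLocalRing.ResidueField A)
          (Set.range fun r => m18sq_redv A (w r)) ≤
          LinearMap.ker (LinearMap.proj i₀ :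
            (ι → IsLocalRing.ResidueField A) →ₗ[IsLocalRing.ResidueField A] _) := by
        rw [Submodule.span_le]
        rintro _ ⟨r, rfl⟩
        show m18sq_redv A (w r) i₀ = 0
        have h1 : m18sq_inclv A (w r) i₀ = 0 := (hwU r).2
        have h2 : w r i₀ = 0 := Subtype.ext h1
        show IsLocalRing.residue A (w r i₀) = 0
        rw [h2, map_zero]
      have h3 : m18sq_redv A (fun i => (⟨u₀ i, hu₀A i⟩ : A)) i₀ = 0 := hle hmem
      have h4 : (⟨u₀ i₀, hu₀A i₀⟩ : A) = 1 := Subtype.ext hu₀1
      have h5 : m18sq_redv A (fun i => (⟨u₀ i, hu₀A i⟩ : A)) i₀ = 1 := by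
        show IsLocalRing.residue A (⟨u₀ i₀, hu₀A i₀⟩ : A) = 1
        rw [h4, map_one]
      rw [h5] at h3
      exact one_ne_zero h3

/-- **(pivot)** every subspace of `Lⁿ` has a basis of vectors with coordinates in `A` whose
reductions are linearly independent over the residue field. -/
theorem m18sq_pivot [Fintype ι] (U : Submodule L (ι → L)) :
    ∃ u : Fin (Module.finrank L U) → ι → A, (∀ r, m18sq_inclv A (u r) ∈ U) ∧
      LinearIndependent (IsLocalRing.ResidueField A) (fun r => m18sq_redv A (u r)) :=
  m18sq_pivot_aux A _ U rfl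

end Fermat.Agent.M18

end
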