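import Fermat.Agent.M18.SqDeg
import Fermat.Agent.M18.SqPivot

/-!
# M18 / (SQ2): orthonormal bases of finite-dimensional subspaces of `F_M`

For every level `M` prime to `ℓ` and every finite-dimensional `ℚ̄`-subspace `V ⊆ F_M` there are
`dim V` Gauss-integral elements of `V` whose reductions are linearly independent over `k`
(`m18sq_orth`).  Consequently `dim V ≤ dim V~` for every `k`-subspace `V~` containing the
reductions of the Gauss-integral elements of `V`, with equality only if the reduction map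
`V ∩ O → V~` is onto (`m18sq_orth_surj`).
-/

set_option autoImplicit false
set_option synthInstance.maxHeartbeats 400000
set_option linter.unusedSectionVars false

noncomputable section

open HahnSeries IntermediateField ModularCurve Polynomial

namespace Fermat.Agent.M18

open Fermat.Agent.M28 Fermat.Agent.S24

variable {A : ValuationSubring m18v_K} {M : ℕ} [NeZero M]

section phi

variable {m : ℕ} (E : Fin (dedekindPsi M) → LaurentSeries A) (s' : Polynomial A)

/-- the integral `q`-series with coordinates `c`. -/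
def m18sq_UA (c : Fin (dedekindPsi M) × Fin (m + 1) → A) : LaurentSeries A :=
  ∑ t, HahnSeries.single 0 (c t) * jqModC A ^ (t.2 : ℕ) * E t.1

theorem m18sq_smul_eq {R : Type*} [CommRing R] (r : R) (y : LaurentSeries R) :
    r • y = HahnSeries.single 0 r * y := by
  rw [← HahnSeries.C_mul_eq_smul, HahnSeries.C_apply]

/-- the coordinate map over the residue field. -/
def m18sq_Phik : (Fin (dedekindPsi M) × Fin (m + 1) → m18v_k A) →ₗ[m18v_k A]
    LaurentSeries (m18v_k A) where
  toFun c := (m18sq_evk A (s'.map (IsLocalRing.residue A)))⁻¹ *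
      ∑ t, HahnSeries.single 0 (c t) * (jqModC (m18v_k A) ^ (t.2 : ℕ) * m18v_redq A (E t.1))
  map_add' c c' := by
    rw [← mul_add, ← Finset.sum_add_distrib]
    congr 1
    refine Finset.sum_congr rfl fun t _ => ?_
    rw [Pi.add_apply, HahnSeries.single_add, add_mul]
  map_smul' r c := by
    have h : ∑ t, HahnSeries.single 0 ((r • c) t) *
        (jqModC (m18v_k A) ^ (t.2 : ℕ) * m18v_redq A (E t.1)) =
        HahnSeries.single 0 r * ∑ t, HahnSeries.single 0 (c t) *
          (jqModC (m18v_k A) ^ (t.2 : ℕ) * m18v_redq A (E t.1)) := by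
      rw [Finset.mul_sum]
      refine Finset.sum_congr rfl fun t _ => ?_
      have h1 : (HahnSeries.single 0 (r * c t) : LaurentSeries (m18v_k A)) =
          HahnSeries.single 0 r * HahnSeries.single 0 (c t) := by
        rw [HahnSeries.single_mul_single, zero_add]
      rw [Pi.smul_apply, smul_eq_mul, h1, mul_assoc]
    rw [RingHom.id_apply, m18sq_smul_eq, h]
    ring

theorem m18sq_Phik_apply (c : Fin (dedekindPsi M) × Fin (m + 1) → m18v_k A) :
    m18sq_Phik E s' c = (m18sq_evk A (s'.map (IsLocalRing.residue A)))⁻¹ *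
      ∑ t, HahnSeries.single 0 (c t) * (jqModC (m18v_k A) ^ (t.2 : ℕ) * m18v_redq A (E t.1)) :=
  rfl

theorem m18sq_redq_UA (c : Fin (dedekindPsi M) × Fin (m + 1) → A) :
    m18v_redq A (m18sq_UA E c) =
      ∑ t, HahnSeries.single 0 (m18sq_redv A c t) *
        (jqModC (m18v_k A) ^ (t.2 : ℕ) * m18v_redq A (E t.1)) := by
  rw [m18sq_UA, map_sum]
  refine Finset.sum_congr rfl fun t _ => ?_
  rw [map_mul, map_mul, map_pow, m18v_redq_single, mul_assoc]
  congr 2
  show coeffMap (IsLocalRing.residue A) (jqModC A) ^ (t.2 : ℕ) = _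
  rw [coeffMap_jqModC]

theorem m18sq_incl_UA (c : Fin (dedekindPsi M) × Fin (m + 1) → A) :
    m18v_incl A (m18sq_UA E c) =
      ∑ t, HahnSeries.single 0 (m18sq_inclv A c t) *
        (jqModC m18v_K ^ (t.2 : ℕ) * m18v_incl A (E t.1)) := by
  rw [m18sq_UA, map_sum]
  refine Finset.sum_congr rfl fun t _ => ?_
  rw [map_mul, map_mul, map_pow, m18v_incl_single, mul_assoc]
  congr 2
  show coeffMap A.subtype (jqModC A) ^ (t.2 : ℕ) = _
  rw [coeffMap_jqModC]

/-- the coordinate map over the residue field is injective. -/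
theorem m18sq_Phik_ker
    (hE : LinearIndependent ↥(IntermediateField.adjoin (m18v_k A) {jqModC (m18v_k A)})
      (fun i => m18v_redq A (E i)))
    (hs : s'.map (IsLocalRing.residue A) ≠ 0) :
    LinearMap.ker (m18sq_Phik (m := m) E s') = ⊥ := by
  rw [LinearMap.ker_eq_bot']
  intro c hc
  rw [m18sq_Phik_apply] at hc
  have h0 := (mul_eq_zero.mp hc).resolve_left (inv_ne_zero (m18sq_evk_ne_zero hs))
  rw [Fintype.sum_prod_type] at h0
  set P : Fin (dedekindPsi M) → Polynomial (m18v_k A) :=
    fun i => ∑ a : Fin (m + 1), Polynomial.monomial (a : ℕ) (c (i, a)) with hP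
  have h1 : ∑ i, (⟨m18sq_evk A (P i), m18sq_evk_mem_simple _⟩ :
      ↥(IntermediateField.adjoin (m18v_k A) {jqModC (m18v_k A)})) • m18v_redq A (E i) = 0 := by
    rw [← h0]
    refine Finset.sum_congr rfl fun i _ => ?_
    show m18sq_evk A (P i) * m18v_redq A (E i) = _
    rw [hP, map_sum, Finset.sum_mul]
    refine Finset.sum_congr rfl fun a _ => ?_
    rw [m18sq_evk_apply, Polynomial.aeval_monomial,
      ModularCurve.algebraMap_laurentSeries_eq_single, mul_assoc]
  have h2 := (Fintype.linearIndependent_iff.mp hE) _ h1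
  funext t
  obtain ⟨i, a⟩ := t
  have h3 : P i = 0 := by
    by_contra hne
    exact m18sq_evk_ne_zero hne (congrArg Subtype.val (h2 i))
  have h4 := congrArg (fun p => p.coeff (a : ℕ)) h3
  simp only [hP, Polynomial.finsetSum_coeff, Polynomial.coeff_monomial,
    Polynomial.coeff_zero] at h4
  rw [Finset.sum_eq_single a] at h4
  · simpa using h4
  · intro b _ hba
    rw [if_neg]
    intro h
    exact hba (Fin.ext h)
  · intro h
    exact absurd (Finset.mem_univ a) h

variable (hEF : ∀ i, m18v_incl A (E i) ∈ modularFunctionFieldBar M)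

/-- the coordinate map in characteristic `0`. -/
def m18sq_PhiL : (Fin (dedekindPsi M) × Fin (m + 1) → m18v_K) →ₗ[m18v_K] s24F M where
  toFun c := (Polynomial.aeval (s24j M) (s'.map A.subtype))⁻¹ *
      ∑ t, algebraMap m18v_K (s24F M) (c t) * (s24j M ^ (t.2 : ℕ) * m18sq_e E hEF t.1)
  map_add' c c' := by
    rw [← mul_add, ← Finset.sum_add_distrib]
    congr 1
    refine Finset.sum_congr rfl fun t _ => ?_
    rw [Pi.add_apply, map_add, add_mul]
  map_smul' r c := by
    have h : ∑ t, algebraMap m18v_K (s24F M) ((r • c) t) *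
        (s24j M ^ (t.2 : ℕ) * m18sq_e E hEF t.1) =
        algebraMap m18v_K (s24F M) r * ∑ t, algebraMap m18v_K (s24F M) (c t) *
          (s24j M ^ (t.2 : ℕ) * m18sq_e E hEF t.1) := by
      rw [Finset.mul_sum]
      refine Finset.sum_congr rfl fun t _ => ?_
      rw [Pi.smul_apply, smul_eq_mul, map_mul, mul_assoc]
    rw [RingHom.id_apply, h, Algebra.smul_def]
    ring

theorem m18sq_coe_sum (c : Fin (dedekindPsi M) × Fin (m + 1) → m18v_K) :
    ((∑ t, algebraMap m18v_K (s24F M) (c t) * (s24j M ^ (t.2 : ℕ) * m18sq_e E hEF t.1) :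
      s24F M) : LaurentSeries m18v_K) =
      ∑ t, HahnSeries.single 0 (c t) * (jqModC m18v_K ^ (t.2 : ℕ) * m18v_incl A (E t.1)) := by
  rw [AddSubmonoidClass.coe_finsetSum]
  refine Finset.sum_congr rfl fun t _ => ?_
  show ((algebraMap m18v_K (s24F M) (c t) : s24F M) : LaurentSeries m18v_K) *
    (((s24j M : s24F M) : LaurentSeries m18v_K) ^ (t.2 : ℕ) * m18v_incl A (E t.1)) = _
  rw [m18v_coe_algebraMap, m18sq_coe_s24j]

/-- **(A)** the element with integral coordinates `c`, times the denominator, is the integral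
`q`-series with coordinates `c`. -/
theorem m18sq_PhiL_mul (hs : s'.map (IsLocalRing.residue A) ≠ 0)
    (c : Fin (dedekindPsi M) × Fin (m + 1) → A) :
    ((m18sq_PhiL E s' hEF (m18sq_inclv A c) : s24F M) : LaurentSeries m18v_K) *
      m18v_incl A (m18sq_evA A s') = m18v_incl A (m18sq_UA E c) := by
  have hne : m18sq_evL (s'.map A.subtype) ≠ 0 := by
    rw [← m18sq_incl_evA]
    exact m18v_G_incl_ne_zero (m18sq_G_evA (M := M) hs)
  show ((Polynomial.aeval (s24j M) (s'.map A.subtype) : s24F M) : LaurentSeries m18v_K)⁻¹ *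
    ((∑ t, algebraMap m18v_K (s24F M) (m18sq_inclv A c t) *
      (s24j M ^ (t.2 : ℕ) * m18sq_e E hEF t.1) : s24F M) : LaurentSeries m18v_K) *
    m18v_incl A (m18sq_evA A s') = _
  rw [m18sq_coe_aeval, m18sq_coe_sum, m18sq_incl_evA, m18sq_incl_UA, mul_comm _ (m18sq_evL _),
    ← mul_assoc, mul_inv_cancel₀ hne, one_mul]

/-- **(B)** elements with integral coordinates are Gauss-integral. -/
theorem m18sq_PhiL_int (hs : s'.map (IsLocalRing.residue A) ≠ 0)
    (c : Fin (dedekindPsi M) × Fin (m + 1) → A) :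
    m18v_Int A M (m18sq_PhiL E s' hEF (m18sq_inclv A c)) :=
  ⟨m18sq_UA E c, m18sq_evA A s', m18sq_G_evA hs, m18sq_PhiL_mul E s' hEF hs c⟩

/-- **(B')** the reduction of an element with integral coordinates. -/
theorem m18sq_PhiL_red (hs : s'.map (IsLocalRing.residue A) ≠ 0)
    (c : Fin (dedekindPsi M) × Fin (m + 1) → A) :
    m18v_redL A M (m18sq_PhiL E s' hEF (m18sq_inclv A c)) =
      m18sq_Phik E s' (m18sq_redv A c) := by
  have h1 := m18v_redL_mul (m18sq_G_evA (M := M) hs) (m18sq_PhiL_mul E s' hEF hs c)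
  rw [m18sq_redq_evA, m18sq_redq_UA] at h1
  rw [m18sq_Phik_apply, ← h1, mul_comm (m18v_redL A M _), ← mul_assoc,
    inv_mul_cancel₀ (m18sq_evk_ne_zero hs), one_mul]

end phi

/-- evaluation of a polynomial of degree at most `m` as a sum over `Fin (m + 1)`. -/
theorem m18sq_aeval_fin (R : Polynomial m18v_K) (m : ℕ) (hm : R.natDegree ≤ m) :
    (Polynomial.aeval (s24j M) R : s24F M) =
      ∑ a : Fin (m + 1), algebraMap m18v_K (s24F M) (R.coeff (a : ℕ)) * s24j M ^ (a : ℕ) := by
  rw [Polynomial.aeval_eq_sum_range' (Nat.lt_succ_of_le hm), Finset.sum_range]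
  refine Finset.sum_congr rfl fun a _ => ?_
  rw [Algebra.smul_def]

set_option maxHeartbeats 1000000 in
/-- **(SQ2)** every finite-dimensional subspace of `F_M` has a basis of Gauss-integral elements
whose reductions are linearly independent over the residue field. -/
theorem m18sq_orth {ℓ : ℕ} [Fact ℓ.Prime] (hA : A.LiesOverPrime ℓ) (hℓM : ¬ ℓ ∣ M)
    (V : Submodule m18v_K (s24F M)) [FiniteDimensional m18v_K V] :
    ∃ x : Fin (Module.finrank m18v_K V) → s24F M, (∀ r, x r ∈ V) ∧
      (∀ r, m18v_Int A M (x r)) ∧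
      LinearIndependent (m18v_k A) (fun r => m18v_redL A M (x r)) := by
  classical
  obtain ⟨E, hEF, hEk, hE⟩ := m18sq_family hA M hℓM
  have hfd := deg_finiteDimensional M
  have hli := m18sq_indep E hE hEF
  have hcard : Fintype.card (Fin (dedekindPsi M)) =
      Module.finrank ↥(s24K⟮s24j M⟯) (s24F M) := by
    rw [m18sq_finrank_bar hA hℓM, Fintype.card_fin]
  have hne : Nonempty (Fin (dedekindPsi M)) := by
    rw [← Fintype.card_pos_iff, hcard]
    exact Module.finrank_pos
  set b := basisOfLinearIndependentOfCardEqFinrank hli hcard with hb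
  set v : Fin (Module.finrank m18v_K V) → s24F M :=
    fun r => ((Module.finBasis m18v_K V r : V) : s24F M) with hv
  obtain ⟨s, R, hs, hsR⟩ := m18sq_clear
    (fun t : Fin (Module.finrank m18v_K V) × Fin (dedekindPsi M) => b.repr (v t.1) t.2)
  obtain ⟨cs, s', hcs, hs', i0, hsprim⟩ := m18sq_content A (fun _ : Fin 1 => s) ⟨0, hs⟩
  have hvs : ∀ r, (Polynomial.aeval (s24j M) s : s24F M) * v r =
      ∑ i, (Polynomial.aeval (s24j M) (R (r, i)) : s24F M) * m18sq_e E hEF i := by
    intro r
    conv_lhs => rw [← b.sum_repr (v r)]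
    rw [Finset.mul_sum]
    refine Finset.sum_congr rfl fun i _ => ?_
    rw [hb, coe_basisOfLinearIndependentOfCardEqFinrank, m18sq_coe_smul, ← mul_assoc, ← hb]
    rw [hsR (r, i)]
  set m := Finset.univ.sup (fun t => (R t).natDegree) with hm
  have hdeg : ∀ t, (R t).natDegree ≤ m := fun t =>
    Finset.le_sup (f := fun t => (R t).natDegree) (Finset.mem_univ t)
  have hsj : (Polynomial.aeval (s24j M) s : s24F M) =
      algebraMap m18v_K (s24F M) cs * Polynomial.aeval (s24j M) ((s' i0).map A.subtype) := by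
    conv_lhs => rw [hs' i0]
    rw [map_mul, Polynomial.aeval_C]
  have hs'ne : (Polynomial.aeval (s24j M) ((s' i0).map A.subtype) : s24F M) ≠ 0 := by
    intro h0
    have h1 := m18sq_aeval_ne_zero (M := M) hs
    rw [hsj, h0, mul_zero] at h1
    exact h1 rfl
  have hcs' : algebraMap m18v_K (s24F M) cs ≠ 0 := by
    rw [Ne, map_eq_zero]
    exact hcs
  -- the basis vectors are in the range of the coordinate map
  have hrange : ∀ r, v r ∈ LinearMap.range (m18sq_PhiL (m := m) E (s' i0) hEF) := by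
    intro r
    refine ⟨fun t => cs⁻¹ * (R (r, t.1)).coeff (t.2 : ℕ), ?_⟩
    show (Polynomial.aeval (s24j M) ((s' i0).map A.subtype))⁻¹ *
      ∑ t : Fin (dedekindPsi M) × Fin (m + 1),
        algebraMap m18v_K (s24F M) (cs⁻¹ * (R (r, t.1)).coeff (t.2 : ℕ)) *
          (s24j M ^ (t.2 : ℕ) * m18sq_e E hEF t.1) = v r
    have h1 : ∑ t : Fin (dedekindPsi M) × Fin (m + 1),
        algebraMap m18v_K (s24F M) (cs⁻¹ * (R (r, t.1)).coeff (t.2 : ℕ)) *
          (s24j M ^ (t.2 : ℕ) * m18sq_e E hEF t.1) =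
        (algebraMap m18v_K (s24F M) cs)⁻¹ *
          ∑ i, (Polynomial.aeval (s24j M) (R (r, i)) : s24F M) * m18sq_e E hEF i := by
      rw [Fintype.sum_prod_type, Finset.mul_sum]
      refine Finset.sum_congr rfl fun i _ => ?_
      rw [m18sq_aeval_fin (R (r, i)) m (hdeg _), Finset.sum_mul, Finset.mul_sum]
      refine Finset.sum_congr rfl fun a _ => ?_
      rw [map_mul, map_inv₀]
      ring
    rw [h1, ← hvs r, hsj]
    field_simp
  have hVle : V ≤ LinearMap.range (m18sq_PhiL (m := m) E (s' i0) hEF) := by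
    intro y hy
    have h1 := (Module.finBasis m18v_K V).sum_repr ⟨y, hy⟩
    have h2 : y = ∑ r, (Module.finBasis m18v_K V).repr ⟨y, hy⟩ r • v r := by
      have h3 : ((∑ i, (Module.finBasis m18v_K V).repr ⟨y, hy⟩ i • (Module.finBasis m18v_K V) i :
          V) : s24F M) = y := congrArg Subtype.val h1
      rw [AddSubmonoidClass.coe_finsetSum] at h3
      exact h3.symm
    rw [h2]
    exact Submodule.sum_mem _ fun r _ => Submodule.smul_mem _ _ (hrange r)
  set U := V.comap (m18sq_PhiL (m := m) E (s' i0) hEF) with hU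
  have hle : Module.finrank m18v_K V ≤ Module.finrank m18v_K U := by
    have h1 := Submodule.finrank_map_le (m18sq_PhiL (m := m) E (s' i0) hEF) U
    rw [hU, Submodule.map_comap_eq_of_le hVle] at h1
    exact h1
  obtain ⟨u, huU, huli⟩ := m18sq_pivot A U
  refine ⟨fun r => m18sq_PhiL (m := m) E (s' i0) hEF (m18sq_inclv A (u (Fin.castLE hle r))),
    fun r => huU _, fun r => m18sq_PhiL_int E (s' i0) hEF hsprim _, ?_⟩
  have h1 : (fun r => m18v_redL A M
      (m18sq_PhiL (m := m) E (s' i0) hEF (m18sq_inclv A (u (Fin.castLE hle r))))) =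
      (m18sq_Phik (m := m) E (s' i0)) ∘ (fun r => m18sq_redv A (u (Fin.castLE hle r))) := by
    funext r
    exact m18sq_PhiL_red E (s' i0) hEF hsprim _
  rw [h1]
  refine LinearIndependent.map' ?_ _ (m18sq_Phik_ker E (s' i0) hE hsprim)
  exact huli.comp _ (Fin.castLE_injective hle)

/-- finite `A`-linear combinations of Gauss-integral elements are Gauss-integral, and the
reduction is the corresponding combination of the reductions. -/
theorem m18sq_Int_sum {n : ℕ} (x : Fin n → s24F M) (hx : ∀ r, m18v_Int A M (x r))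
    (α : Fin n → A) (S : Finset (Fin n)) :
    m18v_Int A M (∑ r ∈ S, algebraMap m18v_K (s24F M) (α r : m18v_K) * x r) ∧
      m18v_redL A M (∑ r ∈ S, algebraMap m18v_K (s24F M) (α r : m18v_K) * x r) =
        ∑ r ∈ S, HahnSeries.single 0 (IsLocalRing.residue A (α r)) * m18v_redL A M (x r) := by
  classical
  induction S using Finset.induction_on with
  | empty =>
    simp only [Finset.sum_empty]
    exact ⟨m18v_Int_zero, m18v_redL_zero⟩
  | insert a S ha ih =>
    rw [Finset.sum_insert ha, Finset.sum_insert ha]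
    have h1 : m18v_Int A M (algebraMap m18v_K (s24F M) (α a : m18v_K) * x a) :=
      m18v_Int_mul (m18v_Int_const _) (hx a)
    refine ⟨m18v_Int_add h1 ih.1, ?_⟩
    rw [m18v_redL_add h1 ih.1, ih.2, m18v_redL_mul' (m18v_Int_const _) (hx a),
      m18v_redL_const]

/-- **(SQ2')** `dim V ≤ dim V~` as soon as `V~` contains the reductions of the Gauss-integral
elements of `V`. -/
theorem m18sq_orth_le {ℓ : ℕ} [Fact ℓ.Prime] (hA : A.LiesOverPrime ℓ) (hℓM : ¬ ℓ ∣ M)
    (V : Submodule m18v_K (s24F M)) [FiniteDimensional m18v_K V]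
    (Vt : Submodule (m18v_k A) (LaurentSeries (m18v_k A))) [FiniteDimensional (m18v_k A) Vt]
    (hred : ∀ x ∈ V, m18v_Int A M x → m18v_redL A M x ∈ Vt) :
    Module.finrank m18v_K V ≤ Module.finrank (m18v_k A) Vt := by
  obtain ⟨x, hxV, hxI, hxli⟩ := m18sq_orth hA hℓM V
  have hli : LinearIndependent (m18v_k A)
      (fun r => (⟨m18v_redL A M (x r), hred _ (hxV r) (hxI r)⟩ : Vt)) :=
    LinearIndependent.of_comp Vt.subtype hxli
  simpa using hli.fintype_card_le_finrank

/-- **(SQ2'')** if moreover `dim V~ ≤ dim V`, every element of `V~` is the reduction of a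
Gauss-integral element of `V`. -/
theorem m18sq_orth_surj {ℓ : ℕ} [Fact ℓ.Prime] (hA : A.LiesOverPrime ℓ) (hℓM : ¬ ℓ ∣ M)
    (V : Submodule m18v_K (s24F M)) [FiniteDimensional m18v_K V]
    (Vt : Submodule (m18v_k A) (LaurentSeries (m18v_k A))) [FiniteDimensional (m18v_k A) Vt]
    (hred : ∀ x ∈ V, m18v_Int A M x → m18v_redL A M x ∈ Vt)
    (hle : Module.finrank (m18v_k A) Vt ≤ Module.finrank m18v_K V)
    (y : LaurentSeries (m18v_k A)) (hy : y ∈ Vt) :
    ∃ x ∈ V, m18v_Int A M x ∧ m18v_redL A M x = y := by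
  classical
  obtain ⟨x, hxV, hxI, hxli⟩ := m18sq_orth hA hℓM V
  have hli : LinearIndependent (m18v_k A)
      (fun r => (⟨m18v_redL A M (x r), hred _ (hxV r) (hxI r)⟩ : Vt)) :=
    LinearIndependent.of_comp Vt.subtype hxli
  have hcard : Fintype.card (Fin (Module.finrank m18v_K V)) = Module.finrank (m18v_k A) Vt := by
    apply le_antisymm
    · exact hli.fintype_card_le_finrank
    · simpa using hle
  by_cases hd : Module.finrank m18v_K V = 0
  · have h0 : Module.finrank (m18v_k A) Vt = 0 := by omega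
    have hy0 : (⟨y, hy⟩ : Vt) = 0 := by
      have := Module.finrank_zero_iff.mp h0
      exact Subsingleton.elim _ _
    refine ⟨0, V.zero_mem, m18v_Int_zero, ?_⟩
    rw [m18v_redL_zero]
    exact (congrArg Subtype.val hy0).symm
  have hne : Nonempty (Fin (Module.finrank m18v_K V)) := ⟨⟨0, Nat.pos_of_ne_zero hd⟩⟩
  set b := basisOfLinearIndependentOfCardEqFinrank hli hcard with hb
  have h1 := b.sum_repr ⟨y, hy⟩
  choose α hα using fun r => IsLocalRing.residue_surjective (R := A) (b.repr ⟨y, hy⟩ r)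
  obtain ⟨hI, hR⟩ := m18sq_Int_sum x hxI α Finset.univ
  refine ⟨∑ r, algebraMap m18v_K (s24F M) (α r : m18v_K) * x r, ?_, hI, ?_⟩
  · refine Submodule.sum_mem _ fun r _ => ?_
    rw [← Algebra.smul_def]
    exact V.smul_mem _ (hxV r)
  · rw [hR]
    have h2 : ((∑ r, b.repr ⟨y, hy⟩ r • b r : Vt) : LaurentSeries (m18v_k A)) = y :=
      congrArg Subtype.val h1
    rw [AddSubmonoidClass.coe_finsetSum] at h2
    rw [← h2]
    refine Finset.sum_congr rfl fun r _ => ?_
    rw [hα r, hb, coe_basisOfLinearIndependentOfCardEqFinrank, ← m18sq_smul_eq]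
    rfl

end Fermat.Agent.M18

end
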