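import Fermat.Agent.M18.RrSq
import Fermat.Agent.M18.RrGb
import Fermat.Agent.M18.SqLat
import Fermat.Agent.M18.GiIndep

/-!
# M18 / (SQ5), (SQ7): concrete forms at every level `M` prime to `ℓ`

`F = F_M` the function field of `X₀(M)` over `ℚ̄`, `F~ = F~_M` over the residue field `k` of `A`,
Gauss-integrality `m18v_Int A M`, reduction `m18sq_red hdec`.

The only hypotheses are the separability of `F~_M / k(j~)` (`hsep`, (CUSP)) and the integrality
transfer (SQ3) `h3` in the charts `j` and `j⁻¹`.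

* `m18rr_sq5_X0`      : (SQ5) `g~(M) ≤ g(M)`;
* `m18rr_sq7_X0`      : (SQ7) if `g(M) ≤ g~(M)`, every `b~ ∈ F~_M` integral over `k[j~]` is the
  reduction of a Gauss-integral `b ∈ F_M` integral over `ℚ̄[j]`;
* `m18rr_sq7_X0_inv`  : the same in the chart `j⁻¹`;
* `m18rr_sq7_X0_V`, `m18rr_sq7_X0_inv_V` : the forms with pole control (`V_n → V~_n` is onto for
  `n ≥ 2 max g g~`);
* `m18rr_sq5_chart`, `m18rr_sq7_chart`, `m18rr_sq7_chart_V` : the same for arbitrary separating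
  elements `x`, `xt`.
-/

set_option autoImplicit false
set_option linter.style.haveILetI false
set_option linter.unusedSectionVars false
set_option linter.unusedVariables false
set_option linter.deprecated false
set_option synthInstance.maxHeartbeats 400000
set_option maxHeartbeats 1600000

noncomputable section

namespace Fermat.Agent.M18

open AlgebraicCurve ModularCurve IntermediateField Module
open Fermat.Agent.S20 Fermat.Agent.S24

section transport

variable {K F : Type*} [Field K] [Field F] [Algebra K F]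

theorem m18rr_finrank_congr {E E' : IntermediateField K F} (h : E = E') :
    finrank E F = finrank E' F := by
  subst h
  rfl

theorem m18rr_finrank_inv (x : F) : finrank K⟮x⁻¹⟯ F = finrank K⟮x⟯ F :=
  m18rr_finrank_congr (algaz_adjoin_inv (K := K) x)

end transport

variable {A : ValuationSubring m18v_K} {M : ℕ} [NeZero M]

/-! ### the linear structure of the reduction map -/

theorem m18rr_red_h0 (hdec : m18sq_Dec A M) :
    m18v_Int A M (0 : m18v_F M) ∧ m18sq_red hdec 0 = 0 :=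
  ⟨m18v_Int_zero, Subtype.ext m18v_redL_zero⟩

theorem m18rr_red_hadd (hdec : m18sq_Dec A M) (y z : m18v_F M) (hy : m18v_Int A M y)
    (hz : m18v_Int A M z) :
    m18v_Int A M (y + z) ∧ m18sq_red hdec (y + z) = m18sq_red hdec y + m18sq_red hdec z :=
  ⟨m18v_Int_add hy hz, Subtype.ext (m18v_redL_add hy hz)⟩

/-- the coercion of a scalar multiple in `F~_M`. -/
theorem m18rr_coe_smul_Ft (c : m18v_k A) (z : m18v_Ft A M) :
    ((c • z : m18v_Ft A M) : LaurentSeries (m18v_k A))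
      = HahnSeries.single 0 c * (z : LaurentSeries (m18v_k A)) := by
  rw [Algebra.smul_def]
  show (algebraMap (m18v_k A) (LaurentSeries (m18v_k A)) c) * (z : LaurentSeries (m18v_k A)) = _
  rw [ModularCurve.algebraMap_laurentSeries_eq_single]

theorem m18rr_red_hsm (hdec : m18sq_Dec A M) (c : m18v_k A) :
    ∃ a : m18v_K, ∀ y : m18v_F M, m18v_Int A M y →
      m18v_Int A M (a • y) ∧ m18sq_red hdec (a • y) = c • m18sq_red hdec y := by
  obtain ⟨a, rfl⟩ := IsLocalRing.residue_surjective c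
  refine ⟨(a : m18v_K), fun y hy => ?_⟩
  have hI : m18v_Int A M ((a : m18v_K) • y) := by
    rw [Algebra.smul_def]
    exact m18v_Int_mul (m18v_Int_const a) hy
  refine ⟨hI, Subtype.ext ?_⟩
  rw [m18rr_coe_smul_Ft, m18sq_coe_red, m18sq_coe_red, Algebra.smul_def,
    m18v_redL_mul' (m18v_Int_const a) hy, m18v_redL_const]

/-- linear independence over `k` in `F~_M` can be checked on the `q`-expansions. -/
theorem m18rr_li_Ft {n : ℕ} (w : Fin n → m18v_Ft A M)
    (hli : LinearIndependent (m18v_k A) (fun i => (w i : LaurentSeries (m18v_k A)))) :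
    LinearIndependent (m18v_k A) w := by
  rw [Fintype.linearIndependent_iff] at hli ⊢
  intro g hg
  refine hli g ?_
  have h1 := congrArg (fun z : m18v_Ft A M => (z : LaurentSeries (m18v_k A))) hg
  simp only [AddSubmonoidClass.coe_finsetSum, ZeroMemClass.coe_zero] at h1
  rw [← h1]
  refine Finset.sum_congr rfl fun i _ => ?_
  rw [m18rr_coe_smul_Ft, m18sq_smul_eq]

/-! ### arbitrary charts -/

section chart

variable {ℓ : ℕ} [Fact ℓ.Prime]

/-- (SQ2) in the shape consumed by `RrSq.lean`. -/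
theorem m18rr_h2 (hA : A.LiesOverPrime ℓ) (hℓM : ¬ ℓ ∣ M)
    (x : s24F M) (hx : Transcendental m18v_K x) [FiniteDimensional m18v_K⟮x⟯ (s24F M)] (n : ℕ) :
    ∃ v : Fin (finrank m18v_K ↥(m18sq_V m18v_K x n)) → s24F M,
      (∀ i, m18v_Int A M (v i) ∧ v i ∈ m18sq_V m18v_K x n) ∧
      LinearIndependent (m18v_k A) (fun i => m18sq_red (m18sq_dec hA hℓM) (v i)) := by
  haveI := m18rr_isSeparable_of_charZero (K := m18v_K) x
  haveI := m18rr_V_finite x hx n
  obtain ⟨v, hvV, hvI, hli⟩ := m18sq_orth hA hℓM (m18sq_V m18v_K x n)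
  exact ⟨v, fun i => ⟨hvI i, hvV i⟩,
    m18rr_li_Ft (fun i => m18sq_red (m18sq_dec hA hℓM) (v i)) hli⟩

/-- **(SQ5)** in an arbitrary chart. -/
theorem m18rr_sq5_chart (hA : A.LiesOverPrime ℓ) (hℓM : ¬ ℓ ∣ M)
    (x : s24F M) (hx : Transcendental m18v_K x) [FiniteDimensional m18v_K⟮x⟯ (s24F M)]
    (xt : m18v_Ft A M) (hxt : Transcendental (m18v_k A) xt)
    [FiniteDimensional (m18v_k A)⟮xt⟯ (m18v_Ft A M)]
    [Algebra.IsSeparable (m18v_k A)⟮xt⟯ (m18v_Ft A M)]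
    (hdeg : finrank (m18v_k A)⟮xt⟯ (m18v_Ft A M) ≤ finrank m18v_K⟮x⟯ (s24F M))
    (h3 : ∀ n y, m18v_Int A M y → y ∈ m18sq_V m18v_K x n →
      m18sq_red (m18sq_dec hA hℓM) y ∈ m18sq_V (m18v_k A) xt n) :
    finrank (m18v_k A) (riemannRochSpace (m18rr_W (K := m18v_k A) xt))
      ≤ finrank m18v_K (riemannRochSpace (m18rr_W (K := m18v_K) x)) := by
  haveI : IsAlgClosed (m18v_k A) := m18sq_isAlgClosed A
  haveI := m18rr_isSeparable_of_charZero (K := m18v_K) x
  exact m18rr_sq5_fam x hx xt hxt hdeg (m18v_Int A M) (m18sq_red (m18sq_dec hA hℓM))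
    (fun n => m18rr_h2 hA hℓM x hx n) h3

/-- **(SQ7)** in an arbitrary chart, with pole control. -/
theorem m18rr_sq7_chart_V (hA : A.LiesOverPrime ℓ) (hℓM : ¬ ℓ ∣ M)
    (x : s24F M) (hx : Transcendental m18v_K x) [FiniteDimensional m18v_K⟮x⟯ (s24F M)]
    (xt : m18v_Ft A M) (hxt : Transcendental (m18v_k A) xt)
    [FiniteDimensional (m18v_k A)⟮xt⟯ (m18v_Ft A M)]
    [Algebra.IsSeparable (m18v_k A)⟮xt⟯ (m18v_Ft A M)]
    (hdeg : finrank (m18v_k A)⟮xt⟯ (m18v_Ft A M) ≤ finrank m18v_K⟮x⟯ (s24F M))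
    (hg : finrank m18v_K (riemannRochSpace (m18rr_W (K := m18v_K) x))
      ≤ finrank (m18v_k A) (riemannRochSpace (m18rr_W (K := m18v_k A) xt)))
    (h3 : ∀ n y, m18v_Int A M y → y ∈ m18sq_V m18v_K x n →
      m18sq_red (m18sq_dec hA hℓM) y ∈ m18sq_V (m18v_k A) xt n)
    (n : ℕ) (hn1 : 2 * finrank m18v_K (riemannRochSpace (m18rr_W (K := m18v_K) x)) ≤ n)
    (hn2 : 2 * finrank (m18v_k A) (riemannRochSpace (m18rr_W (K := m18v_k A) xt)) ≤ n)
    (b : m18v_Ft A M) (hb : b ∈ m18sq_V (m18v_k A) xt n) :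
    ∃ y : s24F M, m18v_Int A M y ∧ y ∈ m18sq_V m18v_K x n ∧
      m18sq_red (m18sq_dec hA hℓM) y = b := by
  haveI : IsAlgClosed (m18v_k A) := m18sq_isAlgClosed A
  haveI := m18rr_isSeparable_of_charZero (K := m18v_K) x
  exact m18rr_sq7_fam x hx xt hxt hdeg hg (m18v_Int A M) (m18sq_red (m18sq_dec hA hℓM))
    (m18rr_red_h0 _) (m18rr_red_hadd _) (m18rr_red_hsm _)
    (fun n => m18rr_h2 hA hℓM x hx n) h3 n hn1 hn2 b hb

/-- **(SQ7)** in an arbitrary chart. -/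
theorem m18rr_sq7_chart (hA : A.LiesOverPrime ℓ) (hℓM : ¬ ℓ ∣ M)
    (x : s24F M) (hx : Transcendental m18v_K x) [FiniteDimensional m18v_K⟮x⟯ (s24F M)]
    (xt : m18v_Ft A M) (hxt : Transcendental (m18v_k A) xt)
    [FiniteDimensional (m18v_k A)⟮xt⟯ (m18v_Ft A M)]
    [Algebra.IsSeparable (m18v_k A)⟮xt⟯ (m18v_Ft A M)]
    (hdeg : finrank (m18v_k A)⟮xt⟯ (m18v_Ft A M) ≤ finrank m18v_K⟮x⟯ (s24F M))
    (hg : finrank m18v_K (riemannRochSpace (m18rr_W (K := m18v_K) x))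
      ≤ finrank (m18v_k A) (riemannRochSpace (m18rr_W (K := m18v_k A) xt)))
    (h3 : ∀ n y, m18v_Int A M y → y ∈ m18sq_V m18v_K x n →
      m18sq_red (m18sq_dec hA hℓM) y ∈ m18sq_V (m18v_k A) xt n)
    (b : m18v_Ft A M) (hb : IsIntegral (Algebra.adjoin (m18v_k A) ({xt} : Set (m18v_Ft A M))) b) :
    ∃ y : s24F M, m18v_Int A M y ∧
      IsIntegral (Algebra.adjoin m18v_K ({x} : Set (s24F M))) y ∧
      m18sq_red (m18sq_dec hA hℓM) y = b := by
  haveI : IsAlgClosed (m18v_k A) := m18sq_isAlgClosed A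
  haveI := m18rr_isSeparable_of_charZero (K := m18v_K) x
  exact m18rr_sq7_fam_integral x hx xt hxt hdeg hg (m18v_Int A M)
    (m18sq_red (m18sq_dec hA hℓM))
    (m18rr_red_h0 _) (m18rr_red_hadd _) (m18rr_red_hsm _)
    (fun n => m18rr_h2 hA hℓM x hx n) h3 b hb

end chart

/-! ### the charts `j` and `j⁻¹` -/

section X0

variable {ℓ : ℕ} [Fact ℓ.Prime]

theorem m18rr_hdeg_X0 (hA : A.LiesOverPrime ℓ) (hℓM : ¬ ℓ ∣ M) :
    finrank (m18v_k A)⟮m18sq_jt A M⟯ (m18v_Ft A M) = finrank m18v_K⟮s24j M⟯ (s24F M) := by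
  rw [(m18sq_finrank_res hA hℓM).2]
  exact (m18sq_finrank_bar hA hℓM).symm

theorem m18rr_hdeg_X0_inv (hA : A.LiesOverPrime ℓ) (hℓM : ¬ ℓ ∣ M) :
    finrank (m18v_k A)⟮(m18sq_jt A M)⁻¹⟯ (m18v_Ft A M)
      = finrank m18v_K⟮(s24j M)⁻¹⟯ (s24F M) := by
  rw [m18rr_finrank_inv, m18rr_finrank_inv]
  exact m18rr_hdeg_X0 hA hℓM

/-- **(SQ5)**: `g~(M) ≤ g(M)` at every level `M` prime to `ℓ`. -/
theorem m18rr_sq5_X0 (hA : A.LiesOverPrime ℓ) (hℓM : ¬ ℓ ∣ M)
    (hsep : Algebra.IsSeparable ↥((m18v_k A)⟮m18sq_jt A M⟯) (m18v_Ft A M))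
    (h3 : ∀ n y, m18v_Int A M y → y ∈ m18sq_V m18v_K (s24j M) n →
      m18sq_red (m18sq_dec hA hℓM) y ∈ m18sq_V (m18v_k A) (m18sq_jt A M) n) :
    finrank (m18v_k A) (riemannRochSpace (m18rr_W (K := m18v_k A) (m18sq_jt A M)))
      ≤ finrank m18v_K (riemannRochSpace (m18rr_W (K := m18v_K) (s24j M))) := by
  haveI := (m18sq_finrank_res hA hℓM).1
  haveI := hsep
  haveI hfin0 : FiniteDimensional (IntermediateField.adjoin s24K {s24j M}) (s24F M) :=
    deg_finiteDimensional M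
  exact m18rr_sq5_chart hA hℓM (s24j M) (ana_transcendental M) (m18sq_jt A M)
    m18sq_jt_transcendental (m18rr_hdeg_X0 hA hℓM).le h3

/-- **(SQ7)** with pole control, chart `j`. -/
theorem m18rr_sq7_X0_V (hA : A.LiesOverPrime ℓ) (hℓM : ¬ ℓ ∣ M)
    (hsep : Algebra.IsSeparable ↥((m18v_k A)⟮m18sq_jt A M⟯) (m18v_Ft A M))
    (hg : finrank m18v_K (riemannRochSpace (m18rr_W (K := m18v_K) (s24j M)))
      ≤ finrank (m18v_k A) (riemannRochSpace (m18rr_W (K := m18v_k A) (m18sq_jt A M))))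
    (h3 : ∀ n y, m18v_Int A M y → y ∈ m18sq_V m18v_K (s24j M) n →
      m18sq_red (m18sq_dec hA hℓM) y ∈ m18sq_V (m18v_k A) (m18sq_jt A M) n)
    (n : ℕ) (hn1 : 2 * finrank m18v_K (riemannRochSpace (m18rr_W (K := m18v_K) (s24j M))) ≤ n)
    (hn2 : 2 * finrank (m18v_k A)
      (riemannRochSpace (m18rr_W (K := m18v_k A) (m18sq_jt A M))) ≤ n)
    (b : m18v_Ft A M) (hb : b ∈ m18sq_V (m18v_k A) (m18sq_jt A M) n) :
    ∃ y : s24F M, m18v_Int A M y ∧ y ∈ m18sq_V m18v_K (s24j M) n ∧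
      m18sq_red (m18sq_dec hA hℓM) y = b := by
  haveI := (m18sq_finrank_res hA hℓM).1
  haveI := hsep
  haveI hfin0 : FiniteDimensional (IntermediateField.adjoin s24K {s24j M}) (s24F M) :=
    deg_finiteDimensional M
  exact m18rr_sq7_chart_V hA hℓM (s24j M) (ana_transcendental M) (m18sq_jt A M)
    m18sq_jt_transcendental (m18rr_hdeg_X0 hA hℓM).le hg h3 n hn1 hn2 b hb

/-- **(SQ7)**, chart `j`: if `g(M) ≤ g~(M)`, every element of `F~_M` integral over `k[j~]` is the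
reduction of a Gauss-integral element of `F_M` integral over `ℚ̄[j]`. -/
theorem m18rr_sq7_X0 (hA : A.LiesOverPrime ℓ) (hℓM : ¬ ℓ ∣ M)
    (hsep : Algebra.IsSeparable ↥((m18v_k A)⟮m18sq_jt A M⟯) (m18v_Ft A M))
    (hg : finrank m18v_K (riemannRochSpace (m18rr_W (K := m18v_K) (s24j M)))
      ≤ finrank (m18v_k A) (riemannRochSpace (m18rr_W (K := m18v_k A) (m18sq_jt A M))))
    (h3 : ∀ n y, m18v_Int A M y → y ∈ m18sq_V m18v_K (s24j M) n →
      m18sq_red (m18sq_dec hA hℓM) y ∈ m18sq_V (m18v_k A) (m18sq_jt A M) n)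
    (b : m18v_Ft A M)
    (hb : IsIntegral (Algebra.adjoin (m18v_k A) ({m18sq_jt A M} : Set (m18v_Ft A M))) b) :
    ∃ y : s24F M, m18v_Int A M y ∧
      IsIntegral (Algebra.adjoin m18v_K ({s24j M} : Set (s24F M))) y ∧
      m18sq_red (m18sq_dec hA hℓM) y = b := by
  haveI := (m18sq_finrank_res hA hℓM).1
  haveI := hsep
  haveI hfin0 : FiniteDimensional (IntermediateField.adjoin s24K {s24j M}) (s24F M) :=
    deg_finiteDimensional M
  exact m18rr_sq7_chart hA hℓM (s24j M) (ana_transcendental M) (m18sq_jt A M)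
    m18sq_jt_transcendental (m18rr_hdeg_X0 hA hℓM).le hg h3 b hb

/-- the genus inequality in the chart `j⁻¹`. -/
theorem m18rr_hg_inv (hA : A.LiesOverPrime ℓ) (hℓM : ¬ ℓ ∣ M)
    (hsep : Algebra.IsSeparable ↥((m18v_k A)⟮m18sq_jt A M⟯) (m18v_Ft A M))
    (hg : finrank m18v_K (riemannRochSpace (m18rr_W (K := m18v_K) (s24j M)))
      ≤ finrank (m18v_k A) (riemannRochSpace (m18rr_W (K := m18v_k A) (m18sq_jt A M)))) :
    finrank m18v_K (riemannRochSpace (m18rr_W (K := m18v_K) (s24j M)⁻¹))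
      ≤ finrank (m18v_k A) (riemannRochSpace (m18rr_W (K := m18v_k A) (m18sq_jt A M)⁻¹)) := by
  haveI : IsAlgClosed (m18v_k A) := m18sq_isAlgClosed A
  haveI := (m18sq_finrank_res hA hℓM).1
  haveI := hsep
  haveI hfin0 : FiniteDimensional (IntermediateField.adjoin s24K {s24j M}) (s24F M) :=
    deg_finiteDimensional M
  haveI := m18rr_isSeparable_of_charZero (K := m18v_K) (s24j M)
  haveI := m18rr_fd_inv (K := m18v_K) (s24j M)
  haveI := m18rr_sep_inv (K := m18v_K) (s24j M)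
  haveI := m18rr_fd_inv (K := m18v_k A) (m18sq_jt A M)
  haveI := m18rr_sep_inv (K := m18v_k A) (m18sq_jt A M)
  rw [m18gi_finrank_W_eq (s24j M)⁻¹ (s24j M) (algaz_transcendental_inv (ana_transcendental M))
      (ana_transcendental M),
    m18gi_finrank_W_eq (m18sq_jt A M)⁻¹ (m18sq_jt A M)
      (algaz_transcendental_inv m18sq_jt_transcendental) m18sq_jt_transcendental]
  exact hg

/-- **(SQ7)** with pole control, chart `j⁻¹`. -/
theorem m18rr_sq7_X0_inv_V (hA : A.LiesOverPrime ℓ) (hℓM : ¬ ℓ ∣ M)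
    (hsep : Algebra.IsSeparable ↥((m18v_k A)⟮m18sq_jt A M⟯) (m18v_Ft A M))
    (hg : finrank m18v_K (riemannRochSpace (m18rr_W (K := m18v_K) (s24j M)))
      ≤ finrank (m18v_k A) (riemannRochSpace (m18rr_W (K := m18v_k A) (m18sq_jt A M))))
    (h3 : ∀ n y, m18v_Int A M y → y ∈ m18sq_V m18v_K (s24j M)⁻¹ n →
      m18sq_red (m18sq_dec hA hℓM) y ∈ m18sq_V (m18v_k A) (m18sq_jt A M)⁻¹ n)
    (n : ℕ) (hn1 : 2 * finrank m18v_K (riemannRochSpace (m18rr_W (K := m18v_K) (s24j M))) ≤ n)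
    (hn2 : 2 * finrank (m18v_k A)
      (riemannRochSpace (m18rr_W (K := m18v_k A) (m18sq_jt A M))) ≤ n)
    (b : m18v_Ft A M) (hb : b ∈ m18sq_V (m18v_k A) (m18sq_jt A M)⁻¹ n) :
    ∃ y : s24F M, m18v_Int A M y ∧ y ∈ m18sq_V m18v_K (s24j M)⁻¹ n ∧
      m18sq_red (m18sq_dec hA hℓM) y = b := by
  haveI : IsAlgClosed (m18v_k A) := m18sq_isAlgClosed A
  haveI := (m18sq_finrank_res hA hℓM).1
  haveI := hsep
  haveI hfin0 : FiniteDimensional (IntermediateField.adjoin s24K {s24j M}) (s24F M) :=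
    deg_finiteDimensional M
  haveI := m18rr_isSeparable_of_charZero (K := m18v_K) (s24j M)
  haveI := m18rr_fd_inv (K := m18v_K) (s24j M)
  haveI := m18rr_sep_inv (K := m18v_K) (s24j M)
  haveI := m18rr_fd_inv (K := m18v_k A) (m18sq_jt A M)
  haveI := m18rr_sep_inv (K := m18v_k A) (m18sq_jt A M)
  have e1 := m18gi_finrank_W_eq (s24j M)⁻¹ (s24j M)
    (algaz_transcendental_inv (ana_transcendental M)) (ana_transcendental M)
  have e2 := m18gi_finrank_W_eq (m18sq_jt A M)⁻¹ (m18sq_jt A M)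
    (algaz_transcendental_inv m18sq_jt_transcendental) m18sq_jt_transcendental
  exact m18rr_sq7_chart_V hA hℓM (s24j M)⁻¹ (algaz_transcendental_inv (ana_transcendental M))
    (m18sq_jt A M)⁻¹ (algaz_transcendental_inv m18sq_jt_transcendental)
    (m18rr_hdeg_X0_inv hA hℓM).le (m18rr_hg_inv hA hℓM hsep hg) h3 n
    (by rw [e1]; exact hn1) (by rw [e2]; exact hn2) b hb

/-- **(SQ7)**, chart `j⁻¹`: if `g(M) ≤ g~(M)`, every element of `F~_M` integral over `k[j~⁻¹]` is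
the reduction of a Gauss-integral element of `F_M` integral over `ℚ̄[j⁻¹]`. -/
theorem m18rr_sq7_X0_inv (hA : A.LiesOverPrime ℓ) (hℓM : ¬ ℓ ∣ M)
    (hsep : Algebra.IsSeparable ↥((m18v_k A)⟮m18sq_jt A M⟯) (m18v_Ft A M))
    (hg : finrank m18v_K (riemannRochSpace (m18rr_W (K := m18v_K) (s24j M)))
      ≤ finrank (m18v_k A) (riemannRochSpace (m18rr_W (K := m18v_k A) (m18sq_jt A M))))
    (h3 : ∀ n y, m18v_Int A M y → y ∈ m18sq_V m18v_K (s24j M)⁻¹ n →
      m18sq_red (m18sq_dec hA hℓM) y ∈ m18sq_V (m18v_k A) (m18sq_jt A M)⁻¹ n)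
    (b : m18v_Ft A M)
    (hb : IsIntegral (Algebra.adjoin (m18v_k A) ({(m18sq_jt A M)⁻¹} : Set (m18v_Ft A M))) b) :
    ∃ y : s24F M, m18v_Int A M y ∧
      IsIntegral (Algebra.adjoin m18v_K ({(s24j M)⁻¹} : Set (s24F M))) y ∧
      m18sq_red (m18sq_dec hA hℓM) y = b := by
  haveI : IsAlgClosed (m18v_k A) := m18sq_isAlgClosed A
  haveI := (m18sq_finrank_res hA hℓM).1
  haveI := hsep
  haveI hfin0 : FiniteDimensional (IntermediateField.adjoin s24K {s24j M}) (s24F M) :=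
    deg_finiteDimensional M
  haveI := m18rr_isSeparable_of_charZero (K := m18v_K) (s24j M)
  haveI := m18rr_fd_inv (K := m18v_K) (s24j M)
  haveI := m18rr_sep_inv (K := m18v_K) (s24j M)
  haveI := m18rr_fd_inv (K := m18v_k A) (m18sq_jt A M)
  haveI := m18rr_sep_inv (K := m18v_k A) (m18sq_jt A M)
  exact m18rr_sq7_chart hA hℓM (s24j M)⁻¹ (algaz_transcendental_inv (ana_transcendental M))
    (m18sq_jt A M)⁻¹ (algaz_transcendental_inv m18sq_jt_transcendental)
    (m18rr_hdeg_X0_inv hA hℓM).le (m18rr_hg_inv hA hℓM hsep hg) h3 b hb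

end X0

end Fermat.Agent.M18

end
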