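/-
M18 (S18 project), two-level Gauss setup, owner helper5.  Prefix `m18sq3_`.

For `N ∣ N'`: the compatible pair of reductions `F_N ⊂ F_{N'}` in the sense of helper2's
`m18nrm_Setup`, between the Gauss package `m18v_gauss h` at level `N` and the Gauss ring
`m18sq3_O A N'` at level `N'`.  The statements are generic in the `Algebra` structures
`F_N → F_{N'}`, `F~_N → F~_{N'}`: the only thing used is that they are the inclusions of
`q`-expansions (`hcoe`, `hcoek`).

* `m18sq3_red_surjective` : the reduction map is onto;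
* `m18sq3_setup_lvl`      : the two-level setup;
* `m18sq3_setup_lvl'`     : the same with the Gauss valuation ring at level `N` built from the
  decomposition property.
-/
import Fermat.Agent.M18.Sq3Main
import Fermat.Agent.M18.SqLat2
import Fermat.Agent.M18.VGauss

set_option autoImplicit false
set_option linter.deprecated false
set_option linter.unusedSectionVars false
set_option linter.unusedVariables false
set_option linter.style.haveILetI false
set_option synthInstance.maxHeartbeats 400000
set_option maxHeartbeats 1600000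

noncomputable section

namespace Fermat.Agent.M18

open HahnSeries IntermediateField ModularCurve Polynomial Module
open Fermat.Agent.M28 Fermat.Agent.S24

variable {A : ValuationSubring m18v_K}

/-- the reduction map is onto. -/
theorem m18sq3_red_surjective {M : ℕ} [NeZero M] (hdec : m18sq_Dec A M) :
    Function.Surjective (m18sq3_red hdec) := by
  intro y
  obtain ⟨x, hx, h⟩ := m18sq_red_surjective hdec y
  exact ⟨⟨x, hx⟩, h⟩

theorem m18sq3_coe_red {M : ℕ} [NeZero M] (hdec : m18sq_Dec A M) (x : m18sq3_O A M) :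
    ((m18sq3_red hdec x : m18v_Ft A M) : LaurentSeries (m18v_k A)) =
      m18v_redL A M (x : s24F M) := rfl

section lvl

variable {N N' : ℕ} [NeZero N] [NeZero N']

/-- level raising for Gauss-integral elements, in terms of an `Algebra` structure. -/
theorem m18sq3_int_lvl (hNN' : N ∣ N') [Algebra (m18v_F N) (m18v_F N')]
    (hcoe : ∀ x : m18v_F N,
      ((algebraMap (m18v_F N) (m18v_F N') x : m18v_F N') : LaurentSeries m18v_K) = x)
    {y : m18v_F N} (hI : m18v_Int A N y) :
    m18v_Int A N' (algebraMap (m18v_F N) (m18v_F N') y) ∧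
      m18v_redL A N' (algebraMap (m18v_F N) (m18v_F N') y) = m18v_redL A N y := by
  have hx' : (y : LaurentSeries m18v_K) ∈ modularFunctionFieldBar N' := by
    rw [← hcoe]
    exact (algebraMap (m18v_F N) (m18v_F N') y).2
  have heq : algebraMap (m18v_F N) (m18v_F N') y = ⟨(y : LaurentSeries m18v_K), hx'⟩ :=
    Subtype.ext (hcoe y)
  rw [heq]
  exact m18sq_Int_level_of hNN' y.2 hx' hI

/-- **the two-level setup** `F_N ⊂ F_{N'}`, at the level `N` of S18. -/
theorem m18sq3_setup_lvl (h : ModularCurve.ReductionInputsModL A N) (hNN' : N ∣ N')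
    (hdec' : m18sq_Dec A N')
    [Algebra (m18v_F N) (m18v_F N')] [Algebra (m18v_Ft A N) (m18v_Ft A N')]
    (hcoe : ∀ x : m18v_F N,
      ((algebraMap (m18v_F N) (m18v_F N') x : m18v_F N') : LaurentSeries m18v_K) = x)
    (hcoek : ∀ x : m18v_Ft A N,
      ((algebraMap (m18v_Ft A N) (m18v_Ft A N') x : m18v_Ft A N') :
        LaurentSeries (m18v_k A)) = x) :
    m18nrm_Setup (m18v_gauss h).O (m18v_gauss h).red (m18sq3_O A N') (m18sq3_red hdec') where
  ker := fun y hy => by
    by_contra hne
    exact hy ((m18v_gauss h).isUnit_of_red_ne_zero y hne)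
  map_mem := fun y => (m18sq3_int_lvl hNN' hcoe (y := (y : m18v_F N)) y.2).1
  compat := fun y => by
    apply Subtype.ext
    rw [hcoek]
    exact (m18sq3_int_lvl hNN' hcoe (y := (y : m18v_F N)) y.2).2

/-- the Gauss valuation ring at a level with the decomposition property. -/
def m18sq3_OV (hdec : m18sq_Dec A N) : ValuationSubring (m18v_F N) where
  carrier := {x | m18v_Int A N x}
  mul_mem' := fun hx hy => m18v_Int_mul hx hy
  one_mem' := m18v_Int_one
  add_mem' := fun hx hy => m18v_Int_add hx hy
  zero_mem' := m18v_Int_zero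
  neg_mem' := fun hx => m18v_Int_neg hx
  mem_or_inv_mem' := fun x => by
    rcases eq_or_ne x 0 with rfl | hx
    · exact Or.inl m18v_Int_zero
    · exact m18sq_Int_or_inv hdec hx

theorem m18sq3_mem_OV (hdec : m18sq_Dec A N) {x : m18v_F N} :
    x ∈ m18sq3_OV hdec ↔ m18v_Int A N x := Iff.rfl

/-- the reduction map on the Gauss valuation ring. -/
def m18sq3_redV (hdec : m18sq_Dec A N) : m18sq3_OV hdec →+* m18v_Ft A N where
  toFun x := m18sq_red hdec (x : m18v_F N)
  map_one' := Subtype.ext m18v_redL_one
  map_mul' x y := Subtype.ext (m18v_redL_mul' x.2 y.2)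
  map_zero' := Subtype.ext m18v_redL_zero
  map_add' x y := Subtype.ext (m18v_redL_add x.2 y.2)

theorem m18sq3_redV_apply (hdec : m18sq_Dec A N) (x : m18sq3_OV hdec) :
    m18sq3_redV hdec x = m18sq_red hdec (x : m18v_F N) := rfl

/-- **the two-level setup** `F_N ⊂ F_{N'}`, both levels with the decomposition property. -/
theorem m18sq3_setup_lvl' (hdec : m18sq_Dec A N) (hNN' : N ∣ N') (hdec' : m18sq_Dec A N')
    [Algebra (m18v_F N) (m18v_F N')] [Algebra (m18v_Ft A N) (m18v_Ft A N')]
    (hcoe : ∀ x : m18v_F N,
      ((algebraMap (m18v_F N) (m18v_F N') x : m18v_F N') : LaurentSeries m18v_K) = x)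
    (hcoek : ∀ x : m18v_Ft A N,
      ((algebraMap (m18v_Ft A N) (m18v_Ft A N') x : m18v_Ft A N') :
        LaurentSeries (m18v_k A)) = x) :
    m18nrm_Setup (m18sq3_OV hdec) (m18sq3_redV hdec) (m18sq3_O A N') (m18sq3_red hdec') where
  ker := fun y hy => by
    by_contra hne
    apply hy
    have hne' : m18v_redL A N (y : m18v_F N) ≠ 0 := fun h0 => hne (Subtype.ext h0)
    have hinv := m18sq_Int_inv_of_red_ne_zero hdec y.2 hne'
    have hy0 : (y : m18v_F N) ≠ 0 := by
      intro h0
      apply hne'
      rw [h0]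
      exact m18v_redL_zero
    refine IsUnit.of_mul_eq_one (⟨(y : m18v_F N)⁻¹, hinv⟩ : m18sq3_OV hdec) ?_
    apply Subtype.ext
    show (y : m18v_F N) * (y : m18v_F N)⁻¹ = 1
    exact mul_inv_cancel₀ hy0
  map_mem := fun y => (m18sq3_int_lvl hNN' hcoe (y := (y : m18v_F N)) y.2).1
  compat := fun y => by
    apply Subtype.ext
    rw [hcoek]
    exact (m18sq3_int_lvl hNN' hcoe (y := (y : m18v_F N)) y.2).2

end lvl

end Fermat.Agent.M18

end
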