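import Fermat.Agent.M18.SqFam
import Fermat.Agent.S24.DegMain
import Fermat.Agent.S24.MGCard

/-!
# M18 / (SQ), part 3: the decomposition `x · w = c · u` at every level `M` prime to `ℓ`,
without the hypothesis `PrincipalGeneratedByIntegral`.

* `m18sq_indep`  : the lifted family is linearly independent over `ℚ̄(j)`;
* `m18sq_nf`     : the normal form `x · Q(j) = c · Σ P_i(j) e_i` with `Q`, `(P_i)` primitive;
* `m18sq_decomp` : every nonzero `x ∈ F_M` is `c · u / w` with `u`, `w` good integral series
                   (the statement of `m18v_decomp`, with `ℓ ∤ M` instead of `hgen`).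
-/

set_option autoImplicit false
set_option synthInstance.maxHeartbeats 400000

noncomputable section

open HahnSeries IntermediateField ModularCurve Polynomial

namespace Fermat.Agent.M18

open Fermat.Agent.M28 Fermat.Agent.S24

variable {A : ValuationSubring m18v_K} {M : ℕ} [NeZero M]

theorem m18sq_coe_s24j : ((s24j M : s24F M) : LaurentSeries m18v_K) = jqModC m18v_K := by
  show coeffEmb s24K jq = _
  exact coeffMap_jqModC _

theorem m18sq_coe_aeval (P : Polynomial m18v_K) :
    ((Polynomial.aeval (s24j M) P : s24F M) : LaurentSeries m18v_K) = m18sq_evL P := by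
  rw [m18sq_evL_apply, ← m18sq_coe_s24j (M := M)]
  exact (Polynomial.aeval_algHom_apply (modularFunctionFieldBar M).val (s24j M) P).symm

theorem m18sq_aeval_ne_zero {P : Polynomial m18v_K} (hP : P ≠ 0) :
    (Polynomial.aeval (s24j M) P : s24F M) ≠ 0 := by
  intro h
  have := congrArg Subtype.val h
  rw [m18sq_coe_aeval] at this
  exact m18sq_evL_ne_zero hP this

/-- clearing denominators in a finite family of elements of `ℚ̄(j)`. -/
theorem m18sq_clear {ι : Type} [Fintype ι] (g : ι → ↥(s24K⟮s24j M⟯)) :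
    ∃ (s : Polynomial m18v_K) (r : ι → Polynomial m18v_K), s ≠ 0 ∧
      ∀ i, (Polynomial.aeval (s24j M) s : s24F M) * (g i : s24F M) =
        Polynomial.aeval (s24j M) (r i) := by
  classical
  suffices h : ∀ S : Finset ι, ∃ (s : Polynomial m18v_K) (r : ι → Polynomial m18v_K), s ≠ 0 ∧
      ∀ i ∈ S, (Polynomial.aeval (s24j M) s : s24F M) * (g i : s24F M) =
        Polynomial.aeval (s24j M) (r i) by
    obtain ⟨s, r, hs, h⟩ := h Finset.univ
    exact ⟨s, r, hs, fun i => h i (Finset.mem_univ i)⟩
  intro S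
  induction S using Finset.induction_on with
  | empty => exact ⟨1, fun _ => 0, one_ne_zero, fun i hi => absurd hi (Finset.notMem_empty i)⟩
  | insert a S ha ih =>
    obtain ⟨s, r, hs, h⟩ := ih
    obtain ⟨ra, sa, hsa, hga⟩ : ∃ ra sa : Polynomial m18v_K, sa ≠ 0 ∧
        (Polynomial.aeval (s24j M) sa : s24F M) * (g a : s24F M) =
          Polynomial.aeval (s24j M) ra := by
      obtain ⟨ra, sa, hq⟩ := (IntermediateField.mem_adjoin_simple_iff s24K (g a : s24F M)).mp
        (g a).2
      by_cases h0 : (Polynomial.aeval (s24j M) sa : s24F M) = 0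
      · refine ⟨0, 1, one_ne_zero, ?_⟩
        rw [hq, h0, div_zero, mul_zero, map_zero]
      · refine ⟨ra, sa, ?_, ?_⟩
        · rintro rfl
          exact h0 (map_zero _)
        · rw [hq, mul_div_cancel₀ _ h0]
    refine ⟨s * sa, fun i => if i = a then ra * s else r i * sa, mul_ne_zero hs hsa, ?_⟩
    intro i hi
    dsimp only
    rcases Finset.mem_insert.mp hi with rfl | hiS
    · rw [if_pos rfl, map_mul, map_mul, mul_comm (Polynomial.aeval (s24j M) s), mul_assoc,
        mul_comm (Polynomial.aeval (s24j M) s), ← mul_assoc, hga]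
    · have hia : i ≠ a := fun h' => ha (h' ▸ hiS)
      rw [if_neg hia, map_mul, map_mul, mul_comm (Polynomial.aeval (s24j M) s), mul_assoc,
        h i hiS, mul_comm]

theorem m18sq_evL_C_mul (c : m18v_K) (P : Polynomial A) :
    m18sq_evL (Polynomial.C c * P.map A.subtype) =
      HahnSeries.single 0 c * m18v_incl A (m18sq_evA A P) := by
  rw [map_mul, m18sq_incl_evA, m18sq_evL_apply, Polynomial.aeval_C,
    ModularCurve.algebraMap_laurentSeries_eq_single]

/-- a polynomial combination with coefficients `C c * P_i` of the family. -/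
theorem m18sq_sum_evL {n : ℕ} (E : Fin n → LaurentSeries A) (c : m18v_K)
    (P' : Fin n → Polynomial A) :
    ∑ i, m18sq_evL (Polynomial.C c * (P' i).map A.subtype) * m18v_incl A (E i) =
      HahnSeries.single 0 c * m18v_incl A (∑ i, m18sq_evA A (P' i) * E i) := by
  rw [map_sum, Finset.mul_sum]
  refine Finset.sum_congr rfl fun i _ => ?_
  rw [m18sq_evL_C_mul, map_mul, mul_assoc]

theorem m18sq_single_mul_eq_zero {c : m18v_K} (hc : c ≠ 0) {X : LaurentSeries m18v_K}
    (h : HahnSeries.single 0 c * X = 0) : X = 0 := by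
  have h1 : (HahnSeries.single 0 c : LaurentSeries m18v_K) ≠ 0 := by
    rw [Ne, HahnSeries.single_eq_zero_iff]
    exact hc
  exact (mul_eq_zero.mp h).resolve_left h1

/-- a polynomial relation between the `e_i` is trivial. -/
theorem m18sq_rel_trivial {n : ℕ} (E : Fin n → LaurentSeries A)
    (hE : LinearIndependent ↥(IntermediateField.adjoin (m18v_k A) {jqModC (m18v_k A)})
      (fun i => m18v_redq A (E i)))
    (P : Fin n → Polynomial m18v_K)
    (h : ∑ i, m18sq_evL (P i) * m18v_incl A (E i) = 0) : ∀ i, P i = 0 := by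
  by_contra hne
  rw [not_forall] at hne
  obtain ⟨c, P', hc, hP', hprim⟩ := m18sq_content A P hne
  have h1 : ∑ i, m18sq_evL (P i) * m18v_incl A (E i) =
      HahnSeries.single 0 c * m18v_incl A (∑ i, m18sq_evA A (P' i) * E i) := by
    rw [← m18sq_sum_evL]
    refine Finset.sum_congr rfl fun i _ => ?_
    rw [← hP' i]
  rw [h1] at h
  have h2 := m18sq_single_mul_eq_zero hc h
  have h3 : (∑ i, m18sq_evA A (P' i) * E i) = 0 :=
    m18v_incl_injective A (h2.trans (map_zero _).symm)
  exact m18sq_key E hE P' hprim (by rw [h3, map_zero])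

/-- the element of `F` attached to a member of the family. -/
def m18sq_e {n : ℕ} (E : Fin n → LaurentSeries A)
    (hEF : ∀ i, m18v_incl A (E i) ∈ modularFunctionFieldBar M) (i : Fin n) : s24F M :=
  ⟨m18v_incl A (E i), hEF i⟩

theorem m18sq_coe_smul (g : ↥(s24K⟮s24j M⟯)) (x : s24F M) :
    g • x = (g : s24F M) * x := rfl

/-- **(IND)** the lifted family is linearly independent over `ℚ̄(j)`. -/
theorem m18sq_indep {n : ℕ} (E : Fin n → LaurentSeries A)
    (hE : LinearIndependent ↥(IntermediateField.adjoin (m18v_k A) {jqModC (m18v_k A)})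
      (fun i => m18v_redq A (E i)))
    (hEF : ∀ i, m18v_incl A (E i) ∈ modularFunctionFieldBar M) :
    LinearIndependent ↥(s24K⟮s24j M⟯) (m18sq_e E hEF) := by
  rw [Fintype.linearIndependent_iff]
  intro g hg
  obtain ⟨s, r, hs, hsr⟩ := m18sq_clear g
  have hrel : ∑ i, m18sq_evL (r i) * m18v_incl A (E i) = 0 := by
    have h1 : (Polynomial.aeval (s24j M) s : s24F M) * ∑ i, g i • m18sq_e E hEF i = 0 := by
      rw [hg, mul_zero]
    rw [Finset.mul_sum] at h1
    have h2 : ((∑ i, (Polynomial.aeval (s24j M) s : s24F M) * g i • m18sq_e E hEF i : s24F M) :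
        LaurentSeries m18v_K) = 0 := by
      rw [h1]; rfl
    rw [AddSubmonoidClass.coe_finsetSum] at h2
    rw [← h2]
    refine Finset.sum_congr rfl fun i _ => ?_
    rw [m18sq_coe_smul, ← mul_assoc, hsr i]
    show _ = ((Polynomial.aeval (s24j M) (r i) : s24F M) : LaurentSeries m18v_K) *
      m18v_incl A (E i)
    rw [m18sq_coe_aeval]
  have hr := m18sq_rel_trivial E hE r hrel
  intro i
  have h3 := hsr i
  rw [hr i, map_zero] at h3
  have h4 := (mul_eq_zero.mp h3).resolve_left (m18sq_aeval_ne_zero hs)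
  exact Subtype.ext h4

/-- **(NF)** the normal form of a nonzero element of `F_M`. -/
theorem m18sq_nf (E : Fin (dedekindPsi M) → LaurentSeries A)
    (hE : LinearIndependent ↥(IntermediateField.adjoin (m18v_k A) {jqModC (m18v_k A)})
      (fun i => m18v_redq A (E i)))
    (hEF : ∀ i, m18v_incl A (E i) ∈ modularFunctionFieldBar M)
    {x : s24F M} (hx : x ≠ 0) :
    ∃ (c : m18v_K) (s' : Polynomial A) (r' : Fin (dedekindPsi M) → Polynomial A), c ≠ 0 ∧
      s'.map (IsLocalRing.residue A) ≠ 0 ∧ (∃ i, (r' i).map (IsLocalRing.residue A) ≠ 0) ∧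
      (x : LaurentSeries m18v_K) * m18v_incl A (m18sq_evA A s') =
        HahnSeries.single 0 c * m18v_incl A (∑ i, m18sq_evA A (r' i) * E i) := by
  have := deg_finiteDimensional M
  have hli := m18sq_indep E hE hEF
  have hcard : Fintype.card (Fin (dedekindPsi M)) = Module.finrank ↥(s24K⟮s24j M⟯) (s24F M) := by
    apply le_antisymm
    · exact hli.fintype_card_le_finrank
    · have h1 := deg_finrank_le M
      have h2 := mg_card M
      rw [Nat.card_eq_fintype_card] at h2
      rw [h2] at h1
      simpa using h1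
  have : Nonempty (Fin (dedekindPsi M)) := by
    rw [← Fintype.card_pos_iff, hcard]
    exact Module.finrank_pos
  set b := basisOfLinearIndependentOfCardEqFinrank hli hcard with hb
  obtain ⟨s, r, hs, hsr⟩ := m18sq_clear (fun i => b.repr x i)
  have hsum : (Polynomial.aeval (s24j M) s : s24F M) * x =
      ∑ i, (Polynomial.aeval (s24j M) (r i) : s24F M) * m18sq_e E hEF i := by
    conv_lhs => rw [← b.sum_repr x]
    rw [Finset.mul_sum]
    refine Finset.sum_congr rfl fun i _ => ?_
    rw [hb, coe_basisOfLinearIndependentOfCardEqFinrank, m18sq_coe_smul, ← mul_assoc, ← hb,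
      hsr i]
  have hsumL : m18sq_evL s * (x : LaurentSeries m18v_K) =
      ∑ i, m18sq_evL (r i) * m18v_incl A (E i) := by
    have h2 := congrArg Subtype.val hsum
    rw [AddSubmonoidClass.coe_finsetSum] at h2
    rw [← m18sq_coe_aeval (M := M)]
    refine h2.trans (Finset.sum_congr rfl fun i _ => ?_)
    show ((Polynomial.aeval (s24j M) (r i) : s24F M) : LaurentSeries m18v_K) *
      m18v_incl A (E i) = _
    rw [m18sq_coe_aeval]
  have hrne : ∃ i, r i ≠ 0 := by
    by_contra hall
    rw [not_exists] at hall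
    have hall : ∀ i, r i = 0 := fun i => not_not.mp (hall i)
    have h0 : m18sq_evL s * (x : LaurentSeries m18v_K) = 0 := by
      rw [hsumL]
      refine Finset.sum_eq_zero fun i _ => ?_
      rw [hall i, map_zero, zero_mul]
    rcases mul_eq_zero.mp h0 with h1 | h1
    · exact m18sq_evL_ne_zero hs h1
    · exact hx (Subtype.ext h1)
  obtain ⟨c, r', hc, hr', hrprim⟩ := m18sq_content A r hrne
  obtain ⟨cs, s', hcs, hs', i0, hsprim⟩ := m18sq_content A (fun _ : Fin 1 => s) ⟨0, hs⟩
  refine ⟨c / cs, s' i0, r', div_ne_zero hc hcs, hsprim, hrprim, ?_⟩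
  have h1 : ∑ i, m18sq_evL (r i) * m18v_incl A (E i) =
      HahnSeries.single 0 c * m18v_incl A (∑ i, m18sq_evA A (r' i) * E i) := by
    rw [← m18sq_sum_evL]
    refine Finset.sum_congr rfl fun i _ => ?_
    rw [← hr' i]
  have h2 : m18sq_evL s = HahnSeries.single 0 cs * m18v_incl A (m18sq_evA A (s' i0)) := by
    rw [← m18sq_evL_C_mul, ← hs' i0]
  rw [h1, h2] at hsumL
  have h3 : (HahnSeries.single 0 (c / cs) : LaurentSeries m18v_K) * HahnSeries.single 0 cs =
      HahnSeries.single 0 c := by
    rw [HahnSeries.single_mul_single, zero_add, div_mul_cancel₀ _ hcs]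
  have hcs1 : (HahnSeries.single 0 cs : LaurentSeries m18v_K) ≠ 0 := by
    rw [Ne, HahnSeries.single_eq_zero_iff]
    exact hcs
  have h4 : HahnSeries.single 0 cs * ((x : LaurentSeries m18v_K) *
      m18v_incl A (m18sq_evA A (s' i0))) =
      HahnSeries.single 0 c * m18v_incl A (∑ i, m18sq_evA A (r' i) * E i) := by
    rw [← hsumL]; ring
  have h5 : HahnSeries.single 0 cs * (HahnSeries.single 0 (c / cs) *
      m18v_incl A (∑ i, m18sq_evA A (r' i) * E i)) =
      HahnSeries.single 0 c * m18v_incl A (∑ i, m18sq_evA A (r' i) * E i) := by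
    rw [← mul_assoc, mul_comm (HahnSeries.single 0 cs), h3]
  exact mul_left_cancel₀ hcs1 (h4.trans h5.symm)

/-- **(SQ-decomposition)** at every level `M` prime to `ℓ`, every nonzero `x ∈ F_M` satisfies
`x · w = c · u` with `c` a nonzero constant and `u, w` good integral `q`-series. -/
theorem m18sq_decomp {ℓ : ℕ} [Fact ℓ.Prime] (hA : A.LiesOverPrime ℓ) (hℓM : ¬ ℓ ∣ M)
    {x : m18v_F M} (hx : x ≠ 0) :
    ∃ (c : m18v_K) (u w : LaurentSeries A) (hu : m18v_G A M u) (hw : m18v_G A M w),
      c ≠ 0 ∧ x * m18v_GF hw = algebraMap m18v_K (m18v_F M) c * m18v_GF hu := by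
  obtain ⟨E, hEF, hEk, hE⟩ := m18sq_family hA M hℓM
  obtain ⟨c, s', r', hc, hs, hr, h⟩ := m18sq_nf E hE hEF hx
  have hw : m18v_G A M (m18sq_evA A s') := by
    refine ⟨?_, ?_, ?_⟩
    · rw [m18sq_incl_evA]
      exact m18sq_evL_mem M _
    · rw [m18sq_redq_evA]
      exact m18sq_evk_mem M _
    · rw [m18sq_redq_evA]
      exact m18sq_evk_ne_zero hs
  have hu : m18v_G A M (∑ i, m18sq_evA A (r' i) * E i) := by
    refine ⟨?_, ?_, m18sq_key E hE r' hr⟩
    · rw [map_sum]
      refine sum_mem fun i _ => ?_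
      rw [map_mul, m18sq_incl_evA]
      exact mul_mem (m18sq_evL_mem M _) (hEF i)
    · rw [map_sum]
      refine sum_mem fun i _ => ?_
      rw [map_mul, m18sq_redq_evA]
      exact mul_mem (m18sq_evk_mem M _) (hEk i)
  refine ⟨c, _, _, hu, hw, hc, ?_⟩
  apply Subtype.ext
  show (x : LaurentSeries m18v_K) * m18v_incl A (m18sq_evA A s') =
    ((algebraMap m18v_K (m18v_F M) c : m18v_F M) : LaurentSeries m18v_K) *
      m18v_incl A (∑ i, m18sq_evA A (r' i) * E i)
  rw [m18v_coe_algebraMap]
  exact h

end Fermat.Agent.M18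

end
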