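import Fermat.Agent.M18.VRed

/-!
# M18 / (V), part 4: consequences of `PrincipalGeneratedByIntegral` for the reduction map:
the integral elements form a valuation ring, `red` takes values in `F~` and is onto.
-/

set_option autoImplicit false
set_option synthInstance.maxHeartbeats 400000

noncomputable section

open HahnSeries IntermediateField AlgebraicCurve ModularCurve

namespace Fermat.Agent.M18

variable {A : ValuationSubring m18v_K} {N : ℕ}

/-- the generators `j(q^d)`, `d ∣ N`, are good integral series. -/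
theorem m18v_G_jd (A : ValuationSubring m18v_K) (N : ℕ) (d : ℕ) [NeZero d] (hd : d ∣ N) :
    m18v_G A N (jqNModC A d) := by
  refine ⟨?_, ?_, ?_⟩
  · show coeffMap A.subtype (jqNModC A d) ∈ _
    rw [coeffMap_jqNModC]
    have h1 : jqNModC ℚ d ∈ modularFunctionFieldFull N := by
      have := jqModCd_mem_full ℚ N hd
      exact this
    have h2 := coeffEmb_mem_laurentBaseChange m18v_K h1
    have h3 : coeffEmb m18v_K (jqNModC ℚ d) = jqNModC m18v_K d := by
      show coeffMap (algebraMap ℚ m18v_K) (jqNModC ℚ d) = _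
      rw [coeffMap_jqNModC]
    rw [h3] at h2
    exact h2
  · show coeffMap (IsLocalRing.residue A) (jqNModC A d) ∈ _
    rw [coeffMap_jqNModC]
    exact jqModCd_mem_full (m18v_k A) N hd
  · show coeffMap (IsLocalRing.residue A) (jqNModC A d) ≠ 0
    rw [coeffMap_jqNModC]
    show qExpand (m18v_k A) d (jqModC (m18v_k A)) ≠ 0
    rw [Ne, map_eq_zero_iff _ (qExpand (m18v_k A) d).injective]
    exact jqModC_ne_zero_of_nontrivial _

theorem m18v_single_mem_Ft (a : m18v_k A) :
    (HahnSeries.single 0 a : LaurentSeries (m18v_k A)) ∈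
      modularFunctionFieldFullC (m18v_k A) N := by
  rw [← ModularCurve.algebraMap_laurentSeries_eq_single]
  exact IntermediateField.algebraMap_mem _ a

/-- **(d1)** a primitive integral `q`-series lying in `F` is good: its reduction lies in `F~`. -/
theorem m18v_G_of_primitive [NeZero N]
    (hgen : PrincipalGeneratedByIntegral A (IsLocalRing.residue A) N)
    {X : LaurentSeries A} (hX : m18v_incl A X ∈ ModularCurve.modularFunctionFieldBar N)
    (hred : m18v_redq A X ≠ 0) : m18v_G A N X := by
  refine ⟨hX, ?_, hred⟩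
  have hx0 : (⟨m18v_incl A X, hX⟩ : m18v_F N) ≠ 0 := by
    intro h
    have h' : m18v_incl A X = 0 := congrArg Subtype.val h
    apply hred
    rw [m18v_incl_injective A (h'.trans (map_zero _).symm), map_zero]
  obtain ⟨c, U, W, hU, hW, hc, h⟩ := m18v_decomp hgen hx0
  have h' : m18v_incl A (X * W) = HahnSeries.single 0 c * m18v_incl A U := by
    have := congrArg Subtype.val h
    rw [map_mul]
    rw [← m18v_coe_algebraMap (N := N)]
    exact this
  have hXW : m18v_redq A (X * W) ≠ 0 := by
    rw [map_mul]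
    exact mul_ne_zero hred hW.2.2
  obtain ⟨hcA, -, hr⟩ := m18v_unit_of_smul hU.2.2 hXW h'
  rw [map_mul] at hr
  have : m18v_redq A X =
      HahnSeries.single 0 (IsLocalRing.residue A ⟨c, hcA⟩) * m18v_redq A U / m18v_redq A W := by
    rw [eq_div_iff hW.2.2, hr]
  rw [this]
  exact div_mem (mul_mem (m18v_single_mem_Ft _) hU.2.1) hW.2.1

/-- the reduction takes values in `F~`. -/
theorem m18v_redL_mem [NeZero N]
    (hgen : PrincipalGeneratedByIntegral A (IsLocalRing.residue A) N) (x : m18v_F N) :
    m18v_redL A N x ∈ modularFunctionFieldFullC (m18v_k A) N := by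
  by_cases hI : m18v_Int A N x
  · obtain ⟨X, w, hw, h⟩ := hI
    rw [m18v_redL_eq_div hw h]
    by_cases hX : m18v_redq A X = 0
    · rw [hX, zero_div]; exact zero_mem _
    · have hXF : m18v_incl A X ∈ ModularCurve.modularFunctionFieldBar N := by
        rw [← h]
        exact mul_mem x.2 hw.1
      exact div_mem (m18v_G_of_primitive hgen hXF hX).2.1 hw.2.1
  · rw [m18v_redL_of_not hI]; exact zero_mem _

/-- the reduction map, with values in `F~`. -/
def m18v_red [NeZero N] (hgen : PrincipalGeneratedByIntegral A (IsLocalRing.residue A) N)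
    (x : m18v_F N) : m18v_Ft A N :=
  ⟨m18v_redL A N x, m18v_redL_mem hgen x⟩

@[simp]
theorem m18v_coe_red [NeZero N]
    (hgen : PrincipalGeneratedByIntegral A (IsLocalRing.residue A) N) (x : m18v_F N) :
    ((m18v_red hgen x : m18v_Ft A N) : LaurentSeries (m18v_k A)) = m18v_redL A N x := rfl

/-- the integral elements form a valuation ring. -/
theorem m18v_Int_or_inv [NeZero N]
    (hgen : PrincipalGeneratedByIntegral A (IsLocalRing.residue A) N) {x : m18v_F N}
    (hx : x ≠ 0) : m18v_Int A N x ∨ m18v_Int A N x⁻¹ := by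
  obtain ⟨c, u, w, hu, hw, hc, h⟩ := m18v_decomp hgen hx
  have h' : (x : LaurentSeries m18v_K) * m18v_incl A w =
      HahnSeries.single 0 c * m18v_incl A u := by
    have := congrArg Subtype.val h
    rw [← m18v_coe_algebraMap (N := N)]
    exact this
  rcases A.mem_or_inv_mem c with hcA | hcA
  · left
    refine ⟨HahnSeries.single 0 (⟨c, hcA⟩ : A) * u, w, hw, ?_⟩
    rw [h', map_mul, m18v_incl_single]
  · right
    refine ⟨HahnSeries.single 0 (⟨c⁻¹, hcA⟩ : A) * w, u, hu, ?_⟩
    rw [map_mul, m18v_incl_single]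
    have hx' : (x : LaurentSeries m18v_K) ≠ 0 := fun h0 => hx (Subtype.ext h0)
    have hinv : ((x⁻¹ : m18v_F N) : LaurentSeries m18v_K) = (x : LaurentSeries m18v_K)⁻¹ := rfl
    rw [hinv]
    have hcc : (HahnSeries.single 0 c⁻¹ : LaurentSeries m18v_K) * HahnSeries.single 0 c = 1 := by
      rw [HahnSeries.single_mul_single, zero_add, inv_mul_cancel₀ hc]
      rfl
    calc (x : LaurentSeries m18v_K)⁻¹ * m18v_incl A u
        = (x : LaurentSeries m18v_K)⁻¹ *
            ((HahnSeries.single 0 c⁻¹ * HahnSeries.single 0 c) * m18v_incl A u) := by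
          rw [hcc, one_mul]
      _ = (x : LaurentSeries m18v_K)⁻¹ *
            (HahnSeries.single 0 c⁻¹ * ((x : LaurentSeries m18v_K) * m18v_incl A w)) := by
          rw [h', mul_assoc]
      _ = HahnSeries.single 0 c⁻¹ * m18v_incl A w := by
          field_simp

/-- an integral element with nonzero reduction is a unit of the valuation ring. -/
theorem m18v_Int_inv_of_red_ne_zero [NeZero N]
    (hgen : PrincipalGeneratedByIntegral A (IsLocalRing.residue A) N) {x : m18v_F N}
    (hI : m18v_Int A N x) (hred : m18v_redL A N x ≠ 0) : m18v_Int A N x⁻¹ := by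
  obtain ⟨X, w, hw, h⟩ := hI
  have hXred : m18v_redq A X ≠ 0 := by
    rw [← m18v_redL_mul hw h]
    exact mul_ne_zero hred hw.2.2
  have hXF : m18v_incl A X ∈ ModularCurve.modularFunctionFieldBar N := by
    rw [← h]
    exact mul_mem x.2 hw.1
  have hXG := m18v_G_of_primitive hgen hXF hXred
  refine ⟨w, X, hXG, ?_⟩
  have hx' : (x : LaurentSeries m18v_K) ≠ 0 := by
    intro h0
    rw [h0, zero_mul] at h
    exact m18v_G_incl_ne_zero hXG h.symm
  have hinv : ((x⁻¹ : m18v_F N) : LaurentSeries m18v_K) = (x : LaurentSeries m18v_K)⁻¹ := rfl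
  rw [hinv, ← h]
  field_simp

theorem m18v_redL_inv [NeZero N]
    (hgen : PrincipalGeneratedByIntegral A (IsLocalRing.residue A) N) {x : m18v_F N}
    (hI : m18v_Int A N x) (hred : m18v_redL A N x ≠ 0) :
    m18v_redL A N x⁻¹ = (m18v_redL A N x)⁻¹ := by
  have hI' := m18v_Int_inv_of_red_ne_zero hgen hI hred
  have hx : x ≠ 0 := by
    rintro rfl
    exact hred m18v_redL_zero
  have h := m18v_redL_mul' hI hI'
  rw [mul_inv_cancel₀ hx, m18v_redL_one] at h
  exact eq_inv_of_mul_eq_one_right h.symm

/-- an integral element with zero reduction is not a unit. -/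
theorem m18v_not_Int_inv_of_red_eq_zero {x : m18v_F N} (hx : x ≠ 0)
    (hI : m18v_Int A N x) (hred : m18v_redL A N x = 0) : ¬ m18v_Int A N x⁻¹ := by
  intro hI'
  have h := m18v_redL_mul' hI hI'
  rw [mul_inv_cancel₀ hx, m18v_redL_one, hred, zero_mul] at h
  exact one_ne_zero h

/-- **(V-onto)** the reduction map is onto `F~`. -/
theorem m18v_redL_surjective [NeZero N]
    (hgen : PrincipalGeneratedByIntegral A (IsLocalRing.residue A) N)
    {y : LaurentSeries (m18v_k A)} (hy : y ∈ modularFunctionFieldFullC (m18v_k A) N) :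
    ∃ x : m18v_F N, m18v_Int A N x ∧ m18v_redL A N x = y := by
  induction hy using IntermediateField.adjoin_induction with
  | mem z hz =>
    obtain ⟨d, hd, hdN, rfl⟩ := hz
    have := hd
    have hG := m18v_G_jd A N d hdN
    refine ⟨m18v_GF hG, m18v_Int_GF hG, ?_⟩
    rw [m18v_redL_GF]
    show coeffMap (IsLocalRing.residue A) (jqNModC A d) = _
    rw [coeffMap_jqNModC]
    rfl
  | algebraMap a =>
    obtain ⟨b, rfl⟩ := IsLocalRing.residue_surjective (R := A) a
    refine ⟨algebraMap m18v_K (m18v_F N) (b : m18v_K), m18v_Int_const b, ?_⟩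
    rw [m18v_redL_const, ModularCurve.algebraMap_laurentSeries_eq_single]
  | add y z _ _ hy hz =>
    obtain ⟨x, hx, rfl⟩ := hy
    obtain ⟨x', hx', rfl⟩ := hz
    exact ⟨x + x', m18v_Int_add hx hx', m18v_redL_add hx hx'⟩
  | inv y _ hy =>
    obtain ⟨x, hx, rfl⟩ := hy
    by_cases h0 : m18v_redL A N x = 0
    · refine ⟨0, m18v_Int_zero, ?_⟩
      rw [h0, inv_zero, m18v_redL_zero]
    · exact ⟨x⁻¹, m18v_Int_inv_of_red_ne_zero hgen hx h0, m18v_redL_inv hgen hx h0⟩
  | mul y z _ _ hy hz =>
    obtain ⟨x, hx, rfl⟩ := hy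
    obtain ⟨x', hx', rfl⟩ := hz
    exact ⟨x * x', m18v_Int_mul hx hx', m18v_redL_mul' hx hx'⟩

theorem m18v_red_surjective [NeZero N]
    (hgen : PrincipalGeneratedByIntegral A (IsLocalRing.residue A) N) (y : m18v_Ft A N) :
    ∃ x : m18v_F N, m18v_Int A N x ∧ m18v_red hgen x = y := by
  obtain ⟨x, hx, h⟩ := m18v_redL_surjective hgen y.2
  exact ⟨x, hx, Subtype.ext h⟩

end Fermat.Agent.M18

end
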