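import Fermat.Agent.M18.SqFld
import Fermat.Agent.M18.VRed2
import Fermat.Agent.M28.BmMain

/-!
# M18 / (SQ), part 2: the integral family with independent reductions (from M28) and the
content of polynomials over a valuation ring.

* `m18sq_lift_adjoin` : polynomial expressions in the `j̃_d` lift to integral `q`-series in `F`;
* `m18sq_family`      : `ψ(M)` integral `q`-series in `F_M` whose reductions are independent
                        over `k(j̃)` (valid for every level `M` prime to `ℓ`);
* `m18sq_content`     : a finite family of polynomials over `ℚ̄`, not all zero, is a constant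
                        times a family of polynomials over `A`, one of which is primitive;
* `m18sq_key`         : an `A[j]`-combination of the family with one primitive coefficient has
                        nonzero reduction.
-/

set_option autoImplicit false

noncomputable section

open HahnSeries IntermediateField ModularCurve Polynomial

namespace Fermat.Agent.M18

open Fermat.Agent.M28

variable {A : ValuationSubring m18v_K}

/-- the evaluation of integral polynomials at `j`. -/
abbrev m18sq_evA (A : ValuationSubring m18v_K) : Polynomial A →+* LaurentSeries A :=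
  m28_ev (jqModC A)

/-- the evaluation of polynomials at `j`. -/
abbrev m18sq_evL : Polynomial m18v_K →+* LaurentSeries m18v_K :=
  m28_ev (jqModC m18v_K)

/-- the evaluation of polynomials at `j̃`. -/
abbrev m18sq_evk (A : ValuationSubring m18v_K) : Polynomial (m18v_k A) →+* LaurentSeries (m18v_k A) :=
  m28_ev (jqModC (m18v_k A))

theorem m18sq_incl_evA (P : Polynomial A) :
    m18v_incl A (m18sq_evA A P) = m18sq_evL (P.map A.subtype) := by
  have h := congrArg (fun φ => φ P) (m28k_coeffMap_comp_ev A.subtype (jqModC A))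
  simp only [RingHom.comp_apply, Polynomial.coe_mapRingHom] at h
  rw [coeffMap_jqModC] at h
  exact h

theorem m18sq_redq_evA (P : Polynomial A) :
    m18v_redq A (m18sq_evA A P) = m18sq_evk A (P.map (IsLocalRing.residue A)) := by
  have h := congrArg (fun φ => φ P) (m28k_coeffMap_comp_ev (IsLocalRing.residue A) (jqModC A))
  simp only [RingHom.comp_apply, Polynomial.coe_mapRingHom] at h
  rw [coeffMap_jqModC] at h
  exact h

theorem m18sq_evL_apply (P : Polynomial m18v_K) :
    m18sq_evL P = Polynomial.aeval (jqModC m18v_K) P := rfl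

theorem m18sq_evk_apply (P : Polynomial (m18v_k A)) :
    m18sq_evk A P = Polynomial.aeval (jqModC (m18v_k A)) P := rfl

theorem m18sq_evk_ne_zero {P : Polynomial (m18v_k A)} (hP : P ≠ 0) : m18sq_evk A P ≠ 0 := by
  intro h
  have htr : Transcendental (m18v_k A) (jqModC (m18v_k A)) :=
    P2MW.S_ModularCurve_coeff_jqModC_neg_one.ModularCurve.CharLRows.transcendental_jqModC _
  exact hP (transcendental_iff.mp htr P h)

theorem m18sq_evL_ne_zero {P : Polynomial m18v_K} (hP : P ≠ 0) : m18sq_evL P ≠ 0 := by
  intro h
  have htr : Transcendental m18v_K (jqModC m18v_K) :=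
    P2MW.S_ModularCurve_coeff_jqModC_neg_one.ModularCurve.CharLRows.transcendental_jqModC _
  exact hP (transcendental_iff.mp htr P h)

theorem m18sq_jqModC_mem_bar (M : ℕ) [NeZero M] :
    jqModC m18v_K ∈ modularFunctionFieldBar M := by
  have h1 : jqModC ℚ ∈ modularFunctionFieldFull M := jqModC_mem_full ℚ M
  have h2 := coeffEmb_mem_laurentBaseChange m18v_K h1
  have h3 : coeffEmb m18v_K (jqModC ℚ) = jqModC m18v_K := coeffMap_jqModC _
  rwa [h3] at h2

theorem m18sq_evL_mem (M : ℕ) [NeZero M] (P : Polynomial m18v_K) :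
    m18sq_evL P ∈ modularFunctionFieldBar M := by
  rw [m18sq_evL_apply]
  induction P using Polynomial.induction_on' with
  | add p q hp hq => rw [map_add]; exact add_mem hp hq
  | monomial n a =>
    rw [Polynomial.aeval_monomial]
    exact mul_mem (IntermediateField.algebraMap_mem _ a)
      (pow_mem (m18sq_jqModC_mem_bar M) n)

theorem m18sq_evk_mem (M : ℕ) [NeZero M] (P : Polynomial (m18v_k A)) :
    m18sq_evk A P ∈ modularFunctionFieldFullC (m18v_k A) M := by
  rw [m18sq_evk_apply]
  induction P using Polynomial.induction_on' with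
  | add p q hp hq => rw [map_add]; exact add_mem hp hq
  | monomial n a =>
    rw [Polynomial.aeval_monomial]
    exact mul_mem (IntermediateField.algebraMap_mem _ a)
      (pow_mem (jqModC_mem_full (m18v_k A) M) n)

theorem m18sq_evk_mem_simple (P : Polynomial (m18v_k A)) :
    m18sq_evk A P ∈ IntermediateField.adjoin (m18v_k A) {jqModC (m18v_k A)} := by
  rw [m18sq_evk_apply]
  induction P using Polynomial.induction_on' with
  | add p q hp hq => rw [map_add]; exact add_mem hp hq
  | monomial n a =>
    rw [Polynomial.aeval_monomial]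
    exact mul_mem (IntermediateField.algebraMap_mem _ a)
      (pow_mem (IntermediateField.mem_adjoin_simple_self _ _) n)

/-- polynomial expressions in the `j̃_d` lift to integral `q`-series lying in `F`. -/
theorem m18sq_lift_adjoin (M : ℕ) [NeZero M] {v : LaurentSeries (m18v_k A)}
    (hv : v ∈ Algebra.adjoin (m18v_k A) (divisorExpansionsC (m18v_k A) M)) :
    ∃ E : LaurentSeries A, m18v_incl A E ∈ modularFunctionFieldBar M ∧ m18v_redq A E = v := by
  induction hv using Algebra.adjoin_induction with
  | mem x hx =>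
    obtain ⟨d, hd, hdM, rfl⟩ := hx
    have := hd
    refine ⟨jqNModC A d, (m18v_G_jd A M d hdM).1, ?_⟩
    show coeffMap (IsLocalRing.residue A) (jqNModC A d) = _
    rw [coeffMap_jqNModC]
    rfl
  | algebraMap c =>
    obtain ⟨a, rfl⟩ := IsLocalRing.residue_surjective (R := A) c
    refine ⟨HahnSeries.single 0 a, ?_, ?_⟩
    · rw [m18v_incl_single, ← ModularCurve.algebraMap_laurentSeries_eq_single]
      exact IntermediateField.algebraMap_mem _ _
    · rw [m18v_redq_single, ModularCurve.algebraMap_laurentSeries_eq_single]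
  | add x y _ _ hx hy =>
    obtain ⟨E, hE, rfl⟩ := hx
    obtain ⟨E', hE', rfl⟩ := hy
    exact ⟨E + E', by rw [map_add]; exact add_mem hE hE', map_add _ _ _⟩
  | mul x y _ _ hx hy =>
    obtain ⟨E, hE, rfl⟩ := hx
    obtain ⟨E', hE', rfl⟩ := hy
    exact ⟨E * E', by rw [map_mul]; exact mul_mem hE hE', map_mul _ _ _⟩

/-- **(SQ-family)** for every level `M` prime to `ℓ` there are `ψ(M)` integral `q`-series in
`F_M` whose reductions lie in `F~_M` and are linearly independent over `k(j̃)`. -/
theorem m18sq_family {ℓ : ℕ} [Fact ℓ.Prime] (hA : A.LiesOverPrime ℓ) (M : ℕ) [NeZero M]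
    (hℓM : ¬ ℓ ∣ M) :
    ∃ E : Fin (dedekindPsi M) → LaurentSeries A,
      (∀ i, m18v_incl A (E i) ∈ modularFunctionFieldBar M) ∧
      (∀ i, m18v_redq A (E i) ∈ modularFunctionFieldFullC (m18v_k A) M) ∧
      LinearIndependent ↥(IntermediateField.adjoin (m18v_k A) {jqModC (m18v_k A)})
        (fun i => m18v_redq A (E i)) := by
  have := m18sq_isAlgClosed A
  have := m18sq_charP hA
  have hPk : ∀ (p : ℕ) [NeZero p], p.Prime → p ∣ M → Nonempty (M28PrimeData (m18v_k A) p) :=
    fun p _ hp _ => m18sq_primeData A p (m28p_primeData p hp)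
  obtain ⟨v, hv, hli⟩ := m28di_tower_of m28b_tower_main (m18v_k A) ℓ M hℓM hPk
  have hex : ∀ i, ∃ E : LaurentSeries A,
      m18v_incl A E ∈ modularFunctionFieldBar M ∧ m18v_redq A E = v i :=
    fun i => m18sq_lift_adjoin M (hv i)
  choose E hE hE' using hex
  refine ⟨E, hE, fun i => ?_, ?_⟩
  · rw [hE' i]
    exact Algebra.adjoin_le (S := (modularFunctionFieldFullC (m18v_k A) M).toSubalgebra)
      (fun x hx => IntermediateField.subset_adjoin _ _ hx) (hv i)
  · have : (fun i => m18v_redq A (E i)) = v := funext hE'
    rw [this]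
    exact hli

/-- **(content)** a finite family of polynomials over `ℚ̄`, not all zero, is a nonzero constant
times a family of polynomials over `A` one of which has nonzero reduction. -/
theorem m18sq_content (A : ValuationSubring m18v_K) {ι : Type} [Fintype ι]
    (P : ι → Polynomial m18v_K) (hP : ∃ i, P i ≠ 0) :
    ∃ (c : m18v_K) (P' : ι → Polynomial A), c ≠ 0 ∧
      (∀ i, P i = Polynomial.C c * (P' i).map A.subtype) ∧
      ∃ i, (P' i).map (IsLocalRing.residue A) ≠ 0 := by
  classical
  set T : Finset (Σ _ : ι, ℕ) := Finset.univ.sigma (fun i => (P i).support) with hT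
  have hTne : T.Nonempty := by
    obtain ⟨i, hi⟩ := hP
    obtain ⟨n, hn⟩ := Polynomial.support_nonempty.mpr hi
    exact ⟨⟨i, n⟩, by simp [hT, Polynomial.mem_support_iff.mp hn]⟩
  obtain ⟨t₀, ht₀, hmax⟩ := Finset.exists_max_image T
    (fun t => A.valuation ((P t.1).coeff t.2)) hTne
  set c := (P t₀.1).coeff t₀.2 with hc
  have hc0 : c ≠ 0 := by
    have : t₀.2 ∈ (P t₀.1).support := by
      simpa [hT] using ht₀
    exact Polynomial.mem_support_iff.mp this
  have hmem : ∀ i n, c⁻¹ * (P i).coeff n ∈ A := by
    intro i n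
    by_cases h0 : (P i).coeff n = 0
    · rw [h0, mul_zero]; exact A.zero_mem
    · have hin : (⟨i, n⟩ : Σ _ : ι, ℕ) ∈ T := by
        simp [hT, h0]
      have hle := hmax ⟨i, n⟩ hin
      rw [← A.valuation_le_one_iff, map_mul, map_inv₀]
      have hvc : A.valuation c ≠ 0 := (Valuation.ne_zero_iff _).mpr hc0
      rw [inv_mul_le_iff₀ (zero_lt_iff.mpr hvc), mul_one]
      exact hle
  have hlift : ∀ i, Polynomial.C c⁻¹ * P i ∈ Polynomial.lifts A.subtype := by
    intro i
    rw [Polynomial.lifts_iff_coeff_lifts]
    intro n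
    rw [Polynomial.coeff_C_mul]
    exact ⟨⟨_, hmem i n⟩, rfl⟩
  choose P' hP' using fun i => (Polynomial.mem_lifts _).mp (hlift i)
  refine ⟨c, P', hc0, fun i => ?_, t₀.1, ?_⟩
  · rw [hP' i, ← mul_assoc, ← Polynomial.C_mul, mul_inv_cancel₀ hc0, Polynomial.C_1, one_mul]
  · intro h
    have h1 := congrArg (fun p => p.coeff t₀.2) h
    simp only [Polynomial.coeff_map, Polynomial.coeff_zero] at h1
    have h2 : ((P' t₀.1).coeff t₀.2 : m18v_K) = 1 := by
      have := congrArg (fun p => p.coeff t₀.2) (hP' t₀.1)
      simp only [Polynomial.coeff_map, Polynomial.coeff_C_mul] at this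
      rw [← hc, inv_mul_cancel₀ hc0] at this
      exact this
    have h3 : (P' t₀.1).coeff t₀.2 = 1 := Subtype.ext h2
    rw [h3, map_one] at h1
    exact one_ne_zero h1

/-- **(KEY)** an `A[j]`-combination of a family with `k(j̃)`-independent reductions, with one
primitive coefficient, has nonzero reduction. -/
theorem m18sq_key {n : ℕ} (E : Fin n → LaurentSeries A)
    (hE : LinearIndependent ↥(IntermediateField.adjoin (m18v_k A) {jqModC (m18v_k A)})
      (fun i => m18v_redq A (E i)))
    (P' : Fin n → Polynomial A) (h : ∃ i, (P' i).map (IsLocalRing.residue A) ≠ 0) :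
    m18v_redq A (∑ i, m18sq_evA A (P' i) * E i) ≠ 0 := by
  intro h0
  rw [map_sum] at h0
  have h1 : ∑ i, (⟨m18sq_evk A ((P' i).map (IsLocalRing.residue A)), m18sq_evk_mem_simple _⟩ :
      ↥(IntermediateField.adjoin (m18v_k A) {jqModC (m18v_k A)})) • m18v_redq A (E i) = 0 := by
    rw [← h0]
    refine Finset.sum_congr rfl fun i _ => ?_
    rw [map_mul, m18sq_redq_evA]
    rfl
  have h2 := (Fintype.linearIndependent_iff.mp hE) _ h1
  obtain ⟨i, hi⟩ := h
  have h3 := congrArg Subtype.val (h2 i)
  exact m18sq_evk_ne_zero hi h3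

end Fermat.Agent.M18

end
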