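import Fermat.Agent.M18.VDefs
import Fermat.Agent.M28.KMap

/-!
# M18 / (SQ), part 1: the residue field of a valuation ring of `ℚ̄` over `ℓ`

* `m18sq_mem_of_isIntegral` : algebraic integers lie in every valuation ring of `ℚ̄`;
* `m18sq_charP`             : the residue field has characteristic `ℓ`;
* `m18sq_isAlgClosed`       : the residue field is algebraically closed;
* `m18sq_zbarHom`           : a ring homomorphism from the algebraic integers of `ℂ` to the
                              residue field;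
* `m18sq_primeData`         : the prime-level package of M28 over the residue field.
-/

set_option autoImplicit false

noncomputable section

open HahnSeries IntermediateField ModularCurve Polynomial

namespace Fermat.Agent.M18

open Fermat.Agent.M28

variable (A : ValuationSubring m18v_K)

/-- an element of `ℚ̄` integral over `A` lies in `A`. -/
theorem m18sq_mem_of_isIntegral' {x : m18v_K} (hx : IsIntegral A x) : x ∈ A := by
  obtain ⟨y, hy⟩ := (IsIntegrallyClosed.isIntegral_iff (R := A) (K := m18v_K)).mp hx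
  rw [← hy]
  exact y.2

/-- algebraic integers lie in every valuation ring of `ℚ̄`. -/
theorem m18sq_mem_of_isIntegral {x : m18v_K} (hx : IsIntegral ℤ x) : x ∈ A :=
  m18sq_mem_of_isIntegral' A hx.tower_top

/-- the residue field is algebraically closed. -/
theorem m18sq_isAlgClosed : IsAlgClosed (m18v_k A) := by
  refine IsAlgClosed.of_exists_root _ fun p hp hirr => ?_
  obtain ⟨P, hPmap, hPdeg, hPmonic⟩ :=
    Polynomial.lifts_and_degree_eq_and_monic
      ((Polynomial.mem_lifts p).mpr
        (Polynomial.map_surjective _ (IsLocalRing.residue_surjective (R := A)) p)) hp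
  have hdeg : (P.map (algebraMap A m18v_K)).degree ≠ 0 := by
    rw [Polynomial.degree_map_eq_of_injective (FaithfulSMul.algebraMap_injective A m18v_K),
      hPdeg]
    exact (Polynomial.degree_pos_of_irreducible hirr).ne'
  obtain ⟨z, hz⟩ := IsAlgClosed.exists_root _ hdeg
  have hzmem : z ∈ A := by
    refine m18sq_mem_of_isIntegral' A ⟨P, hPmonic, ?_⟩
    rwa [← Polynomial.eval_map]
  refine ⟨IsLocalRing.residue A ⟨z, hzmem⟩, ?_⟩
  have hz' : P.eval (⟨z, hzmem⟩ : A) = 0 := by
    apply FaithfulSMul.algebraMap_injective A m18v_K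
    rw [map_zero, ← Polynomial.eval₂_hom, ← Polynomial.eval_map]
    exact hz
  rw [← hPmap, Polynomial.eval_map, Polynomial.eval₂_hom, hz', map_zero]

variable {A}

theorem m18sq_natCast_eq_zero {ℓ : ℕ} (hA : A.LiesOverPrime ℓ) : ((ℓ : ℕ) : m18v_k A) = 0 := by
  obtain ⟨ha, hmem⟩ := ValuationSubring.mem_nonunits_iff_exists_mem_maximalIdeal.mp hA
  have h1 : (⟨((ℓ : ℕ) : m18v_K), ha⟩ : A) = ((ℓ : ℕ) : A) := by
    apply Subtype.ext
    simp
  rw [h1] at hmem
  rw [← map_natCast (IsLocalRing.residue A)]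
  exact (IsLocalRing.residue_eq_zero_iff _).mpr hmem

/-- the residue field has characteristic `ℓ`. -/
theorem m18sq_charP {ℓ : ℕ} [hℓ : Fact ℓ.Prime] (hA : A.LiesOverPrime ℓ) :
    CharP (m18v_k A) ℓ := by
  obtain ⟨c, hc⟩ := CharP.exists (m18v_k A)
  have hdvd : c ∣ ℓ := (CharP.cast_eq_zero_iff (m18v_k A) c ℓ).mp (m18sq_natCast_eq_zero hA)
  rcases (Nat.dvd_prime hℓ.out).mp hdvd with h1 | h1
  · exact absurd h1 (CharP.char_ne_one (m18v_k A) c)
  · rwa [h1] at hc

variable (A)

theorem m18sq_isAlgClosure_any {K : Type} [Field K] [CharZero K] (a b : Algebra ℚ K)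
    (t : @Module.IsTorsionFree ℚ K _ _ a.toModule)
    (t' : @Module.IsTorsionFree ℚ K _ _ b.toModule)
    (h : @IsAlgClosure ℚ K _ _ a t) : @IsAlgClosure ℚ K _ _ b t' := by
  obtain rfl : a = b := Subsingleton.elim _ _
  exact h

theorem m18sq_isAlgClosure : IsAlgClosure ℚ m18v_K :=
  m18sq_isAlgClosure_any _ _ _ _ (AlgebraicClosure.instIsAlgClosure ℚ)

/-- the field of algebraic numbers inside `ℂ` is isomorphic to `ℚ̄`. -/
def m18sq_algEquiv : ↥(algebraicClosure ℚ ℂ) ≃ₐ[ℚ] m18v_K :=
  haveI : IsAlgClosure ℚ ↥(algebraicClosure ℚ ℂ) :=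
    m18sq_isAlgClosure_any _ _ _ _ (algebraicClosure.isAlgClosure ℚ ℂ)
  haveI := m18sq_isAlgClosure
  IsAlgClosure.equiv ℚ (↥(algebraicClosure ℚ ℂ)) m18v_K

theorem m18sq_zbar_mem (z : m28Zbar) : (z : ℂ) ∈ algebraicClosure ℚ ℂ := by
  rw [mem_algebraicClosure_iff]
  exact (z.2 : IsIntegral ℤ (z : ℂ)).tower_top.isAlgebraic

/-- the inclusion of the algebraic integers into the algebraic numbers. -/
def m18sq_zbarIncl : m28Zbar →+* ↥(algebraicClosure ℚ ℂ) where
  toFun z := ⟨(z : ℂ), m18sq_zbar_mem z⟩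
  map_one' := rfl
  map_mul' _ _ := rfl
  map_zero' := rfl
  map_add' _ _ := rfl

theorem m18sq_zbar_isIntegral (z : m28Zbar) :
    IsIntegral ℤ (m18sq_algEquiv (m18sq_zbarIncl z)) := by
  have h1 : IsIntegral ℤ (m18sq_zbarIncl z) := by
    have h2 : IsIntegral ℤ (z : ℂ) := z.2
    have h3 : (algebraMap ↥(algebraicClosure ℚ ℂ) ℂ) (m18sq_zbarIncl z) = (z : ℂ) := rfl
    rw [← h3] at h2
    exact (isIntegral_algebraMap_iff
      (FaithfulSMul.algebraMap_injective ↥(algebraicClosure ℚ ℂ) ℂ)).mp h2
  exact h1.map (m18sq_algEquiv.toAlgHom.restrictScalars ℤ)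

/-- a ring homomorphism from the algebraic integers of `ℂ` to `A`. -/
def m18sq_zbarToA : m28Zbar →+* A where
  toFun z := ⟨m18sq_algEquiv (m18sq_zbarIncl z), m18sq_mem_of_isIntegral A (m18sq_zbar_isIntegral z)⟩
  map_one' := by
    apply Subtype.ext
    simp
  map_mul' x y := by
    apply Subtype.ext
    simp
  map_zero' := by
    apply Subtype.ext
    simp
  map_add' x y := by
    apply Subtype.ext
    simp

/-- a ring homomorphism from the algebraic integers of `ℂ` to the residue field. -/
def m18sq_zbarHom : m28Zbar →+* m18v_k A :=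
  (IsLocalRing.residue A).comp (m18sq_zbarToA A)

/-- the prime-level package of M28 over the residue field. -/
theorem m18sq_primeData (p : ℕ) [NeZero p]
    (h : Nonempty (M28PrimeData m28Zbar p)) : Nonempty (M28PrimeData (m18v_k A) p) :=
  h.map (m28k_map (m18sq_zbarHom A) p)

end Fermat.Agent.M18

end
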