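import Fermat.Agent.M18.SqLat2

/-!
# M18 / (SQ3), half 1: the Gauss side

* `m18sq_OG hdec` : the Gauss valuation ring of `ℚ̄(j)` (elements of `ℚ̄(j)` which are
  Gauss-integral in `F_M`);
* `m18sq_Int_mem_span` : the Gauss ring of `F_M` is spanned over `O_G` by the family `e_i`;
* `m18sq_minpoly_coeff_int` : the minimal polynomial over `ℚ̄(j)` of a Gauss-integral element
  of `F_M` has Gauss-integral coefficients.
-/

set_option autoImplicit false
set_option synthInstance.maxHeartbeats 400000
set_option linter.unusedSectionVars false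

noncomputable section

open HahnSeries IntermediateField ModularCurve Polynomial

namespace Fermat.Agent.M18

open Fermat.Agent.M28 Fermat.Agent.S24

variable {A : ValuationSubring m18v_K} {M : ℕ} [NeZero M]

/-- the Gauss valuation ring of `ℚ̄(j)`. -/
def m18sq_OG (hdec : m18sq_Dec A M) : ValuationSubring ↥(s24K⟮s24j M⟯) where
  carrier := {a | m18v_Int A M (a : s24F M)}
  mul_mem' ha hb := m18v_Int_mul ha hb
  one_mem' := m18v_Int_one
  add_mem' ha hb := m18v_Int_add ha hb
  zero_mem' := m18v_Int_zero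
  neg_mem' ha := m18v_Int_neg ha
  mem_or_inv_mem' a := by
    by_cases h : a = 0
    · left
      rw [h]
      exact m18v_Int_zero
    · have h' : (a : s24F M) ≠ 0 := fun h0 => h (Subtype.ext h0)
      exact m18sq_Int_or_inv hdec h'

theorem m18sq_mem_OG (hdec : m18sq_Dec A M) (a : ↥(s24K⟮s24j M⟯)) :
    a ∈ m18sq_OG hdec ↔ m18v_Int A M (a : s24F M) := Iff.rfl

/-- the structure map `O_G → F_M`. -/
def m18sq_OGhom (hdec : m18sq_Dec A M) : ↥(m18sq_OG hdec) →+* s24F M :=
  (algebraMap ↥(s24K⟮s24j M⟯) (s24F M)).comp (m18sq_OG hdec).subtype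

theorem m18sq_aeval_mem_simple (P : Polynomial m18v_K) :
    (Polynomial.aeval (s24j M) P : s24F M) ∈ s24K⟮s24j M⟯ := by
  induction P using Polynomial.induction_on' with
  | add p q hp hq => rw [map_add]; exact add_mem hp hq
  | monomial n a =>
    rw [Polynomial.aeval_monomial]
    exact mul_mem (IntermediateField.algebraMap_mem _ a)
      (pow_mem (IntermediateField.mem_adjoin_simple_self _ _) n)

/-- the value at `j` of an integral polynomial is Gauss-integral. -/
theorem m18sq_Int_aeval (P : Polynomial A) :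
    m18v_Int A M (Polynomial.aeval (s24j M) (P.map A.subtype)) :=
  m18v_Int_of_incl (X := m18sq_evA A P) (by rw [m18sq_coe_aeval, m18sq_incl_evA])

theorem m18sq_redL_aeval (P : Polynomial A) :
    m18v_redL A M (Polynomial.aeval (s24j M) (P.map A.subtype)) =
      m18sq_evk A (P.map (IsLocalRing.residue A)) := by
  rw [m18v_redL_of_incl (X := m18sq_evA A P) (by rw [m18sq_coe_aeval, m18sq_incl_evA]),
    m18sq_redq_evA]

/-- the inverse of the value at `j` of a primitive polynomial is Gauss-integral. -/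
theorem m18sq_Int_aeval_inv (hdec : m18sq_Dec A M) {P : Polynomial A}
    (hP : P.map (IsLocalRing.residue A) ≠ 0) :
    m18v_Int A M (Polynomial.aeval (s24j M) (P.map A.subtype))⁻¹ := by
  refine m18sq_Int_inv_of_red_ne_zero hdec (m18sq_Int_aeval P) ?_
  rw [m18sq_redL_aeval]
  exact m18sq_evk_ne_zero hP

/-- a generic span criterion over a subring of coefficients. -/
theorem m18sq_span_aux2 {R F : Type*} [CommRing R] [Field F] [Algebra R F] {n : ℕ}
    (e : Fin n → F) (y s a : F) (p : Fin n → F) (hs : s ≠ 0)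
    (hcoef : ∀ i, ∃ b : R, algebraMap R F b = a * p i / s)
    (h : y * s = a * ∑ i, p i * e i) : y ∈ Submodule.span R (Set.range e) := by
  have h4 : y = ∑ i, (a * p i / s) * e i := by
    have h5 : y = (a * ∑ i, p i * e i) / s := by
      rw [eq_div_iff hs]
      exact h
    rw [h5, Finset.mul_sum, Finset.sum_div]
    refine Finset.sum_congr rfl fun i _ => ?_
    ring
  rw [h4]
  refine Submodule.sum_mem _ fun i _ => ?_
  obtain ⟨b, hb⟩ := hcoef i
  rw [← hb, ← Algebra.smul_def]
  exact Submodule.smul_mem _ b (Submodule.subset_span ⟨i, rfl⟩)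

set_option maxHeartbeats 1000000 in
/-- **(orthonormality)** the Gauss ring of `F_M` is spanned over `O_G` by the family `e_i`. -/
theorem m18sq_Int_mem_span (hdec : m18sq_Dec A M) (E : Fin (dedekindPsi M) → LaurentSeries A)
    (hE : LinearIndependent ↥(IntermediateField.adjoin (m18v_k A) {jqModC (m18v_k A)})
      (fun i => m18v_redq A (E i)))
    (hEF : ∀ i, m18v_incl A (E i) ∈ modularFunctionFieldBar M)
    {x : s24F M} (hI : m18v_Int A M x) :
    letI : Algebra ↥(m18sq_OG hdec) (s24F M) := (m18sq_OGhom hdec).toAlgebra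
    x ∈ Submodule.span ↥(m18sq_OG hdec) (Set.range (m18sq_e E hEF)) := by
  let _ : Algebra ↥(m18sq_OG hdec) (s24F M) := (m18sq_OGhom hdec).toAlgebra
  by_cases hx : x = 0
  · rw [hx]
    exact Submodule.zero_mem _
  obtain ⟨c, s', r', hc, hs, hr, h⟩ := m18sq_nf_int E hE hEF hx hI
  have hs0 : (Polynomial.aeval (s24j M) (s'.map A.subtype) : s24F M) ≠ 0 := by
    intro h0
    have h1 := m18sq_redL_aeval (M := M) s'
    rw [h0, m18v_redL_zero] at h1
    exact m18sq_evk_ne_zero hs h1.symm
  have hrel : x * Polynomial.aeval (s24j M) (s'.map A.subtype) =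
      algebraMap m18v_K (s24F M) (c : m18v_K) *
        ∑ i, Polynomial.aeval (s24j M) ((r' i).map A.subtype) * m18sq_e E hEF i := by
    apply Subtype.ext
    show (x : LaurentSeries m18v_K) *
      ((Polynomial.aeval (s24j M) (s'.map A.subtype) : s24F M) : LaurentSeries m18v_K) =
      ((algebraMap m18v_K (s24F M) (c : m18v_K) : s24F M) : LaurentSeries m18v_K) *
      ((∑ i, Polynomial.aeval (s24j M) ((r' i).map A.subtype) * m18sq_e E hEF i : s24F M) :
        LaurentSeries m18v_K)
    rw [m18sq_coe_aeval, ← m18sq_incl_evA, h, map_mul, m18v_incl_single, m18v_coe_algebraMap,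
      AddSubmonoidClass.coe_finsetSum, map_sum]
    congr 1
    refine Finset.sum_congr rfl fun i _ => ?_
    show _ = ((Polynomial.aeval (s24j M) ((r' i).map A.subtype) : s24F M) :
      LaurentSeries m18v_K) * m18v_incl A (E i)
    rw [m18sq_coe_aeval, map_mul, m18sq_incl_evA]
  refine m18sq_span_aux2 (R := ↥(m18sq_OG hdec)) (m18sq_e E hEF) x _ _ _ hs0 (fun i => ?_) hrel
  have hmem : algebraMap m18v_K (s24F M) (c : m18v_K) *
      Polynomial.aeval (s24j M) ((r' i).map A.subtype) /
      Polynomial.aeval (s24j M) (s'.map A.subtype) ∈ s24K⟮s24j M⟯ :=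
    div_mem (mul_mem (IntermediateField.algebraMap_mem _ _) (m18sq_aeval_mem_simple _))
      (m18sq_aeval_mem_simple _)
  have hInt : m18v_Int A M (algebraMap m18v_K (s24F M) (c : m18v_K) *
      Polynomial.aeval (s24j M) ((r' i).map A.subtype) /
      Polynomial.aeval (s24j M) (s'.map A.subtype)) := by
    rw [div_eq_mul_inv]
    exact m18v_Int_mul (m18v_Int_mul (m18v_Int_const c) (m18sq_Int_aeval _))
      (m18sq_Int_aeval_inv hdec hs)
  exact ⟨⟨⟨_, hmem⟩, hInt⟩, rfl⟩

set_option maxHeartbeats 1000000 in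
/-- **(SQ3, Gauss side)** the minimal polynomial over `ℚ̄(j)` of a Gauss-integral element of
`F_M` has Gauss-integral coefficients. -/
theorem m18sq_minpoly_coeff_int_aux (hdec : m18sq_Dec A M)
    (E : Fin (dedekindPsi M) → LaurentSeries A)
    (hE : LinearIndependent ↥(IntermediateField.adjoin (m18v_k A) {jqModC (m18v_k A)})
      (fun i => m18v_redq A (E i)))
    (hEF : ∀ i, m18v_incl A (E i) ∈ modularFunctionFieldBar M)
    {x : s24F M} (hI : m18v_Int A M x) (n : ℕ) :
    m18v_Int A M (((minpoly ↥(s24K⟮s24j M⟯) x).coeff n : ↥(s24K⟮s24j M⟯)) : s24F M) := by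
  letI : Algebra ↥(m18sq_OG hdec) (s24F M) := (m18sq_OGhom hdec).toAlgebra
  haveI : IsScalarTower ↥(m18sq_OG hdec) ↥(s24K⟮s24j M⟯) (s24F M) :=
    IsScalarTower.of_algebraMap_eq (fun _ => rfl)
  let S : Subalgebra ↥(m18sq_OG hdec) (s24F M) :=
    { carrier := {y | m18v_Int A M y}
      mul_mem' := fun ha hb => m18v_Int_mul ha hb
      one_mem' := m18v_Int_one
      add_mem' := fun ha hb => m18v_Int_add ha hb
      zero_mem' := m18v_Int_zero
      algebraMap_mem' := fun a => a.2 }
  have hFG : (Subalgebra.toSubmodule S).FG := by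
    classical
    refine ⟨Finset.univ.image (m18sq_e E hEF), ?_⟩
    rw [Finset.coe_image, Finset.coe_univ, Set.image_univ]
    apply le_antisymm
    · rw [Submodule.span_le]
      rintro _ ⟨i, rfl⟩
      show m18v_Int A M (m18sq_e E hEF i)
      exact m18v_Int_of_incl (X := E i) rfl
    · intro y hy
      exact m18sq_Int_mem_span hdec E hE hEF hy
  have hint : IsIntegral ↥(m18sq_OG hdec) x := IsIntegral.of_mem_of_fg S hFG x hI
  have hmin := minpoly.isIntegrallyClosed_eq_field_fractions' ↥(s24K⟮s24j M⟯) hint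
  rw [hmin, Polynomial.coeff_map]
  exact ((minpoly ↥(m18sq_OG hdec) x).coeff n).2

/-- **(SQ3, Gauss side)** at every level `M` prime to `ℓ`. -/
theorem m18sq_minpoly_coeff_int {ℓ : ℕ} [Fact ℓ.Prime] (hA : A.LiesOverPrime ℓ) (hℓM : ¬ ℓ ∣ M)
    {x : s24F M} (hI : m18v_Int A M x) (n : ℕ) :
    m18v_Int A M (((minpoly ↥(s24K⟮s24j M⟯) x).coeff n : ↥(s24K⟮s24j M⟯)) : s24F M) := by
  obtain ⟨E, hEF, hEk, hE⟩ := m18sq_family hA M hℓM
  exact m18sq_minpoly_coeff_int_aux (m18sq_dec hA hℓM) E hE hEF hI n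

end Fermat.Agent.M18

end
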