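import Mathlib
import Fermat.Agent.S24.AlgA

/-!
# M18 / (SQ3), half 2 (abstract form): integrality transfer

Setting: `L ⊆ F` fields, `A` a valuation subring of `L` with a ring homomorphism `ρ : A →+* k`,
`Ft ⊇ k` a field, `I : F → Prop` ("Gauss-integral"), `red : F → Ft` a map which is a ring
homomorphism on `I`, `z : F` transcendental over `L`, Gauss-integral with `red z`
transcendental over `k`.  If the minimal polynomial over `L(z)` of every Gauss-integral element
has Gauss-integral coefficients, then `red` maps elements integral over `L[z]` to elements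
integral over `k[red z]` (`m18sq_sq3_abs`).
-/

set_option autoImplicit false
set_option linter.unusedSectionVars false
set_option linter.unusedVariables false

noncomputable section

namespace Fermat.Agent.M18

open Polynomial IntermediateField Fermat.Agent.S24
open scoped IntermediateField.algebraAdjoinAdjoin

/-- an element satisfying a monic equation is integral. -/
theorem m18sq_isIntegral_of_eq {R S : Type*} [CommRing R] [CommRing S] [Algebra R S]
    [Nontrivial R] (y : S) (d : ℕ) (c : ℕ → R)
    (h : y ^ d + ∑ n ∈ Finset.range d, algebraMap R S (c n) * y ^ n = 0) : IsIntegral R y := by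
  refine ⟨X ^ d + ∑ n ∈ Finset.range d, C (c n) * X ^ n, ?_, ?_⟩
  · apply Polynomial.monic_X_pow_add
    refine lt_of_le_of_lt (Polynomial.degree_sum_le _ _) ?_
    refine (Finset.sup_lt_iff (WithBot.bot_lt_coe d)).mpr ?_
    intro n hn
    exact lt_of_le_of_lt (Polynomial.degree_C_mul_X_pow_le n (c n))
      (WithBot.coe_lt_coe.mpr (Finset.mem_range.mp hn))
  · rw [Polynomial.eval₂_add, Polynomial.eval₂_pow, Polynomial.eval₂_X,
      Polynomial.eval₂_finsetSum]
    rw [← h]
    congr 1
    refine Finset.sum_congr rfl fun n _ => ?_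
    rw [Polynomial.eval₂_mul, Polynomial.eval₂_C, Polynomial.eval₂_pow, Polynomial.eval₂_X]

section coeff

variable {K F : Type*} [Field K] [Field F] [Algebra K F]

/-- the coefficients of the minimal polynomial over `K(z)` of an element integral over `K[z]`
lie in `K[z]`. -/
theorem m18sq_minpoly_coeff_mem (z : F) (hz : Transcendental K z) (x : F)
    (hx : IsIntegral (Algebra.adjoin K ({z} : Set F)) x) (n : ℕ) :
    (((minpoly ↥(K⟮z⟯) x).coeff n : ↥(K⟮z⟯)) : F) ∈ Algebra.adjoin K ({z} : Set F) := by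
  have := algaz_isDedekindDomain z hz
  rw [minpoly.isIntegrallyClosed_eq_field_fractions' K⟮z⟯ hx, Polynomial.coeff_map]
  exact ((minpoly (Algebra.adjoin K ({z} : Set F)) x).coeff n).2

theorem m18sq_isIntegral_simple (z : F) (x : F)
    (hx : IsIntegral (Algebra.adjoin K ({z} : Set F)) x) : IsIntegral ↥(K⟮z⟯) x :=
  hx.tower_top

/-- transport of the coefficients of minimal polynomials along an equality of fields. -/
theorem m18sq_minpoly_coeff_congr {E₁ E₂ : IntermediateField K F} (h : E₁ = E₂) (x : F)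
    (n : ℕ) : (((minpoly ↥E₁ x).coeff n : ↥E₁) : F) = (((minpoly ↥E₂ x).coeff n : ↥E₂) : F) := by
  subst h
  rfl

end coeff

section abs

variable {L F k Ft : Type*} [Field L] [Field F] [Algebra L F] [Field k] [Field Ft]
  [Algebra k Ft] (A : ValuationSubring L) (ρ : A →+* k) (I : F → Prop) (red : F → Ft)
  (h1 : I 1 ∧ red 1 = 1)
  (h0 : I 0 ∧ red 0 = 0)
  (hadd : ∀ y y', I y → I y' → I (y + y') ∧ red (y + y') = red y + red y')
  (hmul : ∀ y y', I y → I y' → I (y * y') ∧ red (y * y') = red y * red y')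
  (hconst : ∀ a : A, I (algebraMap L F (a : L)) ∧
    red (algebraMap L F (a : L)) = algebraMap k Ft (ρ a))
  (hunit : ∀ y, I y → red y ≠ 0 → I y⁻¹)
  (hA : ∀ c : L, I (algebraMap L F c) → c ∈ A)
  (hcont : ∀ Q : Polynomial L, Q ≠ 0 → ∃ (c : L) (P : Polynomial A), c ≠ 0 ∧
    Q = Polynomial.C c * P.map A.subtype ∧ P.map ρ ≠ 0)
  (z : F) (hzI : I z) (hzt : Transcendental k (red z))

include h1 hmul hzI in
theorem m18sq_abs_pow (n : ℕ) : I (z ^ n) ∧ red (z ^ n) = red z ^ n := by
  induction n with
  | zero =>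
    rw [pow_zero, pow_zero]
    exact h1
  | succ n ih =>
    rw [pow_succ, pow_succ]
    refine ⟨(hmul _ _ ih.1 hzI).1, ?_⟩
    rw [(hmul _ _ ih.1 hzI).2, ih.2]

include h1 h0 hadd hmul hconst hzI in
/-- **(E1)** values at `z` of integral polynomials. -/
theorem m18sq_abs_aeval (P : Polynomial A) :
    I (Polynomial.aeval z (P.map A.subtype)) ∧
      red (Polynomial.aeval z (P.map A.subtype)) = Polynomial.aeval (red z) (P.map ρ) := by
  induction P using Polynomial.induction_on' with
  | add p q hp hq =>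
    rw [Polynomial.map_add, map_add, Polynomial.map_add, map_add]
    refine ⟨(hadd _ _ hp.1 hq.1).1, ?_⟩
    rw [(hadd _ _ hp.1 hq.1).2, hp.2, hq.2]
  | monomial n a =>
    rw [Polynomial.map_monomial, Polynomial.aeval_monomial, Polynomial.map_monomial,
      Polynomial.aeval_monomial]
    have hp := m18sq_abs_pow I red h1 hmul z hzI n
    have hsub : A.subtype a = (a : L) := rfl
    rw [hsub]
    refine ⟨(hmul _ _ (hconst a).1 hp.1).1, ?_⟩
    rw [(hmul _ _ (hconst a).1 hp.1).2, (hconst a).2, hp.2]

include h1 h0 hadd hmul hconst hunit hA hcont hzI hzt in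
/-- **(E3)** a polynomial over `L` with Gauss-integral value at `z` has coefficients in `A`. -/
theorem m18sq_abs_lift (Q : Polynomial L) (hQ : I (Polynomial.aeval z Q)) :
    ∃ P : Polynomial A, Q = P.map A.subtype := by
  by_cases hQ0 : Q = 0
  · exact ⟨0, by rw [hQ0, Polynomial.map_zero]⟩
  obtain ⟨c, P, hc, hQP, hP⟩ := hcont Q hQ0
  have hE := m18sq_abs_aeval A ρ I red h1 h0 hadd hmul hconst z hzI P
  have hne : red (Polynomial.aeval z (P.map A.subtype)) ≠ 0 := by
    rw [hE.2]
    intro h
    exact hP (transcendental_iff.mp hzt _ h)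
  have hinv := hunit _ hE.1 hne
  have hv0 : (Polynomial.aeval z (P.map A.subtype) : F) ≠ 0 := by
    intro h
    rw [h, h0.2] at hne
    exact hne rfl
  have hc' : algebraMap L F c =
      Polynomial.aeval z Q * (Polynomial.aeval z (P.map A.subtype))⁻¹ := by
    rw [hQP, map_mul, Polynomial.aeval_C, mul_assoc, mul_inv_cancel₀ hv0, mul_one]
  have hcI : I (algebraMap L F c) := by
    rw [hc']
    exact (hmul _ _ hQ hinv).1
  have hcA := hA c hcI
  refine ⟨Polynomial.C ⟨c, hcA⟩ * P, ?_⟩
  rw [Polynomial.map_mul, Polynomial.map_C, hQP]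
  rfl

include h1 h0 hadd hmul in
theorem m18sq_abs_sum (x : F) (hx : I x) (c : ℕ → F) (hc : ∀ n, I (c n)) (S : Finset ℕ) :
    I (∑ n ∈ S, c n * x ^ n) ∧
      red (∑ n ∈ S, c n * x ^ n) = ∑ n ∈ S, red (c n) * red x ^ n := by
  classical
  induction S using Finset.induction_on with
  | empty =>
    simp only [Finset.sum_empty]
    exact h0
  | insert a S ha ih =>
    rw [Finset.sum_insert ha, Finset.sum_insert ha]
    have hp := m18sq_abs_pow I red h1 hmul x hx a
    have ht := hmul _ _ (hc a) hp.1
    refine ⟨(hadd _ _ ht.1 ih.1).1, ?_⟩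
    rw [(hadd _ _ ht.1 ih.1).2, ht.2, hp.2, ih.2]

include h1 h0 hadd hmul hconst hunit hA hcont hzI hzt in
/-- **(SQ3, abstract form)** integrality transfer. -/
theorem m18sq_sq3_abs (hz : Transcendental L z)
    (hcoef : ∀ x, I x → IsIntegral (Algebra.adjoin L ({z} : Set F)) x →
      ∀ n, I (((minpoly ↥(L⟮z⟯) x).coeff n : ↥(L⟮z⟯)) : F))
    (x : F) (hI : I x) (hx : IsIntegral (Algebra.adjoin L ({z} : Set F)) x) :
    IsIntegral (Algebra.adjoin k ({red z} : Set Ft)) (red x) := by
  classical
  set p := minpoly ↥(L⟮z⟯) x with hp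
  have hxint : IsIntegral ↥(L⟮z⟯) x := m18sq_isIntegral_simple z x hx
  have hmonic : p.Monic := minpoly.monic hxint
  set d := p.natDegree with hd
  set c : ℕ → F := fun n => ((p.coeff n : ↥(L⟮z⟯)) : F) with hcdef
  have hcI : ∀ n, I (c n) := fun n => hcoef x hI hx n
  have hcmem : ∀ n, c n ∈ Algebra.adjoin L ({z} : Set F) :=
    fun n => m18sq_minpoly_coeff_mem z hz x hx n
  have hex : ∀ n, ∃ P : Polynomial A, c n = Polynomial.aeval z (P.map A.subtype) := by
    intro n
    have h2 := hcmem n
    rw [Algebra.adjoin_singleton_eq_range_aeval] at h2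
    obtain ⟨Q, hQ⟩ := h2
    have hQ' : (Polynomial.aeval z Q : F) = c n := hQ
    obtain ⟨P, hP⟩ := m18sq_abs_lift A ρ I red h1 h0 hadd hmul hconst hunit hA hcont z hzI hzt Q
      (by rw [hQ']; exact hcI n)
    exact ⟨P, by rw [← hQ', hP]⟩
  choose P hP using hex
  have hredc : ∀ n, red (c n) = Polynomial.aeval (red z) ((P n).map ρ) := by
    intro n
    rw [hP n]
    exact (m18sq_abs_aeval A ρ I red h1 h0 hadd hmul hconst z hzI (P n)).2
  have heq : ∑ n ∈ Finset.range (d + 1), c n * x ^ n = 0 := by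
    have h3 : Polynomial.aeval x p = 0 := minpoly.aeval _ _
    rw [Polynomial.aeval_eq_sum_range] at h3
    rw [← h3]
    refine Finset.sum_congr rfl fun n _ => ?_
    rfl
  have hsum := m18sq_abs_sum I red h1 h0 hadd hmul x hI c hcI (Finset.range (d + 1))
  rw [heq, h0.2] at hsum
  have hlead : c d = 1 := by
    show ((p.coeff p.natDegree : ↥(L⟮z⟯)) : F) = 1
    rw [Polynomial.coeff_natDegree, hmonic.leadingCoeff]
    rfl
  have hfin : red x ^ d + ∑ n ∈ Finset.range d,
      algebraMap (Algebra.adjoin k ({red z} : Set Ft)) Ft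
        (Polynomial.aeval (⟨red z, Algebra.self_mem_adjoin_singleton k (red z)⟩ :
          Algebra.adjoin k ({red z} : Set Ft)) ((P n).map ρ)) * red x ^ n = 0 := by
    have h4 := hsum.2.symm
    rw [Finset.sum_range_succ, hlead, h1.2, one_mul, add_comm] at h4
    rw [← h4]
    congr 1
    refine Finset.sum_congr rfl fun n _ => ?_
    rw [hredc n]
    congr 1
    rw [← Polynomial.aeval_algebraMap_apply]
    rfl
  exact m18sq_isIntegral_of_eq (red x) d _ hfin

end abs

end Fermat.Agent.M18

end
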