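import Fermat.Agent.M18.SqInt
import Fermat.Agent.M18.SqInt2
import Fermat.Agent.S24.AnaTrans

/-!
# M18 / (SQ3): integrality transfer at every level `M` prime to `ℓ`

* `m18sq_sq3_j`     : `x` Gauss-integral and integral over `ℚ̄[j]` ⇒ `red x` integral over `k[j̃]`;
* `m18sq_sq3_j_inv` : the same for `j⁻¹`, `j̃⁻¹`;
* `m18sq_h3`, `m18sq_h3_inv` : reduction maps `V_n(j) ∩ O` into `V_n(j̃)` (and the same for
  `j⁻¹`), in the shape consumed by `RrSqInst`.
-/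

set_option autoImplicit false
set_option synthInstance.maxHeartbeats 400000
set_option linter.unusedSectionVars false

noncomputable section

open HahnSeries IntermediateField ModularCurve Polynomial

namespace Fermat.Agent.M18

open Fermat.Agent.M28 Fermat.Agent.S24

variable {A : ValuationSubring m18v_K} {M : ℕ} [NeZero M]

theorem m18sq_red_zero (hdec : m18sq_Dec A M) : m18sq_red hdec (0 : s24F M) = 0 :=
  Subtype.ext m18v_redL_zero

theorem m18sq_red_const (hdec : m18sq_Dec A M) (a : A) :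
    m18sq_red hdec (algebraMap m18v_K (s24F M) (a : m18v_K)) =
      algebraMap (m18v_k A) (m18v_Ft A M) (IsLocalRing.residue A a) := by
  apply Subtype.ext
  show m18v_redL A M (algebraMap m18v_K (s24F M) (a : m18v_K)) = _
  rw [m18v_redL_const, ← ModularCurve.algebraMap_laurentSeries_eq_single]
  rfl

/-- `O ∩ ℚ̄ = A`. -/
theorem m18sq_const_mem {c : m18v_K} (hc : m18v_Int A M (algebraMap m18v_K (s24F M) c)) :
    c ∈ A := by
  obtain ⟨X, w, hw, h⟩ := hc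
  rw [m18v_coe_algebraMap] at h
  exact m18v_mem_of_smul hw.2.2 h.symm

theorem m18sq_content_one (A : ValuationSubring m18v_K) (Q : Polynomial m18v_K) (hQ : Q ≠ 0) :
    ∃ (c : m18v_K) (P : Polynomial A), c ≠ 0 ∧ Q = Polynomial.C c * P.map A.subtype ∧
      P.map (IsLocalRing.residue A) ≠ 0 := by
  obtain ⟨c, P', hc, hP', i, hi⟩ := m18sq_content A (fun _ : Fin 1 => Q) ⟨0, hQ⟩
  exact ⟨c, P' i, hc, hP' i, hi⟩

set_option maxHeartbeats 1000000 in
/-- **(SQ3)** integrality transfer for `j`. -/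
theorem m18sq_sq3_j {ℓ : ℕ} [Fact ℓ.Prime] (hA : A.LiesOverPrime ℓ) (hℓM : ¬ ℓ ∣ M)
    (x : s24F M) (hI : m18v_Int A M x)
    (hx : IsIntegral (Algebra.adjoin m18v_K ({s24j M} : Set (s24F M))) x) :
    IsIntegral (Algebra.adjoin (m18v_k A) ({m18sq_jt A M} : Set (m18v_Ft A M)))
      (m18sq_red (m18sq_dec hA hℓM) x) := by
  have hdec := m18sq_dec hA hℓM
  have hzt : Transcendental (m18v_k A) (m18sq_red (m18sq_dec hA hℓM) (s24j M)) := by
    rw [m18sq_red_j]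
    exact m18sq_jt_transcendental
  have h := m18sq_sq3_abs A (IsLocalRing.residue A) (m18v_Int A M)
    (m18sq_red (m18sq_dec hA hℓM))
    ⟨m18v_Int_one, m18sq_red_one _⟩ ⟨m18v_Int_zero, m18sq_red_zero _⟩
    (fun y y' hy hy' => ⟨m18v_Int_add hy hy', m18sq_red_add _ hy hy'⟩)
    (fun y y' hy hy' => ⟨m18v_Int_mul hy hy', m18sq_red_mul _ hy hy'⟩)
    (fun a => ⟨m18v_Int_const a, m18sq_red_const _ a⟩)
    (fun y hy hne => m18sq_Int_inv_of_red_ne_zero hdec hy (fun h0 => hne (Subtype.ext h0)))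
    (fun c hc => m18sq_const_mem hc)
    (m18sq_content_one A)
    (s24j M) m18sq_Int_j hzt (ana_transcendental M)
    (fun y hy _ n => m18sq_minpoly_coeff_int hA hℓM hy n) x hI hx
  rwa [m18sq_red_j] at h

set_option maxHeartbeats 1000000 in
/-- **(SQ3)** integrality transfer for `j⁻¹`. -/
theorem m18sq_sq3_j_inv {ℓ : ℕ} [Fact ℓ.Prime] (hA : A.LiesOverPrime ℓ) (hℓM : ¬ ℓ ∣ M)
    (x : s24F M) (hI : m18v_Int A M x)
    (hx : IsIntegral (Algebra.adjoin m18v_K ({(s24j M)⁻¹} : Set (s24F M))) x) :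
    IsIntegral (Algebra.adjoin (m18v_k A) ({(m18sq_jt A M)⁻¹} : Set (m18v_Ft A M)))
      (m18sq_red (m18sq_dec hA hℓM) x) := by
  have hdec := m18sq_dec hA hℓM
  have hzt : Transcendental (m18v_k A) (m18sq_red (m18sq_dec hA hℓM) (s24j M)⁻¹) := by
    rw [m18sq_red_j_inv]
    exact algaz_transcendental_inv m18sq_jt_transcendental
  have hK : s24K⟮(s24j M)⁻¹⟯ = s24K⟮s24j M⟯ := algaz_adjoin_inv (s24j M)
  have h := m18sq_sq3_abs A (IsLocalRing.residue A) (m18v_Int A M)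
    (m18sq_red (m18sq_dec hA hℓM))
    ⟨m18v_Int_one, m18sq_red_one _⟩ ⟨m18v_Int_zero, m18sq_red_zero _⟩
    (fun y y' hy hy' => ⟨m18v_Int_add hy hy', m18sq_red_add _ hy hy'⟩)
    (fun y y' hy hy' => ⟨m18v_Int_mul hy hy', m18sq_red_mul _ hy hy'⟩)
    (fun a => ⟨m18v_Int_const a, m18sq_red_const _ a⟩)
    (fun y hy hne => m18sq_Int_inv_of_red_ne_zero hdec hy (fun h0 => hne (Subtype.ext h0)))
    (fun c hc => m18sq_const_mem hc)
    (m18sq_content_one A)
    (s24j M)⁻¹ (m18sq_Int_j_inv hdec) hzt (algaz_transcendental_inv (ana_transcendental M))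
    (fun y hy _ n => by
      rw [m18sq_minpoly_coeff_congr hK y n]
      exact m18sq_minpoly_coeff_int hA hℓM hy n) x hI hx
  rwa [m18sq_red_j_inv] at h

/-- **(SQ3)+(SQ4)** in the shape consumed by `RrSqInst` (chart `j`). -/
theorem m18sq_h3 {ℓ : ℕ} [Fact ℓ.Prime] (hA : A.LiesOverPrime ℓ) (hℓM : ¬ ℓ ∣ M) :
    ∀ n (y : s24F M), m18v_Int A M y → y ∈ m18sq_V m18v_K (s24j M) n →
      m18sq_red (m18sq_dec hA hℓM) y ∈ m18sq_V (m18v_k A) (m18sq_jt A M) n :=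
  fun n y hI hV => m18sq_red_mem_V (m18sq_dec hA hℓM) (m18sq_sq3_j hA hℓM)
    (m18sq_sq3_j_inv hA hℓM) n y hV hI

/-- **(SQ3)+(SQ4)** in the shape consumed by `RrSqInst` (chart `j⁻¹`). -/
theorem m18sq_h3_inv {ℓ : ℕ} [Fact ℓ.Prime] (hA : A.LiesOverPrime ℓ) (hℓM : ¬ ℓ ∣ M) :
    ∀ n (y : s24F M), m18v_Int A M y → y ∈ m18sq_V m18v_K (s24j M)⁻¹ n →
      m18sq_red (m18sq_dec hA hℓM) y ∈ m18sq_V (m18v_k A) (m18sq_jt A M)⁻¹ n :=
  fun n y hI hV => m18sq_red_mem_V_inv (m18sq_dec hA hℓM) (m18sq_sq3_j hA hℓM)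
    (m18sq_sq3_j_inv hA hℓM) n y hV hI

end Fermat.Agent.M18

end
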