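import Fermat.Agent.M18.SqLat2

/-!
# M18 / (SQ2), `F~`-valued form

`m18sq_orth'` : every finite-dimensional subspace `V ⊆ F_M` has `dim V` Gauss-integral elements
whose reductions (as elements of `F~_M`) are linearly independent over `k`.
-/

set_option autoImplicit false
set_option synthInstance.maxHeartbeats 400000
set_option linter.unusedSectionVars false

noncomputable section

open HahnSeries IntermediateField ModularCurve Polynomial

namespace Fermat.Agent.M18

open Fermat.Agent.M28 Fermat.Agent.S24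

variable {A : ValuationSubring m18v_K} {M : ℕ} [NeZero M]

theorem m18sq_orth' {ℓ : ℕ} [Fact ℓ.Prime] (hA : A.LiesOverPrime ℓ) (hℓM : ¬ ℓ ∣ M)
    (V : Submodule m18v_K (s24F M)) [FiniteDimensional m18v_K V] :
    ∃ v : Fin (Module.finrank m18v_K V) → s24F M, (∀ i, m18v_Int A M (v i) ∧ v i ∈ V) ∧
      LinearIndependent (m18v_k A) (fun i => m18sq_red (m18sq_dec hA hℓM) (v i)) := by
  obtain ⟨x, hxV, hxI, hxli⟩ := m18sq_orth hA hℓM V
  exact ⟨x, fun i => ⟨hxI i, hxV i⟩, LinearIndependent.of_comp (m18sq_valk A M) hxli⟩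

/-- the shape consumed by `RrSq`: orthonormal bases of the spaces `V_n(x)`. -/
theorem m18sq_h2 {ℓ : ℕ} [Fact ℓ.Prime] (hA : A.LiesOverPrime ℓ) (hℓM : ¬ ℓ ∣ M) (x : s24F M)
    (hfin : ∀ n, FiniteDimensional m18v_K ↥(m18sq_V m18v_K x n)) (n : ℕ) :
    ∃ v : Fin (Module.finrank m18v_K ↥(m18sq_V m18v_K x n)) → s24F M,
      (∀ i, m18v_Int A M (v i) ∧ v i ∈ m18sq_V m18v_K x n) ∧
      LinearIndependent (m18v_k A) (fun i => m18sq_red (m18sq_dec hA hℓM) (v i)) :=
  haveI := hfin n
  m18sq_orth' hA hℓM _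

end Fermat.Agent.M18

end
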