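import Fermat.Agent.M18.VHloc
import Fermat.Prelude.Def_FLTPrelim_Ramification

/-!
# M18 / (V), part 7: the bridge from the prelude statement of S18 to divisors.
-/

set_option autoImplicit false
set_option synthInstance.maxHeartbeats 400000

noncomputable section

open HahnSeries IntermediateField AlgebraicCurve ModularCurve

namespace Fermat.Agent.M18

variable {A : ValuationSubring m18v_K} {N : ℕ}

/-- the two components of the hypothesis `ReductionInputsModL`, for the chosen place
reduction. -/
theorem m18v_inputs (h : ModularCurve.ReductionInputsModL A N) :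
    IsPlaceReductionAlong A (IsLocalRing.residue A) N (ModularCurve.placeReductionModL h) ∧
      PrincipalGeneratedByIntegral A (IsLocalRing.residue A) N :=
  h.choose_spec

/-- the kernel of the reduction map on `Pic⁰`, in terms of divisors. -/
theorem m18v_reductionModL_eq_zero_iff (h : ModularCurve.ReductionInputsModL A N)
    (D : Divisor.degZero (K := m18v_K) (F := m18v_F N)) :
    ModularCurve.reductionModL A N (Pic0.mk D) = 0 ↔
      Finsupp.mapDomain (ModularCurve.placeReductionModL h)
        (D : Divisor m18v_K (m18v_F N)) ∈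
        Divisor.principal (K := m18v_k A) (F := m18v_Ft A N) := by
  rw [ModularCurve.reductionModL_mk h D]
  show (QuotientAddGroup.mk _ : Pic0 _ _) = 0 ↔ _
  rw [QuotientAddGroup.eq_zero_iff, AddSubgroup.mem_addSubgroupOf]
  rfl

theorem m18v_mk_eq_zero_iff (D : Divisor.degZero (K := m18v_K) (F := m18v_F N)) :
    (Pic0.mk D : Pic0 m18v_K (m18v_F N)) = 0 ↔
      (D : Divisor m18v_K (m18v_F N)) ∈ Divisor.principal (K := m18v_K) (F := m18v_F N) := by
  show (QuotientAddGroup.mk _ : Pic0 _ _) = 0 ↔ _
  rw [QuotientAddGroup.eq_zero_iff, AddSubgroup.mem_addSubgroupOf]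

/-- **(bridge)** S18 follows from its divisor form. -/
theorem m18v_bridge (h : ModularCurve.ReductionInputsModL A N) (m : ℕ)
    (core : ∀ D : Divisor m18v_K (m18v_F N), Divisor.degree D = 0 →
      m • D ∈ Divisor.principal (K := m18v_K) (F := m18v_F N) →
      Finsupp.mapDomain (ModularCurve.placeReductionModL h) D ∈
        Divisor.principal (K := m18v_k A) (F := m18v_Ft A N) →
      D ∈ Divisor.principal (K := m18v_K) (F := m18v_F N))
    (z : ModularCurve.JZero N) (hmz : m • z = 0)
    (hz : ModularCurve.reductionModL A N z = 0) : z = 0 := by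
  obtain ⟨D, rfl⟩ := Pic0.mk_surjective z
  rw [m18v_mk_eq_zero_iff]
  apply core D D.2
  · have : (Pic0.mk (m • D) : Pic0 m18v_K (m18v_F N)) = 0 := by
      rw [← hmz]
      rfl
    rw [m18v_mk_eq_zero_iff] at this
    exact this
  · exact (m18v_reductionModL_eq_zero_iff h D).1 hz

end Fermat.Agent.M18

end
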