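import Fermat.Agent.M18.VDefs

/-!
# M18 / (V), part 2: every nonzero element of `F` is `c · u / w` with `c` a constant and
`u, w` good integral `q`-series (from `PrincipalGeneratedByIntegral`).
-/

set_option autoImplicit false

noncomputable section

open HahnSeries IntermediateField AlgebraicCurve ModularCurve

namespace Fermat.Agent.M18

open Fermat.Agent.S24

variable {A : ValuationSubring m18v_K} {N : ℕ}

/-- the function field has principal divisors. -/
theorem m18v_hasPrincipalDivisors (N : ℕ) [NeZero N] :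
    HasPrincipalDivisors m18v_K (m18v_F N) := by
  haveI := ana_finiteDimensional N
  exact alg_hasPrincipalDivisors (s24j N) (ana_transcendental N)

/-- a function without zeros and poles is a nonzero constant. -/
theorem m18v_const_of_ord_eq_zero (N : ℕ) [NeZero N] {f : m18v_F N}
    (hf : ∀ v : Place m18v_K (m18v_F N), v.ord f = 0) :
    ∃ a : m18v_K, algebraMap m18v_K (m18v_F N) a = f := by
  haveI := ana_finiteDimensional N
  apply alga_mem_range_of_isAlgebraic
  by_contra htr
  have htr' : Transcendental m18v_K f := htr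
  have hsum := alg_sum_poles (s24j N) (ana_transcendental N) f htr'
  have hempty : {v : Place m18v_K (m18v_F N) | v.ord f < 0} = ∅ := by
    ext v
    simp only [Set.mem_setOf_eq, Set.mem_empty_iff_false, iff_false, not_lt]
    exact (hf v).ge
  rw [hempty, finsum_mem_empty] at hsum
  haveI : FiniteDimensional m18v_K⟮f⟯ (m18v_F N) :=
    alga_finiteDimensional_of_transcendental (s24j N) f htr'
  have hpos : 0 < Module.finrank m18v_K⟮f⟯ (m18v_F N) := Module.finrank_pos
  have : (Module.finrank m18v_K⟮f⟯ (m18v_F N) : ℤ) = 0 := hsum.symm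
  omega

/-- elements of the closure of the integral principal divisors are `div u - div w`. -/
theorem m18v_closure_quot {D : Divisor m18v_K (m18v_F N)}
    (hD : D ∈ AddSubgroup.closure (integralPrincipalDivisors A (IsLocalRing.residue A) N)) :
    ∃ (u w : LaurentSeries A) (hu : m18v_G A N u) (hw : m18v_G A N w),
      ∀ P : Place m18v_K (m18v_F N), D P = P.ord (m18v_GF hu) - P.ord (m18v_GF hw) := by
  induction hD using AddSubgroup.closure_induction with
  | mem E hE =>
    obtain ⟨y, hy, hyk, hne, hE⟩ := hE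
    refine ⟨y, 1, ⟨hy, hyk, hne⟩, m18v_G_one, fun P => ?_⟩
    rw [hE P, m18v_GF_one, Place.ord_one, sub_zero]
    rfl
  | zero =>
    refine ⟨1, 1, m18v_G_one, m18v_G_one, fun P => ?_⟩
    simp
  | add E E' _ _ hE hE' =>
    obtain ⟨u, w, hu, hw, h⟩ := hE
    obtain ⟨u', w', hu', hw', h'⟩ := hE'
    refine ⟨u * u', w * w', m18v_G_mul hu hu', m18v_G_mul hw hw', fun P => ?_⟩
    rw [Finsupp.add_apply, h P, h' P, m18v_GF_mul hu hu', m18v_GF_mul hw hw',
      P.ord_mul (m18v_GF_ne_zero hu) (m18v_GF_ne_zero hu'),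
      P.ord_mul (m18v_GF_ne_zero hw) (m18v_GF_ne_zero hw')]
    ring
  | neg E _ hE =>
    obtain ⟨u, w, hu, hw, h⟩ := hE
    refine ⟨w, u, hw, hu, fun P => ?_⟩
    rw [Finsupp.neg_apply, h P]
    ring

/-- **(V-decomposition)** every nonzero `x ∈ F` satisfies `x · w = c · u` with `c` a nonzero
constant and `u, w` good integral `q`-series. -/
theorem m18v_decomp [NeZero N] (hgen : PrincipalGeneratedByIntegral A (IsLocalRing.residue A) N)
    {x : m18v_F N} (hx : x ≠ 0) :
    ∃ (c : m18v_K) (u w : LaurentSeries A) (hu : m18v_G A N u) (hw : m18v_G A N w),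
      c ≠ 0 ∧ x * m18v_GF hw = algebraMap m18v_K (m18v_F N) c * m18v_GF hu := by
  obtain ⟨D, hD, -⟩ := (m18v_hasPrincipalDivisors N).exists_divisor x hx
  have hprin : D ∈ Divisor.principal (K := m18v_K) (F := m18v_F N) := ⟨x, hx, hD⟩
  obtain ⟨u, w, hu, hw, h⟩ := m18v_closure_quot (hgen hprin)
  have hu0 := m18v_GF_ne_zero hu
  have hw0 := m18v_GF_ne_zero hw
  have hf0 : x * m18v_GF hw * (m18v_GF hu)⁻¹ ≠ 0 :=
    mul_ne_zero (mul_ne_zero hx hw0) (inv_ne_zero hu0)
  obtain ⟨c, hc⟩ := m18v_const_of_ord_eq_zero N (f := x * m18v_GF hw * (m18v_GF hu)⁻¹) (by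
    intro v
    rw [v.ord_mul (mul_ne_zero hx hw0) (inv_ne_zero hu0), v.ord_mul hx hw0, v.ord_inv,
      ← hD v, h v]
    ring)
  refine ⟨c, u, w, hu, hw, ?_, ?_⟩
  · rintro rfl
    rw [map_zero] at hc
    exact hf0 hc.symm
  · rw [hc]
    field_simp

end Fermat.Agent.M18

end
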