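import Fermat.Prelude.Def_ModularCurve_ReductionModL
import Fermat.Agent.S24.AlgA
import Fermat.Agent.S24.SymDeg
import Fermat.Agent.S24.AnaTrans
import Fermat.Agent.S05.OrdOfSubring

/-!
# M18 / (V): the Gauss valuation and the reduction map on the function field of `X₀(N)`,
derived from the hypothesis `ReductionInputsModL` alone.  Part 1: definitions and the
comparison lemma for primitive integral `q`-series.
-/

set_option autoImplicit false

noncomputable section

open HahnSeries IntermediateField AlgebraicCurve ModularCurve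

namespace Fermat.Agent.M18

/-- the field of constants `ℚ̄`. -/
abbrev m18v_K : Type := AlgebraicClosure ℚ

/-- the function field of `X₀(N)` over `ℚ̄`. -/
abbrev m18v_F (N : ℕ) : Type := ↥(ModularCurve.modularFunctionFieldBar N)

/-- the residue field. -/
abbrev m18v_k (A : ValuationSubring m18v_K) : Type := IsLocalRing.ResidueField A

/-- the function field of `X₀(N)` over the residue field. -/
abbrev m18v_Ft (A : ValuationSubring m18v_K) (N : ℕ) : Type :=
  ↥(ModularCurve.modularFunctionFieldFullC (m18v_k A) N)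

/-- inclusion of integral `q`-series. -/
abbrev m18v_incl (A : ValuationSubring m18v_K) : LaurentSeries A →+* LaurentSeries m18v_K :=
  coeffMap A.subtype

/-- coefficientwise reduction of integral `q`-series. -/
abbrev m18v_redq (A : ValuationSubring m18v_K) : LaurentSeries A →+* LaurentSeries (m18v_k A) :=
  coeffMap (IsLocalRing.residue A)

theorem m18v_incl_injective (A : ValuationSubring m18v_K) : Function.Injective (m18v_incl A) := by
  intro x y hxy
  ext n
  have := congrArg (fun z => z.coeff n) hxy
  simpa using this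

variable {A : ValuationSubring m18v_K}

theorem m18v_incl_single (a : A) :
    m18v_incl A (HahnSeries.single 0 a) = HahnSeries.single 0 (a : m18v_K) :=
  coeffMap_single _ _ _

theorem m18v_redq_single (a : A) :
    m18v_redq A (HahnSeries.single 0 a) = HahnSeries.single 0 (IsLocalRing.residue A a) :=
  coeffMap_single _ _ _

theorem m18v_single_mul_coeff {R : Type*} [CommRing R] (a : R) (x : LaurentSeries R) (n : ℤ) :
    (HahnSeries.single 0 a * x).coeff n = a * x.coeff n := by
  have h := HahnSeries.coeff_single_mul_add (r := a) (x := x) (a := n) (b := (0 : ℤ))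
  rwa [add_zero] at h

theorem m18v_residue_eq_zero {a : A} (ha : ¬ IsUnit a) : IsLocalRing.residue A a = 0 := by
  rw [IsLocalRing.residue_eq_zero_iff]
  exact (IsLocalRing.mem_maximalIdeal a).2 ha

/-- **(P1)** if `Y = a • X` with `X` primitive and `Y` integral, then `a` is integral. -/
theorem m18v_mem_of_smul {a : m18v_K} {X Y : LaurentSeries A} (hX : m18v_redq A X ≠ 0)
    (h : m18v_incl A Y = HahnSeries.single 0 a * m18v_incl A X) : a ∈ A := by
  by_contra ha
  have hinv : a⁻¹ ∈ A := (A.mem_or_inv_mem a).resolve_left ha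
  have ha0 : a ≠ 0 := fun h0 => ha (h0 ▸ A.zero_mem)
  have hnu : ¬ IsUnit (⟨a⁻¹, hinv⟩ : A) := by
    intro hu
    obtain ⟨b, hb⟩ := hu.exists_right_inv
    have hb' : a⁻¹ * (b : m18v_K) = 1 := by
      have := congrArg Subtype.val hb
      simpa using this
    have : (b : m18v_K) = a := by
      field_simp at hb'
      exact hb'.symm ▸ rfl
    exact ha (this ▸ b.2)
  have hXY : X = HahnSeries.single 0 (⟨a⁻¹, hinv⟩ : A) * Y := by
    apply m18v_incl_injective A
    rw [map_mul, m18v_incl_single, h, ← mul_assoc, HahnSeries.single_mul_single, zero_add]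
    simp [inv_mul_cancel₀ ha0]
  apply hX
  rw [hXY, map_mul, m18v_redq_single, m18v_residue_eq_zero hnu]
  simp

/-- **(P1')** in the situation of (P1), `Y = a • X` as integral series. -/
theorem m18v_eq_smul {a : m18v_K} {X Y : LaurentSeries A} (ha : a ∈ A)
    (h : m18v_incl A Y = HahnSeries.single 0 a * m18v_incl A X) :
    Y = HahnSeries.single 0 (⟨a, ha⟩ : A) * X := by
  apply m18v_incl_injective A
  rw [map_mul, m18v_incl_single, h]

/-- **(P2)** two primitive integral series which are proportional differ by a unit of `A`. -/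
theorem m18v_unit_of_smul {a : m18v_K} {X Y : LaurentSeries A} (hX : m18v_redq A X ≠ 0)
    (hY : m18v_redq A Y ≠ 0)
    (h : m18v_incl A Y = HahnSeries.single 0 a * m18v_incl A X) :
    ∃ ha : a ∈ A, IsUnit (⟨a, ha⟩ : A) ∧
      m18v_redq A Y = HahnSeries.single 0 (IsLocalRing.residue A ⟨a, ha⟩) * m18v_redq A X := by
  have ha := m18v_mem_of_smul hX h
  have hYX := m18v_eq_smul ha h
  have hred : m18v_redq A Y =
      HahnSeries.single 0 (IsLocalRing.residue A ⟨a, ha⟩) * m18v_redq A X := by
    rw [hYX, map_mul, m18v_redq_single]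
  refine ⟨ha, ?_, hred⟩
  by_contra hnu
  apply hY
  rw [hred, m18v_residue_eq_zero hnu]
  simp

variable (A) (N : ℕ)

/-- good integral elements: integral `q`-series lying in `F` whose reduction is a nonzero
element of `F~`. -/
def m18v_G (y : LaurentSeries A) : Prop :=
  m18v_incl A y ∈ ModularCurve.modularFunctionFieldBar N ∧
    m18v_redq A y ∈ ModularCurve.modularFunctionFieldFullC (m18v_k A) N ∧ m18v_redq A y ≠ 0

variable {A N}

theorem m18v_G_one : m18v_G A N 1 := by
  refine ⟨?_, ?_, ?_⟩
  · rw [map_one]; exact one_mem _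
  · rw [map_one]; exact one_mem _
  · rw [map_one]; exact one_ne_zero

theorem m18v_G_mul {y z : LaurentSeries A} (hy : m18v_G A N y) (hz : m18v_G A N z) :
    m18v_G A N (y * z) := by
  refine ⟨?_, ?_, ?_⟩
  · rw [map_mul]; exact mul_mem hy.1 hz.1
  · rw [map_mul]; exact mul_mem hy.2.1 hz.2.1
  · rw [map_mul]; exact mul_ne_zero hy.2.2 hz.2.2

theorem m18v_G_ne_zero {y : LaurentSeries A} (hy : m18v_G A N y) : y ≠ 0 := by
  rintro rfl
  exact hy.2.2 (map_zero _)

theorem m18v_G_incl_ne_zero {y : LaurentSeries A} (hy : m18v_G A N y) : m18v_incl A y ≠ 0 := by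
  intro h
  exact m18v_G_ne_zero hy (m18v_incl_injective A (by rw [h, map_zero]))

/-- the element of `F` attached to a good integral series. -/
def m18v_GF {y : LaurentSeries A} (hy : m18v_G A N y) : m18v_F N := ⟨m18v_incl A y, hy.1⟩

/-- the element of `F~` attached to a good integral series. -/
def m18v_GFt {y : LaurentSeries A} (hy : m18v_G A N y) : m18v_Ft A N := ⟨m18v_redq A y, hy.2.1⟩

theorem m18v_GF_ne_zero {y : LaurentSeries A} (hy : m18v_G A N y) : m18v_GF hy ≠ 0 := by
  intro h
  exact m18v_G_incl_ne_zero hy (congrArg Subtype.val h)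

theorem m18v_GFt_ne_zero {y : LaurentSeries A} (hy : m18v_G A N y) : m18v_GFt hy ≠ 0 := by
  intro h
  exact hy.2.2 (congrArg Subtype.val h)

theorem m18v_GF_mul {y z : LaurentSeries A} (hy : m18v_G A N y) (hz : m18v_G A N z) :
    m18v_GF (m18v_G_mul hy hz) = m18v_GF hy * m18v_GF hz := by
  apply Subtype.ext
  show m18v_incl A (y * z) = m18v_incl A y * m18v_incl A z
  rw [map_mul]

theorem m18v_GFt_mul {y z : LaurentSeries A} (hy : m18v_G A N y) (hz : m18v_G A N z) :
    m18v_GFt (m18v_G_mul hy hz) = m18v_GFt hy * m18v_GFt hz := by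
  apply Subtype.ext
  show m18v_redq A (y * z) = m18v_redq A y * m18v_redq A z
  rw [map_mul]

theorem m18v_GF_one : m18v_GF (m18v_G_one (A := A) (N := N)) = 1 := by
  apply Subtype.ext
  show m18v_incl A 1 = 1
  rw [map_one]

theorem m18v_GFt_one : m18v_GFt (m18v_G_one (A := A) (N := N)) = 1 := by
  apply Subtype.ext
  show m18v_redq A 1 = 1
  rw [map_one]

end Fermat.Agent.M18

end
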