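import Fermat.Agent.M18.DifElts
import Fermat.Agent.M18.N1Inst
import Fermat.Agent.M18.VLift2
import Fermat.Agent.M18.Sq6Main

/-!
# M18: the two-level setup `F_N ⊂ F_{N'}` and the final wiring of S18

Owner helper3, prefix `m18v_`.

* `m18v_setup_lvl`: the Gauss ring of level `N` maps into the Gauss ring of level `N'`
  compatibly with the reductions (`m18nrm_Setup`), for `N ∣ N'`.
* `m18v_red_surj_lvl`: the reduction at level `N'` is onto.
* `m18v_S18_final`: the statement of S18, without hypotheses, from `m18dif_S18_of_lift`.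
-/

set_option autoImplicit false
set_option synthInstance.maxHeartbeats 400000
set_option maxHeartbeats 1600000
set_option linter.unusedSectionVars false
set_option linter.unusedVariables false
set_option linter.style.haveILetI false

noncomputable section

open HahnSeries IntermediateField AlgebraicCurve ModularCurve Fermat.Agent.S24 Module

namespace Fermat.Agent.M18

variable {A : ValuationSubring m18v_K} {N : ℕ} [NeZero N] {ℓ : ℕ} [Fact ℓ.Prime]

/-- the two-level setup: Gauss-integral elements of level `N` are Gauss-integral at level `N'`,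
with the same reduction. -/
theorem m18v_setup_lvl (h : ReductionInputsModL A N) {N' : ℕ} [NeZero N'] (hNN' : N ∣ N')
    (hdec' : m18sq_Dec A N') :
    letI := m18n1_algBar hNN'
    letI := m18n1_alg (m18v_k A) hNN'
    m18nrm_Setup (m18v_gauss h).O (m18v_gauss h).red (m18sq3_O A N') (m18sq3_red hdec') := by
  letI := m18n1_algBar hNN'
  letI := m18n1_alg (m18v_k A) hNN'
  have hmem : ∀ (x : LaurentSeries m18v_K) (hx : x ∈ modularFunctionFieldBar N),
      m18v_Int A N ⟨x, hx⟩ →
      algebraMap (m18v_F N) (m18v_F N') ⟨x, hx⟩ ∈ m18sq3_O A N' := by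
    intro x hx hy
    rw [m18n1_bar_map_mk hNN' x hx]
    exact (m18sq_Int_level_of hNN' hx _ hy).1
  refine ⟨?_, fun y => hmem y.1.1 y.1.2 y.2, ?_⟩
  · intro y hy
    by_contra hne
    exact hy ((m18v_gauss h).isUnit_of_red_ne_zero y hne)
  · intro y
    apply Subtype.ext
    rw [m18n1_coe (m18v_k A) hNN']
    have h1 : ((m18sq3_red hdec' ⟨algebraMap (m18v_F N) (m18v_F N') (y : m18v_F N),
        hmem y.1.1 y.1.2 y.2⟩ : m18v_Ft A N') : LaurentSeries (m18v_k A)) =
        m18v_redL A N' (algebraMap (m18v_F N) (m18v_F N') (y : m18v_F N)) := rfl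
    have h2 : (((m18v_gauss h).red y : m18v_Ft A N) : LaurentSeries (m18v_k A)) =
        m18v_redL A N (y : m18v_F N) := rfl
    rw [h1, h2]
    have h3 : algebraMap (m18v_F N) (m18v_F N') (y : m18v_F N) =
        ⟨(y : m18v_F N).1, m18n1_bar_le hNN' (y : m18v_F N).2⟩ :=
      m18n1_bar_map_mk hNN' _ _
    rw [h3]
    exact (m18sq_Int_level_of hNN' (y : m18v_F N).2 _ y.2).2

/-- the reduction at level `N'` is onto. -/
theorem m18v_red_surj_lvl {N' : ℕ} [NeZero N'] (hdec' : m18sq_Dec A N') :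
    Function.Surjective (m18sq3_red hdec') := by
  intro y
  obtain ⟨x, hI, hx⟩ := m18sq_red_surjective hdec' y
  exact ⟨⟨x, hI⟩, hx⟩

/-- **S18**: the reduction modulo `ℓ` is injective on the prime-to-`ℓ` torsion of `J₀(N)`. -/
theorem m18v_S18_final (hℓN : ¬ ℓ ∣ N) (hA : A.LiesOverPrime ℓ)
    (h : ModularCurve.ReductionInputsModL A N)
    (m : ℕ) (hm : ¬ ℓ ∣ m) (z : ModularCurve.JZero N)
    (hmz : m • z = 0) (hz : ModularCurve.reductionModL A N z = 0) : z = 0 := by
  obtain ⟨N', hN'0, hNN', hℓ, h49⟩ := m18sq6_exists_level ℓ N hℓN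
  haveI : NeZero N' := ⟨hN'0⟩
  letI := m18n1_algBar hNN'
  letI := m18n1_alg (m18v_k A) hNN'
  haveI := m18n1_bar_tower hNN'
  haveI := m18n1_tower (m18v_k A) hNN'
  haveI := m18n1_fd_res hA hNN' hℓ
  haveI := m18n1_sep_res hA hNN' hℓ
  have hl := m18v_liftProp_subring (K := m18v_K) (k := m18v_k A) (s24j N) (m18sq_jt A N)
    (m18v_Int A N') (m18sq_red (m18sq_dec hA hℓ))
    (m18v_hlift hA N' h49 hℓ (m18n1_map_sj hNN') (m18n1_map_jt A hNN'))
    (m18sq3_O A N') (m18sq3_red (m18sq_dec hA hℓ)) (fun y hI => hI) (fun b => rfl)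
  have hli := m18v_liftProp_subring (K := m18v_K) (k := m18v_k A) (s24j N)⁻¹ (m18sq_jt A N)⁻¹
    (m18v_Int A N') (m18sq_red (m18sq_dec hA hℓ))
    (m18v_hlifti hA N' h49 hℓ (m18n1_map_sj hNN') (m18n1_map_jt A hNN'))
    (m18sq3_O A N') (m18sq3_red (m18sq_dec hA hℓ)) (fun y hI => hI) (fun b => rfl)
  exact m18dif_S18_of_lift hℓN hA h (m18v_setup_lvl h hNN' (m18sq_dec hA hℓ))
    (m18v_red_surj_lvl (m18sq_dec hA hℓ)) (m18n1_finrank hA hNN' hℓ) hl hli m hm z hmz hz

end Fermat.Agent.M18

end
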