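import Fermat.Agent.M18.VRed2

/-!
# M18 / (V), part 6: **(H-loc)** — the divisor of the reduction of a Gauss unit is the
image of its divisor under the place reduction `r`; consequences.
-/

set_option autoImplicit false
set_option synthInstance.maxHeartbeats 400000

noncomputable section

open HahnSeries IntermediateField AlgebraicCurve ModularCurve

namespace Fermat.Agent.M18

open Fermat.Agent.S24

variable {A : ValuationSubring m18v_K} {N : ℕ}

open Classical in
/-- the value of `mapDomain r D` at `Q` is the sum of `D` over the fibre of `r` over `Q`. -/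
theorem m18v_mapDomain_apply {α β : Type*} (r : α → β) (D : α →₀ ℤ) (Q : β) :
    Finsupp.mapDomain r D Q = ∑ P ∈ D.support, if r P = Q then D P else 0 := by
  rw [Finsupp.mapDomain, Finsupp.sum_apply, Finsupp.sum]
  refine Finset.sum_congr rfl fun P _ => ?_
  rw [Finsupp.single_apply]

/-- if the fibre sum is nonzero, the fibre is nonempty. -/
theorem m18v_exists_of_mapDomain_ne_zero {α β : Type*} (r : α → β) (D : α →₀ ℤ) (Q : β)
    (h : Finsupp.mapDomain r D Q ≠ 0) : ∃ P, r P = Q ∧ D P ≠ 0 := by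
  classical
  rw [m18v_mapDomain_apply] at h
  obtain ⟨P, hP, hne⟩ := Finset.exists_ne_zero_of_sum_ne_zero h
  by_cases hr : r P = Q
  · rw [if_pos hr] at hne
    exact ⟨P, hr, hne⟩
  · rw [if_neg hr] at hne
    exact absurd rfl hne

/-- positivity of a fibre sum. -/
theorem m18v_mapDomain_pos {α β : Type*} (r : α → β) (D : α →₀ ℤ) (Q : β)
    (hnn : ∀ P, r P = Q → 0 ≤ D P) {P₀ : α} (hP₀ : r P₀ = Q) (hpos : 0 < D P₀) :
    0 < Finsupp.mapDomain r D Q := by
  classical
  rw [m18v_mapDomain_apply]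
  have hmem : P₀ ∈ D.support := Finsupp.mem_support_iff.2 hpos.ne'
  refine Finset.sum_pos' (fun P _ => ?_) ⟨P₀, hmem, ?_⟩
  · by_cases hr : r P = Q
    · rw [if_pos hr]; exact hnn P hr
    · rw [if_neg hr]
  · rw [if_pos hP₀]; exact hpos

section

variable [NeZero N]
  {r : Place m18v_K (m18v_F N) → Place (m18v_k A) (m18v_Ft A N)}

/-- the divisor of a nonzero element of `F`. -/
theorem m18v_exists_div {x : m18v_F N} (hx : x ≠ 0) :
    ∃ D : Divisor m18v_K (m18v_F N), (∀ P, D P = P.ord x) ∧ Divisor.degree D = 0 :=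
  (m18v_hasPrincipalDivisors N).exists_divisor x hx

/-- (H-loc) for good integral series: this is the hypothesis. -/
theorem m18v_hloc_G (hr : IsPlaceReductionAlong A (IsLocalRing.residue A) N r)
    {y : LaurentSeries A} (hy : m18v_G A N y) {D : Divisor m18v_K (m18v_F N)}
    (hD : ∀ P, D P = P.ord (m18v_GF hy)) (Q : Place (m18v_k A) (m18v_Ft A N)) :
    Finsupp.mapDomain r D Q = Q.ord (m18v_GFt hy) :=
  hr.2 y hy.1 hy.2.1 hy.2.2 D hD Q

/-- a Gauss unit is a quotient of two good integral series. -/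
theorem m18v_unit_quot (hgen : PrincipalGeneratedByIntegral A (IsLocalRing.residue A) N)
    {x : m18v_F N} (hI : m18v_Int A N x) (hred : m18v_redL A N x ≠ 0) :
    ∃ (X w : LaurentSeries A) (hX : m18v_G A N X) (hw : m18v_G A N w),
      x * m18v_GF hw = m18v_GF hX ∧ m18v_red hgen x * m18v_GFt hw = m18v_GFt hX := by
  obtain ⟨X, w, hw, h⟩ := hI
  have hXred : m18v_redq A X ≠ 0 := by
    rw [← m18v_redL_mul hw h]
    exact mul_ne_zero hred hw.2.2
  have hXF : m18v_incl A X ∈ ModularCurve.modularFunctionFieldBar N := by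
    rw [← h]
    exact mul_mem x.2 hw.1
  have hXG := m18v_G_of_primitive hgen hXF hXred
  exact ⟨X, w, hXG, hw, Subtype.ext h, Subtype.ext (m18v_redL_mul hw h)⟩

/-- **(H-loc)** for `x` a unit of the Gauss valuation ring (integral with nonzero reduction)
and `D = div x`: `r_* D = div (red x)`. -/
theorem m18v_hloc (hr : IsPlaceReductionAlong A (IsLocalRing.residue A) N r)
    (hgen : PrincipalGeneratedByIntegral A (IsLocalRing.residue A) N)
    {x : m18v_F N} (hI : m18v_Int A N x) (hred : m18v_redL A N x ≠ 0)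
    {D : Divisor m18v_K (m18v_F N)} (hD : ∀ P, D P = P.ord x)
    (Q : Place (m18v_k A) (m18v_Ft A N)) :
    Finsupp.mapDomain r D Q = Q.ord (m18v_red hgen x) := by
  obtain ⟨X, w, hX, hw, h, h'⟩ := m18v_unit_quot hgen hI hred
  obtain ⟨DX, hDX, -⟩ := m18v_exists_div (m18v_GF_ne_zero hX)
  obtain ⟨Dw, hDw, -⟩ := m18v_exists_div (m18v_GF_ne_zero hw)
  have hx : x ≠ 0 := by
    rintro rfl
    exact hred m18v_redL_zero
  have hDeq : D = DX - Dw := by
    ext P
    rw [Finsupp.sub_apply, hD P, hDX P, hDw P, ← h, P.ord_mul hx (m18v_GF_ne_zero hw)]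
    ring
  have hredx : m18v_red hgen x ≠ 0 := fun h0 => hred (congrArg Subtype.val h0)
  rw [hDeq, Finsupp.mapDomain_sub, Finsupp.sub_apply, m18v_hloc_G hr hX hDX Q,
    m18v_hloc_G hr hw hDw Q, ← h', Q.ord_mul hredx (m18v_GFt_ne_zero hw)]
  ring

/-- the principal divisor of `red x` exists and has degree `0`. -/
theorem m18v_exists_div_red (hr : IsPlaceReductionAlong A (IsLocalRing.residue A) N r)
    (hgen : PrincipalGeneratedByIntegral A (IsLocalRing.residue A) N)
    {x : m18v_F N} (hI : m18v_Int A N x) (hred : m18v_redL A N x ≠ 0) :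
    ∃ D : Divisor m18v_K (m18v_F N), (∀ P, D P = P.ord x) ∧ Divisor.degree D = 0 ∧
      (∀ Q, Finsupp.mapDomain r D Q = Q.ord (m18v_red hgen x)) ∧
      Divisor.degree (Finsupp.mapDomain r D) = 0 := by
  have hx : x ≠ 0 := by
    rintro rfl
    exact hred m18v_redL_zero
  obtain ⟨D, hD, hdeg⟩ := m18v_exists_div hx
  refine ⟨D, hD, hdeg, fun Q => m18v_hloc hr hgen hI hred hD Q, ?_⟩
  rw [degree_mapDomain_of_deg_eq hr.1, hdeg]

/-- **the function field `F~` has principal divisors** (finite support, degree `0`). -/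
theorem m18v_hasPrincipalDivisors_res
    (hr : IsPlaceReductionAlong A (IsLocalRing.residue A) N r)
    (hgen : PrincipalGeneratedByIntegral A (IsLocalRing.residue A) N) :
    HasPrincipalDivisors (m18v_k A) (m18v_Ft A N) := by
  refine ⟨fun f hf => ?_⟩
  obtain ⟨x, hI, rfl⟩ := m18v_red_surjective hgen f
  have hred : m18v_redL A N x ≠ 0 := fun h0 => hf (Subtype.ext h0)
  obtain ⟨D, -, -, hQ, hdeg⟩ := m18v_exists_div_red hr hgen hI hred
  exact ⟨Finsupp.mapDomain r D, hQ, hdeg⟩

/-- **`r` is onto.** -/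
theorem m18v_r_surjective (hr : IsPlaceReductionAlong A (IsLocalRing.residue A) N r)
    (hgen : PrincipalGeneratedByIntegral A (IsLocalRing.residue A) N) :
    Function.Surjective r := by
  intro Q
  obtain ⟨π, hπ⟩ := IsDiscreteValuationRing.exists_irreducible Q.toValuationSubring
  have hord : Q.ord (π : m18v_Ft A N) = 1 := Q.ord_coe_irreducible hπ
  have hπ0 : (π : m18v_Ft A N) ≠ 0 := by
    intro h0
    rw [h0, Place.ord_zero] at hord
    exact zero_ne_one hord
  obtain ⟨x, hI, hx⟩ := m18v_red_surjective hgen (π : m18v_Ft A N)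
  have hred : m18v_redL A N x ≠ 0 := by
    intro h0
    apply hπ0
    rw [← hx]
    exact Subtype.ext h0
  obtain ⟨D, -, -, hQ, -⟩ := m18v_exists_div_red hr hgen hI hred
  have hne : Finsupp.mapDomain r D Q ≠ 0 := by
    rw [hQ Q, hx, hord]
    exact one_ne_zero
  obtain ⟨P, hP, -⟩ := m18v_exists_of_mapDomain_ne_zero r D Q hne
  exact ⟨P, hP⟩

/-- (H-loc), positivity form: a Gauss unit without poles in the tube of `Q` and with a zero
in it reduces to a function vanishing at `Q`. -/
theorem m18v_ord_red_pos (hr : IsPlaceReductionAlong A (IsLocalRing.residue A) N r)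
    (hgen : PrincipalGeneratedByIntegral A (IsLocalRing.residue A) N)
    {x : m18v_F N} (hI : m18v_Int A N x) (hred : m18v_redL A N x ≠ 0)
    {P₀ : Place m18v_K (m18v_F N)} (hnn : ∀ P, r P = r P₀ → 0 ≤ P.ord x)
    (hpos : 0 < P₀.ord x) : 0 < (r P₀).ord (m18v_red hgen x) := by
  obtain ⟨D, hD, -, hQ, -⟩ := m18v_exists_div_red hr hgen hI hred
  rw [← hQ (r P₀)]
  exact m18v_mapDomain_pos r D (r P₀) (fun P hP => by rw [hD P]; exact hnn P hP) rfl
    (by rw [hD P₀]; exact hpos)

/-- (H-loc), regularity form: a Gauss unit without poles in the tube of `Q` reduces to a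
function regular at `Q`. -/
theorem m18v_ord_red_nonneg (hr : IsPlaceReductionAlong A (IsLocalRing.residue A) N r)
    (hgen : PrincipalGeneratedByIntegral A (IsLocalRing.residue A) N)
    {x : m18v_F N} (hI : m18v_Int A N x) (hred : m18v_redL A N x ≠ 0)
    (Q : Place (m18v_k A) (m18v_Ft A N)) (hnn : ∀ P, r P = Q → 0 ≤ P.ord x) :
    0 ≤ Q.ord (m18v_red hgen x) := by
  classical
  obtain ⟨D, hD, -, hQ, -⟩ := m18v_exists_div_red hr hgen hI hred
  rw [← hQ Q, m18v_mapDomain_apply]
  refine Finset.sum_nonneg fun P _ => ?_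
  by_cases hP : r P = Q
  · rw [if_pos hP, hD P]; exact hnn P hP
  · rw [if_neg hP]

end

end Fermat.Agent.M18

end
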