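import Mathlib

/-!
# M18 / plumbing: transport of integrality over `K[x]` along a field extension `F ⊂ F'`

Owner helper3, prefix `m18v_`.  Mathlib only.

For fields `K ⊆ F ⊆ F'`, `x : F`, `t : F'`:
`IsIntegral (Algebra.adjoin K {x}) t ↔ IsIntegral (Algebra.adjoin K {algebraMap F F' x}) t`
(left: `F'` as an algebra over the subalgebra `K[x] ⊂ F` through `F`; right: everything inside
`F'`), and the same for `x⁻¹`.
-/

set_option autoImplicit false

noncomputable section

namespace Fermat.Agent.M18

section generic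

variable {K F F' : Type*} [Field K] [Field F] [Field F'] [Algebra K F] [Algebra K F']
  [Algebra F F'] [IsScalarTower K F F']

/-- the subalgebra `K[x] ⊂ F` maps isomorphically onto `K[x'] ⊂ F'`, `x' = algebraMap F F' x`. -/
def m18v_adjoinEquiv (x : F) :
    ↥(Algebra.adjoin K ({x} : Set F)) ≃ₐ[K] ↥(Algebra.adjoin K ({algebraMap F F' x} : Set F')) :=
  ((Algebra.adjoin K ({x} : Set F)).equivMapOfInjective (IsScalarTower.toAlgHom K F F')
    (algebraMap F F').injective).trans
    (Subalgebra.equivOfEq _ _ (by
      rw [AlgHom.map_adjoin, Set.image_singleton]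
      rfl))

theorem m18v_adjoinEquiv_coe (x : F) (s : ↥(Algebra.adjoin K ({x} : Set F))) :
    ((m18v_adjoinEquiv (K := K) (F' := F') x s :
      ↥(Algebra.adjoin K ({algebraMap F F' x} : Set F'))) : F') = algebraMap F F' (s : F) := rfl

theorem m18v_adjoinEquiv_comp (x : F) :
    (algebraMap ↥(Algebra.adjoin K ({algebraMap F F' x} : Set F')) F').comp
      (m18v_adjoinEquiv (K := K) (F' := F') x : ↥(Algebra.adjoin K ({x} : Set F)) →+*
        ↥(Algebra.adjoin K ({algebraMap F F' x} : Set F')))
      = algebraMap ↥(Algebra.adjoin K ({x} : Set F)) F' := by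
  ext s
  rfl

theorem m18v_adjoinEquiv_symm_comp (x : F) :
    (algebraMap ↥(Algebra.adjoin K ({x} : Set F)) F').comp
      ((m18v_adjoinEquiv (K := K) (F' := F') x).symm :
        ↥(Algebra.adjoin K ({algebraMap F F' x} : Set F')) →+*
          ↥(Algebra.adjoin K ({x} : Set F)))
      = algebraMap ↥(Algebra.adjoin K ({algebraMap F F' x} : Set F')) F' := by
  ext s
  obtain ⟨s', rfl⟩ := (m18v_adjoinEquiv (K := K) (F' := F') x).surjective s
  have h := congrArg (fun f => f s') (m18v_adjoinEquiv_comp (K := K) (F' := F') x)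
  simp only [RingHom.comp_apply] at h ⊢
  have h2 : ((m18v_adjoinEquiv (K := K) (F' := F') x).symm :
      ↥(Algebra.adjoin K ({algebraMap F F' x} : Set F')) →+*
        ↥(Algebra.adjoin K ({x} : Set F))) (m18v_adjoinEquiv (K := K) (F' := F') x s') = s' :=
    (m18v_adjoinEquiv (K := K) (F' := F') x).symm_apply_apply s'
  rw [h2]
  exact h.symm

/-- **transport of integrality** between the mixed form (coefficients in `K[x] ⊂ F`, element
of `F'`) and the form inside `F'`. -/
theorem m18v_isIntegral_adjoin_map_iff (x : F) (t : F') :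
    IsIntegral ↥(Algebra.adjoin K ({x} : Set F)) t ↔
      IsIntegral ↥(Algebra.adjoin K ({algebraMap F F' x} : Set F')) t := by
  constructor
  · intro h
    have := IsIntegral.map_of_comp_eq
      (m18v_adjoinEquiv (K := K) (F' := F') x : ↥(Algebra.adjoin K ({x} : Set F)) →+*
        ↥(Algebra.adjoin K ({algebraMap F F' x} : Set F'))) (RingHom.id F')
      (by rw [m18v_adjoinEquiv_comp]; rfl) h
    simpa using this
  · intro h
    have := IsIntegral.map_of_comp_eq
      ((m18v_adjoinEquiv (K := K) (F' := F') x).symm :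
        ↥(Algebra.adjoin K ({algebraMap F F' x} : Set F')) →+*
          ↥(Algebra.adjoin K ({x} : Set F))) (RingHom.id F')
      (by rw [m18v_adjoinEquiv_symm_comp]; rfl) h
    simpa using this

/-- the same for the chart `x⁻¹`. -/
theorem m18v_isIntegral_adjoin_map_inv_iff (x : F) (t : F') :
    IsIntegral ↥(Algebra.adjoin K ({x⁻¹} : Set F)) t ↔
      IsIntegral ↥(Algebra.adjoin K ({(algebraMap F F' x)⁻¹} : Set F')) t := by
  rw [m18v_isIntegral_adjoin_map_iff (K := K) (F' := F') x⁻¹ t, map_inv₀]

/-- transport with a named image. -/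
theorem m18v_isIntegral_adjoin_of_map (x : F) (x' : F') (hx : algebraMap F F' x = x') (t : F') :
    IsIntegral ↥(Algebra.adjoin K ({x} : Set F)) t ↔
      IsIntegral ↥(Algebra.adjoin K ({x'} : Set F')) t := by
  subst hx
  exact m18v_isIntegral_adjoin_map_iff x t

theorem m18v_isIntegral_adjoin_inv_of_map (x : F) (x' : F') (hx : algebraMap F F' x = x')
    (t : F') :
    IsIntegral ↥(Algebra.adjoin K ({x⁻¹} : Set F)) t ↔
      IsIntegral ↥(Algebra.adjoin K ({x'⁻¹} : Set F')) t := by
  subst hx
  exact m18v_isIntegral_adjoin_map_inv_iff x t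

end generic

end Fermat.Agent.M18

end
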