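import Fermat.Agent.M18.VRed2

/-!
# M18 / (V), part 5: the `ℚ`-valued Gauss valuation on `F`.

Given a `ℚ`-valued valuation `O` of `ℚ̄` with valuation ring `A`, the Gauss valuation of
`x = c · u / w` (`u, w` good integral `q`-series) is `O.ord c`.
-/

set_option autoImplicit false
set_option synthInstance.maxHeartbeats 400000

noncomputable section

open HahnSeries IntermediateField AlgebraicCurve ModularCurve

namespace Fermat.Agent.M18

open Fermat.Agent.S05

variable {A : ValuationSubring m18v_K} {N : ℕ}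

/-- `O` is a `ℚ`-valued valuation of `ℚ̄` with valuation ring `A`. -/
structure m18v_OA (A : ValuationSubring m18v_K) (O : OrdVal m18v_K) : Prop where
  mem_iff : ∀ x : m18v_K, x ≠ 0 → (x ∈ A ↔ 0 ≤ O.ord x)
  nonunit_iff : ∀ x : m18v_K, x ≠ 0 → (x ∈ A.nonunits ↔ 0 < O.ord x)

/-- existence of the `ℚ`-valued valuation. -/
theorem m18v_exists_OA (A : ValuationSubring m18v_K) (ℓ : ℕ) (hℓ : ℓ.Prime)
    (hA : (ℓ : m18v_K) ∈ A.nonunits) :
    ∃ O : OrdVal m18v_K, m18v_OA A O ∧ O.ord (ℓ : m18v_K) = 1 := by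
  obtain ⟨O, h1, h2, h3⟩ := exists_ordVal_of_valuationSubring A ℓ hℓ hA
  exact ⟨O, ⟨h1, h2⟩, h3⟩

theorem m18v_OA.ord_unit {O : OrdVal m18v_K} (hO : m18v_OA A O) {a : m18v_K} (ha : a ∈ A)
    (hu : IsUnit (⟨a, ha⟩ : A)) : O.ord a = 0 := by
  have ha0 : a ≠ 0 := by
    rintro rfl
    have h0 : (⟨0, ha⟩ : A) = 0 := rfl
    rw [h0] at hu
    exact not_isUnit_zero hu
  have h1 : 0 ≤ O.ord a := (hO.mem_iff a ha0).1 ha
  have h2 : ¬ (0 < O.ord a) := by
    intro hpos
    have hn : a ∈ A.nonunits := (hO.nonunit_iff a ha0).2 hpos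
    have : (⟨a, ha⟩ : A) ∈ IsLocalRing.maximalIdeal A :=
      (ValuationSubring.coe_mem_nonunits_iff (a := (⟨a, ha⟩ : A))).1 hn
    exact (IsLocalRing.mem_maximalIdeal _).1 this hu
  linarith [not_lt.1 h2]

theorem m18v_OA.pos_of_not_unit {O : OrdVal m18v_K} (hO : m18v_OA A O) {a : m18v_K} (ha : a ∈ A)
    (ha0 : a ≠ 0) (hu : ¬ IsUnit (⟨a, ha⟩ : A)) : 0 < O.ord a := by
  apply (hO.nonunit_iff a ha0).1
  apply (ValuationSubring.coe_mem_nonunits_iff (a := (⟨a, ha⟩ : A))).2
  exact (IsLocalRing.mem_maximalIdeal _).2 hu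

section

variable [NeZero N] (O : OrdVal m18v_K)
  (hgen : PrincipalGeneratedByIntegral A (IsLocalRing.residue A) N)

open Classical in
/-- the Gauss valuation (junk value `0` at `0`). -/
def m18v_ordF (x : m18v_F N) : ℚ :=
  if hx : x = 0 then 0 else O.ord (m18v_decomp hgen hx).choose

variable {O} {hgen}

theorem m18v_decomp_coe {x : m18v_F N} {c : m18v_K} {u w : LaurentSeries A}
    {hu : m18v_G A N u} {hw : m18v_G A N w}
    (h : x * m18v_GF hw = algebraMap m18v_K (m18v_F N) c * m18v_GF hu) :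
    (x : LaurentSeries m18v_K) * m18v_incl A w = HahnSeries.single 0 c * m18v_incl A u := by
  have := congrArg Subtype.val h
  rw [← m18v_coe_algebraMap (N := N)]
  exact this

/-- **(ORD)** the Gauss valuation of `c · u / w` is the valuation of `c`. -/
theorem m18v_ordF_eq (hO : m18v_OA A O) {x : m18v_F N} {c : m18v_K} {u w : LaurentSeries A}
    (hu : m18v_G A N u) (hw : m18v_G A N w) (hc : c ≠ 0)
    (h : x * m18v_GF hw = algebraMap m18v_K (m18v_F N) c * m18v_GF hu) :
    m18v_ordF O hgen x = O.ord c := by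
  have hx : x ≠ 0 := by
    rintro rfl
    rw [zero_mul] at h
    have h0 : algebraMap m18v_K (m18v_F N) c ≠ 0 := by
      rw [Ne, map_eq_zero_iff _ (algebraMap m18v_K (m18v_F N)).injective]
      exact hc
    exact mul_ne_zero h0 (m18v_GF_ne_zero hu) h.symm
  rw [m18v_ordF, dif_neg hx]
  obtain ⟨u₀, w₀, hu₀, hw₀, hc₀, h₀⟩ := (m18v_decomp hgen hx).choose_spec
  set c₀ := (m18v_decomp hgen hx).choose
  have e := m18v_decomp_coe h
  have e₀ := m18v_decomp_coe h₀
  have hx' : (x : LaurentSeries m18v_K) ≠ 0 := fun h0 => hx (Subtype.ext h0)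
  have key : m18v_incl A (u₀ * w) = HahnSeries.single 0 (c / c₀) * m18v_incl A (u * w₀) := by
    have hcc : (HahnSeries.single 0 (c / c₀) : LaurentSeries m18v_K) * HahnSeries.single 0 c₀ =
        HahnSeries.single 0 c := by
      rw [HahnSeries.single_mul_single, zero_add, div_mul_cancel₀ _ hc₀]
    have hsc₀ : (HahnSeries.single 0 c₀ : LaurentSeries m18v_K) ≠ 0 := by
      simpa using hc₀
    apply mul_left_cancel₀ hsc₀
    rw [map_mul, map_mul]
    calc HahnSeries.single 0 c₀ * (m18v_incl A u₀ * m18v_incl A w)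
        = (HahnSeries.single 0 c₀ * m18v_incl A u₀) * m18v_incl A w := by ring
      _ = ((x : LaurentSeries m18v_K) * m18v_incl A w₀) * m18v_incl A w := by rw [e₀]
      _ = ((x : LaurentSeries m18v_K) * m18v_incl A w) * m18v_incl A w₀ := by ring
      _ = (HahnSeries.single 0 c * m18v_incl A u) * m18v_incl A w₀ := by rw [e]
      _ = (HahnSeries.single 0 (c / c₀) * HahnSeries.single 0 c₀) *
            (m18v_incl A u * m18v_incl A w₀) := by rw [hcc]; ring
      _ = HahnSeries.single 0 c₀ *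
            (HahnSeries.single 0 (c / c₀) * (m18v_incl A u * m18v_incl A w₀)) := by ring
  obtain ⟨ha, hunit, -⟩ := m18v_unit_of_smul (m18v_G_mul hu hw₀).2.2 (m18v_G_mul hu₀ hw).2.2 key
  have h0 := hO.ord_unit ha hunit
  rw [O.ord_div hc hc₀] at h0
  linarith

theorem m18v_ordF_zero : m18v_ordF O hgen (0 : m18v_F N) = 0 := by
  rw [m18v_ordF, dif_pos rfl]

theorem m18v_ordF_exists (hO : m18v_OA A O) {x : m18v_F N} (hx : x ≠ 0) :
    ∃ (c : m18v_K) (u w : LaurentSeries A) (hu : m18v_G A N u) (hw : m18v_G A N w),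
      c ≠ 0 ∧ x * m18v_GF hw = algebraMap m18v_K (m18v_F N) c * m18v_GF hu ∧
      m18v_ordF O hgen x = O.ord c := by
  obtain ⟨c, u, w, hu, hw, hc, h⟩ := m18v_decomp hgen hx
  exact ⟨c, u, w, hu, hw, hc, h, m18v_ordF_eq hO hu hw hc h⟩

theorem m18v_ordF_mul (hO : m18v_OA A O) {x y : m18v_F N} (hx : x ≠ 0) (hy : y ≠ 0) :
    m18v_ordF O hgen (x * y) = m18v_ordF O hgen x + m18v_ordF O hgen y := by
  obtain ⟨c, u, w, hu, hw, hc, h, e⟩ := m18v_ordF_exists (hgen := hgen) hO hx
  obtain ⟨c', u', w', hu', hw', hc', h', e'⟩ := m18v_ordF_exists (hgen := hgen) hO hy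
  have hxy : x * y * m18v_GF (m18v_G_mul hw hw') =
      algebraMap m18v_K (m18v_F N) (c * c') * m18v_GF (m18v_G_mul hu hu') := by
    rw [m18v_GF_mul hw hw', m18v_GF_mul hu hu', map_mul]
    calc x * y * (m18v_GF hw * m18v_GF hw') = (x * m18v_GF hw) * (y * m18v_GF hw') := by ring
      _ = _ := by rw [h, h']; ring
  rw [m18v_ordF_eq hO _ _ (mul_ne_zero hc hc') hxy, e, e', O.ord_mul hc hc']

theorem m18v_ordF_const (hO : m18v_OA A O) {c : m18v_K} (hc : c ≠ 0) :
    m18v_ordF O hgen (algebraMap m18v_K (m18v_F N) c) = O.ord c :=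
  m18v_ordF_eq hO m18v_G_one m18v_G_one hc rfl

theorem m18v_ordF_GF (hO : m18v_OA A O) {y : LaurentSeries A} (hy : m18v_G A N y) :
    m18v_ordF O hgen (m18v_GF hy) = 0 := by
  have h : m18v_GF hy * m18v_GF (m18v_G_one (A := A) (N := N)) =
      algebraMap m18v_K (m18v_F N) 1 * m18v_GF hy := by
    rw [m18v_GF_one, map_one, mul_one, one_mul]
  rw [m18v_ordF_eq hO hy m18v_G_one one_ne_zero h, O.ord_one]

/-- integral elements are those of nonnegative valuation. -/
theorem m18v_Int_iff (hO : m18v_OA A O) {x : m18v_F N} (hx : x ≠ 0) :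
    m18v_Int A N x ↔ 0 ≤ m18v_ordF O hgen x := by
  obtain ⟨c, u, w, hu, hw, hc, h, e⟩ := m18v_ordF_exists (hgen := hgen) hO hx
  have e' := m18v_decomp_coe h
  rw [e]
  constructor
  · rintro ⟨X, W, hW, hX⟩
    have key : m18v_incl A (X * w) = HahnSeries.single 0 c * m18v_incl A (u * W) := by
      rw [map_mul, map_mul, ← hX]
      calc (x : LaurentSeries m18v_K) * m18v_incl A W * m18v_incl A w
          = ((x : LaurentSeries m18v_K) * m18v_incl A w) * m18v_incl A W := by ring
        _ = _ := by rw [e']; ring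
    have hcA := m18v_mem_of_smul (m18v_G_mul hu hW).2.2 key
    exact (hO.mem_iff c hc).1 hcA
  · intro h0
    have hcA : c ∈ A := (hO.mem_iff c hc).2 h0
    refine ⟨HahnSeries.single 0 (⟨c, hcA⟩ : A) * u, w, hw, ?_⟩
    rw [e', map_mul, m18v_incl_single]

/-- the maximal ideal: integral elements with zero reduction are those of positive valuation. -/
theorem m18v_redL_eq_zero_iff (hO : m18v_OA A O) {x : m18v_F N} (hx : x ≠ 0)
    (hI : m18v_Int A N x) : m18v_redL A N x = 0 ↔ 0 < m18v_ordF O hgen x := by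
  obtain ⟨c, u, w, hu, hw, hc, h, e⟩ := m18v_ordF_exists (hgen := hgen) hO hx
  have e' := m18v_decomp_coe h
  have hcA : c ∈ A := (hO.mem_iff c hc).2 (by rw [← e]; exact (m18v_Int_iff hO hx).1 hI)
  have hX : (x : LaurentSeries m18v_K) * m18v_incl A w =
      m18v_incl A (HahnSeries.single 0 (⟨c, hcA⟩ : A) * u) := by
    rw [e', map_mul, m18v_incl_single]
  have hred := m18v_redL_mul hw hX
  rw [map_mul, m18v_redq_single] at hred
  rw [e]
  constructor
  · intro h0
    rw [h0, zero_mul] at hred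
    have hres : IsLocalRing.residue A ⟨c, hcA⟩ = 0 := by
      rcases mul_eq_zero.1 hred.symm with h1 | h1
      · simpa using h1
      · exact absurd h1 hu.2.2
    have hnu : ¬ IsUnit (⟨c, hcA⟩ : A) := by
      intro hu'
      rw [IsLocalRing.residue_eq_zero_iff] at hres
      exact (IsLocalRing.mem_maximalIdeal _).1 hres hu'
    exact hO.pos_of_not_unit hcA hc hnu
  · intro hpos
    have hnu : ¬ IsUnit (⟨c, hcA⟩ : A) := by
      intro hu'
      have := hO.ord_unit hcA hu'
      linarith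
    rw [m18v_residue_eq_zero hnu] at hred
    have : m18v_redL A N x * m18v_redq A w = 0 := by
      rw [hred]; simp
    rcases mul_eq_zero.1 this with h1 | h1
    · exact h1
    · exact absurd h1 hw.2.2

theorem m18v_ordF_add (hO : m18v_OA A O) {x y : m18v_F N} (hx : x ≠ 0) (hy : y ≠ 0)
    (hxy : x + y ≠ 0) :
    min (m18v_ordF O hgen x) (m18v_ordF O hgen y) ≤ m18v_ordF O hgen (x + y) := by
  wlog hle : m18v_ordF O hgen x ≤ m18v_ordF O hgen y generalizing x y
  · have := this hy hx (by rwa [add_comm]) (le_of_not_ge hle)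
    rwa [min_comm, add_comm y x] at this
  rw [min_eq_left hle]
  obtain ⟨c, u, w, hu, hw, hc, h, e⟩ := m18v_ordF_exists (hgen := hgen) hO hx
  have hci : (algebraMap m18v_K (m18v_F N) c⁻¹) ≠ 0 := by
    rw [Ne, map_eq_zero_iff _ (algebraMap m18v_K (m18v_F N)).injective]
    exact inv_ne_zero hc
  have hordci : m18v_ordF O hgen (algebraMap m18v_K (m18v_F N) c⁻¹) = - O.ord c := by
    rw [m18v_ordF_const hO (inv_ne_zero hc), O.ord_inv hc]
  have hIx : m18v_Int A N (algebraMap m18v_K (m18v_F N) c⁻¹ * x) := by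
    rw [m18v_Int_iff (hgen := hgen) hO (mul_ne_zero hci hx), m18v_ordF_mul hO hci hx, hordci, e]
    linarith
  have hIy : m18v_Int A N (algebraMap m18v_K (m18v_F N) c⁻¹ * y) := by
    rw [m18v_Int_iff (hgen := hgen) hO (mul_ne_zero hci hy), m18v_ordF_mul hO hci hy, hordci]
    linarith
  have hI := m18v_Int_add hIx hIy
  rw [← mul_add, m18v_Int_iff (hgen := hgen) hO (mul_ne_zero hci hxy),
    m18v_ordF_mul hO hci hxy, hordci] at hI
  linarith

variable (O) (hgen) in
/-- **the Gauss valuation on `F`** as an `OrdVal`. -/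
def m18v_OF (hO : m18v_OA A O) : OrdVal (m18v_F N) where
  ord := m18v_ordF O hgen
  map_mul' _ _ hx hy := m18v_ordF_mul hO hx hy
  map_add' _ _ hx hy hxy := m18v_ordF_add hO hx hy hxy

@[simp]
theorem m18v_OF_ord (hO : m18v_OA A O) (x : m18v_F N) :
    (m18v_OF O hgen hO).ord x = m18v_ordF O hgen x := rfl

end

end Fermat.Agent.M18

end
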