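import Fermat.Agent.M18.VDecomp

/-!
# M18 / (V), part 3: integral elements of `F` and the reduction map `red : O_V → F~`.

`x ∈ F` is *integral* if `x · w = X` for an integral `q`-series `X` and a good integral
`q`-series `w`; then `red x := X~ / w~`.
-/

set_option autoImplicit false
set_option synthInstance.maxHeartbeats 400000

noncomputable section

open HahnSeries IntermediateField AlgebraicCurve ModularCurve

namespace Fermat.Agent.M18

variable (A : ValuationSubring m18v_K) (N : ℕ)

/-- `x` is integral for the Gauss valuation. -/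
def m18v_Int (x : m18v_F N) : Prop :=
  ∃ X w : LaurentSeries A, m18v_G A N w ∧
    (x : LaurentSeries m18v_K) * m18v_incl A w = m18v_incl A X

open Classical in
/-- the reduction of an integral element, as a `q`-series over the residue field
(`0` on non-integral elements). -/
def m18v_redL (x : m18v_F N) : LaurentSeries (m18v_k A) :=
  if h : m18v_Int A N x then m18v_redq A h.choose / m18v_redq A h.choose_spec.choose else 0

variable {A N}

/-- **(RED)** the characterisation of the reduction. -/
theorem m18v_redL_mul {x : m18v_F N} {X w : LaurentSeries A} (hw : m18v_G A N w)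
    (h : (x : LaurentSeries m18v_K) * m18v_incl A w = m18v_incl A X) :
    m18v_redL A N x * m18v_redq A w = m18v_redq A X := by
  have hI : m18v_Int A N x := ⟨X, w, hw, h⟩
  rw [m18v_redL, dif_pos hI]
  obtain ⟨hw', h'⟩ := hI.choose_spec.choose_spec
  set X' := hI.choose
  set w' := hI.choose_spec.choose
  have hXw : X' * w = X * w' := by
    apply m18v_incl_injective A
    rw [map_mul, map_mul, ← h', ← h]
    ring
  have hred := congrArg (m18v_redq A) hXw
  rw [map_mul, map_mul] at hred
  rw [div_mul_eq_mul_div, hred, mul_div_assoc, div_self hw'.2.2, mul_one]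

theorem m18v_redL_eq_div {x : m18v_F N} {X w : LaurentSeries A} (hw : m18v_G A N w)
    (h : (x : LaurentSeries m18v_K) * m18v_incl A w = m18v_incl A X) :
    m18v_redL A N x = m18v_redq A X / m18v_redq A w := by
  rw [eq_div_iff hw.2.2]
  exact m18v_redL_mul hw h

theorem m18v_redL_of_not {x : m18v_F N} (h : ¬ m18v_Int A N x) : m18v_redL A N x = 0 := by
  rw [m18v_redL, dif_neg h]

/-! ### the integral elements form a ring -/

theorem m18v_Int_zero : m18v_Int A N 0 :=
  ⟨0, 1, m18v_G_one, by simp⟩

theorem m18v_Int_one : m18v_Int A N 1 :=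
  ⟨1, 1, m18v_G_one, by simp⟩

theorem m18v_Int_add {x y : m18v_F N} (hx : m18v_Int A N x) (hy : m18v_Int A N y) :
    m18v_Int A N (x + y) := by
  obtain ⟨X, w, hw, h⟩ := hx
  obtain ⟨Y, w', hw', h'⟩ := hy
  refine ⟨X * w' + Y * w, w * w', m18v_G_mul hw hw', ?_⟩
  show ((x : LaurentSeries m18v_K) + y) * m18v_incl A (w * w') = _
  rw [map_add, map_mul, map_mul, map_mul, ← h, ← h']
  ring

theorem m18v_Int_mul {x y : m18v_F N} (hx : m18v_Int A N x) (hy : m18v_Int A N y) :
    m18v_Int A N (x * y) := by
  obtain ⟨X, w, hw, h⟩ := hx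
  obtain ⟨Y, w', hw', h'⟩ := hy
  refine ⟨X * Y, w * w', m18v_G_mul hw hw', ?_⟩
  show ((x : LaurentSeries m18v_K) * y) * m18v_incl A (w * w') = _
  rw [map_mul, map_mul, ← h, ← h']
  ring

theorem m18v_Int_neg {x : m18v_F N} (hx : m18v_Int A N x) : m18v_Int A N (-x) := by
  obtain ⟨X, w, hw, h⟩ := hx
  refine ⟨-X, w, hw, ?_⟩
  show (-(x : LaurentSeries m18v_K)) * m18v_incl A w = _
  rw [map_neg, ← h]
  ring

theorem m18v_Int_sub {x y : m18v_F N} (hx : m18v_Int A N x) (hy : m18v_Int A N y) :
    m18v_Int A N (x - y) := by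
  rw [sub_eq_add_neg]
  exact m18v_Int_add hx (m18v_Int_neg hy)

theorem m18v_coe_algebraMap (c : m18v_K) :
    ((algebraMap m18v_K (m18v_F N) c : m18v_F N) : LaurentSeries m18v_K) =
      HahnSeries.single 0 c := by
  rw [← ModularCurve.algebraMap_laurentSeries_eq_single]
  rfl

theorem m18v_Int_const (a : A) : m18v_Int A N (algebraMap m18v_K (m18v_F N) (a : m18v_K)) :=
  ⟨HahnSeries.single 0 a, 1, m18v_G_one, by
    rw [map_one, mul_one, m18v_coe_algebraMap, m18v_incl_single]⟩

/-- good integral series give integral elements. -/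
theorem m18v_Int_GF {y : LaurentSeries A} (hy : m18v_G A N y) : m18v_Int A N (m18v_GF hy) :=
  ⟨y, 1, m18v_G_one, by rw [map_one, mul_one]; rfl⟩

/-- more generally every integral `q`-series lying in `F` is integral. -/
theorem m18v_Int_of_incl {x : m18v_F N} {X : LaurentSeries A}
    (h : (x : LaurentSeries m18v_K) = m18v_incl A X) : m18v_Int A N x :=
  ⟨X, 1, m18v_G_one, by rw [map_one, mul_one, h]⟩

/-! ### the reduction is a ring homomorphism on integral elements -/

theorem m18v_redL_zero : m18v_redL A N 0 = 0 := by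
  have h := m18v_redL_mul (A := A) (N := N) (x := 0) (X := 0) (w := 1) m18v_G_one (by simp)
  simpa using h

theorem m18v_redL_one : m18v_redL A N 1 = 1 := by
  have h := m18v_redL_mul (A := A) (N := N) (x := 1) (X := 1) (w := 1) m18v_G_one (by simp)
  simpa using h

theorem m18v_redL_add {x y : m18v_F N} (hx : m18v_Int A N x) (hy : m18v_Int A N y) :
    m18v_redL A N (x + y) = m18v_redL A N x + m18v_redL A N y := by
  obtain ⟨X, w, hw, h⟩ := hx
  obtain ⟨Y, w', hw', h'⟩ := hy
  have hsum : ((x + y : m18v_F N) : LaurentSeries m18v_K) * m18v_incl A (w * w') =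
      m18v_incl A (X * w' + Y * w) := by
    show ((x : LaurentSeries m18v_K) + y) * m18v_incl A (w * w') = _
    rw [map_add, map_mul, map_mul, map_mul, ← h, ← h']
    ring
  rw [m18v_redL_eq_div (m18v_G_mul hw hw') hsum, m18v_redL_eq_div hw h,
    m18v_redL_eq_div hw' h', map_add, map_mul, map_mul, map_mul]
  have h1 := hw.2.2
  have h2 := hw'.2.2
  field_simp

theorem m18v_redL_mul' {x y : m18v_F N} (hx : m18v_Int A N x) (hy : m18v_Int A N y) :
    m18v_redL A N (x * y) = m18v_redL A N x * m18v_redL A N y := by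
  obtain ⟨X, w, hw, h⟩ := hx
  obtain ⟨Y, w', hw', h'⟩ := hy
  have hprod : ((x * y : m18v_F N) : LaurentSeries m18v_K) * m18v_incl A (w * w') =
      m18v_incl A (X * Y) := by
    show ((x : LaurentSeries m18v_K) * y) * m18v_incl A (w * w') = _
    rw [map_mul, map_mul, ← h, ← h']
    ring
  rw [m18v_redL_eq_div (m18v_G_mul hw hw') hprod, m18v_redL_eq_div hw h,
    m18v_redL_eq_div hw' h', map_mul, map_mul]
  have h1 := hw.2.2
  have h2 := hw'.2.2
  field_simp

theorem m18v_redL_neg {x : m18v_F N} (hx : m18v_Int A N x) :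
    m18v_redL A N (-x) = - m18v_redL A N x := by
  have h := m18v_redL_add (m18v_Int_neg hx) hx
  rw [neg_add_cancel, m18v_redL_zero] at h
  exact eq_neg_of_add_eq_zero_left h.symm

theorem m18v_redL_sub {x y : m18v_F N} (hx : m18v_Int A N x) (hy : m18v_Int A N y) :
    m18v_redL A N (x - y) = m18v_redL A N x - m18v_redL A N y := by
  rw [sub_eq_add_neg, m18v_redL_add hx (m18v_Int_neg hy), m18v_redL_neg hy, sub_eq_add_neg]

theorem m18v_redL_const (a : A) :
    m18v_redL A N (algebraMap m18v_K (m18v_F N) (a : m18v_K)) =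
      HahnSeries.single 0 (IsLocalRing.residue A a) := by
  have h := m18v_redL_mul (A := A) (N := N) (x := algebraMap m18v_K (m18v_F N) (a : m18v_K))
    (X := HahnSeries.single 0 a) (w := 1) m18v_G_one (by
      rw [map_one, mul_one, m18v_coe_algebraMap, m18v_incl_single])
  rw [map_one, mul_one, m18v_redq_single] at h
  exact h

/-- the reduction of an integral `q`-series lying in `F` is its coefficientwise reduction. -/
theorem m18v_redL_of_incl {x : m18v_F N} {X : LaurentSeries A}
    (h : (x : LaurentSeries m18v_K) = m18v_incl A X) : m18v_redL A N x = m18v_redq A X := by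
  have h' := m18v_redL_mul (A := A) (N := N) (x := x) (X := X) (w := 1) m18v_G_one (by
      rw [map_one, mul_one, h])
  rwa [map_one, mul_one] at h'

theorem m18v_redL_GF {y : LaurentSeries A} (hy : m18v_G A N y) :
    m18v_redL A N (m18v_GF hy) = m18v_redq A y :=
  m18v_redL_of_incl rfl

end Fermat.Agent.M18

end
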